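import Fermat.Agent.S37.GaussRed41

/-!
# S37, row GA (helper41), part 4: `(I1)` for the `j`-chart in basis form

`N` a level, `A` a valuation subring of `ℚ̄` with residue field `k`, `(N : k) ≠ 0`,
`F = F_{N,ℚ̄}`, `F_k = F_{N,k}`.

* `ga41_finrank_fullC` : `[F_{N,K} : K(j)] = ψ(N)` for every field `K` with `(N : K) ≠ 0`
  (`K(j)` the intermediate field of `F_{N,K}` generated by `j`).
* `ga41_finrank_bar`, `ga41_finrank_res` : the two instances `K = ℚ̄` and `K = k`.
* `ga41_basis` : a family `b : Fin ψ(N) → ga41_O N A` of elements of the Gauss ring whose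
  reductions form a `k(j̄)`-basis of `F_k` — with `ga41_finrank_bar` these are the hypotheses
  `(b, hcard, bκ, hbκ)` of `nm62_norm_red` for the chart `j`.
-/

set_option autoImplicit false
set_option synthInstance.maxHeartbeats 400000

open ModularCurve IntermediateField

namespace Fermat.Agent.S37

open Fermat.Agent.S18 Fermat.Agent.S28

section Transfer

variable {K E : Type*} [Field K] [Field E] [Algebra K E] (Fs : IntermediateField K E)

/-- An element of `K(j) ⊆ Fs` lies in `K(j) ⊆ E`. -/
theorem ga41_coe_mem_adjoin (j x : ↥Fs) (hx : x ∈ IntermediateField.adjoin K {j}) :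
    (x : E) ∈ IntermediateField.adjoin K {(j : E)} := by
  have h := IntermediateField.adjoin_map K {j} Fs.val
  rw [Set.image_singleton] at h
  have h2 : Fs.val x ∈ IntermediateField.map Fs.val (IntermediateField.adjoin K {j}) :=
    ⟨x, hx, rfl⟩
  rw [h] at h2
  exact h2

/-- An element of `K(j) ⊆ E` comes from `K(j) ⊆ Fs`. -/
theorem ga41_exists_of_mem_adjoin (j : ↥Fs) (y : E)
    (hy : y ∈ IntermediateField.adjoin K {(j : E)}) :
    ∃ x : ↥Fs, x ∈ IntermediateField.adjoin K {j} ∧ (x : E) = y := by
  have h := IntermediateField.adjoin_map K {j} Fs.val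
  rw [Set.image_singleton] at h
  have h2 : y ∈ IntermediateField.map Fs.val (IntermediateField.adjoin K {j}) := by
    rw [h]; exact hy
  obtain ⟨x, hx, rfl⟩ := h2
  exact ⟨x, hx, rfl⟩

/-- Independence over `K(j) ⊆ E` gives independence over `K(j) ⊆ Fs`. -/
theorem ga41_li_down {ι : Type*} [Fintype ι] (j : ↥Fs) (c : ι → ↥Fs)
    (h : LinearIndependent (IntermediateField.adjoin K {(j : E)}) (fun i => (c i : E))) :
    LinearIndependent (IntermediateField.adjoin K {j}) c := by
  rw [Fintype.linearIndependent_iff] at h ⊢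
  intro g hg i
  have h0 : ∑ i, (⟨((g i : ↥Fs) : E), ga41_coe_mem_adjoin Fs j _ (g i).2⟩ :
      IntermediateField.adjoin K {(j : E)}) • (c i : E) = 0 := by
    have h1 : ((∑ i, g i • c i : ↥Fs) : E) = 0 := by rw [hg]; rfl
    rw [IntermediateField.coe_sum] at h1
    rw [← h1]
    exact Finset.sum_congr rfl fun i _ => rfl
  have h1 := h _ h0 i
  have h2 : ((g i : ↥Fs) : E) = 0 := congrArg Subtype.val h1
  exact Subtype.ext (Subtype.ext h2)

/-- Independence over `K(j) ⊆ Fs` gives independence over `K(j) ⊆ E`. -/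
theorem ga41_li_up {ι : Type*} [Fintype ι] (j : ↥Fs) (c : ι → ↥Fs)
    (h : LinearIndependent (IntermediateField.adjoin K {j}) c) :
    LinearIndependent (IntermediateField.adjoin K {(j : E)}) (fun i => (c i : E)) := by
  rw [Fintype.linearIndependent_iff] at h ⊢
  intro g hg i
  choose g' hg' hgg' using fun i => ga41_exists_of_mem_adjoin Fs j (g i : E) (g i).2
  have h0 : ∑ i, (⟨g' i, hg' i⟩ : IntermediateField.adjoin K {j}) • c i = 0 := by
    apply Subtype.ext
    rw [IntermediateField.coe_sum]
    show _ = (0 : E)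
    rw [← hg]
    exact Finset.sum_congr rfl fun i _ => by
      show (g' i : E) * (c i : E) = (g i : E) * (c i : E)
      rw [hgg' i]
  have h1 := h _ h0 i
  have h2 : (g' i : E) = 0 := congrArg (fun z : IntermediateField.adjoin K {j} => ((z : ↥Fs) : E)) h1
  apply Subtype.ext
  rw [← hgg' i, h2]
  rfl

end Transfer

section Degree

variable (K : Type) [Field K] (N : ℕ) [NeZero N]

/-- `[Fs : K(j)] ≤ ψ(N)` for `Fs = F_{N,K}` (any field `K`). -/
theorem ga41_rank_le (Fs : IntermediateField K (LaurentSeries K))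
    (hFs : Fs = modularFunctionFieldFullC K N) (j : ↥Fs)
    (hj : (j : LaurentSeries K) = jqModC K) :
    Module.rank (IntermediateField.adjoin K {j}) ↥Fs ≤ (dedekindPsi N : Cardinal) := by
  classical
  subst hFs
  obtain ⟨jv, hjv⟩ := j
  simp only at hj
  subst hj
  refine rank_le fun s hs => ?_
  have hs' : LinearIndependent
      (IntermediateField.adjoin K
        {(⟨jqModC K, hjv⟩ : ↥(modularFunctionFieldFullC K N))})
      (fun i : Fin s.card => ((s.equivFin.symm i : s) :
        ↥(modularFunctionFieldFullC K N))) :=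
    hs.comp _ s.equivFin.symm.injective
  have h2 := ga41_li_up (modularFunctionFieldFullC K N) _ _ hs'
  exact vs_card_le N K s.card _ (fun i => Subtype.property _) h2

/-- `[Fs : K(j)] = ψ(N)` for `Fs = F_{N,K}`, `(N : K) ≠ 0`. -/
theorem ga41_finrank_eq (hN : (N : K) ≠ 0) (Fs : IntermediateField K (LaurentSeries K))
    (hFs : Fs = modularFunctionFieldFullC K N) (j : ↥Fs)
    (hj : (j : LaurentSeries K) = jqModC K) :
    FiniteDimensional (IntermediateField.adjoin K {j}) ↥Fs ∧
      Module.finrank (IntermediateField.adjoin K {j}) ↥Fs = dedekindPsi N := by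
  classical
  have hle := ga41_rank_le K N Fs hFs j hj
  have hfin : FiniteDimensional (IntermediateField.adjoin K {j}) ↥Fs :=
    Module.rank_lt_aleph0_iff.mp (lt_of_le_of_lt hle Cardinal.natCast_lt_aleph0)
  refine ⟨hfin, le_antisymm (Module.finrank_le_of_rank_le hle) ?_⟩
  subst hFs
  obtain ⟨jv, hjv⟩ := j
  simp only at hj
  subst hj
  obtain ⟨b, hb⟩ := vs_exists_independent K N hN
  have hb' : LinearIndependent
      (IntermediateField.adjoin K {(⟨jqModC K, hjv⟩ : ↥(modularFunctionFieldFullC K N))})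
      (fun i => rm90_bF K N (b i)) := by
    refine ga41_li_down (modularFunctionFieldFullC K N) _ _ ?_
    simp only [rm90_coe_bF]
    exact hb
  have h3 := hb'.fintype_card_le_finrank
  rwa [Fintype.card_fin] at h3

end Degree

section Concrete

variable (N : ℕ) [NeZero N]

/-- `j` as an element of `F_{N,K}`. -/
noncomputable def ga41_jk (K : Type) [Field K] : ↥(modularFunctionFieldFullC K N) :=
  ⟨jqModC K, jqModC_mem_full K N⟩

/-- `j` as an element of `F_N = modularFunctionFieldBar N`. -/
noncomputable def ga41_jF : ↥(modularFunctionFieldBar N) :=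
  ⟨jqModC (AlgebraicClosure ℚ), by rw [ga41_bar_eq]; exact jqModC_mem_full _ N⟩

omit [NeZero N] in
theorem ga41_coe_jk (K : Type) [Field K] : ((ga41_jk N K : ↥(modularFunctionFieldFullC K N)) :
    LaurentSeries K) = jqModC K := rfl

omit [NeZero N] in
theorem ga41_coe_jF : ((ga41_jF N : ↥(modularFunctionFieldBar N)) :
    LaurentSeries (AlgebraicClosure ℚ)) = jqModC (AlgebraicClosure ℚ) := rfl

omit [NeZero N] in
theorem ga41_transcendental_jk (K : Type) [Field K] : Transcendental K (ga41_jk N K) :=
  fun h => rm90_transcendental K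
    (h.algebraMap (A := LaurentSeries K) : IsAlgebraic K
      (algebraMap ↥(modularFunctionFieldFullC K N) (LaurentSeries K) (ga41_jk N K)))

omit [NeZero N] in
theorem ga41_transcendental_jF : Transcendental (AlgebraicClosure ℚ) (ga41_jF N) :=
  fun h => rm90_transcendental (AlgebraicClosure ℚ)
    (h.algebraMap (A := LaurentSeries (AlgebraicClosure ℚ)) : IsAlgebraic (AlgebraicClosure ℚ)
      (algebraMap ↥(modularFunctionFieldBar N) (LaurentSeries (AlgebraicClosure ℚ)) (ga41_jF N)))

/-- **`[F_N : ℚ̄(j)] = ψ(N)`.** -/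
theorem ga41_finrank_bar :
    FiniteDimensional (IntermediateField.adjoin (AlgebraicClosure ℚ) {ga41_jF N})
        ↥(modularFunctionFieldBar N) ∧
      Module.finrank (IntermediateField.adjoin (AlgebraicClosure ℚ) {ga41_jF N})
        ↥(modularFunctionFieldBar N) = dedekindPsi N :=
  ga41_finrank_eq (AlgebraicClosure ℚ) N (Nat.cast_ne_zero.mpr (NeZero.ne N)) _ (ga41_bar_eq N) _
    rfl

/-- **`[F_{N,K} : K(j)] = ψ(N)`** for every field `K` with `(N : K) ≠ 0`. -/
theorem ga41_finrank_res (K : Type) [Field K] (hN : (N : K) ≠ 0) :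
    FiniteDimensional (IntermediateField.adjoin K {ga41_jk N K})
        ↥(modularFunctionFieldFullC K N) ∧
      Module.finrank (IntermediateField.adjoin K {ga41_jk N K})
        ↥(modularFunctionFieldFullC K N) = dedekindPsi N :=
  ga41_finrank_eq K N hN _ rfl _ rfl

variable (A : ValuationSubring (AlgebraicClosure ℚ))

omit [NeZero N] in
theorem ga41_jF_mem : ga41_jF N ∈ ga41_O N A :=
  ga41_mem_O_of_integral (jqModC A) (by rw [coeffMap_jqModC]; rfl)

theorem ga41_red_jF (hN : (N : IsLocalRing.ResidueField A) ≠ 0) :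
    ga41_red N A hN ⟨ga41_jF N, ga41_jF_mem N A⟩ = ga41_jk N (IsLocalRing.ResidueField A) := by
  apply Subtype.ext
  rw [ga41_red_coe, ga41_redHom_integral _ (jqModC A) (by rw [coeffMap_jqModC]; rfl),
    coeffMap_jqModC]
  rfl

/-- The element of the Gauss ring given by an integral polynomial in the `j(q^d)`, `d ∣ N`. -/
noncomputable def ga41_bO (P : MvPolynomial N.divisors ℤ) : ga41_O N A :=
  ⟨⟨MvPolynomial.eval₂ (Int.castRingHom (LaurentSeries (AlgebraicClosure ℚ)))
      (fun d : N.divisors => JdC (AlgebraicClosure ℚ) d.1) P, by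
      rw [ga41_bar_eq, ← rm90_coe_bF]
      exact (rm90_bF (AlgebraicClosure ℚ) N P).2⟩,
    ga41_mem_O_of_integral
      (MvPolynomial.eval₂ (Int.castRingHom (LaurentSeries A)) (fun d : N.divisors => JdC A d.1) P)
      (by rw [rm90_coeffMap_eval])⟩

theorem ga41_coe_bO (P : MvPolynomial N.divisors ℤ) :
    (((ga41_bO N A P : ga41_O N A) : ↥(modularFunctionFieldBar N)) :
      LaurentSeries (AlgebraicClosure ℚ)) =
      MvPolynomial.eval₂ (Int.castRingHom (LaurentSeries (AlgebraicClosure ℚ)))
        (fun d : N.divisors => JdC (AlgebraicClosure ℚ) d.1) P := rfl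

theorem ga41_red_bO (hN : (N : IsLocalRing.ResidueField A) ≠ 0) (P : MvPolynomial N.divisors ℤ) :
    ga41_red N A hN (ga41_bO N A P) = rm90_bF (IsLocalRing.ResidueField A) N P := by
  apply Subtype.ext
  rw [ga41_red_coe, ga41_redHom_integral _
    (MvPolynomial.eval₂ (Int.castRingHom (LaurentSeries A)) (fun d : N.divisors => JdC A d.1) P)
    (by rw [rm90_coeffMap_eval]; rfl), rm90_coeffMap_eval, rm90_coe_bF]

/-- **`(I1)` for the chart `j`, basis form**: `ψ(N)` elements of the Gauss ring whose reductions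
form a `k(j̄)`-basis of `F_k`. -/
theorem ga41_basis (hN : (N : IsLocalRing.ResidueField A) ≠ 0) :
    ∃ (b : Fin (dedekindPsi N) → ga41_O N A)
      (bκ : Module.Basis (Fin (dedekindPsi N))
        (IntermediateField.adjoin (IsLocalRing.ResidueField A)
          {ga41_jk N (IsLocalRing.ResidueField A)})
        ↥(modularFunctionFieldFullC (IsLocalRing.ResidueField A) N)),
      ∀ i, bκ i = ga41_red N A hN (b i) := by
  classical
  obtain ⟨P, hP⟩ := vs_exists_independent (IsLocalRing.ResidueField A) N hN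
  have hli : LinearIndependent
      (IntermediateField.adjoin (IsLocalRing.ResidueField A)
        {ga41_jk N (IsLocalRing.ResidueField A)})
      (fun i => ga41_red N A hN (ga41_bO N A (P i))) := by
    refine ga41_li_down (modularFunctionFieldFullC (IsLocalRing.ResidueField A) N) _ _ ?_
    simp only [ga41_red_bO, rm90_coe_bF]
    exact hP
  obtain ⟨hfin, hrank⟩ := ga41_finrank_res N (IsLocalRing.ResidueField A) hN
  have hpos : 0 < dedekindPsi N := by
    rw [← hrank]
    exact Module.finrank_pos
  have : Nonempty (Fin (dedekindPsi N)) := ⟨⟨0, hpos⟩⟩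
  refine ⟨fun i => ga41_bO N A (P i),
    basisOfLinearIndependentOfCardEqFinrank hli (by rw [Fintype.card_fin, hrank]), fun i => ?_⟩
  rw [coe_basisOfLinearIndependentOfCardEqFinrank]

end Concrete

/-! ### The same data in `ValuationSubring` form

`(ga41_V N A hN, ga41_redV N A hN)` with the hypotheses of `nm62_norm_red` / `cc62_main`
(`hAO`, `hcompat`, `hOA`, `hunit`, `hsurj`) in their literal shape. -/

section VForm

variable (N : ℕ) [NeZero N] (A : ValuationSubring (AlgebraicClosure ℚ))
  (hN : (N : IsLocalRing.ResidueField A) ≠ 0)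

/-- The reduction map on the Gauss valuation ring (`= ga41_red`, with domain `↥(ga41_V N A hN)`). -/
noncomputable def ga41_redV :
    ↥(ga41_V N A hN) →+* ↥(modularFunctionFieldFullC (IsLocalRing.ResidueField A) N) :=
  ga41_red N A hN

theorem ga41_redV_apply (x : ↥(modularFunctionFieldBar N)) (hx : x ∈ ga41_V N A hN) :
    ga41_redV N A hN ⟨x, hx⟩ = ga41_red N A hN ⟨x, hx⟩ := rfl

theorem ga41_redV_coe (x : ↥(ga41_V N A hN)) :
    ((ga41_redV N A hN x : ↥(modularFunctionFieldFullC (IsLocalRing.ResidueField A) N)) :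
      LaurentSeries (IsLocalRing.ResidueField A)) =
      ga41_redHom (⟨(x : ↥(modularFunctionFieldBar N)), x.2⟩ : ga41_O N A) := rfl

theorem ga41_redV_surjective : Function.Surjective (ga41_redV N A hN) :=
  ga41_red_surjective N A hN

/-- `hAO`: constants of `A` lie in the Gauss valuation ring. -/
theorem ga41_hAO (x : AlgebraicClosure ℚ) (hx : x ∈ A) :
    algebraMap (AlgebraicClosure ℚ) ↥(modularFunctionFieldBar N) x ∈ ga41_V N A hN :=
  ga41_algebraMap_mem N A ⟨x, hx⟩

/-- `hcompat`: the reduction of a constant of `A` is its residue class. -/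
theorem ga41_hcompat (x : AlgebraicClosure ℚ) (hx : x ∈ A) :
    ga41_redV N A hN ⟨algebraMap (AlgebraicClosure ℚ) ↥(modularFunctionFieldBar N) x,
        ga41_hAO N A hN x hx⟩ =
      algebraMap (IsLocalRing.ResidueField A)
        ↥(modularFunctionFieldFullC (IsLocalRing.ResidueField A) N)
        (IsLocalRing.residue A ⟨x, hx⟩) := by
  apply Subtype.ext
  exact ga41_redHom_algebraMap N A ⟨x, hx⟩

/-- `hunit`: an element with nonzero reduction is a unit of the Gauss valuation ring. -/
theorem ga41_hunit (x : ↥(ga41_V N A hN)) (hx : ga41_redV N A hN x ≠ 0) :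
    (x : ↥(modularFunctionFieldBar N))⁻¹ ∈ ga41_V N A hN := by
  have h1 : ga41_redHom (⟨(x : ↥(modularFunctionFieldBar N)), x.2⟩ : ga41_O N A) ≠ 0 := by
    intro h0
    exact hx (Subtype.ext h0)
  obtain ⟨y, hy⟩ := ((ga41_isUnit_iff N A (⟨(x : ↥(modularFunctionFieldBar N)), x.2⟩ :
    ga41_O N A)).mpr h1).exists_right_inv
  have h2 : (x : ↥(modularFunctionFieldBar N)) * (y : ↥(modularFunctionFieldBar N)) = 1 :=
    congrArg Subtype.val hy
  have h3 : (x : ↥(modularFunctionFieldBar N))⁻¹ = (y : ↥(modularFunctionFieldBar N)) :=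
    inv_eq_of_mul_eq_one_right h2
  rw [h3]
  exact y.2

/-- The reduction map kills exactly the non-units. -/
theorem ga41_redV_eq_zero_iff (x : ↥(ga41_V N A hN)) :
    ga41_redV N A hN x = 0 ↔ ¬ IsUnit x := by
  constructor
  · intro h0 hu
    obtain ⟨y, hy⟩ := hu.exists_right_inv
    have h1 := congrArg (ga41_redV N A hN) hy
    rw [map_mul, h0, zero_mul, map_one] at h1
    exact zero_ne_one h1
  · intro hu
    by_contra hne
    apply hu
    exact IsUnit.of_mul_eq_one (⟨_, ga41_hunit N A hN x hne⟩ : ↥(ga41_V N A hN))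
      (Subtype.ext (mul_inv_cancel₀ (fun h0 : (x : ↥(modularFunctionFieldBar N)) = 0 =>
        hne (by
          have : x = 0 := Subtype.ext h0
          rw [this, map_zero]))))

/-- The reduction map kills exactly the non-units (`ValuationSubring.nonunits` form). -/
theorem ga41_redV_eq_zero_iff_mem_nonunits (x : ↥(ga41_V N A hN)) :
    ga41_redV N A hN x = 0 ↔ (x : ↥(modularFunctionFieldBar N)) ∈ (ga41_V N A hN).nonunits := by
  rw [ga41_redV_eq_zero_iff]
  constructor
  · intro hu
    rw [ValuationSubring.mem_nonunits_iff_exists_mem_maximalIdeal]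
    exact ⟨x.2, hu⟩
  · intro hx
    rw [ValuationSubring.mem_nonunits_iff_exists_mem_maximalIdeal] at hx
    obtain ⟨_, hx⟩ := hx
    exact hx

/-- `hm` of `nm62_norm_red` for the Gauss valuation ring. -/
theorem ga41_hm (x : ↥(ga41_V N A hN))
    (hx : (x : ↥(modularFunctionFieldBar N))⁻¹ ∉ ga41_V N A hN) : ga41_redV N A hN x = 0 := by
  by_contra hne
  exact hx (ga41_hunit N A hN x hne)

/-- `hOA`: a constant in the Gauss valuation ring lies in `A`. -/
theorem ga41_hOA (x : AlgebraicClosure ℚ)
    (hx : algebraMap (AlgebraicClosure ℚ) ↥(modularFunctionFieldBar N) x ∈ ga41_V N A hN) :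
    x ∈ A := by
  obtain ⟨s, t, hs, hst⟩ := ga41_mem_O.mp hx
  obtain ⟨n, hn⟩ : ∃ n, IsLocalRing.residue A (s.coeff n) ≠ 0 := by
    by_contra hall
    push Not at hall
    apply hs
    ext n
    rw [coeffMap_coeff, hall n]
    rfl
  have hu : IsUnit (s.coeff n) := by
    by_contra hnu
    exact hn ((IsLocalRing.residue_eq_zero_iff _).mpr
      ((IsLocalRing.mem_maximalIdeal _).mpr hnu))
  have h1 : ((algebraMap (AlgebraicClosure ℚ) ↥(modularFunctionFieldBar N) x :
      ↥(modularFunctionFieldBar N)) : LaurentSeries (AlgebraicClosure ℚ)) =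
      HahnSeries.single 0 x := algebraMap_laurentSeries_eq_single _ _
  rw [h1] at hst
  have h2 := congrArg (fun z => z.coeff n) hst
  simp only [coeffMap_coeff] at h2
  rw [mul_comm, HahnSeries.coeff_single_zero_mul, coeffMap_coeff] at h2
  obtain ⟨u, hu'⟩ := hu
  have h3 : x = (t.coeff n : AlgebraicClosure ℚ) * ((u⁻¹ : Aˣ) : A) := by
    have h4 : ((s.coeff n : A) : AlgebraicClosure ℚ) * (((u⁻¹ : Aˣ) : A) : AlgebraicClosure ℚ)
        = 1 := by
      rw [← hu']
      exact_mod_cast congrArg (Subtype.val) (Units.mul_inv u)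
    calc x = x * (((s.coeff n : A) : AlgebraicClosure ℚ) *
          (((u⁻¹ : Aˣ) : A) : AlgebraicClosure ℚ)) := by rw [h4, mul_one]
      _ = _ := by
        rw [← mul_assoc]
        congr 1
  rw [h3]
  exact A.mul_mem _ _ (t.coeff n).2 ((u⁻¹ : Aˣ) : A).2

theorem ga41_hsurj : Function.Surjective (IsLocalRing.residue A) :=
  IsLocalRing.residue_surjective

/-- `j` as an element of the Gauss valuation ring. -/
noncomputable def ga41_jV : ↥(ga41_V N A hN) := ⟨ga41_jF N, ga41_jF_mem N A⟩

theorem ga41_redV_jV : ga41_redV N A hN (ga41_jV N A hN) = ga41_jk N (IsLocalRing.ResidueField A) :=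
  ga41_red_jF N A hN

theorem ga41_transcendental_redV_jV :
    Transcendental (IsLocalRing.ResidueField A) (ga41_redV N A hN (ga41_jV N A hN)) := by
  rw [ga41_redV_jV]
  exact ga41_transcendental_jk N _

/-- **`(I1)` for the chart `j` in the literal shape of `nm62_norm_red` / `cc62_main`**:
`b : Fin ψ(N) → ga41_V`, `#ι = [F : ℚ̄(j)]`, and a `k(red j)`-basis `bκ` of `F_k` with
`bκ i = red (b i)`. -/
theorem ga41_basisV :
    ∃ (b : Fin (dedekindPsi N) → ↥(ga41_V N A hN))
      (bκ : Module.Basis (Fin (dedekindPsi N))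
        (IntermediateField.adjoin (IsLocalRing.ResidueField A)
          {ga41_redV N A hN (ga41_jV N A hN)})
        ↥(modularFunctionFieldFullC (IsLocalRing.ResidueField A) N)),
      Fintype.card (Fin (dedekindPsi N)) =
          Module.finrank (IntermediateField.adjoin (AlgebraicClosure ℚ)
            {((ga41_jV N A hN : ↥(ga41_V N A hN)) : ↥(modularFunctionFieldBar N))})
            ↥(modularFunctionFieldBar N) ∧
        ∀ i, bκ i = ga41_redV N A hN (b i) := by
  rw [ga41_redV_jV]
  obtain ⟨b, bκ, hb⟩ := ga41_basis N A hN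
  refine ⟨b, bκ, ?_, hb⟩
  rw [Fintype.card_fin]
  exact (ga41_finrank_bar N).2.symm

/-- The reduction map kills exactly the non-units (`nonunits ↥V` form). -/
theorem ga41_redV_eq_zero_iff_mem (x : ↥(ga41_V N A hN)) :
    ga41_redV N A hN x = 0 ↔ x ∈ nonunits ↥(ga41_V N A hN) :=
  ga41_redV_eq_zero_iff N A hN x

/-- Constants of `A` lie in the Gauss valuation ring (`∀ a : A` form). -/
theorem ga41_hA (a : A) :
    algebraMap (AlgebraicClosure ℚ) ↥(modularFunctionFieldBar N) (a : AlgebraicClosure ℚ) ∈
      ga41_V N A hN :=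
  ga41_algebraMap_mem N A a

/-- The reduction of a constant of `A` is its residue class (`∀ a : A` form). -/
theorem ga41_hred (a : A) :
    ga41_redV N A hN ⟨algebraMap (AlgebraicClosure ℚ) ↥(modularFunctionFieldBar N)
        (a : AlgebraicClosure ℚ), ga41_hA N A hN a⟩ =
      algebraMap (IsLocalRing.ResidueField A)
        ↥(modularFunctionFieldFullC (IsLocalRing.ResidueField A) N) (IsLocalRing.residue A a) :=
  ga41_hcompat N A hN a a.2

end VForm

end Fermat.Agent.S37
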