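import Fermat.Agent.S24.PlacesBasic
import Fermat.Prelude.Def_AlgebraicCurve_Correspondence
import Mathlib.NumberTheory.RamificationInertia.Valuation
import Mathlib.RingTheory.Ideal.Norm.RelNorm

/-!
# S37, row H-HeckeInputs (owner: helper63): relative theory of function fields

`K` algebraically closed of characteristic `0`.  For a function field `F / K` (finite over
`K(y)`, `y` transcendental) we prove `HasPrincipalDivisors K F`, and for a finite extension
`F' / F` of such fields the fundamental identity `FundamentalIdentity K F F'` and the norm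
formula `Divisor.PushforwardNormFormula K F F'` of the Prelude.

All names are prefixed `hi63_`.
-/

set_option autoImplicit false
set_option linter.style.haveILetI false
set_option linter.unusedSectionVars false
set_option linter.deprecated false

open AlgebraicCurve IntermediateField

namespace Fermat.Agent.S37

open Fermat.Agent.S24

section hi63_principal

variable {K F : Type*} [Field K] [IsAlgClosed K] [CharZero K] [Field F] [Algebra K F]

/-- A function field over an algebraically closed field of characteristic `0` has principal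
divisors (finitely many zeros and poles, of total degree `0`). -/
theorem hi63_hasPrincipalDivisors (y : F) (hy : Transcendental K y) [FiniteDimensional K⟮y⟯ F] :
    HasPrincipalDivisors K F := by
  classical
  refine ⟨fun f hf => ?_⟩
  have hfin := wp1_finite_ord_ne_zero y hy f hf
  have hdeg : ∀ v : Place K F, v.deg = 1 := wp1_deg_eq_one y hy
  refine ⟨Finsupp.onFinset hfin.toFinset (fun v => v.ord f) (fun v hv => by simpa using hv),
    fun v => rfl, ?_⟩
  rw [Divisor.degree, Finsupp.liftAddHom_apply, Finsupp.onFinset_sum]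
  · simp only [AddMonoidHom.coe_mulRight, hdeg, Nat.cast_one, mul_one]
    exact wp1_sum_ord_eq_zero y hy f hf
  · intro v
    simp

end hi63_principal

section hi63_count

open IsDedekindDomain IsDedekindDomain.HeightOneSpectrum WithZero UniqueFactorizationMonoid

variable {K F : Type*} [Field K] [Field F] [Algebra K F]
variable {B : Type*} [CommRing B] [IsDedekindDomain B] [Algebra B F] [IsFractionRing B F]
  [Algebra K B] [IsScalarTower K B F]

/-- The order of an integral element at the place of a prime is its multiplicity. -/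
theorem hi63_ord_eq_count (P : HeightOneSpectrum B) {b : B} (hb : b ≠ 0) :
    (Place.ofHeightOneSpectrum (K := K) (F := F) P).ord (algebraMap B F b) =
      (Multiset.count P.asIdeal (normalizedFactors (Ideal.span {b})) : ℤ) := by
  classical
  have hI0 : Ideal.span {b} ≠ 0 := by
    rw [Ne, Ideal.zero_eq_bot, Ideal.span_singleton_eq_bot]; exact hb
  rw [wp1a_ord_ofHeightOneSpectrum, valuation_of_algebraMap, intValuation_if_neg P hb,
    WithZero.log_exp, neg_neg, Ideal.count_associates_factors_eq hI0 P.isPrime P.ne_bot]

end hi63_count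

section hi63_abstract

open IsDedekindDomain IsDedekindDomain.HeightOneSpectrum WithZero

variable {K F F' : Type*} [Field K] [Field F] [Field F'] [Algebra K F] [Algebra K F']
  [Algebra F F'] [IsScalarTower K F F']
variable {B : Type*} [CommRing B] [IsDedekindDomain B] [Algebra B F] [IsFractionRing B F]
  [Algebra K B] [IsScalarTower K B F]
variable {B' : Type*} [CommRing B'] [IsDedekindDomain B'] [Algebra B' F'] [IsFractionRing B' F']
  [Algebra K B'] [IsScalarTower K B' F']
variable [Algebra B B'] [Algebra B F'] [IsScalarTower B B' F'] [IsScalarTower B F F']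
  [Module.IsTorsionFree B B']

/-- Orders at a prime upstairs versus the prime below: `ord_P (x) = e(P|p) * ord_p (x)`. -/
theorem hi63_ord_algebraMap (p : HeightOneSpectrum B) (P : HeightOneSpectrum B')
    [P.asIdeal.LiesOver p.asIdeal] (x : F) :
    (Place.ofHeightOneSpectrum (K := K) (F := F') P).ord (algebraMap F F' x) =
      (p.asIdeal.ramificationIdx' P.asIdeal : ℤ) *
        (Place.ofHeightOneSpectrum (K := K) (F := F) p).ord x := by
  rw [wp1a_ord_ofHeightOneSpectrum, wp1a_ord_ofHeightOneSpectrum, ← valuation_liesOver F' p P x,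
    WithZero.log_pow]
  simp

/-- The place of a prime upstairs restricts to the place of the prime below. -/
theorem hi63_restrict_ofHeightOneSpectrum [Algebra.IsIntegral F F'] (p : HeightOneSpectrum B)
    (P : HeightOneSpectrum B') [P.asIdeal.LiesOver p.asIdeal] :
    (Place.ofHeightOneSpectrum (K := K) (F := F') P).restrict F =
      Place.ofHeightOneSpectrum (K := K) (F := F) p := by
  apply Place.ext
  ext x
  have he : p.asIdeal.ramificationIdx' P.asIdeal ≠ 0 :=
    Ideal.IsDedekindDomain.ramificationIdx'_ne_zero_of_liesOver P.asIdeal p.ne_bot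
  rw [Place.restrict_toValuationSubring, ValuationSubring.mem_comap,
    Place.ofHeightOneSpectrum_toValuationSubring, Place.ofHeightOneSpectrum_toValuationSubring,
    Valuation.mem_valuationSubring_iff, Valuation.mem_valuationSubring_iff,
    ← valuation_liesOver F' p P x]
  exact pow_le_one_iff he

/-- The Prelude ramification index of the place of `P` is the ideal-theoretic one. -/
theorem hi63_ramificationIndex_eq [Algebra.IsIntegral F F'] (p : HeightOneSpectrum B)
    (P : HeightOneSpectrum B') [P.asIdeal.LiesOver p.asIdeal] :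
    Place.ramificationIndex (F := F) (Place.ofHeightOneSpectrum (K := K) (F := F') P) =
      p.asIdeal.ramificationIdx' P.asIdeal := by
  set v : Place K F := Place.ofHeightOneSpectrum (K := K) (F := F) p with hv
  set w : Place K F' := Place.ofHeightOneSpectrum (K := K) (F := F') P with hw
  obtain ⟨π, hπ⟩ := IsDiscreteValuationRing.exists_irreducible v.toValuationSubring
  have h1 : v.ord (π : F) = 1 := v.ord_coe_irreducible hπ
  have h2 := w.ord_restrict (F := F) (π : F)
  rw [hi63_restrict_ofHeightOneSpectrum p P, ← hv, h1, mul_one,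
    hi63_ord_algebraMap (K := K) p P, ← hv, h1, mul_one] at h2
  exact_mod_cast h2.symm

/-- Every place of `F'` above the place of `p` is the place of a prime of `B'` over `p`. -/
theorem hi63_exists_liesOver [Algebra.IsIntegral F F'] [Algebra.IsIntegral B B']
    (p : HeightOneSpectrum B) (w : Place K F')
    (hw : w.restrict F = Place.ofHeightOneSpectrum (K := K) (F := F) p) :
    ∃ P : HeightOneSpectrum B', P.asIdeal.LiesOver p.asIdeal ∧
      Place.ofHeightOneSpectrum (K := K) (F := F') P = w := by
  have hB : ∀ a : B, algebraMap B F' a ∈ w.toValuationSubring := by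
    intro a
    rw [IsScalarTower.algebraMap_apply B F F', ← Place.mem_restrict_iff, hw,
      Place.ofHeightOneSpectrum_toValuationSubring, Valuation.mem_valuationSubring_iff]
    exact p.valuation_le_one a
  have hB' : ∀ b : B', algebraMap B' F' b ∈ w.toValuationSubring := by
    intro b
    let ψ : B →+* w.toValuationSubring :=
      (algebraMap B F').codRestrict w.toValuationSubring.toSubring hB
    obtain ⟨q, hq, hqe⟩ := Algebra.IsIntegral.isIntegral (R := B) b
    have hqe' : Polynomial.eval₂ (algebraMap B F') (algebraMap B' F' b) q = 0 := by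
      have := congrArg (algebraMap B' F') hqe
      rwa [Polynomial.hom_eval₂, ← IsScalarTower.algebraMap_eq, map_zero] at this
    have hint : IsIntegral w.toValuationSubring (algebraMap B' F' b) :=
      ⟨q.map ψ, hq.map ψ, by rw [Polynomial.eval₂_map]; exact hqe'⟩
    obtain ⟨z, hz⟩ := IsIntegrallyClosed.isIntegral_iff.mp hint
    rw [← hz]
    exact z.2
  obtain ⟨P, hP⟩ := wp1a_exists_heightOneSpectrum w hB'
  refine ⟨P, ⟨?_⟩, hP⟩
  ext b
  rw [Ideal.mem_comap]
  rcases eq_or_ne b 0 with rfl | hb
  · simp
  have hb' : algebraMap B B' b ≠ 0 := by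
    intro h0
    apply hb
    have h1 : algebraMap B F' b = 0 := by
      rw [IsScalarTower.algebraMap_apply B B' F', h0, map_zero]
    rw [IsScalarTower.algebraMap_apply B F F'] at h1
    exact (IsFractionRing.injective B F) (by
      rw [map_zero]
      exact (map_eq_zero (algebraMap F F')).mp h1)
  rw [← wp1a_ord_pos_iff (K := K) (F := F) p hb, ← wp1a_ord_pos_iff (K := K) (F := F') P hb',
    hP, ← IsScalarTower.algebraMap_apply B B' F', IsScalarTower.algebraMap_apply B F F',
    w.ord_restrict (F := F), hw]
  have hepos : 0 < Place.ramificationIndex (F := F) w := w.ramificationIndex_pos (F := F)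
  constructor
  · intro h
    positivity
  · intro h
    by_contra hcon
    have : (Place.ramificationIndex (F := F) w : ℤ) *
        (Place.ofHeightOneSpectrum (K := K) (F := F) p).ord (algebraMap B F b) ≤ 0 :=
      mul_nonpos_of_nonneg_of_nonpos (by positivity) (by omega)
    omega

/-- Constants surject onto the residue ring at a prime (when the residue fields of the places
are trivial). -/
theorem hi63_exists_const_sub_mem
    (hconst : ∀ (w : Place K F') (f : F'), f ∈ w.toValuationSubring →
      ∃ c : K, f = algebraMap K F' c ∨ 0 < w.ord (f - algebraMap K F' c))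
    (P : HeightOneSpectrum B') (b : B') : ∃ c : K, b - algebraMap K B' c ∈ P.asIdeal := by
  have hmem : algebraMap B' F' b ∈
      (Place.ofHeightOneSpectrum (K := K) (F := F') P).toValuationSubring := by
    rw [Place.ofHeightOneSpectrum_toValuationSubring, Valuation.mem_valuationSubring_iff]
    exact P.valuation_le_one b
  obtain ⟨c, hc⟩ := hconst _ _ hmem
  refine ⟨c, ?_⟩
  have hsub : algebraMap B' F' b - algebraMap K F' c =
      algebraMap B' F' (b - algebraMap K B' c) := by
    rw [map_sub, ← IsScalarTower.algebraMap_apply K B' F']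
  rcases eq_or_ne (b - algebraMap K B' c) 0 with h0 | hne
  · rw [h0]; exact zero_mem _
  rcases hc with hc | hc
  · exfalso
    apply hne
    apply IsFractionRing.injective B' F'
    rw [← hsub, hc, sub_self, map_zero]
  · rw [hsub] at hc
    exact (wp1a_ord_pos_iff (K := K) (F := F') P hne).mp hc

/-- The inertia degrees are all `1`. -/
theorem hi63_inertiaDeg_eq_one [IsScalarTower K B B']
    (hconst : ∀ (w : Place K F') (f : F'), f ∈ w.toValuationSubring →
      ∃ c : K, f = algebraMap K F' c ∨ 0 < w.ord (f - algebraMap K F' c))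
    (p : HeightOneSpectrum B) (P : HeightOneSpectrum B') [P.asIdeal.LiesOver p.asIdeal] :
    Ideal.inertiaDeg' p.asIdeal P.asIdeal = 1 := by
  haveI := p.isMaximal
  rw [Ideal.inertiaDeg'_algebraMap]
  letI : Field (B ⧸ p.asIdeal) := Ideal.Quotient.field _
  haveI : Nontrivial (B' ⧸ P.asIdeal) := Ideal.Quotient.nontrivial_iff.mpr P.isPrime.ne_top
  have hsurj : Function.Surjective (algebraMap (B ⧸ p.asIdeal) (B' ⧸ P.asIdeal)) := by
    intro x
    obtain ⟨b, rfl⟩ := Ideal.Quotient.mk_surjective x
    obtain ⟨c, hc⟩ := hi63_exists_const_sub_mem hconst P b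
    refine ⟨Ideal.Quotient.mk _ (algebraMap K B c), ?_⟩
    rw [Ideal.Quotient.algebraMap_mk_of_liesOver, ← IsScalarTower.algebraMap_apply K B B']
    exact (Ideal.Quotient.eq.mpr hc).symm
  exact ((LinearEquiv.ofBijective (Algebra.linearMap (B ⧸ p.asIdeal) (B' ⧸ P.asIdeal))
    ⟨(algebraMap (B ⧸ p.asIdeal) (B' ⧸ P.asIdeal)).injective, hsurj⟩).finrank_eq.symm.trans
    (Module.finrank_self _))

/-- Sums over the fibre of the place of `p` are sums over the primes of `B'` over `p`. -/
theorem hi63_sum_fiber_eq [Module.Finite F F'] [HasPrincipalDivisors K F']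
    [Module.Finite B B'] (p : HeightOneSpectrum B) (g : Place K F' → ℤ) (h : Ideal B' → ℤ)
    (hgh : ∀ P : HeightOneSpectrum B', P.asIdeal.LiesOver p.asIdeal →
      g (Place.ofHeightOneSpectrum (K := K) (F := F') P) = h P.asIdeal) :
    ∑ w ∈ (Place.ofHeightOneSpectrum (K := K) (F := F) p).fiber F', g w =
      ∑ P ∈ IsDedekindDomain.primesOverFinset p.asIdeal B', h P := by
  classical
  haveI := p.isMaximal
  symm
  have hmem : ∀ P : Ideal B', P ∈ IsDedekindDomain.primesOverFinset p.asIdeal B' →
      P.IsPrime ∧ P.LiesOver p.asIdeal := fun P hP =>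
    (IsDedekindDomain.mem_primesOverFinset_iff p.ne_bot B').mp hP
  have hne : ∀ P : Ideal B', P ∈ IsDedekindDomain.primesOverFinset p.asIdeal B' → P ≠ ⊥ :=
    fun P hP => by
      haveI := (hmem P hP).2
      exact Ideal.ne_bot_of_liesOver_of_ne_bot p.ne_bot P
  refine Finset.sum_bij (fun P hP => Place.ofHeightOneSpectrum (K := K) (F := F')
    (⟨P, (hmem P hP).1, hne P hP⟩ : HeightOneSpectrum B')) ?_ ?_ ?_ ?_
  · intro P hP
    haveI : (⟨P, (hmem P hP).1, hne P hP⟩ : HeightOneSpectrum B').asIdeal.LiesOver p.asIdeal :=
      (hmem P hP).2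
    rw [Place.mem_fiber]
    exact hi63_restrict_ofHeightOneSpectrum p _
  · intro P₁ hP₁ P₂ hP₂ h
    have := wp1a_ofHeightOneSpectrum_injective h
    exact congrArg HeightOneSpectrum.asIdeal this
  · intro w hw
    rw [Place.mem_fiber] at hw
    obtain ⟨P, hP, rfl⟩ := hi63_exists_liesOver (B' := B') p w hw
    exact ⟨P.asIdeal, (IsDedekindDomain.mem_primesOverFinset_iff p.ne_bot B').mpr
      ⟨P.isPrime, hP⟩, rfl⟩
  · intro P hP
    exact (hgh ⟨P, (hmem P hP).1, hne P hP⟩ (hmem P hP).2).symm

/-- The fundamental identity above the place of a prime `p` of `B`. -/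
theorem hi63_sum_ramificationIndex_abstract [Module.Finite F F'] [HasPrincipalDivisors K F']
    [Module.Finite B B'] [IsScalarTower K B B']
    (hconst : ∀ (w : Place K F') (f : F'), f ∈ w.toValuationSubring →
      ∃ c : K, f = algebraMap K F' c ∨ 0 < w.ord (f - algebraMap K F' c))
    (hdeg' : ∀ w : Place K F', w.deg = 1) (p : HeightOneSpectrum B) :
    ∑ w ∈ (Place.ofHeightOneSpectrum (K := K) (F := F) p).fiber F',
      (Place.ramificationIndex (F := F) w : ℤ) * (w.deg : ℤ) = (Module.finrank F F' : ℤ) := by
  classical
  haveI := p.isMaximal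
  have hfund := Ideal.sum_ramification_inertia B' F F' p.ne_bot
  rw [← hfund, Nat.cast_sum]
  refine hi63_sum_fiber_eq p _ _ ?_
  intro P hP
  haveI := hP
  rw [hdeg', hi63_ramificationIndex_eq p, hi63_inertiaDeg_eq_one hconst p P]
  simp

open UniqueFactorizationMonoid in
/-- Multiplicities of the relative norm of an ideal (all inertia degrees being `1`). -/
theorem hi63_count_relNorm [CharZero K] [Module.Finite B B'] [IsScalarTower K B B']
    (hconst : ∀ (w : Place K F') (f : F'), f ∈ w.toValuationSubring →
      ∃ c : K, f = algebraMap K F' c ∨ 0 < w.ord (f - algebraMap K F' c))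
    (p : HeightOneSpectrum B) (I : Ideal B') (hI : I ≠ ⊥) :
    Multiset.count p.asIdeal (normalizedFactors (Ideal.relNorm B I)) =
      ∑ P ∈ IsDedekindDomain.primesOverFinset p.asIdeal B',
        Multiset.count P (normalizedFactors I) := by
  classical
  haveI : CharZero B := charZero_of_injective_algebraMap (algebraMap K B).injective
  haveI : CharZero (FractionRing B) :=
    charZero_of_injective_algebraMap (IsFractionRing.injective B (FractionRing B))
  haveI := p.isMaximal
  induction I using UniqueFactorizationMonoid.induction_on_prime with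
  | h₁ => exact absurd rfl hI
  | h₂ I hu =>
    have hI1 : I = 1 := by rw [Ideal.one_eq_top]; exact Ideal.isUnit_iff.mp hu
    subst hI1
    rw [map_one]
    simp only [normalizedFactors_one, Multiset.count_zero, Finset.sum_const_zero]
  | h₃ J Q hJ hQ ih =>
    have hJ' : J ≠ ⊥ := hJ
    have hQ0 : Q ≠ ⊥ := hQ.ne_zero
    have hQp : Q.IsPrime := Ideal.isPrime_of_prime hQ
    haveI : Q.IsMaximal := hQp.isMaximal hQ0
    haveI : Algebra.IsIntegral B B' := Algebra.IsIntegral.of_finite B B'
    have hq0 : Q.under B ≠ ⊥ := by
      intro h0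
      exact hQ0 (Ideal.eq_bot_of_comap_eq_bot h0)
    haveI hqp : (Q.under B).IsPrime := Ideal.IsPrime.under B Q
    haveI : (Q.under B).IsMaximal := hqp.isMaximal hq0
    haveI hover : Q.LiesOver (Q.under B) := ⟨rfl⟩
    let q' : HeightOneSpectrum B := ⟨Q.under B, hqp, hq0⟩
    let Q' : HeightOneSpectrum B' := ⟨Q, hQp, hQ0⟩
    haveI : Q'.asIdeal.LiesOver q'.asIdeal := hover
    have hdeg1 : Q.inertiaDeg B = 1 := by
      rw [← Ideal.inertiaDeg'_eq_inertiaDeg (Q.under B) Q]
      exact hi63_inertiaDeg_eq_one hconst q' Q'
    have hrel : Ideal.relNorm B Q = Q.under B := by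
      rw [Ideal.relNorm_eq_pow_of_isMaximal Q (Q.under B), hdeg1, pow_one]
    have hrelJ : Ideal.relNorm B J ≠ 0 := by
      rw [Ne, Ideal.zero_eq_bot, Ideal.relNorm_eq_bot_iff]; exact hJ'
    have hrelQ : Ideal.relNorm B Q ≠ 0 := by
      rw [Ne, Ideal.zero_eq_bot, Ideal.relNorm_eq_bot_iff]; exact hQ0
    rw [map_mul, normalizedFactors_mul hrelQ hrelJ, Multiset.count_add,
      normalizedFactors_mul hQ.ne_zero hJ]
    simp only [Multiset.count_add, Finset.sum_add_distrib]
    rw [ih hJ']
    congr 1
    rw [hrel, normalizedFactors_irreducible hQ.irreducible,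
      normalizedFactors_irreducible (Ideal.prime_of_isPrime hq0 hqp).irreducible]
    simp only [normalize_eq, Multiset.count_singleton]
    rw [Finset.sum_ite_eq']
    have hiff : Q ∈ IsDedekindDomain.primesOverFinset p.asIdeal B' ↔ p.asIdeal = Q.under B := by
      rw [IsDedekindDomain.mem_primesOverFinset_iff p.ne_bot B']
      constructor
      · rintro ⟨-, h⟩
        exact h.over
      · intro h
        exact ⟨hQp, ⟨h⟩⟩
    by_cases h : p.asIdeal = Q.under B
    · rw [if_pos h, if_pos (hiff.mpr h)]
    · rw [if_neg h, if_neg (fun h' => h (hiff.mp h'))]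

/-- The norm formula for integral elements, above the place of a prime `p` of `B`. -/
theorem hi63_sum_ord_algebraMap [CharZero K] [Module.Finite F F'] [HasPrincipalDivisors K F']
    [Module.Finite B B'] [IsScalarTower K B B']
    (hconst : ∀ (w : Place K F') (f : F'), f ∈ w.toValuationSubring →
      ∃ c : K, f = algebraMap K F' c ∨ 0 < w.ord (f - algebraMap K F' c))
    (p : HeightOneSpectrum B) (b : B') (hb : b ≠ 0) :
    ∑ w ∈ (Place.ofHeightOneSpectrum (K := K) (F := F) p).fiber F',
        w.ord (algebraMap B' F' b) =
      (Place.ofHeightOneSpectrum (K := K) (F := F) p).ord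
        (Algebra.norm F (algebraMap B' F' b)) := by
  classical
  haveI := p.isMaximal
  haveI : Algebra.IsIntegral B B' := Algebra.IsIntegral.of_finite B B'
  haveI : IsIntegralClosure B' B F' := IsIntegralClosure.of_isIntegrallyClosed B' B F'
  have hnorm : algebraMap B F (Algebra.intNorm B B' b) = Algebra.norm F (algebraMap B' F' b) :=
    Algebra.algebraMap_intNorm (A := B) (K := F) (L := F') (B := B') b
  have hb' : algebraMap B' F' b ≠ 0 :=
    (map_ne_zero_iff _ (IsFractionRing.injective B' F')).mpr hb
  have hn0 : Algebra.intNorm B B' b ≠ 0 := by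
    intro h0
    rw [h0, map_zero] at hnorm
    exact (Algebra.norm_ne_zero_iff.mpr hb') hnorm.symm
  have hI : Ideal.span {b} ≠ ⊥ := by
    rw [Ne, Ideal.span_singleton_eq_bot]; exact hb
  rw [← hnorm, hi63_ord_eq_count p hn0, ← Ideal.relNorm_singleton,
    hi63_count_relNorm hconst p _ hI, Nat.cast_sum]
  refine hi63_sum_fiber_eq p _ _ ?_
  intro P hP
  exact hi63_ord_eq_count P hb

/-- The norm formula above the place of a prime `p` of `B`. -/
theorem hi63_sum_ord_eq_ord_norm_abstract [CharZero K] [Module.Finite F F']
    [HasPrincipalDivisors K F'] [Module.Finite B B'] [IsScalarTower K B B']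
    (hconst : ∀ (w : Place K F') (f : F'), f ∈ w.toValuationSubring →
      ∃ c : K, f = algebraMap K F' c ∨ 0 < w.ord (f - algebraMap K F' c))
    (p : HeightOneSpectrum B) (f : F') (hf : f ≠ 0) :
    ∑ w ∈ (Place.ofHeightOneSpectrum (K := K) (F := F) p).fiber F', w.ord f =
      (Place.ofHeightOneSpectrum (K := K) (F := F) p).ord (Algebra.norm F f) := by
  obtain ⟨b, s, hs, rfl⟩ := IsFractionRing.div_surjective (A := B') f
  have hs0 : s ≠ 0 := nonZeroDivisors.ne_zero hs
  have hs' : algebraMap B' F' s ≠ 0 :=
    (map_ne_zero_iff _ (IsFractionRing.injective B' F')).mpr hs0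
  have hb' : algebraMap B' F' b ≠ 0 := fun h0 => hf (by rw [h0, zero_div])
  have hb0 : b ≠ 0 := fun h0 => hb' (by rw [h0, map_zero])
  have h1 := hi63_sum_ord_algebraMap (F := F) hconst p b hb0
  have h2 := hi63_sum_ord_algebraMap (F := F) hconst p s hs0
  have hnb : Algebra.norm F (algebraMap B' F' b) ≠ 0 := Algebra.norm_ne_zero_iff.mpr hb'
  have hns : Algebra.norm F (algebraMap B' F' s) ≠ 0 := Algebra.norm_ne_zero_iff.mpr hs'
  have hdiv : Algebra.norm F (algebraMap B' F' b / algebraMap B' F' s) =
      Algebra.norm F (algebraMap B' F' b) * (Algebra.norm F (algebraMap B' F' s))⁻¹ := by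
    rw [← div_eq_mul_inv, eq_div_iff hns, ← map_mul, div_mul_cancel₀ _ hs']
  rw [hdiv, Place.ord_mul _ hnb (inv_ne_zero hns), Place.ord_inv, ← h1, ← h2,
    ← sub_eq_add_neg, ← Finset.sum_sub_distrib]
  refine Finset.sum_congr rfl fun w _ => ?_
  rw [div_eq_mul_inv, w.ord_mul hb' (inv_ne_zero hs'), w.ord_inv, sub_eq_add_neg]

end hi63_abstract

section hi63_finite

variable {K F F' : Type*} [Field K] [Field F] [Field F'] [Algebra K F] [Algebra K F']
  [Algebra F F'] [IsScalarTower K F F']

/-- A finite extension of a field finite over `K(y)` is finite over `K(y)` (image of `y`). -/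
theorem hi63_finite_adjoin_map (y : F) [FiniteDimensional K⟮y⟯ F] [Module.Finite F F'] :
    FiniteDimensional K⟮algebraMap F F' y⟯ F' := by
  haveI : Module.Finite K⟮y⟯ F' := Module.Finite.trans F F'
  have hle : K⟮y⟯ ≤ (K⟮algebraMap F F' y⟯).comap (IsScalarTower.toAlgHom K F F') := by
    rw [IntermediateField.adjoin_simple_le_iff]
    show (IsScalarTower.toAlgHom K F F') y ∈ K⟮algebraMap F F' y⟯
    exact IntermediateField.mem_adjoin_simple_self K _
  let ψ : K⟮y⟯ →+* K⟮algebraMap F F' y⟯ :=
    ((algebraMap F F').comp (algebraMap K⟮y⟯ F)).codRestrict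
      (K⟮algebraMap F F' y⟯).toSubfield.toSubring (fun x => hle x.2)
  letI a2 : Algebra K⟮y⟯ K⟮algebraMap F F' y⟯ := ψ.toAlgebra
  haveI : IsScalarTower K⟮y⟯ K⟮algebraMap F F' y⟯ F' :=
    IsScalarTower.of_algebraMap_eq (fun _ => rfl)
  exact Module.Finite.of_restrictScalars_finite K⟮y⟯ K⟮algebraMap F F' y⟯ F'

end hi63_finite

section hi63_concrete

open IsDedekindDomain IsDedekindDomain.HeightOneSpectrum

variable {K F F' : Type*} [Field K] [IsAlgClosed K] [CharZero K] [Field F] [Field F']
  [Algebra K F] [Algebra K F'] [Algebra F F'] [IsScalarTower K F F'] [Module.Finite F F']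
  [HasPrincipalDivisors K F']

/-- The two local statements at the place of a prime of a Dedekind domain `B` with fraction
field `F`. -/
theorem hi63_local_of_dedekind {B : Type*} [CommRing B] [IsDedekindDomain B] [Algebra B F]
    [IsFractionRing B F] [Algebra K B] [IsScalarTower K B F]
    (hconst : ∀ (w : Place K F') (f : F'), f ∈ w.toValuationSubring →
      ∃ c : K, f = algebraMap K F' c ∨ 0 < w.ord (f - algebraMap K F' c))
    (hdeg' : ∀ w : Place K F', w.deg = 1) (p : HeightOneSpectrum B) :
    (∑ w ∈ (Place.ofHeightOneSpectrum (K := K) (F := F) p).fiber F',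
        (Place.ramificationIndex (F := F) w : ℤ) * (w.deg : ℤ) = (Module.finrank F F' : ℤ)) ∧
      (∀ f : F', f ≠ 0 →
        ∑ w ∈ (Place.ofHeightOneSpectrum (K := K) (F := F) p).fiber F', w.ord f =
          (Place.ofHeightOneSpectrum (K := K) (F := F) p).ord (Algebra.norm F f)) := by
  haveI : CharZero F := charZero_of_injective_algebraMap (algebraMap K F).injective
  letI aBF' : Algebra B F' := ((algebraMap F F').comp (algebraMap B F)).toAlgebra
  haveI : IsScalarTower B F F' := IsScalarTower.of_algebraMap_eq (fun _ => rfl)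
  haveI : IsDedekindDomain (integralClosure B F') := integralClosure.isDedekindDomain B F F'
  haveI : IsFractionRing (integralClosure B F') F' :=
    integralClosure.isFractionRing_of_finite_extension F F'
  haveI : Module.Finite B (integralClosure B F') :=
    IsIntegralClosure.finite B F F' (integralClosure B F')
  letI aKB' : Algebra K (integralClosure B F') :=
    ((algebraMap B (integralClosure B F')).comp (algebraMap K B)).toAlgebra
  haveI : IsScalarTower K B (integralClosure B F') :=
    IsScalarTower.of_algebraMap_eq (fun _ => rfl)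
  haveI : IsScalarTower K (integralClosure B F') F' :=
    IsScalarTower.of_algebraMap_eq (fun c => by
      rw [IsScalarTower.algebraMap_apply K F F', IsScalarTower.algebraMap_apply K B F]
      rfl)
  haveI : Module.IsTorsionFree B F' := by
    rw [Module.isTorsionFree_iff_algebraMap_injective]
    exact (algebraMap F F').injective.comp (IsFractionRing.injective B F)
  haveI : Module.IsTorsionFree B (integralClosure B F') := inferInstance
  exact ⟨hi63_sum_ramificationIndex_abstract (B' := integralClosure B F') hconst hdeg' p,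
    fun f hf => hi63_sum_ord_eq_ord_norm_abstract (B' := integralClosure B F') hconst p f hf⟩

/-- The two local statements at a place `v` of `F` whose valuation ring contains `y`. -/
theorem hi63_local (y : F) (hy : Transcendental K y) [FiniteDimensional K⟮y⟯ F]
    (hconst : ∀ (w : Place K F') (f : F'), f ∈ w.toValuationSubring →
      ∃ c : K, f = algebraMap K F' c ∨ 0 < w.ord (f - algebraMap K F' c))
    (hdeg' : ∀ w : Place K F', w.deg = 1)
    (v : Place K F) (hv : y ∈ v.toValuationSubring) :
    (∑ w ∈ v.fiber F', (Place.ramificationIndex (F := F) w : ℤ) * (w.deg : ℤ) =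
        (Module.finrank F F' : ℤ)) ∧
      (∀ f : F', f ≠ 0 → ∑ w ∈ v.fiber F', w.ord f = v.ord (Algebra.norm F f)) := by
  haveI := wp1a_isDedekindDomain y hy
  haveI := wp1a_isFractionRing (K := K) y
  haveI := wp1a_isScalarTower (K := K) y
  obtain ⟨p, rfl⟩ := wp1a_exists_eq_ofHeightOneSpectrum y hy v hv
  exact hi63_local_of_dedekind hconst hdeg' p

/-- The two local statements at an arbitrary place `v` of `F`. -/
theorem hi63_local_all (y : F) (hy : Transcendental K y) [FiniteDimensional K⟮y⟯ F]
    (v : Place K F) :
    (∑ w ∈ v.fiber F', (Place.ramificationIndex (F := F) w : ℤ) * (w.deg : ℤ) =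
        (Module.finrank F F' : ℤ)) ∧
      (∀ f : F', f ≠ 0 → ∑ w ∈ v.fiber F', w.ord f = v.ord (Algebra.norm F f)) := by
  have hy' : Transcendental K (algebraMap F F' y) :=
    (transcendental_algebraMap_iff (algebraMap F F').injective).mpr hy
  haveI : FiniteDimensional K⟮algebraMap F F' y⟯ F' := hi63_finite_adjoin_map y
  have hconst : ∀ (w : Place K F') (f : F'), f ∈ w.toValuationSubring →
      ∃ c : K, f = algebraMap K F' c ∨ 0 < w.ord (f - algebraMap K F' c) :=
    fun w f hf => wp1_exists_const (algebraMap F F' y) hy' w f hf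
  have hdeg' : ∀ w : Place K F', w.deg = 1 := wp1_deg_eq_one (algebraMap F F' y) hy'
  rcases v.toValuationSubring.mem_or_inv_mem y with hv | hv
  · exact hi63_local y hy hconst hdeg' v hv
  · have hyi : Transcendental K y⁻¹ := wp1b_transcendental_inv hy
    haveI : FiniteDimensional K⟮y⁻¹⟯ F := wp1_finite_of_transcendental y hy y⁻¹ hyi
    exact hi63_local y⁻¹ hyi hconst hdeg' v hv

/-- **Fundamental identity** for a finite extension of function fields over an algebraically
closed field of characteristic `0`. -/
theorem hi63_fundamentalIdentity (y : F) (hy : Transcendental K y) [FiniteDimensional K⟮y⟯ F] :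
    FundamentalIdentity K F F' := by
  refine ⟨fun v => ?_⟩
  rw [(hi63_local_all y hy v).1, wp1_deg_eq_one y hy v]
  simp

/-- **Norm formula** for a finite extension of function fields over an algebraically closed
field of characteristic `0`: the pushforward of `div f` is `div (N f)`. -/
theorem hi63_normFormula (y : F) (hy : Transcendental K y) [FiniteDimensional K⟮y⟯ F] :
    Divisor.PushforwardNormFormula K F F' := by
  classical
  intro f hf D hD v
  have hy' : Transcendental K (algebraMap F F' y) :=
    (transcendental_algebraMap_iff (algebraMap F F').injective).mpr hy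
  haveI : FiniteDimensional K⟮algebraMap F F' y⟯ F' := hi63_finite_adjoin_map y
  have hdeg' : ∀ w : Place K F', w.deg = 1 := wp1_deg_eq_one (algebraMap F F' y) hy'
  have hdeg : ∀ u : Place K F, u.deg = 1 := wp1_deg_eq_one y hy
  have hin : ∀ w : Place K F', w.inertiaDeg F = 1 := by
    intro w
    have h := w.deg_restrict_mul_inertiaDeg (F := F)
    rw [hdeg', hdeg, one_mul] at h
    exact h
  rw [Divisor.pushforward_apply, ← (hi63_local_all y hy v).2 f hf, ← Finset.sum_filter]
  refine Finset.sum_subset_zero_on_sdiff ?_ ?_ ?_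
  · intro w hw
    rw [Finset.mem_filter] at hw
    exact Place.mem_fiber.mpr hw.2
  · intro w hw
    rw [Finset.mem_sdiff, Place.mem_fiber, Finset.mem_filter, Finsupp.mem_support_iff] at hw
    rw [← hD w]
    by_contra h0
    exact hw.2 ⟨h0, hw.1⟩
  · intro w _
    rw [hin w, hD w]
    simp

end hi63_concrete

end Fermat.Agent.S37
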