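import Fermat.Agent.S37.HeckeInputs63
import Fermat.Prelude.Def_ModularCurve_HeckeModule

/-!
# S37, row H-HeckeInputs, extra exports (owner: helper63)

Pointwise "along" forms of the fundamental identity and of the norm formula for a `K`-algebra
map `φ : F → F'` of function fields over an algebraically closed field of characteristic `0`,
`π_* π^* = deg`, the correspondence on a single place, and the Hecke operator on classes.

All names are prefixed `hx63_`.
-/

set_option autoImplicit false
set_option linter.style.haveILetI false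
set_option linter.unusedSectionVars false

open ModularCurve AlgebraicCurve MatrixGroups IntermediateField

namespace Fermat.Agent.S37

open Fermat.Agent.S24

section hx63_along

variable {K F F' : Type*} [Field K] [IsAlgClosed K] [CharZero K] [Field F] [Field F']
  [Algebra K F] [Algebra K F'] [HasPrincipalDivisors K F']

/-- `F'` is finite over `F` along any `K`-algebra map of function fields. -/
theorem hx63_finiteAlong (φ : F →ₐ[K] F') (y : F) (hy : Transcendental K y)
    (y' : F') (hy' : Transcendental K y') [FiniteDimensional K⟮y'⟯ F'] : FiniteAlong K φ := by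
  have hφy : Transcendental K (φ y) := fun h =>
    hy ((isAlgebraic_algHom_iff φ φ.injective).mp h)
  haveI : FiniteDimensional K⟮φ y⟯ F' := wp1_finite_of_transcendental y' hy' (φ y) hφy
  exact hi63_finiteAlong φ y

/-- All inertia degrees along `φ` are `1`. -/
theorem hx63_inertiaDegAlong (φ : F →ₐ[K] F') (hφ : φ.toRingHom.IsIntegral)
    (y : F) (hy : Transcendental K y) [FiniteDimensional K⟮y⟯ F]
    (y' : F') (hy' : Transcendental K y') [FiniteDimensional K⟮y'⟯ F'] (w : Place K F') :
    w.inertiaDegAlong φ hφ = 1 := by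
  letI := algebraAlong φ
  haveI := isScalarTower_along φ
  haveI := isIntegral_along φ hφ
  show w.inertiaDeg F = 1
  have h := w.deg_restrict_mul_inertiaDeg (F := F)
  rw [wp1_deg_eq_one y' hy' w, wp1_deg_eq_one y hy (w.restrict F), one_mul] at h
  exact h

/-- Fundamental identity along `φ`, pointwise: `∑_{w | v} e(w) = [F' : F]`. -/
theorem hx63_sum_ramificationIndexAlong (φ : F →ₐ[K] F') (hφ : φ.toRingHom.IsIntegral)
    (y : F) (hy : Transcendental K y) [FiniteDimensional K⟮y⟯ F]
    (y' : F') (hy' : Transcendental K y') [FiniteDimensional K⟮y'⟯ F'] (v : Place K F) :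
    ∑ w ∈ Place.fiberAlong φ hφ v, (w.ramificationIndexAlong φ : ℤ) = (finrankAlong K φ : ℤ) := by
  have hfin : FiniteAlong K φ := hx63_finiteAlong φ y hy y' hy'
  letI := algebraAlong φ
  haveI := isScalarTower_along φ
  haveI := isIntegral_along φ hφ
  haveI : Module.Finite F F' := hfin
  show ∑ w ∈ Place.fiber F' v, (Place.ramificationIndex (F := F) w : ℤ) = (Module.finrank F F' : ℤ)
  rw [← (hi63_local_all y hy v).1]
  refine Finset.sum_congr rfl fun w _ => ?_
  rw [wp1_deg_eq_one y' hy' w]
  simp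

/-- Norm formula along `φ`, pointwise: `∑_{w | v} ord_w h = ord_v (N_φ h)`. -/
theorem hx63_sum_ord_fiberAlong (φ : F →ₐ[K] F') (hφ : φ.toRingHom.IsIntegral)
    (y : F) (hy : Transcendental K y) [FiniteDimensional K⟮y⟯ F]
    (y' : F') (hy' : Transcendental K y') [FiniteDimensional K⟮y'⟯ F'] (v : Place K F)
    (h : F') (hh : h ≠ 0) :
    ∑ w ∈ Place.fiberAlong φ hφ v, w.ord h =
      v.ord (letI := algebraAlong φ; Algebra.norm F h) := by
  have hfin : FiniteAlong K φ := hx63_finiteAlong φ y hy y' hy'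
  letI := algebraAlong φ
  haveI := isScalarTower_along φ
  haveI := isIntegral_along φ hφ
  haveI : Module.Finite F F' := hfin
  exact (hi63_local_all y hy v).2 h hh

/-- `π_* π^* = deg` on divisors. -/
theorem hx63_pushforwardAlong_pullbackAlong (φ : F →ₐ[K] F') (hφ : φ.toRingHom.IsIntegral)
    (y : F) (hy : Transcendental K y) [FiniteDimensional K⟮y⟯ F]
    (y' : F') (hy' : Transcendental K y') [FiniteDimensional K⟮y'⟯ F'] (D : Divisor K F) :
    Divisor.pushforwardAlong φ hφ (Divisor.pullbackAlong φ hφ D) = (finrankAlong K φ : ℤ) • D := by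
  classical
  induction D using Finsupp.induction with
  | zero => simp
  | single_add v n D _ _ ih =>
    rw [map_add, map_add, ih, smul_add]
    congr 1
    rw [Divisor.pullbackAlong_single, map_sum]
    simp only [Divisor.pushforwardAlong_single, hx63_inertiaDegAlong φ hφ y hy y' hy',
      Nat.cast_one, mul_one]
    have hres : ∀ w ∈ Place.fiberAlong φ hφ v,
        Finsupp.single (w.restrictAlong φ hφ) (n * (w.ramificationIndexAlong φ : ℤ)) =
          Finsupp.single v (n * (w.ramificationIndexAlong φ : ℤ)) := by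
      intro w hw
      rw [Place.mem_fiberAlong.mp hw]
    rw [Finset.sum_congr rfl hres, ← Finsupp.single_finsetSum, ← Finset.mul_sum,
      hx63_sum_ramificationIndexAlong φ hφ y hy y' hy' v, Finsupp.smul_single, smul_eq_mul,
      mul_comm]

/-- The correspondence `ψ_* φ^*` on a single place. -/
theorem hx63_correspondence_single (φ ψ : F →ₐ[K] F') (hφ : φ.toRingHom.IsIntegral)
    (hψ : ψ.toRingHom.IsIntegral)
    (y : F) (hy : Transcendental K y) [FiniteDimensional K⟮y⟯ F]
    (y' : F') (hy' : Transcendental K y') [FiniteDimensional K⟮y'⟯ F'] (P : Place K F) (n : ℤ) :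
    Divisor.correspondence φ ψ hφ hψ (Finsupp.single P n) =
      ∑ w ∈ Place.fiberAlong φ hφ P,
        Finsupp.single (w.restrictAlong ψ hψ) (n * (w.ramificationIndexAlong φ : ℤ)) := by
  rw [Divisor.correspondence_apply, Divisor.pullbackAlong_single, map_sum]
  simp only [Divisor.pushforwardAlong_single, hx63_inertiaDegAlong ψ hψ y hy y' hy',
    Nat.cast_one, mul_one]

end hx63_along

section hx63_modular

/-- Every place of `ℚ̄ · F_N` has degree `1`. -/
theorem hx63_deg (N : ℕ) [NeZero N] (v : Place Kbar ↥(modularFunctionFieldBar N)) :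
    v.deg = 1 := by
  haveI := hi63_finite_x N
  exact wp1_deg_eq_one (hi63_x N) (hi63_x_transcendental N) v

/-- The degree of a divisor of `ℚ̄ · F_N` is the sum of its coefficients. -/
theorem hx63_degree (N : ℕ) [NeZero N] (D : Divisor Kbar ↥(modularFunctionFieldBar N)) :
    Divisor.degree D = D.sum fun _ n => n := by
  rw [Divisor.degree, Finsupp.liftAddHom_apply]
  refine Finsupp.sum_congr fun v _ => ?_
  simp [hx63_deg N v]

section hx63_general

variable (N M : ℕ) [NeZero N] [NeZero M]
  (φ : ↥(modularFunctionFieldBar N) →ₐ[Kbar] ↥(modularFunctionFieldBar M))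

/-- Any `ℚ̄`-algebra map `F_N → F_M` is integral. -/
theorem hx63_isIntegral_gen : φ.toRingHom.IsIntegral := by
  haveI := hi63_finite_x N
  haveI := hi63_finite_x M
  haveI := hi63_hasPrincipalDivisors_bar M
  obtain ⟨hint, -⟩ := hi63_along_all φ
    (hi63_x N) (hi63_x_transcendental N) (hi63_x M) (hi63_x_transcendental M)
  exact hint

/-- Any `ℚ̄`-algebra map `F_N → F_M` is finite. -/
theorem hx63_finiteAlong_gen : FiniteAlong Kbar φ := by
  haveI := hi63_finite_x N
  haveI := hi63_finite_x M
  haveI := hi63_hasPrincipalDivisors_bar M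
  obtain ⟨-, hfin, -⟩ := hi63_along_all φ
    (hi63_x N) (hi63_x_transcendental N) (hi63_x M) (hi63_x_transcendental M)
  exact hfin

variable {N M φ}
variable (hφ : φ.toRingHom.IsIntegral) [HasPrincipalDivisors Kbar ↥(modularFunctionFieldBar M)]

/-- Fundamental identity and norm formula along any `ℚ̄`-algebra map `F_N → F_M`. -/
theorem hx63_inputs_gen :
    FundamentalIdentityAlong Kbar φ hφ ∧
      ∃ hfin : FiniteAlong Kbar φ, NormFormulaAlong Kbar φ hfin := by
  haveI := hi63_finite_x N
  haveI := hi63_finite_x M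
  obtain ⟨hint, hfin, hFI, hNF⟩ := hi63_along_all φ
    (hi63_x N) (hi63_x_transcendental N) (hi63_x M) (hi63_x_transcendental M)
  exact ⟨hFI, hfin, hNF⟩

/-- Inertia degrees along any `ℚ̄`-algebra map `F_N → F_M` are `1`. -/
theorem hx63_inertiaDegAlong_gen (w : Place Kbar ↥(modularFunctionFieldBar M)) :
    w.inertiaDegAlong φ hφ = 1 := by
  haveI := hi63_finite_x N
  haveI := hi63_finite_x M
  exact hx63_inertiaDegAlong φ hφ
    (hi63_x N) (hi63_x_transcendental N) (hi63_x M) (hi63_x_transcendental M) w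

/-- Norm formula along any `ℚ̄`-algebra map `F_N → F_M`, pointwise. -/
theorem hx63_sum_ord_fiberAlong_gen (P : Place Kbar ↥(modularFunctionFieldBar N))
    (h : ↥(modularFunctionFieldBar M)) (hh : h ≠ 0) :
    ∑ w ∈ Place.fiberAlong φ hφ P, w.ord h =
      P.ord (letI := algebraAlong φ; Algebra.norm ↥(modularFunctionFieldBar N) h) := by
  haveI := hi63_finite_x N
  haveI := hi63_finite_x M
  exact hx63_sum_ord_fiberAlong φ hφ
    (hi63_x N) (hi63_x_transcendental N) (hi63_x M) (hi63_x_transcendental M) P h hh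

/-- Fundamental identity along any `ℚ̄`-algebra map `F_N → F_M`, pointwise. -/
theorem hx63_sum_ramificationIndexAlong_gen (P : Place Kbar ↥(modularFunctionFieldBar N)) :
    ∑ w ∈ Place.fiberAlong φ hφ P, (w.ramificationIndexAlong φ : ℤ) =
      (finrankAlong Kbar φ : ℤ) := by
  haveI := hi63_finite_x N
  haveI := hi63_finite_x M
  exact hx63_sum_ramificationIndexAlong φ hφ
    (hi63_x N) (hi63_x_transcendental N) (hi63_x M) (hi63_x_transcendental M) P

/-- `π_* π^* = deg` along any `ℚ̄`-algebra map `F_N → F_M`. -/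
theorem hx63_pushforwardAlong_pullbackAlong_gen
    (D : Divisor Kbar ↥(modularFunctionFieldBar N)) :
    Divisor.pushforwardAlong φ hφ (Divisor.pullbackAlong φ hφ D) =
      (finrankAlong Kbar φ : ℤ) • D := by
  haveI := hi63_finite_x N
  haveI := hi63_finite_x M
  exact hx63_pushforwardAlong_pullbackAlong φ hφ
    (hi63_x N) (hi63_x_transcendental N) (hi63_x M) (hi63_x_transcendental M) D

/-- The correspondence `ψ_* φ^*` of two `ℚ̄`-algebra maps `F_N → F_M` on a single place. -/
theorem hx63_correspondence_single_gen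
    {ψ : ↥(modularFunctionFieldBar N) →ₐ[Kbar] ↥(modularFunctionFieldBar M)}
    (hψ : ψ.toRingHom.IsIntegral) (P : Place Kbar ↥(modularFunctionFieldBar N)) (n : ℤ) :
    Divisor.correspondence φ ψ hφ hψ (Finsupp.single P n) =
      ∑ w ∈ Place.fiberAlong φ hφ P,
        Finsupp.single (w.restrictAlong ψ hψ) (n * (w.ramificationIndexAlong φ : ℤ)) := by
  haveI := hi63_finite_x N
  haveI := hi63_finite_x M
  exact hx63_correspondence_single φ ψ hφ hψ
    (hi63_x N) (hi63_x_transcendental N) (hi63_x M) (hi63_x_transcendental M) P n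

end hx63_general

section hx63_hecke

variable (N ℓ : ℕ) [NeZero N] [NeZero ℓ]

theorem hx63_heckeAlphaBarIntegral : HeckeAlphaBarIntegral Kbar N ℓ := by
  obtain ⟨hα, -⟩ := hi63_heckeInputsAlong N ℓ
  exact hα

theorem hx63_heckeBetaBarIntegral : HeckeBetaBarIntegral Kbar N ℓ := by
  obtain ⟨-, hβ, -⟩ := hi63_heckeInputsAlong N ℓ
  exact hβ

variable {N ℓ}

/-- `T_ℓ` on a single place: `T_ℓ (n P) = ∑_{w | P along β} n e_β(w) · (w restricted along α)`. -/
theorem hx63_heckeDivBar_single (hα : HeckeAlphaBarIntegral Kbar N ℓ)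
    (hβ : HeckeBetaBarIntegral Kbar N ℓ)
    [HasPrincipalDivisors Kbar ↥(modularFunctionFieldBar (N * ℓ))]
    (P : Place Kbar ↥(modularFunctionFieldBar N)) (n : ℤ) :
    heckeDivBar hα hβ (Finsupp.single P n) =
      ∑ w ∈ Place.fiberAlong (heckeBetaBar Kbar N ℓ) hβ P,
        Finsupp.single (w.restrictAlong (heckeAlphaBar Kbar N ℓ) hα)
          (n * (w.ramificationIndexAlong (heckeBetaBar Kbar N ℓ) : ℤ)) := by
  haveI : NeZero (N * ℓ) := ⟨mul_ne_zero (NeZero.ne N) (NeZero.ne ℓ)⟩
  exact hx63_correspondence_single_gen hβ hα P n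

/-- **The Hecke operator on classes is the divisor correspondence**:
`T_ℓ [D] = [α_* β^* D]`. -/
theorem hx63_heckeOperatorBar_mk (hℓ : ℓ.Prime) (hα : HeckeAlphaBarIntegral Kbar N ℓ)
    (hβ : HeckeBetaBarIntegral Kbar N ℓ)
    [HasPrincipalDivisors Kbar ↥(modularFunctionFieldBar (N * ℓ))]
    (D : Divisor.degZero (K := Kbar) (F := ↥(modularFunctionFieldBar N))) :
    ∃ hD : heckeDivBar hα hβ (D : Divisor Kbar ↥(modularFunctionFieldBar N)) ∈
        Divisor.degZero (K := Kbar) (F := ↥(modularFunctionFieldBar N)),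
      heckeOperatorBar N ⟨ℓ, hℓ⟩ (Pic0.mk D) = Pic0.mk ⟨heckeDivBar hα hβ D, hD⟩ := by
  haveI : NeZero (N * ℓ) := ⟨mul_ne_zero (NeZero.ne N) (NeZero.ne ℓ)⟩
  obtain ⟨hFI, -⟩ := hx63_inputs_gen (φ := heckeBetaBar Kbar N ℓ) hβ
  obtain ⟨-, hfin, hNF⟩ := hx63_inputs_gen (φ := heckeAlphaBar Kbar N ℓ) hα
  refine ⟨Divisor.correspondence_mem_degZero _ _ hβ hα hFI D.2, ?_⟩
  refine (heckeOperatorBar_apply N ⟨ℓ, hℓ⟩ _).trans ?_
  rw [heckeOperatorAlong_eq hα hβ hFI hfin hNF]
  rfl

end hx63_hecke

end hx63_modular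

end Fermat.Agent.S37
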