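import Fermat.Agent.S54.Helper96Frob

/-!
# S37: a Frobenius element at EVERY valuation subring of `ℚ̄` over `ℓ`

`S54/Helper96Frob.exists_isFrobeniusAt` produces a Frobenius element at SOME valuation subring
over `ℓ`.  Here: for every valuation subring `A` of `AlgebraicClosure ℚ` with `ℓ ∈ 𝔪_A` there is
`σ` with `A.IsFrobeniusAt σ ℓ`.
-/

set_option autoImplicit false
set_option linter.style.haveILetI false
set_option linter.unusedVariables false

namespace Fermat.Agent.S37

open Polynomial
open scoped Pointwise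
open Fermat.Agent.S54

section Frob

local notation "Qb" => AlgebraicClosure ℚ
local notation "OQb" => integralClosure ℤ (AlgebraicClosure ℚ)
local notation "GQ" => AlgebraicClosure ℚ ≃ₐ[ℚ] AlgebraicClosure ℚ

attribute [local instance] h96_isAlgClosure_rat
attribute [local instance] h96_galActionInt
attribute [local instance] h96_galActionInt_smulCommClass

/-- Integral elements lie in every valuation subring. -/
theorem h14_mem_valuationSubring_of_isIntegral {L : Type*} [Field L] (V : ValuationSubring L)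
    {x : L} (hx : IsIntegral ℤ x) : x ∈ V := by
  have h1 : IsIntegral V.valuation.integer x := hx.tower_top
  have h2 := (Valuation.integer.integers V.valuation).mem_of_integral h1
  exact (ValuationSubring.valuation_le_one_iff V x).mp h2

/-- The prime of the ring of algebraic integers cut out by a valuation subring. -/
def h14_centerIdeal (V : ValuationSubring Qb) : Ideal OQb where
  carrier := {b | (b : Qb) ∈ V.nonunits}
  add_mem' := by
    intro a b ha hb
    have ha' : V.valuation (a : Qb) < 1 := ha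
    have hb' : V.valuation (b : Qb) < 1 := hb
    show V.valuation ((a + b : OQb) : Qb) < 1
    push_cast
    exact Valuation.map_add_lt _ ha' hb'
  zero_mem' := by
    show V.valuation ((0 : OQb) : Qb) < 1
    simp
  smul_mem' := by
    intro c x hx
    have hx' : V.valuation (x : Qb) < 1 := hx
    show V.valuation ((c • x : OQb) : Qb) < 1
    rw [smul_eq_mul]
    push_cast
    rw [map_mul]
    calc V.valuation (c : Qb) * V.valuation (x : Qb) ≤ 1 * V.valuation (x : Qb) := by
          gcongr
          exact (ValuationSubring.valuation_le_one_iff V _).mpr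
            (h14_mem_valuationSubring_of_isIntegral V c.2)
      _ < 1 := by rw [one_mul]; exact hx'

theorem h14_mem_centerIdeal {V : ValuationSubring Qb} {b : OQb} :
    b ∈ h14_centerIdeal V ↔ (b : Qb) ∈ V.nonunits := Iff.rfl

theorem h14_exists_isFrobeniusAt (l : ℕ) (hl : l.Prime) (V : ValuationSubring Qb)
    (hlV : V.LiesOverPrime l) : ∃ σ : GQ, V.IsFrobeniusAt σ l := by
  letI : TopologicalSpace OQb := ⊥
  haveI : DiscreteTopology OQb := ⟨rfl⟩
  haveI : ContinuousSMul GQ OQb := by
    rw [continuousSMul_iff_stabilizer_isOpen]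
    intro b
    have : (MulAction.stabilizer GQ b : Set GQ) = (MulAction.stabilizer GQ (b : Qb) : Set GQ) := by
      ext g
      simp only [SetLike.mem_coe, MulAction.mem_stabilizer_iff]
      exact Subtype.ext_iff
    rw [this]
    exact stabilizer_isOpen_of_isIntegral (b : Qb)
  haveI := h96_galActionInt_isInvariant
  -- the primes
  haveI hlmax : (Ideal.span {(l : ℤ)}).IsMaximal :=
    PrincipalIdealRing.isMaximal_of_irreducible (Nat.prime_iff_prime_int.mp hl).irreducible
  have hBV' : ∀ b : OQb, (b : Qb) ∈ V := fun b => h14_mem_valuationSubring_of_isIntegral V b.2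
  set Q : Ideal OQb := h14_centerIdeal V with hQdef
  have hQV1 : ∀ b : OQb, b ∈ Q → (b : Qb) ∈ V.nonunits := fun b hb => hb
  have hQV2 : ∀ b : OQb, b ∉ Q → (b : Qb) ∉ V.nonunits := fun b hb => hb
  have hQne : Q ≠ ⊤ := by
    intro h
    have h1 : (1 : OQb) ∈ Q := by rw [h]; trivial
    have h2 : V.valuation (((1 : OQb) : OQb) : Qb) < 1 := h1
    simp at h2
  haveI hQprime : Q.IsPrime := by
    refine ⟨hQne, ?_⟩
    intro a b hab
    by_contra hcon
    rw [not_or] at hcon
    have ha : V.valuation (a : Qb) = 1 :=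
      le_antisymm ((ValuationSubring.valuation_le_one_iff V _).mpr (hBV' _)) (not_lt.mp hcon.1)
    have hb : V.valuation (b : Qb) = 1 :=
      le_antisymm ((ValuationSubring.valuation_le_one_iff V _).mpr (hBV' _)) (not_lt.mp hcon.2)
    have h2 : V.valuation (((a * b : OQb)) : Qb) < 1 := hab
    push_cast at h2
    rw [map_mul, ha, hb, one_mul] at h2
    exact lt_irrefl _ h2
  have hlQ : (algebraMap ℤ OQb (l : ℤ)) ∈ Q := by
    show ((algebraMap ℤ OQb (l : ℤ) : OQb) : Qb) ∈ V.nonunits
    have : ((algebraMap ℤ OQb (l : ℤ) : OQb) : Qb) = (l : Qb) := by simp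
    rw [this]
    exact hlV
  have hQP : Q.comap (algebraMap ℤ OQb) = Ideal.span {(l : ℤ)} := by
    refine (hlmax.eq_of_le ?_ ?_).symm
    · exact (Ideal.comap_ne_top _ hQne)
    · rw [Ideal.span_singleton_le_iff_mem]
      exact hlQ
  haveI : Q.LiesOver (Ideal.span {(l : ℤ)}) := ⟨hQP.symm⟩
  have hQmax : Q.IsMaximal :=
    Ideal.isMaximal_of_isIntegral_of_isMaximal_comap (R := ℤ) Q (by rw [hQP]; exact hlmax)
  obtain ⟨τ, hτ⟩ := h96_exists_frobenius_algEquiv_of_algebra l hl Q
  obtain ⟨⟨g, hg⟩, hgτ⟩ := Ideal.Quotient.stabilizerHom_surjective_of_profinite (G := GQ)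
    (Ideal.span {(l : ℤ)}) Q τ
  -- properties of g
  have hgQ : ∀ b : OQb, g • b - b ^ l ∈ Q := by
    intro b
    rw [← Ideal.Quotient.eq, map_pow, ← hτ, ← hgτ]
    rfl
  have hgstab : ∀ b : OQb, b ∈ Q ↔ g • b ∈ Q := by
    intro b
    have hg' : g • Q = Q := hg
    conv_rhs => rw [← hg']
    exact Ideal.smul_mem_pointwise_smul_iff.symm
  -- fractions
  have hfrac : ∀ x ∈ V, ∃ b s : OQb, s ∉ Q ∧ x * (s : Qb) = (b : Qb) := by
    intro x hx
    have hxalg : IsAlgebraic ℤ x :=
      (IsFractionRing.isAlgebraic_iff ℤ ℚ Qb).mpr (Algebra.IsAlgebraic.isAlgebraic x)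
    obtain ⟨b, hb, s, hs, hsV, hxs⟩ := h96_exists_frac V l hl hlV x hx hxalg
    exact ⟨⟨b, hb⟩, ⟨s, hs⟩, fun hsQ => hsV (hQV1 _ hsQ), hxs⟩
  have hval1 : ∀ b : OQb, b ∉ Q → V.valuation (b : Qb) = 1 := by
    intro b hb
    exact le_antisymm ((ValuationSubring.valuation_le_one_iff V _).mpr (hBV' _))
      (not_lt.mp (hQV2 _ hb))
  -- stability
  have hstab : ∀ h : GQ, (∀ b : OQb, b ∈ Q ↔ h • b ∈ Q) → ∀ x ∈ V, h x ∈ V := by
    intro h hh x hx
    obtain ⟨b, s, hs, hxs⟩ := hfrac x hx
    have h1 : h x * ((h • s : OQb) : Qb) = ((h • b : OQb) : Qb) := by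
      rw [h96_galActionInt_coe, h96_galActionInt_coe, ← map_mul, hxs]
    have hs' : V.valuation ((h • s : OQb) : Qb) = 1 :=
      hval1 _ (fun hmem => hs ((hh s).mpr hmem))
    rw [← ValuationSubring.valuation_le_one_iff]
    have := congrArg V.valuation h1
    rw [map_mul, hs', mul_one] at this
    rw [this]
    exact (ValuationSubring.valuation_le_one_iff V _).mpr (hBV' _)
  have hginv : ∀ b : OQb, b ∈ Q ↔ g⁻¹ • b ∈ Q := by
    intro b
    rw [hgstab (g⁻¹ • b), smul_inv_smul]
  have hgV : g ∈ V.decompositionSubgroup ℚ := by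
    rw [MulAction.mem_stabilizer_iff]
    ext x
    rw [ValuationSubring.mem_pointwise_smul_iff_inv_smul_mem]
    constructor
    · intro hx
      have := hstab g hgstab _ hx
      rwa [AlgEquiv.smul_def, ← AlgEquiv.mul_apply, mul_inv_cancel, AlgEquiv.one_apply] at this
    · intro hx
      exact hstab g⁻¹ hginv x hx
  refine ⟨g, hgV, ?_⟩
  intro x
  obtain ⟨y, rfl⟩ := IsLocalRing.residue_surjective x
  rw [← IsLocalRing.ResidueField.residue_smul, ← map_pow, ← sub_eq_zero, ← map_sub,
    IsLocalRing.residue_eq_zero_iff, ValuationSubring.valuation_lt_one_iff]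
  obtain ⟨b, s, hs, hxs⟩ := hfrac y y.2
  have hcoe : ((((⟨g, hgV⟩ : V.decompositionSubgroup ℚ) • y - y ^ l : V)) : Qb) =
      g (y : Qb) - (y : Qb) ^ l := rfl
  rw [hcoe]
  have hgs : g • s ∉ Q := fun h => hs ((hgstab s).mpr h)
  have hunit : V.valuation (((g • s) * s ^ l : OQb) : Qb) = 1 :=
    hval1 _ (fun h => (Ideal.IsPrime.mem_or_mem ‹Q.IsPrime› h).elim hgs
      (fun h' => hs (Ideal.IsPrime.mem_of_pow_mem ‹Q.IsPrime› _ h')))
  have hnum : V.valuation
      ((((g • b - b ^ l) * s ^ l - b ^ l * (g • s - s ^ l) : OQb)) : Qb) < 1 :=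
    hQV1 _ (Q.sub_mem (Q.mul_mem_right _ (hgQ b)) (Q.mul_mem_left _ (hgQ s)))
  have hkey : (g (y : Qb) - (y : Qb) ^ l) * (((g • s) * s ^ l : OQb) : Qb) =
      ((((g • b - b ^ l) * s ^ l - b ^ l * (g • s - s ^ l) : OQb)) : Qb) := by
    have e1 : g (y : Qb) * g (s : Qb) = g (b : Qb) := by rw [← map_mul, hxs]
    have e2 : (y : Qb) ^ l * (s : Qb) ^ l = (b : Qb) ^ l := by rw [← mul_pow, hxs]
    push_cast
    rw [h96_galActionInt_coe, h96_galActionInt_coe]
    linear_combination (s : Qb) ^ l * e1 - g (s : Qb) * e2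
  have := congrArg V.valuation hkey
  rw [map_mul, hunit, mul_one] at this
  rw [this]
  exact hnum

end Frob

end Fermat.Agent.S37
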