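import Fermat.Agent.S37.Kronecker50

/-!
# S37, row KR (helper50), part 2: Frobenius form of the Kronecker congruence

* `kr50_pow_char` : in characteristic `p`, `x ^ p = qExpand p (coeffMap frobenius x)` for Laurent
  series.
* `kr50_core_frob` : the Kronecker congruence in the form
  `gbar = ybar(q^l) * (ybar with coefficients raised to the l-th power)`.
* `kr50_main_frob_of`, `kr50_main_alpha_frob_of` : the row statement in this form, for the norm
  along `β` of `α f` resp. the norm along `α` of `β f`, with the norm-conjugates identity as an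
  explicit hypothesis.
-/

set_option autoImplicit false

open ModularCurve AlgebraicCurve

namespace Fermat.Agent.S37

section Frob

variable {R S : Type*} [CommRing R] [CommRing S]

theorem kr50_coeffMap_ofPowerSeries (φ : R →+* S) (f : PowerSeries R) :
    coeffMap φ (HahnSeries.ofPowerSeries ℤ R f) = HahnSeries.ofPowerSeries ℤ S (f.map φ) := by
  ext k
  rw [coeffMap_coeff, PowerSeries.coeff_coe, PowerSeries.coeff_coe]
  split_ifs with h
  · exact map_zero φ
  · rw [PowerSeries.coeff_map]

theorem kr50_qExpand_ofPowerSeries (p : ℕ) [NeZero p] (f : PowerSeries R) :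
    qExpand R p (HahnSeries.ofPowerSeries ℤ R f)
      = HahnSeries.ofPowerSeries ℤ R (PowerSeries.expand p (NeZero.ne p) f) := by
  ext k
  by_cases hk : (p : ℤ) ∣ k
  · obtain ⟨m, rfl⟩ := hk
    rw [qExpand_coeff_mul, PowerSeries.coeff_coe, PowerSeries.coeff_coe]
    have hp : (0 : ℤ) < p := by exact_mod_cast Nat.pos_of_ne_zero (NeZero.ne p)
    by_cases hm : m < 0
    · rw [if_pos hm, if_pos (by nlinarith)]
    · rw [if_neg hm, if_neg (by nlinarith)]
      rw [Int.natAbs_mul, Int.natAbs_natCast, PowerSeries.coeff_expand_mul]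
  · rw [qExpand_coeff_of_not_dvd p _ hk, PowerSeries.coeff_coe]
    split_ifs with h
    · rfl
    · rw [PowerSeries.coeff_expand_of_not_dvd]
      intro hdvd
      apply hk
      have hk0 : 0 ≤ k := not_lt.mp h
      rw [← Int.natAbs_of_nonneg hk0]
      exact_mod_cast hdvd

/-- In characteristic `p`, the `p`-th power of a Laurent series is obtained by raising the
coefficients to the `p`-th power and substituting `q ↦ q^p`. -/
theorem kr50_pow_char (p : ℕ) [NeZero p] [ExpChar R p] (x : LaurentSeries R) :
    x ^ p = qExpand R p (coeffMap (frobenius R p) x) := by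
  have hx := LaurentSeries.single_order_mul_powerSeriesPart x
  conv_lhs => rw [← hx]
  conv_rhs => rw [← hx]
  rw [mul_pow, map_mul, map_mul, coeffMap_single, qExpand_single, HahnSeries.single_pow,
    kr50_coeffMap_ofPowerSeries, kr50_qExpand_ofPowerSeries, ← PowerSeries.map_expand]
  refine congrArg₂ (· * ·) ?_ ?_
  · rw [map_one, one_pow, nsmul_eq_mul]
  · rw [← PowerSeries.coe_pow]
    congr 1
    exact (MvPowerSeries.map_frobenius_expand (p := p) (hp := NeZero.ne p)).symm

end Frob

section CoreFrob

variable {L : Type*} [Field L]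

theorem kr50_charP (A : ValuationSubring L) {l : ℕ} (hl : l.Prime)
    (hA : (l : L) ∈ A.nonunits) : CharP (IsLocalRing.ResidueField A) l := by
  have hl0 : ((l : ℕ) : IsLocalRing.ResidueField A) = 0 := by
    have h1 : ((l : A) : L) ∈ A.nonunits := by simpa using hA
    have h2 : (l : A) ∈ IsLocalRing.maximalIdeal A := ValuationSubring.coe_mem_nonunits_iff.mp h1
    have h3 := (IsLocalRing.residue_eq_zero_iff (l : A)).mpr h2
    simpa using h3
  exact (CharP.charP_iff_prime_eq_zero hl).mpr hl0

/-- **Kronecker congruence, Frobenius form.**  Same hypotheses as `kr50_core`; `φ` is the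
`l`-th power map of the residue field.  Then `g` is `A`-integral and
`gbar = ybar(q^l) * ybar^φ`, where `ybar^φ` has the coefficients of `ybar` raised to the
`l`-th power. -/
theorem kr50_core_frob (A : ValuationSubring L) {l : ℕ} [NeZero l] (hl : l.Prime)
    (hA : (l : L) ∈ A.nonunits) (y : LaurentSeries A) (g : LaurentSeries L)
    (ζ : Lˣ) (hζ : ζ ^ l = 1)
    (hNC : qExpand L l g = qExpand L (l * l) (coeffMap A.subtype y) *
      ∏ i ∈ Finset.range l, kr50_qTwist (ζ ^ i) (coeffMap A.subtype y))
    (φ : IsLocalRing.ResidueField A →+* IsLocalRing.ResidueField A)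
    (hφ : ∀ x, φ x = x ^ l) :
    ∃ y' : LaurentSeries A, coeffMap A.subtype y' = g ∧
      coeffMap (IsLocalRing.residue A) y' =
        qExpand (IsLocalRing.ResidueField A) l (coeffMap (IsLocalRing.residue A) y) *
          coeffMap φ (coeffMap (IsLocalRing.residue A) y) := by
  obtain ⟨y', hy', hred⟩ := kr50_core A hl hA y g ζ hζ hNC
  refine ⟨y', hy', ?_⟩
  have hchar : CharP (IsLocalRing.ResidueField A) l := kr50_charP A hl hA
  have hprime : Fact l.Prime := ⟨hl⟩
  have hφ' : φ = frobenius (IsLocalRing.ResidueField A) l := by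
    ext x
    rw [hφ, frobenius_def]
  apply qExpand_injective (R := IsLocalRing.ResidueField A) l
  rw [hred, map_mul, qExpand_qExpand, hφ', ← kr50_pow_char]

end CoreFrob

section MainFrob

local notation "Qbar" => AlgebraicClosure ℚ

/-- **Row KR, Frobenius form, for the norm along `β` of `α f`** (norm-conjugates identity as an
explicit hypothesis). -/
theorem kr50_main_frob_of (M l : ℕ) [NeZero M] [NeZero l] (hl : l.Prime)
    (A : ValuationSubring Qbar) (hA : A.LiesOverPrime l) (y : LaurentSeries A)
    (hy : coeffMap A.subtype y ∈ modularFunctionFieldBar M)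
    (hNC : letI := algebraAlong (heckeBetaBar Qbar M l);
      ∃ ζ : Qbarˣ, ζ ^ l = 1 ∧
        qExpand Qbar l ((Algebra.norm (modularFunctionFieldBar M)
            (heckeAlphaBar Qbar M l ⟨coeffMap A.subtype y, hy⟩) : modularFunctionFieldBar M) :
              LaurentSeries Qbar)
          = qExpand Qbar (l * l) (coeffMap A.subtype y) *
            ∏ i ∈ Finset.range l, kr50_qTwist (ζ ^ i) (coeffMap A.subtype y))
    (φ : IsLocalRing.ResidueField A →+* IsLocalRing.ResidueField A)
    (hφ : ∀ x, φ x = x ^ l) :
    letI := algebraAlong (heckeBetaBar Qbar M l);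
    ∃ y' : LaurentSeries A,
      coeffMap A.subtype y' = ((Algebra.norm (modularFunctionFieldBar M)
          (heckeAlphaBar Qbar M l ⟨coeffMap A.subtype y, hy⟩) : modularFunctionFieldBar M) :
            LaurentSeries Qbar) ∧
      coeffMap (IsLocalRing.residue A) y' =
        qExpand (IsLocalRing.ResidueField A) l (coeffMap (IsLocalRing.residue A) y) *
          coeffMap φ (coeffMap (IsLocalRing.residue A) y) := by
  letI := algebraAlong (heckeBetaBar Qbar M l)
  obtain ⟨ζ, hζ, h⟩ := hNC
  exact kr50_core_frob A hl hA y _ ζ hζ h φ hφ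

/-- **Row KR, Frobenius form, for the norm along `α` of `β f`** (the shape consumed by the
Eichler–Shimura relation on principal divisors; norm-conjugates identity as an explicit
hypothesis). -/
theorem kr50_main_alpha_frob_of (M l : ℕ) [NeZero M] [NeZero l] (hl : l.Prime)
    (A : ValuationSubring Qbar) (hA : A.LiesOverPrime l) (y : LaurentSeries A)
    (hy : coeffMap A.subtype y ∈ modularFunctionFieldBar M)
    (hNC : letI := algebraAlong (heckeAlphaBar Qbar M l);
      ∃ ζ : Qbarˣ, ζ ^ l = 1 ∧
        qExpand Qbar l ((Algebra.norm (modularFunctionFieldBar M)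
            (heckeBetaBar Qbar M l ⟨coeffMap A.subtype y, hy⟩) : modularFunctionFieldBar M) :
              LaurentSeries Qbar)
          = qExpand Qbar (l * l) (coeffMap A.subtype y) *
            ∏ i ∈ Finset.range l, kr50_qTwist (ζ ^ i) (coeffMap A.subtype y))
    (φ : IsLocalRing.ResidueField A →+* IsLocalRing.ResidueField A)
    (hφ : ∀ x, φ x = x ^ l) :
    letI := algebraAlong (heckeAlphaBar Qbar M l);
    ∃ y' : LaurentSeries A,
      coeffMap A.subtype y' = ((Algebra.norm (modularFunctionFieldBar M)
          (heckeBetaBar Qbar M l ⟨coeffMap A.subtype y, hy⟩) : modularFunctionFieldBar M) :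
            LaurentSeries Qbar) ∧
      coeffMap (IsLocalRing.residue A) y' =
        qExpand (IsLocalRing.ResidueField A) l (coeffMap (IsLocalRing.residue A) y) *
          coeffMap φ (coeffMap (IsLocalRing.residue A) y) := by
  letI := algebraAlong (heckeAlphaBar Qbar M l)
  obtain ⟨ζ, hζ, h⟩ := hNC
  exact kr50_core_frob A hl hA y _ ζ hζ h φ hφ

end MainFrob

end Fermat.Agent.S37
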