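import Mathlib
import Fermat.Prelude.Def_ModularCurve_X0ModL
import Fermat.Agent.S18.NumFieldDVR23
import Fermat.Agent.S18.FieldDef27

/-!
# S37, row NM step (a) (helper46): from number fields to `ℚ̄` (K-level → A-level)

Chart normality ("every element of `F_κ(N)` integral over `κ[ḡ]` is the reduction of an element
of `F_K(N)` integral over `S[g]`") is proved over the discrete valuation rings `R = A ∩ K₀`
of number fields `K₀ ⊆ ℚ̄`.  This file transfers it to the (non-discrete) valuation ring `A` of
`ℚ̄` itself: the residue field of `A` is the union of the residue fields of the `A ∩ K₀`, and an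
element of `F_k(N)` together with an integrality equation only involves finitely many elements
of `k`.

* `ka46_ev φ g : S[X] →+* S'((q))`, `X ↦ g`, constants through `φ : S →+* S'`; the chart
  coordinate `g` is any Laurent series with integer coefficients (`j`, `1/j`, `h`, `1/h`).
* `ka46_NormalAt inc res N g` : chart normality in fraction form.
* `ka46_descend`, `ka46_descend_integral` : descent to a subfield containing finitely many
  elements.
* `ka46_exists_numberField_res` : finitely many elements of the residue field of `A` lie in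
  the residue field of `A ∩ K₀` for a number field `K₀` (containing a prescribed finite set).
* `ka46_normalA_of_normalK` : the transfer.
* `ka46_normalAt_of_red` : the K-level hypothesis from a reduction map.
-/

set_option autoImplicit false

open ModularCurve

namespace Fermat.Agent.S37

open Fermat.Agent.S18

universe u v

local notation "Qb" => AlgebraicClosure ℚ

section Ev

variable {S S' S'' : Type*} [CommRing S] [CommRing S'] [CommRing S'']

/-- The chart coordinate `g` with coefficients in `S`. -/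
noncomputable def ka46_g (S : Type*) [CommRing S] (g : LaurentSeries ℤ) : LaurentSeries S :=
  coeffMap (Int.castRingHom S) g

/-- Evaluation `S[X] → S'((q))`, `X ↦ g`, constants through `φ`. -/
noncomputable def ka46_ev (φ : S →+* S') (g : LaurentSeries ℤ) :
    Polynomial S →+* LaurentSeries S' :=
  Polynomial.eval₂RingHom ((HahnSeries.C : S' →+* LaurentSeries S').comp φ) (ka46_g S' g)

theorem ka46_ev_apply (φ : S →+* S') (g : LaurentSeries ℤ) (p : Polynomial S) :
    ka46_ev φ g p =
      p.eval₂ ((HahnSeries.C : S' →+* LaurentSeries S').comp φ) (ka46_g S' g) := rfl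

theorem ka46_coeffMap_g (ψ : S' →+* S'') (g : LaurentSeries ℤ) :
    coeffMap ψ (ka46_g S' g) = ka46_g S'' g := by
  rw [ka46_g, ka46_g, coeffMap_coeffMap]
  exact coeffMap_congr (RingHom.ext_int _ _) g

theorem ka46_coeffMap_C (ψ : S' →+* S'') (a : S') :
    coeffMap ψ (HahnSeries.C a : LaurentSeries S') = (HahnSeries.C (ψ a) : LaurentSeries S'') := by
  rw [HahnSeries.C_apply, HahnSeries.C_apply, coeffMap_single]

theorem ka46_coeffMap_ev (φ : S →+* S') (ψ : S' →+* S'') (g : LaurentSeries ℤ)
    (p : Polynomial S) : coeffMap ψ (ka46_ev φ g p) = ka46_ev (ψ.comp φ) g p := by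
  rw [ka46_ev_apply, ka46_ev_apply, Polynomial.hom_eval₂, ka46_coeffMap_g]
  congr 1
  ext a
  simp only [RingHom.comp_apply]
  rw [ka46_coeffMap_C]

theorem ka46_ev_map {S₀ : Type*} [CommRing S₀] (ψ : S₀ →+* S) (φ : S →+* S')
    (g : LaurentSeries ℤ) (p : Polynomial S₀) :
    ka46_ev φ g (p.map ψ) = ka46_ev (φ.comp ψ) g p := by
  rw [ka46_ev_apply, ka46_ev_apply, Polynomial.eval₂_map, RingHom.comp_assoc]

theorem ka46_ev_id_map (φ : S →+* S') (g : LaurentSeries ℤ) (p : Polynomial S) :
    ka46_ev (RingHom.id S') g (p.map φ) = ka46_ev φ g p := by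
  rw [ka46_ev_map, RingHom.id_comp]

/-- Integrality over `S[g]` is transported by a change of coefficients. -/
theorem ka46_isIntegralElem_coeffMap {S₀ K₀ : Type*} [CommRing S₀] [CommRing K₀]
    (inc₀ : S₀ →+* K₀) (inc : S →+* S') (α : S₀ →+* S) (β : K₀ →+* S')
    (hcomm : inc.comp α = β.comp inc₀) (g : LaurentSeries ℤ) (x : LaurentSeries K₀)
    (hx : (ka46_ev inc₀ g).IsIntegralElem x) : (ka46_ev inc g).IsIntegralElem (coeffMap β x) := by
  obtain ⟨p, hp, hpx⟩ := hx
  refine ⟨p.map (Polynomial.mapRingHom α), hp.map _, ?_⟩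
  have hhom : (ka46_ev inc g).comp (Polynomial.mapRingHom α) =
      (coeffMap β).comp (ka46_ev inc₀ g) := by
    refine RingHom.ext fun a => ?_
    simp only [RingHom.comp_apply, Polynomial.coe_mapRingHom]
    rw [ka46_ev_map, ka46_coeffMap_ev, hcomm]
  rw [Polynomial.eval₂_map, hhom, ← Polynomial.hom_eval₂, hpx, map_zero]

end Ev

/-- **Chart normality in fraction form.**  `S` is the base ring (`A ∩ K₀`, or `A`), with
`inc : S → K` into its fraction field and `res : S → κ` onto its residue field; `g` is the chart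
coordinate.  Every `z ∈ F_κ(N)` integral over `κ[ḡ]` is the reduction of an `x ∈ F_K(N)`
integral over `S[g]`, in the form: `s(g) * x = y` has an `S`-integral `q`-expansion, `s ∈ S[X]`
has nonzero reduction, and `ȳ = s̄(ḡ) * z`. -/
def ka46_NormalAt {S K κ : Type*} [CommRing S] [Field K] [Field κ] (inc : S →+* K)
    (res : S →+* κ) (N : ℕ) (g : LaurentSeries ℤ) : Prop :=
  ∀ z : LaurentSeries κ, z ∈ modularFunctionFieldFullC κ N →
    (ka46_ev (RingHom.id κ) g).IsIntegralElem z →
    ∃ (x : LaurentSeries K) (s : Polynomial S) (y : LaurentSeries S),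
      x ∈ modularFunctionFieldFullC K N ∧ (ka46_ev inc g).IsIntegralElem x ∧
      s.map res ≠ 0 ∧
      coeffMap inc y = ka46_ev inc g s * x ∧
      coeffMap res y = ka46_ev (RingHom.id κ) g (s.map res) * z

section Descend

/-- An element of `F_k(N)` is defined over every subfield containing finitely many prescribed
elements of `k`. -/
theorem ka46_descend {k : Type u} [Field k] (N : ℕ) (z : LaurentSeries k)
    (hz : z ∈ modularFunctionFieldFullC k N) :
    ∃ T : Finset k, ∀ (κ : Type v) [Field κ] (ι : κ →+* k), (∀ t ∈ T, t ∈ ι.range) →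
      ∃ z0 : LaurentSeries κ, z0 ∈ modularFunctionFieldFullC κ N ∧ coeffMap ι z0 = z := by
  classical
  unfold modularFunctionFieldFullC at hz
  induction hz using IntermediateField.adjoin_induction with
  | mem y hy =>
    obtain ⟨d, hne, hd, rfl⟩ := hy
    refine ⟨∅, fun κ _ ι _ => ⟨qExpand κ d (jqModC κ), jqModCd_mem_full κ N hd, ?_⟩⟩
    exact coeffMap_jqNModC ι d
  | algebraMap c =>
    refine ⟨{c}, fun κ _ ι hT => ?_⟩
    obtain ⟨c0, hc0⟩ := hT c (Finset.mem_singleton_self c)
    refine ⟨algebraMap κ (LaurentSeries κ) c0, IntermediateField.algebraMap_mem _ _, ?_⟩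
    rw [fd27_coeffMap_algebraMap, hc0]
  | add x y _ _ hx hy =>
    obtain ⟨T1, h1⟩ := hx
    obtain ⟨T2, h2⟩ := hy
    refine ⟨T1 ∪ T2, fun κ _ ι hT => ?_⟩
    obtain ⟨x0, hx0, hx0'⟩ := h1 κ ι (fun t ht => hT t (Finset.mem_union_left _ ht))
    obtain ⟨y0, hy0, hy0'⟩ := h2 κ ι (fun t ht => hT t (Finset.mem_union_right _ ht))
    exact ⟨x0 + y0, add_mem hx0 hy0, by rw [map_add, hx0', hy0']⟩
  | inv x _ hx =>
    obtain ⟨T1, h1⟩ := hx
    refine ⟨T1, fun κ _ ι hT => ?_⟩
    obtain ⟨x0, hx0, hx0'⟩ := h1 κ ι hT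
    exact ⟨x0⁻¹, inv_mem hx0, by rw [map_inv₀, hx0']⟩
  | mul x y _ _ hx hy =>
    obtain ⟨T1, h1⟩ := hx
    obtain ⟨T2, h2⟩ := hy
    refine ⟨T1 ∪ T2, fun κ _ ι hT => ?_⟩
    obtain ⟨x0, hx0, hx0'⟩ := h1 κ ι (fun t ht => hT t (Finset.mem_union_left _ ht))
    obtain ⟨y0, hy0, hy0'⟩ := h2 κ ι (fun t ht => hT t (Finset.mem_union_right _ ht))
    exact ⟨x0 * y0, mul_mem hx0 hy0, by rw [map_mul, hx0', hy0']⟩

/-- An integrality equation over `k[ḡ]` descends to every subfield containing finitely many
prescribed elements of `k`. -/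
theorem ka46_descend_integral {k : Type u} [Field k] (g : LaurentSeries ℤ) (z : LaurentSeries k)
    (hz : (ka46_ev (RingHom.id k) g).IsIntegralElem z) :
    ∃ T : Finset k, ∀ (κ : Type v) [Field κ] (ι : κ →+* k), (∀ t ∈ T, t ∈ ι.range) →
      ∀ z0 : LaurentSeries κ, coeffMap ι z0 = z →
        (ka46_ev (RingHom.id κ) g).IsIntegralElem z0 := by
  classical
  obtain ⟨p, hp, hpz⟩ := hz
  refine ⟨p.coeffs.biUnion fun c => c.coeffs, fun κ _ ι hT z0 hz0 => ?_⟩
  have hcoeff : ∀ n : ℕ, p.coeff n ∈ Set.range (Polynomial.mapRingHom ι) := by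
    intro n
    have h1 : p.coeff n ∈ Polynomial.lifts ι := by
      rw [Polynomial.lifts_iff_coeff_lifts]
      intro m
      by_cases hm : (p.coeff n).coeff m = 0
      · exact ⟨0, by rw [map_zero, hm]⟩
      · have hn : p.coeff n ≠ 0 := by
          intro h0
          apply hm
          rw [h0, Polynomial.coeff_zero]
        have h2 : (p.coeff n).coeff m ∈ p.coeffs.biUnion fun c => c.coeffs := by
          rw [Finset.mem_biUnion]
          exact ⟨p.coeff n, Polynomial.coeff_mem_coeffs hn, Polynomial.coeff_mem_coeffs hm⟩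
        exact hT _ h2
    obtain ⟨q, hq⟩ := (Polynomial.mem_lifts _).mp h1
    exact ⟨q, hq⟩
  have hlift : p ∈ Polynomial.lifts (Polynomial.mapRingHom ι) := by
    rw [Polynomial.lifts_iff_coeff_lifts]
    exact hcoeff
  obtain ⟨q, hq, -, hqm⟩ := Polynomial.lifts_and_degree_eq_and_monic hlift hp
  refine ⟨q, hqm, ?_⟩
  apply fd27_coeffMap_injective ι ι.injective
  have hhom : (coeffMap ι).comp (ka46_ev (RingHom.id κ) g) =
      (ka46_ev (RingHom.id k) g).comp (Polynomial.mapRingHom ι) := by
    refine RingHom.ext fun a => ?_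
    simp only [RingHom.comp_apply, Polynomial.coe_mapRingHom]
    rw [ka46_coeffMap_ev, ka46_ev_map, RingHom.comp_id, RingHom.id_comp]
  rw [map_zero, Polynomial.hom_eval₂, hhom, hz0, ← Polynomial.eval₂_map, hq, hpz]

end Descend

section NumberField

/-- Finitely many elements of the residue field of a valuation subring `A` of `ℚ̄` lie in the
residue field of `A ∩ K₀` for a number field `K₀ ⊆ ℚ̄`, which can be chosen to contain a
prescribed finite subset of `ℚ̄`. -/
theorem ka46_exists_numberField_res (A : ValuationSubring Qb)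
    (T : Finset (IsLocalRing.ResidueField A)) (T0 : Finset Qb) :
    ∃ K0 : IntermediateField ℚ Qb, NumberField K0 ∧ (∀ t ∈ T0, t ∈ K0) ∧
      ∀ t ∈ T, t ∈ (nf23_resMap (algebraMap K0 Qb) A).range := by
  classical
  choose lift hlift using fun t : IsLocalRing.ResidueField A =>
    IsLocalRing.residue_surjective (R := A) t
  have halg : Algebra.IsAlgebraic ℚ Qb := AlgebraicClosure.isAlgebraic ℚ
  obtain ⟨K0, hNF, hK0⟩ := nf23_exists_numberField (T.image (fun t => ((lift t : A) : Qb)) ∪ T0)
  refine ⟨K0, hNF, fun t ht => hK0 (by simp [ht]), fun t ht => ?_⟩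
  have hmem : ((lift t : A) : Qb) ∈ K0 := by
    apply hK0
    rw [Finset.coe_union, Finset.coe_image]
    exact Or.inl ⟨t, ht, rfl⟩
  have hcomap : (⟨((lift t : A) : Qb), hmem⟩ : K0) ∈ A.comap (algebraMap K0 Qb) := by
    rw [ValuationSubring.mem_comap]
    exact (lift t).2
  refine ⟨IsLocalRing.residue _ ⟨⟨((lift t : A) : Qb), hmem⟩, hcomap⟩, ?_⟩
  rw [nf23_resMap_residue]
  have hEq : nf23_comapHom (algebraMap K0 Qb) A ⟨⟨((lift t : A) : Qb), hmem⟩, hcomap⟩ = lift t :=
    Subtype.ext rfl
  rw [hEq, hlift t]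

end NumberField

section Transfer

/-- **K-level → A-level.**  If chart normality holds over `R = A ∩ K₀` for every number field
`K₀ ⊆ ℚ̄` containing a fixed finite set `T0`, then it holds over `A`. -/
theorem ka46_normalA_of_normalK (A : ValuationSubring Qb) (N : ℕ) (g : LaurentSeries ℤ)
    (T0 : Finset Qb)
    (h : ∀ K0 : IntermediateField ℚ Qb, NumberField K0 → (∀ t ∈ T0, t ∈ K0) →
      ka46_NormalAt (A.comap (algebraMap K0 Qb)).subtype
        (IsLocalRing.residue (A.comap (algebraMap K0 Qb))) N g) :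
    ka46_NormalAt A.subtype (IsLocalRing.residue A) N g := by
  classical
  intro z hz hzint
  obtain ⟨T1, hT1⟩ := ka46_descend.{0, 0} N z hz
  obtain ⟨T2, hT2⟩ := ka46_descend_integral.{0, 0} g z hzint
  obtain ⟨K0, hNF, hK0T0, hK0T⟩ := ka46_exists_numberField_res A (T1 ∪ T2) T0
  set f : K0 →+* Qb := algebraMap K0 Qb with hf
  set ι := nf23_resMap f A with hι
  obtain ⟨z0, hz0, hz0z⟩ := hT1 _ ι (fun t ht => hK0T t (Finset.mem_union_left _ ht))
  have hz0int := hT2 _ ι (fun t ht => hK0T t (Finset.mem_union_right _ ht)) z0 hz0z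
  obtain ⟨x0, s0, y0, hx0, hx0int, hs0, hy0, hy0z⟩ := h K0 hNF hK0T0 z0 hz0 hz0int
  have hcomm : A.subtype.comp (nf23_comapHom f A) = f.comp (A.comap f).subtype := by
    ext a
    rfl
  have hres : (IsLocalRing.residue A).comp (nf23_comapHom f A) =
      ι.comp (IsLocalRing.residue (A.comap f)) := (nf23_resMap_comp_residue f A).symm
  have hsmap : (s0.map (nf23_comapHom f A)).map (IsLocalRing.residue A) =
      (s0.map (IsLocalRing.residue (A.comap f))).map ι := by
    rw [Polynomial.map_map, Polynomial.map_map, hres]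
  refine ⟨coeffMap f x0, s0.map (nf23_comapHom f A), coeffMap (nf23_comapHom f A) y0,
    fd27_coeffMap_mem f N hx0, ?_, ?_, ?_, ?_⟩
  · exact ka46_isIntegralElem_coeffMap (A.comap f).subtype A.subtype (nf23_comapHom f A) f hcomm
      g x0 hx0int
  · rw [hsmap]
    exact (Polynomial.map_ne_zero_iff ι.injective).mpr hs0
  · rw [coeffMap_coeffMap, hcomm, ← coeffMap_coeffMap, hy0, map_mul, ka46_coeffMap_ev,
      ka46_ev_map, hcomm]
  · rw [coeffMap_coeffMap, hres, ← coeffMap_coeffMap, hy0z, map_mul, hz0z, ka46_coeffMap_ev,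
      hsmap, ka46_ev_id_map ι g, RingHom.comp_id]

end Transfer

section Bridge

/-- **The K-level hypothesis from a reduction map.**  `B` is any ring with an embedding `emb`
into `K((q))` whose image consists of elements of `F_K(N)` integral over `S[g]` and contains
`S[g]`; `φ : B → κ((q))` is a ring homomorphism which is the coefficientwise reduction on
elements with an `S`-integral expansion; every element of `B` has a denominator `s(g)` with
`s̄ ≠ 0` clearing it into an `S`-integral expansion (the shape of `rm90_package`); and `φ` is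
onto the elements of `F_κ(N)` integral over `κ[ḡ]`.  Then chart normality holds in fraction
form. -/
theorem ka46_normalAt_of_red {S K κ B : Type*} [CommRing S] [Field K] [Field κ] [CommRing B]
    (inc : S →+* K) (res : S →+* κ) (N : ℕ) (g : LaurentSeries ℤ)
    (emb : B →+* LaurentSeries K) (φ : B →+* LaurentSeries κ)
    (hBF : ∀ b : B, emb b ∈ modularFunctionFieldFullC K N)
    (hBint : ∀ b : B, (ka46_ev inc g).IsIntegralElem (emb b))
    (hBev : ∀ s : Polynomial S, ∃ b : B, emb b = ka46_ev inc g s)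
    (hden : ∀ b : B, ∃ (s : Polynomial S) (y : LaurentSeries S), s.map res ≠ 0 ∧
      coeffMap inc y = ka46_ev inc g s * emb b)
    (hφ : ∀ (b : B) (y : LaurentSeries S), coeffMap inc y = emb b → φ b = coeffMap res y)
    (hsurj : ∀ z : LaurentSeries κ, z ∈ modularFunctionFieldFullC κ N →
      (ka46_ev (RingHom.id κ) g).IsIntegralElem z → ∃ b : B, φ b = z) :
    ka46_NormalAt inc res N g := by
  intro z hz hzint
  obtain ⟨b, hb⟩ := hsurj z hz hzint
  obtain ⟨s, y, hs, hy⟩ := hden b
  obtain ⟨bs, hbs⟩ := hBev s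
  refine ⟨emb b, s, y, hBF b, hBint b, hs, hy, ?_⟩
  have h1 : φ bs = ka46_ev (RingHom.id κ) g (s.map res) := by
    rw [hφ bs (ka46_ev (RingHom.id S) g s) (by rw [ka46_coeffMap_ev, RingHom.comp_id, hbs]),
      ka46_coeffMap_ev, RingHom.comp_id, ka46_ev_id_map]
  have h2 : φ (bs * b) = coeffMap res y := hφ (bs * b) y (by rw [hy, map_mul, hbs])
  rw [← h2, map_mul, h1, hb]

end Bridge

end Fermat.Agent.S37
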