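import Mathlib
import Fermat.Prelude.Def_ModularCurve_X0ModL
import Fermat.Agent.S37.ALevel46

/-!
# S37 (helper46): the `q`-expansion principle for charts

For a principal ideal domain `R` (e.g. a discrete valuation ring) with fraction field `K`:
an element of the modular function field `F_K(N) ⊆ K((q))` which is integral over `R[g]`
(`g` a chart coordinate with integer coefficients) has an `R`-integral `q`-expansion.

The reason: `R⟦q⟧` is a unique factorisation domain (Mathlib, `R` principal), hence integrally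
closed, hence so is `R((q)) = R⟦q⟧[1/q]`; and `F_K(N)` lies in the fraction field of `R((q))`
inside `K((q))`, being generated over `K` by `R`-integral series.

* `qx46_isIntegrallyClosed_laurent` : `R((q))` is integrally closed.
* `qx46_of_frac` : `x ∈ K((q))`, `b x = a` with `a, b ∈ R((q))`, `b ≠ 0`, `x` integral over
  `R((q))` ⟹ `x ∈ R((q))`.
* `qx46_exists_frac` : elements of `F_K(N)` are quotients of `R`-integral series.
* `qx46_integral_expansion` : the principle.
* `qx46_integral_expansion_A` : the same over a valuation subring `A` of `ℚ̄` (directed union of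
  the `A ∩ K₀`).
* `qx46_lift_of_normalAt` : chart normality in fraction form (`ka46_NormalAt`) gives lifts with
  integral expansions.
* `qx46_isIntegralElem_iff_adjoin`, `qx46_ev_id_eq_aeval` : dictionary with
  `IsIntegral (Algebra.adjoin _ {g})`.
-/

set_option autoImplicit false

open ModularCurve

namespace Fermat.Agent.S37

open Fermat.Agent.S18

local notation "Qb" => AlgebraicClosure ℚ

section Normal

variable {R : Type*} [CommRing R] [IsDomain R] [IsPrincipalIdealRing R]

/-- Laurent series over a principal ideal domain form an integrally closed domain. -/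
theorem qx46_isIntegrallyClosed_laurent : IsIntegrallyClosed (LaurentSeries R) :=
  isIntegrallyClosed_of_isLocalization (LaurentSeries R)
    (Submonoid.powers (PowerSeries.X : PowerSeries R))
    (powers_le_nonZeroDivisors_of_noZeroDivisors PowerSeries.X_ne_zero)

variable {K : Type*} [Field K]

/-- An element of `K((q))` which is a quotient of two `R`-integral series and is integral over
`R((q))` is `R`-integral. -/
theorem qx46_of_frac (inc : R →+* K) (hinc : Function.Injective inc) (x : LaurentSeries K)
    (a b : LaurentSeries R) (hb : b ≠ 0) (hab : coeffMap inc b * x = coeffMap inc a)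
    (hint : (coeffMap inc).IsIntegralElem x) : ∃ y : LaurentSeries R, coeffMap inc y = x := by
  have hIC : IsIntegrallyClosed (LaurentSeries R) := qx46_isIntegrallyClosed_laurent
  have hc : Function.Injective (coeffMap inc) := fd27_coeffMap_injective inc hinc
  let Fr := FractionRing (LaurentSeries R)
  let ψ : Fr →+* LaurentSeries K := IsFractionRing.lift hc
  have hψ : ∀ y : LaurentSeries R, ψ (algebraMap (LaurentSeries R) Fr y) = coeffMap inc y :=
    fun y => IsFractionRing.lift_algebraMap hc y
  have hcb : coeffMap inc b ≠ 0 := fun h => hb (hc (by rw [h, map_zero]))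
  set w : Fr := algebraMap (LaurentSeries R) Fr a / algebraMap (LaurentSeries R) Fr b with hw
  have hψw : ψ w = x := by
    rw [hw, map_div₀, hψ, hψ, ← hab, mul_div_cancel_left₀ _ hcb]
  obtain ⟨p, hp, hpx⟩ := hint
  have hwint : IsIntegral (LaurentSeries R) w := by
    refine ⟨p, hp, ?_⟩
    apply ψ.injective
    rw [map_zero, Polynomial.hom_eval₂, hψw]
    have : ψ.comp (algebraMap (LaurentSeries R) Fr) = coeffMap inc := RingHom.ext hψ
    rw [this, hpx]
  obtain ⟨y, hy⟩ := IsIntegrallyClosed.isIntegral_iff.mp hwint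
  exact ⟨y, by rw [← hψ, hy, hψw]⟩

end Normal

section Frac

variable {R K : Type*} [CommRing R] [IsDomain R] [Field K]

/-- Every element of `F_K(N)` is a quotient of two `R`-integral series (`K = Frac R`). -/
theorem qx46_exists_frac (inc : R →+* K) (hinc : Function.Injective inc)
    (hfrac : ∀ c : K, ∃ r s : R, s ≠ 0 ∧ c * inc s = inc r) (N : ℕ) (x : LaurentSeries K)
    (hx : x ∈ modularFunctionFieldFullC K N) :
    ∃ a b : LaurentSeries R, b ≠ 0 ∧ coeffMap inc b * x = coeffMap inc a := by
  have hc : Function.Injective (coeffMap inc) := fd27_coeffMap_injective inc hinc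
  unfold modularFunctionFieldFullC at hx
  induction hx using IntermediateField.adjoin_induction with
  | mem y hy =>
    obtain ⟨d, hne, hd, rfl⟩ := hy
    refine ⟨qExpand R d (jqModC R), 1, one_ne_zero, ?_⟩
    rw [map_one, one_mul]
    exact (coeffMap_jqNModC inc d).symm
  | algebraMap c =>
    obtain ⟨r, s, hs, hrs⟩ := hfrac c
    refine ⟨HahnSeries.C r, HahnSeries.C s, fun h => hs (HahnSeries.C_injective (by rw [h, map_zero])), ?_⟩
    rw [ka46_coeffMap_C, ka46_coeffMap_C, algebraMap_laurentSeries_eq_single, ← HahnSeries.C_apply,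
      ← map_mul, mul_comm, hrs]
  | add x y _ _ hx hy =>
    obtain ⟨a1, b1, hb1, h1⟩ := hx
    obtain ⟨a2, b2, hb2, h2⟩ := hy
    refine ⟨a1 * b2 + a2 * b1, b1 * b2, mul_ne_zero hb1 hb2, ?_⟩
    rw [map_mul, map_add, map_mul, map_mul, ← h1, ← h2]
    ring
  | inv x _ hx =>
    obtain ⟨a1, b1, hb1, h1⟩ := hx
    by_cases hx0 : x = 0
    · refine ⟨0, 1, one_ne_zero, ?_⟩
      rw [hx0, inv_zero, mul_zero, map_zero]
    · have hcb : coeffMap inc b1 ≠ 0 := fun h => hb1 (hc (by rw [h, map_zero]))
      have ha1 : a1 ≠ 0 := by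
        rintro rfl
        rw [map_zero] at h1
        exact (mul_ne_zero hcb hx0) h1
      refine ⟨b1, a1, ha1, ?_⟩
      rw [← h1, mul_assoc, mul_inv_cancel₀ hx0, mul_one]
  | mul x y _ _ hx hy =>
    obtain ⟨a1, b1, hb1, h1⟩ := hx
    obtain ⟨a2, b2, hb2, h2⟩ := hy
    refine ⟨a1 * a2, b1 * b2, mul_ne_zero hb1 hb2, ?_⟩
    rw [map_mul, map_mul, ← h1, ← h2]
    ring

end Frac

section Principle

variable {R K : Type*} [CommRing R] [IsDomain R] [IsPrincipalIdealRing R] [Field K]

/-- **The `q`-expansion principle.**  `R` a principal ideal domain with fraction field `K`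
(given by an injective `inc : R →+* K`): an element of `F_K(N)` integral over `R[g]` has an
`R`-integral `q`-expansion. -/
theorem qx46_integral_expansion (inc : R →+* K) (hinc : Function.Injective inc)
    (hfrac : ∀ c : K, ∃ r s : R, s ≠ 0 ∧ c * inc s = inc r) (N : ℕ) (g : LaurentSeries ℤ)
    (x : LaurentSeries K) (hx : x ∈ modularFunctionFieldFullC K N)
    (hint : (ka46_ev inc g).IsIntegralElem x) : ∃ y : LaurentSeries R, coeffMap inc y = x := by
  obtain ⟨a, b, hb, hab⟩ := qx46_exists_frac inc hinc hfrac N x hx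
  refine qx46_of_frac inc hinc x a b hb hab ?_
  obtain ⟨p, hp, hpx⟩ := hint
  refine ⟨p.map (ka46_ev (RingHom.id R) g), hp.map _, ?_⟩
  have hcomp : (coeffMap inc).comp (ka46_ev (RingHom.id R) g) = ka46_ev inc g := by
    refine RingHom.ext fun a => ?_
    rw [RingHom.comp_apply, ka46_coeffMap_ev, RingHom.comp_id]
  rw [Polynomial.eval₂_map, hcomp, hpx]

/-- `IsFractionRing` form of `qx46_integral_expansion`. -/
theorem qx46_integral_expansion' [Algebra R K] [IsFractionRing R K] (N : ℕ) (g : LaurentSeries ℤ)
    (x : LaurentSeries K) (hx : x ∈ modularFunctionFieldFullC K N)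
    (hint : (ka46_ev (algebraMap R K) g).IsIntegralElem x) :
    ∃ y : LaurentSeries R, coeffMap (algebraMap R K) y = x := by
  refine qx46_integral_expansion (algebraMap R K) (IsFractionRing.injective R K) ?_ N g x hx hint
  intro c
  obtain ⟨r, s, hs, rfl⟩ := IsFractionRing.div_surjective (A := R) c
  refine ⟨r, s, nonZeroDivisors.ne_zero hs, ?_⟩
  rw [div_mul_cancel₀ _ (IsFractionRing.to_map_ne_zero_of_mem_nonZeroDivisors hs)]

end Principle

section DescendIntegral

variable {S₀ S K₀ K : Type*} [CommRing S₀] [CommRing S] [CommRing K₀] [CommRing K]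

/-- An integrality equation over `S[g]` whose coefficients come from `S₀` descends along an
injective change of coefficients. -/
theorem qx46_descend_integral (inc₀ : S₀ →+* K₀) (inc : S →+* K) (α : S₀ →+* S) (β : K₀ →+* K)
    (hβ : Function.Injective β) (hcomm : inc.comp α = β.comp inc₀) (g : LaurentSeries ℤ)
    (p : Polynomial (Polynomial S)) (hp : p.Monic)
    (hcoeff : ∀ n m : ℕ, (p.coeff n).coeff m ∈ α.range) [Nontrivial S]
    (x₀ : LaurentSeries K₀) (hpx : p.eval₂ (ka46_ev inc g) (coeffMap β x₀) = 0) :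
    (ka46_ev inc₀ g).IsIntegralElem x₀ := by
  have hlift : p ∈ Polynomial.lifts (Polynomial.mapRingHom α) := by
    rw [Polynomial.lifts_iff_coeff_lifts]
    intro n
    have h1 : p.coeff n ∈ Polynomial.lifts α := by
      rw [Polynomial.lifts_iff_coeff_lifts]
      exact fun m => hcoeff n m
    obtain ⟨q, hq⟩ := (Polynomial.mem_lifts _).mp h1
    exact ⟨q, hq⟩
  obtain ⟨q, hq, -, hqm⟩ := Polynomial.lifts_and_degree_eq_and_monic hlift hp
  refine ⟨q, hqm, ?_⟩
  apply fd27_coeffMap_injective β hβ
  have hhom : (coeffMap β).comp (ka46_ev inc₀ g) =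
      (ka46_ev inc g).comp (Polynomial.mapRingHom α) := by
    refine RingHom.ext fun a => ?_
    simp only [RingHom.comp_apply, Polynomial.coe_mapRingHom]
    rw [ka46_coeffMap_ev, ka46_ev_map, hcomm]
  rw [map_zero, Polynomial.hom_eval₂, hhom, ← Polynomial.eval₂_map, hq, hpx]

end DescendIntegral

section ALevel

/-- A valuation subring of a number field is a principal ideal ring. -/
theorem qx46_isPrincipalIdealRing_valuationSubring {K0 : Type*} [Field K0] [NumberField K0]
    (V : ValuationSubring K0) : IsPrincipalIdealRing V := by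
  by_cases hV : V = ⊤
  · have hfield : IsField V := by
      refine ⟨⟨0, 1, zero_ne_one⟩, mul_comm, fun {a} ha => ?_⟩
      have hall : ∀ b : K0, b ∈ V := fun b => by rw [hV]; exact ValuationSubring.mem_top b
      refine ⟨⟨(a : K0)⁻¹, hall _⟩, Subtype.ext ?_⟩
      show (a : K0) * (a : K0)⁻¹ = 1
      exact mul_inv_cancel₀ (fun h => ha (Subtype.ext h))
    exact hfield.isPrincipalIdealRing
  · have := nf23_isDVR V hV
    infer_instance

/-- **The `q`-expansion principle over a valuation subring `A` of `ℚ̄`**: an element of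
`F_{ℚ̄}(N)` integral over `A[g]` has an `A`-integral `q`-expansion. -/
theorem qx46_integral_expansion_A (A : ValuationSubring Qb) (N : ℕ) (g : LaurentSeries ℤ)
    (x : LaurentSeries Qb) (hx : x ∈ modularFunctionFieldFullC Qb N)
    (hint : (ka46_ev A.subtype g).IsIntegralElem x) :
    ∃ y : LaurentSeries A, coeffMap A.subtype y = x := by
  classical
  obtain ⟨T1, hT1⟩ := ka46_descend.{0, 0} N x hx
  obtain ⟨p, hp, hpx⟩ := hint
  have halg : Algebra.IsAlgebraic ℚ Qb := AlgebraicClosure.isAlgebraic ℚ
  obtain ⟨K0, hNF, hK0⟩ := nf23_exists_numberField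
    (T1 ∪ (p.coeffs.biUnion fun c => c.coeffs).image (fun a : A => (a : Qb)))
  set f : K0 →+* Qb := algebraMap K0 Qb with hf
  have hrange : ∀ t ∈ T1, t ∈ f.range := by
    intro t ht
    have : t ∈ K0 := hK0 (by rw [Finset.coe_union]; exact Or.inl ht)
    exact ⟨⟨t, this⟩, rfl⟩
  obtain ⟨x0, hx0, hx0x⟩ := hT1 K0 f hrange
  have hcomm : A.subtype.comp (nf23_comapHom f A) = f.comp (A.comap f).subtype := by
    ext a
    rfl
  have hcoeff : ∀ n m : ℕ, (p.coeff n).coeff m ∈ (nf23_comapHom f A).range := by
    intro n m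
    by_cases hm : (p.coeff n).coeff m = 0
    · exact ⟨0, by rw [map_zero, hm]⟩
    · have hn : p.coeff n ≠ 0 := by
        intro h0
        apply hm
        rw [h0, Polynomial.coeff_zero]
      have h2 : (p.coeff n).coeff m ∈ p.coeffs.biUnion fun c => c.coeffs := by
        rw [Finset.mem_biUnion]
        exact ⟨p.coeff n, Polynomial.coeff_mem_coeffs hn, Polynomial.coeff_mem_coeffs hm⟩
      have hmem : (((p.coeff n).coeff m : A) : Qb) ∈ K0 := by
        apply hK0
        rw [Finset.coe_union, Finset.coe_image]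
        exact Or.inr ⟨_, h2, rfl⟩
      have hcomap : (⟨(((p.coeff n).coeff m : A) : Qb), hmem⟩ : K0) ∈ A.comap f := by
        rw [ValuationSubring.mem_comap]
        exact ((p.coeff n).coeff m).2
      exact ⟨⟨⟨_, hmem⟩, hcomap⟩, Subtype.ext rfl⟩
  have hx0int : (ka46_ev (A.comap f).subtype g).IsIntegralElem x0 :=
    qx46_descend_integral (A.comap f).subtype A.subtype (nf23_comapHom f A) f f.injective hcomm g
      p hp hcoeff x0 (by rw [hx0x]; exact hpx)
  have hPIR : IsPrincipalIdealRing (A.comap f) := qx46_isPrincipalIdealRing_valuationSubring _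
  have hfrac : ∀ c : K0, ∃ r s : A.comap f, s ≠ 0 ∧ c * (A.comap f).subtype s =
      (A.comap f).subtype r := by
    intro c
    rcases (A.comap f).mem_or_inv_mem c with hc | hc
    · exact ⟨⟨c, hc⟩, 1, one_ne_zero, by simp⟩
    · by_cases hc0 : c = 0
      · exact ⟨0, 1, one_ne_zero, by simp [hc0]⟩
      · refine ⟨1, ⟨c⁻¹, hc⟩, fun h => ?_, ?_⟩
        · exact (inv_ne_zero hc0) (congrArg Subtype.val h)
        · show c * c⁻¹ = ((1 : A.comap f) : K0)
          rw [mul_inv_cancel₀ hc0]
          rfl
  obtain ⟨y0, hy0⟩ := qx46_integral_expansion (A.comap f).subtype Subtype.val_injective hfrac N g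
    x0 hx0 hx0int
  refine ⟨coeffMap (nf23_comapHom f A) y0, ?_⟩
  rw [coeffMap_coeffMap, hcomm, ← coeffMap_coeffMap, hy0, hx0x]

end ALevel

section Lift

/-- Chart normality in fraction form gives lifts with integral expansions, as soon as the
`q`-expansion principle holds for `inc` and the reduced chart coordinate is transcendental. -/
theorem qx46_lift_of_normalAt {S K κ : Type*} [CommRing S] [Field K] [Field κ] (inc : S →+* K)
    (hinc : Function.Injective inc) (res : S →+* κ) (N : ℕ) (g : LaurentSeries ℤ)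
    (hq : ∀ x : LaurentSeries K, x ∈ modularFunctionFieldFullC K N →
      (ka46_ev inc g).IsIntegralElem x → ∃ y : LaurentSeries S, coeffMap inc y = x)
    (hg : ∀ s : Polynomial κ, s ≠ 0 → ka46_ev (RingHom.id κ) g s ≠ 0)
    (h : ka46_NormalAt inc res N g) (z : LaurentSeries κ)
    (hz : z ∈ modularFunctionFieldFullC κ N)
    (hzint : (ka46_ev (RingHom.id κ) g).IsIntegralElem z) :
    ∃ y : LaurentSeries S, coeffMap inc y ∈ modularFunctionFieldFullC K N ∧
      (ka46_ev inc g).IsIntegralElem (coeffMap inc y) ∧ coeffMap res y = z := by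
  obtain ⟨x, s, y1, hx, hxint, hs, hy1, hy1z⟩ := h z hz hzint
  obtain ⟨y, hy⟩ := hq x hx hxint
  refine ⟨y, by rw [hy]; exact hx, by rw [hy]; exact hxint, ?_⟩
  have h1 : y1 = ka46_ev (RingHom.id S) g s * y := by
    apply fd27_coeffMap_injective inc hinc
    rw [hy1, map_mul, ka46_coeffMap_ev, RingHom.comp_id, hy]
  have h2 : coeffMap res y1 = ka46_ev (RingHom.id κ) g (s.map res) * coeffMap res y := by
    rw [h1, map_mul, ka46_coeffMap_ev, RingHom.comp_id, ka46_ev_id_map]
  have h3 : ka46_ev (RingHom.id κ) g (s.map res) * (coeffMap res y - z) = 0 := by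
    rw [mul_sub, ← h2, hy1z, sub_self]
  rcases mul_eq_zero.mp h3 with h4 | h4
  · exact absurd h4 (hg _ hs)
  · exact sub_eq_zero.mp h4

end Lift

section Dictionary

/-- `IsIntegralElem` along `aeval t` is integrality over `Algebra.adjoin S {t}`. -/
theorem qx46_isIntegralElem_iff_adjoin {S T : Type*} [CommRing S] [CommRing T] [Algebra S T]
    (t z : T) :
    ((Polynomial.aeval t : Polynomial S →ₐ[S] T) : Polynomial S →+* T).IsIntegralElem z ↔
      IsIntegral (Algebra.adjoin S {t}) z := by
  have hmem : ∀ a : Polynomial S, Polynomial.aeval t a ∈ Algebra.adjoin S {t} := by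
    intro a
    rw [Algebra.adjoin_singleton_eq_range_aeval]
    exact ⟨a, rfl⟩
  let f' : Polynomial S →+* Algebra.adjoin S {t} :=
    ((Polynomial.aeval t : Polynomial S →ₐ[S] T) : Polynomial S →+* T).codRestrict
      (Algebra.adjoin S {t}).toSubring hmem
  have hf' : (algebraMap (Algebra.adjoin S {t}) T).comp f' =
      ((Polynomial.aeval t : Polynomial S →ₐ[S] T) : Polynomial S →+* T) :=
    RingHom.ext fun a => rfl
  constructor
  · rintro ⟨p, hp, hpz⟩
    refine ⟨p.map f', hp.map _, ?_⟩
    rw [Polynomial.eval₂_map, hf', hpz]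
  · rintro ⟨p, hp, hpz⟩
    have hlift : p ∈ Polynomial.lifts f' := by
      rw [Polynomial.lifts_iff_coeff_lifts]
      intro n
      have h1 : ((p.coeff n : Algebra.adjoin S {t}) : T) ∈
          (Polynomial.aeval t : Polynomial S →ₐ[S] T).range := by
        rw [← Algebra.adjoin_singleton_eq_range_aeval]
        exact (p.coeff n).2
      obtain ⟨a, ha⟩ := h1
      exact ⟨a, Subtype.ext ha⟩
    by_cases hT : Nontrivial (Algebra.adjoin S {t})
    · obtain ⟨q, hq, -, hqm⟩ := Polynomial.lifts_and_degree_eq_and_monic hlift hp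
      refine ⟨q, hqm, ?_⟩
      rw [← hf', ← Polynomial.eval₂_map, hq, hpz]
    · rw [not_nontrivial_iff_subsingleton] at hT
      have hT' : Subsingleton T := by
        refine ⟨fun a b => ?_⟩
        have h01 : (0 : T) = 1 := congrArg Subtype.val (Subsingleton.elim (0 : Algebra.adjoin S {t}) 1)
        rw [← mul_one a, ← mul_one b, ← h01, mul_zero, mul_zero]
      exact ⟨Polynomial.X, Polynomial.monic_X, Subsingleton.elim _ _⟩

/-- Over a field `κ`, `ka46_ev (RingHom.id κ) g` is `aeval` at the chart coordinate. -/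
theorem qx46_ev_id_eq_aeval (κ : Type*) [Field κ] (g : LaurentSeries ℤ) :
    ka46_ev (RingHom.id κ) g =
      ((Polynomial.aeval (ka46_g κ g) : Polynomial κ →ₐ[κ] LaurentSeries κ) :
        Polynomial κ →+* LaurentSeries κ) := by
  refine RingHom.ext fun a => ?_
  rw [ka46_ev_apply, RingHom.comp_id]
  show _ = Polynomial.aeval (ka46_g κ g) a
  rw [Polynomial.aeval_def]
  congr 1
  refine RingHom.ext fun c => ?_
  rw [algebraMap_laurentSeries_eq_single, HahnSeries.C_apply]

/-- Integrality over `κ[ḡ]` in the two languages. -/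
theorem qx46_isIntegralElem_iff (κ : Type*) [Field κ] (g : LaurentSeries ℤ)
    (z : LaurentSeries κ) :
    (ka46_ev (RingHom.id κ) g).IsIntegralElem z ↔
      IsIntegral (Algebra.adjoin κ {ka46_g κ g}) z := by
  rw [qx46_ev_id_eq_aeval]
  exact qx46_isIntegralElem_iff_adjoin (ka46_g κ g) z

end Dictionary

end Fermat.Agent.S37
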