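import Mathlib
import Fermat.Prelude.Def_ModularCurve_X0ModL
import Fermat.Agent.S37.QExp46

/-!
# S37, row NM-B5bridge (helper46): chart normality at the K-level from a Dedekind fibre

`R` a principal ideal domain (a discrete valuation ring) with fraction field `K`, residue map
`res : R → κ` killing `π`.  Let `C` be the chart ring: the elements of `F_K(N)` integral over
`R[g]`, `g` a chart coordinate with integer coefficients (`C` is given as an abstract ring with
an injective ring homomorphism `emb : C → K((q))` whose range is exactly that set).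

If `C ⧸ (π)` is an integrally closed domain (the output of the S18 smoothness package B5), the
reduced coordinate `ḡ` is transcendental over `κ`, and `g ^ k * J(q^d)` is integral over `R[g]`
for suitable `k` (every `d ∣ N`), then chart normality `ka46_NormalAt inc res N g` holds:
every element of `F_κ(N)` integral over `κ[ḡ]` is the coefficientwise reduction of an element
of `C`.

Proof: by the `q`-expansion principle (`qx46_integral_expansion`) every element of `C` has an
`R`-integral expansion, so the coefficientwise reduction `φ : C → κ((q))` is a ring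
homomorphism killing `π`; the induced `φ̄ : C ⧸ (π) → κ((q))` is injective
(`Ideal.eq_bot_of_comap_eq_bot`: `C ⧸ (π)` is a domain integral over `κ[X]` and `φ̄` is injective
on `κ[X]`); `F_κ(N)` lies in the fraction field of the image; conclude by integral closedness.
-/

set_option autoImplicit false

open ModularCurve

namespace Fermat.Agent.S37

open Fermat.Agent.S18

section Bridge

variable {R K κ C : Type*} [CommRing R] [IsDomain R] [IsPrincipalIdealRing R] [Field K]
  [Field κ] [CommRing C]

omit [IsDomain R] [IsPrincipalIdealRing R] in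
/-- Polynomials in the chart coordinate lie in the function field. -/
theorem nb46_ev_mem (inc : R →+* K) (N : ℕ) (g : LaurentSeries ℤ)
    (hgF : ka46_g K g ∈ modularFunctionFieldFullC K N) (a : Polynomial R) :
    ka46_ev inc g a ∈ modularFunctionFieldFullC K N := by
  rw [ka46_ev_apply, Polynomial.eval₂_eq_sum_range]
  refine sum_mem fun i _ => mul_mem ?_ (pow_mem hgF i)
  rw [RingHom.comp_apply, HahnSeries.C_apply, ← algebraMap_laurentSeries_eq_single]
  exact IntermediateField.algebraMap_mem _ _

/-- **The K-level bridge.**  See the module docstring. -/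
theorem nb46_normalAt (inc : R →+* K) (hinc : Function.Injective inc)
    (hfrac : ∀ c : K, ∃ r s : R, s ≠ 0 ∧ c * inc s = inc r)
    (res : R →+* κ) (hres : Function.Surjective res) (π : R) (hπ0 : res π = 0)
    (hπ : ∀ r : R, res r = 0 → π ∣ r)
    (N : ℕ) (g : LaurentSeries ℤ)
    (emb : C →+* LaurentSeries K) (hemb : Function.Injective emb)
    (hC : ∀ x : LaurentSeries K, x ∈ Set.range emb ↔
      x ∈ modularFunctionFieldFullC K N ∧ (ka46_ev inc g).IsIntegralElem x)
    (πC : C) (hπC : emb πC = HahnSeries.C (inc π))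
    [IsDomain (C ⧸ Ideal.span {πC})] [IsIntegrallyClosed (C ⧸ Ideal.span {πC})]
    (hgF : ka46_g K g ∈ modularFunctionFieldFullC K N)
    (hT : ∀ s : Polynomial κ, s ≠ 0 → ka46_ev (RingHom.id κ) g s ≠ 0)
    (hG : ∀ d : ℕ, ∀ _ : NeZero d, d ∣ N →
      ∃ k : ℕ, (ka46_ev inc g).IsIntegralElem (ka46_g K g ^ k * qExpand K d (jqModC K))) :
    ka46_NormalAt inc res N g := by
  classical
  have hcinj : Function.Injective (coeffMap inc) := fd27_coeffMap_injective inc hinc
  -- expansions of the elements of `C`
  have hexp : ∀ c : C, ∃ y : LaurentSeries R, coeffMap inc y = emb c := fun c =>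
    qx46_integral_expansion inc hinc hfrac N g (emb c) ((hC _).mp ⟨c, rfl⟩).1
      ((hC _).mp ⟨c, rfl⟩).2
  choose ex hex using hexp
  let exHom : C →+* LaurentSeries R :=
    { toFun := ex
      map_one' := hcinj (by rw [hex, map_one, map_one])
      map_mul' := fun a b => hcinj (by rw [hex, map_mul, map_mul, hex, hex])
      map_zero' := hcinj (by rw [hex, map_zero, map_zero])
      map_add' := fun a b => hcinj (by rw [hex, map_add, map_add, hex, hex]) }
  have hexHom : ∀ c : C, coeffMap inc (exHom c) = emb c := hex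
  have hex_eq : ∀ (c : C) (y : LaurentSeries R), coeffMap inc y = emb c → exHom c = y :=
    fun c y h => hcinj (by rw [hexHom, h])
  let φ : C →+* LaurentSeries κ := (coeffMap res).comp exHom
  have hφ_eq : ∀ (c : C) (y : LaurentSeries R), coeffMap inc y = emb c → φ c = coeffMap res y := by
    intro c y h
    show coeffMap res (exHom c) = coeffMap res y
    rw [hex_eq c y h]
  -- the polynomials in the chart coordinate, inside `C`
  have hθ : ∀ a : Polynomial R, ∃ c : C, emb c = ka46_ev inc g a := fun a =>
    (hC _).mpr ⟨nb46_ev_mem inc N g hgF a, RingHom.isIntegralElem_map _⟩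
  choose th hth using hθ
  let θ : Polynomial R →+* C :=
    { toFun := th
      map_one' := hemb (by rw [hth, map_one, map_one])
      map_mul' := fun a b => hemb (by rw [hth, map_mul, map_mul, hth, hth])
      map_zero' := hemb (by rw [hth, map_zero, map_zero])
      map_add' := fun a b => hemb (by rw [hth, map_add, map_add, hth, hth]) }
  have hθemb : ∀ a : Polynomial R, emb (θ a) = ka46_ev inc g a := hth
  have hφθ : ∀ a : Polynomial R, φ (θ a) = ka46_ev (RingHom.id κ) g (a.map res) := by
    intro a
    rw [hφ_eq (θ a) (ka46_ev (RingHom.id R) g a)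
      (by rw [ka46_coeffMap_ev, RingHom.comp_id, hθemb]), ka46_coeffMap_ev, RingHom.comp_id,
      ka46_ev_id_map]
  -- `π` in `C`
  have hπθ : θ (Polynomial.C π) = πC := by
    apply hemb
    rw [hθemb, hπC, ka46_ev_apply, Polynomial.eval₂_C, RingHom.comp_apply]
  have hφπ : φ πC = 0 := by
    rw [← hπθ, hφθ, Polynomial.map_C, hπ0, map_zero, map_zero]
  -- the quotient
  let Cb := C ⧸ Ideal.span {πC}
  let mk : C →+* Cb := Ideal.Quotient.mk (Ideal.span {πC})
  have hker : ∀ a ∈ Ideal.span {πC}, φ a = 0 := by
    intro a ha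
    obtain ⟨b, rfl⟩ := Ideal.mem_span_singleton'.mp ha
    rw [map_mul, hφπ, mul_zero]
  let φb : Cb →+* LaurentSeries κ := Ideal.Quotient.lift (Ideal.span {πC}) φ hker
  have hφb : ∀ c : C, φb (mk c) = φ c := fun c => Ideal.Quotient.lift_mk _ _ _
  -- `κ[X] → C ⧸ (π)`
  have hker0 : RingHom.ker res ≤ RingHom.ker ((mk.comp θ).comp Polynomial.C) := by
    intro r hr
    rw [RingHom.mem_ker] at hr ⊢
    obtain ⟨v, rfl⟩ := hπ r hr
    rw [RingHom.comp_apply, RingHom.comp_apply, map_mul, map_mul, hπθ, map_mul,
      show mk πC = 0 from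
        Ideal.Quotient.eq_zero_iff_mem.mpr (Ideal.mem_span_singleton_self πC), zero_mul]
  let ψ0 : κ →+* Cb := res.liftOfSurjective hres ⟨(mk.comp θ).comp Polynomial.C, hker0⟩
  have hψ0 : ∀ r : R, ψ0 (res r) = mk (θ (Polynomial.C r)) := fun r =>
    RingHom.liftOfRightInverse_comp_apply _ _ _ _ r
  let ψ : Polynomial κ →+* Cb := Polynomial.eval₂RingHom ψ0 (mk (θ Polynomial.X))
  have hψmap : ψ.comp (Polynomial.mapRingHom res) = mk.comp θ := by
    apply Polynomial.ringHom_ext
    · intro r
      simp only [RingHom.comp_apply, Polynomial.coe_mapRingHom, Polynomial.map_C]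
      show Polynomial.eval₂ ψ0 (mk (θ Polynomial.X)) (Polynomial.C (res r)) = _
      rw [Polynomial.eval₂_C, hψ0]
    · simp only [RingHom.comp_apply, Polynomial.coe_mapRingHom, Polynomial.map_X]
      show Polynomial.eval₂ ψ0 (mk (θ Polynomial.X)) Polynomial.X = _
      rw [Polynomial.eval₂_X]
  have hmapsurj : Function.Surjective (Polynomial.mapRingHom res) :=
    Polynomial.map_surjective res hres
  have hφψ : φb.comp ψ = ka46_ev (RingHom.id κ) g := by
    refine RingHom.ext fun s => ?_
    obtain ⟨a, rfl⟩ := hmapsurj s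
    have := congrArg (fun f : Polynomial R →+* Cb => φb (f a)) hψmap
    simp only [RingHom.comp_apply] at this
    rw [RingHom.comp_apply, this, hφb, hφθ]
    rfl
  -- integrality of `C ⧸ (π)` over `κ[X]`
  letI : Algebra (Polynomial κ) Cb := ψ.toAlgebra
  have halgψ : algebraMap (Polynomial κ) Cb = ψ := rfl
  have hintC : Algebra.IsIntegral (Polynomial κ) Cb := by
    refine ⟨fun cb => ?_⟩
    obtain ⟨c, rfl⟩ := Ideal.Quotient.mk_surjective cb
    obtain ⟨p, hp, hpc⟩ := ((hC _).mp ⟨c, rfl⟩).2
    have h1 : p.eval₂ θ c = 0 := by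
      apply hemb
      rw [map_zero, Polynomial.hom_eval₂]
      have : emb.comp θ = ka46_ev inc g := RingHom.ext hθemb
      rw [this, hpc]
    refine ⟨p.map (Polynomial.mapRingHom res), hp.map _, ?_⟩
    rw [Polynomial.eval₂_map, halgψ, hψmap, ← Polynomial.hom_eval₂, h1, map_zero]
  -- injectivity of `φb`
  have hinjφb : Function.Injective φb := by
    rw [injective_iff_map_eq_zero]
    intro cb hcb
    have hbot : RingHom.ker φb = ⊥ := by
      apply Ideal.eq_bot_of_comap_eq_bot (R := Polynomial κ)
      rw [eq_bot_iff]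
      intro s hs
      rw [Ideal.mem_comap, RingHom.mem_ker, halgψ] at hs
      have h2 : ka46_ev (RingHom.id κ) g s = 0 := by
        rw [← hφψ]
        exact hs
      by_contra hs0
      exact hT s hs0 h2
    have : cb ∈ RingHom.ker φb := hcb
    rw [hbot] at this
    exact this
  -- the reduced coordinate is nonzero
  have hgbar : φ (θ Polynomial.X) ≠ 0 := by
    rw [hφθ, Polynomial.map_X]
    exact hT _ Polynomial.X_ne_zero
  -- `F_κ(N)` lies in the fraction field of `φ(C)`
  have hQ : ∀ z : LaurentSeries κ, z ∈ modularFunctionFieldFullC κ N →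
      ∃ a b : C, φ b ≠ 0 ∧ z * φ b = φ a := by
    intro z hz
    unfold modularFunctionFieldFullC at hz
    induction hz using IntermediateField.adjoin_induction with
    | mem y hy =>
      obtain ⟨d, hne, hd, rfl⟩ := hy
      obtain ⟨k, hk⟩ := hG d hne hd
      obtain ⟨cd, hcd⟩ := (hC _).mpr ⟨mul_mem (pow_mem hgF k) (jqModCd_mem_full K N hd), hk⟩
      refine ⟨cd, θ Polynomial.X ^ k, ?_, ?_⟩
      · rw [map_pow]
        exact pow_ne_zero _ hgbar
      · have hJ1 : coeffMap inc (qExpand R d (jqModC R)) = qExpand K d (jqModC K) :=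
          coeffMap_jqNModC inc d
        have hJ2 : coeffMap res (qExpand R d (jqModC R)) = qExpand κ d (jqModC κ) :=
          coeffMap_jqNModC res d
        have h1 : φ cd = coeffMap res (ka46_g R g ^ k * qExpand R d (jqModC R)) := by
          apply hφ_eq
          rw [map_mul, map_pow, ka46_coeffMap_g, hJ1, hcd]
        have h2 : φ (θ Polynomial.X) = ka46_g κ g := by
          rw [hφθ, Polynomial.map_X, ka46_ev_apply, Polynomial.eval₂_X]
        rw [h1, map_pow, h2, map_mul, map_pow, ka46_coeffMap_g, hJ2, mul_comm]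
    | algebraMap c =>
      obtain ⟨r, rfl⟩ := hres c
      refine ⟨θ (Polynomial.C r), 1, by rw [map_one]; exact one_ne_zero, ?_⟩
      rw [map_one, mul_one, hφθ, Polynomial.map_C, ka46_ev_apply, Polynomial.eval₂_C,
        RingHom.comp_apply, RingHom.id_apply, HahnSeries.C_apply, algebraMap_laurentSeries_eq_single]
    | add x y _ _ hx hy =>
      obtain ⟨a1, b1, hb1, h1⟩ := hx
      obtain ⟨a2, b2, hb2, h2⟩ := hy
      refine ⟨a1 * b2 + a2 * b1, b1 * b2, by rw [map_mul]; exact mul_ne_zero hb1 hb2, ?_⟩
      rw [map_mul, map_add, map_mul, map_mul, ← h1, ← h2]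
      ring
    | inv x _ hx =>
      obtain ⟨a1, b1, hb1, h1⟩ := hx
      by_cases hx0 : x = 0
      · refine ⟨0, 1, by rw [map_one]; exact one_ne_zero, ?_⟩
        rw [hx0, inv_zero, zero_mul, map_zero]
      · have ha1 : φ a1 ≠ 0 := by
          rw [← h1]
          exact mul_ne_zero hx0 hb1
        refine ⟨b1, a1, ha1, ?_⟩
        rw [← h1, ← mul_assoc, inv_mul_cancel₀ hx0, one_mul]
    | mul x y _ _ hx hy =>
      obtain ⟨a1, b1, hb1, h1⟩ := hx
      obtain ⟨a2, b2, hb2, h2⟩ := hy
      refine ⟨a1 * a2, b1 * b2, by rw [map_mul]; exact mul_ne_zero hb1 hb2, ?_⟩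
      rw [map_mul, map_mul, ← h1, ← h2]
      ring
  -- the main argument
  intro z hz hzint
  obtain ⟨a, b, hb, hab⟩ := hQ z hz
  let Fr := FractionRing Cb
  let Φ : Fr →+* LaurentSeries κ := IsFractionRing.lift hinjφb
  have hΦ : ∀ c : Cb, Φ (algebraMap Cb Fr c) = φb c := fun c =>
    IsFractionRing.lift_algebraMap hinjφb c
  set w : Fr := algebraMap Cb Fr (mk a) / algebraMap Cb Fr (mk b) with hw
  have hΦw : Φ w = z := by
    rw [hw, map_div₀, hΦ, hΦ, hφb, hφb, ← hab, mul_div_cancel_right₀ _ hb]
  obtain ⟨p, hp, hpz⟩ := hzint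
  have hwint : IsIntegral Cb w := by
    refine ⟨p.map ψ, hp.map _, ?_⟩
    apply Φ.injective
    rw [map_zero, Polynomial.eval₂_map, Polynomial.hom_eval₂, hΦw]
    have : Φ.comp ((algebraMap Cb Fr).comp ψ) = ka46_ev (RingHom.id κ) g := by
      rw [← hφψ]
      refine RingHom.ext fun s => ?_
      simp only [RingHom.comp_apply]
      rw [hΦ]
    rw [this, hpz]
  obtain ⟨cb, hcb⟩ := IsIntegrallyClosed.isIntegral_iff.mp hwint
  obtain ⟨c, rfl⟩ := Ideal.Quotient.mk_surjective cb
  have hzc : z = φ c := by
    rw [← hΦw, ← hcb, hΦ]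
    exact hφb c
  refine ⟨emb c, 1, exHom c, ((hC _).mp ⟨c, rfl⟩).1, ((hC _).mp ⟨c, rfl⟩).2, ?_, ?_, ?_⟩
  · rw [Polynomial.map_one]
    exact one_ne_zero
  · rw [map_one, one_mul, hexHom]
  · rw [Polynomial.map_one, map_one, one_mul, hzc]
    rfl

end Bridge

end Fermat.Agent.S37
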