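import Mathlib
import Fermat.Agent.S37.NormalBridge46
import Fermat.Agent.S18.SmoothAsm79
import Fermat.Agent.S18.Sat23

/-!
# S37, row NMK (concrete side, helper93): K-level chart normality for the Hauptmodul charts

`nb46_normalAt` (NormalBridge46, helper46) proves chart normality `ka46_NormalAt inc res N g`
over a principal base ring from an abstract chart ring `C` with a Dedekind special fibre.  This
file discharges its hypotheses for the concrete charts of S18:

* `C := pk15_chart R {x}` (the integral closure of `R[x]` in `F(M)_K`), `emb := cf93_emb`, the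
  coercion to `K((q))`, `πC := algebraMap R C π`;
* `cf93_hC` : the dictionary "`pk15_chart R {x}` = elements of `F(M)_K` integral over `R[g]`" in
  the `ka46_ev` form; `cf93_hpiC`, `cf93_emb_injective`;
* `cf93_hT` : a nonzero polynomial in the reduced coordinate is nonzero (transcendence);
* `cf93_hG` : `g ^ k * J(q^d)` is integral over `R[g]` for `d ∣ M` (from `j ∈ R[x, x⁻¹]`);
* `cf93_normalAt` : the assembled statement for a general chart coordinate `x`;
* `cf93_normalAt_level2`, `cf93_normalAt_level3` : the four Hauptmodul charts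
  (`h70_h2 ℤ`, `h70_h2inv ℤ` for `2 ∣ M`; `h34_h3R ℤ`, `h34_h3Rinv ℤ` for `3 ∣ M`), from
  `sm79_level2` / `sm79_level3` (S18, row B5).
-/

set_option autoImplicit false

open ModularCurve

namespace Fermat.Agent.S37

open Fermat.Agent.S18 Fermat.Agent.S28 Polynomial

local notation "Kbar" => AlgebraicClosure ℚ

section Generic

variable {R : Type*} [CommRing R] (K : Type) [Field K] [Algebra R K] (M : ℕ) [NeZero M]
  [Algebra R ↥(modularFunctionFieldFullC K M)]
  [IsScalarTower R K ↥(modularFunctionFieldFullC K M)]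

/-- The coercion `F(M)_K → K((q))` as a ring homomorphism. -/
noncomputable def cf93_val : ↥(modularFunctionFieldFullC K M) →+* LaurentSeries K :=
  (modularFunctionFieldFullC K M).val.toRingHom

omit [NeZero M] in
theorem cf93_val_apply (y : ↥(modularFunctionFieldFullC K M)) :
    cf93_val K M y = (y : LaurentSeries K) := rfl

omit [NeZero M] in
theorem cf93_val_injective : Function.Injective (cf93_val K M) := Subtype.val_injective

/-- The embedding of the chart ring `pk15_chart R {x}` into `K((q))`. -/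
noncomputable def cf93_emb (x : ↥(modularFunctionFieldFullC K M)) :
    ↥(pk15_chart R ({x} : Set ↥(modularFunctionFieldFullC K M))) →+* LaurentSeries K :=
  (cf93_val K M).comp
    (pk15_chart R ({x} : Set ↥(modularFunctionFieldFullC K M))).val.toRingHom

omit [NeZero M] [IsScalarTower R K ↥(modularFunctionFieldFullC K M)] in
theorem cf93_emb_apply (x : ↥(modularFunctionFieldFullC K M))
    (c : ↥(pk15_chart R ({x} : Set ↥(modularFunctionFieldFullC K M)))) :
    cf93_emb K M x c = ((c : ↥(modularFunctionFieldFullC K M)) : LaurentSeries K) := rfl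

omit [NeZero M] [IsScalarTower R K ↥(modularFunctionFieldFullC K M)] in
theorem cf93_emb_injective (x : ↥(modularFunctionFieldFullC K M)) :
    Function.Injective (cf93_emb (R := R) K M x) :=
  fun _ _ h => Subtype.ext (Subtype.ext h)

omit [NeZero M] in
/-- The `q`-expansion of a constant of `R`. -/
theorem cf93_coe_algebraMap (r : R) :
    ((algebraMap R ↥(modularFunctionFieldFullC K M) r : ↥(modularFunctionFieldFullC K M)) :
      LaurentSeries K) = HahnSeries.C (algebraMap R K r) := by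
  rw [IsScalarTower.algebraMap_apply R K ↥(modularFunctionFieldFullC K M)]
  exact gv85_coe_algebraMap (modularFunctionFieldFullC K M) (algebraMap R K r)

omit [NeZero M] in
/-- `q`-expansion of a polynomial in the chart coordinate. -/
theorem cf93_val_comp_aeval (x : ↥(modularFunctionFieldFullC K M)) (g : LaurentSeries ℤ)
    (hxg : (x : LaurentSeries K) = ka46_g K g) :
    (cf93_val K M).comp ((aeval x : R[X] →ₐ[R] ↥(modularFunctionFieldFullC K M)) :
      R[X] →+* ↥(modularFunctionFieldFullC K M)) = ka46_ev (algebraMap R K) g := by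
  refine Polynomial.ringHom_ext (fun r => ?_) ?_
  · rw [RingHom.comp_apply, RingHom.coe_coe, aeval_C, ka46_ev_apply, eval₂_C, cf93_val_apply,
      cf93_coe_algebraMap]
    rfl
  · rw [RingHom.comp_apply, RingHom.coe_coe, aeval_X, ka46_ev_apply, eval₂_X, cf93_val_apply,
      hxg]

omit [NeZero M] in
/-- **Dictionary.**  Membership in the chart `pk15_chart R {x}` is integrality over `R[g]` of
the `q`-expansion, in the `ka46_ev` form. -/
theorem cf93_mem_chart_iff (x : ↥(modularFunctionFieldFullC K M)) (g : LaurentSeries ℤ)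
    (hxg : (x : LaurentSeries K) = ka46_g K g) (c : ↥(modularFunctionFieldFullC K M)) :
    c ∈ pk15_chart R ({x} : Set ↥(modularFunctionFieldFullC K M)) ↔
      (ka46_ev (algebraMap R K) g).IsIntegralElem (c : LaurentSeries K) := by
  rw [pk15_mem_chart, ← qx46_isIntegralElem_iff_adjoin (S := R) x c,
    ← cf93_val_comp_aeval K M x g hxg]
  constructor
  · rintro ⟨p, hp, hpc⟩
    refine ⟨p, hp, ?_⟩
    have h := congrArg (cf93_val K M) hpc
    rwa [Polynomial.hom_eval₂, map_zero] at h
  · rintro ⟨p, hp, hpc⟩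
    refine ⟨p, hp, cf93_val_injective K M ?_⟩
    rw [Polynomial.hom_eval₂, map_zero]
    exact hpc

omit [NeZero M] in
/-- **`hC` of `nb46_normalAt`.** -/
theorem cf93_hC (x : ↥(modularFunctionFieldFullC K M)) (g : LaurentSeries ℤ)
    (hxg : (x : LaurentSeries K) = ka46_g K g) (y : LaurentSeries K) :
    y ∈ Set.range (cf93_emb (R := R) K M x) ↔
      y ∈ modularFunctionFieldFullC K M ∧ (ka46_ev (algebraMap R K) g).IsIntegralElem y := by
  constructor
  · rintro ⟨c, rfl⟩
    exact ⟨(c : ↥(modularFunctionFieldFullC K M)).2,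
      (cf93_mem_chart_iff K M x g hxg (c : ↥(modularFunctionFieldFullC K M))).mp c.2⟩
  · rintro ⟨hy, hint⟩
    exact ⟨⟨⟨y, hy⟩, (cf93_mem_chart_iff K M x g hxg ⟨y, hy⟩).mpr hint⟩, rfl⟩

omit [NeZero M] in
/-- **`hπC` of `nb46_normalAt`.** -/
theorem cf93_hpiC (x : ↥(modularFunctionFieldFullC K M)) (π : R) :
    cf93_emb K M x
        (algebraMap R ↥(pk15_chart R ({x} : Set ↥(modularFunctionFieldFullC K M))) π) =
      HahnSeries.C (algebraMap R K π) :=
  cf93_coe_algebraMap K M π

/-- `rm90_ev` is evaluation at `j` for the ambient `R`-algebra structure. -/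
theorem cf93_rm90_ev_eq :
    rm90_ev K R M = ((aeval (rm90_j K M) : R[X] →ₐ[R] ↥(modularFunctionFieldFullC K M)) :
      R[X] →+* ↥(modularFunctionFieldFullC K M)) := by
  refine Polynomial.ringHom_ext (fun r => ?_) ?_
  · rw [sat23_ev_C, RingHom.coe_coe, aeval_C]
  · rw [sat23_ev_X, RingHom.coe_coe, aeval_X]

/-- `J(q^d)`, `d ∣ M`, lies in the `j`-chart. -/
theorem cf93_Jd_mem_chart (d : M.divisors) :
    rm90_Jd K M d ∈ pk15_chart R ({rm90_j K M} : Set ↥(modularFunctionFieldFullC K M)) := by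
  rw [pk15_mem_chart, ← qx46_isIntegralElem_iff_adjoin (S := R), ← cf93_rm90_ev_eq]
  exact rm90_isIntegral_Jd K R M d

/-- **`hG` of `nb46_normalAt`**: if `j ∈ R[x, x⁻¹]` then `x ^ k * J(q^d)` is integral over `R[x]`
for some `k`, for every `d ∣ M`. -/
theorem cf93_hG (x : ↥(modularFunctionFieldFullC K M)) (g : LaurentSeries ℤ)
    (hxg : (x : LaurentSeries K) = ka46_g K g) (hx0 : x ≠ 0)
    (hj : rm90_j K M ∈ Algebra.adjoin R ({x, x⁻¹} : Set ↥(modularFunctionFieldFullC K M)))
    (d : ℕ) (hd : NeZero d) (hdM : d ∣ M) :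
    ∃ k : ℕ, (ka46_ev (algebraMap R K) g).IsIntegralElem
      (ka46_g K g ^ k * qExpand K d (jqModC K)) := by
  have hdm : d ∈ M.divisors := Nat.mem_divisors.mpr ⟨hdM, NeZero.ne M⟩
  have h1 : rm90_Jd K M ⟨d, hdm⟩ ∈
      pk15_chart R ({x, x⁻¹} : Set ↥(modularFunctionFieldFullC K M)) := by
    have h2 := cf93_Jd_mem_chart (R := R) K M ⟨d, hdm⟩
    rw [pk15_mem_chart] at h2 ⊢
    refine pk15_isIntegral_mono (Algebra.adjoin_le ?_) h2
    intro y hy
    rw [Set.mem_singleton_iff] at hy
    rw [hy]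
    exact hj
  obtain ⟨k, hk⟩ := pk15_chart_loc x hx0 _ h1
  refine ⟨k, ?_⟩
  have h3 := (cf93_mem_chart_iff K M x g hxg _).mp hk
  have h4 : ((x ^ k * rm90_Jd K M ⟨d, hdm⟩ : ↥(modularFunctionFieldFullC K M)) :
      LaurentSeries K) = ka46_g K g ^ k * qExpand K d (jqModC K) := by
    have h5 : ((rm90_Jd K M ⟨d, hdm⟩ : ↥(modularFunctionFieldFullC K M)) : LaurentSeries K) =
        qExpand K d (jqModC K) := JdC_of_neZero K d
    rw [← h5, ← hxg]
    rfl
  rwa [h4] at h3

end Generic

/-- **`hT` of `nb46_normalAt`** from transcendence of the reduced chart coordinate. -/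
theorem cf93_hT {κ : Type*} [Field κ] (g : LaurentSeries ℤ)
    (htr : Transcendental κ (ka46_g κ g)) :
    ∀ s : Polynomial κ, s ≠ 0 → ka46_ev (RingHom.id κ) g s ≠ 0 := by
  intro s hs h0
  rw [qx46_ev_id_eq_aeval] at h0
  exact hs ((transcendental_iff.mp htr) s h0)

section Assembled

variable {R : Type} [CommRing R] [IsDomain R] [IsDiscreteValuationRing R]
  (K : Type) [Field K] [Algebra R K] [IsFractionRing R K] (M : ℕ) [NeZero M]
  [Algebra R ↥(modularFunctionFieldFullC K M)]
  [IsScalarTower R K ↥(modularFunctionFieldFullC K M)]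

/-- **K-level chart normality for a general chart coordinate `x`** with integer `q`-expansion
`g`: from the Dedekind special fibre of `pk15_chart R {x}` (S18, row B5), `j ∈ R[x, x⁻¹]` and
transcendence of the reduced coordinate. -/
theorem cf93_normalAt {π : R} (hπ : Irreducible π)
    (x : ↥(modularFunctionFieldFullC K M)) (g : LaurentSeries ℤ)
    (hxg : (x : LaurentSeries K) = ka46_g K g) (hx0 : x ≠ 0)
    (hj : rm90_j K M ∈ Algebra.adjoin R ({x, x⁻¹} : Set ↥(modularFunctionFieldFullC K M)))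
    (htr : Transcendental (IsLocalRing.ResidueField R) (ka46_g (IsLocalRing.ResidueField R) g))
    (hD : IsDedekindDomain (pk15_chart R ({x} : Set ↥(modularFunctionFieldFullC K M)) ⧸
      Ideal.span {algebraMap R (pk15_chart R ({x} : Set ↥(modularFunctionFieldFullC K M))) π})) :
    ka46_NormalAt (algebraMap R K) (IsLocalRing.residue R) M g := by
  haveI := hD
  have hfrac : ∀ c : K, ∃ r s : R, s ≠ 0 ∧ c * algebraMap R K s = algebraMap R K r := by
    intro c
    obtain ⟨r, s, hs, rfl⟩ := IsFractionRing.div_surjective (A := R) c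
    exact ⟨r, s, nonZeroDivisors.ne_zero hs,
      div_mul_cancel₀ _ (IsFractionRing.to_map_ne_zero_of_mem_nonZeroDivisors hs)⟩
  have hπ0 : IsLocalRing.residue R π = 0 := by
    rw [IsLocalRing.residue_eq_zero_iff, hπ.maximalIdeal_eq]
    exact Ideal.mem_span_singleton_self π
  have hπd : ∀ r : R, IsLocalRing.residue R r = 0 → π ∣ r := by
    intro r hr
    rwa [IsLocalRing.residue_eq_zero_iff, hπ.maximalIdeal_eq, Ideal.mem_span_singleton] at hr
  have hgF : ka46_g K g ∈ modularFunctionFieldFullC K M := hxg ▸ x.2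
  exact nb46_normalAt (algebraMap R K) (IsFractionRing.injective R K) hfrac
    (IsLocalRing.residue R) IsLocalRing.residue_surjective π hπ0 hπd M g
    (cf93_emb K M x) (cf93_emb_injective K M x) (cf93_hC K M x g hxg)
    (algebraMap R ↥(pk15_chart R ({x} : Set ↥(modularFunctionFieldFullC K M))) π)
    (cf93_hpiC K M x π) hgF (cf93_hT g htr) (cf93_hG K M x g hxg hx0 hj)

end Assembled

section Concrete

variable {R : Type} [CommRing R] [IsDomain R] [IsDiscreteValuationRing R]
  (K0 : Type) [Field K0] [CharZero K0] [Algebra R K0] [IsFractionRing R K0]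
  [Algebra K0 Kbar] [Algebra.IsAlgebraic K0 Kbar] (M : ℕ) [NeZero M]
  [Algebra R ↥(modularFunctionFieldFullC K0 M)]
  [IsScalarTower R K0 ↥(modularFunctionFieldFullC K0 M)]

/-- **Level 2** (`2 ∣ M`, `M` invertible in `R`): K-level chart normality for the Hauptmodul
charts `h = h70_h2` and `1/h = h70_h2inv`. -/
theorem cf93_normalAt_level2 (hM : IsUnit (M : R)) (h2M : 2 ∣ M) :
    ka46_NormalAt (algebraMap R K0) (IsLocalRing.residue R) M (h70_h2 ℤ) ∧
      ka46_NormalAt (algebraMap R K0) (IsLocalRing.residue R) M (h70_h2inv ℤ) := by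
  obtain ⟨π, hπ⟩ := IsDiscreteValuationRing.exists_irreducible R
  obtain ⟨⟨hD1, -⟩, ⟨hD2, -⟩⟩ := sm79_level2 K0 M hπ hM h2M
  have htr0 := sm79_h2_transcendental K0 M h2M
  have hh0 : sm79_h2 K0 M h2M ≠ 0 := fun h0 => htr0 (h0 ▸ isAlgebraic_zero)
  have hj : rm90_j K0 M ∈ Algebra.adjoin R
      ({sm79_h2 K0 M h2M, (sm79_h2 K0 M h2M)⁻¹} : Set ↥(modularFunctionFieldFullC K0 M)) :=
    sat23_rel2_mem _ _ hh0 (sm79_h2_rel K0 M h2M)
  have hκ : Transcendental (IsLocalRing.ResidueField R) (h70_h2 (IsLocalRing.ResidueField R)) :=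
    h70_h2_transcendental _
  constructor
  · refine cf93_normalAt K0 M hπ (sm79_h2 K0 M h2M) (h70_h2 ℤ) ?_ hh0 hj ?_ hD1
    · rw [ka46_g, h70_coeffMap_h2]
      rfl
    · rw [ka46_g, h70_coeffMap_h2]
      exact hκ
  · refine cf93_normalAt K0 M hπ (sm79_h2 K0 M h2M)⁻¹ (h70_h2inv ℤ) ?_ (inv_ne_zero hh0) ?_ ?_ hD2
    · rw [ka46_g, h70_coeffMap_h2inv, h70_h2inv_eq_inv]
      rfl
    · rw [inv_inv, Set.pair_comm]
      exact hj
    · rw [ka46_g, h70_coeffMap_h2inv, h70_h2inv_eq_inv]
      exact fun ha => hκ (by simpa using ha.inv)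

/-- **Level 3** (`3 ∣ M`, `M` invertible in `R`): K-level chart normality for the Hauptmodul
charts `h = h34_h3R` and `1/h = h34_h3Rinv`. -/
theorem cf93_normalAt_level3 (hM : IsUnit (M : R)) (h3M : 3 ∣ M) :
    ka46_NormalAt (algebraMap R K0) (IsLocalRing.residue R) M (h34_h3R ℤ) ∧
      ka46_NormalAt (algebraMap R K0) (IsLocalRing.residue R) M (h34_h3Rinv ℤ) := by
  obtain ⟨π, hπ⟩ := IsDiscreteValuationRing.exists_irreducible R
  obtain ⟨⟨hD1, -⟩, ⟨hD2, -⟩⟩ := sm79_level3 K0 M hπ hM h3M
  have htr0 := sm79_h3_transcendental K0 M h3M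
  have hh0 : sm79_h3 K0 M h3M ≠ 0 := fun h0 => htr0 (h0 ▸ isAlgebraic_zero)
  have hj : rm90_j K0 M ∈ Algebra.adjoin R
      ({sm79_h3 K0 M h3M, (sm79_h3 K0 M h3M)⁻¹} : Set ↥(modularFunctionFieldFullC K0 M)) :=
    sat23_rel3_mem _ _ hh0 (sm79_h3_rel K0 M h3M)
  have hκ : Transcendental (IsLocalRing.ResidueField R)
      (h34_h3R (IsLocalRing.ResidueField R)) := h34_h3R_transcendental _
  constructor
  · refine cf93_normalAt K0 M hπ (sm79_h3 K0 M h3M) (h34_h3R ℤ) ?_ hh0 hj ?_ hD1
    · rw [ka46_g, h34_coeffMap_h3R]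
      rfl
    · rw [ka46_g, h34_coeffMap_h3R]
      exact hκ
  · refine cf93_normalAt K0 M hπ (sm79_h3 K0 M h3M)⁻¹ (h34_h3Rinv ℤ) ?_ (inv_ne_zero hh0) ?_ ?_ hD2
    · rw [ka46_g, h34_coeffMap_h3Rinv, h34_h3Rinv_eq_inv]
      rfl
    · rw [inv_inv, Set.pair_comm]
      exact hj
    · rw [ka46_g, h34_coeffMap_h3Rinv, h34_h3Rinv_eq_inv]
      exact fun ha => hκ (by simpa using ha.inv)

end Concrete

end Fermat.Agent.S37
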