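import Fermat.Agent.S28.ModEq
import Fermat.Agent.S28.ChartBase

/-!
# S37, row ES2 (helper87), part 1: the Kronecker congruence for the modular equation

`kc87_exists`: for a prime `p` there is `Φ ∈ ℤ[Y][X]`, monic of degree `p + 1` in `X`, with
`Φ(J(q^p), J(q)) = 0`, `Φ(J(q), J(q^p)) = 0` in `ℤ((q))` and
`Φ = (X - Y^p) * (X^p - Y) + p * Ψ` (Kronecker congruence).
-/

set_option autoImplicit false
set_option linter.style.haveILetI false

open ModularCurve

namespace Fermat.Agent.S37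

open Fermat.Agent.S28

noncomputable section

/-- `q ↦ q^p` on power series inside Laurent series. -/
theorem kc87_qExpand_ofPowerSeries (R : Type*) [CommRing R] (p : ℕ) [NeZero p]
    (f : PowerSeries R) :
    qExpand R p (HahnSeries.ofPowerSeries ℤ R f) =
      HahnSeries.ofPowerSeries ℤ R (f.expand p (NeZero.ne p)) := by
  ext k
  by_cases hk : (p : ℤ) ∣ k
  · obtain ⟨m, rfl⟩ := hk
    rw [qExpand_coeff_mul]
    rcases le_or_gt 0 m with hm | hm
    · lift m to ℕ using hm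
      rw [HahnSeries.ofPowerSeries_apply_coeff, ← Nat.cast_mul,
        HahnSeries.ofPowerSeries_apply_coeff, PowerSeries.coeff_expand_mul]
    · have hp : (0 : ℤ) < p := by exact_mod_cast NeZero.pos p
      rw [ofPowerSeries_coeff_of_neg _ hm, ofPowerSeries_coeff_of_neg _ (by nlinarith)]
  · rw [qExpand_coeff_of_not_dvd p _ hk]
    rcases le_or_gt 0 k with hk0 | hk0
    · lift k to ℕ using hk0
      rw [HahnSeries.ofPowerSeries_apply_coeff, PowerSeries.coeff_expand_of_not_dvd]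
      exact fun h => hk (Int.natCast_dvd_natCast.mpr h)
    · rw [ofPowerSeries_coeff_of_neg _ hk0]

/-- In characteristic `p`, the `p`-th power of a power series with coefficients in the prime ring
is its expansion. -/
theorem kc87_map_pow_eq_expand (κ : Type*) [CommRing κ] (p : ℕ) [Fact p.Prime] [CharP κ p]
    (g : PowerSeries ℤ) :
    (g.map (Int.castRingHom κ)) ^ p =
      (g.map (Int.castRingHom κ)).expand p (Fact.out : p.Prime).ne_zero := by
  haveI : ExpChar κ p := ExpChar.prime Fact.out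
  have h := MvPowerSeries.map_frobenius_expand (σ := Unit) (R := κ) p (Fact.out : p.Prime).ne_zero
    (f := g.map (Int.castRingHom κ))
  rw [← h]
  have h2 : PowerSeries.map (frobenius κ p)
      (PowerSeries.expand p (Fact.out : p.Prime).ne_zero (g.map (Int.castRingHom κ))) =
      PowerSeries.expand p (Fact.out : p.Prime).ne_zero (g.map (Int.castRingHom κ)) := by
    rw [PowerSeries.map_expand, ← RingHom.comp_apply (PowerSeries.map (frobenius κ p)),
      ← PowerSeries.map_comp, RingHom.ext_int ((frobenius κ p).comp (Int.castRingHom κ))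
        (Int.castRingHom κ)]
  exact h2

/-- In characteristic `p`: `J^p = J(q^p)`. -/
theorem kc87_jqModC_pow_char (κ : Type*) [CommRing κ] (p : ℕ) [Fact p.Prime] [CharP κ p] :
    haveI : NeZero p := ⟨(Fact.out : p.Prime).ne_zero⟩
    jqModC κ ^ p = qExpand κ p (jqModC κ) := by
  haveI : NeZero p := ⟨(Fact.out : p.Prime).ne_zero⟩
  show jqModC κ ^ p = qExpand κ p (jqModC κ)
  rw [jqModC_pow, kc87_map_pow_eq_expand]
  conv_rhs => rw [jqModC, map_mul, qExpand_single, kc87_qExpand_ofPowerSeries]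
  simp

/-- Evaluation `ℤ[Y] → R((q))`, `Y ↦ J(q^p)`. -/
def kc87_Theta (R : Type*) [CommRing R] (p : ℕ) [NeZero p] : Polynomial ℤ →+* LaurentSeries R :=
  (qExpand R p).comp (evJ R)

theorem kc87_Theta_X (R : Type*) [CommRing R] (p : ℕ) [NeZero p] :
    kc87_Theta R p Polynomial.X = qExpand R p (jqModC R) := by
  simp [kc87_Theta, evJ]

theorem kc87_coeffMap_Theta {R S : Type*} [CommRing R] [CommRing S] (φ : R →+* S) (p : ℕ)
    [NeZero p] : (coeffMap φ).comp (kc87_Theta R p) = kc87_Theta S p := by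
  apply Polynomial.ringHom_ext
  · intro a
    simp [kc87_Theta, evJ]
  · simp [kc87_Theta, evJ, coeffMap_qExpand, coeffMap_jqModC]

theorem kc87_evJd_eq (R : Type*) [CommRing R] (p : ℕ) [NeZero p] : evJd R p = kc87_Theta R p := by
  apply Polynomial.ringHom_ext
  · intro a
    simp [kc87_Theta, evJ, evJd]
  · simp [kc87_Theta, evJ, evJd, JdC_of_neZero]

/-- The kernel of `Y ↦ J(q^p)` in characteristic `p` is `(p)`. -/
theorem kc87_Theta_eq_zero (κ : Type*) [CommRing κ] (p : ℕ) [NeZero p] [CharP κ p]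
    (c : Polynomial ℤ) (h : kc87_Theta κ p c = 0) : Polynomial.C (p : ℤ) ∣ c := by
  have h1 : evJ κ c = 0 := by
    apply qExpand_injective (R := κ) p
    rw [map_zero]
    exact h
  have h2 : Polynomial.eval₂ HahnSeries.C (jqModC κ) (c.map (Int.castRingHom κ)) = 0 := by
    rw [Polynomial.eval₂_map, RingHom.ext_int ((HahnSeries.C : κ →+* LaurentSeries κ).comp
      (Int.castRingHom κ)) (Int.castRingHom (LaurentSeries κ))]
    exact h1
  have h3 := h63_eval₂_jqModC_eq_zero κ _ h2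
  rw [Polynomial.C_dvd_iff_dvd_coeff]
  intro i
  have h4 := congrArg (fun P : Polynomial κ => P.coeff i) h3
  simp only [Polynomial.coeff_map, Polynomial.coeff_zero, eq_intCast] at h4
  exact (CharP.intCast_eq_zero_iff κ p _).mp h4

/-- In characteristic `p` the polynomial `(X - J(q^(p^2))) ∏_b (X - J(ζ^b q))` is
`(X - J(q^p)^p) (X^p - J(q^p))`. -/
theorem kc87_Phi_char (κ : Type*) [Field κ] (p : ℕ) [NeZero p] [Fact p.Prime] [CharP κ p]
    (ζ : κˣ) (hζ : ζ ^ p = 1) :
    h82_Phi κ p ζ = (Polynomial.X - Polynomial.C (qExpand κ p (jqModC κ) ^ p)) *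
      (Polynomial.X ^ p - Polynomial.C (qExpand κ p (jqModC κ))) := by
  have hp : p.Prime := Fact.out
  have h1 : ζ = 1 := by
    have h2 : ((ζ : κ) - 1) ^ p = 0 := by
      rw [sub_pow_char, one_pow, ← Units.val_pow_eq_pow_val, hζ, Units.val_one, sub_self]
    have h3 : (ζ : κ) - 1 = 0 := (pow_eq_zero_iff hp.ne_zero).mp h2
    exact Units.ext (sub_eq_zero.mp h3)
  subst h1
  haveI : CharP (LaurentSeries κ) p :=
    charP_of_injective_ringHom (f := (HahnSeries.C : κ →+* LaurentSeries κ))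
      HahnSeries.C_injective p
  have hJ : jqModC κ ^ p = qExpand κ p (jqModC κ) := kc87_jqModC_pow_char κ p
  unfold h82_Phi
  simp only [one_pow, twist_one]
  rw [Finset.prod_const, Finset.card_univ, Fintype.card_fin, sub_pow_char, ← Polynomial.C_pow,
    hJ, ← map_pow, hJ]

/-- A unit of the ring of algebraic integers lifting a primitive root of unity. -/
theorem kc87_exists_unit (p : ℕ) [NeZero p] (ζ : ℂˣ) (hζ : IsPrimitiveRoot ζ p) :
    ∃ ζ0 : (h82_Abar)ˣ, Units.map ((h82_Abar).subtype : h82_Abar →* ℂ) ζ0 = ζ ∧ ζ0 ^ p = 1 := by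
  have hζ' : IsPrimitiveRoot (ζ : ℂ) p := IsPrimitiveRoot.coe_units_iff.mpr hζ
  have h1 : IsIntegral ℤ (ζ : ℂ) := hζ'.isIntegral (NeZero.pos p)
  have h2 : IsIntegral ℤ ((ζ⁻¹ : ℂˣ) : ℂ) := by
    have h3 : ((ζ⁻¹ : ℂˣ) : ℂ) = (ζ : ℂ) ^ (p - 1) := by
      have h4 : (ζ : ℂ) * (ζ : ℂ) ^ (p - 1) = 1 := by
        rw [← pow_succ', Nat.sub_add_cancel (NeZero.pos p)]
        exact hζ'.pow_eq_one
      rw [Units.val_inv_eq_inv_val]
      exact inv_eq_of_mul_eq_one_right h4
    rw [h3]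
    exact h1.pow _
  refine ⟨⟨⟨(ζ : ℂ), h1⟩, ⟨((ζ⁻¹ : ℂˣ) : ℂ), h2⟩, Subtype.ext (by simp), Subtype.ext (by simp)⟩,
    Units.ext rfl, ?_⟩
  apply Units.ext
  apply Subtype.ext
  exact hζ'.pow_eq_one

/-- There is a field of characteristic `p` receiving the ring of algebraic integers. -/
theorem kc87_exists_residue (p : ℕ) (hp : p.Prime) :
    ∃ (𝔓 : Ideal h82_Abar) (_ : 𝔓.IsMaximal), CharP (h82_Abar ⧸ 𝔓) p := by
  have hne : Ideal.span {(p : h82_Abar)} ≠ ⊤ := by
    rw [Ne, Ideal.span_singleton_eq_top]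
    rintro ⟨u, hu⟩
    have h1 : (p : ℂ) * ((u⁻¹ : (h82_Abar)ˣ) : h82_Abar) = 1 := by
      have h2 : (p : h82_Abar) * ((u⁻¹ : (h82_Abar)ˣ) : h82_Abar) = 1 := by
        rw [← hu]
        exact u.mul_inv
      have h3 := congrArg Subtype.val h2
      rw [Subring.coe_mul, Subring.coe_natCast, Subring.coe_one] at h3
      exact h3
    have h4 : IsIntegral ℤ ((((u⁻¹ : (h82_Abar)ˣ) : h82_Abar) : ℂ)) :=
      (((u⁻¹ : (h82_Abar)ˣ) : h82_Abar)).2
    have hp0 : (p : ℂ) ≠ 0 := Nat.cast_ne_zero.mpr hp.ne_zero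
    have h5 : ((((u⁻¹ : (h82_Abar)ˣ) : h82_Abar) : ℂ)) = algebraMap ℚ ℂ ((p : ℚ)⁻¹) := by
      rw [map_inv₀, map_natCast]
      exact eq_inv_of_mul_eq_one_right h1
    rw [h5] at h4
    have h6 : IsIntegral ℤ ((p : ℚ)⁻¹) :=
      (isIntegral_algebraMap_iff (algebraMap ℚ ℂ).injective).mp h4
    obtain ⟨z, hz⟩ := IsIntegrallyClosed.isIntegral_iff.mp h6
    have h7 : ((p : ℤ) * z : ℚ) = 1 := by
      have : (algebraMap ℤ ℚ z) = (p : ℚ)⁻¹ := hz
      rw [← show (algebraMap ℤ ℚ z) = (z : ℚ) from rfl, this]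
      exact mul_inv_cancel₀ (by exact_mod_cast hp.ne_zero)
    have h8 : (p : ℤ) * z = 1 := by exact_mod_cast h7
    have h9 : (p : ℤ) ∣ 1 := Dvd.intro _ h8
    have h10 : p ∣ 1 := by exact_mod_cast h9
    exact hp.one_lt.ne' (Nat.dvd_one.mp h10)
  obtain ⟨𝔓, hmax, hle⟩ := Ideal.exists_le_maximal _ hne
  refine ⟨𝔓, hmax, ?_⟩
  haveI : Nontrivial (h82_Abar ⧸ 𝔓) := Ideal.Quotient.nontrivial_iff.mpr hmax.ne_top
  rw [CharP.charP_iff_prime_eq_zero hp]
  have h1 : (p : h82_Abar) ∈ 𝔓 := hle (Ideal.subset_span rfl)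
  have h2 := Ideal.Quotient.eq_zero_iff_mem.mpr h1
  simpa using h2

/-- **Kronecker congruence.** The modular equation of prime level `p`: a polynomial
`Φ ∈ ℤ[Y][X]`, monic of degree `p + 1` in `X`, with `Φ(J(q^p), J(q)) = 0`, `Φ(J(q), J(q^p)) = 0`
and `Φ ≡ (X - Y^p) (X^p - Y)` modulo `p`. -/
theorem kc87_exists (p : ℕ) (hp : p.Prime) :
    ∃ Φ : Polynomial (Polynomial ℤ), Φ.Monic ∧ Φ.natDegree = p + 1 ∧
      Φ.eval₂ (evJ ℤ) (JdC ℤ p) = 0 ∧ Φ.eval₂ (evJd ℤ p) (jqModC ℤ) = 0 ∧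
      ∃ Ψ : Polynomial (Polynomial ℤ),
        Φ = (Polynomial.X - Polynomial.C (Polynomial.X ^ p)) *
            (Polynomial.X ^ p - Polynomial.C Polynomial.X) +
          Polynomial.C (Polynomial.C (p : ℤ)) * Ψ := by
  haveI : NeZero p := ⟨hp.ne_zero⟩
  haveI : Fact p.Prime := ⟨hp⟩
  have hζ : IsPrimitiveRoot (h93_zeta p) p := by
    rw [← IsPrimitiveRoot.coe_units_iff]
    exact h93_zeta_isPrimitiveRoot p
  have hprod : (∏ i, (Polynomial.X - Polynomial.C (h93_L p i)) : Polynomial (LaurentSeries ℂ)) =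
      h82_Phi ℂ p (h93_zeta p) := by
    rw [Fintype.prod_option]
    rfl
  obtain ⟨Φ, hmon, hdeg, hmap⟩ := h93_family (N := p) (Int.castRingHom ℂ) Int.cast_injective
    (h93_F p) (h93_L p) (h93_hasWExp p) (h93_perm p hp)
    (fun k => by rw [hprod]; exact modEq_descent p hp (h93_zeta p) hζ k)
  have hΘ : (coeffMap (Int.castRingHom ℂ)).comp
      ((qExpand ℤ p).comp (Polynomial.aeval (jqModC ℤ)).toRingHom) = kc87_Theta ℂ p := by
    apply Polynomial.ringHom_ext
    · intro a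
      simp [kc87_Theta, evJ]
    · simp [kc87_Theta, evJ, coeffMap_qExpand, coeffMap_jqModC]
  rw [hΘ, hprod] at hmap
  have hcard : Fintype.card (Option (Fin p)) = p + 1 := by
    rw [Fintype.card_option, Fintype.card_fin]
  have hinjC : Function.Injective (coeffMap (Int.castRingHom ℂ)) :=
    h82_coeffMap_injective _ Int.cast_injective
  refine ⟨Φ, hmon, by rw [hdeg, hcard], ?_, ?_, ?_⟩
  · -- the root `J(q^(p^2))`
    have hinj : Function.Injective ((coeffMap (Int.castRingHom ℂ)).comp (qExpand ℤ p)) :=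
      hinjC.comp (qExpand_injective p)
    apply hinj
    have hψ : ((coeffMap (Int.castRingHom ℂ)).comp (qExpand ℤ p)).comp (evJ ℤ) =
        kc87_Theta ℂ p := by
      rw [RingHom.comp_assoc]
      exact kc87_coeffMap_Theta (Int.castRingHom ℂ) p
    have hroot : ((coeffMap (Int.castRingHom ℂ)).comp (qExpand ℤ p)) (JdC ℤ p) =
        qExpand ℂ p (qExpand ℂ p (jqModC ℂ)) := by
      show coeffMap _ (qExpand ℤ p (JdC ℤ p)) = qExpand ℂ p (qExpand ℂ p (jqModC ℂ))
      rw [JdC_of_neZero, coeffMap_qExpand, coeffMap_qExpand, coeffMap_jqModC]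
    rw [map_zero, Polynomial.hom_eval₂, hψ, ← Polynomial.eval_map, hmap, hroot]
    unfold h82_Phi
    rw [Polynomial.eval_mul]
    simp
  · -- the root `J`
    apply hinjC
    have hψ : (coeffMap (Int.castRingHom ℂ)).comp (evJd ℤ p) = kc87_Theta ℂ p := by
      rw [kc87_evJd_eq]
      exact kc87_coeffMap_Theta (Int.castRingHom ℂ) p
    rw [map_zero, Polynomial.hom_eval₂, hψ, ← Polynomial.eval_map, hmap, coeffMap_jqModC]
    unfold h82_Phi
    rw [Polynomial.eval_mul, Polynomial.eval_prod]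
    apply mul_eq_zero_of_right
    exact Finset.prod_eq_zero (Finset.mem_univ (⟨0, NeZero.pos p⟩ : Fin p))
      (by simp [twist_one])
  · -- the congruence
    obtain ⟨ζ0, hζ0, hζ0p⟩ := kc87_exists_unit p (h93_zeta p) hζ
    obtain ⟨𝔓, hmax, hchar⟩ := kc87_exists_residue p hp
    letI : Field (h82_Abar ⧸ 𝔓) := Ideal.Quotient.field 𝔓
    have hA : Φ.map (kc87_Theta h82_Abar p) = h82_Phi h82_Abar p ζ0 := by
      apply Polynomial.map_injective _
        (h82_coeffMap_injective (h82_Abar).subtype Subtype.val_injective)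
      rw [Polynomial.map_map, kc87_coeffMap_Theta, hmap, h82_Phi_map, hζ0]
    have hκ : Φ.map (kc87_Theta (h82_Abar ⧸ 𝔓) p) =
        h82_Phi (h82_Abar ⧸ 𝔓) p
          (Units.map ((Ideal.Quotient.mk 𝔓 : h82_Abar →+* _) : h82_Abar →* _) ζ0) := by
      rw [← h82_Phi_map, ← hA, Polynomial.map_map, kc87_coeffMap_Theta]
    rw [kc87_Phi_char _ p _ (by rw [← map_pow, hζ0p, map_one])] at hκ
    have hGκ : ((Polynomial.X - Polynomial.C (Polynomial.X ^ p)) *
        (Polynomial.X ^ p - Polynomial.C Polynomial.X) : Polynomial (Polynomial ℤ)).map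
          (kc87_Theta (h82_Abar ⧸ 𝔓) p) = Φ.map (kc87_Theta (h82_Abar ⧸ 𝔓) p) := by
      rw [hκ]
      simp only [Polynomial.map_mul, Polynomial.map_sub, Polynomial.map_X, Polynomial.map_C,
        Polynomial.map_pow, map_pow, kc87_Theta_X]
    have hdvd : Polynomial.C (Polynomial.C (p : ℤ)) ∣
        Φ - (Polynomial.X - Polynomial.C (Polynomial.X ^ p)) *
          (Polynomial.X ^ p - Polynomial.C Polynomial.X) := by
      rw [Polynomial.C_dvd_iff_dvd_coeff]
      intro k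
      apply kc87_Theta_eq_zero (h82_Abar ⧸ 𝔓) p
      rw [← Polynomial.coeff_map, Polynomial.map_sub, hGκ, sub_self, Polynomial.coeff_zero]
    obtain ⟨Ψ, hΨ⟩ := hdvd
    exact ⟨Ψ, by rw [← hΨ]; ring⟩

end

end Fermat.Agent.S37
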