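import Mathlib

/-!
# S37, row NM (helper62): norms and traces commute with reduction

`F ⊆ F'` a finite field extension, `O ⊆ O'` valuation rings with `O ⊆ O' ∩ F`, residue maps
`red : O → κ`, `red' : O' → κ'` (compatible, `red` killing the non-units).  If `b : ι → O'`
reduces to a `κ`-basis of `κ'` and `#ι = [F' : F]`, then `b` is an `F`-basis of `F'`, the
coordinates of every element of `O'` lie in `O`, and norm and trace of an element of `O'`
lie in `O` and reduce to the norm and trace of its reduction.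
-/

set_option autoImplicit false

namespace Fermat.Agent.S37

open Module

section

variable {F F' κ κ' ι : Type*} [Field F] [Field F'] [Algebra F F'] [Field κ] [Field κ']
  [Algebra κ κ']
variable {O : ValuationSubring F} {O' : ValuationSubring F'}

/-- A finite family in `F`, not all zero, has a nonzero member dividing all the others in the
valuation ring `O`. -/
theorem nm62_exists_pivot [Fintype ι] (O : ValuationSubring F) (g : ι → F)
    (h : ∃ i, g i ≠ 0) : ∃ j, g j ≠ 0 ∧ ∀ i, g i / g j ∈ O := by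
  classical
  obtain ⟨i₀, hi₀⟩ := h
  obtain ⟨j, -, hj⟩ := Finset.exists_max_image Finset.univ (fun i => O.valuation (g i))
    ⟨i₀, Finset.mem_univ _⟩
  have hj0 : g j ≠ 0 := by
    intro h0
    have h1 := hj i₀ (Finset.mem_univ _)
    rw [h0, map_zero] at h1
    exact hi₀ ((map_eq_zero _).mp (le_antisymm h1 zero_le))
  refine ⟨j, hj0, fun i => ?_⟩
  rw [← ValuationSubring.valuation_le_one_iff, map_div₀]
  exact div_le_one_of_le₀ (hj i (Finset.mem_univ _)) zero_le

variable (red : O →+* κ) (red' : O' →+* κ')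

/-- Key computation: a relation `∑ c i * b i = t * f` in `O'` with `c j = 1`, `c i ∈ O`,
and `red' t = 0` contradicts the independence of the reductions. -/
theorem nm62_key [Fintype ι] (hOO' : ∀ x : F, x ∈ O → algebraMap F F' x ∈ O')
    (hcompat : ∀ (x : F) (hx : x ∈ O),
      red' ⟨algebraMap F F' x, hOO' x hx⟩ = algebraMap κ κ' (red ⟨x, hx⟩))
    (b : ι → O') (hb : LinearIndependent κ (fun i => red' (b i)))
    (c : ι → F) (hc : ∀ i, c i ∈ O) (j : ι) (hj : c j = 1)
    (t f : O') (ht : red' t = 0)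
    (hrel : ∑ i, c i • ((b i : O') : F') = (t : F') * (f : F')) : False := by
  have h1 : ∑ i, (⟨algebraMap F F' (c i), hOO' _ (hc i)⟩ : O') * b i = t * f := by
    apply Subtype.ext
    push_cast
    rw [← hrel]
    exact Finset.sum_congr rfl (fun i _ => by rw [Algebra.smul_def])
  have h2 := congrArg red' h1
  rw [map_sum, map_mul, ht, zero_mul] at h2
  have h3 : ∑ i, red ⟨c i, hc i⟩ • red' (b i) = 0 := by
    rw [← h2]
    exact Finset.sum_congr rfl (fun i _ => by rw [map_mul, hcompat, Algebra.smul_def])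
  have h4 := (Fintype.linearIndependent_iff.mp hb) (fun i => red ⟨c i, hc i⟩) h3 j
  have h5 : (⟨c j, hc j⟩ : O) = 1 := Subtype.ext hj
  rw [h5, map_one] at h4
  exact one_ne_zero h4

/-- Independence of the reductions implies independence over `F`. -/
theorem nm62_linearIndependent [Fintype ι] (hOO' : ∀ x : F, x ∈ O → algebraMap F F' x ∈ O')
    (hcompat : ∀ (x : F) (hx : x ∈ O),
      red' ⟨algebraMap F F' x, hOO' x hx⟩ = algebraMap κ κ' (red ⟨x, hx⟩))
    (b : ι → O') (hb : LinearIndependent κ (fun i => red' (b i))) :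
    LinearIndependent F (fun i => ((b i : O') : F')) := by
  classical
  rw [Fintype.linearIndependent_iff]
  intro g hg
  by_contra hne
  push Not at hne
  obtain ⟨j, hj0, hj⟩ := nm62_exists_pivot O g hne
  refine nm62_key red red' hOO' hcompat b hb (fun i => g i / g j) hj j (div_self hj0) 0 0
    (map_zero _) ?_
  have : ∑ i, (g i / g j) • ((b i : O') : F') = (g j)⁻¹ • ∑ i, g i • ((b i : O') : F') := by
    rw [Finset.smul_sum]
    exact Finset.sum_congr rfl (fun i _ => by rw [smul_smul, div_eq_inv_mul])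
  rw [this, hg, smul_zero]
  simp

/-- The coordinates of an element of `O'` in the family `b` lie in `O`. -/
theorem nm62_coord_mem [Fintype ι] (hOO' : ∀ x : F, x ∈ O → algebraMap F F' x ∈ O')
    (hcompat : ∀ (x : F) (hx : x ∈ O),
      red' ⟨algebraMap F F' x, hOO' x hx⟩ = algebraMap κ κ' (red ⟨x, hx⟩))
    (hm : ∀ x : O, (x : F)⁻¹ ∉ O → red x = 0)
    (b : ι → O') (hb : LinearIndependent κ (fun i => red' (b i)))
    (g : ι → F) (f : O') (hg : ∑ i, g i • ((b i : O') : F') = (f : F')) :
    ∀ i, g i ∈ O := by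
  classical
  by_contra hne
  push Not at hne
  obtain ⟨i₀, hi₀⟩ := hne
  have hi₀0 : g i₀ ≠ 0 := fun h => hi₀ (h ▸ O.zero_mem)
  obtain ⟨j, hj0, hj⟩ := nm62_exists_pivot O g ⟨i₀, hi₀0⟩
  have hjO : g j ∉ O := by
    intro h
    apply hi₀
    have := O.mul_mem _ _ (hj i₀) h
    rwa [div_mul_cancel₀ _ hj0] at this
  have hjinv : (g j)⁻¹ ∈ O := (O.mem_or_inv_mem (g j)).resolve_left hjO
  have hred : red ⟨(g j)⁻¹, hjinv⟩ = 0 := hm ⟨(g j)⁻¹, hjinv⟩ (by simpa using hjO)
  refine nm62_key red red' hOO' hcompat b hb (fun i => g i / g j) hj j (div_self hj0)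
    ⟨algebraMap F F' (g j)⁻¹, hOO' _ hjinv⟩ f ?_ ?_
  · rw [hcompat _ hjinv, hred, map_zero]
  · have : ∑ i, (g i / g j) • ((b i : O') : F') = (g j)⁻¹ • ∑ i, g i • ((b i : O') : F') := by
      rw [Finset.smul_sum]
      exact Finset.sum_congr rfl (fun i _ => by rw [smul_smul, div_eq_inv_mul])
    rw [this, hg, Algebra.smul_def]

end

section Matrix

variable {F F' κ κ' ι : Type*} [Field F] [Field F'] [Algebra F F'] [Field κ] [Field κ']
  [Algebra κ κ'] [Fintype ι] [DecidableEq ι]
variable {O : ValuationSubring F} {O' : ValuationSubring F'}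
variable (red : O →+* κ) (red' : O' →+* κ')

/-- The matrix of multiplication by `f ∈ O'` in a basis `b ⊆ O'` reducing to a basis has
entries in `O`, and reduces to the matrix of multiplication by the reduction of `f`. -/
theorem nm62_leftMulMatrix_red (hOO' : ∀ x : F, x ∈ O → algebraMap F F' x ∈ O')
    (hcompat : ∀ (x : F) (hx : x ∈ O),
      red' ⟨algebraMap F F' x, hOO' x hx⟩ = algebraMap κ κ' (red ⟨x, hx⟩))
    (hm : ∀ x : O, (x : F)⁻¹ ∉ O → red x = 0)
    (b : ι → O') (bF : Basis ι F F') (hbF : ∀ i, bF i = ((b i : O') : F'))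
    (bκ : Basis ι κ κ') (hbκ : ∀ i, bκ i = red' (b i)) (f : O') :
    ∃ M : Matrix ι ι O, (∀ i j, ((M i j : O) : F) = Algebra.leftMulMatrix bF (f : F') i j) ∧
      (∀ i j, red (M i j) = Algebra.leftMulMatrix bκ (red' f) i j) := by
  have hb : LinearIndependent κ (fun i => red' (b i)) := by
    have := bκ.linearIndependent
    have h2 : (fun i => red' (b i)) = ⇑bκ := funext (fun i => (hbκ i).symm)
    rw [h2]
    exact this
  -- coordinates
  have hsum : ∀ j, ∑ i, bF.repr ((f : F') * bF j) i • ((b i : O') : F') = (f : F') * bF j := by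
    intro j
    calc ∑ i, bF.repr ((f : F') * bF j) i • ((b i : O') : F')
        = ∑ i, bF.repr ((f : F') * bF j) i • bF i :=
          Finset.sum_congr rfl (fun i _ => by rw [hbF i])
      _ = (f : F') * bF j := bF.sum_repr _
  have hcoord : ∀ j i, bF.repr ((f : F') * bF j) i ∈ O := by
    intro j
    refine nm62_coord_mem red red' hOO' hcompat hm b hb (fun i => bF.repr ((f : F') * bF j) i)
      (f * b j) ?_
    rw [hsum j, hbF j]
    rfl
  refine ⟨fun i j => ⟨bF.repr ((f : F') * bF j) i, hcoord j i⟩, fun i j => ?_, fun i j => ?_⟩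
  · rw [Algebra.leftMulMatrix_eq_repr_mul]
  · rw [Algebra.leftMulMatrix_eq_repr_mul]
    -- the relation in `O'`
    have h1 : ∑ i, (⟨algebraMap F F' (bF.repr ((f : F') * bF j) i), hOO' _ (hcoord j i)⟩ : O') * b i
        = f * b j := by
      apply Subtype.ext
      push_cast
      calc ∑ i, algebraMap F F' (bF.repr ((f : F') * bF j) i) * ((b i : O') : F')
          = ∑ i, bF.repr ((f : F') * bF j) i • ((b i : O') : F') :=
            Finset.sum_congr rfl (fun i _ => by rw [Algebra.smul_def])
        _ = (f : F') * bF j := hsum j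
        _ = (f : F') * ((b j : O') : F') := by rw [hbF j]
    have h4 : red' f * bκ j = ∑ i, red ⟨bF.repr ((f : F') * bF j) i, hcoord j i⟩ • bκ i := by
      rw [hbκ j, ← map_mul, ← h1, map_sum]
      exact Finset.sum_congr rfl (fun i _ => by
        rw [map_mul, hcompat _ (hcoord j i), Algebra.smul_def, hbκ i])
    rw [h4, Basis.repr_sum_self]

/-- **Norm commutes with reduction.** -/
theorem nm62_norm_red (hOO' : ∀ x : F, x ∈ O → algebraMap F F' x ∈ O')
    (hcompat : ∀ (x : F) (hx : x ∈ O),
      red' ⟨algebraMap F F' x, hOO' x hx⟩ = algebraMap κ κ' (red ⟨x, hx⟩))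
    (hm : ∀ x : O, (x : F)⁻¹ ∉ O → red x = 0)
    (b : ι → O') (hcard : Fintype.card ι = Module.finrank F F')
    (bκ : Basis ι κ κ') (hbκ : ∀ i, bκ i = red' (b i)) (f : O') :
    ∃ n : O, (n : F) = Algebra.norm F (f : F') ∧ red n = Algebra.norm κ (red' f) := by
  have hb : LinearIndependent κ (fun i => red' (b i)) := by
    have := bκ.linearIndependent
    have h2 : (fun i => red' (b i)) = ⇑bκ := funext (fun i => (hbκ i).symm)
    rw [h2]
    exact this
  have hli := nm62_linearIndependent red red' hOO' hcompat b hb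
  have hne : Nonempty ι := bκ.index_nonempty
  let bF := basisOfLinearIndependentOfCardEqFinrank hli hcard
  have hbF : ∀ i, bF i = ((b i : O') : F') := fun i => by
    rw [coe_basisOfLinearIndependentOfCardEqFinrank]
  obtain ⟨M, hM1, hM2⟩ := nm62_leftMulMatrix_red red red' hOO' hcompat hm b bF hbF bκ hbκ f
  refine ⟨M.det, ?_, ?_⟩
  · rw [Algebra.norm_eq_matrix_det bF]
    have : ((M.det : O) : F) = (O.subtype.mapMatrix M).det := by
      rw [← RingHom.map_det]
      rfl
    rw [this]
    congr 1
    ext i j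
    exact hM1 i j
  · rw [Algebra.norm_eq_matrix_det bκ, RingHom.map_det]
    congr 1
    ext i j
    exact hM2 i j

/-- **Trace commutes with reduction.** -/
theorem nm62_trace_red (hOO' : ∀ x : F, x ∈ O → algebraMap F F' x ∈ O')
    (hcompat : ∀ (x : F) (hx : x ∈ O),
      red' ⟨algebraMap F F' x, hOO' x hx⟩ = algebraMap κ κ' (red ⟨x, hx⟩))
    (hm : ∀ x : O, (x : F)⁻¹ ∉ O → red x = 0)
    (b : ι → O') (hcard : Fintype.card ι = Module.finrank F F')
    (bκ : Basis ι κ κ') (hbκ : ∀ i, bκ i = red' (b i)) (f : O') :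
    ∃ t : O, (t : F) = Algebra.trace F F' (f : F') ∧ red t = Algebra.trace κ κ' (red' f) := by
  have hb : LinearIndependent κ (fun i => red' (b i)) := by
    have := bκ.linearIndependent
    have h2 : (fun i => red' (b i)) = ⇑bκ := funext (fun i => (hbκ i).symm)
    rw [h2]
    exact this
  have hli := nm62_linearIndependent red red' hOO' hcompat b hb
  have hne : Nonempty ι := bκ.index_nonempty
  let bF := basisOfLinearIndependentOfCardEqFinrank hli hcard
  have hbF : ∀ i, bF i = ((b i : O') : F') := fun i => by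
    rw [coe_basisOfLinearIndependentOfCardEqFinrank]
  obtain ⟨M, hM1, hM2⟩ := nm62_leftMulMatrix_red red red' hOO' hcompat hm b bF hbF bκ hbκ f
  refine ⟨M.trace, ?_, ?_⟩
  · rw [Algebra.trace_eq_matrix_trace bF, Matrix.trace, Matrix.trace]
    push_cast
    exact Finset.sum_congr rfl (fun i _ => hM1 i i)
  · rw [Algebra.trace_eq_matrix_trace bκ, Matrix.trace, Matrix.trace, map_sum]
    exact Finset.sum_congr rfl (fun i _ => hM2 i i)

open Polynomial in
/-- **Characteristic polynomial commutes with reduction.** -/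
theorem nm62_charpoly_red [FiniteDimensional F F'] [FiniteDimensional κ κ']
    (hOO' : ∀ x : F, x ∈ O → algebraMap F F' x ∈ O')
    (hcompat : ∀ (x : F) (hx : x ∈ O),
      red' ⟨algebraMap F F' x, hOO' x hx⟩ = algebraMap κ κ' (red ⟨x, hx⟩))
    (hm : ∀ x : O, (x : F)⁻¹ ∉ O → red x = 0)
    (b : ι → O') (hcard : Fintype.card ι = Module.finrank F F')
    (bκ : Basis ι κ κ') (hbκ : ∀ i, bκ i = red' (b i)) (f : O') :
    ∃ p : O[X], p.Monic ∧ p.map O.subtype = (Algebra.lmul F F' (f : F')).charpoly ∧
      p.map red = (Algebra.lmul κ κ' (red' f)).charpoly := by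
  have hb : LinearIndependent κ (fun i => red' (b i)) := by
    have := bκ.linearIndependent
    have h2 : (fun i => red' (b i)) = ⇑bκ := funext (fun i => (hbκ i).symm)
    rw [h2]
    exact this
  have hli := nm62_linearIndependent red red' hOO' hcompat b hb
  have hne : Nonempty ι := bκ.index_nonempty
  let bF := basisOfLinearIndependentOfCardEqFinrank hli hcard
  have hbF : ∀ i, bF i = ((b i : O') : F') := fun i => by
    rw [coe_basisOfLinearIndependentOfCardEqFinrank]
  obtain ⟨M, hM1, hM2⟩ := nm62_leftMulMatrix_red red red' hOO' hcompat hm b bF hbF bκ hbκ f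
  refine ⟨M.charpoly, M.charpoly_monic, ?_, ?_⟩
  · rw [← Matrix.charpoly_map, ← LinearMap.charpoly_toMatrix (Algebra.lmul F F' (f : F')) bF]
    congr 1
    ext i j
    rw [Matrix.map_apply, ← Algebra.leftMulMatrix_apply]
    exact hM1 i j
  · rw [← Matrix.charpoly_map, ← LinearMap.charpoly_toMatrix (Algebra.lmul κ κ' (red' f)) bκ]
    congr 1
    ext i j
    rw [Matrix.map_apply, ← Algebra.leftMulMatrix_apply]
    exact hM2 i j

end Matrix

end Fermat.Agent.S37
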