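import Mathlib
import Fermat.Agent.S37.NormRed62

/-!
# S37 (helper62): change of chart for reduction-compatible bases, and the Gauss lemma

`NormRed62` works with a finite extension `F ⊆ F'`, valuation rings `O ⊆ O'`, residue maps
`red`, `red'`, and a family `b : ι → O'` whose reductions are a `κ`-basis of `κ'` with
`#ι = [F' : F]` ("(I1) for the chart `F`").

* `cc62_chart_change`: for a tower `K₁ → K₂ → F'` (think `K₁ = L(j)`, `K₂ = L(h)`), (I1) for the
  chart `K₁` implies (I1) for the chart `K₂`, together with the degree equalities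
  `[F' : K₂] = [κ' : κ₂]` and `[K₂ : K₁] = [κ₂ : κ₁]`.
* `cc62_gauss_mem`, `cc62_gauss_surj`: the Gauss lemma. If `A = O' ∩ L` has residue field `k` and
  `h ∈ O'` has a reduction transcendental over `k`, then the reduction of `O' ∩ L(h)` is exactly
  `k(h̄)`.
* `cc62_main`: both combined, for `K₁ = L⟮j⟯ ≤ K₂ = L⟮h⟯` inside `F'`.
-/

set_option autoImplicit false

namespace Fermat.Agent.S37

open Module

section Lift

variable {F F' κ κ' : Type*} [Field F] [Field F'] [Algebra F F'] [Field κ] [Field κ']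
  [Algebra κ κ']
variable {O : ValuationSubring F} {O' : ValuationSubring F'}
variable (red : O →+* κ) (red' : O' →+* κ')

/-- The residue degree is at most the degree (when `red'` is surjective). -/
theorem cc62_finrank_le [FiniteDimensional F F'] [FiniteDimensional κ κ']
    (hOO' : ∀ x : F, x ∈ O → algebraMap F F' x ∈ O')
    (hcompat : ∀ (x : F) (hx : x ∈ O),
      red' ⟨algebraMap F F' x, hOO' x hx⟩ = algebraMap κ κ' (red ⟨x, hx⟩))
    (hsurj : Function.Surjective red') :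
    finrank κ κ' ≤ finrank F F' := by
  classical
  let β := Module.finBasis κ κ'
  choose c hc using fun i => hsurj (β i)
  have hb : LinearIndependent κ (fun i => red' (c i)) := by
    have h2 : (fun i => red' (c i)) = ⇑β := funext hc
    rw [h2]
    exact β.linearIndependent
  have hli := nm62_linearIndependent red red' hOO' hcompat c hb
  have := hli.fintype_card_le_finrank
  simpa using this

end Lift

section ChartChange

variable {K₁ K₂ F' κ₁ κ₂ κ' ι : Type*} [Field K₁] [Field K₂] [Field F']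
  [Algebra K₁ K₂] [Algebra K₂ F'] [Algebra K₁ F'] [IsScalarTower K₁ K₂ F']
  [Field κ₁] [Field κ₂] [Field κ'] [Algebra κ₁ κ₂] [Algebra κ₂ κ'] [Algebra κ₁ κ']
  [IsScalarTower κ₁ κ₂ κ'] [Fintype ι]
variable {O₁ : ValuationSubring K₁} {O₂ : ValuationSubring K₂} {O' : ValuationSubring F'}
variable (red₁ : O₁ →+* κ₁) (red₂ : O₂ →+* κ₂) (red' : O' →+* κ')

/-- With a reduction-compatible basis over `K₁` and `red₂` surjective, `red'` is surjective. -/
theorem cc62_surjective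
    (h2' : ∀ x : K₂, x ∈ O₂ → algebraMap K₂ F' x ∈ O')
    (hc2' : ∀ (x : K₂) (hx : x ∈ O₂),
      red' ⟨algebraMap K₂ F' x, h2' x hx⟩ = algebraMap κ₂ κ' (red₂ ⟨x, hx⟩))
    (hsurj₂ : Function.Surjective red₂)
    (b : ι → O') (bκ : Basis ι κ₁ κ') (hbκ : ∀ i, bκ i = red' (b i)) :
    Function.Surjective red' := by
  classical
  intro y
  choose a ha using fun i => hsurj₂ (algebraMap κ₁ κ₂ (bκ.repr y i))
  refine ⟨∑ i, ⟨algebraMap K₂ F' (a i : K₂), h2' _ (a i).2⟩ * b i, ?_⟩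
  rw [map_sum]
  conv_rhs => rw [← bκ.sum_repr y]
  refine Finset.sum_congr rfl (fun i _ => ?_)
  rw [map_mul, hc2' _ (a i).2, Subtype.coe_eta, ha, ← IsScalarTower.algebraMap_apply,
    Algebra.smul_def, hbκ]

/-- **Change of chart.**  A reduction-compatible basis of `F'` over `K₁` yields one over any
intermediate chart `K₂`, and the degrees agree on both sides. -/
theorem cc62_chart_change
    (h12 : ∀ x : K₁, x ∈ O₁ → algebraMap K₁ K₂ x ∈ O₂)
    (hc12 : ∀ (x : K₁) (hx : x ∈ O₁),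
      red₂ ⟨algebraMap K₁ K₂ x, h12 x hx⟩ = algebraMap κ₁ κ₂ (red₁ ⟨x, hx⟩))
    (h2' : ∀ x : K₂, x ∈ O₂ → algebraMap K₂ F' x ∈ O')
    (hc2' : ∀ (x : K₂) (hx : x ∈ O₂),
      red' ⟨algebraMap K₂ F' x, h2' x hx⟩ = algebraMap κ₂ κ' (red₂ ⟨x, hx⟩))
    (hsurj₂ : Function.Surjective red₂)
    (b : ι → O') (hcard : Fintype.card ι = finrank K₁ F')
    (bκ : Basis ι κ₁ κ') (hbκ : ∀ i, bκ i = red' (b i)) :
    ∃ (c : Fin (finrank κ₂ κ') → O') (bκ₂ : Basis (Fin (finrank κ₂ κ')) κ₂ κ'),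
      (∀ i, bκ₂ i = red' (c i)) ∧ finrank κ₂ κ' = finrank K₂ F' ∧
        finrank κ₁ κ₂ = finrank K₁ K₂ := by
  classical
  have hne : Nonempty ι := bκ.index_nonempty
  have hcardpos : 0 < Fintype.card ι := Fintype.card_pos
  -- finiteness on the residue side
  have hfκ : FiniteDimensional κ₁ κ' := Module.Finite.of_basis bκ
  have hfκ₂ : FiniteDimensional κ₂ κ' := FiniteDimensional.right κ₁ κ₂ κ'
  have hfκ₁ : FiniteDimensional κ₁ κ₂ := FiniteDimensional.left κ₁ κ₂ κ'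
  -- finiteness on the generic side
  have hfK : FiniteDimensional K₁ F' := Module.finite_of_finrank_pos (hcard ▸ hcardpos)
  have hfK₂ : FiniteDimensional K₂ F' := FiniteDimensional.right K₁ K₂ F'
  have hfK₁ : FiniteDimensional K₁ K₂ := FiniteDimensional.left K₁ K₂ F'
  have hsurj' : Function.Surjective red' := cc62_surjective red₂ red' h2' hc2' hsurj₂ b bκ hbκ
  have hle₂ : finrank κ₂ κ' ≤ finrank K₂ F' := cc62_finrank_le red₂ red' h2' hc2' hsurj'
  have hle₁ : finrank κ₁ κ₂ ≤ finrank K₁ K₂ := cc62_finrank_le red₁ red₂ h12 hc12 hsurj₂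
  have hκ : finrank κ₁ κ₂ * finrank κ₂ κ' = Fintype.card ι := by
    rw [Module.finrank_mul_finrank, Module.finrank_eq_card_basis bκ]
  have hK : finrank K₁ K₂ * finrank K₂ F' = Fintype.card ι := by
    rw [Module.finrank_mul_finrank, hcard]
  have hpos₂ : 0 < finrank κ₂ κ' := Module.finrank_pos
  have hposK₁ : 0 < finrank K₁ K₂ := Module.finrank_pos
  have h1 : finrank K₁ K₂ * finrank κ₂ κ' ≤ finrank K₁ K₂ * finrank K₂ F' :=
    Nat.mul_le_mul_left _ hle₂
  have h2 : finrank κ₁ κ₂ * finrank κ₂ κ' ≤ finrank K₁ K₂ * finrank κ₂ κ' :=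
    Nat.mul_le_mul_right _ hle₁
  have h3 : finrank K₁ K₂ * finrank κ₂ κ' = finrank K₁ K₂ * finrank K₂ F' :=
    le_antisymm h1 (by rw [hK, ← hκ]; exact h2)
  have h4 : finrank κ₁ κ₂ * finrank κ₂ κ' = finrank K₁ K₂ * finrank κ₂ κ' :=
    le_antisymm h2 (by rw [h3, hK, ← hκ])
  have heq₂ : finrank κ₂ κ' = finrank K₂ F' := Nat.eq_of_mul_eq_mul_left hposK₁ h3
  have heq₁ : finrank κ₁ κ₂ = finrank K₁ K₂ := Nat.eq_of_mul_eq_mul_right hpos₂ h4
  let β := Module.finBasis κ₂ κ'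
  choose c hc using fun i => hsurj' (β i)
  exact ⟨c, β, fun i => (hc i).symm, heq₂, heq₁⟩

end ChartChange

section Gauss

open IntermediateField Polynomial

variable {L F' k κ' : Type*} [Field L] [Field F'] [Algebra L F'] [Field k] [Field κ']
  [Algebra k κ']
variable {A : ValuationSubring L} {O' : ValuationSubring F'}

/-- The inclusion `A → O'` induced by `L → F'`. -/
def cc62_iota (hAO : ∀ x : L, x ∈ A → algebraMap L F' x ∈ O') : A →+* O' :=
  ((algebraMap L F').comp A.subtype).codRestrict O' (fun x => hAO _ x.2)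

theorem cc62_iota_coe (hAO : ∀ x : L, x ∈ A → algebraMap L F' x ∈ O') (x : A) :
    ((cc62_iota hAO x : O') : F') = algebraMap L F' (x : L) := rfl

/-- Evaluation at `h` of a polynomial with coefficients in `A`, as an element of `O'`. -/
theorem cc62_coe_eval₂ (hAO : ∀ x : L, x ∈ A → algebraMap L F' x ∈ O') (h : O') (p : A[X]) :
    ((p.eval₂ (cc62_iota hAO) h : O') : F') = aeval (h : F') (p.map A.subtype) := by
  have h1 : O'.subtype (p.eval₂ (cc62_iota hAO) h) =
      p.eval₂ (O'.subtype.comp (cc62_iota hAO)) (O'.subtype h) := Polynomial.hom_eval₂ _ _ _ _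
  rw [aeval_def, eval₂_map]
  exact h1

variable (res : A →+* k) (red' : O' →+* κ')

theorem cc62_red_eval₂ (hAO : ∀ x : L, x ∈ A → algebraMap L F' x ∈ O')
    (hcompat : ∀ (x : L) (hx : x ∈ A),
      red' ⟨algebraMap L F' x, hAO x hx⟩ = algebraMap k κ' (res ⟨x, hx⟩))
    (h : O') (p : A[X]) :
    red' (p.eval₂ (cc62_iota hAO) h) = aeval (red' h) (p.map res) := by
  rw [Polynomial.hom_eval₂, aeval_def, eval₂_map]
  congr 1
  ext x
  exact hcompat x.1 x.2

/-- Scaling: a nonzero polynomial over `L` is a constant times a polynomial over `A` with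
nonzero reduction. -/
theorem cc62_scale (hres1 : res 1 ≠ 0) (p : L[X]) (hp : p ≠ 0) :
    ∃ (a : L) (p₁ : A[X]), a ≠ 0 ∧ p = C a * p₁.map A.subtype ∧ p₁.map res ≠ 0 := by
  classical
  obtain ⟨j, hj0, hj⟩ := nm62_exists_pivot A (fun i : p.support => p.coeff i)
    ⟨⟨p.natDegree, by
      rw [Polynomial.mem_support_iff]; exact leadingCoeff_ne_zero.mpr hp⟩, by
      exact leadingCoeff_ne_zero.mpr hp⟩
  have hmem : ∀ i : ℕ, p.coeff i / p.coeff j ∈ A := by
    intro i
    by_cases hi : i ∈ p.support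
    · exact hj ⟨i, hi⟩
    · rw [notMem_support_iff.mp hi, zero_div]
      exact A.zero_mem
  refine ⟨p.coeff j, ∑ i ∈ p.support, monomial i (⟨p.coeff i / p.coeff j, hmem i⟩ : A), hj0, ?_, ?_⟩
  · rw [Polynomial.map_sum, Finset.mul_sum]
    conv_lhs => rw [p.as_sum_support]
    refine Finset.sum_congr rfl (fun i _ => ?_)
    rw [map_monomial, C_mul_monomial]
    congr 1
    show p.coeff i = p.coeff j * (p.coeff i / p.coeff j)
    rw [mul_div_cancel₀ _ hj0]
  · intro h0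
    have h1 := congrArg (fun q => q.coeff j) h0
    simp only [Polynomial.map_sum, map_monomial, finsetSum_coeff, coeff_monomial, coeff_zero] at h1
    rw [Finset.sum_ite_eq' p.support (j : ℕ)] at h1
    simp only [j.2, if_true] at h1
    apply hres1
    rw [← h1]
    congr 1
    apply Subtype.ext
    show (1 : L) = p.coeff j / p.coeff j
    rw [div_self hj0]


/-- **Gauss lemma, membership.**  The reduction of an element of `O' ∩ L(h)` lies in `k(h̄)`. -/
theorem cc62_gauss_mem (hAO : ∀ x : L, x ∈ A → algebraMap L F' x ∈ O')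
    (hcompat : ∀ (x : L) (hx : x ∈ A),
      red' ⟨algebraMap L F' x, hAO x hx⟩ = algebraMap k κ' (res ⟨x, hx⟩))
    (hOA : ∀ x : L, algebraMap L F' x ∈ O' → x ∈ A)
    (hunit : ∀ x : O', red' x ≠ 0 → (x : F')⁻¹ ∈ O')
    (h : O') (hh : Transcendental k (red' h)) (x : O') (hx : (x : F') ∈ L⟮(h : F')⟯) :
    red' x ∈ k⟮red' h⟯ := by
  classical
  have hres1 : res 1 ≠ 0 := by
    intro h0
    have h1 := hcompat 1 A.one_mem
    rw [show (⟨1, A.one_mem⟩ : A) = 1 from rfl, h0, map_zero] at h1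
    have h2 : (⟨algebraMap L F' 1, hAO 1 A.one_mem⟩ : O') = 1 := Subtype.ext (map_one _)
    rw [h2, map_one] at h1
    exact one_ne_zero h1
  obtain ⟨r, s, hrs⟩ := (IntermediateField.mem_adjoin_simple_iff L _).mp hx
  by_cases hx0 : x = 0
  · rw [hx0, map_zero]
    exact zero_mem _
  have hxF : (x : F') ≠ 0 := fun h0 => hx0 (Subtype.ext h0)
  have hs0 : aeval (h : F') s ≠ 0 := by
    intro h0
    rw [h0, div_zero] at hrs
    exact hxF hrs
  have hr0 : aeval (h : F') r ≠ 0 := by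
    intro h0
    rw [h0, zero_div] at hrs
    exact hxF hrs
  have hs : s ≠ 0 := fun h0 => hs0 (by rw [h0, map_zero])
  have hr : r ≠ 0 := fun h0 => hr0 (by rw [h0, map_zero])
  obtain ⟨a, r₁, ha, hr₁, hr₁'⟩ := cc62_scale res hres1 r hr
  obtain ⟨b, s₁, hb, hs₁, hs₁'⟩ := cc62_scale res hres1 s hs
  set R : O' := r₁.eval₂ (cc62_iota hAO) h with hR
  set S : O' := s₁.eval₂ (cc62_iota hAO) h with hS
  have hRred : red' R = aeval (red' h) (r₁.map res) := cc62_red_eval₂ res red' hAO hcompat h r₁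
  have hSred : red' S = aeval (red' h) (s₁.map res) := cc62_red_eval₂ res red' hAO hcompat h s₁
  have hRne : red' R ≠ 0 := by
    rw [hRred]
    exact fun h0 => hr₁' ((transcendental_iff.mp hh) _ h0)
  have hSne : red' S ≠ 0 := by
    rw [hSred]
    exact fun h0 => hs₁' ((transcendental_iff.mp hh) _ h0)
  have hRinv : (R : F')⁻¹ ∈ O' := hunit R hRne
  have hRF : (R : F') = aeval (h : F') (r₁.map A.subtype) := cc62_coe_eval₂ hAO h r₁
  have hSF : (S : F') = aeval (h : F') (s₁.map A.subtype) := cc62_coe_eval₂ hAO h s₁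
  have hr' : aeval (h : F') r = algebraMap L F' a * (R : F') := by
    rw [hr₁, map_mul, aeval_C, hRF]
  have hs' : aeval (h : F') s = algebraMap L F' b * (S : F') := by
    rw [hs₁, map_mul, aeval_C, hSF]
  have hRF0 : (R : F') ≠ 0 := by
    intro h0
    rw [hr', h0, mul_zero] at hr0
    exact hr0 rfl
  have hSF0 : (S : F') ≠ 0 := by
    intro h0
    rw [hs', h0, mul_zero] at hs0
    exact hs0 rfl
  have hbF : algebraMap L F' b ≠ 0 := (_root_.map_ne_zero _).mpr hb
  have hkey : algebraMap L F' (a / b) * (R : F') = (x : F') * (S : F') := by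
    rw [hrs, hr', hs', map_div₀]
    field_simp
  have hab : a / b ∈ A := by
    apply hOA
    have : algebraMap L F' (a / b) = (x : F') * (S : F') * (R : F')⁻¹ := by
      rw [← hkey, mul_assoc, mul_inv_cancel₀ hRF0, mul_one]
    rw [this]
    exact O'.mul_mem _ _ (O'.mul_mem _ _ x.2 S.2) hRinv
  have hkey' : (⟨algebraMap L F' (a / b), hAO _ hab⟩ : O') * R = x * S := Subtype.ext hkey
  have hkey'' := congrArg red' hkey'
  rw [map_mul, map_mul, hcompat _ hab] at hkey''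
  have hfin : red' x = aeval (red' h) (C (res ⟨a / b, hab⟩) * r₁.map res) /
      aeval (red' h) (s₁.map res) := by
    rw [eq_div_iff (by rw [← hSred]; exact hSne), ← hSred, ← hkey'', map_mul, aeval_C, hRred]
  rw [hfin]
  exact (IntermediateField.mem_adjoin_simple_iff k _).mpr ⟨_, _, rfl⟩

/-- **Gauss lemma, surjectivity.**  Every element of `k(h̄)` is the reduction of an element of
`O' ∩ L(h)`. -/
theorem cc62_gauss_surj (hAO : ∀ x : L, x ∈ A → algebraMap L F' x ∈ O')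
    (hcompat : ∀ (x : L) (hx : x ∈ A),
      red' ⟨algebraMap L F' x, hAO x hx⟩ = algebraMap k κ' (res ⟨x, hx⟩))
    (hunit : ∀ x : O', red' x ≠ 0 → (x : F')⁻¹ ∈ O')
    (hsurj : Function.Surjective res)
    (h : O') (y : κ') (hy : y ∈ k⟮red' h⟯) :
    ∃ x : O', (x : F') ∈ L⟮(h : F')⟯ ∧ red' x = y := by
  classical
  obtain ⟨r, s, hrs⟩ := (IntermediateField.mem_adjoin_simple_iff k _).mp hy
  by_cases hs0 : aeval (red' h) s = 0
  · refine ⟨0, ?_, ?_⟩
    · rw [ZeroMemClass.coe_zero]; exact zero_mem _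
    · rw [map_zero, hrs, hs0, div_zero]
  obtain ⟨r₁, rfl⟩ := Polynomial.map_surjective res hsurj r
  obtain ⟨s₁, rfl⟩ := Polynomial.map_surjective res hsurj s
  set R : O' := r₁.eval₂ (cc62_iota hAO) h with hR
  set S : O' := s₁.eval₂ (cc62_iota hAO) h with hS
  have hRred : red' R = aeval (red' h) (r₁.map res) := cc62_red_eval₂ res red' hAO hcompat h r₁
  have hSred : red' S = aeval (red' h) (s₁.map res) := cc62_red_eval₂ res red' hAO hcompat h s₁
  have hSne : red' S ≠ 0 := by rw [hSred]; exact hs0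
  have hSinv : (S : F')⁻¹ ∈ O' := hunit S hSne
  have hSF0 : (S : F') ≠ 0 := by
    intro h0
    apply hSne
    have : S = 0 := Subtype.ext h0
    rw [this, map_zero]
  have hRF : (R : F') = aeval (h : F') (r₁.map A.subtype) := cc62_coe_eval₂ hAO h r₁
  have hSF : (S : F') = aeval (h : F') (s₁.map A.subtype) := cc62_coe_eval₂ hAO h s₁
  refine ⟨R * ⟨(S : F')⁻¹, hSinv⟩, ?_, ?_⟩
  · have : ((R * ⟨(S : F')⁻¹, hSinv⟩ : O') : F') =
        aeval (h : F') (r₁.map A.subtype) / aeval (h : F') (s₁.map A.subtype) := by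
      rw [← hRF, ← hSF, div_eq_mul_inv]
      rfl
    rw [this]
    exact (IntermediateField.mem_adjoin_simple_iff L _).mpr ⟨_, _, rfl⟩
  · have h1 : S * (⟨(S : F')⁻¹, hSinv⟩ : O') = 1 := Subtype.ext (mul_inv_cancel₀ hSF0)
    have h2 := congrArg red' h1
    rw [map_mul, map_one] at h2
    rw [map_mul, hrs, div_eq_mul_inv, hRred, ← hSred]
    congr 1
    exact eq_inv_of_mul_eq_one_right h2

end Gauss

section Main

open IntermediateField Polynomial

variable {L F' k κ' : Type*} [Field L] [Field F'] [Algebra L F'] [Field k] [Field κ']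
  [Algebra k κ']
variable {A : ValuationSubring L} {O' : ValuationSubring F'}
variable (res : A →+* k) (red' : O' →+* κ')

/-- The residue map of the chart `L(h)`: `O' ∩ L(h) → k(h̄)`. -/
def cc62_red (hAO : ∀ x : L, x ∈ A → algebraMap L F' x ∈ O')
    (hcompat : ∀ (x : L) (hx : x ∈ A),
      red' ⟨algebraMap L F' x, hAO x hx⟩ = algebraMap k κ' (res ⟨x, hx⟩))
    (hOA : ∀ x : L, algebraMap L F' x ∈ O' → x ∈ A)
    (hunit : ∀ x : O', red' x ≠ 0 → (x : F')⁻¹ ∈ O')
    (h : O') (hh : Transcendental k (red' h)) :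
    ↥(O'.comap (algebraMap ↥(L⟮(h : F')⟯) F')) →+* ↥(k⟮red' h⟯) :=
  (red'.comp (((algebraMap ↥(L⟮(h : F')⟯) F').comp
      (O'.comap (algebraMap ↥(L⟮(h : F')⟯) F')).subtype).codRestrict O' (fun x => x.2))).codRestrict
    (k⟮red' h⟯) (fun x => cc62_gauss_mem res red' hAO hcompat hOA hunit h hh _ x.1.2)

theorem cc62_red_coe (hAO : ∀ x : L, x ∈ A → algebraMap L F' x ∈ O')
    (hcompat : ∀ (x : L) (hx : x ∈ A),
      red' ⟨algebraMap L F' x, hAO x hx⟩ = algebraMap k κ' (res ⟨x, hx⟩))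
    (hOA : ∀ x : L, algebraMap L F' x ∈ O' → x ∈ A)
    (hunit : ∀ x : O', red' x ≠ 0 → (x : F')⁻¹ ∈ O')
    (h : O') (hh : Transcendental k (red' h))
    (x : ↥(L⟮(h : F')⟯)) (hx : x ∈ O'.comap (algebraMap ↥(L⟮(h : F')⟯) F')) :
    ((cc62_red res red' hAO hcompat hOA hunit h hh ⟨x, hx⟩ : ↥(k⟮red' h⟯)) : κ') =
      red' ⟨(x : F'), hx⟩ := rfl

theorem cc62_red_surjective (hAO : ∀ x : L, x ∈ A → algebraMap L F' x ∈ O')
    (hcompat : ∀ (x : L) (hx : x ∈ A),
      red' ⟨algebraMap L F' x, hAO x hx⟩ = algebraMap k κ' (res ⟨x, hx⟩))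
    (hOA : ∀ x : L, algebraMap L F' x ∈ O' → x ∈ A)
    (hunit : ∀ x : O', red' x ≠ 0 → (x : F')⁻¹ ∈ O')
    (hsurj : Function.Surjective res)
    (h : O') (hh : Transcendental k (red' h)) :
    Function.Surjective (cc62_red res red' hAO hcompat hOA hunit h hh) := by
  intro y
  obtain ⟨x, hx, hxy⟩ := cc62_gauss_surj res red' hAO hcompat hunit hsurj h y.1 y.2
  refine ⟨⟨⟨(x : F'), hx⟩, x.2⟩, ?_⟩
  apply Subtype.ext
  exact hxy

/-- **(I1) for the chart `h` from (I1) for the chart `j`.**  `A = O' ∩ L` with residue field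
`k`; `j, h ∈ O'` with reductions transcendental over `k` and `j ∈ L(h)`.  A family `b` in `O'`
whose reductions are a `k(j̄)`-basis of `κ'`, with `#ι = [F' : L(j)]`, yields a family `c` in
`O'` whose reductions are a `k(h̄)`-basis of `κ'`, with `[κ' : k(h̄)] = [F' : L(h)]`. -/
theorem cc62_main (hAO : ∀ x : L, x ∈ A → algebraMap L F' x ∈ O')
    (hcompat : ∀ (x : L) (hx : x ∈ A),
      red' ⟨algebraMap L F' x, hAO x hx⟩ = algebraMap k κ' (res ⟨x, hx⟩))
    (hOA : ∀ x : L, algebraMap L F' x ∈ O' → x ∈ A)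
    (hunit : ∀ x : O', red' x ≠ 0 → (x : F')⁻¹ ∈ O')
    (hsurj : Function.Surjective res)
    (j h : O') (hj : Transcendental k (red' j)) (hh : Transcendental k (red' h))
    (hjh : (j : F') ∈ L⟮(h : F')⟯)
    {ι : Type*} [Fintype ι] (b : ι → O')
    (hcard : Fintype.card ι = finrank ↥(L⟮(j : F')⟯) F')
    (bκ : Basis ι ↥(k⟮red' j⟯) κ') (hbκ : ∀ i, bκ i = red' (b i)) :
    ∃ (c : Fin (finrank ↥(k⟮red' h⟯) κ') → O')
      (bκ₂ : Basis (Fin (finrank ↥(k⟮red' h⟯) κ')) ↥(k⟮red' h⟯) κ'),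
      (∀ i, bκ₂ i = red' (c i)) ∧
        finrank ↥(k⟮red' h⟯) κ' = finrank ↥(L⟮(h : F')⟯) F' := by
  have hle : L⟮(j : F')⟯ ≤ L⟮(h : F')⟯ := adjoin_simple_le_iff.mpr hjh
  have hjbar : red' j ∈ k⟮red' h⟯ := cc62_gauss_mem res red' hAO hcompat hOA hunit h hh j hjh
  have hle' : k⟮red' j⟯ ≤ k⟮red' h⟯ := adjoin_simple_le_iff.mpr hjbar
  let _ : Algebra ↥(L⟮(j : F')⟯) ↥(L⟮(h : F')⟯) := (IntermediateField.inclusion hle).toRingHom.toAlgebra
  have : IsScalarTower ↥(L⟮(j : F')⟯) ↥(L⟮(h : F')⟯) F' :=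
    IsScalarTower.of_algebraMap_eq (fun x => rfl)
  let _ : Algebra ↥(k⟮red' j⟯) ↥(k⟮red' h⟯) := (IntermediateField.inclusion hle').toRingHom.toAlgebra
  have : IsScalarTower ↥(k⟮red' j⟯) ↥(k⟮red' h⟯) κ' :=
    IsScalarTower.of_algebraMap_eq (fun x => rfl)
  obtain ⟨c, bκ₂, h1, h2, -⟩ := cc62_chart_change
    (cc62_red res red' hAO hcompat hOA hunit j hj)
    (cc62_red res red' hAO hcompat hOA hunit h hh) red'
    (fun x hx => hx) (fun x hx => Subtype.ext rfl) (fun x hx => hx) (fun x hx => rfl)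
    (cc62_red_surjective res red' hAO hcompat hOA hunit hsurj h hh) b hcard bκ hbκ
  exact ⟨c, bκ₂, h1, h2⟩

/-- Finiteness of both sides over the chart `h`, given (I1) for the chart `j`. -/
theorem cc62_finite (hAO : ∀ x : L, x ∈ A → algebraMap L F' x ∈ O')
    (hcompat : ∀ (x : L) (hx : x ∈ A),
      red' ⟨algebraMap L F' x, hAO x hx⟩ = algebraMap k κ' (res ⟨x, hx⟩))
    (hOA : ∀ x : L, algebraMap L F' x ∈ O' → x ∈ A)
    (hunit : ∀ x : O', red' x ≠ 0 → (x : F')⁻¹ ∈ O')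
    (hsurj : Function.Surjective res)
    (j h : O') (hj : Transcendental k (red' j)) (hh : Transcendental k (red' h))
    (hjh : (j : F') ∈ L⟮(h : F')⟯)
    {ι : Type*} [Fintype ι] (b : ι → O')
    (hcard : Fintype.card ι = finrank ↥(L⟮(j : F')⟯) F')
    (bκ : Basis ι ↥(k⟮red' j⟯) κ') (hbκ : ∀ i, bκ i = red' (b i)) :
    FiniteDimensional ↥(L⟮(h : F')⟯) F' ∧ FiniteDimensional ↥(k⟮red' h⟯) κ' := by
  obtain ⟨c, bκ₂, h1, h2⟩ :=
    cc62_main res red' hAO hcompat hOA hunit hsurj j h hj hh hjh b hcard bκ hbκ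
  have hfκ : FiniteDimensional ↥(k⟮red' h⟯) κ' := Module.Finite.of_basis bκ₂
  have hpos : 0 < finrank ↥(L⟮(h : F')⟯) F' := by
    rw [← h2]; exact Module.finrank_pos
  exact ⟨Module.finite_of_finrank_pos hpos, hfκ⟩

/-- The chart residue map kills the non-units of `O' ∩ L(h)`. -/
theorem cc62_red_eq_zero (hAO : ∀ x : L, x ∈ A → algebraMap L F' x ∈ O')
    (hcompat : ∀ (x : L) (hx : x ∈ A),
      red' ⟨algebraMap L F' x, hAO x hx⟩ = algebraMap k κ' (res ⟨x, hx⟩))
    (hOA : ∀ x : L, algebraMap L F' x ∈ O' → x ∈ A)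
    (hunit : ∀ x : O', red' x ≠ 0 → (x : F')⁻¹ ∈ O')
    (h : O') (hh : Transcendental k (red' h))
    (x : ↥(O'.comap (algebraMap ↥(L⟮(h : F')⟯) F')))
    (hx : (x : ↥(L⟮(h : F')⟯))⁻¹ ∉ O'.comap (algebraMap ↥(L⟮(h : F')⟯) F')) :
    cc62_red res red' hAO hcompat hOA hunit h hh x = 0 := by
  apply Subtype.ext
  by_contra hne
  exact hx (hunit ⟨((x : ↥(L⟮(h : F')⟯)) : F'), x.2⟩ hne)

/-- **Norm to the chart `L(h)` commutes with reduction**, given (I1) for the chart `j`. -/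
theorem cc62_norm_red (hAO : ∀ x : L, x ∈ A → algebraMap L F' x ∈ O')
    (hcompat : ∀ (x : L) (hx : x ∈ A),
      red' ⟨algebraMap L F' x, hAO x hx⟩ = algebraMap k κ' (res ⟨x, hx⟩))
    (hOA : ∀ x : L, algebraMap L F' x ∈ O' → x ∈ A)
    (hunit : ∀ x : O', red' x ≠ 0 → (x : F')⁻¹ ∈ O')
    (hsurj : Function.Surjective res)
    (j h : O') (hj : Transcendental k (red' j)) (hh : Transcendental k (red' h))
    (hjh : (j : F') ∈ L⟮(h : F')⟯)
    {ι : Type*} [Fintype ι] (b : ι → O')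
    (hcard : Fintype.card ι = finrank ↥(L⟮(j : F')⟯) F')
    (bκ : Basis ι ↥(k⟮red' j⟯) κ') (hbκ : ∀ i, bκ i = red' (b i)) (f : O') :
    ∃ n : ↥(O'.comap (algebraMap ↥(L⟮(h : F')⟯) F')),
      (n : ↥(L⟮(h : F')⟯)) = Algebra.norm ↥(L⟮(h : F')⟯) (f : F') ∧
        cc62_red res red' hAO hcompat hOA hunit h hh n =
          Algebra.norm ↥(k⟮red' h⟯) (red' f) := by
  obtain ⟨c, bκ₂, h1, h2⟩ :=
    cc62_main res red' hAO hcompat hOA hunit hsurj j h hj hh hjh b hcard bκ hbκ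
  exact nm62_norm_red (cc62_red res red' hAO hcompat hOA hunit h hh) red' (fun x hx => hx)
    (fun x hx => rfl) (cc62_red_eq_zero res red' hAO hcompat hOA hunit h hh) c
    (by rw [Fintype.card_fin]; exact h2) bκ₂ h1 f

/-- **Trace to the chart `L(h)` commutes with reduction**, given (I1) for the chart `j`. -/
theorem cc62_trace_red (hAO : ∀ x : L, x ∈ A → algebraMap L F' x ∈ O')
    (hcompat : ∀ (x : L) (hx : x ∈ A),
      red' ⟨algebraMap L F' x, hAO x hx⟩ = algebraMap k κ' (res ⟨x, hx⟩))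
    (hOA : ∀ x : L, algebraMap L F' x ∈ O' → x ∈ A)
    (hunit : ∀ x : O', red' x ≠ 0 → (x : F')⁻¹ ∈ O')
    (hsurj : Function.Surjective res)
    (j h : O') (hj : Transcendental k (red' j)) (hh : Transcendental k (red' h))
    (hjh : (j : F') ∈ L⟮(h : F')⟯)
    {ι : Type*} [Fintype ι] (b : ι → O')
    (hcard : Fintype.card ι = finrank ↥(L⟮(j : F')⟯) F')
    (bκ : Basis ι ↥(k⟮red' j⟯) κ') (hbκ : ∀ i, bκ i = red' (b i)) (f : O') :
    ∃ t : ↥(O'.comap (algebraMap ↥(L⟮(h : F')⟯) F')),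
      (t : ↥(L⟮(h : F')⟯)) = Algebra.trace ↥(L⟮(h : F')⟯) F' (f : F') ∧
        cc62_red res red' hAO hcompat hOA hunit h hh t =
          Algebra.trace ↥(k⟮red' h⟯) κ' (red' f) := by
  obtain ⟨c, bκ₂, h1, h2⟩ :=
    cc62_main res red' hAO hcompat hOA hunit hsurj j h hj hh hjh b hcard bκ hbκ
  exact nm62_trace_red (cc62_red res red' hAO hcompat hOA hunit h hh) red' (fun x hx => hx)
    (fun x hx => rfl) (cc62_red_eq_zero res red' hAO hcompat hOA hunit h hh) c
    (by rw [Fintype.card_fin]; exact h2) bκ₂ h1 f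

/-- **Characteristic polynomial over the chart `L(h)` commutes with reduction**, given (I1) for
the chart `j`. -/
theorem cc62_charpoly_red (hAO : ∀ x : L, x ∈ A → algebraMap L F' x ∈ O')
    (hcompat : ∀ (x : L) (hx : x ∈ A),
      red' ⟨algebraMap L F' x, hAO x hx⟩ = algebraMap k κ' (res ⟨x, hx⟩))
    (hOA : ∀ x : L, algebraMap L F' x ∈ O' → x ∈ A)
    (hunit : ∀ x : O', red' x ≠ 0 → (x : F')⁻¹ ∈ O')
    (hsurj : Function.Surjective res)
    (j h : O') (hj : Transcendental k (red' j)) (hh : Transcendental k (red' h))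
    (hjh : (j : F') ∈ L⟮(h : F')⟯)
    [FiniteDimensional ↥(L⟮(h : F')⟯) F'] [FiniteDimensional ↥(k⟮red' h⟯) κ']
    {ι : Type*} [Fintype ι] (b : ι → O')
    (hcard : Fintype.card ι = finrank ↥(L⟮(j : F')⟯) F')
    (bκ : Basis ι ↥(k⟮red' j⟯) κ') (hbκ : ∀ i, bκ i = red' (b i)) (f : O') :
    ∃ p : (↥(O'.comap (algebraMap ↥(L⟮(h : F')⟯) F')))[X], p.Monic ∧
      p.map (O'.comap (algebraMap ↥(L⟮(h : F')⟯) F')).subtype =
        (Algebra.lmul ↥(L⟮(h : F')⟯) F' (f : F')).charpoly ∧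
      p.map (cc62_red res red' hAO hcompat hOA hunit h hh) =
        (Algebra.lmul ↥(k⟮red' h⟯) κ' (red' f)).charpoly := by
  obtain ⟨c, bκ₂, h1, h2⟩ :=
    cc62_main res red' hAO hcompat hOA hunit hsurj j h hj hh hjh b hcard bκ hbκ
  exact nm62_charpoly_red (cc62_red res red' hAO hcompat hOA hunit h hh) red' (fun x hx => hx)
    (fun x hx => rfl) (cc62_red_eq_zero res red' hAO hcompat hOA hunit h hh) c
    (by rw [Fintype.card_fin]; exact h2) bκ₂ h1 f

end Main

end Fermat.Agent.S37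

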