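import Mathlib

/-!
# S37, row PS (helper14), part 2: changing the chart coordinate

The hypotheses of `PlacesSep14` (`FiniteDimensional K⟮y⟯ F`, `Algebra.IsSeparable K⟮y⟯ F`,
`Transcendental K y`) for a new coordinate `y` from the same facts for an old coordinate `x`
with `x ∈ K⟮y⟯` (e.g. `x = j`, `y = h` a Hauptmodul, or `y = x⁻¹`).  Any characteristic.
-/

set_option autoImplicit false
set_option linter.style.haveILetI false

open IntermediateField

namespace Fermat.Agent.S37

variable {K F : Type*} [Field K] [Field F] [Algebra K F]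

/-- `F` finite over `E₁ ≤ E₂` is finite over `E₂`. -/
theorem ps14_finiteDimensional_of_le {E₁ E₂ : IntermediateField K F} (h : E₁ ≤ E₂)
    [FiniteDimensional E₁ F] : FiniteDimensional E₂ F := by
  letI : Algebra E₁ E₂ := (IntermediateField.inclusion h).toRingHom.toAlgebra
  haveI : IsScalarTower E₁ E₂ F := IsScalarTower.of_algebraMap_eq (fun _ => rfl)
  exact Module.Finite.of_restrictScalars_finite E₁ E₂ F

/-- `F` separable over `E₁ ≤ E₂` is separable over `E₂`. -/
theorem ps14_isSeparable_of_le {E₁ E₂ : IntermediateField K F} (h : E₁ ≤ E₂)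
    [Algebra.IsSeparable E₁ F] : Algebra.IsSeparable E₂ F := by
  letI : Algebra E₁ E₂ := (IntermediateField.inclusion h).toRingHom.toAlgebra
  haveI : IsScalarTower E₁ E₂ F := IsScalarTower.of_algebraMap_eq (fun _ => rfl)
  exact Algebra.isSeparable_tower_top_of_isSeparable E₁ E₂ F

/-- Change of coordinate: `x ∈ K(y)` and `F / K(x)` finite imply `F / K(y)` finite. -/
theorem ps14_finiteDimensional_of_mem {x y : F} (hx : x ∈ K⟮y⟯) [FiniteDimensional K⟮x⟯ F] :
    FiniteDimensional K⟮y⟯ F :=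
  ps14_finiteDimensional_of_le (adjoin_simple_le_iff.mpr hx)

/-- Change of coordinate: `x ∈ K(y)` and `F / K(x)` separable imply `F / K(y)` separable. -/
theorem ps14_isSeparable_of_mem {x y : F} (hx : x ∈ K⟮y⟯) [Algebra.IsSeparable K⟮x⟯ F] :
    Algebra.IsSeparable K⟮y⟯ F :=
  ps14_isSeparable_of_le (adjoin_simple_le_iff.mpr hx)

theorem ps14_mem_adjoin_inv (y : F) : y ∈ K⟮y⁻¹⟯ := by
  have h := inv_mem (mem_adjoin_simple_self K y⁻¹)
  rwa [inv_inv] at h

theorem ps14_adjoin_inv (y : F) : K⟮y⁻¹⟯ = K⟮y⟯ :=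
  le_antisymm (adjoin_simple_le_iff.mpr (inv_mem (mem_adjoin_simple_self K y)))
    (adjoin_simple_le_iff.mpr (ps14_mem_adjoin_inv y))

/-- The chart `1/y`: finiteness. -/
theorem ps14_finiteDimensional_inv (y : F) [FiniteDimensional K⟮y⟯ F] :
    FiniteDimensional K⟮y⁻¹⟯ F :=
  ps14_finiteDimensional_of_mem (ps14_mem_adjoin_inv y)

/-- The chart `1/y`: separability. -/
theorem ps14_isSeparable_inv (y : F) [Algebra.IsSeparable K⟮y⟯ F] :
    Algebra.IsSeparable K⟮y⁻¹⟯ F :=
  ps14_isSeparable_of_mem (ps14_mem_adjoin_inv y)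

/-- The chart `1/y`: transcendence. -/
theorem ps14_transcendental_inv {y : F} (hy : Transcendental K y) : Transcendental K y⁻¹ := by
  intro h
  apply hy
  have h1 := h.inv
  rwa [inv_inv] at h1

/-- Change of coordinate: if `F / K(x)` is algebraic (e.g. finite), `x ∈ K(y)` and `x` is
transcendental, then `y` is transcendental. -/
theorem ps14_transcendental_of_mem {x y : F} (hx : x ∈ K⟮y⟯) (hxt : Transcendental K x) :
    Transcendental K y := by
  intro hy
  apply hxt
  haveI : Algebra.IsAlgebraic K K⟮y⟯ := isAlgebraic_adjoin_simple hy.isIntegral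
  have h1 : IsAlgebraic K (⟨x, hx⟩ : K⟮y⟯) := Algebra.IsAlgebraic.isAlgebraic _
  exact (isAlgebraic_algebraMap_iff (algebraMap K⟮y⟯ F).injective (R := K) (a := ⟨x, hx⟩)).mpr h1

end Fermat.Agent.S37
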