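import Fermat.Agent.S37.GaussRed41
import Fermat.Agent.S37.QExp46
import Fermat.Agent.S37.ChartChange62
import Fermat.Agent.S37.SepTower14
import Fermat.Agent.S18.Haupt2R70
import Fermat.Agent.S18.Haupt2Mem70
import Fermat.Agent.S18.Haupt3Mem_34
import Fermat.Agent.S18.Haupt3MemL61
import Fermat.Agent.S18.ResConst

/-!
# S37, row RC-INST (helper80): the modular inputs of the chart instantiation

`M` a level, `A` a valuation subring of `ℚ̄` with residue field `k`, `(M : k) ≠ 0`,
`F = modularFunctionFieldBar M`, `F_k = modularFunctionFieldFullC k M`, Gauss place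
`(ga41_V M A hM, ga41_red M A hM)` (helper41).  A *chart coordinate* is an integer Laurent series
`g : LaurentSeries ℤ` (`j`, the Hauptmoduln `h₂`, `h₃` and their inverses) whose images
`ka46_g ℚ̄ g`, `ka46_g k g` lie in `F`, `F_k`.

* Gauss package in the vocabulary of `ChartChange62` / the generic chart layer:
  `cm80_red : ↥(ga41_V M A hM) →+* F_k` with `cm80_hAO`, `cm80_hcompat`, `cm80_hOA`, `cm80_hunit`,
  `cm80_hker` (kernel = non-units), `cm80_red_surjective`.
* Chart coordinates: `cm80_xF`, `cm80_xk`, `cm80_xV` (in the Gauss ring), `cm80_red_xV`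
  (its reduction is the coordinate of the special fibre), transcendence.
* `cm80_I2`: **(I2) in adjoin form** from chart normality in fraction form (`ka46_NormalAt`):
  every element of `F_k` integral over `k[x̄]` is the reduction of an element of the Gauss ring
  integral over `ℚ̄[x]`.
* `cm80_I1`: **(I1) for the chart `g`** from (I1) for a chart `g₁` with `g₁ ∈ ℚ̄(g)` (`g₁ = j`),
  in the `nm62_norm_red` shape; `cm80_red_mem`, `cm80_finiteDimensional_k`,
  `cm80_isSeparable_k`: the special fibre is finite separable over `k(x̄)`.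
* The concrete coordinates `j`, `h₂ = h70_h2`, `1/h₂`, `h₃ = h34_h3R`, `1/h₃`: membership,
  transcendence and `j ∈ ℚ̄(x)`.
-/

set_option autoImplicit false
set_option synthInstance.maxHeartbeats 400000
set_option linter.style.haveILetI false

open ModularCurve IntermediateField

namespace Fermat.Agent.S37

open Fermat.Agent.S18 Fermat.Agent.S28

local notation "Qb" => AlgebraicClosure ℚ

section Factor

variable {K : Type*} [Field K]

/-- `ka46_ev (id) g` factors through any intermediate field containing the chart coordinate. -/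
theorem cm80_val_comp_aeval (E : IntermediateField K (LaurentSeries K)) (g : LaurentSeries ℤ)
    (hg : ka46_g K g ∈ E) :
    (E.val : ↥E →+* LaurentSeries K).comp
      ((Polynomial.aeval (⟨ka46_g K g, hg⟩ : ↥E) : Polynomial K →ₐ[K] ↥E) :
        Polynomial K →+* ↥E) = ka46_ev (RingHom.id K) g := by
  rw [qx46_ev_id_eq_aeval]
  refine RingHom.ext fun a => ?_
  show E.val (Polynomial.aeval (⟨ka46_g K g, hg⟩ : ↥E) a) = Polynomial.aeval (ka46_g K g) a
  rw [← Polynomial.aeval_algHom_apply]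
  rfl

/-- Nonvanishing of polynomials in a transcendental chart coordinate. -/
theorem cm80_ev_ne_zero (g : LaurentSeries ℤ) (htr : Transcendental K (ka46_g K g))
    (s : Polynomial K) (hs : s ≠ 0) : ka46_ev (RingHom.id K) g s ≠ 0 := by
  rw [qx46_ev_id_eq_aeval]
  exact fun h => hs ((transcendental_iff.mp htr) s h)

/-- Integrality over `K[x]` inside an intermediate field `E ∋ x` of `K((q))`, in the two
languages. -/
theorem cm80_isIntegral_iff (E : IntermediateField K (LaurentSeries K)) (g : LaurentSeries ℤ)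
    (hg : ka46_g K g ∈ E) (z : ↥E) :
    IsIntegral (Algebra.adjoin K {(⟨ka46_g K g, hg⟩ : ↥E)}) z ↔
      (ka46_ev (RingHom.id K) g).IsIntegralElem (z : LaurentSeries K) := by
  rw [← qx46_isIntegralElem_iff_adjoin, ← cm80_val_comp_aeval E g hg]
  constructor
  · rintro ⟨p, hp, hpz⟩
    refine ⟨p, hp, ?_⟩
    have h := Polynomial.hom_eval₂ p
      ((Polynomial.aeval (⟨ka46_g K g, hg⟩ : ↥E) : Polynomial K →ₐ[K] ↥E) :
        Polynomial K →+* ↥E) (E.val : ↥E →+* LaurentSeries K) z
    rw [hpz, map_zero] at h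
    exact h.symm
  · rintro ⟨p, hp, hpz⟩
    refine ⟨p, hp, ?_⟩
    have h := Polynomial.hom_eval₂ p
      ((Polynomial.aeval (⟨ka46_g K g, hg⟩ : ↥E) : Polynomial K →ₐ[K] ↥E) :
        Polynomial K →+* ↥E) (E.val : ↥E →+* LaurentSeries K) z
    have h2 : (E.val : ↥E →+* LaurentSeries K) (Polynomial.eval₂
      ((Polynomial.aeval (⟨ka46_g K g, hg⟩ : ↥E) : Polynomial K →ₐ[K] ↥E) :
        Polynomial K →+* ↥E) z p) = 0 := h.trans hpz
    exact Subtype.val_injective (by rw [ZeroMemClass.coe_zero]; exact h2)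

end Factor

/-! ### The Gauss package -/

section Gauss

variable (M : ℕ) [NeZero M] (A : ValuationSubring Qb)
  (hM : (M : IsLocalRing.ResidueField A) ≠ 0)

/-- The reduction map of the Gauss valuation ring, on the `ValuationSubring` carrier. -/
noncomputable def cm80_red :
    ↥(ga41_V M A hM) →+* ↥(modularFunctionFieldFullC (IsLocalRing.ResidueField A) M) :=
  ga41_red M A hM

theorem cm80_red_eq (x : ↥(modularFunctionFieldBar M)) (hx : x ∈ ga41_V M A hM) :
    cm80_red M A hM ⟨x, hx⟩ = ga41_red M A hM ⟨x, hx⟩ := rfl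

theorem cm80_red_coe (x : ↥(modularFunctionFieldBar M)) (hx : x ∈ ga41_V M A hM) :
    ((cm80_red M A hM ⟨x, hx⟩ :
        ↥(modularFunctionFieldFullC (IsLocalRing.ResidueField A) M)) :
      LaurentSeries (IsLocalRing.ResidueField A)) = ga41_redHom (⟨x, hx⟩ : ga41_O M A) := rfl

theorem cm80_red_surjective : Function.Surjective (cm80_red M A hM) :=
  ga41_red_surjective M A hM

/-- Constants of `A` lie in the Gauss ring. -/
theorem cm80_hAO (x : Qb) (hx : x ∈ A) :
    algebraMap Qb ↥(modularFunctionFieldBar M) x ∈ ga41_V M A hM :=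
  ga41_algebraMap_mem M A ⟨x, hx⟩

/-- The reduction of a constant of `A` is its residue class. -/
theorem cm80_hcompat (x : Qb) (hx : x ∈ A) :
    cm80_red M A hM ⟨algebraMap Qb ↥(modularFunctionFieldBar M) x, cm80_hAO M A hM x hx⟩ =
      algebraMap (IsLocalRing.ResidueField A)
        ↥(modularFunctionFieldFullC (IsLocalRing.ResidueField A) M)
        (IsLocalRing.residue A ⟨x, hx⟩) := by
  apply Subtype.ext
  exact ga41_redHom_algebraMap M A ⟨x, hx⟩

/-- Elements of the Gauss ring with nonzero reduction are units. -/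
theorem cm80_hunit (x : ↥(ga41_V M A hM)) (hx : cm80_red M A hM x ≠ 0) :
    (x : ↥(modularFunctionFieldBar M))⁻¹ ∈ ga41_V M A hM := by
  have h1 : ga41_redHom (⟨x.1, x.2⟩ : ga41_O M A) ≠ 0 := by
    intro h0
    apply hx
    apply Subtype.ext
    exact h0
  have hu : IsUnit (⟨x.1, x.2⟩ : ga41_O M A) := (ga41_isUnit_iff M A _).mpr h1
  obtain ⟨y, hy⟩ := hu.exists_right_inv
  have h2 : (x : ↥(modularFunctionFieldBar M)) * (y : ↥(modularFunctionFieldBar M)) = 1 :=
    congrArg Subtype.val hy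
  have h3 : (x : ↥(modularFunctionFieldBar M))⁻¹ = (y : ↥(modularFunctionFieldBar M)) :=
    inv_eq_of_mul_eq_one_right h2
  rw [h3]
  exact y.2

/-- The Gauss ring meets the constants in `A`. -/
theorem cm80_hOA (x : Qb)
    (hx : algebraMap Qb ↥(modularFunctionFieldBar M) x ∈ ga41_V M A hM) : x ∈ A := by
  by_contra hxA
  have hinv : x⁻¹ ∈ A := (A.mem_or_inv_mem x).resolve_left hxA
  have hx0 : x ≠ 0 := fun h => hxA (h ▸ A.zero_mem)
  have hres : IsLocalRing.residue A ⟨x⁻¹, hinv⟩ = 0 := by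
    rw [IsLocalRing.residue_eq_zero_iff, IsLocalRing.mem_maximalIdeal, mem_nonunits_iff]
    intro hu
    apply hxA
    obtain ⟨v, hv⟩ := hu.exists_right_inv
    have h1 : x⁻¹ * (v : Qb) = 1 := congrArg Subtype.val hv
    have h2 : (v : Qb) = x := by
      rw [← mul_one x, ← h1, ← mul_assoc, mul_inv_cancel₀ hx0, one_mul]
    rw [← h2]
    exact v.2
  have hmul : (⟨algebraMap Qb ↥(modularFunctionFieldBar M) x, hx⟩ : ↥(ga41_V M A hM)) *
      ⟨algebraMap Qb ↥(modularFunctionFieldBar M) x⁻¹, cm80_hAO M A hM x⁻¹ hinv⟩ = 1 := by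
    apply Subtype.ext
    show algebraMap Qb ↥(modularFunctionFieldBar M) x *
      algebraMap Qb ↥(modularFunctionFieldBar M) x⁻¹ = 1
    rw [← map_mul, mul_inv_cancel₀ hx0, map_one]
  have h3 := congrArg (cm80_red M A hM) hmul
  rw [map_mul, cm80_hcompat M A hM x⁻¹ hinv, hres, map_zero, mul_zero, map_one] at h3
  exact zero_ne_one h3

/-- The kernel of the reduction map is the set of non-units of the Gauss ring. -/
theorem cm80_hker (x : ↥(ga41_V M A hM)) :
    cm80_red M A hM x = 0 ↔ x ∈ nonunits ↥(ga41_V M A hM) := by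
  rw [mem_nonunits_iff]
  constructor
  · intro h0 hu
    obtain ⟨y, hy⟩ := hu.exists_right_inv
    have h1 := congrArg (cm80_red M A hM) hy
    rw [map_mul, h0, zero_mul, map_one] at h1
    exact zero_ne_one h1
  · intro hnu
    by_contra hne
    apply hnu
    have hinv := cm80_hunit M A hM x hne
    have hx0 : (x : ↥(modularFunctionFieldBar M)) ≠ 0 := by
      intro h0
      apply hne
      have : x = 0 := Subtype.ext h0
      rw [this, map_zero]
    exact IsUnit.of_mul_eq_one (⟨_, hinv⟩ : ↥(ga41_V M A hM))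
      (Subtype.ext (mul_inv_cancel₀ hx0))

end Gauss

/-! ### Chart coordinates -/

section Coord

variable (M : ℕ) [NeZero M] (A : ValuationSubring Qb) (g : LaurentSeries ℤ)

/-- The chart coordinate `g` as an element of `F_ℚ̄(M)`. -/
noncomputable def cm80_xF (hgF : ka46_g Qb g ∈ modularFunctionFieldBar M) :
    ↥(modularFunctionFieldBar M) := ⟨ka46_g Qb g, hgF⟩

/-- The chart coordinate `g` as an element of `F_k(M)`. -/
noncomputable def cm80_xk (k : Type*) [Field k]
    (hgk : ka46_g k g ∈ modularFunctionFieldFullC k M) :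
    ↥(modularFunctionFieldFullC k M) := ⟨ka46_g k g, hgk⟩

omit [NeZero M] in
theorem cm80_xF_mem_O (hgF : ka46_g Qb g ∈ modularFunctionFieldBar M) :
    cm80_xF M g hgF ∈ ga41_O M A :=
  ga41_mem_O_of_integral (ka46_g A g) (ka46_coeffMap_g A.subtype g).symm

variable (hM : (M : IsLocalRing.ResidueField A) ≠ 0)

/-- The chart coordinate as an element of the Gauss valuation ring. -/
noncomputable def cm80_xV (hgF : ka46_g Qb g ∈ modularFunctionFieldBar M) : ↥(ga41_V M A hM) :=
  ⟨cm80_xF M g hgF, cm80_xF_mem_O M A g hgF⟩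

theorem cm80_xV_coe (hgF : ka46_g Qb g ∈ modularFunctionFieldBar M) :
    ((cm80_xV M A g hM hgF : ↥(ga41_V M A hM)) : ↥(modularFunctionFieldBar M)) =
      cm80_xF M g hgF := rfl

/-- The reduction of the chart coordinate is the chart coordinate of the special fibre. -/
theorem cm80_red_xV (hgF : ka46_g Qb g ∈ modularFunctionFieldBar M)
    (hgk : ka46_g (IsLocalRing.ResidueField A) g ∈
      modularFunctionFieldFullC (IsLocalRing.ResidueField A) M) :
    cm80_red M A hM (cm80_xV M A g hM hgF) = cm80_xk M g (IsLocalRing.ResidueField A) hgk := by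
  apply Subtype.ext
  show ga41_redHom (⟨cm80_xF M g hgF, cm80_xF_mem_O M A g hgF⟩ : ga41_O M A) = _
  rw [ga41_redHom_integral _ (ka46_g A g) (ka46_coeffMap_g A.subtype g).symm, ka46_coeffMap_g]
  rfl

omit [NeZero M] in
/-- Transcendence of the chart coordinate inside `F_k(M)`. -/
theorem cm80_xk_transcendental {k : Type*} [Field k]
    (hgk : ka46_g k g ∈ modularFunctionFieldFullC k M) (htr : Transcendental k (ka46_g k g)) :
    Transcendental k (cm80_xk M g k hgk) := by
  intro halg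
  exact htr (halg.algebraMap (A := LaurentSeries k))

theorem cm80_red_xV_transcendental (hgF : ka46_g Qb g ∈ modularFunctionFieldBar M)
    (hgk : ka46_g (IsLocalRing.ResidueField A) g ∈
      modularFunctionFieldFullC (IsLocalRing.ResidueField A) M)
    (htr : Transcendental (IsLocalRing.ResidueField A) (ka46_g (IsLocalRing.ResidueField A) g)) :
    Transcendental (IsLocalRing.ResidueField A) (cm80_red M A hM (cm80_xV M A g hM hgF)) := by
  rw [cm80_red_xV M A g hM hgF hgk]
  exact cm80_xk_transcendental M g hgk htr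

/-- **(I2), explicit form.** Chart normality in fraction form gives: every element of `F_k(M)`
integral over `k[x̄]` is the reduction of an element of the Gauss ring integral over `ℚ̄[x]`. -/
theorem cm80_lift (hgF : ka46_g Qb g ∈ modularFunctionFieldBar M)
    (hgk : ka46_g (IsLocalRing.ResidueField A) g ∈
      modularFunctionFieldFullC (IsLocalRing.ResidueField A) M)
    (htr : Transcendental (IsLocalRing.ResidueField A) (ka46_g (IsLocalRing.ResidueField A) g))
    (hnorm : ka46_NormalAt A.subtype (IsLocalRing.residue A) M g)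
    (z : ↥(modularFunctionFieldFullC (IsLocalRing.ResidueField A) M))
    (hz : IsIntegral (Algebra.adjoin (IsLocalRing.ResidueField A)
      {cm80_xk M g (IsLocalRing.ResidueField A) hgk}) z) :
    ∃ f : ga41_O M A,
      IsIntegral (Algebra.adjoin Qb {cm80_xF M g hgF}) (f : ↥(modularFunctionFieldBar M)) ∧
      ga41_red M A hM f = z := by
  have hzint : (ka46_ev (RingHom.id (IsLocalRing.ResidueField A)) g).IsIntegralElem
      (z : LaurentSeries (IsLocalRing.ResidueField A)) :=
    (cm80_isIntegral_iff _ g hgk z).mp hz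
  obtain ⟨y, hyF, hyint, hyz⟩ := qx46_lift_of_normalAt A.subtype Subtype.val_injective
    (IsLocalRing.residue A) M g
    (fun x hx hint => qx46_integral_expansion_A A M g x hx hint)
    (cm80_ev_ne_zero g htr) hnorm z z.2 hzint
  have hyF' : coeffMap A.subtype y ∈ modularFunctionFieldBar M := by
    rw [ga41_bar_eq]; exact hyF
  refine ⟨⟨⟨coeffMap A.subtype y, hyF'⟩, ga41_mem_O_of_integral y rfl⟩, ?_, ?_⟩
  · rw [cm80_xF, cm80_isIntegral_iff (modularFunctionFieldBar M) g hgF]
    obtain ⟨P, hP, hPy⟩ := hyint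
    refine ⟨P.map (Polynomial.mapRingHom A.subtype), hP.map _, ?_⟩
    rw [Polynomial.eval₂_map]
    have hcomp : (ka46_ev (RingHom.id Qb) g).comp (Polynomial.mapRingHom A.subtype) =
        ka46_ev A.subtype g := by
      refine RingHom.ext fun a => ?_
      rw [RingHom.comp_apply, Polynomial.coe_mapRingHom, ka46_ev_id_map]
    rw [hcomp]
    exact hPy
  · apply Subtype.ext
    rw [ga41_red_coe, ga41_redHom_integral _ y rfl, hyz]

/-- **(I2) in adjoin form over the Gauss valuation ring**, the chart coordinate of the special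
fibre being written as the reduction of the chart coordinate. -/
theorem cm80_I2 (hgF : ka46_g Qb g ∈ modularFunctionFieldBar M)
    (hgk : ka46_g (IsLocalRing.ResidueField A) g ∈
      modularFunctionFieldFullC (IsLocalRing.ResidueField A) M)
    (htr : Transcendental (IsLocalRing.ResidueField A) (ka46_g (IsLocalRing.ResidueField A) g))
    (hnorm : ka46_NormalAt A.subtype (IsLocalRing.residue A) M g)
    (z : ↥(modularFunctionFieldFullC (IsLocalRing.ResidueField A) M))
    (hz : IsIntegral (Algebra.adjoin (IsLocalRing.ResidueField A)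
      {cm80_red M A hM (cm80_xV M A g hM hgF)}) z) :
    ∃ f : ↥(ga41_V M A hM),
      IsIntegral (Algebra.adjoin Qb
        {((cm80_xV M A g hM hgF : ↥(ga41_V M A hM)) : ↥(modularFunctionFieldBar M))})
        (f : ↥(modularFunctionFieldBar M)) ∧
      cm80_red M A hM f = z := by
  rw [cm80_red_xV M A g hM hgF hgk] at hz
  obtain ⟨f, hf, hfz⟩ := cm80_lift M A g hM hgF hgk htr hnorm z hz
  exact ⟨⟨f.1, f.2⟩, hf, hfz⟩

end Coord

/-! ### (I1) for a new chart coordinate -/

section I1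

open Module

variable (M : ℕ) [NeZero M] (A : ValuationSubring Qb)
  (hM : (M : IsLocalRing.ResidueField A) ≠ 0) (g₁ g : LaurentSeries ℤ)

/-- Reductions of elements of `ℚ̄(x) ∩ V` lie in `k(x̄)`. -/
theorem cm80_red_mem (hgF : ka46_g Qb g ∈ modularFunctionFieldBar M)
    (hgk : ka46_g (IsLocalRing.ResidueField A) g ∈
      modularFunctionFieldFullC (IsLocalRing.ResidueField A) M)
    (htr : Transcendental (IsLocalRing.ResidueField A) (ka46_g (IsLocalRing.ResidueField A) g))
    (f : ↥(ga41_V M A hM))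
    (hf : (f : ↥(modularFunctionFieldBar M)) ∈
      Qb⟮((cm80_xV M A g hM hgF : ↥(ga41_V M A hM)) : ↥(modularFunctionFieldBar M))⟯) :
    cm80_red M A hM f ∈
      (IsLocalRing.ResidueField A)⟮cm80_red M A hM (cm80_xV M A g hM hgF)⟯ :=
  cc62_gauss_mem (IsLocalRing.residue A) (cm80_red M A hM) (cm80_hAO M A hM)
    (cm80_hcompat M A hM) (cm80_hOA M A hM) (cm80_hunit M A hM) (cm80_xV M A g hM hgF)
    (cm80_red_xV_transcendental M A g hM hgF hgk htr) f hf

/-- **(I1) for the chart `g` from (I1) for the chart `g₁`** (`g₁ = j` in the applications):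
`g₁ ∈ ℚ̄(g)`, and a family in the Gauss ring whose reductions are a `k(ḡ₁)`-basis of `F_k(M)`,
of cardinality `[F(M) : ℚ̄(g₁)]`, yield the same for `g`. -/
theorem cm80_I1 (hg₁F : ka46_g Qb g₁ ∈ modularFunctionFieldBar M)
    (hg₁k : ka46_g (IsLocalRing.ResidueField A) g₁ ∈
      modularFunctionFieldFullC (IsLocalRing.ResidueField A) M)
    (htr₁ : Transcendental (IsLocalRing.ResidueField A)
      (ka46_g (IsLocalRing.ResidueField A) g₁))
    (hgF : ka46_g Qb g ∈ modularFunctionFieldBar M)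
    (hgk : ka46_g (IsLocalRing.ResidueField A) g ∈
      modularFunctionFieldFullC (IsLocalRing.ResidueField A) M)
    (htr : Transcendental (IsLocalRing.ResidueField A) (ka46_g (IsLocalRing.ResidueField A) g))
    (hjx : cm80_xF M g₁ hg₁F ∈ Qb⟮cm80_xF M g hgF⟯)
    {ι : Type*} [Fintype ι] (b : ι → ↥(ga41_V M A hM))
    (hcard : Fintype.card ι =
      finrank ↥(Qb⟮((cm80_xV M A g₁ hM hg₁F : ↥(ga41_V M A hM)) : ↥(modularFunctionFieldBar M))⟯)
        ↥(modularFunctionFieldBar M))
    (bκ : Basis ι ↥((IsLocalRing.ResidueField A)⟮cm80_red M A hM (cm80_xV M A g₁ hM hg₁F)⟯)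
      ↥(modularFunctionFieldFullC (IsLocalRing.ResidueField A) M))
    (hbκ : ∀ i, bκ i = cm80_red M A hM (b i)) :
    ∃ (c : Fin (finrank ↥((IsLocalRing.ResidueField A)⟮cm80_red M A hM (cm80_xV M A g hM hgF)⟯)
          ↥(modularFunctionFieldFullC (IsLocalRing.ResidueField A) M)) → ↥(ga41_V M A hM))
      (bκ₂ : Basis (Fin (finrank
          ↥((IsLocalRing.ResidueField A)⟮cm80_red M A hM (cm80_xV M A g hM hgF)⟯)
          ↥(modularFunctionFieldFullC (IsLocalRing.ResidueField A) M)))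
        ↥((IsLocalRing.ResidueField A)⟮cm80_red M A hM (cm80_xV M A g hM hgF)⟯)
        ↥(modularFunctionFieldFullC (IsLocalRing.ResidueField A) M)),
      (∀ i, bκ₂ i = cm80_red M A hM (c i)) ∧
        finrank ↥((IsLocalRing.ResidueField A)⟮cm80_red M A hM (cm80_xV M A g hM hgF)⟯)
            ↥(modularFunctionFieldFullC (IsLocalRing.ResidueField A) M) =
          finrank ↥(Qb⟮((cm80_xV M A g hM hgF : ↥(ga41_V M A hM)) :
            ↥(modularFunctionFieldBar M))⟯) ↥(modularFunctionFieldBar M) :=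
  cc62_main (IsLocalRing.residue A) (cm80_red M A hM) (cm80_hAO M A hM) (cm80_hcompat M A hM)
    (cm80_hOA M A hM) (cm80_hunit M A hM) IsLocalRing.residue_surjective
    (cm80_xV M A g₁ hM hg₁F) (cm80_xV M A g hM hgF)
    (cm80_red_xV_transcendental M A g₁ hM hg₁F hg₁k htr₁)
    (cm80_red_xV_transcendental M A g hM hgF hgk htr) hjx b hcard bκ hbκ

end I1

/-! ### The concrete coordinates -/

section Concrete

/-- `j` as a chart coordinate: the integer series. -/
theorem cm80_g_j (S : Type*) [CommRing S] : ka46_g S (jqModC ℤ) = jqModC S :=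
  coeffMap_jqModC _

theorem cm80_g_h2 (S : Type*) [CommRing S] : ka46_g S (h70_h2 ℤ) = h70_h2 S :=
  h70_coeffMap_h2 _

theorem cm80_g_h2inv (S : Type*) [CommRing S] : ka46_g S (h70_h2inv ℤ) = h70_h2inv S :=
  h70_coeffMap_h2inv _

theorem cm80_g_h3 (S : Type*) [CommRing S] : ka46_g S (h34_h3R ℤ) = h34_h3R S :=
  h34_coeffMap_h3R _

theorem cm80_g_h3inv (S : Type*) [CommRing S] : ka46_g S (h34_h3Rinv ℤ) = h34_h3Rinv S :=
  h34_coeffMap_h3Rinv _

variable (M : ℕ)

theorem cm80_j_memF : ka46_g Qb (jqModC ℤ) ∈ modularFunctionFieldBar M := by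
  rw [cm80_g_j, ga41_bar_eq]
  exact jqModC_mem_full Qb M

theorem cm80_j_memk (k : Type*) [Field k] :
    ka46_g k (jqModC ℤ) ∈ modularFunctionFieldFullC k M := by
  rw [cm80_g_j]
  exact jqModC_mem_full k M

theorem cm80_j_tr (k : Type*) [Field k] : Transcendental k (ka46_g k (jqModC ℤ)) := by
  rw [cm80_g_j]
  exact h63_transcendental_jqModC k

/-- The `j`-coordinate of the special fibre is `rc5_j`. -/
theorem cm80_xk_j (k : Type*) [Field k] [NeZero M] :
    cm80_xk M (jqModC ℤ) k (cm80_j_memk M k) = rc5_j k M :=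
  Subtype.ext (cm80_g_j k)

end Concrete

/-- `j ∈ K(x)` from a relation `j * x ^ e = r` with `r ∈ K(x)`, `x ≠ 0`. -/
theorem cm80_mem_adjoin_of_mul {K F : Type*} [Field K] [Field F] [Algebra K F] (x j r : F)
    (hx : x ≠ 0) (e : ℕ) (hr : r ∈ K⟮x⟯) (h : j * x ^ e = r) : j ∈ K⟮x⟯ := by
  have hj : j = r / x ^ e := by
    rw [← h, mul_div_cancel_right₀ _ (pow_ne_zero e hx)]
  rw [hj]
  exact div_mem hr (pow_mem (mem_adjoin_simple_self K x) e)

section Level2

variable (M : ℕ) [NeZero M] (h2 : 2 ∣ M)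

include h2

theorem cm80_h2_memF : ka46_g Qb (h70_h2 ℤ) ∈ modularFunctionFieldBar M := by
  rw [cm80_g_h2]
  exact h70_h2_mem_bar M h2

theorem cm80_h2inv_memF : ka46_g Qb (h70_h2inv ℤ) ∈ modularFunctionFieldBar M := by
  rw [cm80_g_h2inv]
  exact h70_h2inv_mem_baseChange Qb M h2

theorem cm80_h2_memk (k : Type*) [Field k] (hk : (2 : k) ≠ 0) :
    ka46_g k (h70_h2 ℤ) ∈ modularFunctionFieldFullC k M := by
  rw [cm80_g_h2]
  exact h70_h2_mem_fullC_of_two_ne_zero k hk M h2

theorem cm80_h2inv_memk (k : Type*) [Field k] (hk : (2 : k) ≠ 0) :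
    ka46_g k (h70_h2inv ℤ) ∈ modularFunctionFieldFullC k M := by
  rw [cm80_g_h2inv]
  exact h70_h2inv_mem_fullC_of_two_ne_zero k hk M h2

omit h2 [NeZero M] in
theorem cm80_h2_tr (k : Type*) [Field k] : Transcendental k (ka46_g k (h70_h2 ℤ)) := by
  rw [cm80_g_h2]
  exact h70_h2_transcendental k

omit h2 [NeZero M] in
theorem cm80_h2inv_tr (k : Type*) [Field k] : Transcendental k (ka46_g k (h70_h2inv ℤ)) := by
  rw [cm80_g_h2inv, h70_h2inv_eq_inv]
  exact ps14_transcendental_inv (h70_h2_transcendental k)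

/-- `j ∈ ℚ̄(h)` at level `2 ∣ M`. -/
theorem cm80_h2_jmem :
    cm80_xF M (jqModC ℤ) (cm80_j_memF M) ∈ Qb⟮cm80_xF M (h70_h2 ℤ) (cm80_h2_memF M h2)⟯ := by
  set x := cm80_xF M (h70_h2 ℤ) (cm80_h2_memF M h2) with hx
  have hx0 : x ≠ 0 := by
    intro h0
    have h1 : ka46_g Qb (h70_h2 ℤ) = 0 := congrArg Subtype.val h0
    rw [cm80_g_h2] at h1
    exact (h70_h2_isUnit Qb).ne_zero h1
  refine cm80_mem_adjoin_of_mul x _ ((x + 256) ^ 3) hx0 2 ?_ ?_
  · exact pow_mem (add_mem (mem_adjoin_simple_self Qb x) (_root_.natCast_mem _ 256)) 3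
  · apply Subtype.ext
    show ka46_g Qb (jqModC ℤ) * ka46_g Qb (h70_h2 ℤ) ^ 2 = (ka46_g Qb (h70_h2 ℤ) + 256) ^ 3
    rw [cm80_g_j, cm80_g_h2]
    exact h70_j_mul_h2_sq Qb

theorem cm80_h2inv_eq_inv :
    cm80_xF M (h70_h2inv ℤ) (cm80_h2inv_memF M h2) =
      (cm80_xF M (h70_h2 ℤ) (cm80_h2_memF M h2))⁻¹ := by
  apply Subtype.ext
  show ka46_g Qb (h70_h2inv ℤ) = (ka46_g Qb (h70_h2 ℤ))⁻¹
  rw [cm80_g_h2inv, cm80_g_h2, h70_h2inv_eq_inv]

/-- `j ∈ ℚ̄(1/h)` at level `2 ∣ M`. -/
theorem cm80_h2inv_jmem :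
    cm80_xF M (jqModC ℤ) (cm80_j_memF M) ∈
      Qb⟮cm80_xF M (h70_h2inv ℤ) (cm80_h2inv_memF M h2)⟯ := by
  rw [cm80_h2inv_eq_inv M h2, ps14_adjoin_inv]
  exact cm80_h2_jmem M h2

end Level2

section Level3

variable (M : ℕ) [NeZero M] (h3 : 3 ∣ M)

include h3

theorem cm80_h3_memF : ka46_g Qb (h34_h3R ℤ) ∈ modularFunctionFieldBar M := by
  rw [cm80_g_h3]
  exact h34_h3R_mem_bar M h3

theorem cm80_h3inv_memF : ka46_g Qb (h34_h3Rinv ℤ) ∈ modularFunctionFieldBar M := by
  rw [cm80_g_h3inv]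
  exact h34_h3Rinv_mem_baseChange Qb M h3

theorem cm80_h3_memk (k : Type*) [Field k] (hk : (3 : k) ≠ 0) :
    ka46_g k (h34_h3R ℤ) ∈ modularFunctionFieldFullC k M := by
  rw [cm80_g_h3]
  exact h61h_h3_mem_fullC k hk M h3

theorem cm80_h3inv_memk (k : Type*) [Field k] (hk : (3 : k) ≠ 0) :
    ka46_g k (h34_h3Rinv ℤ) ∈ modularFunctionFieldFullC k M := by
  rw [cm80_g_h3inv]
  exact h61h_h3inv_mem_fullC k hk M h3

omit h3 [NeZero M] in
theorem cm80_h3_tr (k : Type*) [Field k] : Transcendental k (ka46_g k (h34_h3R ℤ)) := by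
  rw [cm80_g_h3]
  exact h34_h3R_transcendental k

omit h3 [NeZero M] in
theorem cm80_h3inv_tr (k : Type*) [Field k] : Transcendental k (ka46_g k (h34_h3Rinv ℤ)) := by
  rw [cm80_g_h3inv, h34_h3Rinv_eq_inv]
  exact ps14_transcendental_inv (h34_h3R_transcendental k)

/-- `j ∈ ℚ̄(h)` at level `3 ∣ M`. -/
theorem cm80_h3_jmem :
    cm80_xF M (jqModC ℤ) (cm80_j_memF M) ∈ Qb⟮cm80_xF M (h34_h3R ℤ) (cm80_h3_memF M h3)⟯ := by
  set x := cm80_xF M (h34_h3R ℤ) (cm80_h3_memF M h3) with hx
  have hx0 : x ≠ 0 := by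
    intro h0
    have h1 : ka46_g Qb (h34_h3R ℤ) = 0 := congrArg Subtype.val h0
    rw [cm80_g_h3] at h1
    exact (h34_h3R_isUnit Qb).ne_zero h1
  refine cm80_mem_adjoin_of_mul x _ ((x + 27) * (x + 243) ^ 3) hx0 3 ?_ ?_
  · exact mul_mem (add_mem (mem_adjoin_simple_self Qb x) (_root_.natCast_mem _ 27))
      (pow_mem (add_mem (mem_adjoin_simple_self Qb x) (_root_.natCast_mem _ 243)) 3)
  · apply Subtype.ext
    show ka46_g Qb (jqModC ℤ) * ka46_g Qb (h34_h3R ℤ) ^ 3 =
      (ka46_g Qb (h34_h3R ℤ) + 27) * (ka46_g Qb (h34_h3R ℤ) + 243) ^ 3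
    rw [cm80_g_j, cm80_g_h3]
    exact h34_h3R_j Qb

theorem cm80_h3inv_eq_inv :
    cm80_xF M (h34_h3Rinv ℤ) (cm80_h3inv_memF M h3) =
      (cm80_xF M (h34_h3R ℤ) (cm80_h3_memF M h3))⁻¹ := by
  apply Subtype.ext
  show ka46_g Qb (h34_h3Rinv ℤ) = (ka46_g Qb (h34_h3R ℤ))⁻¹
  rw [cm80_g_h3inv, cm80_g_h3, h34_h3Rinv_eq_inv]

/-- `j ∈ ℚ̄(1/h)` at level `3 ∣ M`. -/
theorem cm80_h3inv_jmem :
    cm80_xF M (jqModC ℤ) (cm80_j_memF M) ∈
      Qb⟮cm80_xF M (h34_h3Rinv ℤ) (cm80_h3inv_memF M h3)⟯ := by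
  rw [cm80_h3inv_eq_inv M h3, ps14_adjoin_inv]
  exact cm80_h3_jmem M h3

end Level3

/-! ### The special fibre is finite separable over `k(x̄)` -/

section Sep

variable (M : ℕ) [NeZero M] (A : ValuationSubring Qb)
  (hM : (M : IsLocalRing.ResidueField A) ≠ 0) (g : LaurentSeries ℤ)

/-- `j̄ ∈ k(x̄)` for a chart coordinate `x` with `j ∈ ℚ̄(x)`. -/
theorem cm80_rc5_j_mem (hgF : ka46_g Qb g ∈ modularFunctionFieldBar M)
    (hgk : ka46_g (IsLocalRing.ResidueField A) g ∈
      modularFunctionFieldFullC (IsLocalRing.ResidueField A) M)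
    (htr : Transcendental (IsLocalRing.ResidueField A) (ka46_g (IsLocalRing.ResidueField A) g))
    (hjx : cm80_xF M (jqModC ℤ) (cm80_j_memF M) ∈ Qb⟮cm80_xF M g hgF⟯) :
    rc5_j (IsLocalRing.ResidueField A) M ∈
      (IsLocalRing.ResidueField A)⟮cm80_red M A hM (cm80_xV M A g hM hgF)⟯ := by
  have h := cm80_red_mem M A hM g hgF hgk htr
    (cm80_xV M A (jqModC ℤ) hM (cm80_j_memF M)) hjx
  rwa [cm80_red_xV M A (jqModC ℤ) hM (cm80_j_memF M) (cm80_j_memk M _), cm80_xk_j] at h

theorem cm80_finiteDimensional_k (hgF : ka46_g Qb g ∈ modularFunctionFieldBar M)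
    (hgk : ka46_g (IsLocalRing.ResidueField A) g ∈
      modularFunctionFieldFullC (IsLocalRing.ResidueField A) M)
    (htr : Transcendental (IsLocalRing.ResidueField A) (ka46_g (IsLocalRing.ResidueField A) g))
    (hjx : cm80_xF M (jqModC ℤ) (cm80_j_memF M) ∈ Qb⟮cm80_xF M g hgF⟯) :
    FiniteDimensional
      ↥((IsLocalRing.ResidueField A)⟮cm80_red M A hM (cm80_xV M A g hM hgF)⟯)
      ↥(modularFunctionFieldFullC (IsLocalRing.ResidueField A) M) := by
  haveI := rc5_finiteDimensional (IsLocalRing.ResidueField A) M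
  exact ps14_finiteDimensional_of_mem (cm80_rc5_j_mem M A hM g hgF hgk htr hjx)

theorem cm80_isSeparable_k (hgF : ka46_g Qb g ∈ modularFunctionFieldBar M)
    (hgk : ka46_g (IsLocalRing.ResidueField A) g ∈
      modularFunctionFieldFullC (IsLocalRing.ResidueField A) M)
    (htr : Transcendental (IsLocalRing.ResidueField A) (ka46_g (IsLocalRing.ResidueField A) g))
    (hjx : cm80_xF M (jqModC ℤ) (cm80_j_memF M) ∈ Qb⟮cm80_xF M g hgF⟯) :
    Algebra.IsSeparable
      ↥((IsLocalRing.ResidueField A)⟮cm80_red M A hM (cm80_xV M A g hM hgF)⟯)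
      ↥(modularFunctionFieldFullC (IsLocalRing.ResidueField A) M) := by
  haveI := rc5_isAlgClosed_residueField A
  haveI := rc5_isSeparable_full (IsLocalRing.ResidueField A) M
  exact ps14_isSeparable_of_mem (cm80_rc5_j_mem M A hM g hgF hgk htr hjx)

end Sep

end Fermat.Agent.S37
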