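import Mathlib
import Fermat.Agent.S37.GaussBasis41
import Fermat.Agent.S37.NormRed62
import Fermat.Agent.S37.ChartMod80

/-!
# S37, row NM (d)-inst, modular side (helper22)

Level descent `N' → N` (`N ∣ N'`) of chart normality `ka46_NormalAt` over a valuation subring
`A` of `ℚ̄`: the Gauss rings and reduction maps of helper41 at the two levels are compatible,
norms commute with reduction, and the generic norm descent then gives normality at level `N`.

* `ni22_norm_step` : abstract norm/reduction compatibility from a degree equality.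
* `ni22_algebra`, `ni22_isScalarTower`, `ni22_finrank_eq_relfinrank` : the algebra structure
  between nested intermediate fields (a definition, not an instance) and its degree.
* `ni22_relfinrank_j`, `ni22_relfinrank`, `ni22_finiteDimensional_fullC` : `[F_{N,K} : K(j)] =
  ψ(N)` and `ψ(N) * [F_{N',K} : F_{N,K}] = ψ(N')` for every field `K` with `(N' : K) ≠ 0`.
* `ni22_hdeg`, `ni22_hOO`, `ni22_hcompat`, `ni22_norm_red` : for `N ∣ N'` the Gauss rings and
  reduction maps at the two levels are compatible, the degrees of `F(N') / F(N)` on the two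
  fibres agree, and the norm commutes with reduction.
* `ni22_B` : the subring of `F_k(N)` of reductions of elements of `F(N)` integral over `A[g]`;
  `ni22_B_const`, `ni22_B_coord`, `ni22_B_int`, `ni22_hnorm` are the four hypotheses of the
  generic norm descent for it.
* `ni22_normalAt_of_descent` : `ka46_NormalAt … N' g → ka46_NormalAt … N g`, the generic norm
  descent for `F_k(N) ⊆ F_k(N')` being a hypothesis `hdesc` (discharged in the final file).
-/

set_option autoImplicit false
set_option synthInstance.maxHeartbeats 400000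
set_option linter.style.haveILetI false

open ModularCurve IntermediateField

namespace Fermat.Agent.S37

open Fermat.Agent.S18 Fermat.Agent.S28

local notation "Qb" => AlgebraicClosure ℚ

section Generic

variable {F F' κ κ' : Type*} [Field F] [Field F'] [Algebra F F'] [Field κ] [Field κ']
  [Algebra κ κ']

/-- **Norm commutes with reduction**, from surjectivity of the upper reduction map and equality
of the degrees of the generic and the special extension. -/
theorem ni22_norm_step [FiniteDimensional F F'] {O : ValuationSubring F}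
    {O' : ValuationSubring F'} (red : O →+* κ) (red' : O' →+* κ')
    (hOO' : ∀ x : F, x ∈ O → algebraMap F F' x ∈ O')
    (hcompat : ∀ (x : F) (hx : x ∈ O),
      red' ⟨algebraMap F F' x, hOO' x hx⟩ = algebraMap κ κ' (red ⟨x, hx⟩))
    (hm : ∀ x : O, (x : F)⁻¹ ∉ O → red x = 0)
    (hsurj : Function.Surjective red')
    (hdeg : Module.finrank F F' = Module.finrank κ κ') (f : O') :
    ∃ n : O, (n : F) = Algebra.norm F (f : F') ∧ red n = Algebra.norm κ (red' f) := by
  have hpos : 0 < Module.finrank κ κ' := by
    rw [← hdeg]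
    exact Module.finrank_pos
  haveI : FiniteDimensional κ κ' := Module.finite_of_finrank_pos hpos
  let bκ := Module.finBasis κ κ'
  choose b hb using fun i => hsurj (bκ i)
  exact nm62_norm_red red red' hOO' hcompat hm b (by rw [Fintype.card_fin, hdeg]) bκ
    (fun i => (hb i).symm) f

end Generic

/-! ### Nested intermediate fields -/

section Incl

variable {K L : Type*} [Field K] [Field L] [Algebra K L]

/-- The algebra structure between two nested intermediate fields. -/
@[reducible] noncomputable def ni22_algebra {E E' : IntermediateField K L} (h : E ≤ E') :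
    Algebra ↥E ↥E' := (IntermediateField.inclusion h).toRingHom.toAlgebra

theorem ni22_algebraMap_coe {E E' : IntermediateField K L} (h : E ≤ E') (x : ↥E) :
    letI := ni22_algebra h
    ((algebraMap ↥E ↥E' x : ↥E') : L) = (x : L) := rfl

theorem ni22_isScalarTower {E E' : IntermediateField K L} (h : E ≤ E') :
    letI := ni22_algebra h
    IsScalarTower K ↥E ↥E' := by
  letI := ni22_algebra h
  exact IsScalarTower.of_algebraMap_eq (fun x => rfl)

/-- The degree of the inclusion algebra is the relative degree. -/
theorem ni22_finrank_eq_relfinrank {E E' : IntermediateField K L} (h : E ≤ E') :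
    letI := ni22_algebra h
    Module.finrank ↥E ↥E' = E.relfinrank E' := by
  letI := ni22_algebra h
  have h2 := IntermediateField.finrank_comap (A := E) E'.val
  rw [IntermediateField.fieldRange_val] at h2
  rw [← h2]
  let i : ↥E ≃+* ↥(E.comap E'.val) :=
    { toFun := fun x => ⟨⟨(x : L), h x.2⟩, x.2⟩
      invFun := fun y => ⟨((y : ↥E') : L), y.2⟩
      left_inv := fun x => rfl
      right_inv := fun y => rfl
      map_mul' := fun x y => rfl
      map_add' := fun x y => rfl }
  exact Algebra.finrank_eq_of_equiv_equiv i (RingEquiv.refl ↥E') (RingHom.ext fun x => rfl)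

end Incl

/-! ### Degrees of the level extension on both fibres -/

section Degree

variable (K : Type) [Field K]

theorem ni22_j_le (N : ℕ) [NeZero N] : K⟮jqModC K⟯ ≤ modularFunctionFieldFullC K N := by
  rw [IntermediateField.adjoin_simple_le_iff]
  exact jqModC_mem_full K N

/-- `[F_{N,K} : K(j)] = ψ(N)` as a relative degree inside `K((q))`. -/
theorem ni22_relfinrank_j (N : ℕ) [NeZero N] (hN : (N : K) ≠ 0) :
    (K⟮jqModC K⟯).relfinrank (modularFunctionFieldFullC K N) = dedekindPsi N := by
  have h1 := (ga41_finrank_res N K hN).2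
  have hcomap : (K⟮jqModC K⟯).comap (modularFunctionFieldFullC K N).val = K⟮ga41_jk N K⟯ := by
    have hmap : (K⟮ga41_jk N K⟯).map (modularFunctionFieldFullC K N).val = K⟮jqModC K⟯ := by
      rw [IntermediateField.adjoin_map, Set.image_singleton]
      rfl
    rw [← hmap]
    ext y
    change (modularFunctionFieldFullC K N).val y ∈
      (K⟮ga41_jk N K⟯).map (modularFunctionFieldFullC K N).val ↔ y ∈ K⟮ga41_jk N K⟯
    rw [IntermediateField.mem_map]
    constructor
    · rintro ⟨z, hz, hzy⟩
      have : z = y := (modularFunctionFieldFullC K N).val.injective hzy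
      rw [← this]
      exact hz
    · intro hy
      exact ⟨y, hy, rfl⟩
  have h2 := IntermediateField.finrank_comap (A := K⟮jqModC K⟯) (modularFunctionFieldFullC K N).val
  rw [hcomap, IntermediateField.fieldRange_val] at h2
  rw [← h2, h1]

theorem ni22_psi_pos (N : ℕ) [NeZero N] : 0 < dedekindPsi N := by
  obtain ⟨hfin, h⟩ := ga41_finrank_bar N
  rw [← h]
  exact Module.finrank_pos

theorem ni22_natCast_ne_zero {N N' : ℕ} (h : N ∣ N') (hN' : (N' : K) ≠ 0) : (N : K) ≠ 0 := by
  obtain ⟨c, rfl⟩ := h
  intro h0
  apply hN'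
  rw [Nat.cast_mul, h0, zero_mul]

/-- `ψ(N) * [F_{N',K} : F_{N,K}] = ψ(N')` for `N ∣ N'`, `(N' : K) ≠ 0`. -/
theorem ni22_relfinrank {N N' : ℕ} [NeZero N] [NeZero N'] (h : N ∣ N') (hN' : (N' : K) ≠ 0) :
    dedekindPsi N * (modularFunctionFieldFullC K N).relfinrank (modularFunctionFieldFullC K N') =
      dedekindPsi N' := by
  rw [← ni22_relfinrank_j K N (ni22_natCast_ne_zero K h hN'), ← ni22_relfinrank_j K N' hN']
  exact IntermediateField.relfinrank_mul_relfinrank (ni22_j_le K N) (full_degeneracyC_le K h)

/-- `F_{N',K}` is finite over `F_{N,K}` for `N ∣ N'`, `(N' : K) ≠ 0`. -/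
theorem ni22_finiteDimensional_fullC {N N' : ℕ} [NeZero N] [NeZero N'] (h : N ∣ N')
    (hN' : (N' : K) ≠ 0) :
    letI := ni22_algebra (full_degeneracyC_le K h)
    FiniteDimensional ↥(modularFunctionFieldFullC K N) ↥(modularFunctionFieldFullC K N') := by
  letI := ni22_algebra (full_degeneracyC_le K h)
  apply Module.finite_of_finrank_pos
  rw [ni22_finrank_eq_relfinrank]
  have h1 := ni22_relfinrank K h hN'
  have h2 := ni22_psi_pos N'
  rcases Nat.eq_zero_or_pos
    ((modularFunctionFieldFullC K N).relfinrank (modularFunctionFieldFullC K N')) with h0 | h0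
  · rw [h0, mul_zero] at h1
    omega
  · exact h0

end Degree

/-! ### The pair `(F(N), F(N'))` over a valuation subring of `ℚ̄` -/

section Pair

variable (A : ValuationSubring Qb) {N N' : ℕ} [NeZero N] [NeZero N']

theorem ni22_bar_le (h : N ∣ N') : modularFunctionFieldBar N ≤ modularFunctionFieldBar N' := by
  rw [ga41_bar_eq, ga41_bar_eq]
  exact full_degeneracyC_le Qb h

/-- Equality of the degrees of the level extension on the two fibres. -/
theorem ni22_hdeg (h : N ∣ N') (hN' : (N' : IsLocalRing.ResidueField A) ≠ 0) :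
    letI := ni22_algebra (ni22_bar_le h)
    letI := ni22_algebra (full_degeneracyC_le (IsLocalRing.ResidueField A) h)
    Module.finrank ↥(modularFunctionFieldBar N) ↥(modularFunctionFieldBar N') =
      Module.finrank ↥(modularFunctionFieldFullC (IsLocalRing.ResidueField A) N)
        ↥(modularFunctionFieldFullC (IsLocalRing.ResidueField A) N') := by
  rw [ni22_finrank_eq_relfinrank, ni22_finrank_eq_relfinrank]
  have h1 := ni22_relfinrank Qb h (Nat.cast_ne_zero.mpr (NeZero.ne N'))
  have h2 := ni22_relfinrank (IsLocalRing.ResidueField A) h hN'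
  rw [← ga41_bar_eq, ← ga41_bar_eq] at h1
  exact Nat.eq_of_mul_eq_mul_left (ni22_psi_pos N) (h1.trans h2.symm)

theorem ni22_finiteDimensional (h : N ∣ N') :
    letI := ni22_algebra (ni22_bar_le h)
    FiniteDimensional ↥(modularFunctionFieldBar N) ↥(modularFunctionFieldBar N') := by
  letI := ni22_algebra (ni22_bar_le h)
  apply Module.finite_of_finrank_pos
  rw [ni22_finrank_eq_relfinrank]
  have h1 := ni22_relfinrank Qb h (Nat.cast_ne_zero.mpr (NeZero.ne N'))
  rw [← ga41_bar_eq, ← ga41_bar_eq] at h1
  have h2 := ni22_psi_pos N'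
  rcases Nat.eq_zero_or_pos
    ((modularFunctionFieldBar N).relfinrank (modularFunctionFieldBar N')) with h0 | h0
  · rw [h0, mul_zero] at h1
    omega
  · exact h0

variable (hN : (N : IsLocalRing.ResidueField A) ≠ 0)
  (hN' : (N' : IsLocalRing.ResidueField A) ≠ 0)

/-- The Gauss ring of level `N` lies in the Gauss ring of level `N'`. -/
theorem ni22_hOO (h : N ∣ N') (x : ↥(modularFunctionFieldBar N)) (hx : x ∈ ga41_V N A hN) :
    letI := ni22_algebra (ni22_bar_le h)
    algebraMap ↥(modularFunctionFieldBar N) ↥(modularFunctionFieldBar N') x ∈ ga41_V N' A hN' := by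
  letI := ni22_algebra (ni22_bar_le h)
  obtain ⟨s, t, hs, hst⟩ := ga41_mem_O.mp ((ga41_mem_V N A hN x).mp hx)
  exact (ga41_mem_V N' A hN' _).mpr (ga41_mem_O.mpr ⟨s, t, hs, hst⟩)

/-- The reduction map of level `N'` extends the reduction map of level `N`. -/
theorem ni22_hcompat (h : N ∣ N') (x : ↥(modularFunctionFieldBar N)) (hx : x ∈ ga41_V N A hN) :
    letI := ni22_algebra (ni22_bar_le h)
    letI := ni22_algebra (full_degeneracyC_le (IsLocalRing.ResidueField A) h)
    ga41_redV N' A hN' ⟨algebraMap ↥(modularFunctionFieldBar N) ↥(modularFunctionFieldBar N') x,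
        ni22_hOO A hN hN' h x hx⟩ =
      algebraMap ↥(modularFunctionFieldFullC (IsLocalRing.ResidueField A) N)
        ↥(modularFunctionFieldFullC (IsLocalRing.ResidueField A) N')
        (ga41_redV N A hN ⟨x, hx⟩) := by
  letI := ni22_algebra (ni22_bar_le h)
  letI := ni22_algebra (full_degeneracyC_le (IsLocalRing.ResidueField A) h)
  obtain ⟨s, t, hs, hst⟩ := ga41_mem_O.mp ((ga41_mem_V N A hN x).mp hx)
  apply Subtype.ext
  show ga41_redHom (⟨algebraMap ↥(modularFunctionFieldBar N) ↥(modularFunctionFieldBar N') x,
      ni22_hOO A hN hN' h x hx⟩ : ga41_O N' A) = ga41_redHom (⟨x, hx⟩ : ga41_O N A)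
  rw [ga41_redHom_eq (⟨x, hx⟩ : ga41_O N A) hs hst,
    ga41_redHom_eq (⟨algebraMap ↥(modularFunctionFieldBar N) ↥(modularFunctionFieldBar N') x,
      ni22_hOO A hN hN' h x hx⟩ : ga41_O N' A) hs hst]

/-- **Norm commutes with reduction** for `F(N') / F(N)` and the Gauss valuation rings. -/
theorem ni22_norm_red (h : N ∣ N') (f : ↥(ga41_V N' A hN')) :
    letI := ni22_algebra (ni22_bar_le h)
    letI := ni22_algebra (full_degeneracyC_le (IsLocalRing.ResidueField A) h)
    ∃ n : ↥(ga41_V N A hN),
      (n : ↥(modularFunctionFieldBar N)) =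
        Algebra.norm ↥(modularFunctionFieldBar N) (f : ↥(modularFunctionFieldBar N')) ∧
      ga41_redV N A hN n =
        Algebra.norm ↥(modularFunctionFieldFullC (IsLocalRing.ResidueField A) N)
          (ga41_redV N' A hN' f) := by
  letI := ni22_algebra (ni22_bar_le h)
  letI := ni22_algebra (full_degeneracyC_le (IsLocalRing.ResidueField A) h)
  haveI := ni22_finiteDimensional h
  exact ni22_norm_step (ga41_redV N A hN) (ga41_redV N' A hN') (ni22_hOO A hN hN' h)
    (ni22_hcompat A hN hN' h) (ga41_hm N A hN) (ga41_redV_surjective N' A hN')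
    (ni22_hdeg A h hN') f

end Pair

/-! ### Integrality over `A[g]` in the three languages -/

section IntA

variable (A : ValuationSubring Qb) (g : LaurentSeries ℤ)

theorem ni22_coeffMap_comp_ev :
    (coeffMap A.subtype).comp (ka46_ev (RingHom.id A) g) = ka46_ev A.subtype g := by
  refine RingHom.ext fun a => ?_
  rw [RingHom.comp_apply, ka46_coeffMap_ev, RingHom.comp_id]

/-- Integrality over `A[g]` of an `A`-integral series can be tested in `ℚ̄((q))`. -/
theorem ni22_intA_iff (y : LaurentSeries A) :
    (ka46_ev A.subtype g).IsIntegralElem (coeffMap A.subtype y) ↔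
      (ka46_ev (RingHom.id A) g).IsIntegralElem y := by
  rw [← ni22_coeffMap_comp_ev]
  exact RingHom.IsIntegralElem.map_iff (re41_coeffMap_subtype_injective A)

/-- Integrality over `A[g]` reduces to integrality over `k[ḡ]`. -/
theorem ni22_intA_res (y : LaurentSeries A)
    (hy : (ka46_ev (RingHom.id A) g).IsIntegralElem y) :
    (ka46_ev (RingHom.id (IsLocalRing.ResidueField A)) g).IsIntegralElem
      (coeffMap (IsLocalRing.residue A) y) :=
  ka46_isIntegralElem_coeffMap (RingHom.id A) (RingHom.id (IsLocalRing.ResidueField A))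
    (IsLocalRing.residue A) (IsLocalRing.residue A) rfl g y hy

/-- Polynomials in the chart coordinate lie in the function field. -/
theorem ni22_ev_mem {R K : Type*} [CommRing R] [Field K] (inc : R →+* K)
    (E : IntermediateField K (LaurentSeries K)) (hgE : ka46_g K g ∈ E) (a : Polynomial R) :
    ka46_ev inc g a ∈ E := by
  rw [ka46_ev_apply, Polynomial.eval₂_eq_sum_range]
  refine sum_mem fun i _ => mul_mem ?_ (pow_mem hgE i)
  rw [RingHom.comp_apply, HahnSeries.C_apply, ← algebraMap_laurentSeries_eq_single]
  exact IntermediateField.algebraMap_mem _ _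

end IntA

/-! ### The ring of reductions of integral functions -/

section RedRing

variable (A : ValuationSubring Qb) (N : ℕ) (g : LaurentSeries ℤ)

/-- The subring of `F_k(N)` of reductions of elements of `F(N)` integral over `A[g]` (which
have `A`-integral `q`-expansions by the `q`-expansion principle). -/
noncomputable def ni22_B : Subring ↥(modularFunctionFieldFullC (IsLocalRing.ResidueField A) N) where
  carrier := {z | ∃ y : LaurentSeries A, coeffMap A.subtype y ∈ modularFunctionFieldBar N ∧
    (ka46_ev (RingHom.id A) g).IsIntegralElem y ∧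
    coeffMap (IsLocalRing.residue A) y = (z : LaurentSeries (IsLocalRing.ResidueField A))}
  mul_mem' := by
    rintro a b ⟨y, hyF, hyint, hya⟩ ⟨y', hyF', hyint', hyb⟩
    refine ⟨y * y', ?_, hyint.mul _ hyint', ?_⟩
    · rw [map_mul]
      exact mul_mem hyF hyF'
    · rw [map_mul, hya, hyb]
      rfl
  one_mem' := by
    refine ⟨1, ?_, RingHom.isIntegralElem_one _, ?_⟩
    · rw [map_one]
      exact one_mem _
    · rw [map_one]
      rfl
  add_mem' := by
    rintro a b ⟨y, hyF, hyint, hya⟩ ⟨y', hyF', hyint', hyb⟩
    refine ⟨y + y', ?_, RingHom.IsIntegralElem.add _ hyint hyint', ?_⟩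
    · rw [map_add]
      exact add_mem hyF hyF'
    · rw [map_add, hya, hyb]
      rfl
  zero_mem' := by
    refine ⟨0, ?_, RingHom.isIntegralElem_zero _, ?_⟩
    · rw [map_zero]
      exact zero_mem _
    · rw [map_zero]
      rfl
  neg_mem' := by
    rintro a ⟨y, hyF, hyint, hya⟩
    refine ⟨-y, ?_, hyint.neg _, ?_⟩
    · rw [map_neg]
      exact neg_mem hyF
    · rw [map_neg, hya]
      rfl

theorem ni22_mem_B (z : ↥(modularFunctionFieldFullC (IsLocalRing.ResidueField A) N)) :
    z ∈ ni22_B A N g ↔ ∃ y : LaurentSeries A, coeffMap A.subtype y ∈ modularFunctionFieldBar N ∧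
      (ka46_ev (RingHom.id A) g).IsIntegralElem y ∧
      coeffMap (IsLocalRing.residue A) y = (z : LaurentSeries (IsLocalRing.ResidueField A)) :=
  Iff.rfl

/-- Constants lie in `B`. -/
theorem ni22_B_const (c : IsLocalRing.ResidueField A) :
    algebraMap (IsLocalRing.ResidueField A)
      ↥(modularFunctionFieldFullC (IsLocalRing.ResidueField A) N) c ∈ ni22_B A N g := by
  obtain ⟨a, rfl⟩ := IsLocalRing.residue_surjective c
  refine ⟨HahnSeries.C a, ?_, ?_, ?_⟩
  · rw [ka46_coeffMap_C, HahnSeries.C_apply, ← algebraMap_laurentSeries_eq_single]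
    exact IntermediateField.algebraMap_mem _ _
  · have h : ka46_ev (RingHom.id A) g (Polynomial.C a) = HahnSeries.C a := by
      rw [ka46_ev_apply, Polynomial.eval₂_C]
      rfl
    rw [← h]
    exact RingHom.isIntegralElem_map _
  · rw [ka46_coeffMap_C, HahnSeries.C_apply, ← algebraMap_laurentSeries_eq_single]
    rfl

/-- The chart coordinate lies in `B`. -/
theorem ni22_B_coord (hgF : ka46_g Qb g ∈ modularFunctionFieldBar N)
    (hgk : ka46_g (IsLocalRing.ResidueField A) g ∈
      modularFunctionFieldFullC (IsLocalRing.ResidueField A) N) :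
    cm80_xk N g (IsLocalRing.ResidueField A) hgk ∈ ni22_B A N g := by
  refine ⟨ka46_g A g, ?_, ?_, ?_⟩
  · rw [ka46_coeffMap_g]
    exact hgF
  · have h : ka46_ev (RingHom.id A) g Polynomial.X = ka46_g A g := by
      rw [ka46_ev_apply, Polynomial.eval₂_X]
    rw [← h]
    exact RingHom.isIntegralElem_map _
  · rw [ka46_coeffMap_g]
    rfl

/-- Elements of `B` are integral over `k[ḡ]`. -/
theorem ni22_B_int (hgk : ka46_g (IsLocalRing.ResidueField A) g ∈
      modularFunctionFieldFullC (IsLocalRing.ResidueField A) N)
    (b : ↥(modularFunctionFieldFullC (IsLocalRing.ResidueField A) N)) (hb : b ∈ ni22_B A N g) :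
    IsIntegral (Algebra.adjoin (IsLocalRing.ResidueField A)
      {cm80_xk N g (IsLocalRing.ResidueField A) hgk}) b := by
  obtain ⟨y, -, hyint, hyb⟩ := hb
  rw [cm80_xk, cm80_isIntegral_iff _ g hgk b, ← hyb]
  exact ni22_intA_res A g y hyint

end RedRing

/-! ### The norm step and the descent -/

section Main

variable (A : ValuationSubring Qb) {N N' : ℕ} [NeZero N] [NeZero N'] (g : LaurentSeries ℤ)

/-- The norm of the reduction of an `A[g]`-integral function of level `N'` lies in `B`. -/
theorem ni22_hnorm (hN : (N : IsLocalRing.ResidueField A) ≠ 0)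
    (hN' : (N' : IsLocalRing.ResidueField A) ≠ 0) (h : N ∣ N')
    (hgF : ka46_g Qb g ∈ modularFunctionFieldBar N)
    (Y : LaurentSeries A) (hYF : coeffMap A.subtype Y ∈ modularFunctionFieldBar N')
    (hYint : (ka46_ev (RingHom.id A) g).IsIntegralElem Y)
    (z' : ↥(modularFunctionFieldFullC (IsLocalRing.ResidueField A) N'))
    (hz' : coeffMap (IsLocalRing.residue A) Y =
      (z' : LaurentSeries (IsLocalRing.ResidueField A))) :
    letI := ni22_algebra (full_degeneracyC_le (IsLocalRing.ResidueField A) h)
    Algebra.norm ↥(modularFunctionFieldFullC (IsLocalRing.ResidueField A) N) z' ∈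
      ni22_B A N g := by
  letI := ni22_algebra (ni22_bar_le h)
  letI := ni22_algebra (full_degeneracyC_le (IsLocalRing.ResidueField A) h)
  let f' : ↥(ga41_V N' A hN') :=
    ⟨⟨coeffMap A.subtype Y, hYF⟩, ga41_mem_O_of_integral Y rfl⟩
  have hred' : ga41_redV N' A hN' f' = z' := by
    apply Subtype.ext
    rw [ga41_redV_coe, ga41_redHom_integral _ Y rfl, hz']
  obtain ⟨n, hn1, hn2⟩ := ni22_norm_red A hN hN' h f'
  rw [hred'] at hn2
  -- integrality of the norm over `A[g]`
  let φ : Polynomial A →+* ↥(modularFunctionFieldBar N) :=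
    (ka46_ev A.subtype g).codRestrict (modularFunctionFieldBar N)
      (ni22_ev_mem g A.subtype _ hgF)
  letI : Algebra (Polynomial A) ↥(modularFunctionFieldBar N) := φ.toAlgebra
  letI : Algebra (Polynomial A) ↥(modularFunctionFieldBar N') :=
    ((algebraMap ↥(modularFunctionFieldBar N) ↥(modularFunctionFieldBar N')).comp φ).toAlgebra
  haveI : IsScalarTower (Polynomial A) ↥(modularFunctionFieldBar N)
      ↥(modularFunctionFieldBar N') := IsScalarTower.of_algebraMap_eq (fun _ => rfl)
  have hval' : ((modularFunctionFieldBar N').val : ↥(modularFunctionFieldBar N') →+*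
      LaurentSeries Qb).comp
        ((algebraMap ↥(modularFunctionFieldBar N) ↥(modularFunctionFieldBar N')).comp φ) =
      ka46_ev A.subtype g := RingHom.ext fun _ => rfl
  have hval : ((modularFunctionFieldBar N).val : ↥(modularFunctionFieldBar N) →+*
      LaurentSeries Qb).comp φ = ka46_ev A.subtype g := RingHom.ext fun _ => rfl
  have hf'int : IsIntegral (Polynomial A) (f' : ↥(modularFunctionFieldBar N')) := by
    show ((algebraMap ↥(modularFunctionFieldBar N) ↥(modularFunctionFieldBar N')).comp
      φ).IsIntegralElem _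
    refine (RingHom.IsIntegralElem.map_iff (g := ((modularFunctionFieldBar N').val :
      ↥(modularFunctionFieldBar N') →+* LaurentSeries Qb)) Subtype.val_injective).mp ?_
    rw [hval']
    exact (ni22_intA_iff A g Y).mpr hYint
  have hnint : IsIntegral (Polynomial A)
      (Algebra.norm ↥(modularFunctionFieldBar N) (f' : ↥(modularFunctionFieldBar N'))) :=
    Algebra.isIntegral_norm ↥(modularFunctionFieldBar N) hf'int
  rw [← hn1] at hnint
  have hnint' : (ka46_ev A.subtype g).IsIntegralElem
      (((n : ↥(modularFunctionFieldBar N)) : LaurentSeries Qb)) := by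
    rw [← hval]
    exact (RingHom.IsIntegralElem.map_iff (g := ((modularFunctionFieldBar N).val :
      ↥(modularFunctionFieldBar N) →+* LaurentSeries Qb)) Subtype.val_injective).mpr hnint
  obtain ⟨yn, hyn⟩ := qx46_integral_expansion_A A N g _
    (by rw [← ga41_bar_eq]; exact (n : ↥(modularFunctionFieldBar N)).2) hnint'
  refine ⟨yn, ?_, ?_, ?_⟩
  · rw [hyn]
    exact (n : ↥(modularFunctionFieldBar N)).2
  · refine (ni22_intA_iff A g yn).mp ?_
    rw [hyn]
    exact hnint'
  · rw [← hn2, ga41_redV_coe]
    exact (ga41_redHom_integral (⟨(n : ↥(modularFunctionFieldBar N)), n.2⟩ : ga41_O N A) yn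
      hyn.symm).symm

/-- **Level descent of chart normality, modulo the generic norm descent.**  `hdesc` is the
statement of the generic norm-descent theorem for `F_k(N) ⊆ F_k(N')` and the coordinate `ḡ`. -/
theorem ni22_normalAt_of_descent (hN' : (N' : IsLocalRing.ResidueField A) ≠ 0) (h : N ∣ N')
    (hgF : ka46_g Qb g ∈ modularFunctionFieldBar N)
    (hgk : ka46_g (IsLocalRing.ResidueField A) g ∈
      modularFunctionFieldFullC (IsLocalRing.ResidueField A) N)
    (htr : Transcendental (IsLocalRing.ResidueField A) (ka46_g (IsLocalRing.ResidueField A) g))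
    (hdesc : letI := ni22_algebra (full_degeneracyC_le (IsLocalRing.ResidueField A) h)
      ∀ B : Subring ↥(modularFunctionFieldFullC (IsLocalRing.ResidueField A) N),
        (∀ c : IsLocalRing.ResidueField A, algebraMap (IsLocalRing.ResidueField A)
          ↥(modularFunctionFieldFullC (IsLocalRing.ResidueField A) N) c ∈ B) →
        cm80_xk N g (IsLocalRing.ResidueField A) hgk ∈ B →
        (∀ b ∈ B, IsIntegral (Algebra.adjoin (IsLocalRing.ResidueField A)
          {cm80_xk N g (IsLocalRing.ResidueField A) hgk}) b) →
        (∀ y : ↥(modularFunctionFieldFullC (IsLocalRing.ResidueField A) N'),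
          IsIntegral (Algebra.adjoin (IsLocalRing.ResidueField A)
            {algebraMap ↥(modularFunctionFieldFullC (IsLocalRing.ResidueField A) N)
              ↥(modularFunctionFieldFullC (IsLocalRing.ResidueField A) N')
              (cm80_xk N g (IsLocalRing.ResidueField A) hgk)}) y →
          Algebra.norm ↥(modularFunctionFieldFullC (IsLocalRing.ResidueField A) N) y ∈ B) →
        ∀ z : ↥(modularFunctionFieldFullC (IsLocalRing.ResidueField A) N),
          IsIntegral (Algebra.adjoin (IsLocalRing.ResidueField A)
            {cm80_xk N g (IsLocalRing.ResidueField A) hgk}) z → z ∈ B)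
    (H : ka46_NormalAt A.subtype (IsLocalRing.residue A) N' g) :
    ka46_NormalAt A.subtype (IsLocalRing.residue A) N g := by
  letI := ni22_algebra (full_degeneracyC_le (IsLocalRing.ResidueField A) h)
  have hN : (N : IsLocalRing.ResidueField A) ≠ 0 := ni22_natCast_ne_zero _ h hN'
  have hgk' : ka46_g (IsLocalRing.ResidueField A) g ∈
      modularFunctionFieldFullC (IsLocalRing.ResidueField A) N' :=
    full_degeneracyC_le (IsLocalRing.ResidueField A) h hgk
  have hmain := hdesc (ni22_B A N g) (ni22_B_const A N g) (ni22_B_coord A N g hgF hgk)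
    (ni22_B_int A N g hgk) ?_
  · intro z hz hzint
    obtain ⟨y, hyF, hyint, hyz⟩ := hmain ⟨z, hz⟩
      ((cm80_isIntegral_iff _ g hgk ⟨z, hz⟩).mpr hzint)
    refine ⟨coeffMap A.subtype y, 1, y, ?_, (ni22_intA_iff A g y).mpr hyint, ?_, ?_, ?_⟩
    · rw [← ga41_bar_eq]
      exact hyF
    · rw [Polynomial.map_one]
      exact one_ne_zero
    · rw [map_one, one_mul]
    · rw [Polynomial.map_one, map_one, one_mul]
      exact hyz
  · intro y' hy'
    have hx' : algebraMap ↥(modularFunctionFieldFullC (IsLocalRing.ResidueField A) N)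
        ↥(modularFunctionFieldFullC (IsLocalRing.ResidueField A) N')
        (cm80_xk N g (IsLocalRing.ResidueField A) hgk) =
        cm80_xk N' g (IsLocalRing.ResidueField A) hgk' := rfl
    rw [hx', cm80_xk, cm80_isIntegral_iff _ g hgk' y'] at hy'
    obtain ⟨Y, hYF, hYint, hYz⟩ := qx46_lift_of_normalAt A.subtype Subtype.val_injective
      (IsLocalRing.residue A) N' g
      (fun x hx hint => qx46_integral_expansion_A A N' g x hx hint)
      (cm80_ev_ne_zero g htr) H y' y'.2 hy'
    exact ni22_hnorm A g hN hN' h hgF Y (by rw [ga41_bar_eq]; exact hYF)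
      ((ni22_intA_iff A g Y).mp hYint) y' hYz

end Main

end Fermat.Agent.S37
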