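import Fermat.Agent.S37.AtkinLehner97
import Fermat.Agent.S18.NormDescent
import Fermat.Agent.S28.Defs
import Fermat.Agent.Lib.Gamma0Cosets

/-!
# S37 (helper97): the norm along the Hecke correspondence and Kronecker's congruence

For a prime `ℓ ∤ N`, `F_N = modularFunctionFieldBar N`, `α, β : F_N → F_{Nℓ}` the two degeneracy
maps (`heckeAlphaBar`, `heckeBetaBar`), and the norm `Nm` of `F_{Nℓ}` over `α(F_N)`:

* `kn97_norm`: `Nm(β f)(q^ℓ) = f(q^{ℓ²}) · ∏_{b < ℓ} f(ζ^b q)` in `ℚ̄((q))`.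

The `ℓ + 1` embeddings of `F_{Nℓ}` over `F_N` into `ℚ̄((q))` (restricting to `β` on `F_N`) are
`x ↦ x(q^ℓ)` and `x ↦ (w x)(ζ^b q)`, `w` the Atkin-Lehner involution (`al97_exists`).
-/

set_option autoImplicit false

open ModularCurve AlgebraicCurve IntermediateField
open Fermat.Agent.S24 Fermat.Agent.S28 Fermat.Agent.S18

namespace Fermat.Agent.S37

/-! ### Norm as the product over a full set of embeddings -/

/-- If `σ i : E → Ω` (`i ∈ I`) are pairwise distinct ring embeddings of a finite separable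
extension `E / K`, all restricting to the same `ι : K → Ω`, and `#I = [E : K]`, then
`ι (Nm x) = ∏ i, σ i x`. -/
theorem kn97_norm_eq_prod {K E Ω : Type*} [Field K] [Field E] [Field Ω] [Algebra K E]
    [FiniteDimensional K E] [Algebra.IsSeparable K E] (ι : K →+* Ω) {I : Type*} [Fintype I]
    (σ : I → (E →+* Ω)) (hσ : ∀ i, (σ i).comp (algebraMap K E) = ι)
    (hinj : Function.Injective σ) (hn : Module.finrank K E = Fintype.card I) (x : E) :
    ι (Algebra.norm K x) = ∏ i, σ i x := by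
  classical
  letI : Algebra K (AlgebraicClosure Ω) := ((algebraMap Ω (AlgebraicClosure Ω)).comp ι).toAlgebra
  let τ : I → (E →ₐ[K] AlgebraicClosure Ω) := fun i =>
    { toRingHom := (algebraMap Ω (AlgebraicClosure Ω)).comp (σ i)
      commutes' := fun k => by
        show algebraMap Ω (AlgebraicClosure Ω) (σ i (algebraMap K E k)) =
          algebraMap Ω (AlgebraicClosure Ω) (ι k)
        rw [← hσ i]
        rfl }
  have hτinj : Function.Injective τ := by
    intro i j hij
    apply hinj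
    ext y
    have h1 := congrArg (fun f : E →ₐ[K] AlgebraicClosure Ω => f y) hij
    exact (algebraMap Ω (AlgebraicClosure Ω)).injective h1
  have hcard : Fintype.card (E →ₐ[K] AlgebraicClosure Ω) = Fintype.card I := by
    rw [AlgHom.card, hn]
  have hbij : Function.Bijective τ :=
    (Fintype.bijective_iff_injective_and_card τ).mpr ⟨hτinj, hcard.symm⟩
  have h := Algebra.norm_eq_prod_embeddings K (AlgebraicClosure Ω) x
  apply (algebraMap Ω (AlgebraicClosure Ω)).injective
  rw [map_prod]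
  calc algebraMap Ω (AlgebraicClosure Ω) (ι (Algebra.norm K x))
      = algebraMap K (AlgebraicClosure Ω) (Algebra.norm K x) := rfl
    _ = ∏ σ' : E →ₐ[K] AlgebraicClosure Ω, σ' x := h
    _ = ∏ i, τ i x := (Fintype.prod_bijective τ hbij _ _ (fun i => rfl)).symm
    _ = ∏ i, algebraMap Ω (AlgebraicClosure Ω) (σ i x) := rfl

/-! ### The degree of `F_{Nℓ}` over `α(F_N)` -/

theorem kn97_psi (N ℓ : ℕ) [NeZero N] (hℓ : ℓ.Prime) (hN : ¬ ℓ ∣ N) :
    dedekindPsi (N * ℓ) / dedekindPsi N = ℓ + 1 := by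
  have hcop : Nat.Coprime N ℓ := ((Nat.Prime.coprime_iff_not_dvd hℓ).mpr hN).symm
  have h1 : dedekindPsi ℓ = ℓ + 1 := by
    have h := Fermat.Agent.Lib.G0C.dedekindPsi_prime_pow hℓ (e := 1) Nat.one_pos
    simpa using h
  rw [Fermat.Agent.Lib.G0C.dedekindPsi_mul hcop, h1, Nat.mul_div_cancel_left _ (nd38_psi_pos N)]

theorem kn97_finrank (N ℓ : ℕ) [NeZero N] [NeZero ℓ] (hℓ : ℓ.Prime) (hN : ¬ ℓ ∣ N) :
    letI := algebraAlong (heckeAlphaBar Kbar N ℓ)
    Module.finrank ↥(modularFunctionFieldBar N) ↥(modularFunctionFieldBar (N * ℓ)) = ℓ + 1 := by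
  letI := algebraAlong (heckeAlphaBar Kbar N ℓ)
  have hle : modularFunctionFieldBar N ≤ modularFunctionFieldBar (N * ℓ) :=
    nd38_bar_le (dvd_mul_right N ℓ)
  have h1 : (modularFunctionFieldBar N).relfinrank (modularFunctionFieldBar (N * ℓ)) = ℓ + 1 := by
    rw [nd38_relfinrank_eq (dvd_mul_right N ℓ), kn97_psi N ℓ hℓ hN]
  rw [IntermediateField.relfinrank_eq_finrank_of_le hle] at h1
  rw [← h1]
  let e : ↥(modularFunctionFieldBar (N * ℓ)) ≃ₗ[↥(modularFunctionFieldBar N)]
      ↥(IntermediateField.extendScalars hle) :=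
    { toFun := fun x => ⟨x.1, x.2⟩
      invFun := fun x => ⟨x.1, x.2⟩
      map_add' := fun _ _ => rfl
      map_smul' := fun _ _ => rfl
      left_inv := fun _ => rfl
      right_inv := fun _ => rfl }
  exact e.finrank_eq

/-! ### The `ℓ + 1` embeddings and the norm -/

theorem kn97_JJ_one_coeff : (JJ 1).coeff (-1) = 1 := by
  rw [asmAb_JJ_one, coeffEmb_coeff, coeff_jq_neg_one, map_one]

/-- **The norm along `α` as a product of `q`-expansions** (general element, for an Atkin-Lehner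
endomorphism `w`): `Nm(h)(q^ℓ) = h(q^ℓ) · ∏_{b<ℓ} (w h)(ζ^b q)`. -/
theorem kn97_norm_gen (N ℓ : ℕ) [NeZero N] [NeZero ℓ] (hℓ : ℓ.Prime) (hN : ¬ ℓ ∣ N)
    (ζ : Kbarˣ) (hζ : IsPrimitiveRoot ζ ℓ)
    (w : ↥(modularFunctionFieldBar (N * ℓ)) →ₐ[Kbar] ↥(modularFunctionFieldBar (N * ℓ)))
    (hwα : w.comp (heckeAlphaBar Kbar N ℓ) = heckeBetaBar Kbar N ℓ)
    (hwJ : ∀ x : ↥(modularFunctionFieldBar (N * ℓ)), (x : LaurentSeries Kbar) = JJ ℓ →
      ((w x : ↥(modularFunctionFieldBar (N * ℓ))) : LaurentSeries Kbar) = JJ 1)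
    (h : ↥(modularFunctionFieldBar (N * ℓ))) :
    letI := algebraAlong (heckeAlphaBar Kbar N ℓ)
    qExpand Kbar ℓ ((Algebra.norm ↥(modularFunctionFieldBar N) h :
        ↥(modularFunctionFieldBar N)) : LaurentSeries Kbar) =
      qExpand Kbar ℓ (h : LaurentSeries Kbar) *
        ∏ b : Fin ℓ, twist (ζ ^ (b : ℕ))
          ((w h : ↥(modularFunctionFieldBar (N * ℓ))) : LaurentSeries Kbar) := by
  letI := algebraAlong (heckeAlphaBar Kbar N ℓ)
  have hfr := kn97_finrank N ℓ hℓ hN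
  haveI : FiniteDimensional ↥(modularFunctionFieldBar N) ↥(modularFunctionFieldBar (N * ℓ)) :=
    Module.finite_of_finrank_pos (by rw [hfr]; omega)
  haveI : CharZero ↥(modularFunctionFieldBar N) :=
    charZero_of_injective_algebraMap (algebraMap Kbar ↥(modularFunctionFieldBar N)).injective
  haveI : Algebra.IsSeparable ↥(modularFunctionFieldBar N) ↥(modularFunctionFieldBar (N * ℓ)) :=
    Algebra.IsAlgebraic.isSeparable_of_perfectField
  let val : ↥(modularFunctionFieldBar (N * ℓ)) →+* LaurentSeries Kbar :=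
    (modularFunctionFieldBar (N * ℓ)).val.toRingHom
  let ι : ↥(modularFunctionFieldBar N) →+* LaurentSeries Kbar :=
    (qExpand Kbar ℓ).comp (modularFunctionFieldBar N).val.toRingHom
  let σ : Option (Fin ℓ) → (↥(modularFunctionFieldBar (N * ℓ)) →+* LaurentSeries Kbar) := fun i =>
    match i with
    | none => (qExpand Kbar ℓ).comp val
    | some b => (twist (ζ ^ (b : ℕ))).comp (val.comp w.toRingHom)
  have hσ : ∀ i, (σ i).comp (algebraMap ↥(modularFunctionFieldBar N)
      ↥(modularFunctionFieldBar (N * ℓ))) = ι := by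
    intro i
    ext1 x
    have hx : algebraMap ↥(modularFunctionFieldBar N) ↥(modularFunctionFieldBar (N * ℓ)) x =
        heckeAlphaBar Kbar N ℓ x := rfl
    rw [RingHom.comp_apply, hx]
    cases i with
    | none =>
      show qExpand Kbar ℓ ((heckeAlphaBar Kbar N ℓ x : ↥(modularFunctionFieldBar (N * ℓ))) :
        LaurentSeries Kbar) = qExpand Kbar ℓ (x : LaurentSeries Kbar)
      rw [coe_heckeAlphaBar]
    | some b =>
      show twist (ζ ^ (b : ℕ)) ((w (heckeAlphaBar Kbar N ℓ x) :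
        ↥(modularFunctionFieldBar (N * ℓ))) : LaurentSeries Kbar) =
          qExpand Kbar ℓ (x : LaurentSeries Kbar)
      have h1 : w (heckeAlphaBar Kbar N ℓ x) = heckeBetaBar Kbar N ℓ x := AlgHom.congr_fun hwα x
      rw [h1, coe_heckeBetaBar]
      exact twist_qExpand_of_pow_eq_one _ ℓ
        (by rw [← pow_mul, mul_comm, pow_mul, hζ.pow_eq_one, one_pow]) _
  have hinj : Function.Injective σ := by
    have hℓ2 : ¬ ((ℓ : ℤ) ∣ (-1 : ℤ)) := by
      intro hd
      have h1 : (ℓ : ℤ) ∣ 1 := (dvd_neg).mp hd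
      have h2 : ℓ ∣ 1 := by exact_mod_cast h1
      exact hℓ.one_lt.ne' (Nat.dvd_one.mp h2)
    let x0 : ↥(modularFunctionFieldBar (N * ℓ)) :=
      ⟨JJ ℓ, asmAb_JJ_mem (N * ℓ) ℓ (dvd_mul_left ℓ N)⟩
    have hnone : (σ none x0).coeff (-1) = 0 := by
      show (qExpand Kbar ℓ (JJ ℓ)).coeff (-1) = 0
      exact qExpand_coeff_of_not_dvd ℓ _ hℓ2
    have hsome : ∀ b : Fin ℓ, (σ (some b) x0).coeff (-1) =
        (((ζ ^ (b : ℕ)) ^ (-1 : ℤ) : Kbarˣ) : Kbar) := by
      intro b
      show (twist (ζ ^ (b : ℕ)) ((w x0 : ↥(modularFunctionFieldBar (N * ℓ))) :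
        LaurentSeries Kbar)).coeff (-1) = _
      rw [hwJ x0 rfl, twist_coeff, kn97_JJ_one_coeff, mul_one]
    intro i j hij
    have hc : (σ i x0).coeff (-1) = (σ j x0).coeff (-1) := by rw [hij]
    cases i with
    | none =>
      cases j with
      | none => rfl
      | some b =>
        rw [hnone, hsome] at hc
        exact absurd hc.symm (Units.ne_zero _)
    | some a =>
      cases j with
      | none =>
        rw [hnone, hsome] at hc
        exact absurd hc (Units.ne_zero _)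
      | some b =>
        rw [hsome, hsome] at hc
        have h1 : (ζ ^ (a : ℕ)) ^ (-1 : ℤ) = (ζ ^ (b : ℕ)) ^ (-1 : ℤ) := Units.ext hc
        have h2 : ζ ^ (a : ℕ) = ζ ^ (b : ℕ) := by
          simpa using h1
        have h3 : (a : ℕ) = (b : ℕ) := hζ.pow_inj a.2 b.2 h2
        exact congrArg some (Fin.ext h3)
  have hn : Module.finrank ↥(modularFunctionFieldBar N) ↥(modularFunctionFieldBar (N * ℓ)) =
      Fintype.card (Option (Fin ℓ)) := by
    rw [hfr, Fintype.card_option, Fintype.card_fin]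
  have hmain := kn97_norm_eq_prod ι σ hσ hinj hn h
  rw [Fintype.prod_option] at hmain
  exact hmain

/-- **The norm of `β f` along `α`**: `Nm(β f)(q^ℓ) = f(q^{ℓ²}) · ∏_{b<ℓ} f(ζ^b q)` for
`f ∈ F_N`, `ℓ` prime, `ℓ ∤ N`, `ζ` a primitive `ℓ`-th root of unity. -/
theorem kn97_norm (N ℓ : ℕ) [NeZero N] [NeZero ℓ] (hℓ : ℓ.Prime) (hN : ¬ ℓ ∣ N)
    (ζ : Kbarˣ) (hζ : IsPrimitiveRoot ζ ℓ) (f : ↥(modularFunctionFieldBar N)) :
    letI := algebraAlong (heckeAlphaBar Kbar N ℓ)
    qExpand Kbar ℓ ((Algebra.norm ↥(modularFunctionFieldBar N) (heckeBetaBar Kbar N ℓ f) :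
        ↥(modularFunctionFieldBar N)) : LaurentSeries Kbar) =
      qExpand Kbar ℓ (qExpand Kbar ℓ (f : LaurentSeries Kbar)) *
        ∏ b ∈ Finset.range ℓ, twist (ζ ^ b) (f : LaurentSeries Kbar) := by
  obtain ⟨w, hwα, hwβ, hwJ⟩ := al97_exists N ℓ hℓ hN
  have hJ : ∀ x : ↥(modularFunctionFieldBar (N * ℓ)), (x : LaurentSeries Kbar) = JJ ℓ →
      ((w x : ↥(modularFunctionFieldBar (N * ℓ))) : LaurentSeries Kbar) = JJ 1 := by
    intro x hx
    have h1 := hwJ ℓ (dvd_mul_left ℓ N) x hx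
    rwa [al97_swap_of_dvd dvd_rfl, Nat.div_self hℓ.pos] at h1
  have h := kn97_norm_gen N ℓ hℓ hN ζ hζ w hwα hJ (heckeBetaBar Kbar N ℓ f)
  have h2 : w (heckeBetaBar Kbar N ℓ f) = heckeAlphaBar Kbar N ℓ f := AlgHom.congr_fun hwβ f
  rw [h2, coe_heckeBetaBar, coe_heckeAlphaBar] at h
  rw [h, Fin.prod_univ_eq_prod_range (fun b => twist (ζ ^ b) (f : LaurentSeries Kbar)) ℓ]

/-! ### Frobenius on Laurent series -/

theorem kn97_ofPowerSeries_coeff {R : Type*} [CommRing R] (P : PowerSeries R) (k : ℤ) :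
    (HahnSeries.ofPowerSeries ℤ R P).coeff k = if 0 ≤ k then PowerSeries.coeff k.toNat P else 0 := by
  split_ifs with hk
  · obtain ⟨n, rfl⟩ := Int.eq_ofNat_of_zero_le hk
    rw [Int.toNat_natCast]
    exact HahnSeries.ofPowerSeries_apply_coeff P n
  · rw [HahnSeries.ofPowerSeries_apply]
    apply HahnSeries.embDomain_of_notMem_range
    rintro ⟨n, hn⟩
    apply hk
    rw [← hn]
    exact Int.natCast_nonneg n

theorem kn97_qExpand_ofPowerSeries {R : Type*} [CommRing R] (p : ℕ) [NeZero p]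
    (P : PowerSeries R) :
    qExpand R p (HahnSeries.ofPowerSeries ℤ R P) =
      HahnSeries.ofPowerSeries ℤ R (PowerSeries.expand p (NeZero.ne p) P) := by
  have hp0 : (0 : ℤ) < (p : ℤ) := by exact_mod_cast Nat.pos_of_ne_zero (NeZero.ne p)
  ext k
  by_cases hk : (p : ℤ) ∣ k
  · obtain ⟨m, rfl⟩ := hk
    rw [qExpand_coeff_mul, kn97_ofPowerSeries_coeff, kn97_ofPowerSeries_coeff]
    by_cases hm : 0 ≤ m
    · obtain ⟨n, rfl⟩ := Int.eq_ofNat_of_zero_le hm
      rw [if_pos hm, if_pos (mul_nonneg hp0.le hm), Int.toNat_natCast]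
      have h1 : ((p : ℤ) * (n : ℤ)).toNat = p * n := by
        rw [← Nat.cast_mul, Int.toNat_natCast]
      rw [h1, PowerSeries.coeff_expand_mul]
    · rw [if_neg hm, if_neg]
      intro h
      exact hm (nonneg_of_mul_nonneg_right h hp0)
  · rw [qExpand_coeff_of_not_dvd p _ hk, kn97_ofPowerSeries_coeff]
    split_ifs with h0
    · obtain ⟨n, rfl⟩ := Int.eq_ofNat_of_zero_le h0
      rw [Int.toNat_natCast, PowerSeries.coeff_expand_of_not_dvd]
      intro hd
      exact hk (Int.natCast_dvd_natCast.mpr hd)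
    · rfl

/-- Frobenius on Laurent series in characteristic `p`: `x^p = x^φ(q^p)`. -/
theorem kn97_frobenius {R : Type*} [CommRing R] (p : ℕ) [NeZero p] [ExpChar R p]
    (x : LaurentSeries R) : x ^ p = qExpand R p (coeffMap (frobenius R p) x) := by
  conv_lhs => rw [← LaurentSeries.single_order_mul_powerSeriesPart x]
  conv_rhs => rw [← LaurentSeries.single_order_mul_powerSeriesPart x]
  rw [mul_pow, map_mul, map_mul, coeffMap_single, qExpand_single, coeffMap_ofPowerSeries,
    kn97_qExpand_ofPowerSeries, HahnSeries.single_pow, ← map_pow, map_one, one_pow,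
    ← PowerSeries.map_expand]
  congr 2
  exact (MvPowerSeries.map_frobenius_expand p (NeZero.ne p)).symm

/-! ### Kronecker's congruence for the norm -/

theorem kn97_coeffMap_injective {R S : Type*} [CommRing R] [CommRing S] (φ : R →+* S)
    (hφ : Function.Injective φ) : Function.Injective (coeffMap φ) := fun f g h => by
  ext n
  have h1 := congrArg (fun x : LaurentSeries S => x.coeff n) h
  simp only [coeffMap_coeff] at h1
  exact hφ h1

/-- A Laurent series whose coefficients lie in the image of an injective `φ` is a `coeffMap φ`. -/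
theorem kn97_exists_lift {R S : Type*} [CommRing R] [CommRing S] (φ : R →+* S)
    (hφ : Function.Injective φ) (f : LaurentSeries S) (h : ∀ n, ∃ r : R, φ r = f.coeff n) :
    ∃ M : LaurentSeries R, coeffMap φ M = f := by
  choose z hz using h
  refine ⟨⟨z, f.isPWO_support.mono fun n hn => ?_⟩, ?_⟩
  · simp only [Function.mem_support, ne_eq] at hn
    rw [HahnSeries.mem_support]
    intro h0
    apply hn
    apply hφ
    rw [hz n, h0, map_zero]
  · ext n
    rw [coeffMap_coeff]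
    exact hz n

theorem kn97_mem_of_pow_eq_one (A : ValuationSubring Kbar) {ℓ : ℕ} (hℓ : ℓ ≠ 0) {x : Kbar}
    (hx : x ^ ℓ = 1) : x ∈ A := by
  rcases A.mem_or_inv_mem x with h | h
  · exact h
  · obtain ⟨m, rfl⟩ : ∃ m, ℓ = m + 1 := ⟨ℓ - 1, by omega⟩
    have hx0 : x ≠ 0 := fun h0 => by simp [h0] at hx
    have h1 : x = (x⁻¹) ^ m := by
      rw [pow_succ] at hx
      rw [inv_pow]
      field_simp
      rw [mul_comm]
      exact hx
    rw [h1]
    exact pow_mem h m

/-- **Kronecker's congruence for the norm along the Hecke correspondence.**  If `f ∈ F_N` has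
`A`-integral `q`-expansion `y` (`A` a valuation subring of `ℚ̄`), then so has
`g = Nm_α(β f)`, and for every ring homomorphism `π : A → k` to a field of characteristic `ℓ`
the reduction of `g` is `ȳ(q^ℓ) · ȳ^φ`, `φ` the coefficientwise Frobenius (`ExpChar k ℓ` is
`CharP k ℓ` here, as `ℓ` is prime: `ExpChar.prime`). -/
theorem kn97_cong (N ℓ : ℕ) [NeZero N] [NeZero ℓ] (hℓ : ℓ.Prime) (hN : ¬ ℓ ∣ N)
    (A : ValuationSubring Kbar) {k : Type*} [Field k] [ExpChar k ℓ] (π : A →+* k)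
    (y : LaurentSeries A) (hy : coeffMap A.subtype y ∈ modularFunctionFieldBar N) :
    letI := algebraAlong (heckeAlphaBar Kbar N ℓ)
    ∃ y' : LaurentSeries A,
      coeffMap A.subtype y' = ((Algebra.norm ↥(modularFunctionFieldBar N)
        (heckeBetaBar Kbar N ℓ ⟨coeffMap A.subtype y, hy⟩) : ↥(modularFunctionFieldBar N)) :
          LaurentSeries Kbar) ∧
      coeffMap π y' = qExpand k ℓ (coeffMap π y) * coeffMap (frobenius k ℓ) (coeffMap π y) := by
  letI := algebraAlong (heckeAlphaBar Kbar N ℓ)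
  -- a primitive `ℓ`-th root of unity, which is a unit of `A`
  haveI : NeZero ((ℓ : ℕ) : Kbar) := ⟨by exact_mod_cast NeZero.ne ℓ⟩
  obtain ⟨μ, hμ⟩ := IsAlgClosed.exists_root (Polynomial.cyclotomic ℓ Kbar)
    (Polynomial.degree_cyclotomic_pos ℓ Kbar hℓ.pos).ne'
  have hprim : IsPrimitiveRoot μ ℓ := Polynomial.isRoot_cyclotomic_iff.mp hμ
  have hμ0 : μ ≠ 0 := hprim.ne_zero (NeZero.ne ℓ)
  have hμA : μ ∈ A := kn97_mem_of_pow_eq_one A (NeZero.ne ℓ) hprim.pow_eq_one
  have hμA' : μ⁻¹ ∈ A :=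
    kn97_mem_of_pow_eq_one A (NeZero.ne ℓ) (by rw [inv_pow, hprim.pow_eq_one, inv_one])
  let ζA : Aˣ := ⟨⟨μ, hμA⟩, ⟨μ⁻¹, hμA'⟩, Subtype.ext (mul_inv_cancel₀ hμ0),
    Subtype.ext (inv_mul_cancel₀ hμ0)⟩
  let ζ : Kbarˣ := Units.map (A.subtype : A →* Kbar) ζA
  have hζ : IsPrimitiveRoot ζ ℓ := by
    rw [← IsPrimitiveRoot.coe_units_iff]
    exact hprim
  have hζA : ζA ^ ℓ = 1 := by
    apply Units.ext
    apply Subtype.ext
    show μ ^ ℓ = 1
    exact hprim.pow_eq_one
  set f : ↥(modularFunctionFieldBar N) := ⟨coeffMap A.subtype y, hy⟩ with hf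
  set g : ↥(modularFunctionFieldBar N) :=
    Algebra.norm ↥(modularFunctionFieldBar N) (heckeBetaBar Kbar N ℓ f) with hg
  -- the product of the conjugates, over `A`
  let Y : LaurentSeries A := qExpand A ℓ (qExpand A ℓ y) *
    ∏ b ∈ Finset.range ℓ, twist (ζA ^ b) y
  have hY : coeffMap A.subtype Y = qExpand Kbar ℓ (g : LaurentSeries Kbar) := by
    rw [hg, kn97_norm N ℓ hℓ hN ζ hζ f]
    show coeffMap A.subtype (qExpand A ℓ (qExpand A ℓ y) *
      ∏ b ∈ Finset.range ℓ, twist (ζA ^ b) y) = _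
    rw [map_mul, coeffMap_qExpand, coeffMap_qExpand, map_prod]
    congr 1
    refine Finset.prod_congr rfl fun b _ => ?_
    rw [coeffMap_twist, map_pow]
  -- the coefficients of `g` lie in `A`
  have hcoef : ∀ n, ∃ r : A, A.subtype r = (g : LaurentSeries Kbar).coeff n := by
    intro n
    refine ⟨Y.coeff ((ℓ : ℤ) * n), ?_⟩
    rw [← qExpand_coeff_mul ℓ (g : LaurentSeries Kbar) n, ← hY, coeffMap_coeff]
  obtain ⟨y', hy'⟩ := kn97_exists_lift A.subtype Subtype.val_injective _ hcoef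
  refine ⟨y', hy', ?_⟩
  have hYq : qExpand A ℓ y' = Y := by
    apply kn97_coeffMap_injective A.subtype Subtype.val_injective
    rw [coeffMap_qExpand, hy', hY]
  -- reduce
  have hζbar : Units.map (π : A →* k) ζA = 1 := by
    have h1 : (Units.map (π : A →* k) ζA) ^ ℓ = 1 := by rw [← map_pow, hζA, map_one]
    apply Units.ext
    have h2 : (((Units.map (π : A →* k) ζA : kˣ) : k) - 1) ^ ℓ = 0 := by
      rw [sub_pow_expChar, one_pow, ← Units.val_pow_eq_pow_val, h1, Units.val_one, sub_self]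
    have h3 := pow_eq_zero_iff (NeZero.ne ℓ) |>.mp h2
    rw [Units.val_one]
    exact sub_eq_zero.mp h3
  have hred : qExpand k ℓ (coeffMap π y') =
      qExpand k ℓ (qExpand k ℓ (coeffMap π y) * coeffMap (frobenius k ℓ) (coeffMap π y)) := by
    rw [← coeffMap_qExpand, hYq]
    show coeffMap π (qExpand A ℓ (qExpand A ℓ y) * ∏ b ∈ Finset.range ℓ, twist (ζA ^ b) y) = _
    rw [map_mul, coeffMap_qExpand, coeffMap_qExpand, map_prod, map_mul, ← kn97_frobenius]
    congr 1
    have h4 : ∀ b ∈ Finset.range ℓ, coeffMap π (twist (ζA ^ b) y) = coeffMap π y := by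
      intro b _
      rw [coeffMap_twist, map_pow, hζbar, one_pow, twist_one]
    rw [Finset.prod_congr rfl h4, Finset.prod_const, Finset.card_range]
  exact qExpand_injective ℓ hred

end Fermat.Agent.S37
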