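import Fermat.Agent.S37.FunFieldRel63
import Fermat.Agent.S24.AsmBridgeB
import Fermat.Agent.S24.AsmDegree
import Fermat.Agent.S24.ModData
import Fermat.Prelude.Def_ModularCurve_HeckeOperatorTotal

/-!
# S37, row H-HeckeInputs (owner: helper63): the Hecke inputs hold

`ModularCurve.HeckeInputsAlong (AlgebraicClosure ℚ) N ℓ` for all `N`, `ℓ`: both degeneracy maps
`α, β : ℚ̄ · F_N → ℚ̄ · F_{Nℓ}` are finite, the function field upstairs has principal divisors,
`β` satisfies the fundamental identity and `α` the norm formula.  Hence the Prelude operator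
`heckeOperatorAlong` is the genuine Hecke correspondence on `Pic⁰` (`heckeOperatorAlong_eq`).

All names are prefixed `hi63_`.
-/

set_option autoImplicit false
set_option linter.style.haveILetI false
set_option linter.unusedSectionVars false

open ModularCurve AlgebraicCurve MatrixGroups IntermediateField

namespace Fermat.Agent.S37

open Fermat.Agent.S24

section hi63_along

variable {K F F' : Type*} [Field K] [Field F] [Field F'] [Algebra K F] [Algebra K F']

/-- If `F'` is finite over `K(φ y)`, it is finite over `F` along `φ`. -/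
theorem hi63_finiteAlong (φ : F →ₐ[K] F') (y : F) [FiniteDimensional K⟮φ y⟯ F'] :
    FiniteAlong K φ := by
  letI := algebraAlong φ
  show Module.Finite F F'
  have hle : K⟮φ y⟯ ≤ φ.fieldRange := by
    rw [IntermediateField.adjoin_simple_le_iff]
    exact ⟨y, rfl⟩
  obtain ⟨s, hs⟩ := (Module.Finite.fg_top : (⊤ : Submodule K⟮φ y⟯ F').FG)
  refine ⟨⟨s, ?_⟩⟩
  rw [eq_top_iff]
  rintro z -
  have hz : z ∈ Submodule.span K⟮φ y⟯ (s : Set F') := by rw [hs]; trivial
  induction hz using Submodule.span_induction with
  | mem x hx => exact Submodule.subset_span hx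
  | zero => exact zero_mem _
  | add x y _ _ hx hy => exact add_mem hx hy
  | smul c x _ hx =>
    obtain ⟨a, ha⟩ := hle c.2
    have : c • x = a • x := by
      show (c : F') * x = φ a * x
      rw [← ha]
      rfl
    rw [this]
    exact Submodule.smul_mem _ a hx

end hi63_along

section hi63_alongClosed

variable {K F F' : Type*} [Field K] [IsAlgClosed K] [CharZero K] [Field F] [Field F']
  [Algebra K F] [Algebra K F'] [HasPrincipalDivisors K F']

/-- For a `K`-algebra map `φ : F → F'` between function fields over an algebraically closed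
field of characteristic `0`: `φ` is integral, finite, satisfies the fundamental identity and the
norm formula. -/
theorem hi63_along_all (φ : F →ₐ[K] F') (y : F) (hy : Transcendental K y)
    [FiniteDimensional K⟮y⟯ F] (y' : F') (hy' : Transcendental K y')
    [FiniteDimensional K⟮y'⟯ F'] :
    ∃ (hint : φ.toRingHom.IsIntegral) (hfin : FiniteAlong K φ),
      FundamentalIdentityAlong K φ hint ∧ NormFormulaAlong K φ hfin := by
  have hφy : Transcendental K (φ y) := fun h =>
    hy ((isAlgebraic_algHom_iff φ φ.injective).mp h)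
  haveI : FiniteDimensional K⟮φ y⟯ F' := wp1_finite_of_transcendental y' hy' (φ y) hφy
  have hfin : FiniteAlong K φ := hi63_finiteAlong φ y
  letI := algebraAlong φ
  haveI := isScalarTower_along φ
  haveI : Module.Finite F F' := hfin
  have hint : φ.toRingHom.IsIntegral := fun z => (IsIntegral.of_finite F z : IsIntegral F z)
  refine ⟨hint, hfin, ?_, ?_⟩
  · show FundamentalIdentity K F F'
    exact hi63_fundamentalIdentity y hy
  · show Divisor.PushforwardNormFormula K F F'
    exact hi63_normFormula y hy

end hi63_alongClosed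

section hi63_modular

attribute [local instance] ModularData.fieldM ModularData.algM ModularData.actM

/-- The function `j`, as an element of the function field `ℚ̄ · F_N`. -/
noncomputable def hi63_x (N : ℕ) [NeZero N] : ↥(modularFunctionFieldBar N) :=
  ⟨JJ 1, asmAb_JJ_mem N 1 (one_dvd N)⟩

theorem hi63_x_transcendental (N : ℕ) [NeZero N] : Transcendental Kbar (hi63_x N) :=
  asmAb_transcendental N

/-- `ℚ̄ · F_N` is finite over `ℚ̄(j)`. -/
theorem hi63_finite_x (N : ℕ) [NeZero N] :
    FiniteDimensional Kbar⟮hi63_x N⟯ ↥(modularFunctionFieldBar N) := by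
  obtain ⟨D⟩ := wpA_nonempty_modularData N
  obtain ⟨ι, hι, hΓ⟩ := asmAb_exists_iota N D
  exact (asmA_finrank N D ι (hi63_x N) ⟨JJ N, asmAb_JJ_mem N N dvd_rfl⟩ (hι 1 (one_dvd N))
    (hι N dvd_rfl) hΓ).1

/-- The function field `ℚ̄ · F_N` has principal divisors. -/
theorem hi63_hasPrincipalDivisors_bar (N : ℕ) [NeZero N] :
    HasPrincipalDivisors Kbar ↥(modularFunctionFieldBar N) := by
  haveI := hi63_finite_x N
  exact hi63_hasPrincipalDivisors (hi63_x N) (hi63_x_transcendental N)

/-- **The Hecke inputs hold** for every level `N` and every `ℓ`. -/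
theorem hi63_heckeInputsAlong (N ℓ : ℕ) [NeZero N] [NeZero ℓ] :
    HeckeInputsAlong (AlgebraicClosure ℚ) N ℓ := by
  haveI : NeZero (N * ℓ) := ⟨mul_ne_zero (NeZero.ne N) (NeZero.ne ℓ)⟩
  haveI hP : HasPrincipalDivisors (AlgebraicClosure ℚ)
      ↥(laurentBaseChange (AlgebraicClosure ℚ) (modularFunctionFieldFull (N * ℓ))) :=
    hi63_hasPrincipalDivisors_bar (N * ℓ)
  haveI := hi63_finite_x N
  haveI := hi63_finite_x (N * ℓ)
  obtain ⟨hα, hfinα, -, hNα⟩ := hi63_along_all (heckeAlphaBar (AlgebraicClosure ℚ) N ℓ)
    (hi63_x N) (hi63_x_transcendental N) (hi63_x (N * ℓ)) (hi63_x_transcendental (N * ℓ))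
  obtain ⟨hβ, -, hFIβ, -⟩ := hi63_along_all (heckeBetaBar (AlgebraicClosure ℚ) N ℓ)
    (hi63_x N) (hi63_x_transcendental N) (hi63_x (N * ℓ)) (hi63_x_transcendental (N * ℓ))
  exact heckeInputsAlong_intro hα hβ hFIβ hfinα hNα

end hi63_modular

end Fermat.Agent.S37
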