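import Mathlib
import Fermat.Prelude.Def_ModularCurve_X0ModL
import Fermat.Prelude.Def_AlgebraicCurve_BaseChangeGalois

/-!
# S37 row FR (helper66): coefficient automorphisms and Frobenius on `F_k = k(j(q^d) : d ∣ N)`

`F_k := modularFunctionFieldFullC k N ⊆ k((q))`.

* `fr66_resGalois N : (k ≃+* k) →* SemilinearAut k F_k` : a ring automorphism `σ` of the
  constant field acts on `F_k` by `coeffMap σ` (the generators `j(q^d)` have prime-field
  coefficients) — the characteristic-free analogue of the Prelude `arithmeticGalois`; through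
  the Prelude instances it acts on `Place k F_k`, `Divisor k F_k`, `Pic0 k F_k`.
* `fr66_pow_expChar` : in exponential characteristic `p`, `y ^ p = (σ_p y)(q^p)` for every
  Laurent series `y` (`σ_p` = coefficientwise Frobenius).
* `fr66_phi N ℓ := fr66_resGalois N (frobeniusEquiv k ℓ)` (`k` perfect), and
  `fr66_qExpand_phi_smul : qExpand k ℓ (φ • y) = y ^ ℓ`,
  `fr66_qExpand_eq : qExpand k ℓ y = (φ⁻¹ • y) ^ ℓ`, `fr66_qExpand_mem : qExpand k ℓ y ∈ F_k`.
* divisor formulas `fr66_ord_phi_smul`, `fr66_ord_qExpand`, and the value of functions with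
  prime-field coefficients at `φ • Q` (`fr66_ord_sub_const`, in particular for `j`).
-/

set_option autoImplicit false

noncomputable section

open HahnSeries IntermediateField AlgebraicCurve ModularCurve

namespace Fermat.Agent.S37

/-! ### (a) coefficient automorphisms -/

section ResGalois

variable {k : Type*} [Field k] (N : ℕ)

/-- Coefficientwise ring endomorphisms of `k` preserve `F_k`. -/
theorem fr66_coeffMap_mem (σ : k →+* k) {x : LaurentSeries k}
    (hx : x ∈ modularFunctionFieldFullC k N) :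
    coeffMap σ x ∈ modularFunctionFieldFullC k N := by
  have hx' : x ∈ Subfield.closure
      (Set.range (algebraMap k (LaurentSeries k)) ∪ divisorExpansionsC k N) := hx
  clear hx
  induction hx' using Subfield.closure_induction with
  | mem y hy =>
      rcases hy with ⟨a, rfl⟩ | ⟨d, hne, hd, rfl⟩
      · rw [coeffMap_algebraMap]
        exact (modularFunctionFieldFullC k N).algebraMap_mem _
      · have h := @coeffMap_jqNModC k _ k _ σ d hne
        rw [jqNModC] at h
        rw [h]
        exact @jqModCd_mem_full k _ N d hne hd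
  | one => rw [map_one]; exact one_mem _
  | add x y _ _ hx hy => rw [map_add]; exact add_mem hx hy
  | neg x _ hx => rw [map_neg]; exact neg_mem hx
  | inv x _ hx => rw [map_inv₀]; exact inv_mem hx
  | mul x y _ _ hx hy => rw [map_mul]; exact mul_mem hx hy

/-- The ring automorphism of `F_k` induced by a ring automorphism of `k`. -/
def fr66_ringAut (σ : k ≃+* k) :
    (modularFunctionFieldFullC k N) ≃+* (modularFunctionFieldFullC k N) where
  toFun x := ⟨coeffMap (σ : k →+* k) (x : LaurentSeries k), fr66_coeffMap_mem N _ x.2⟩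
  invFun x := ⟨coeffMap (σ.symm : k →+* k) (x : LaurentSeries k), fr66_coeffMap_mem N _ x.2⟩
  left_inv x := Subtype.ext <| by
    show coeffMap (σ.symm : k →+* k) (coeffMap (σ : k →+* k) (x : LaurentSeries k))
      = (x : LaurentSeries k)
    rw [coeffMap_coeffMap,
      coeffMap_congr (g := RingHom.id k) (RingHom.ext fun a => σ.symm_apply_apply a)
        (x : LaurentSeries k),
      coeffMap_id]
  right_inv x := Subtype.ext <| by
    show coeffMap (σ : k →+* k) (coeffMap (σ.symm : k →+* k) (x : LaurentSeries k))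
      = (x : LaurentSeries k)
    rw [coeffMap_coeffMap,
      coeffMap_congr (g := RingHom.id k) (RingHom.ext fun a => σ.apply_symm_apply a)
        (x : LaurentSeries k),
      coeffMap_id]
  map_mul' x y :=
    Subtype.ext (map_mul (coeffMap (σ : k →+* k)) (x : LaurentSeries k) (y : LaurentSeries k))
  map_add' x y :=
    Subtype.ext (map_add (coeffMap (σ : k →+* k)) (x : LaurentSeries k) (y : LaurentSeries k))

@[simp]
theorem fr66_coe_ringAut_apply (σ : k ≃+* k) (x : modularFunctionFieldFullC k N) :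
    (fr66_ringAut N σ x : LaurentSeries k) = coeffMap (σ : k →+* k) (x : LaurentSeries k) :=
  rfl

theorem fr66_ringAut_algebraMap (σ : k ≃+* k) (a : k) :
    fr66_ringAut N σ (algebraMap k (modularFunctionFieldFullC k N) a)
      = algebraMap k (modularFunctionFieldFullC k N) (σ a) :=
  Subtype.ext (coeffMap_algebraMap (σ : k →+* k) a)

/-- **FR (a)**: ring automorphisms of the constant field act semilinearly on `F_k`. -/
def fr66_resGalois : (k ≃+* k) →* SemilinearAut k (modularFunctionFieldFullC k N) where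
  toFun σ := ⟨(fr66_ringAut N σ, σ), fun a => fr66_ringAut_algebraMap N σ a⟩
  map_one' := by
    refine Subtype.ext (Prod.ext (RingEquiv.ext fun x => Subtype.ext ?_) rfl)
    show coeffMap ((1 : k ≃+* k) : k →+* k) (x : LaurentSeries k) = (x : LaurentSeries k)
    rw [show ((1 : k ≃+* k) : k →+* k) = RingHom.id k from RingHom.ext fun _ => rfl,
      coeffMap_id]
  map_mul' σ τ := by
    refine Subtype.ext (Prod.ext (RingEquiv.ext fun x => Subtype.ext ?_) rfl)
    show coeffMap ((σ * τ : k ≃+* k) : k →+* k) (x : LaurentSeries k)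
      = coeffMap (σ : k →+* k) (coeffMap (τ : k →+* k) (x : LaurentSeries k))
    rw [coeffMap_coeffMap]
    exact coeffMap_congr (RingHom.ext fun _ => rfl) _

@[simp]
theorem fr66_toRingAut_resGalois (σ : k ≃+* k) :
    SemilinearAut.toRingAut (fr66_resGalois N σ) = fr66_ringAut N σ :=
  rfl

@[simp]
theorem fr66_baseAut_resGalois (σ : k ≃+* k) :
    SemilinearAut.baseAut (fr66_resGalois N σ) = σ :=
  rfl

theorem fr66_coe_resGalois_smul (σ : k ≃+* k) (x : modularFunctionFieldFullC k N) :
    ((fr66_resGalois N σ • x : modularFunctionFieldFullC k N) : LaurentSeries k)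
      = coeffMap (σ : k →+* k) (x : LaurentSeries k) :=
  rfl

theorem fr66_coe_resGalois_inv_smul (σ : k ≃+* k) (x : modularFunctionFieldFullC k N) :
    (((fr66_resGalois N σ)⁻¹ • x : modularFunctionFieldFullC k N) : LaurentSeries k)
      = coeffMap (σ.symm : k →+* k) (x : LaurentSeries k) :=
  rfl

/-- Elements of `F_k` whose coefficients are fixed by `σ` are fixed by `σ`. -/
theorem fr66_resGalois_smul_eq_self (σ : k ≃+* k) (x : modularFunctionFieldFullC k N)
    (hx : ∀ n : ℤ, σ ((x : LaurentSeries k).coeff n) = (x : LaurentSeries k).coeff n) :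
    fr66_resGalois N σ • x = x := by
  apply Subtype.ext
  rw [fr66_coe_resGalois_smul]
  ext n
  rw [coeffMap_coeff]
  exact hx n

/-- The generators `j(q^d)` are fixed by every coefficient automorphism. -/
theorem fr66_resGalois_smul_jq (σ : k ≃+* k) {d : ℕ} [NeZero d] (hd : d ∣ N) :
    fr66_resGalois N σ • (⟨qExpand k d (jqModC k), jqModCd_mem_full k N hd⟩ :
        modularFunctionFieldFullC k N)
      = ⟨qExpand k d (jqModC k), jqModCd_mem_full k N hd⟩ := by
  apply Subtype.ext
  rw [fr66_coe_resGalois_smul]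
  have h := coeffMap_jqNModC (σ : k →+* k) d
  rwa [jqNModC] at h

end ResGalois

/-! ### (b) Frobenius and `q ↦ q^p` -/

section Frobenius

theorem fr66_qExpand_ofPowerSeries {R : Type*} [CommRing R] (p : ℕ) [NeZero p]
    (u : PowerSeries R) :
    qExpand R p (HahnSeries.ofPowerSeries ℤ R u)
      = HahnSeries.ofPowerSeries ℤ R (PowerSeries.expand p (NeZero.ne p) u) := by
  ext n
  by_cases hn : (p : ℤ) ∣ n
  · obtain ⟨m, rfl⟩ := hn
    rw [qExpand_coeff_mul]
    rcases le_or_gt 0 m with hm | hm
    · lift m to ℕ using hm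
      rw [show (p : ℤ) * (m : ℤ) = ((p * m : ℕ) : ℤ) by push_cast; ring,
        HahnSeries.ofPowerSeries_apply_coeff, HahnSeries.ofPowerSeries_apply_coeff,
        PowerSeries.coeff_expand_mul]
    · have hp : (0 : ℤ) < p := by exact_mod_cast Nat.pos_of_ne_zero (NeZero.ne p)
      rw [ofPowerSeries_coeff_of_neg _ hm, ofPowerSeries_coeff_of_neg _ (by nlinarith)]
  · rw [qExpand_coeff_of_not_dvd p _ hn]
    rcases le_or_gt 0 n with hn0 | hn0
    · lift n to ℕ using hn0
      rw [HahnSeries.ofPowerSeries_apply_coeff, PowerSeries.coeff_expand_of_not_dvd]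
      exact fun h => hn (by exact_mod_cast h)
    · rw [ofPowerSeries_coeff_of_neg _ hn0]

/-- **Frobenius on Laurent series**: in exponential characteristic `p`,
`y ^ p = (coefficientwise Frobenius of y)(q^p)`. -/
theorem fr66_pow_expChar (R : Type*) [CommRing R] (p : ℕ) [NeZero p] [ExpChar R p]
    (y : LaurentSeries R) :
    y ^ p = qExpand R p (coeffMap (frobenius R p) y) := by
  have hy := LaurentSeries.single_order_mul_powerSeriesPart y
  set n := y.order with hn
  set u := LaurentSeries.powerSeriesPart y with hu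
  have hpow : u ^ p = PowerSeries.expand p (NeZero.ne p) (u.map (frobenius R p)) := by
    rw [← PowerSeries.map_expand]
    exact (MvPowerSeries.map_frobenius_expand p (NeZero.ne p) (f := u)).symm
  have hsmul : p • n = (p : ℤ) * n := by simp
  have h1 : y ^ p
      = HahnSeries.single ((p : ℤ) * n) (1 : R) * HahnSeries.ofPowerSeries ℤ R (u ^ p) := by
    conv_lhs => rw [← hy]
    rw [mul_pow, HahnSeries.single_pow, one_pow, hsmul, ← map_pow]
  have h2 : coeffMap (frobenius R p) y
      = HahnSeries.single n (1 : R) * HahnSeries.ofPowerSeries ℤ R (u.map (frobenius R p)) := by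
    conv_lhs => rw [← hy]
    rw [map_mul, coeffMap_single, (frobenius R p).map_one, coeffMap_ofPowerSeries]
  rw [h1, h2, map_mul, qExpand_single, fr66_qExpand_ofPowerSeries, hpow]

variable (k : Type*) [Field k] (N : ℕ) (ℓ : ℕ) [ExpChar k ℓ] [PerfectRing k ℓ]

/-- The coefficient Frobenius `φ` on `F_k` (`k` perfect of exponential characteristic `ℓ`). -/
def fr66_phi : SemilinearAut k (modularFunctionFieldFullC k N) :=
  fr66_resGalois N (frobeniusEquiv k ℓ)

theorem fr66_baseAut_phi : SemilinearAut.baseAut (fr66_phi k N ℓ) = frobeniusEquiv k ℓ := rfl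

theorem fr66_coe_phi_smul (y : modularFunctionFieldFullC k N) :
    ((fr66_phi k N ℓ • y : modularFunctionFieldFullC k N) : LaurentSeries k)
      = coeffMap (frobenius k ℓ) (y : LaurentSeries k) := by
  rw [fr66_phi, fr66_coe_resGalois_smul]
  exact coeffMap_congr (RingHom.ext fun a => by simp) _

/-- `φ` acts on constants by the Frobenius. -/
theorem fr66_phi_smul_algebraMap (c : k) :
    fr66_phi k N ℓ • algebraMap k (modularFunctionFieldFullC k N) c
      = algebraMap k (modularFunctionFieldFullC k N) (c ^ ℓ) := by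
  rw [SemilinearAut.smul_algebraMap, fr66_baseAut_phi, frobeniusEquiv_apply, frobenius_def]

/-- The generators `j(q^d)` are fixed by `φ`. -/
theorem fr66_phi_smul_jq {d : ℕ} [NeZero d] (hd : d ∣ N) :
    fr66_phi k N ℓ • (⟨qExpand k d (jqModC k), jqModCd_mem_full k N hd⟩ :
        modularFunctionFieldFullC k N)
      = ⟨qExpand k d (jqModC k), jqModCd_mem_full k N hd⟩ :=
  fr66_resGalois_smul_jq N (frobeniusEquiv k ℓ) hd

section NeZero

variable [NeZero ℓ]

/-- **FR (b)**: `(φ • y)(q^ℓ) = y^ℓ`. -/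
theorem fr66_qExpand_phi_smul (y : modularFunctionFieldFullC k N) :
    qExpand k ℓ ((fr66_phi k N ℓ • y : modularFunctionFieldFullC k N) : LaurentSeries k)
      = (y : LaurentSeries k) ^ ℓ := by
  rw [fr66_coe_phi_smul, ← fr66_pow_expChar]

/-- **FR (b)**: `y(q^ℓ) = (φ⁻¹ • y)^ℓ`. -/
theorem fr66_qExpand_eq (y : modularFunctionFieldFullC k N) :
    qExpand k ℓ (y : LaurentSeries k)
      = (((fr66_phi k N ℓ)⁻¹ • y : modularFunctionFieldFullC k N) : LaurentSeries k) ^ ℓ := by
  rw [← fr66_qExpand_phi_smul k N ℓ ((fr66_phi k N ℓ)⁻¹ • y), smul_inv_smul]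

/-- **FR (b)**: `F_k` is stable under `q ↦ q^ℓ`. -/
theorem fr66_qExpand_mem (y : modularFunctionFieldFullC k N) :
    qExpand k ℓ (y : LaurentSeries k) ∈ modularFunctionFieldFullC k N := by
  rw [fr66_qExpand_eq k N ℓ y]
  exact pow_mem ((fr66_phi k N ℓ)⁻¹ • y).2 ℓ

/-- `y ↦ y(q^ℓ)` as a map `F_k → F_k`. -/
def fr66_V (y : modularFunctionFieldFullC k N) : modularFunctionFieldFullC k N :=
  ⟨qExpand k ℓ (y : LaurentSeries k), fr66_qExpand_mem k N ℓ y⟩

@[simp]
theorem fr66_coe_V (y : modularFunctionFieldFullC k N) :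
    ((fr66_V k N ℓ y : modularFunctionFieldFullC k N) : LaurentSeries k)
      = qExpand k ℓ (y : LaurentSeries k) := rfl

theorem fr66_V_eq (y : modularFunctionFieldFullC k N) :
    fr66_V k N ℓ y = ((fr66_phi k N ℓ)⁻¹ • y) ^ ℓ :=
  Subtype.ext (fr66_qExpand_eq k N ℓ y)

theorem fr66_V_phi_smul (y : modularFunctionFieldFullC k N) :
    fr66_V k N ℓ (fr66_phi k N ℓ • y) = y ^ ℓ :=
  Subtype.ext (fr66_qExpand_phi_smul k N ℓ y)

theorem fr66_V_ne_zero {y : modularFunctionFieldFullC k N} (hy : y ≠ 0) :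
    fr66_V k N ℓ y ≠ 0 := by
  rw [fr66_V_eq]
  exact pow_ne_zero _ (by simpa using hy)

end NeZero

/-! ### (c) divisor formulas -/

/-- **FR (c)**: `ord_Q (φ • y) = ord_{φ⁻¹ Q} y`. -/
theorem fr66_ord_phi_smul (Q : Place k (modularFunctionFieldFullC k N))
    (y : modularFunctionFieldFullC k N) :
    Q.ord (fr66_phi k N ℓ • y) = ((fr66_phi k N ℓ)⁻¹ • Q).ord y := by
  have h := SemilinearAut.ord_smul (fr66_phi k N ℓ) ((fr66_phi k N ℓ)⁻¹ • Q) y
  rwa [smul_inv_smul] at h

/-- `ord_Q (φ⁻¹ • y) = ord_{φ Q} y`. -/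
theorem fr66_ord_phi_inv_smul (Q : Place k (modularFunctionFieldFullC k N))
    (y : modularFunctionFieldFullC k N) :
    Q.ord ((fr66_phi k N ℓ)⁻¹ • y) = (fr66_phi k N ℓ • Q).ord y := by
  have h := SemilinearAut.ord_smul (fr66_phi k N ℓ)⁻¹ (fr66_phi k N ℓ • Q) y
  rwa [inv_smul_smul] at h

/-- **FR (c)**: `ord_Q (y(q^ℓ)) = ℓ · ord_{φ Q} y`. -/
theorem fr66_ord_V [NeZero ℓ] (Q : Place k (modularFunctionFieldFullC k N))
    (y : modularFunctionFieldFullC k N) :
    Q.ord (fr66_V k N ℓ y) = (ℓ : ℤ) * (fr66_phi k N ℓ • Q).ord y := by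
  rw [fr66_V_eq, ← zpow_natCast, Place.ord_zpow, fr66_ord_phi_inv_smul]

/-- The Eichler–Shimura shape on functions:
`ord_Q (y(q^ℓ) · (φ • y)) = ℓ · ord_{φ Q} y + ord_{φ⁻¹ Q} y`. -/
theorem fr66_ord_V_mul_phi [NeZero ℓ] (Q : Place k (modularFunctionFieldFullC k N))
    {y : modularFunctionFieldFullC k N} (hy : y ≠ 0) :
    Q.ord (fr66_V k N ℓ y * (fr66_phi k N ℓ • y))
      = (ℓ : ℤ) * (fr66_phi k N ℓ • Q).ord y + ((fr66_phi k N ℓ)⁻¹ • Q).ord y := by
  rw [Place.ord_mul Q (fr66_V_ne_zero k N ℓ hy) (by simpa using hy), fr66_ord_V,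
    fr66_ord_phi_smul]

/-- Divisor form: if `D = div y` then `φ • D + ℓ • (φ⁻¹ • D) = div (y(q^ℓ) · (φ • y))`. -/
theorem fr66_divisor_V_mul_phi [NeZero ℓ] {y : modularFunctionFieldFullC k N} (hy : y ≠ 0)
    (D : Divisor k (modularFunctionFieldFullC k N)) (hD : ∀ Q, D Q = Q.ord y)
    (Q : Place k (modularFunctionFieldFullC k N)) :
    (fr66_phi k N ℓ • D + (ℓ : ℤ) • ((fr66_phi k N ℓ)⁻¹ • D)) Q
      = Q.ord (fr66_V k N ℓ y * (fr66_phi k N ℓ • y)) := by
  rw [fr66_ord_V_mul_phi k N ℓ Q hy, Finsupp.add_apply, Finsupp.smul_apply,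
    SemilinearAut.divisor_smul_apply, SemilinearAut.divisor_smul_apply, inv_inv, hD, hD,
    smul_eq_mul]
  ring

/-! ### (d) values at `φ • Q` of functions with prime-field coefficients -/

/-- For `x` fixed by a coefficient automorphism `g` and a constant `c`:
`ord_{g Q} (x - g(c)) = ord_Q (x - c)`. -/
theorem fr66_ord_sub_const_resGalois (σ : k ≃+* k) (Q : Place k (modularFunctionFieldFullC k N))
    (x : modularFunctionFieldFullC k N) (hx : fr66_resGalois N σ • x = x) (c : k) :
    (fr66_resGalois N σ • Q).ord (x - algebraMap k (modularFunctionFieldFullC k N) (σ c))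
      = Q.ord (x - algebraMap k (modularFunctionFieldFullC k N) c) := by
  have h := SemilinearAut.ord_smul (fr66_resGalois N σ) Q
    (x - algebraMap k (modularFunctionFieldFullC k N) c)
  rwa [smul_sub, hx, SemilinearAut.smul_algebraMap, fr66_baseAut_resGalois] at h

/-- **FR (d)**: for `x` fixed by `φ` (e.g. `x = j(q^d)`), `x ≡ c` at `Q` iff `x ≡ c^ℓ` at `φ • Q`,
with the same order: `ord_{φ Q} (x - c^ℓ) = ord_Q (x - c)`. -/
theorem fr66_ord_sub_const (Q : Place k (modularFunctionFieldFullC k N))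
    (x : modularFunctionFieldFullC k N) (hx : fr66_phi k N ℓ • x = x) (c : k) :
    (fr66_phi k N ℓ • Q).ord (x - algebraMap k (modularFunctionFieldFullC k N) (c ^ ℓ))
      = Q.ord (x - algebraMap k (modularFunctionFieldFullC k N) c) := by
  have h := fr66_ord_sub_const_resGalois k N (frobeniusEquiv k ℓ) Q x hx c
  rwa [frobeniusEquiv_apply, frobenius_def] at h

/-- For `x` fixed by a coefficient automorphism `g`: `ord_{g Q} x = ord_Q x` (poles/zeros of `j`
are permuted). -/
theorem fr66_ord_fixed_resGalois (σ : k ≃+* k) (Q : Place k (modularFunctionFieldFullC k N))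
    (x : modularFunctionFieldFullC k N) (hx : fr66_resGalois N σ • x = x) :
    (fr66_resGalois N σ • Q).ord x = Q.ord x := by
  have h := SemilinearAut.ord_smul (fr66_resGalois N σ) Q x
  rwa [hx] at h

/-- For `x` fixed by `g`: `x` is regular at `g • Q` iff it is regular at `Q`. -/
theorem fr66_mem_smul_iff_resGalois (σ : k ≃+* k) (Q : Place k (modularFunctionFieldFullC k N))
    (x : modularFunctionFieldFullC k N) (hx : fr66_resGalois N σ • x = x) :
    x ∈ (fr66_resGalois N σ • Q).toValuationSubring ↔ x ∈ Q.toValuationSubring := by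
  rw [SemilinearAut.smul_toValuationSubring,
    ValuationSubring.mem_pointwise_smul_iff_inv_smul_mem]
  have hx' : (fr66_resGalois N σ)⁻¹ • x = x := by
    conv_lhs => rw [← hx]
    rw [inv_smul_smul]
  rw [hx']

end Frobenius

end Fermat.Agent.S37
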