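import Fermat.Agent.S24.AsmBridgeB
import Fermat.Agent.S24.Infinity
import Fermat.Agent.S24.ModIntegral
import Fermat.Prelude.Def_ModularCurve_HeckeOperator
import Fermat.Prelude.Thm_ModularCurve_coeffMap_qExpand

/-!
S37, row AL (Atkin–Lehner): for coprime `M`, `l` the formal function field
`ℚ̄(j(q^d) : d ∣ M l)` has an involution `w` exchanging the two degeneracy maps
`heckeAlphaBar` (inclusion) and `heckeBetaBar` (`q ↦ q^l`) of the Prelude.
All names are prefixed `al47_`.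
-/

set_option autoImplicit false

open ModularCurve AlgebraicCurve MatrixGroups UpperHalfPlane
open Fermat.Agent.S24

namespace Fermat.Agent.S37

/-! ### The analytic substitution `τ ↦ γ (l τ)` -/

theorem al47_exists_SL (a b c d : ℤ) (h : a * d - b * c = 1) :
    ∃ g : SL(2, ℤ), g 0 0 = a ∧ g 0 1 = b ∧ g 1 0 = c ∧ g 1 1 = d :=
  ⟨⟨!![a, b; c, d], by rw [Matrix.det_fin_two_of]; exact h⟩, rfl, rfl, rfl, rfl⟩

theorem al47_scaleH_smul (M l : ℕ) (x y : ℤ) (h : (l : ℤ) * x + (M : ℤ) * y = 1)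
    (γ : SL(2, ℤ)) (h00 : γ 0 0 = x) (h01 : γ 0 1 = -y) (h10 : γ 1 0 = M) (h11 : γ 1 1 = l)
    (e e' f f' : ℕ) (he : e * e' = M) (hf : f * f' = l) (hM : M ≠ 0) (hl : l ≠ 0) (τ : ℍ) :
    ∃ g : SL(2, ℤ), scaleH (e * f) (γ • scaleH l τ) = g • scaleH (e * f') τ := by
  have he0 : e ≠ 0 := by rintro rfl; exact hM (by simpa using he.symm)
  have he'0 : e' ≠ 0 := by rintro rfl; exact hM (by simpa using he.symm)
  have hf0 : f ≠ 0 := by rintro rfl; exact hl (by simpa using hf.symm)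
  have hf'0 : f' ≠ 0 := by rintro rfl; exact hl (by simpa using hf.symm)
  have h1 : ((f : ℤ) * f' : ℤ) = l := by exact_mod_cast hf
  have h2 : ((e : ℤ) * e' : ℤ) = M := by exact_mod_cast he
  have hdet : (x * f) * (f' : ℤ) - (-(e * y)) * (e' : ℤ) = 1 := by
    rw [← h1, ← h2] at h
    linear_combination h
  obtain ⟨g, g00, g01, g10, g11⟩ := al47_exists_SL _ _ _ _ hdet
  refine ⟨g, ?_⟩
  apply UpperHalfPlane.ext
  rw [coe_scaleH (e * f) (Nat.mul_ne_zero he0 hf0), coe_specialLinearGroup_apply,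
    coe_specialLinearGroup_apply, coe_scaleH (e * f') (Nat.mul_ne_zero he0 hf'0), coe_scaleH l hl,
    h00, h01, h10, h11, g00, g01, g10, g11]
  simp only [algebraMap_int_eq, eq_intCast, Int.cast_mul, Int.cast_natCast, Complex.ofReal_intCast,
    Complex.ofReal_mul, Complex.ofReal_natCast, Int.cast_neg, Complex.ofReal_neg]
  have hD : (M : ℂ) * (τ : ℂ) + 1 ≠ 0 := by
    intro h0
    have h3 := congrArg Complex.im h0
    simp only [Complex.add_im, Complex.mul_im, Complex.natCast_re, Complex.natCast_im,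
      Complex.one_im, zero_mul, add_zero, Complex.zero_im] at h3
    have h4 : (0 : ℝ) < (M : ℝ) * (τ : ℂ).im :=
      mul_pos (by exact_mod_cast Nat.pos_of_ne_zero hM) τ.im_pos
    rw [h3] at h4
    exact lt_irrefl _ h4
  have hlC : (l : ℂ) = (f : ℂ) * (f' : ℂ) := by exact_mod_cast hf.symm
  have hMC : (M : ℂ) = (e : ℂ) * (e' : ℂ) := by exact_mod_cast he.symm
  have hfC : (f : ℂ) ≠ 0 := by exact_mod_cast hf0
  have hf'C : (f' : ℂ) ≠ 0 := by exact_mod_cast hf'0
  have heC : (e : ℂ) ≠ 0 := by exact_mod_cast he0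
  rw [hMC] at hD
  have hD1 : (e : ℂ) * (e' : ℂ) * ((f : ℂ) * (f' : ℂ) * (τ : ℂ)) + (f : ℂ) * (f' : ℂ) ≠ 0 := by
    have : (e : ℂ) * (e' : ℂ) * ((f : ℂ) * (f' : ℂ) * (τ : ℂ)) + (f : ℂ) * (f' : ℂ)
        = (f : ℂ) * (f' : ℂ) * ((e : ℂ) * (e' : ℂ) * (τ : ℂ) + 1) := by ring
    rw [this]
    exact mul_ne_zero (mul_ne_zero hfC hf'C) hD
  have hD2 : (e' : ℂ) * ((e : ℂ) * (f' : ℂ) * (τ : ℂ)) + (f' : ℂ) ≠ 0 := by
    have : (e' : ℂ) * ((e : ℂ) * (f' : ℂ) * (τ : ℂ)) + (f' : ℂ)
        = (f' : ℂ) * ((e : ℂ) * (e' : ℂ) * (τ : ℂ) + 1) := by ring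
    rw [this]
    exact mul_ne_zero hf'C hD
  rw [hlC, hMC]
  push_cast
  rw [mul_div_assoc', div_eq_div_iff hD1 hD2]
  ring

/-! ### The swap on divisors of `M * l` -/

/-- The Atkin–Lehner swap on divisors of `M * l` (`gcd(M, l) = 1`): `e f ↦ e (l / f)` for
`e ∣ M`, `f ∣ l`. -/
def al47_sigmaNat (M l d : ℕ) : ℕ := d.gcd M * (l / d.gcd l)

theorem al47_sigmaNat_dvd (M l d : ℕ) : al47_sigmaNat M l d ∣ M * l :=
  Nat.mul_dvd_mul (Nat.gcd_dvd_right d M) (Nat.div_dvd_of_dvd (Nat.gcd_dvd_right d l))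

theorem al47_gcd_mul_gcd {M l : ℕ} (hcop : Nat.Coprime l M) {d : ℕ} (hd : d ∣ M * l) :
    d.gcd M * d.gcd l = d := by
  rw [← Nat.Coprime.gcd_mul d hcop.symm]
  exact Nat.gcd_eq_left hd

theorem al47_sigmaNat_of_dvd {M l : ℕ} (hcop : Nat.Coprime l M) {e : ℕ} (he : e ∣ M) :
    al47_sigmaNat M l e = e * l := by
  unfold al47_sigmaNat
  have h1 : e.gcd M = e := Nat.gcd_eq_left he
  have h2 : e.gcd l = 1 := (Nat.Coprime.coprime_dvd_left he hcop.symm)
  rw [h1, h2, Nat.div_one]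

theorem al47_sigmaNat_sigmaNat {M l : ℕ} (hcop : Nat.Coprime l M) (hl : l ≠ 0) {d : ℕ}
    (hd : d ∣ M * l) : al47_sigmaNat M l (al47_sigmaNat M l d) = d := by
  have hfl : d.gcd l ∣ l := Nat.gcd_dvd_right d l
  have heM : d.gcd M ∣ M := Nat.gcd_dvd_right d M
  have hf'l : l / d.gcd l ∣ l := Nat.div_dvd_of_dvd hfl
  have hf0 : 0 < d.gcd l := Nat.gcd_pos_of_pos_right d (Nat.pos_of_ne_zero hl)
  have hf'0 : 0 < l / d.gcd l := Nat.div_pos (Nat.le_of_dvd (Nat.pos_of_ne_zero hl) hfl) hf0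
  have hc1 : Nat.Coprime (l / d.gcd l) M := Nat.Coprime.coprime_dvd_left hf'l hcop
  have hc2 : Nat.Coprime (d.gcd M) l := Nat.Coprime.coprime_dvd_left heM hcop.symm
  have h1 : (d.gcd M * (l / d.gcd l)).gcd M = d.gcd M := by
    rw [Nat.Coprime.gcd_mul_right_cancel _ hc1]
    exact Nat.gcd_eq_left heM
  have h2 : (d.gcd M * (l / d.gcd l)).gcd l = l / d.gcd l := by
    rw [Nat.Coprime.gcd_mul_left_cancel _ hc2]
    exact Nat.gcd_eq_left hf'l
  show (d.gcd M * (l / d.gcd l)).gcd M * (l / (d.gcd M * (l / d.gcd l)).gcd l) = d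
  rw [h1, h2, Nat.div_div_self hfl hl]
  exact al47_gcd_mul_gcd hcop hd

theorem al47_kleinJ_W (M l : ℕ) (hcop : Nat.Coprime l M) (hM : M ≠ 0) (hl : l ≠ 0) (x y : ℤ)
    (h : (l : ℤ) * x + (M : ℤ) * y = 1)
    (γ : SL(2, ℤ)) (h00 : γ 0 0 = x) (h01 : γ 0 1 = -y) (h10 : γ 1 0 = M) (h11 : γ 1 1 = l)
    {d : ℕ} (hd : d ∣ M * l) (τ : ℍ) :
    kleinJ (scaleH d (γ • scaleH l τ)) = kleinJ (scaleH (al47_sigmaNat M l d) τ) := by
  have hfl : d.gcd l ∣ l := Nat.gcd_dvd_right d l
  have heM : d.gcd M ∣ M := Nat.gcd_dvd_right d M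
  obtain ⟨g, hg⟩ := al47_scaleH_smul M l x y h γ h00 h01 h10 h11 (d.gcd M) (M / d.gcd M)
    (d.gcd l) (l / d.gcd l) (Nat.mul_div_cancel' heM) (Nat.mul_div_cancel' hfl) hM hl τ
  rw [al47_gcd_mul_gcd hcop hd] at hg
  rw [hg, wpA1_kleinJ_smul]
  rfl

/-! ### Stability of the relation ideal -/

section Rel

variable (M l : ℕ) [NeZero M] [NeZero l]

/-- The swap as a self-map of the divisor set of `M * l`. -/
def al47_sigma (d : (M * l).divisors) : (M * l).divisors :=
  ⟨al47_sigmaNat M l d.1, Nat.mem_divisors.mpr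
    ⟨al47_sigmaNat_dvd M l d.1, Nat.mul_ne_zero (NeZero.ne M) (NeZero.ne l)⟩⟩

theorem al47_sigma_sigma (hcop : Nat.Coprime l M) (d : (M * l).divisors) :
    al47_sigma M l (al47_sigma M l d) = d :=
  Subtype.ext (al47_sigmaNat_sigmaNat hcop (NeZero.ne l) (Nat.dvd_of_mem_divisors d.2))

theorem al47_rel (hcop : Nat.Coprime l M) (P : MvPolynomial (M * l).divisors Kbar)
    (hP : MvPolynomial.aeval (fun d : (M * l).divisors => JJ d.1) P = 0) :
    MvPolynomial.aeval (fun d : (M * l).divisors => JJ (al47_sigma M l d).1) P = 0 := by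
  have : NeZero (M * l) := ⟨Nat.mul_ne_zero (NeZero.ne M) (NeZero.ne l)⟩
  have h1 : MvPolynomial.aeval (fun d : (M * l).divisors => genFn 1 d.1) P = 0 :=
    (wpA4_rel_iff (M * l) P).mp hP
  obtain ⟨x, y, hxy⟩ : ∃ x y : ℤ, (l : ℤ) * x + (M : ℤ) * y = 1 := by
    obtain ⟨u, v, huv⟩ := hcop.isCoprime
    exact ⟨u, v, by linear_combination huv⟩
  obtain ⟨γ, h00, h01, h10, h11⟩ := al47_exists_SL x (-y) M l (by linear_combination hxy)
  have key : ∀ (g : (M * l).divisors → ℍ → ℂ) (z : ℍ),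
      (MvPolynomial.aeval g P) z = MvPolynomial.aeval (fun d => g d z) P := fun g z =>
    MvPolynomial.comp_aeval_apply (R := Kbar) (f := g) (Pi.evalAlgHom Kbar (fun _ : ℍ => ℂ) z) P
  have h2 : MvPolynomial.aeval (fun d : (M * l).divisors => genFn 1 d.1)
      (MvPolynomial.rename (al47_sigma M l) P) = 0 := by
    rw [MvPolynomial.aeval_rename]
    funext τ
    have h3 := congrFun h1 (γ • scaleH l τ)
    rw [key] at h3
    rw [key]
    have hfun : (fun d : (M * l).divisors =>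
        ((fun d : (M * l).divisors => genFn 1 d.1) ∘ al47_sigma M l) d τ)
        = fun d : (M * l).divisors => genFn 1 d.1 (γ • scaleH l τ) := by
      funext d
      show genFn 1 (al47_sigma M l d).1 τ = genFn 1 d.1 (γ • scaleH l τ)
      rw [genFn_apply, genFn_apply, inv_one, one_smul, one_smul]
      exact (al47_kleinJ_W M l hcop (NeZero.ne M) (NeZero.ne l) x y hxy γ h00 h01 h10 h11
        (Nat.dvd_of_mem_divisors d.2) τ).symm
    rw [hfun]
    exact h3
  have h3 := (wpA4_rel_iff (M * l) _).mpr h2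
  rw [MvPolynomial.aeval_rename] at h3
  exact h3

/-! ### The involution on `ℚ̄[JJ d : d ∣ M l]` and on its fraction field -/

/-- Evaluation at the generators, as a map onto the subalgebra they generate. -/
noncomputable def al47_f : MvPolynomial (M * l).divisors Kbar →ₐ[Kbar]
    Algebra.adjoin Kbar (asmAb_gens (M * l)) :=
  MvPolynomial.aeval (fun d : (M * l).divisors =>
    (⟨JJ d.1, Algebra.subset_adjoin ⟨d, rfl⟩⟩ : Algebra.adjoin Kbar (asmAb_gens (M * l))))

omit [NeZero M] [NeZero l] in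
theorem al47_f_X (d : (M * l).divisors) :
    al47_f M l (MvPolynomial.X d) = ⟨JJ d.1, Algebra.subset_adjoin ⟨d, rfl⟩⟩ := by
  unfold al47_f
  exact MvPolynomial.aeval_X _ _

omit [NeZero M] [NeZero l] in
theorem al47_f_coe (P : MvPolynomial (M * l).divisors Kbar) :
    ((al47_f M l P : Algebra.adjoin Kbar (asmAb_gens (M * l))) : LaurentSeries Kbar)
      = asmAb_phiJ (M * l) P := by
  have h : (Subalgebra.val _).comp (al47_f M l) = asmAb_phiJ (M * l) := by
    apply MvPolynomial.algHom_ext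
    intro d
    rw [AlgHom.comp_apply, al47_f_X]
    unfold asmAb_phiJ
    rw [MvPolynomial.aeval_X]
    rfl
  exact AlgHom.congr_fun h P

omit [NeZero M] [NeZero l] in
theorem al47_f_surjective : Function.Surjective (al47_f M l) := by
  rintro ⟨a, ha⟩
  have ha' : a ∈ (asmAb_phiJ (M * l)).range := by
    rw [asmAb_range]
    exact ha
  obtain ⟨P, rfl⟩ := ha'
  exact ⟨P, Subtype.ext (al47_f_coe M l P)⟩

/-- Evaluation at the swapped generators. -/
noncomputable def al47_theta : MvPolynomial (M * l).divisors Kbar →ₐ[Kbar] LaurentSeries Kbar :=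
  MvPolynomial.aeval (fun d : (M * l).divisors => JJ (al47_sigma M l d).1)

theorem al47_ker_le (hcop : Nat.Coprime l M) :
    RingHom.ker (al47_f M l) ≤ RingHom.ker (al47_theta M l) := by
  intro P hP
  rw [RingHom.mem_ker] at hP ⊢
  have h : asmAb_phiJ (M * l) P = 0 := by
    rw [← al47_f_coe, hP]
    rfl
  exact al47_rel M l hcop P h

/-- The swap on the subalgebra generated by the `JJ d`. -/
noncomputable def al47_psi (hcop : Nat.Coprime l M) :
    Algebra.adjoin Kbar (asmAb_gens (M * l)) →ₐ[Kbar] LaurentSeries Kbar :=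
  AlgHom.liftOfSurjective (al47_f M l) (al47_f_surjective M l) (al47_theta M l)
    (al47_ker_le M l hcop)

theorem al47_psi_f (hcop : Nat.Coprime l M) (P : MvPolynomial (M * l).divisors Kbar) :
    al47_psi M l hcop (al47_f M l P) = al47_theta M l P :=
  AlgHom.liftOfSurjective_apply _ _ _ _ P

theorem al47_psi_injective (hcop : Nat.Coprime l M) :
    Function.Injective (al47_psi M l hcop) := by
  rw [injective_iff_map_eq_zero]
  intro a ha
  obtain ⟨P, rfl⟩ := al47_f_surjective M l a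
  rw [al47_psi_f] at ha
  have h1 : MvPolynomial.aeval (fun d : (M * l).divisors => JJ d.1)
      (MvPolynomial.rename (al47_sigma M l) P) = 0 := by
    rw [MvPolynomial.aeval_rename]
    exact ha
  have h2 := al47_rel M l hcop _ h1
  rw [MvPolynomial.aeval_rename] at h2
  have h3 : ((fun d : (M * l).divisors => JJ (al47_sigma M l d).1) ∘ al47_sigma M l)
      = fun d : (M * l).divisors => JJ d.1 := by
    funext d
    show JJ (al47_sigma M l (al47_sigma M l d)).1 = JJ d.1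
    rw [al47_sigma_sigma M l hcop]
  rw [h3] at h2
  apply Subtype.ext
  rw [al47_f_coe]
  exact h2

open IntermediateField.algebraAdjoinAdjoin in
/-- The swap on the fraction field `ℚ̄(JJ d : d ∣ M l)`, as a map to `ℚ̄((q))`. -/
noncomputable def al47_w0 (hcop : Nat.Coprime l M) :
    ↥(IntermediateField.adjoin Kbar (asmAb_gens (M * l))) →ₐ[Kbar] LaurentSeries Kbar :=
  IsFractionRing.liftAlgHom (al47_psi_injective M l hcop)

open IntermediateField.algebraAdjoinAdjoin in
theorem al47_w0_gen (hcop : Nat.Coprime l M) (d : (M * l).divisors) :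
    al47_w0 M l hcop ⟨JJ d.1, IntermediateField.subset_adjoin Kbar _ ⟨d, rfl⟩⟩
      = JJ (al47_sigma M l d).1 := by
  have h : (⟨JJ d.1, IntermediateField.subset_adjoin Kbar _ ⟨d, rfl⟩⟩ :
      ↥(IntermediateField.adjoin Kbar (asmAb_gens (M * l))))
      = algebraMap (Algebra.adjoin Kbar (asmAb_gens (M * l))) _
          ⟨JJ d.1, Algebra.subset_adjoin ⟨d, rfl⟩⟩ := rfl
  rw [h]
  unfold al47_w0
  rw [IsFractionRing.liftAlgHom_apply, IsFractionRing.lift_algebraMap, ← al47_f_X]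
  have h2 := al47_psi_f M l hcop (MvPolynomial.X d)
  unfold al47_theta at h2
  rw [MvPolynomial.aeval_X] at h2
  exact h2

theorem al47_w0_mem (hcop : Nat.Coprime l M) (x : LaurentSeries Kbar)
    (hx : x ∈ IntermediateField.adjoin Kbar (asmAb_gens (M * l))) :
    al47_w0 M l hcop ⟨x, hx⟩ ∈ IntermediateField.adjoin Kbar (asmAb_gens (M * l)) := by
  induction hx using IntermediateField.adjoin_induction with
  | mem y hy =>
    obtain ⟨d, rfl⟩ := hy
    rw [al47_w0_gen]
    exact IntermediateField.subset_adjoin Kbar _ ⟨al47_sigma M l d, rfl⟩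
  | algebraMap c =>
    have h : (⟨algebraMap Kbar (LaurentSeries Kbar) c, IntermediateField.algebraMap_mem _ c⟩ :
        ↥(IntermediateField.adjoin Kbar (asmAb_gens (M * l)))) = algebraMap Kbar _ c := rfl
    rw [h, AlgHom.commutes]
    exact IntermediateField.algebraMap_mem _ c
  | add x y hx hy ihx ihy =>
    have h : (⟨x + y, add_mem hx hy⟩ : ↥(IntermediateField.adjoin Kbar (asmAb_gens (M * l))))
        = ⟨x, hx⟩ + ⟨y, hy⟩ := rfl
    have e : al47_w0 M l hcop (⟨x, hx⟩ + ⟨y, hy⟩)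
        = al47_w0 M l hcop ⟨x, hx⟩ + al47_w0 M l hcop ⟨y, hy⟩ :=
      (al47_w0 M l hcop).toRingHom.map_add _ _
    rw [h, e]
    exact add_mem ihx ihy
  | inv x hx ihx =>
    have h : (⟨x⁻¹, inv_mem hx⟩ : ↥(IntermediateField.adjoin Kbar (asmAb_gens (M * l))))
        = (⟨x, hx⟩ : ↥(IntermediateField.adjoin Kbar (asmAb_gens (M * l))))⁻¹ := rfl
    have e : al47_w0 M l hcop (⟨x, hx⟩ : ↥(IntermediateField.adjoin Kbar (asmAb_gens (M * l))))⁻¹
        = (al47_w0 M l hcop ⟨x, hx⟩)⁻¹ :=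
      map_inv₀ (al47_w0 M l hcop).toRingHom _
    rw [h, e]
    exact inv_mem ihx
  | mul x y hx hy ihx ihy =>
    have h : (⟨x * y, mul_mem hx hy⟩ : ↥(IntermediateField.adjoin Kbar (asmAb_gens (M * l))))
        = ⟨x, hx⟩ * ⟨y, hy⟩ := rfl
    have e : al47_w0 M l hcop (⟨x, hx⟩ * ⟨y, hy⟩)
        = al47_w0 M l hcop ⟨x, hx⟩ * al47_w0 M l hcop ⟨y, hy⟩ :=
      (al47_w0 M l hcop).toRingHom.map_mul _ _
    rw [h, e]
    exact mul_mem ihx ihy

/-- The swap as an endomorphism of `ℚ̄(JJ d : d ∣ M l)`. -/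
noncomputable def al47_w1 (hcop : Nat.Coprime l M) :
    ↥(IntermediateField.adjoin Kbar (asmAb_gens (M * l))) →ₐ[Kbar]
      ↥(IntermediateField.adjoin Kbar (asmAb_gens (M * l))) where
  toFun x := ⟨al47_w0 M l hcop x, al47_w0_mem M l hcop x.1 x.2⟩
  map_one' := Subtype.ext (map_one (al47_w0 M l hcop))
  map_mul' x y := Subtype.ext (map_mul (al47_w0 M l hcop) x y)
  map_zero' := Subtype.ext (map_zero (al47_w0 M l hcop))
  map_add' x y := Subtype.ext (map_add (al47_w0 M l hcop) x y)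
  commutes' c := Subtype.ext ((al47_w0 M l hcop).commutes c)

theorem al47_w1_coe (hcop : Nat.Coprime l M)
    (x : ↥(IntermediateField.adjoin Kbar (asmAb_gens (M * l)))) :
    ((al47_w1 M l hcop x : ↥(IntermediateField.adjoin Kbar (asmAb_gens (M * l)))) :
      LaurentSeries Kbar) = al47_w0 M l hcop x := rfl

theorem al47_w1_gen (hcop : Nat.Coprime l M) (d : (M * l).divisors) :
    al47_w1 M l hcop ⟨JJ d.1, IntermediateField.subset_adjoin Kbar _ ⟨d, rfl⟩⟩
      = ⟨JJ (al47_sigma M l d).1,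
          IntermediateField.subset_adjoin Kbar _ ⟨al47_sigma M l d, rfl⟩⟩ :=
  Subtype.ext (al47_w0_gen M l hcop d)

theorem al47_w1_w1 (hcop : Nat.Coprime l M) :
    (al47_w1 M l hcop).comp (al47_w1 M l hcop) = AlgHom.id Kbar _ := by
  apply IntermediateField.adjoin_algHom_ext
  rintro x ⟨d, rfl⟩
  rw [AlgHom.comp_apply, al47_w1_gen, al47_w1_gen, AlgHom.id_apply]
  apply Subtype.ext
  show JJ (al47_sigma M l (al47_sigma M l d)).1 = JJ d.1
  rw [al47_sigma_sigma M l hcop]

/-- The Atkin–Lehner involution of `ℚ̄(JJ d : d ∣ M l)`. -/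
noncomputable def al47_wE (hcop : Nat.Coprime l M) :
    ↥(IntermediateField.adjoin Kbar (asmAb_gens (M * l))) ≃ₐ[Kbar]
      ↥(IntermediateField.adjoin Kbar (asmAb_gens (M * l))) :=
  AlgEquiv.ofAlgHom (al47_w1 M l hcop) (al47_w1 M l hcop) (al47_w1_w1 M l hcop)
    (al47_w1_w1 M l hcop)

end Rel

/-! ### The involution on the Prelude's formal function field -/

theorem al47_qExpand_JJ (e l : ℕ) [NeZero e] [NeZero l] :
    qExpand Kbar l (JJ e) = JJ (e * l) := by
  have : NeZero (e * l) := ⟨Nat.mul_ne_zero (NeZero.ne e) (NeZero.ne l)⟩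
  have : NeZero (l * e) := ⟨Nat.mul_ne_zero (NeZero.ne l) (NeZero.ne e)⟩
  rw [JJ_of_neZero e, JJ_of_neZero (e * l), coeffEmb, ← ModularCurve.coeffMap_qExpand,
    qExpand_qExpand, qExpand_congr (mul_comm l e)]

/-- **Atkin–Lehner involution.** For coprime `M`, `l` there is a `ℚ̄`-automorphism `w` of the
formal function field of level `M l` exchanging the two degeneracy maps `α` (inclusion) and
`β` (`q ↦ q^l`) from level `M`. -/
theorem al47_exists (M l : ℕ) [NeZero M] [NeZero l] (hcop : Nat.Coprime l M) :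
    ∃ w : ↥(modularFunctionFieldBar (M * l)) ≃ₐ[AlgebraicClosure ℚ]
        ↥(modularFunctionFieldBar (M * l)),
      (∀ x, w (heckeAlphaBar (AlgebraicClosure ℚ) M l x)
        = heckeBetaBar (AlgebraicClosure ℚ) M l x) ∧
      (∀ x, w (heckeBetaBar (AlgebraicClosure ℚ) M l x)
        = heckeAlphaBar (AlgebraicClosure ℚ) M l x) ∧
      (∀ x, w (w x) = x) := by
  have : NeZero (M * l) := ⟨Nat.mul_ne_zero (NeZero.ne M) (NeZero.ne l)⟩
  have hE := asmAb_eq_adjoin (M * l)
  let w : ↥(modularFunctionFieldBar (M * l)) ≃ₐ[Kbar] ↥(modularFunctionFieldBar (M * l)) :=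
    ((IntermediateField.equivOfEq hE).trans (al47_wE M l hcop)).trans
      (IntermediateField.equivOfEq hE).symm
  have hcoe : ∀ x : ↥(modularFunctionFieldBar (M * l)),
      ((w x : ↥(modularFunctionFieldBar (M * l))) : LaurentSeries Kbar)
        = al47_w0 M l hcop (IntermediateField.equivOfEq hE x) := fun x => rfl
  have hww : ∀ x, w (w x) = x := by
    intro x
    have h1 := AlgHom.congr_fun (al47_w1_w1 M l hcop) (IntermediateField.equivOfEq hE x)
    apply Subtype.ext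
    rw [hcoe]
    have h2 : IntermediateField.equivOfEq hE (w x)
        = al47_w1 M l hcop (IntermediateField.equivOfEq hE x) := Subtype.ext (hcoe x)
    rw [h2, ← al47_w1_coe]
    rw [AlgHom.comp_apply] at h1
    rw [h1]
    rfl
  have h1 : (w : ↥(modularFunctionFieldBar (M * l)) →ₐ[Kbar] ↥(modularFunctionFieldBar (M * l))).comp
      (heckeAlphaBar Kbar M l) = heckeBetaBar Kbar M l := by
    apply IntermediateField.algHom_ext_of_eq_adjoin Kbar (asmAb_eq_adjoin M)
    rintro x ⟨e, rfl⟩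
    have he : e.1 ∣ M := Nat.dvd_of_mem_divisors e.2
    have he0 : e.1 ≠ 0 := fun h => NeZero.ne M (by simpa [h] using he)
    have : NeZero e.1 := ⟨he0⟩
    have hd : e.1 ∈ (M * l).divisors :=
      Nat.mem_divisors.mpr ⟨he.trans (dvd_mul_right M l), NeZero.ne (M * l)⟩
    apply Subtype.ext
    rw [AlgHom.comp_apply]
    show ((w _ : ↥(modularFunctionFieldBar (M * l))) : LaurentSeries Kbar) = _
    rw [hcoe, coe_heckeBetaBar]
    show al47_w0 M l hcop ⟨JJ e.1, _⟩ = qExpand Kbar l (JJ e.1)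
    rw [al47_qExpand_JJ, ← al47_sigmaNat_of_dvd hcop he]
    exact al47_w0_gen M l hcop ⟨e.1, hd⟩
  refine ⟨w, fun x => AlgHom.congr_fun h1 x, fun x => ?_, hww⟩
  rw [← AlgHom.congr_fun h1 x]
  exact hww _



/-- `al47_exists` in the two-conjunct shape of the S37 blueprint (row AL). -/
theorem al47_al_exists (M l : ℕ) [NeZero M] [NeZero l] (hcop : Nat.Coprime l M) :
    ∃ w : ↥(modularFunctionFieldBar (M * l)) ≃ₐ[AlgebraicClosure ℚ]
        ↥(modularFunctionFieldBar (M * l)),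
      (∀ x, w (heckeAlphaBar (AlgebraicClosure ℚ) M l x)
        = heckeBetaBar (AlgebraicClosure ℚ) M l x) ∧
      (∀ x, w (heckeBetaBar (AlgebraicClosure ℚ) M l x)
        = heckeAlphaBar (AlgebraicClosure ℚ) M l x) := by
  obtain ⟨w, hα, hβ, -⟩ := al47_exists M l hcop
  exact ⟨w, hα, hβ⟩

/-- The Atkin–Lehner involution as an isomorphism of `F(M)`-algebras from `F(M l)` with the
structure along `β` to `F(M l)` with the structure along `α`. -/
theorem al47_exists_algEquiv (M l : ℕ) [NeZero M] [NeZero l] (hcop : Nat.Coprime l M) :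
    ∃ e : @AlgEquiv ↥(modularFunctionFieldBar M) ↥(modularFunctionFieldBar (M * l))
        ↥(modularFunctionFieldBar (M * l)) _ _ _
        (algebraAlong (heckeBetaBar (AlgebraicClosure ℚ) M l))
        (algebraAlong (heckeAlphaBar (AlgebraicClosure ℚ) M l)),
      (∀ x, e (heckeAlphaBar (AlgebraicClosure ℚ) M l x)
        = heckeBetaBar (AlgebraicClosure ℚ) M l x) ∧
      (∀ x, e (heckeBetaBar (AlgebraicClosure ℚ) M l x)
        = heckeAlphaBar (AlgebraicClosure ℚ) M l x) := by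
  obtain ⟨w, hα, hβ, -⟩ := al47_exists M l hcop
  exact ⟨@AlgEquiv.ofRingEquiv ↥(modularFunctionFieldBar M) ↥(modularFunctionFieldBar (M * l))
    ↥(modularFunctionFieldBar (M * l)) _ _ _
    (algebraAlong (heckeBetaBar (AlgebraicClosure ℚ) M l))
    (algebraAlong (heckeAlphaBar (AlgebraicClosure ℚ) M l)) w.toRingEquiv (fun c => hβ c),
    hα, hβ⟩

/-- The norm of `α f` along `β` equals the norm of `β f` along `α`. -/
theorem al47_norm_symm (M l : ℕ) [NeZero M] [NeZero l] (hcop : Nat.Coprime l M)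
    (f : ↥(modularFunctionFieldBar M)) :
    @Algebra.norm ↥(modularFunctionFieldBar M) ↥(modularFunctionFieldBar (M * l)) _ _
        (algebraAlong (heckeBetaBar (AlgebraicClosure ℚ) M l))
        (heckeAlphaBar (AlgebraicClosure ℚ) M l f)
      = @Algebra.norm ↥(modularFunctionFieldBar M) ↥(modularFunctionFieldBar (M * l)) _ _
        (algebraAlong (heckeAlphaBar (AlgebraicClosure ℚ) M l))
        (heckeBetaBar (AlgebraicClosure ℚ) M l f) := by
  obtain ⟨e, hα, -⟩ := al47_exists_algEquiv M l hcop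
  rw [← hα f]
  exact (@Algebra.norm_eq_of_algEquiv _ _ _ _ _ (algebraAlong (heckeBetaBar (AlgebraicClosure ℚ) M l))
    _ (algebraAlong (heckeAlphaBar (AlgebraicClosure ℚ) M l)) e
    (heckeAlphaBar (AlgebraicClosure ℚ) M l f)).symm

/-- The degrees of `F(M l)` along `β` and along `α` agree. -/
theorem al47_finrank_symm (M l : ℕ) [NeZero M] [NeZero l] (hcop : Nat.Coprime l M) :
    @Module.finrank ↥(modularFunctionFieldBar M) ↥(modularFunctionFieldBar (M * l)) _ _
        (algebraAlong (heckeBetaBar (AlgebraicClosure ℚ) M l)).toModule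
      = @Module.finrank ↥(modularFunctionFieldBar M) ↥(modularFunctionFieldBar (M * l)) _ _
        (algebraAlong (heckeAlphaBar (AlgebraicClosure ℚ) M l)).toModule := by
  obtain ⟨e, -, -⟩ := al47_exists_algEquiv M l hcop
  exact @LinearEquiv.finrank_eq _ _ _ _ _
    (algebraAlong (heckeBetaBar (AlgebraicClosure ℚ) M l)).toModule _
    (algebraAlong (heckeAlphaBar (AlgebraicClosure ℚ) M l)).toModule
    (@AlgEquiv.toLinearEquiv _ _ _ _ _ _ (algebraAlong (heckeBetaBar (AlgebraicClosure ℚ) M l))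
      (algebraAlong (heckeAlphaBar (AlgebraicClosure ℚ) M l)) e)

end Fermat.Agent.S37
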