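import Fermat.Agent.S18.NormDescent
import Fermat.Prelude.Def_ModularCurve_HeckeOperator

/-!
# S37, row NC-NormConj (helper73)

`nc73_qTwist c` : the substitution `q ↦ c q` on Laurent series (`c` a unit).
`nc73_norm` : for `l` prime, `l ∤ M`, `ζ` a primitive `l`-th root of unity and `f ∈ F(M)`,
the norm of `α f` along `β : F(M) → F(M l)` satisfies
`N(q^l) = f(q^(l^2)) * ∏_{i < l} f(ζ^i q)`, given an Atkin–Lehner automorphism `w` of `F(M l)`
swapping `α` and `β`.
-/

set_option autoImplicit false

open ModularCurve AlgebraicCurve IntermediateField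

namespace Fermat.Agent.S37

section Twist

variable {R : Type*} [CommRing R]

/-- The coefficient function of `f(c q)`. -/
noncomputable def nc73_qTwistFun (c : Rˣ) (x : LaurentSeries R) : LaurentSeries R where
  coeff n := ((c ^ n : Rˣ) : R) * x.coeff n
  isPWO_support' := x.isPWO_support.mono (fun n hn => by
    simp only [Function.mem_support, ne_eq] at hn
    simp only [HahnSeries.mem_support, ne_eq]
    exact fun h => hn (by rw [h, mul_zero]))

theorem nc73_qTwistFun_coeff (c : Rˣ) (x : LaurentSeries R) (n : ℤ) :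
    (nc73_qTwistFun c x).coeff n = ((c ^ n : Rˣ) : R) * x.coeff n := rfl

theorem nc73_qTwistFun_support (c : Rˣ) (x : LaurentSeries R) :
    (nc73_qTwistFun c x).support = x.support := by
  ext n
  simp only [HahnSeries.mem_support, nc73_qTwistFun_coeff, ne_eq]
  exact not_congr (Units.mul_right_eq_zero _)

/-- The substitution `q ↦ c q` on Laurent series, `c` a unit: the `n`-th coefficient is
multiplied by `c ^ n`. -/
noncomputable def nc73_qTwist (c : Rˣ) : LaurentSeries R →+* LaurentSeries R where
  toFun := nc73_qTwistFun c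
  map_zero' := by
    ext n
    simp [nc73_qTwistFun_coeff]
  map_one' := by
    ext n
    rw [nc73_qTwistFun_coeff, HahnSeries.coeff_one]
    split_ifs with h
    · subst h
      simp
    · simp
  map_add' x y := by
    ext n
    simp [nc73_qTwistFun_coeff, mul_add]
  map_mul' x y := by
    ext n
    rw [nc73_qTwistFun_coeff, HahnSeries.coeff_mul, HahnSeries.coeff_mul, Finset.mul_sum]
    have hset : Finset.antidiagonal (nc73_qTwistFun c x).isPWO_support
        (nc73_qTwistFun c y).isPWO_support n
        = Finset.antidiagonal x.isPWO_support y.isPWO_support n := by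
      ext ij
      simp only [Finset.mem_antidiagonal, nc73_qTwistFun_support]
    rw [hset]
    refine Finset.sum_congr rfl (fun ij hij => ?_)
    rw [Finset.mem_antidiagonal] at hij
    rw [nc73_qTwistFun_coeff, nc73_qTwistFun_coeff, ← hij.2.2, zpow_add, Units.val_mul]
    ring

@[simp]
theorem nc73_qTwist_coeff (c : Rˣ) (x : LaurentSeries R) (n : ℤ) :
    (nc73_qTwist c x).coeff n = ((c ^ n : Rˣ) : R) * x.coeff n := rfl

/-- `q ↦ c q` fixes series in `q ^ l` when `c ^ l = 1`. -/
theorem nc73_qTwist_qExpand (c : Rˣ) (l : ℕ) [NeZero l] (hc : c ^ l = 1) (x : LaurentSeries R) :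
    nc73_qTwist c (qExpand R l x) = qExpand R l x := by
  ext n
  rw [nc73_qTwist_coeff]
  by_cases hn : (l : ℤ) ∣ n
  · obtain ⟨k, rfl⟩ := hn
    rw [zpow_mul, zpow_natCast, hc, one_zpow, Units.val_one, one_mul]
  · rw [qExpand_coeff_of_not_dvd l x hn, mul_zero]

theorem nc73_qTwist_single_zero (c : Rˣ) (r : R) :
    nc73_qTwist c (HahnSeries.single 0 r) = HahnSeries.single 0 r := by
  ext n
  rw [nc73_qTwist_coeff]
  by_cases hn : n = 0
  · subst hn
    simp
  · rw [HahnSeries.coeff_single_of_ne hn, mul_zero]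

end Twist

section Degree

open Fermat.Agent.S24 Fermat.Agent.S18

variable (M l : ℕ) [NeZero M] [NeZero l]

/-- `[F(M l) : F(M)] = l + 1` (relative degree inside `ℚ̄((q))`) for a prime `l ∤ M`. -/
theorem nc73_relfinrank (hl : l.Prime) (hM : ¬ l ∣ M) :
    (modularFunctionFieldBar M).relfinrank (modularFunctionFieldBar (M * l)) = l + 1 := by
  have h1 := nd38_relfinrank (N := M) (N' := M * l) (dvd_mul_right M l)
  have hcop : Nat.Coprime M l := ((Nat.Prime.coprime_iff_not_dvd hl).mpr hM).symm
  rw [Fermat.Agent.Lib.G0C.dedekindPsi_mul hcop] at h1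
  have h2 := Fermat.Agent.Lib.G0C.dedekindPsi_prime_pow hl (e := 1) one_pos
  have h3 : dedekindPsi l = l + 1 := by simpa using h2
  rw [h3] at h1
  exact Nat.eq_of_mul_eq_mul_left (nd38_psi_pos M) h1

/-- The degree of `F(M l)` over `F(M)` along the inclusion `α`. -/
theorem nc73_finrank_alpha (hl : l.Prime) (hM : ¬ l ∣ M) :
    @Module.finrank (modularFunctionFieldBar M) (modularFunctionFieldBar (M * l)) _ _
      (algebraAlong (heckeAlphaBar Kbar M l)).toModule = l + 1 := by
  have hle : modularFunctionFieldBar M ≤ modularFunctionFieldBar (M * l) :=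
    nd38_bar_le (dvd_mul_right M l)
  rw [← nc73_relfinrank M l hl hM, IntermediateField.relfinrank_eq_finrank_of_le hle]
  let _ := algebraAlong (heckeAlphaBar Kbar M l)
  let j : ↥(modularFunctionFieldBar (M * l)) ≃+* ↥(IntermediateField.extendScalars hle) :=
    { toFun := fun x => ⟨x.1, (IntermediateField.mem_extendScalars hle).mpr x.2⟩
      invFun := fun x => ⟨x.1, (IntermediateField.mem_extendScalars hle).mp x.2⟩
      left_inv := fun _ => rfl
      right_inv := fun _ => rfl
      map_mul' := fun _ _ => rfl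
      map_add' := fun _ _ => rfl }
  exact Algebra.finrank_eq_of_equiv_equiv (RingEquiv.refl _) j (RingHom.ext fun x => rfl)

/-- The degree of `F(M l)` over `F(M)` along `β : f(q) ↦ f(q^l)`, given an Atkin–Lehner
automorphism. -/
theorem nc73_finrank_beta (hl : l.Prime) (hM : ¬ l ∣ M)
    (w : modularFunctionFieldBar (M * l) ≃ₐ[Kbar] modularFunctionFieldBar (M * l))
    (hw : ∀ x, w (heckeAlphaBar Kbar M l x) = heckeBetaBar Kbar M l x) :
    @Module.finrank (modularFunctionFieldBar M) (modularFunctionFieldBar (M * l)) _ _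
      (algebraAlong (heckeBetaBar Kbar M l)).toModule = l + 1 := by
  rw [← nc73_finrank_alpha M l hl hM]
  symm
  exact @Algebra.finrank_eq_of_equiv_equiv _ _ _ _ (algebraAlong (heckeAlphaBar Kbar M l))
    _ _ _ _ (algebraAlong (heckeBetaBar Kbar M l)) (RingEquiv.refl _) w.toRingEquiv
    (RingHom.ext fun x => (hw x).symm)

end Degree

section Norm

open Fermat.Agent.S24 Fermat.Agent.S18

variable (M l : ℕ) [NeZero M] [NeZero l]

theorem nc73_coeff_JJ_one : (JJ 1).coeff (-1) = 1 := by
  rw [asmAb_JJ_one, coeffEmb_coeff, coeff_jq_neg_one, map_one]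

/-- `F(M l)` as an algebra over `F(M)` along `β : f(q) ↦ f(q^l)`. -/
@[reducible] noncomputable def nc73_algB :
    Algebra ↥(modularFunctionFieldBar M) ↥(modularFunctionFieldBar (M * l)) :=
  algebraAlong (heckeBetaBar Kbar M l)

/-- The algebraic closure of `ℚ̄((q))` as an algebra over `F(M)` along `β`. -/
@[reducible] noncomputable def nc73_algE :
    Algebra ↥(modularFunctionFieldBar M) (AlgebraicClosure (LaurentSeries Kbar)) :=
  ((algebraMap (LaurentSeries Kbar) (AlgebraicClosure (LaurentSeries Kbar))).comp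
    ((modularFunctionFieldBar (M * l)).val.toRingHom.comp
      (heckeBetaBar Kbar M l).toRingHom)).toAlgebra

omit [NeZero M] in
theorem nc73_algE_apply (x : modularFunctionFieldBar M) :
    @algebraMap ↥(modularFunctionFieldBar M) (AlgebraicClosure (LaurentSeries Kbar)) _ _
      (nc73_algE M l) x
      = algebraMap (LaurentSeries Kbar) (AlgebraicClosure (LaurentSeries Kbar))
        (qExpand Kbar l (x : LaurentSeries Kbar)) := rfl

/-- The twisted embedding `f(q) ↦ f(c q)`, `c ^ l = 1`, of `F(M l)` over `β (F(M))`. -/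
noncomputable def nc73_theta (c : Kbarˣ) (hc : c ^ l = 1) :
    @AlgHom ↥(modularFunctionFieldBar M) ↥(modularFunctionFieldBar (M * l))
      (AlgebraicClosure (LaurentSeries Kbar)) _ _ _ (nc73_algB M l) (nc73_algE M l) :=
  letI := nc73_algB M l
  letI := nc73_algE M l
  { toRingHom := (algebraMap (LaurentSeries Kbar) (AlgebraicClosure (LaurentSeries Kbar))).comp
      ((nc73_qTwist c).comp (modularFunctionFieldBar (M * l)).val.toRingHom)
    commutes' := fun r => by
      show algebraMap (LaurentSeries Kbar) (AlgebraicClosure (LaurentSeries Kbar))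
          (nc73_qTwist c (qExpand Kbar l (r : LaurentSeries Kbar)))
        = algebraMap (LaurentSeries Kbar) (AlgebraicClosure (LaurentSeries Kbar))
          (qExpand Kbar l (r : LaurentSeries Kbar))
      rw [nc73_qTwist_qExpand c l hc] }

omit [NeZero M] in
theorem nc73_theta_apply (c : Kbarˣ) (hc : c ^ l = 1) (x : modularFunctionFieldBar (M * l)) :
    nc73_theta M l c hc x
      = algebraMap (LaurentSeries Kbar) (AlgebraicClosure (LaurentSeries Kbar))
        (nc73_qTwist c (x : LaurentSeries Kbar)) := rfl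

/-- The Atkin–Lehner embedding `qExpand l ∘ w` of `F(M l)` over `β (F(M))`. -/
noncomputable def nc73_eps
    (w : modularFunctionFieldBar (M * l) ≃ₐ[Kbar] modularFunctionFieldBar (M * l))
    (hw : ∀ x, w (heckeBetaBar Kbar M l x) = heckeAlphaBar Kbar M l x) :
    @AlgHom ↥(modularFunctionFieldBar M) ↥(modularFunctionFieldBar (M * l))
      (AlgebraicClosure (LaurentSeries Kbar)) _ _ _ (nc73_algB M l) (nc73_algE M l) :=
  letI := nc73_algB M l
  letI := nc73_algE M l
  { toRingHom := (algebraMap (LaurentSeries Kbar) (AlgebraicClosure (LaurentSeries Kbar))).comp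
      ((qExpand Kbar l).comp ((modularFunctionFieldBar (M * l)).val.toRingHom.comp
        w.toRingEquiv.toRingHom))
    commutes' := fun r => by
      show algebraMap (LaurentSeries Kbar) (AlgebraicClosure (LaurentSeries Kbar))
          (qExpand Kbar l ((w (heckeBetaBar Kbar M l r) :
            modularFunctionFieldBar (M * l)) : LaurentSeries Kbar))
        = algebraMap (LaurentSeries Kbar) (AlgebraicClosure (LaurentSeries Kbar))
          (qExpand Kbar l (r : LaurentSeries Kbar))
      rw [hw, coe_heckeAlphaBar] }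

theorem nc73_eps_apply
    (w : modularFunctionFieldBar (M * l) ≃ₐ[Kbar] modularFunctionFieldBar (M * l))
    (hw : ∀ x, w (heckeBetaBar Kbar M l x) = heckeAlphaBar Kbar M l x)
    (x : modularFunctionFieldBar (M * l)) :
    nc73_eps M l w hw x
      = algebraMap (LaurentSeries Kbar) (AlgebraicClosure (LaurentSeries Kbar))
        (qExpand Kbar l ((w x : modularFunctionFieldBar (M * l)) : LaurentSeries Kbar)) := rfl

theorem nc73_theta_alpha (c : Kbarˣ) (hc : c ^ l = 1) (x : modularFunctionFieldBar M) :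
    nc73_theta M l c hc (heckeAlphaBar Kbar M l x)
      = algebraMap (LaurentSeries Kbar) (AlgebraicClosure (LaurentSeries Kbar))
        (nc73_qTwist c (x : LaurentSeries Kbar)) := by
  rw [nc73_theta_apply, coe_heckeAlphaBar]

theorem nc73_eps_alpha
    (w : modularFunctionFieldBar (M * l) ≃ₐ[Kbar] modularFunctionFieldBar (M * l))
    (hw1 : ∀ x, w (heckeAlphaBar Kbar M l x) = heckeBetaBar Kbar M l x)
    (hw2 : ∀ x, w (heckeBetaBar Kbar M l x) = heckeAlphaBar Kbar M l x)
    (x : modularFunctionFieldBar M) :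
    nc73_eps M l w hw2 (heckeAlphaBar Kbar M l x)
      = algebraMap (LaurentSeries Kbar) (AlgebraicClosure (LaurentSeries Kbar))
        (qExpand Kbar (l * l) (x : LaurentSeries Kbar)) := by
  rw [nc73_eps_apply, hw1, coe_heckeBetaBar, qExpand_qExpand]

/-- The family of `l + 1` embeddings. -/
noncomputable def nc73_emb (ζ : Kbarˣ) (hζ : ζ ^ l = 1)
    (w : modularFunctionFieldBar (M * l) ≃ₐ[Kbar] modularFunctionFieldBar (M * l))
    (hw : ∀ x, w (heckeBetaBar Kbar M l x) = heckeAlphaBar Kbar M l x) :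
    Option (Fin l) → @AlgHom ↥(modularFunctionFieldBar M) ↥(modularFunctionFieldBar (M * l))
      (AlgebraicClosure (LaurentSeries Kbar)) _ _ _ (nc73_algB M l) (nc73_algE M l) :=
  fun o => o.elim (nc73_eps M l w hw)
    (fun i => nc73_theta M l (ζ ^ (i : ℕ))
      (by rw [← pow_mul, mul_comm, pow_mul, hζ, one_pow]))

theorem nc73_emb_injective (hl : l.Prime) (ζ : Kbarˣ) (hζ : IsPrimitiveRoot ζ l)
    (w : modularFunctionFieldBar (M * l) ≃ₐ[Kbar] modularFunctionFieldBar (M * l))
    (hw1 : ∀ x, w (heckeAlphaBar Kbar M l x) = heckeBetaBar Kbar M l x)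
    (hw2 : ∀ x, w (heckeBetaBar Kbar M l x) = heckeAlphaBar Kbar M l x) :
    Function.Injective (nc73_emb M l ζ hζ.pow_eq_one w hw2) := by
  have hιinj : Function.Injective
      (algebraMap (LaurentSeries Kbar) (AlgebraicClosure (LaurentSeries Kbar))) :=
    RingHom.injective _
  have hl2 : ¬ (((l * l : ℕ) : ℤ)) ∣ (-1 : ℤ) := by
    intro h
    have h1 : ((l * l : ℕ) : ℤ) ∣ 1 := (dvd_neg).mp h
    have h2 : l * l ∣ 1 := by exact_mod_cast h1
    have h3 : l * l = 1 := Nat.dvd_one.mp h2
    have h4 := hl.two_le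
    nlinarith
  have hj : ((⟨JJ 1, asmAb_JJ_mem M 1 (one_dvd M)⟩ : modularFunctionFieldBar M) :
      LaurentSeries Kbar).coeff (-1) = 1 := nc73_coeff_JJ_one
  have hne : ∀ i : Fin l, nc73_emb M l ζ hζ.pow_eq_one w hw2 none
      ≠ nc73_emb M l ζ hζ.pow_eq_one w hw2 (some i) := by
    intro i h
    have h1 := DFunLike.congr_fun h
      (heckeAlphaBar Kbar M l ⟨JJ 1, asmAb_JJ_mem M 1 (one_dvd M)⟩)
    simp only [nc73_emb, Option.elim_none, Option.elim_some] at h1
    rw [nc73_eps_alpha M l w hw1 hw2, nc73_theta_alpha] at h1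
    have h2 := congrArg (fun y => HahnSeries.coeff y (-1)) (hιinj h1)
    simp only [nc73_qTwist_coeff] at h2
    rw [qExpand_coeff_of_not_dvd (l * l) _ hl2, hj, mul_one] at h2
    exact (Units.ne_zero _) h2.symm
  rintro (_ | i) (_ | i') h
  · rfl
  · exact absurd h (hne i')
  · exact absurd h.symm (hne i)
  · have h1 := DFunLike.congr_fun h
      (heckeAlphaBar Kbar M l ⟨JJ 1, asmAb_JJ_mem M 1 (one_dvd M)⟩)
    simp only [nc73_emb, Option.elim_some] at h1
    rw [nc73_theta_alpha, nc73_theta_alpha] at h1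
    have h2 := congrArg (fun y => HahnSeries.coeff y (-1)) (hιinj h1)
    simp only [nc73_qTwist_coeff] at h2
    rw [hj, mul_one, mul_one] at h2
    have h4 : (ζ ^ (i : ℕ)) ^ (-1 : ℤ) = (ζ ^ (i' : ℕ)) ^ (-1 : ℤ) := Units.ext h2
    have h5 : ζ ^ (i : ℕ) = ζ ^ (i' : ℕ) := by
      simpa using h4
    exact congrArg some (Fin.ext (hζ.pow_inj i.2 i'.2 h5))

/-- Internal form of `nc73_norm`, inside the algebraic closure of `ℚ̄((q))`. -/
theorem nc73_norm_aux (hl : l.Prime) (hM : ¬ l ∣ M) (ζ : Kbarˣ) (hζ : IsPrimitiveRoot ζ l)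
    (w : modularFunctionFieldBar (M * l) ≃ₐ[Kbar] modularFunctionFieldBar (M * l))
    (hw1 : ∀ x, w (heckeAlphaBar Kbar M l x) = heckeBetaBar Kbar M l x)
    (hw2 : ∀ x, w (heckeBetaBar Kbar M l x) = heckeAlphaBar Kbar M l x)
    (f : modularFunctionFieldBar M) :
    @algebraMap ↥(modularFunctionFieldBar M) (AlgebraicClosure (LaurentSeries Kbar)) _ _
        (nc73_algE M l)
        (@Algebra.norm ↥(modularFunctionFieldBar M) ↥(modularFunctionFieldBar (M * l)) _ _
          (nc73_algB M l) (heckeAlphaBar Kbar M l f))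
      = algebraMap (LaurentSeries Kbar) (AlgebraicClosure (LaurentSeries Kbar))
          (qExpand Kbar (l * l) (f : LaurentSeries Kbar))
        * ∏ i ∈ Finset.range l,
          algebraMap (LaurentSeries Kbar) (AlgebraicClosure (LaurentSeries Kbar))
            (nc73_qTwist (ζ ^ i) (f : LaurentSeries Kbar)) := by
  let _ := nc73_algB M l
  let _ := nc73_algE M l
  have hfin : Module.finrank (modularFunctionFieldBar M) (modularFunctionFieldBar (M * l))
      = l + 1 := nc73_finrank_beta M l hl hM w hw1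
  have : FiniteDimensional (modularFunctionFieldBar M) (modularFunctionFieldBar (M * l)) :=
    Module.finite_of_finrank_pos (by omega)
  have : CharZero (modularFunctionFieldBar M) :=
    charZero_of_injective_algebraMap (algebraMap ℚ (modularFunctionFieldBar M)).injective
  have hcard : Fintype.card (Option (Fin l))
      = Fintype.card (↥(modularFunctionFieldBar (M * l)) →ₐ[↥(modularFunctionFieldBar M)]
        AlgebraicClosure (LaurentSeries Kbar)) := by
    rw [AlgHom.card, hfin, Fintype.card_option, Fintype.card_fin]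
  have hbij : Function.Bijective (nc73_emb M l ζ hζ.pow_eq_one w hw2) :=
    (Fintype.bijective_iff_injective_and_card _).mpr
      ⟨nc73_emb_injective M l hl ζ hζ w hw1 hw2, hcard⟩
  have hnorm := Algebra.norm_eq_prod_embeddings (K := ↥(modularFunctionFieldBar M))
    (L := ↥(modularFunctionFieldBar (M * l))) (E := AlgebraicClosure (LaurentSeries Kbar))
    (heckeAlphaBar Kbar M l f)
  rw [← Fintype.prod_bijective (nc73_emb M l ζ hζ.pow_eq_one w hw2) hbij
    (fun o => nc73_emb M l ζ hζ.pow_eq_one w hw2 o (heckeAlphaBar Kbar M l f)) _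
    (fun _ => rfl), Fintype.prod_option] at hnorm
  rw [hnorm]
  have h1 : nc73_emb M l ζ hζ.pow_eq_one w hw2 none (heckeAlphaBar Kbar M l f)
      = algebraMap (LaurentSeries Kbar) (AlgebraicClosure (LaurentSeries Kbar))
        (qExpand Kbar (l * l) (f : LaurentSeries Kbar)) :=
    nc73_eps_alpha M l w hw1 hw2 f
  have h2 : ∀ i : Fin l, nc73_emb M l ζ hζ.pow_eq_one w hw2 (some i) (heckeAlphaBar Kbar M l f)
      = algebraMap (LaurentSeries Kbar) (AlgebraicClosure (LaurentSeries Kbar))
        (nc73_qTwist (ζ ^ (i : ℕ)) (f : LaurentSeries Kbar)) :=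
    fun i => by
      simp only [nc73_emb, Option.elim_some]
      rw [nc73_theta_alpha]
  rw [h1, Finset.prod_congr rfl (fun i _ => h2 i),
    Fin.prod_univ_eq_prod_range (fun i => algebraMap (LaurentSeries Kbar)
      (AlgebraicClosure (LaurentSeries Kbar)) (nc73_qTwist (ζ ^ i) (f : LaurentSeries Kbar))) l]

/-- **Norm along `β` as a product over conjugates (row NC).**  For a prime `l ∤ M`, a primitive
`l`-th root of unity `ζ` and an Atkin–Lehner automorphism `w` of `F(M l)` swapping `α` and `β`,
the norm `N` of `α f` along `β` satisfies `N(q^l) = f(q^(l^2)) * ∏_{i<l} f(ζ^i q)`. -/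
theorem nc73_norm (hl : l.Prime) (hM : ¬ l ∣ M) (ζ : Kbarˣ) (hζ : IsPrimitiveRoot ζ l)
    (hAL : ∃ w : modularFunctionFieldBar (M * l) ≃ₐ[Kbar] modularFunctionFieldBar (M * l),
      (∀ x, w (heckeAlphaBar Kbar M l x) = heckeBetaBar Kbar M l x) ∧
      (∀ x, w (heckeBetaBar Kbar M l x) = heckeAlphaBar Kbar M l x))
    (f : modularFunctionFieldBar M) :
    letI := algebraAlong (heckeBetaBar Kbar M l)
    qExpand Kbar l ((Algebra.norm (modularFunctionFieldBar M) (heckeAlphaBar Kbar M l f) :
        modularFunctionFieldBar M) : LaurentSeries Kbar)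
      = qExpand Kbar (l * l) (f : LaurentSeries Kbar)
        * ∏ i ∈ Finset.range l, nc73_qTwist (ζ ^ i) (f : LaurentSeries Kbar) := by
  obtain ⟨w, hw1, hw2⟩ := hAL
  have h := nc73_norm_aux M l hl hM ζ hζ w hw1 hw2 f
  rw [nc73_algE_apply, ← map_prod, ← map_mul] at h
  exact RingHom.injective _ h

end Norm

end Fermat.Agent.S37
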