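import Fermat.Agent.S37.LevelUp1
import Fermat.Agent.S37.HeckeInputs63
import Fermat.Agent.S18.NormDescent

/-!
# S37, row LU (helper1), concrete part: from level `N` to level `N'`, `N ∣ N'`

* `tv1_iota h : F(N) →ₐ[ℚ̄] F(N')` the inclusion (`F(N) = modularFunctionFieldBar N`);
* `tv1_pull h : Div F(N) →+ Div F(N')` the pull-back `π^*` of divisors, `tv1_push h` the
  push-forward `π_*`;
* `tv1_pull_apply`, `tv1_pull_single` : explicit formulas;
* `tv1_degree_pull`, `tv1_pull_mem_principal`, `tv1_push_mem_principal`;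
* `tv1_push_pull` : `π_* π^* D = (ψ(N') / ψ(N)) • D`;
* `tv1_pull_smul` : `π^*` commutes with the Galois action (coefficientwise on `q`-expansions);
* `tv1_principal_of_pull` : if `π^* D` is principal then `(ψ(N') / ψ(N)) • D` is principal.
-/

set_option autoImplicit false
set_option linter.style.haveILetI false

namespace Fermat.Agent.S37

open ModularCurve AlgebraicCurve

local notation "Qb" => AlgebraicClosure ℚ
local notation "GQ" => AlgebraicClosure ℚ ≃ₐ[ℚ] AlgebraicClosure ℚ

section LevelUp

variable {N N' : ℕ} [NeZero N] [NeZero N'] (h : N ∣ N')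

/-- The inclusion `F(N) ⊆ F(N')` for `N ∣ N'`. -/
noncomputable def tv1_iota :
    ↥(modularFunctionFieldBar N) →ₐ[Qb] ↥(modularFunctionFieldBar N') :=
  IntermediateField.inclusion (Fermat.Agent.S18.nd38_bar_le h)

omit [NeZero N] [NeZero N'] in
@[simp]
theorem tv1_coe_iota (x : ↥(modularFunctionFieldBar N)) :
    ((tv1_iota h x : ↥(modularFunctionFieldBar N')) : LaurentSeries Qb) = (x : LaurentSeries Qb) :=
  IntermediateField.coe_inclusion _ x

theorem tv1_iota_all :
    haveI := hi63_hasPrincipalDivisors_bar N'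
    ∃ (hint : (tv1_iota h).toRingHom.IsIntegral) (hfin : FiniteAlong Qb (tv1_iota h)),
      FundamentalIdentityAlong Qb (tv1_iota h) hint ∧ NormFormulaAlong Qb (tv1_iota h) hfin := by
  haveI := hi63_hasPrincipalDivisors_bar N'
  haveI := hi63_finite_x N
  haveI := hi63_finite_x N'
  exact hi63_along_all (tv1_iota h) (hi63_x N) (hi63_x_transcendental N) (hi63_x N')
    (hi63_x_transcendental N')

theorem tv1_iota_integral : (tv1_iota h).toRingHom.IsIntegral := by
  obtain ⟨hint, -⟩ := tv1_iota_all h
  exact hint

theorem tv1_iota_finite : FiniteAlong Qb (tv1_iota h) := by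
  obtain ⟨-, hfin, -⟩ := tv1_iota_all h
  exact hfin

theorem tv1_iota_fundamental :
    haveI := hi63_hasPrincipalDivisors_bar N'
    FundamentalIdentityAlong Qb (tv1_iota h) (tv1_iota_integral h) := by
  obtain ⟨hint, hfin, hFI, hNF⟩ := tv1_iota_all h
  exact hFI

theorem tv1_iota_normFormula : NormFormulaAlong Qb (tv1_iota h) (tv1_iota_finite h) := by
  obtain ⟨hint, hfin, hFI, hNF⟩ := tv1_iota_all h
  exact hNF

/-- The pull-back `π^* : Div F(N) → Div F(N')`. -/
noncomputable def tv1_pull :
    Divisor Qb ↥(modularFunctionFieldBar N) →+ Divisor Qb ↥(modularFunctionFieldBar N') :=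
  haveI := hi63_hasPrincipalDivisors_bar N'
  Divisor.pullbackAlong (tv1_iota h) (tv1_iota_integral h)

/-- The push-forward `π_* : Div F(N') → Div F(N)`. -/
noncomputable def tv1_push :
    Divisor Qb ↥(modularFunctionFieldBar N') →+ Divisor Qb ↥(modularFunctionFieldBar N) :=
  Divisor.pushforwardAlong (tv1_iota h) (tv1_iota_integral h)

theorem tv1_pull_apply (D : Divisor Qb ↥(modularFunctionFieldBar N))
    (w : Place Qb ↥(modularFunctionFieldBar N')) :
    tv1_pull h D w = Place.ramificationIndexAlong (tv1_iota h) w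
      * D (w.restrictAlong (tv1_iota h) (tv1_iota_integral h)) := by
  haveI := hi63_hasPrincipalDivisors_bar N'
  exact Divisor.pullbackAlong_apply (tv1_iota h) (tv1_iota_integral h) D w

theorem tv1_pull_single (P : Place Qb ↥(modularFunctionFieldBar N)) (n : ℤ) :
    haveI := hi63_hasPrincipalDivisors_bar N'
    tv1_pull h (Finsupp.single P n)
      = ∑ W ∈ Place.fiberAlong (tv1_iota h) (tv1_iota_integral h) P,
          Finsupp.single W (n * W.ramificationIndexAlong (tv1_iota h)) := by
  haveI := hi63_hasPrincipalDivisors_bar N'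
  exact Divisor.pullbackAlong_single (tv1_iota h) (tv1_iota_integral h) P n

theorem tv1_degree_pull (D : Divisor Qb ↥(modularFunctionFieldBar N)) :
    Divisor.degree (tv1_pull h D) = (finrankAlong Qb (tv1_iota h) : ℤ) * Divisor.degree D := by
  haveI := hi63_hasPrincipalDivisors_bar N'
  exact Divisor.degree_pullbackAlong (tv1_iota h) (tv1_iota_integral h) (tv1_iota_fundamental h) D

theorem tv1_degree_pull_eq_zero {D : Divisor Qb ↥(modularFunctionFieldBar N)}
    (hD : Divisor.degree D = 0) : Divisor.degree (tv1_pull h D) = 0 := by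
  rw [tv1_degree_pull, hD, mul_zero]

theorem tv1_pull_mem_principal {D : Divisor Qb ↥(modularFunctionFieldBar N)}
    (hD : D ∈ Divisor.principal (K := Qb) (F := ↥(modularFunctionFieldBar N))) :
    tv1_pull h D ∈ Divisor.principal (K := Qb) (F := ↥(modularFunctionFieldBar N')) := by
  haveI := hi63_hasPrincipalDivisors_bar N'
  exact Divisor.isPrincipal_pullbackAlong (tv1_iota h) (tv1_iota_integral h) hD

theorem tv1_push_mem_principal {D : Divisor Qb ↥(modularFunctionFieldBar N')}
    (hD : D ∈ Divisor.principal (K := Qb) (F := ↥(modularFunctionFieldBar N'))) :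
    tv1_push h D ∈ Divisor.principal (K := Qb) (F := ↥(modularFunctionFieldBar N)) :=
  Divisor.isPrincipal_pushforwardAlong (tv1_iota h) (tv1_iota_integral h) (tv1_iota_finite h)
    (tv1_iota_normFormula h) hD

/-- The degree of `F(N') / F(N)` is `ψ(N') / ψ(N)`. -/
theorem tv1_finrank : finrankAlong Qb (tv1_iota h) = dedekindPsi N' / dedekindPsi N := by
  rw [← Fermat.Agent.S18.nd38_relfinrank_eq h,
    IntermediateField.relfinrank_eq_finrank_of_le (Fermat.Agent.S18.nd38_bar_le h)]
  letI := algebraAlong (tv1_iota h)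
  show Module.finrank ↥(modularFunctionFieldBar N) ↥(modularFunctionFieldBar N') = _
  let e : ↥(modularFunctionFieldBar N') ≃ₗ[↥(modularFunctionFieldBar N)]
      ↥(IntermediateField.extendScalars (Fermat.Agent.S18.nd38_bar_le h)) :=
    { toFun := fun x => ⟨(x : LaurentSeries Qb),
        (IntermediateField.mem_extendScalars (Fermat.Agent.S18.nd38_bar_le h)).mpr x.2⟩
      invFun := fun x => ⟨(x : LaurentSeries Qb),
        (IntermediateField.mem_extendScalars (Fermat.Agent.S18.nd38_bar_le h)).mp x.2⟩
      left_inv := fun _ => rfl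
      right_inv := fun _ => rfl
      map_add' := fun _ _ => rfl
      map_smul' := fun _ _ => rfl }
  exact e.finrank_eq

/-- `π_* π^* = ψ(N') / ψ(N)` on divisors. -/
theorem tv1_push_pull (D : Divisor Qb ↥(modularFunctionFieldBar N)) :
    tv1_push h (tv1_pull h D) = (dedekindPsi N' / dedekindPsi N) • D := by
  rw [← tv1_finrank h]
  haveI := hi63_hasPrincipalDivisors_bar N'
  haveI := hi63_finite_x N
  haveI := hi63_finite_x N'
  letI := algebraAlong (tv1_iota h)
  haveI := isScalarTower_along (tv1_iota h)
  haveI := isIntegral_along (tv1_iota h) (tv1_iota_integral h)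
  have hFI : FundamentalIdentity Qb ↥(modularFunctionFieldBar N) ↥(modularFunctionFieldBar N') :=
    tv1_iota_fundamental h
  have hdeg' : ∀ w : Place Qb ↥(modularFunctionFieldBar N'), w.deg = 1 :=
    Fermat.Agent.S24.wp1_deg_eq_one (hi63_x N') (hi63_x_transcendental N')
  have hdeg : ∀ v : Place Qb ↥(modularFunctionFieldBar N), v.deg = 1 :=
    Fermat.Agent.S24.wp1_deg_eq_one (hi63_x N) (hi63_x_transcendental N)
  have hin : ∀ w : Place Qb ↥(modularFunctionFieldBar N'),
      w.inertiaDeg ↥(modularFunctionFieldBar N) = 1 := by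
    intro w
    have h1 := w.deg_restrict_mul_inertiaDeg (F := ↥(modularFunctionFieldBar N))
    rw [hdeg', hdeg, one_mul] at h1
    exact h1
  haveI : SumRamificationInertia Qb ↥(modularFunctionFieldBar N)
      ↥(modularFunctionFieldBar N') := by
    refine ⟨fun v => ?_⟩
    have h1 := hFI.sum_ramificationIndex_mul_deg v
    rw [hdeg v] at h1
    rw [← mul_one ((Module.finrank ↥(modularFunctionFieldBar N)
      ↥(modularFunctionFieldBar N') : ℕ) : ℤ)]
    rw [show ((1 : ℕ) : ℤ) = 1 from rfl] at h1
    rw [← h1]
    refine Finset.sum_congr rfl fun w _ => ?_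
    rw [hin w, hdeg' w]
  exact lu1_pushforward_pullback (K := Qb) (F := ↥(modularFunctionFieldBar N))
    (F' := ↥(modularFunctionFieldBar N')) D

/-- If `π^* D` is principal, then `(ψ(N') / ψ(N)) • D` is principal. -/
theorem tv1_principal_of_pull {D : Divisor Qb ↥(modularFunctionFieldBar N)}
    (hD : tv1_pull h D ∈ Divisor.principal (K := Qb) (F := ↥(modularFunctionFieldBar N'))) :
    (dedekindPsi N' / dedekindPsi N) • D
      ∈ Divisor.principal (K := Qb) (F := ↥(modularFunctionFieldBar N)) := by
  rw [← tv1_push_pull h D]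
  exact tv1_push_mem_principal h hD

omit [NeZero N] [NeZero N'] in
/-- The inclusion intertwines the Galois actions. -/
theorem tv1_intertwines (σ : GQ) :
    SemilinearAut.IntertwinesAlong (tv1_iota h : ↥(modularFunctionFieldBar N) →+*
        ↥(modularFunctionFieldBar N'))
      (arithmeticGalois (modularFunctionFieldFull N) σ)
      (arithmeticGalois (modularFunctionFieldFull N') σ) := by
  intro x
  apply Subtype.ext
  rw [coe_arithmeticGalois_smul]
  show coeffMap (σ : Qb →+* Qb) ((tv1_iota h x : ↥(modularFunctionFieldBar N')) : LaurentSeries Qb)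
    = ((tv1_iota h (arithmeticGalois (modularFunctionFieldFull N) σ • x) :
      ↥(modularFunctionFieldBar N')) : LaurentSeries Qb)
  rw [tv1_coe_iota, tv1_coe_iota, coe_arithmeticGalois_smul]

/-- `π^*` commutes with the Galois action. -/
theorem tv1_pull_smul (σ : GQ) (D : Divisor Qb ↥(modularFunctionFieldBar N)) :
    tv1_pull h (arithmeticGalois (modularFunctionFieldFull N) σ • D)
      = arithmeticGalois (modularFunctionFieldFull N') σ • tv1_pull h D := by
  haveI := hi63_hasPrincipalDivisors_bar N'
  letI := algebraAlong (tv1_iota h)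
  haveI := isScalarTower_along (tv1_iota h)
  haveI := isIntegral_along (tv1_iota h) (tv1_iota_integral h)
  exact lu1_pullback_smul (K := Qb) (F := ↥(modularFunctionFieldBar N))
    (F' := ↥(modularFunctionFieldBar N')) (tv1_intertwines h σ) D

end LevelUp

end Fermat.Agent.S37
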