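import Fermat.Agent.S37.Glue14
import Fermat.Prelude.Def_ModularCurve_ReductionModL
import Fermat.Prelude.Def_ModularCurve_HeckeModule

/-!
# S37, rows INJ + TOP (helper13)

* `top13_agree`: two place reductions (both satisfying the Prelude's `IsPlaceReductionAlong`)
  induce the same divisor on every divisor `D` with `m • D` principal, `m ≠ 0` (the difference
  kills integral principal divisors, hence all principal divisors, and divisors are torsion-free).
* `top13_inj`: hence the `Pic⁰`-map of ANY place reduction `r0` is injective on prime-to-`ℓ`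
  torsion as soon as the Prelude's `reductionModL` is (= statement S18).
* `top13_RedData`: the package the geometric rows (RC, FR, ES1-ES3) have to deliver at `(N, ℓ, A)`.
* `top13_result`: the frozen statement S37 from `top13_RedData` at every `(ℓ, A)` and S18.
-/

set_option autoImplicit false
set_option linter.style.haveILetI false

namespace Fermat.Agent.S37

open ModularCurve AlgebraicCurve

local notation "Qb" => AlgebraicClosure ℚ
local notation "GQ" => AlgebraicClosure ℚ ≃ₐ[ℚ] AlgebraicClosure ℚ

section Agree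

variable {L : Type*} [Field L] [Algebra ℚ L] {A : ValuationSubring L}
variable {k : Type*} [Field k] {π : A →+* k} {N : ℕ}

/-- Two place reductions agree on integral principal divisors. -/
theorem top13_agree_integral
    {r₁ r₂ : Place L (laurentBaseChange L (modularFunctionFieldFull N)) →
      Place k (modularFunctionFieldFullC k N)}
    (h₁ : IsPlaceReductionAlong A π N r₁) (h₂ : IsPlaceReductionAlong A π N r₂)
    {D : Divisor L (laurentBaseChange L (modularFunctionFieldFull N))}
    (hD : D ∈ integralPrincipalDivisors A π N) :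
    Finsupp.mapDomain r₁ D = Finsupp.mapDomain r₂ D := by
  obtain ⟨y, hy, hyk, hne, hDy⟩ := hD
  ext Q
  rw [h₁.2 y hy hyk hne D hDy Q, h₂.2 y hy hyk hne D hDy Q]

/-- Two place reductions agree on all principal divisors. -/
theorem top13_agree_principal
    {r₁ r₂ : Place L (laurentBaseChange L (modularFunctionFieldFull N)) →
      Place k (modularFunctionFieldFullC k N)}
    (h₁ : IsPlaceReductionAlong A π N r₁) (h₂ : IsPlaceReductionAlong A π N r₂)
    (hgen : PrincipalGeneratedByIntegral A π N)
    {D : Divisor L (laurentBaseChange L (modularFunctionFieldFull N))}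
    (hD : D ∈ Divisor.principal (K := L) (F := laurentBaseChange L (modularFunctionFieldFull N))) :
    Finsupp.mapDomain r₁ D = Finsupp.mapDomain r₂ D := by
  have hD' := hgen hD
  clear hD
  induction hD' using AddSubgroup.closure_induction with
  | mem E hE => exact top13_agree_integral h₁ h₂ hE
  | zero => rw [Finsupp.mapDomain_zero, Finsupp.mapDomain_zero]
  | add E E' _ _ hE hE' => rw [Finsupp.mapDomain_add, Finsupp.mapDomain_add, hE, hE']
  | neg E _ hE =>
    rw [← Finsupp.mapDomain.addMonoidHom_apply, ← Finsupp.mapDomain.addMonoidHom_apply,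
      map_neg, map_neg, Finsupp.mapDomain.addMonoidHom_apply,
      Finsupp.mapDomain.addMonoidHom_apply, hE]

/-- Two place reductions agree on every divisor a nonzero multiple of which is principal. -/
theorem top13_agree
    {r₁ r₂ : Place L (laurentBaseChange L (modularFunctionFieldFull N)) →
      Place k (modularFunctionFieldFullC k N)}
    (h₁ : IsPlaceReductionAlong A π N r₁) (h₂ : IsPlaceReductionAlong A π N r₂)
    (hgen : PrincipalGeneratedByIntegral A π N)
    {D : Divisor L (laurentBaseChange L (modularFunctionFieldFull N))} {m : ℕ} (hm : m ≠ 0)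
    (hD : m • D ∈
      Divisor.principal (K := L) (F := laurentBaseChange L (modularFunctionFieldFull N))) :
    Finsupp.mapDomain r₁ D = Finsupp.mapDomain r₂ D := by
  have h := top13_agree_principal h₁ h₂ hgen hD
  rw [Finsupp.mapDomain_smul, Finsupp.mapDomain_smul] at h
  ext Q
  have hQ := congrArg (fun E => E Q) h
  simp only [Finsupp.smul_apply, nsmul_eq_mul] at hQ
  have hm' : (m : ℤ) ≠ 0 := by exact_mod_cast hm
  exact mul_left_cancel₀ hm' hQ

/-- The `Pic⁰`-maps of two place reductions agree on torsion classes. -/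
theorem top13_agree_pic0
    {r₁ r₂ : Place L (laurentBaseChange L (modularFunctionFieldFull N)) →
      Place k (modularFunctionFieldFullC k N)}
    (h₁ : IsPlaceReductionAlong A π N r₁) (h₂ : IsPlaceReductionAlong A π N r₂)
    (hgen : PrincipalGeneratedByIntegral A π N)
    (z : Pic0 L (laurentBaseChange L (modularFunctionFieldFull N))) {m : ℕ} (hm : m ≠ 0)
    (hz : m • z = 0) :
    reductionPic0Along r₁ h₁ hgen z = reductionPic0Along r₂ h₂ hgen z := by
  obtain ⟨D, rfl⟩ := Pic0.mk_surjective z
  rw [reductionPic0Along_mk, reductionPic0Along_mk]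
  congr 1
  apply Subtype.ext
  rw [coe_reductionDegZeroAlong, coe_reductionDegZeroAlong]
  refine top13_agree h₁ h₂ hgen hm ?_
  have h0 : (m • D : Divisor.degZero (K := L)
      (F := laurentBaseChange L (modularFunctionFieldFull N))) ∈
      (Divisor.principal (K := L)
        (F := laurentBaseChange L (modularFunctionFieldFull N))).addSubgroupOf
        (Divisor.degZero (K := L) (F := laurentBaseChange L (modularFunctionFieldFull N))) := by
    have h1 : ((m • D : Divisor.degZero (K := L)
        (F := laurentBaseChange L (modularFunctionFieldFull N))) :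
        Pic0 L (laurentBaseChange L (modularFunctionFieldFull N))) = 0 := by
      rw [QuotientAddGroup.mk_nsmul]
      exact hz
    exact (QuotientAddGroup.eq_zero_iff _).mp h1
  rw [AddSubgroup.mem_addSubgroupOf, AddSubgroupClass.coe_nsmul] at h0
  exact h0

end Agree

section Inj

variable (N : ℕ) [NeZero N] (A : ValuationSubring Qb)

/-- The conclusion of statement S18 at `(N, ℓ, A)`, as a proposition. -/
def top13_S18At (ℓ : ℕ) : Prop :=
  ModularCurve.ReductionInputsModL A N → ∀ m : ℕ, ¬ ℓ ∣ m → ∀ z : JZero N, m • z = 0 →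
    ModularCurve.reductionModL A N z = 0 → z = 0

variable {N A}

omit [NeZero N] in
/-- Injectivity on prime-to-`ℓ` torsion for the `Pic⁰`-map of an arbitrary place reduction, from
statement S18. -/
theorem top13_inj {ℓ : ℕ} (hS18 : top13_S18At N A ℓ)
    {r0 : Place Qb (modularFunctionFieldBar N) →
      Place (IsLocalRing.ResidueField A) (modularFunctionFieldFullC (IsLocalRing.ResidueField A) N)}
    (hr : IsPlaceReductionModL A N r0)
    (hgen : PrincipalGeneratedByIntegral A (IsLocalRing.residue A) N)
    {m : ℕ} (hm : ¬ ℓ ∣ m) {z : JZero N} (hmz : m • z = 0)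
    (hz : reductionPic0Along r0 hr hgen z = 0) : z = 0 := by
  have h : ReductionInputsModL A N := ⟨r0, hr, hgen⟩
  have hm0 : m ≠ 0 := fun h0 => hm (h0 ▸ dvd_zero ℓ)
  refine hS18 h m hm z hmz ?_
  have e1 : reductionModL A N = reductionPic0Along h.choose h.choose_spec.1 h.choose_spec.2 :=
    reductionAlong_eq h
  rw [e1, top13_agree_pic0 h.choose_spec.1 hr h.choose_spec.2 z hm0 hmz]
  have e2 : reductionPic0Along r0 hr h.choose_spec.2 z = reductionPic0Along r0 hr hgen z := rfl
  rw [e2, hz]

end Inj

section Top

/-- What the geometric rows deliver at `(N, ℓ, A)`: a place reduction `r0` (Prelude sense) whose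
`Pic⁰`-map `red` is inertia-invariant, Frobenius-equivariant for an automorphism `Fr` of the target,
and satisfies the Eichler-Shimura relation `red ∘ T_ℓ = Fr ∘ red + ℓ • Fr⁻¹ ∘ red`. -/
structure top13_RedData (N : ℕ) [NeZero N] (A : ValuationSubring Qb) (ℓ : Nat.Primes) where
  r0 : Place Qb (modularFunctionFieldBar N) →
    Place (IsLocalRing.ResidueField A) (modularFunctionFieldFullC (IsLocalRing.ResidueField A) N)
  hr : IsPlaceReductionModL A N r0
  hgen : PrincipalGeneratedByIntegral A (IsLocalRing.residue A) N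
  Fr : JZeroC (IsLocalRing.ResidueField A) N →+ JZeroC (IsLocalRing.ResidueField A) N
  FrInv : JZeroC (IsLocalRing.ResidueField A) N →+ JZeroC (IsLocalRing.ResidueField A) N
  FrInv_Fr : ∀ y, FrInv (Fr y) = y
  inertia : ∀ σ ∈ A.inertiaSubgroupIn ℚ, ∀ x : JZero N,
    reductionPic0Along r0 hr hgen (σ • x) = reductionPic0Along r0 hr hgen x
  frob : ∀ σ : GQ, A.IsFrobeniusAt σ (ℓ : ℕ) → ∀ x : JZero N,
    reductionPic0Along r0 hr hgen (σ • x) = Fr (reductionPic0Along r0 hr hgen x)
  es : ∀ x : JZero N,
    reductionPic0Along r0 hr hgen (heckeOperatorBar N ℓ x)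
      = Fr (reductionPic0Along r0 hr hgen x) + (ℓ : ℕ) • FrInv (reductionPic0Along r0 hr hgen x)

/-- **S37 from the geometric package and S18.** -/
theorem top13_result (N p : ℕ) [NeZero N] (hcomm : HeckeOperatorsCommuteBar N)
    (hdata : ∀ (ℓ : Nat.Primes), ¬ (ℓ : ℕ) ∣ N → ∀ A : ValuationSubring Qb,
      A.LiesOverPrime (ℓ : ℕ) → Nonempty (top13_RedData N A ℓ))
    (hS18 : ∀ (ℓ : ℕ), ℓ.Prime → ¬ ℓ ∣ N → ∀ A : ValuationSubring Qb, A.LiesOverPrime ℓ →
      top13_S18At N A ℓ) :
    letI := ModularCurve.heckeModuleBar N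
    ∀ (_ : SMulCommClass GQ ModularCurve.HeckeAlg (ModularCurve.JZero N)),
      ModularCurve.SpecializationExists (K := ℚ) (L := Qb) N p (ModularCurve.JZero N) := by
  refine h14_S37_of_red N p hcomm ?_
  intro ℓ hℓ hℓN hℓp A hA φ hφ
  obtain ⟨d⟩ := hdata ⟨ℓ, hℓ⟩ hℓN A hA
  refine ⟨JZeroC (IsLocalRing.ResidueField A) N, inferInstance,
    reductionPic0Along d.r0 d.hr d.hgen, d.Fr, d.inertia, d.frob, ?_, ?_⟩
  · intro x
    rw [map_add, map_sub, d.frob φ hφ, d.frob φ hφ, d.es, d.frob φ hφ, d.FrInv_Fr, map_nsmul]
    abel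
  · rintro x hx ⟨n, hn⟩
    exact top13_inj (hS18 ℓ hℓ hℓN A hA) d.hr d.hgen (fun h => hℓp (hℓ.dvd_of_dvd_pow h)) hn hx

end Top

end Fermat.Agent.S37
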