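import Fermat.Agent.S37.CentreGlue14
import Fermat.Agent.S37.Top13

/-!
# S37 from PLACE-level data only

`h14_S37_of_placeReduction`: the frozen statement S37 from statement S18 and, at every good
`(ℓ, A)`, a place reduction `r0` (Prelude sense: `IsPlaceReductionModL` +
`PrincipalGeneratedByIntegral`) together with maps `Fr V` of the places of the special fibre,
`V ∘ Fr = id`, such that
* `r0 (τ • P) = r0 P` for `τ` in the inertia group,
* `r0 (σ • P) = Fr (r0 P)` for every Frobenius element `σ`,
* `r0_* (T_ℓ P) = Fr (r0 P) + ℓ • V (r0 P)` for every place `P` (divisor-level Eichler-Shimura).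
Nothing has to be proved on `Pic⁰` of the special fibre.
-/

set_option autoImplicit false
set_option linter.style.haveILetI false
set_option synthInstance.maxHeartbeats 400000
set_option maxHeartbeats 1600000

namespace Fermat.Agent.S37

open ModularCurve AlgebraicCurve

local notation "Qb" => AlgebraicClosure ℚ
local notation "GQ" => AlgebraicClosure ℚ ≃ₐ[ℚ] AlgebraicClosure ℚ

/-- Divisor-level injectivity from S18: a degree-zero divisor with trivial reduction, a
prime-to-`ℓ` multiple of which is principal, is principal. -/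
theorem h14_principal_of_reduction_eq_zero {N : ℕ} [NeZero N] {A : ValuationSubring Qb} {ℓ : ℕ}
    (hS18 : top13_S18At N A ℓ)
    {r0 : Place Qb (modularFunctionFieldBar N) →
      Place (IsLocalRing.ResidueField A) (modularFunctionFieldFullC (IsLocalRing.ResidueField A) N)}
    (hr : IsPlaceReductionModL A N r0)
    (hgen : PrincipalGeneratedByIntegral A (IsLocalRing.residue A) N)
    {m : ℕ} (hm : ¬ ℓ ∣ m) (D : Divisor Qb (modularFunctionFieldBar N))
    (hD : Divisor.degree D = 0) (hDr : Finsupp.mapDomain r0 D = 0)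
    (hmD : m • D ∈ Divisor.principal (K := Qb) (F := modularFunctionFieldBar N)) :
    D ∈ Divisor.principal (K := Qb) (F := modularFunctionFieldBar N) := by
  set D0 : Divisor.degZero (K := Qb) (F := modularFunctionFieldBar N) := ⟨D, hD⟩ with hD0
  have hz : (Pic0.mk D0 : JZero N) = 0 := by
    refine top13_inj hS18 hr hgen hm (z := Pic0.mk D0) ?_ ?_
    · have h1 : m • (Pic0.mk D0 : JZero N) = Pic0.mk (m • D0) := rfl
      rw [h1]
      exact (QuotientAddGroup.eq_zero_iff _).mpr hmD
    · rw [reductionPic0Along_mk]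
      have h2 : reductionDegZeroAlong r0 hr.1 D0 = 0 := by
        apply Subtype.ext
        rw [coe_reductionDegZeroAlong]
        exact hDr
      rw [h2]
      rfl
  have h3 : D0 ∈ (Divisor.principal (K := Qb) (F := modularFunctionFieldBar N)).addSubgroupOf
      (Divisor.degZero (K := Qb) (F := modularFunctionFieldBar N)) :=
    (QuotientAddGroup.eq_zero_iff D0).mp hz
  exact h3

/-- **S37 from place-level data and S18.** -/
theorem h14_S37_of_placeReduction (N p : ℕ) [NeZero N] (hcomm : HeckeOperatorsCommuteBar N)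
    (hS18 : ∀ (ℓ : ℕ), ℓ.Prime → ¬ ℓ ∣ N → ∀ A : ValuationSubring Qb, A.LiesOverPrime ℓ →
      top13_S18At N A ℓ)
    (key : ∀ (ℓ : ℕ) (hℓ : ℓ.Prime), ¬ ℓ ∣ N → ∀ A : ValuationSubring Qb,
      A.LiesOverPrime ℓ →
      haveI : NeZero ℓ := ⟨hℓ.ne_zero⟩
      ∃ (hα : HeckeAlphaBarIntegral Qb N ℓ) (hβ : HeckeBetaBarIntegral Qb N ℓ)
        (_ : HasPrincipalDivisors Qb (modularFunctionFieldBar (N * ℓ)))
        (hfin : FiniteAlong Qb (heckeAlphaBar Qb N ℓ))
        (_ : FundamentalIdentityAlong Qb (heckeBetaBar Qb N ℓ) hβ)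
        (_ : NormFormulaAlong Qb (heckeAlphaBar Qb N ℓ) hfin)
        (r0 : Place Qb (modularFunctionFieldBar N) →
          Place (IsLocalRing.ResidueField A)
            (modularFunctionFieldFullC (IsLocalRing.ResidueField A) N))
        (Fr V : Place (IsLocalRing.ResidueField A)
            (modularFunctionFieldFullC (IsLocalRing.ResidueField A) N) →
          Place (IsLocalRing.ResidueField A)
            (modularFunctionFieldFullC (IsLocalRing.ResidueField A) N)),
        IsPlaceReductionModL A N r0 ∧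
        PrincipalGeneratedByIntegral A (IsLocalRing.residue A) N ∧
        (∀ Q, V (Fr Q) = Q) ∧
        (∀ τ ∈ A.inertiaSubgroupIn ℚ, ∀ P : Place Qb (modularFunctionFieldBar N),
          r0 (arithmeticGalois (modularFunctionFieldFull N) τ • P) = r0 P) ∧
        (∀ σ : GQ, A.IsFrobeniusAt σ ℓ → ∀ P : Place Qb (modularFunctionFieldBar N),
          r0 (arithmeticGalois (modularFunctionFieldFull N) σ • P) = Fr (r0 P)) ∧
        (∀ P : Place Qb (modularFunctionFieldBar N),
          Finsupp.mapDomain r0 (heckeDivBar hα hβ (Finsupp.single P 1))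
            = Finsupp.single (Fr (r0 P)) 1 + Finsupp.single (V (r0 P)) (ℓ : ℤ))) :
    letI := ModularCurve.heckeModuleBar N
    ∀ (_ : SMulCommClass GQ ModularCurve.HeckeAlg (ModularCurve.JZero N)),
      ModularCurve.SpecializationExists (K := ℚ) (L := Qb) N p (ModularCurve.JZero N) := by
  refine h14_S37_of_centre N p hcomm ?_
  intro ℓ hℓ hN hp A hA φ hφ
  haveI : NeZero ℓ := ⟨hℓ.ne_zero⟩
  obtain ⟨hα, hβ, hP, hfin, hFI, hNF, r0, Fr, V, hr, hgen, hVF, hin, hfr, hES⟩ :=
    key ℓ hℓ hN A hA
  refine ⟨hα, hβ, hP, hfin, hFI, hNF, _, r0, Fr, V, hVF, hin, hfr, hES, ?_⟩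
  rintro D hD hDr ⟨n, hn⟩
  exact h14_principal_of_reduction_eq_zero (hS18 ℓ hℓ hN A hA) hr hgen
    (fun h => hp (hℓ.dvd_of_dvd_pow h)) D hD hDr hn

end Fermat.Agent.S37
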