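import Fermat.Agent.S37.DivTopV1
import Fermat.Agent.S37.LevelUpConc1
import Fermat.Agent.S37.CentreTop14
import Fermat.Agent.S37.FrobL66

/-!
# S37, row TOPV (helper1): THE TWO-LEVEL FINAL SHAPE (Route V)

`tv1_Geo N N' h ℓ A` (for `h : N ∣ N'`, `ℓ ∤ N'`): the geometric package AT THE AUXILIARY LEVEL
`N'`, i.e. a place reduction `r0` of `F(N')` (Prelude sense), equivariant under the decomposition
group of `A` for the coefficientwise action `fr66_resGalois N'` on the special fibre, together with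
the MIXED-LEVEL Eichler-Shimura relation on single places `P` of `F(N)`:
`r0_* (π^* (T_ℓ P)) = Φ (r0_* (π^* P)) + ℓ • Φ⁻¹ (r0_* (π^* P))`, `π^* = tv1_pull h`, `T_ℓ` the
Prelude correspondence at level `N`, `Φ` the action of `x ↦ x ^ ℓ`.

`tv1_final`: the frozen statement S37 at level `N` from statement S18 (all levels), the Hecke
inputs at level `N` and `tv1_Geo N (lcm N p₀) _ ℓ A` for `p₀ ∈ {2, 3}`, `p₀ ≠ ℓ`.
No normal model at level `N` is needed: injectivity on `p`-power torsion comes from S18 at the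
levels `lcm N p₀` and `π_* π^* = ψ(N') / ψ(N) ∈ {1, p₀ + 1}`.
-/

set_option autoImplicit false
set_option linter.style.haveILetI false
set_option synthInstance.maxHeartbeats 400000
set_option maxHeartbeats 1600000

namespace Fermat.Agent.S37

open ModularCurve AlgebraicCurve

local notation "Qb" => AlgebraicClosure ℚ
local notation "GQ" => AlgebraicClosure ℚ ≃ₐ[ℚ] AlgebraicClosure ℚ

/-- The geometric package of the two-level route at `(N, N', ℓ, A)`: what the rows RC / ES1-ES3 /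
NM(a) have to prove, at the auxiliary level `N'` only. -/
def tv1_Geo (N N' : ℕ) [NeZero N] [NeZero N'] (h : N ∣ N') (ℓ : ℕ) [NeZero ℓ]
    (A : ValuationSubring Qb) : Prop :=
  ∀ (hα : HeckeAlphaBarIntegral Qb N ℓ) (hβ : HeckeBetaBarIntegral Qb N ℓ)
    (_ : HasPrincipalDivisors Qb (modularFunctionFieldBar (N * ℓ))),
    ∃ r0 : Place Qb (modularFunctionFieldBar N') →
        Place (IsLocalRing.ResidueField A)
          (modularFunctionFieldFullC (IsLocalRing.ResidueField A) N'),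
      IsPlaceReductionModL A N' r0 ∧
      PrincipalGeneratedByIntegral A (IsLocalRing.residue A) N' ∧
      (∀ (σ : GQ) (hσ : σ ∈ A.decompositionSubgroup ℚ)
        (P : Place Qb (modularFunctionFieldBar N')),
        r0 (arithmeticGalois (modularFunctionFieldFull N') σ • P)
          = fr66_resGalois N' (MulSemiringAction.toRingEquiv (A.decompositionSubgroup ℚ)
              (IsLocalRing.ResidueField A) ⟨σ, hσ⟩) • r0 P) ∧
      (∀ φk : IsLocalRing.ResidueField A ≃+* IsLocalRing.ResidueField A,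
        (∀ x, φk x = x ^ ℓ) → ∀ P : Place Qb (modularFunctionFieldBar N),
        Finsupp.mapDomain r0 (tv1_pull h (heckeDivBar hα hβ (Finsupp.single P 1)))
          = Finsupp.mapDomain (fun Q => fr66_resGalois N' φk • Q)
              (Finsupp.mapDomain r0 (tv1_pull h (Finsupp.single P 1)))
            + ℓ • Finsupp.mapDomain (fun Q => (fr66_resGalois N' φk)⁻¹ • Q)
              (Finsupp.mapDomain r0 (tv1_pull h (Finsupp.single P 1))))

/-- Intermediate package: a homomorphism on the divisors of `F(N)` with the properties required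
by `tv1_S37_of_divHom`, except that injectivity holds up to the factor `n`. -/
def tv1_Pack (N p ℓ : ℕ) [NeZero N] [NeZero ℓ] (A : ValuationSubring Qb)
    (hα : HeckeAlphaBarIntegral Qb N ℓ) (hβ : HeckeBetaBarIntegral Qb N ℓ)
    [HasPrincipalDivisors Qb (modularFunctionFieldBar (N * ℓ))] (n : ℕ) : Prop :=
  ∃ (G : Type) (_ : AddCommGroup G)
    (c : Divisor Qb (modularFunctionFieldBar N) →+ G) (Fr V : G →+ G),
    (∀ x : G, V (Fr x) = x) ∧
    (∀ τ ∈ A.inertiaSubgroupIn ℚ, ∀ D : Divisor Qb (modularFunctionFieldBar N),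
      c (arithmeticGalois (modularFunctionFieldFull N) τ • D) = c D) ∧
    (∀ σ : GQ, A.IsFrobeniusAt σ ℓ → ∀ D : Divisor Qb (modularFunctionFieldBar N),
      c (arithmeticGalois (modularFunctionFieldFull N) σ • D) = Fr (c D)) ∧
    (∀ P : Place Qb (modularFunctionFieldBar N),
      c (heckeDivBar hα hβ (Finsupp.single P 1))
        = Fr (c (Finsupp.single P 1)) + ℓ • V (c (Finsupp.single P 1))) ∧
    (∀ D : Divisor Qb (modularFunctionFieldBar N), Divisor.degree D = 0 → c D = 0 →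
      (∃ k : ℕ, p ^ k • D ∈ Divisor.principal (K := Qb) (F := modularFunctionFieldBar N)) →
      n • D ∈ Divisor.principal (K := Qb) (F := modularFunctionFieldBar N))

/-- From the geometric package at level `N'` and S18 at level `N'` to a package at level `N`. -/
theorem tv1_pack_of_geo {N N' : ℕ} [NeZero N] [NeZero N'] (h : N ∣ N') {ℓ : ℕ} (hℓ : ℓ.Prime)
    [NeZero ℓ] (p : ℕ) (hℓp : ¬ ℓ ∣ p) {A : ValuationSubring Qb} (hA : A.LiesOverPrime ℓ)
    (hS18 : top13_S18At N' A ℓ)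
    (hα : HeckeAlphaBarIntegral Qb N ℓ) (hβ : HeckeBetaBarIntegral Qb N ℓ)
    [hP : HasPrincipalDivisors Qb (modularFunctionFieldBar (N * ℓ))]
    (hgeo : tv1_Geo N N' h ℓ A) :
    tv1_Pack N p ℓ A hα hβ (dedekindPsi N' / dedekindPsi N) := by
  obtain ⟨r0, hr, hgen, hequiv, hes⟩ := hgeo hα hβ hP
  obtain ⟨σ₀, hσ₀D, hσ₀x⟩ := h14_exists_isFrobeniusAt ℓ hℓ A hA
  set φk : IsLocalRing.ResidueField A ≃+* IsLocalRing.ResidueField A :=
    MulSemiringAction.toRingEquiv (A.decompositionSubgroup ℚ) (IsLocalRing.ResidueField A)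
      ⟨σ₀, hσ₀D⟩ with hφk
  have hφkx : ∀ x : IsLocalRing.ResidueField A, φk x = x ^ ℓ := fun x => hσ₀x x
  -- place-level inertia invariance and Frobenius equivariance at level `N'`
  have hin : ∀ τ ∈ A.inertiaSubgroupIn ℚ, ∀ P : Place Qb (modularFunctionFieldBar N'),
      r0 (arithmeticGalois (modularFunctionFieldFull N') τ • P) = r0 P := by
    intro τ hτ P
    obtain ⟨τ', hτ', rfl⟩ := Subgroup.mem_map.mp hτ
    have h1 : MulSemiringAction.toRingEquiv (A.decompositionSubgroup ℚ)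
        (IsLocalRing.ResidueField A) τ' = 1 := by
      have h2 : MulSemiringAction.toRingAut (A.decompositionSubgroup ℚ)
          (IsLocalRing.ResidueField A) τ' = 1 := MonoidHom.mem_ker.mp hτ'
      exact h2
    have h3 := hequiv ((A.decompositionSubgroup ℚ).subtype τ') τ'.2 P
    rw [h3]
    have h4 : (⟨(A.decompositionSubgroup ℚ).subtype τ', τ'.2⟩ : A.decompositionSubgroup ℚ)
        = τ' := rfl
    rw [h4, h1, map_one, one_smul]
  have hfr : ∀ σ : GQ, A.IsFrobeniusAt σ ℓ → ∀ P : Place Qb (modularFunctionFieldBar N'),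
      r0 (arithmeticGalois (modularFunctionFieldFull N') σ • P)
        = fr66_resGalois N' φk • r0 P := by
    rintro σ ⟨hσD, hσx⟩ P
    have h1 : MulSemiringAction.toRingEquiv (A.decompositionSubgroup ℚ)
        (IsLocalRing.ResidueField A) ⟨σ, hσD⟩ = φk := by
      ext y
      show (⟨σ, hσD⟩ : A.decompositionSubgroup ℚ) • y = φk y
      rw [hσx y, hφkx y]
    rw [hequiv σ hσD P, h1]
  refine ⟨Place (IsLocalRing.ResidueField A)
      (modularFunctionFieldFullC (IsLocalRing.ResidueField A) N') →₀ ℤ, inferInstance,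
    (Finsupp.mapDomain.addMonoidHom r0).comp (tv1_pull h),
    Finsupp.mapDomain.addMonoidHom (fun Q => fr66_resGalois N' φk • Q),
    Finsupp.mapDomain.addMonoidHom (fun Q => (fr66_resGalois N' φk)⁻¹ • Q), ?_, ?_, ?_, ?_, ?_⟩
  · intro x
    rw [Finsupp.mapDomain.addMonoidHom_apply, Finsupp.mapDomain.addMonoidHom_apply,
      ← Finsupp.mapDomain_comp]
    have hid : ((fun Q : Place (IsLocalRing.ResidueField A)
        (modularFunctionFieldFullC (IsLocalRing.ResidueField A) N') =>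
          (fr66_resGalois N' φk)⁻¹ • Q) ∘ fun Q => fr66_resGalois N' φk • Q) = id :=
      funext fun Q => inv_smul_smul _ Q
    rw [hid, Finsupp.mapDomain_id]
  · intro τ hτ D
    show Finsupp.mapDomain r0 (tv1_pull h (arithmeticGalois (modularFunctionFieldFull N) τ • D))
      = Finsupp.mapDomain r0 (tv1_pull h D)
    rw [tv1_pull_smul]
    have := h14_cpush_smul r0 id (arithmeticGalois (modularFunctionFieldFull N') τ)
      (hin τ hτ) (tv1_pull h D)
    rw [h14_cpush_apply, h14_cpush_apply, Finsupp.mapDomain_id] at this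
    exact this
  · intro σ hσ D
    show Finsupp.mapDomain r0 (tv1_pull h (arithmeticGalois (modularFunctionFieldFull N) σ • D))
      = Finsupp.mapDomain (fun Q => fr66_resGalois N' φk • Q)
          (Finsupp.mapDomain r0 (tv1_pull h D))
    rw [tv1_pull_smul]
    have := h14_cpush_smul r0 (fun Q => fr66_resGalois N' φk • Q)
      (arithmeticGalois (modularFunctionFieldFull N') σ) (hfr σ hσ) (tv1_pull h D)
    rw [h14_cpush_apply, h14_cpush_apply] at this
    exact this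
  · intro P
    exact hes φk hφkx P
  · rintro D hD hcD ⟨k, hk⟩
    have hcD' : Finsupp.mapDomain r0 (tv1_pull h D) = 0 := hcD
    have hE : tv1_pull h D ∈ Divisor.principal (K := Qb) (F := modularFunctionFieldBar N') := by
      refine h14_principal_of_reduction_eq_zero hS18 hr hgen (m := p ^ k)
        (fun hdvd => hℓp (hℓ.dvd_of_dvd_pow hdvd)) (tv1_pull h D)
        (tv1_degree_pull_eq_zero h hD) hcD' ?_
      rw [← map_nsmul]
      exact tv1_pull_mem_principal h hk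
    exact tv1_principal_of_pull h hE

/-- Two packages combine: injectivity up to the gcd of the two factors. -/
theorem tv1_pack_prod {N p ℓ : ℕ} [NeZero N] [NeZero ℓ] {A : ValuationSubring Qb}
    {hα : HeckeAlphaBarIntegral Qb N ℓ} {hβ : HeckeBetaBarIntegral Qb N ℓ}
    [HasPrincipalDivisors Qb (modularFunctionFieldBar (N * ℓ))] {n₁ n₂ : ℕ}
    (h₁ : tv1_Pack N p ℓ A hα hβ n₁) (h₂ : tv1_Pack N p ℓ A hα hβ n₂) :
    tv1_Pack N p ℓ A hα hβ (Nat.gcd n₁ n₂) := by
  obtain ⟨G₁, _, c₁, Fr₁, V₁, a₁, b₁, d₁, e₁, f₁⟩ := h₁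
  obtain ⟨G₂, _, c₂, Fr₂, V₂, a₂, b₂, d₂, e₂, f₂⟩ := h₂
  refine ⟨G₁ × G₂, inferInstance, c₁.prod c₂, Fr₁.prodMap Fr₂, V₁.prodMap V₂, ?_, ?_, ?_, ?_, ?_⟩
  · rintro ⟨x, y⟩
    exact Prod.ext (a₁ x) (a₂ y)
  · intro τ hτ D
    exact Prod.ext (b₁ τ hτ D) (b₂ τ hτ D)
  · intro σ hσ D
    exact Prod.ext (d₁ σ hσ D) (d₂ σ hσ D)
  · intro P
    exact Prod.ext (e₁ P) (e₂ P)
  · intro D hD hcD hk
    have h1 : c₁ D = 0 := congrArg Prod.fst hcD
    have h2 : c₂ D = 0 := congrArg Prod.snd hcD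
    have hn₁ := f₁ D hD h1 hk
    have hn₂ := f₂ D hD h2 hk
    have hbez : ((Nat.gcd n₁ n₂ : ℕ) : ℤ) = (n₁ : ℤ) * Nat.gcdA n₁ n₂ + (n₂ : ℤ) * Nat.gcdB n₁ n₂ :=
      Nat.gcd_eq_gcd_ab n₁ n₂
    have h3 : (Nat.gcd n₁ n₂) • D
        = Nat.gcdA n₁ n₂ • (n₁ • D) + Nat.gcdB n₁ n₂ • (n₂ • D) := by
      rw [← natCast_zsmul D (Nat.gcd n₁ n₂), hbez, add_smul, mul_comm (n₁ : ℤ),
        mul_comm (n₂ : ℤ), mul_smul, mul_smul, natCast_zsmul, natCast_zsmul]
    rw [h3]
    exact AddSubgroup.add_mem _ (AddSubgroup.zsmul_mem _ hn₁ _) (AddSubgroup.zsmul_mem _ hn₂ _)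

/-- **S37 from the two-level geometric packages, S18 and the Hecke inputs.** -/
theorem tv1_final (N p : ℕ) [NeZero N] (hcomm : HeckeOperatorsCommuteBar N)
    (hS18 : ∀ (M : ℕ) [NeZero M] (ℓ : ℕ), ℓ.Prime → ¬ ℓ ∣ M → ∀ A : ValuationSubring Qb,
      A.LiesOverPrime ℓ → top13_S18At M A ℓ)
    (hH : ∀ (ℓ : ℕ) (hℓ : ℓ.Prime), ¬ ℓ ∣ N →
      haveI : NeZero ℓ := ⟨hℓ.ne_zero⟩
      HeckeInputsAlong Qb N ℓ)
    (hgeo : ∀ p₀ : ℕ, p₀ = 2 ∨ p₀ = 3 → ∀ (ℓ : ℕ) (hℓ : ℓ.Prime), ¬ ℓ ∣ N → ℓ ≠ p₀ →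
      ∀ A : ValuationSubring Qb, A.LiesOverPrime ℓ → ∀ [NeZero (Nat.lcm N p₀)],
      haveI : NeZero ℓ := ⟨hℓ.ne_zero⟩
      tv1_Geo N (Nat.lcm N p₀) (Nat.dvd_lcm_left N p₀) ℓ A) :
    letI := ModularCurve.heckeModuleBar N
    ∀ (_ : SMulCommClass GQ ModularCurve.HeckeAlg (ModularCurve.JZero N)),
      ModularCurve.SpecializationExists (K := ℚ) (L := Qb) N p (ModularCurve.JZero N) := by
  refine tv1_S37_of_divHom N p hcomm ?_
  intro ℓ hℓ hN hp A hA φ hφ
  haveI : NeZero ℓ := ⟨hℓ.ne_zero⟩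
  obtain ⟨hα, hβ, hP, hfin, hFI, hNF⟩ := hH ℓ hℓ hN
  haveI := hP
  have key : ∀ p₀ : ℕ, p₀.Prime → (p₀ = 2 ∨ p₀ = 3) → ℓ ≠ p₀ →
      tv1_Pack N p ℓ A hα hβ (dedekindPsi (Nat.lcm N p₀) / dedekindPsi N) := by
    intro p₀ hp₀ h23 hne
    haveI : NeZero (Nat.lcm N p₀) := ⟨Nat.lcm_ne_zero (NeZero.ne N) hp₀.ne_zero⟩
    have hℓN' : ¬ ℓ ∣ Nat.lcm N p₀ := by
      intro hdvd
      have h1 : ℓ ∣ N * p₀ := hdvd.trans (Nat.lcm_dvd_mul N p₀)
      rcases (Nat.Prime.dvd_mul hℓ).mp h1 with h2 | h2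
      · exact hN h2
      · exact hne ((Nat.prime_dvd_prime_iff_eq hℓ hp₀).mp h2)
    exact tv1_pack_of_geo (Nat.dvd_lcm_left N p₀) hℓ p hp hA
      (hS18 (Nat.lcm N p₀) ℓ hℓ hℓN' A hA) hα hβ (hgeo p₀ h23 ℓ hℓ hN hne A hA)
  have hpack : ∃ n : ℕ, Nat.Coprime n p ∧ tv1_Pack N p ℓ A hα hβ n := by
    by_cases h2 : ℓ = 2
    · refine ⟨_, ?_, key 3 Nat.prime_three (Or.inr rfl) (by omega)⟩
      rcases Fermat.Agent.S18.nd38_psi_lcm N 3 Nat.prime_three with h | h
      · rw [h]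
        exact Nat.coprime_one_left _
      · rw [h, show 3 + 1 = 2 ^ 2 from rfl]
        refine Nat.Coprime.pow_left 2 ?_
        rw [Nat.Prime.coprime_iff_not_dvd Nat.prime_two]
        rw [h2] at hp
        exact hp
    by_cases h3 : ℓ = 3
    · refine ⟨_, ?_, key 2 Nat.prime_two (Or.inl rfl) (by omega)⟩
      rcases Fermat.Agent.S18.nd38_psi_lcm N 2 Nat.prime_two with h | h
      · rw [h]
        exact Nat.coprime_one_left _
      · rw [h, show 2 + 1 = 3 from rfl, Nat.Prime.coprime_iff_not_dvd Nat.prime_three]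
        rw [h3] at hp
        exact hp
    · refine ⟨_, ?_, tv1_pack_prod (key 2 Nat.prime_two (Or.inl rfl) h2)
        (key 3 Nat.prime_three (Or.inr rfl) h3)⟩
      have hg : Nat.gcd (dedekindPsi (Nat.lcm N 2) / dedekindPsi N)
          (dedekindPsi (Nat.lcm N 3) / dedekindPsi N) = 1 := by
        rcases Fermat.Agent.S18.nd38_psi_lcm N 2 Nat.prime_two with h | h <;>
          rcases Fermat.Agent.S18.nd38_psi_lcm N 3 Nat.prime_three with h' | h' <;>
          rw [h, h'] <;> decide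
      rw [hg]
      exact Nat.coprime_one_left _
  obtain ⟨n, hn, G, instG, c, Fr, V, h1, h2, h3, h4, h5⟩ := hpack
  refine ⟨hα, hβ, hP, hfin, hFI, hNF, G, instG, c, Fr, V, h1, h2, h3, h4, ?_⟩
  rintro D hD hcD ⟨k, hk⟩
  have hnD := h5 D hD hcD ⟨k, hk⟩
  have hcop : Nat.Coprime n (p ^ k) := Nat.Coprime.pow_right k hn
  have hbez : (1 : ℤ) = (n : ℤ) * Nat.gcdA n (p ^ k) + ((p ^ k : ℕ) : ℤ) * Nat.gcdB n (p ^ k) := by
    have := Nat.gcd_eq_gcd_ab n (p ^ k)
    rw [hcop] at this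
    exact_mod_cast this
  have h6 : D = Nat.gcdA n (p ^ k) • (n • D) + Nat.gcdB n (p ^ k) • ((p ^ k) • D) := by
    conv_lhs => rw [← one_zsmul D, hbez, add_smul, mul_comm (n : ℤ),
      mul_comm ((p ^ k : ℕ) : ℤ), mul_smul, mul_smul, natCast_zsmul, natCast_zsmul]
  rw [h6]
  exact AddSubgroup.add_mem _ (AddSubgroup.zsmul_mem _ hnD _) (AddSubgroup.zsmul_mem _ hk _)

end Fermat.Agent.S37
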