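import Fermat.Agent.S37.ClosedES49
import Fermat.Agent.S37.LevelUpConc1

/-!
# S37, row ES1 (helper49), part 5: mixed-level ES1 in the vocabulary of Route V (`tv1_pull`)

`tv1_Geo` (GeoV1) asks, for a Prelude place reduction `r0` at level `N'` and the pull-back
`tv1_pull h : Div F(N) →+ Div F(N')`, for the Eichler–Shimura relation on single places of
`F(N)`.  Here is its principal-divisor case (the `hES1` of `pe17_weak` for
`R := r0_* ∘ tv1_pull h`), with every other input discharged.

* `mx49_conserves_tv1` : `r0_* ∘ tv1_pull h` is conserving.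
* `mx49_tv1_principal` / `mx49_tv1_principal_nat` : for every principal divisor `D` of `F(N)`,
  `r0_* π^* (T_ℓ D) = φ_* (r0_* π^* D) + ℓ • φ⁻¹_* (r0_* π^* D)`, `φ = fr66_resGalois N' φk`
  (scalar `(ℓ : ℤ)` resp. `ℓ : ℕ`).
-/

set_option autoImplicit false
set_option linter.style.haveILetI false
set_option linter.unusedSectionVars false
set_option synthInstance.maxHeartbeats 400000

namespace Fermat.Agent.S37

open ModularCurve AlgebraicCurve

local notation "Qb" => AlgebraicClosure ℚ

section TV

variable {N N' ℓ : ℕ} [NeZero N] [NeZero N'] [NeZero ℓ]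

/-- `r0_* ∘ tv1_pull h` is a conserving divisor map, for a Prelude place reduction `r0` at
level `N'`. -/
theorem mx49_conserves_tv1 (h : N ∣ N') {A : ValuationSubring Qb}
    {r0 : Place Qb (modularFunctionFieldBar N') →
      Place (IsLocalRing.ResidueField A)
        (modularFunctionFieldFullC (IsLocalRing.ResidueField A) N')}
    (hr : IsPlaceReductionModL A N' r0) :
    mx49_Conserves A (IsLocalRing.residue A) N N'
      ((Finsupp.mapDomain.addMonoidHom r0).comp (tv1_pull h)) := by
  haveI := hi63_hasPrincipalDivisors_bar N'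
  exact mx49_conserves_pullback (tv1_iota h) (tv1_iota_integral h) (tv1_coe_iota h) hr

set_option maxHeartbeats 1000000 in
/-- **Mixed-level row ES1 in Route-V vocabulary** (integer scalar): the `hES1` of `pe17_weak`
for `R := r0_* ∘ tv1_pull h`, `T := heckeDivBar hα hβ`. -/
theorem mx49_tv1_principal (hl : ℓ.Prime) (hN : ¬ ℓ ∣ N) (A : ValuationSubring Qb)
    (hA : A.LiesOverPrime ℓ) (h : N ∣ N')
    {r0 : Place Qb (modularFunctionFieldBar N') →
      Place (IsLocalRing.ResidueField A)
        (modularFunctionFieldFullC (IsLocalRing.ResidueField A) N')}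
    (hr : IsPlaceReductionModL A N' r0)
    (hα : HeckeAlphaBarIntegral Qb N ℓ) (hβ : HeckeBetaBarIntegral Qb N ℓ)
    [HasPrincipalDivisors Qb (modularFunctionFieldBar (N * ℓ))]
    (φk : IsLocalRing.ResidueField A ≃+* IsLocalRing.ResidueField A)
    (hφ : ∀ x, φk x = x ^ ℓ) :
    ∀ D ∈ Divisor.principal (K := Qb) (F := modularFunctionFieldBar N),
      Finsupp.mapDomain r0 (tv1_pull h (heckeDivBar hα hβ D)) =
        Finsupp.mapDomain (fun Q => fr66_resGalois N' φk • Q)
            (Finsupp.mapDomain r0 (tv1_pull h D)) +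
          (ℓ : ℤ) • Finsupp.mapDomain (fun Q => (fr66_resGalois N' φk)⁻¹ • Q)
            (Finsupp.mapDomain r0 (tv1_pull h D)) := by
  have hρ := mx49_conserves_tv1 h hr
  exact mx49_closed hl hN A hA h hρ hα hβ φk hφ

set_option maxHeartbeats 1000000 in
/-- `mx49_tv1_principal` with the `ℕ`-scalar (the literal shape of clause 4 of `tv1_Geo`, for a
principal divisor in place of `single P 1`). -/
theorem mx49_tv1_principal_nat (hl : ℓ.Prime) (hN : ¬ ℓ ∣ N) (A : ValuationSubring Qb)
    (hA : A.LiesOverPrime ℓ) (h : N ∣ N')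
    {r0 : Place Qb (modularFunctionFieldBar N') →
      Place (IsLocalRing.ResidueField A)
        (modularFunctionFieldFullC (IsLocalRing.ResidueField A) N')}
    (hr : IsPlaceReductionModL A N' r0)
    (hα : HeckeAlphaBarIntegral Qb N ℓ) (hβ : HeckeBetaBarIntegral Qb N ℓ)
    [HasPrincipalDivisors Qb (modularFunctionFieldBar (N * ℓ))]
    (φk : IsLocalRing.ResidueField A ≃+* IsLocalRing.ResidueField A)
    (hφ : ∀ x, φk x = x ^ ℓ) :
    ∀ D ∈ Divisor.principal (K := Qb) (F := modularFunctionFieldBar N),
      Finsupp.mapDomain r0 (tv1_pull h (heckeDivBar hα hβ D)) =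
        Finsupp.mapDomain (fun Q => fr66_resGalois N' φk • Q)
            (Finsupp.mapDomain r0 (tv1_pull h D)) +
          ℓ • Finsupp.mapDomain (fun Q => (fr66_resGalois N' φk)⁻¹ • Q)
            (Finsupp.mapDomain r0 (tv1_pull h D)) := by
  intro D hD
  have h1 := mx49_tv1_principal hl hN A hA h hr hα hβ φk hφ D hD
  rw [natCast_zsmul] at h1
  exact h1

end TV

end Fermat.Agent.S37
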