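import Fermat.Agent.S37.DegZeroAbs64
import Fermat.Agent.S37.GeoV1
import Fermat.Agent.S37.MixedTV49

/-!
# S37, row ESZ-TopEntry (helper64): the two-level top in DEGREE-ZERO form

The weak-Riemann shortcut (helper66): Eichler-Shimura on PRINCIPAL divisors (row ES1, on main:
`mx49_tv1_principal_nat`) already gives Eichler-Shimura on all divisors of degree zero, by
`h64_degZero_of_bounded`.  This file is the top entry that consumes exactly that:

* `h64_S37_of_divHom0` : `tv1_S37_of_divHom` with the Eichler-Shimura hypothesis asked only for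
  divisors of degree zero;
* `h64_RC N' A` : what the reduction rows have to deliver at the auxiliary level `N'`: a Prelude
  place reduction `r0`, `PrincipalGeneratedByIntegral`, and equivariance under the decomposition
  group (clauses 1-3 of `tv1_Geo`; NO tube functions, NO classes, NO support statement);
* `h64_es_degZero` : Eichler-Shimura for `r0_* ∘ π^*` on divisors of degree zero of `F(N)`, from
  a Prelude place reduction at level `N'` and the weak Riemann property of `F(N)`;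
* `h64_pack_of_rc`, `h64_final0` : the frozen statement S37 from statement S18 (all levels), the
  Hecke inputs at level `N`, the weak Riemann property of `F(N)` and `h64_RC (lcm N p₀) A` for
  `p₀ ∈ {2, 3}`, `p₀ ≠ ℓ`.
-/

set_option autoImplicit false
set_option linter.style.haveILetI false
set_option synthInstance.maxHeartbeats 400000
set_option maxHeartbeats 1600000

namespace Fermat.Agent.S37

open ModularCurve AlgebraicCurve

local notation "Qb" => AlgebraicClosure ℚ
local notation "GQ" => AlgebraicClosure ℚ ≃ₐ[ℚ] AlgebraicClosure ℚ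

section DivHom

/-- A relation `c ∘ T = Fr ∘ c + ℓ • V ∘ c` on divisors of degree zero, applied to a Galois
translate of a divisor of degree zero. -/
theorem h64_hecke_degZero {K F : Type} [Field K] [Field F] [Algebra K F] {G : Type}
    [AddCommGroup G] (c : Divisor K F →+ G) (Fr V : G →+ G) (ℓ : ℕ)
    (T : Divisor K F →+ Divisor K F)
    (hT : ∀ D : Divisor K F, Divisor.degree D = 0 → c (T D) = Fr (c D) + ℓ • V (c D))
    (g : SemilinearAut K F) (D : Divisor.degZero (K := K) (F := F)) :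
    c (T (g • (D : Divisor K F)))
      = Fr (c (g • (D : Divisor K F))) + ℓ • V (c (g • (D : Divisor K F))) :=
  hT _ (Divisor.mem_degZero.mp (SemilinearAut.smul_mem_degZero g D.2))

/-- **S37 from a homomorphism on divisors, degree-zero form**: `tv1_S37_of_divHom` with the
Eichler-Shimura relation asked only for divisors of degree zero. -/
theorem h64_S37_of_divHom0 (N p : ℕ) [NeZero N] (hcomm : HeckeOperatorsCommuteBar N)
    (key : ∀ (ℓ : ℕ) (hℓ : ℓ.Prime), ¬ ℓ ∣ N → ¬ ℓ ∣ p → ∀ A : ValuationSubring Qb,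
      A.LiesOverPrime ℓ → ∀ φ : GQ, A.IsFrobeniusAt φ ℓ →
      haveI : NeZero ℓ := ⟨hℓ.ne_zero⟩
      ∃ (hα : HeckeAlphaBarIntegral Qb N ℓ) (hβ : HeckeBetaBarIntegral Qb N ℓ)
        (_ : HasPrincipalDivisors Qb (modularFunctionFieldBar (N * ℓ)))
        (hfin : FiniteAlong Qb (heckeAlphaBar Qb N ℓ))
        (_ : FundamentalIdentityAlong Qb (heckeBetaBar Qb N ℓ) hβ)
        (_ : NormFormulaAlong Qb (heckeAlphaBar Qb N ℓ) hfin)
        (G : Type) (_ : AddCommGroup G)
        (c : Divisor Qb (modularFunctionFieldBar N) →+ G) (Fr V : G →+ G),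
        (∀ x : G, V (Fr x) = x) ∧
        (∀ τ ∈ A.inertiaSubgroupIn ℚ, ∀ D : Divisor Qb (modularFunctionFieldBar N),
          c (arithmeticGalois (modularFunctionFieldFull N) τ • D) = c D) ∧
        (∀ σ : GQ, A.IsFrobeniusAt σ ℓ → ∀ D : Divisor Qb (modularFunctionFieldBar N),
          c (arithmeticGalois (modularFunctionFieldFull N) σ • D) = Fr (c D)) ∧
        (∀ D : Divisor Qb (modularFunctionFieldBar N), Divisor.degree D = 0 →
          c (heckeDivBar hα hβ D) = Fr (c D) + ℓ • V (c D)) ∧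
        (∀ D : Divisor Qb (modularFunctionFieldBar N), Divisor.degree D = 0 →
          c D = 0 →
          (∃ n : ℕ, p ^ n • D ∈ Divisor.principal (K := Qb) (F := modularFunctionFieldBar N)) →
          D ∈ Divisor.principal (K := Qb) (F := modularFunctionFieldBar N))) :
    letI := ModularCurve.heckeModuleBar N
    ∀ (_ : SMulCommClass GQ ModularCurve.HeckeAlg (ModularCurve.JZero N)),
      ModularCurve.SpecializationExists (K := ℚ) (L := Qb) N p (ModularCurve.JZero N) := by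
  refine h14_S37_of_red N p hcomm ?_
  intro ℓ hℓ hN hp A hA φ hφ
  haveI : NeZero ℓ := ⟨hℓ.ne_zero⟩
  obtain ⟨hα, hβ, hP, hfin, hFI, hNF, G, instG, c, Fr, V, hVF, hin, hfr, hES, hinj⟩ :=
    key ℓ hℓ hN hp A hA φ hφ
  set g := arithmeticGalois (L := Qb) (modularFunctionFieldFull N) φ with hg
  have hgc : ∀ D : Divisor Qb (modularFunctionFieldBar N), c (g • D) = Fr (c D) := hfr φ hφ
  refine ⟨G ⧸ tv1_cprin c, inferInstance, tv1_red c, tv1_frob c Fr g hgc, ?_, ?_, ?_, ?_⟩
  · intro τ hτ x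
    rw [galois_smul_pic0_def]
    exact tv1_red_smul_of_fix c _ (hin τ hτ) x
  · intro σ hσ x
    rw [galois_smul_pic0_def]
    exact tv1_red_smul_of_frob c Fr g hgc _ (hfr σ hσ) x
  · intro x
    obtain ⟨D, rfl⟩ := Pic0.mk_surjective x
    have e1 : φ • Pic0.mk D = Pic0.mk (SemilinearAut.degZeroSMulHom g D) := by
      rw [galois_smul_pic0_def]
      rfl
    have e2 : φ • Pic0.mk (SemilinearAut.degZeroSMulHom g D)
        = Pic0.mk (SemilinearAut.degZeroSMulHom g (SemilinearAut.degZeroSMulHom g D)) := by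
      rw [galois_smul_pic0_def]
      rfl
    have e3 : heckeOperatorBar N ⟨ℓ, hℓ⟩ (Pic0.mk (SemilinearAut.degZeroSMulHom g D))
        = Pic0.mk (Pic0.degZeroCorrespondence (heckeBetaBar Qb N ℓ) (heckeAlphaBar Qb N ℓ) hβ hα
            hFI (SemilinearAut.degZeroSMulHom g D)) := by
      refine (heckeOperatorBar_apply N ⟨ℓ, hℓ⟩ _).trans ?_
      rw [heckeOperatorAlong_eq hα hβ hFI hfin hNF]
      rfl
    rw [map_add, map_sub, map_nsmul, e1, e2, e3]
    rw [tv1_red_mk, tv1_red_mk, tv1_red_mk]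
    rw [← map_nsmul, ← map_sub, ← map_add]
    have hz : c ((SemilinearAut.degZeroSMulHom g (SemilinearAut.degZeroSMulHom g D) :
          Divisor.degZero (K := Qb) (F := modularFunctionFieldBar N)) : Divisor Qb _)
        - c ((Pic0.degZeroCorrespondence (heckeBetaBar Qb N ℓ) (heckeAlphaBar Qb N ℓ)
            hβ hα hFI (SemilinearAut.degZeroSMulHom g D) :
              Divisor.degZero (K := Qb) (F := modularFunctionFieldBar N)) : Divisor Qb _)
        + ℓ • c (D : Divisor Qb _) = 0 := by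
      have h1 : c ((SemilinearAut.degZeroSMulHom g (SemilinearAut.degZeroSMulHom g D) :
          Divisor.degZero (K := Qb) (F := modularFunctionFieldBar N)) : Divisor Qb _)
          = Fr (Fr (c (D : Divisor Qb _))) := by
        rw [SemilinearAut.coe_degZeroSMulHom, SemilinearAut.coe_degZeroSMulHom, hgc, hgc]
      have h2 := h64_hecke_degZero c Fr V ℓ (heckeDivBar hα hβ) hES g D
      have h3 : c ((Pic0.degZeroCorrespondence (heckeBetaBar Qb N ℓ)
          (heckeAlphaBar Qb N ℓ) hβ hα hFI (SemilinearAut.degZeroSMulHom g D) :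
            Divisor.degZero (K := Qb) (F := modularFunctionFieldBar N)) : Divisor Qb _)
          = c (heckeDivBar hα hβ (g • (D : Divisor Qb _))) := rfl
      rw [h1, h3, h2, hgc, hVF]
      abel
    rw [hz, map_zero]
  · intro x hx htors
    obtain ⟨n, hn⟩ := htors
    exact tv1_red_inj c (p ^ n) (fun D hD hc hm => hinj D hD hc ⟨n, hm⟩) x hx hn

end DivHom

section ES

variable {N N' ℓ : ℕ} [NeZero N] [NeZero N'] [NeZero ℓ]

/-- All places of `F(M)` have degree one. -/
theorem h64_deg_eq_one (M : ℕ) [NeZero M] (v : Place Qb (modularFunctionFieldBar M)) :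
    v.deg = 1 := by
  haveI := hi63_finite_x M
  exact Fermat.Agent.S24.wp1_deg_eq_one (hi63_x M) (hi63_x_transcendental M) v

/-- `π^*` preserves effective divisors. -/
theorem h64_pull_nonneg (h : N ∣ N') (D : Divisor Qb (modularFunctionFieldBar N))
    (hD : ∀ v, 0 ≤ D v) (w : Place Qb (modularFunctionFieldBar N')) : 0 ≤ tv1_pull h D w := by
  rw [tv1_pull_apply]
  exact mul_nonneg (Nat.cast_nonneg _) (hD _)

/-- **Eichler-Shimura on divisors of degree zero** for `r0_* ∘ π^*`, from a Prelude place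
reduction at level `N'` and the weak Riemann property of `F(N)`. -/
theorem h64_es_degZero (hl : ℓ.Prime) (hN : ¬ ℓ ∣ N) (A : ValuationSubring Qb)
    (hA : A.LiesOverPrime ℓ) (h : N ∣ N')
    {r0 : Place Qb (modularFunctionFieldBar N') →
      Place (IsLocalRing.ResidueField A)
        (modularFunctionFieldFullC (IsLocalRing.ResidueField A) N')}
    (hr : IsPlaceReductionModL A N' r0)
    (hα : HeckeAlphaBarIntegral Qb N ℓ) (hβ : HeckeBetaBarIntegral Qb N ℓ)
    [HasPrincipalDivisors Qb (modularFunctionFieldBar (N * ℓ))]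
    (hFI : FundamentalIdentityAlong Qb (heckeBetaBar Qb N ℓ) hβ)
    (hWR : ∃ B : ℕ, ∀ (P P0 : Place Qb (modularFunctionFieldBar N)) (m : ℕ),
      ∃ f : modularFunctionFieldBar N, f ≠ 0 ∧
        ∃ G1 G2 : Divisor Qb (modularFunctionFieldBar N),
          0 ≤ G1 ∧ 0 ≤ G2 ∧ Divisor.degree G1 ≤ B ∧ Divisor.degree G2 ≤ B ∧
          ∀ v : Place Qb (modularFunctionFieldBar N), v.ord f
            = (m : ℤ) * (Finsupp.single P0 (1 : ℤ) v - Finsupp.single P (1 : ℤ) v)
              + G1 v - G2 v)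
    (φk : IsLocalRing.ResidueField A ≃+* IsLocalRing.ResidueField A)
    (hφ : ∀ x, φk x = x ^ ℓ)
    (D : Divisor Qb (modularFunctionFieldBar N)) (hD : Divisor.degree D = 0) :
    Finsupp.mapDomain r0 (tv1_pull h (heckeDivBar hα hβ D)) =
      Finsupp.mapDomain (fun Q => fr66_resGalois N' φk • Q)
          (Finsupp.mapDomain r0 (tv1_pull h D)) +
        ℓ • Finsupp.mapDomain (fun Q => (fr66_resGalois N' φk)⁻¹ • Q)
          (Finsupp.mapDomain r0 (tv1_pull h D)) := by
  haveI := hi63_hasPrincipalDivisors_bar N'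
  exact h64_es_mapDomain (h64_deg_eq_one N) (h64_deg_eq_one N') hWR (tv1_pull h)
    (finrankAlong Qb (tv1_iota h) : ℤ) (h64_pull_nonneg h) (tv1_degree_pull h)
    (heckeDivBar hα hβ) (finrankAlong Qb (heckeBetaBar Qb N ℓ) : ℤ)
    (fun E hE => h64_correspondence_nonneg (heckeBetaBar Qb N ℓ) (heckeAlphaBar Qb N ℓ) hβ hα E hE)
    (fun E => Divisor.degree_correspondence (heckeBetaBar Qb N ℓ) (heckeAlphaBar Qb N ℓ) hβ hα
      hFI E)
    r0 (fun Q => fr66_resGalois N' φk • Q) (fun Q => (fr66_resGalois N' φk)⁻¹ • Q) ℓ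
    (mx49_tv1_principal_nat hl hN A hA h hr hα hβ φk hφ) D hD

end ES

section Top

/-- What the reduction rows have to deliver at the auxiliary level `N'`: a Prelude place
reduction, generation of the principal divisors by integral functions, and equivariance under
the decomposition group (clauses 1-3 of `tv1_Geo`). -/
def h64_RC (N' : ℕ) [NeZero N'] (A : ValuationSubring Qb) : Prop :=
  ∃ r0 : Place Qb (modularFunctionFieldBar N') →
      Place (IsLocalRing.ResidueField A)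
        (modularFunctionFieldFullC (IsLocalRing.ResidueField A) N'),
    IsPlaceReductionModL A N' r0 ∧
    PrincipalGeneratedByIntegral A (IsLocalRing.residue A) N' ∧
    (∀ (σ : GQ) (hσ : σ ∈ A.decompositionSubgroup ℚ)
      (P : Place Qb (modularFunctionFieldBar N')),
      r0 (arithmeticGalois (modularFunctionFieldFull N') σ • P)
        = fr66_resGalois N' (MulSemiringAction.toRingEquiv (A.decompositionSubgroup ℚ)
            (IsLocalRing.ResidueField A) ⟨σ, hσ⟩) • r0 P)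

/-- The first three clauses of `tv1_Geo` give `h64_RC`. -/
theorem h64_rc_of_geo {N N' : ℕ} [NeZero N] [NeZero N'] (h : N ∣ N') {ℓ : ℕ} [NeZero ℓ]
    {A : ValuationSubring Qb}
    (hα : HeckeAlphaBarIntegral Qb N ℓ) (hβ : HeckeBetaBarIntegral Qb N ℓ)
    (hP : HasPrincipalDivisors Qb (modularFunctionFieldBar (N * ℓ)))
    (hgeo : tv1_Geo N N' h ℓ A) : h64_RC N' A := by
  obtain ⟨r0, hr, hgen, hequiv, -⟩ := hgeo hα hβ hP
  exact ⟨r0, hr, hgen, hequiv⟩

/-- The intermediate package of `GeoV1` with Eichler-Shimura on divisors of degree zero. -/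
def h64_Pack0 (N p ℓ : ℕ) [NeZero N] [NeZero ℓ] (A : ValuationSubring Qb)
    (hα : HeckeAlphaBarIntegral Qb N ℓ) (hβ : HeckeBetaBarIntegral Qb N ℓ)
    [HasPrincipalDivisors Qb (modularFunctionFieldBar (N * ℓ))] (n : ℕ) : Prop :=
  ∃ (G : Type) (_ : AddCommGroup G)
    (c : Divisor Qb (modularFunctionFieldBar N) →+ G) (Fr V : G →+ G),
    (∀ x : G, V (Fr x) = x) ∧
    (∀ τ ∈ A.inertiaSubgroupIn ℚ, ∀ D : Divisor Qb (modularFunctionFieldBar N),
      c (arithmeticGalois (modularFunctionFieldFull N) τ • D) = c D) ∧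
    (∀ σ : GQ, A.IsFrobeniusAt σ ℓ → ∀ D : Divisor Qb (modularFunctionFieldBar N),
      c (arithmeticGalois (modularFunctionFieldFull N) σ • D) = Fr (c D)) ∧
    (∀ D : Divisor Qb (modularFunctionFieldBar N), Divisor.degree D = 0 →
      c (heckeDivBar hα hβ D) = Fr (c D) + ℓ • V (c D)) ∧
    (∀ D : Divisor Qb (modularFunctionFieldBar N), Divisor.degree D = 0 → c D = 0 →
      (∃ k : ℕ, p ^ k • D ∈ Divisor.principal (K := Qb) (F := modularFunctionFieldBar N)) →
      n • D ∈ Divisor.principal (K := Qb) (F := modularFunctionFieldBar N))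

/-- From the reduction data at level `N'`, S18 at level `N'` and the weak Riemann property of
`F(N)` to a package at level `N`. -/
theorem h64_pack_of_rc {N N' : ℕ} [NeZero N] [NeZero N'] (h : N ∣ N') {ℓ : ℕ} (hℓ : ℓ.Prime)
    [NeZero ℓ] (hN : ¬ ℓ ∣ N) (p : ℕ) (hℓp : ¬ ℓ ∣ p) {A : ValuationSubring Qb}
    (hA : A.LiesOverPrime ℓ) (hS18 : top13_S18At N' A ℓ)
    (hα : HeckeAlphaBarIntegral Qb N ℓ) (hβ : HeckeBetaBarIntegral Qb N ℓ)
    [hP : HasPrincipalDivisors Qb (modularFunctionFieldBar (N * ℓ))]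
    (hFI : FundamentalIdentityAlong Qb (heckeBetaBar Qb N ℓ) hβ)
    (hWR : ∃ B : ℕ, ∀ (P P0 : Place Qb (modularFunctionFieldBar N)) (m : ℕ),
      ∃ f : modularFunctionFieldBar N, f ≠ 0 ∧
        ∃ G1 G2 : Divisor Qb (modularFunctionFieldBar N),
          0 ≤ G1 ∧ 0 ≤ G2 ∧ Divisor.degree G1 ≤ B ∧ Divisor.degree G2 ≤ B ∧
          ∀ v : Place Qb (modularFunctionFieldBar N), v.ord f
            = (m : ℤ) * (Finsupp.single P0 (1 : ℤ) v - Finsupp.single P (1 : ℤ) v)
              + G1 v - G2 v)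
    (hrc : h64_RC N' A) :
    h64_Pack0 N p ℓ A hα hβ (dedekindPsi N' / dedekindPsi N) := by
  obtain ⟨r0, hr, hgen, hequiv⟩ := hrc
  obtain ⟨σ₀, hσ₀D, hσ₀x⟩ := h14_exists_isFrobeniusAt ℓ hℓ A hA
  set φk : IsLocalRing.ResidueField A ≃+* IsLocalRing.ResidueField A :=
    MulSemiringAction.toRingEquiv (A.decompositionSubgroup ℚ) (IsLocalRing.ResidueField A)
      ⟨σ₀, hσ₀D⟩ with hφk
  have hφkx : ∀ x : IsLocalRing.ResidueField A, φk x = x ^ ℓ := fun x => hσ₀x x
  -- place-level inertia invariance and Frobenius equivariance at level `N'`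
  have hin : ∀ τ ∈ A.inertiaSubgroupIn ℚ, ∀ P : Place Qb (modularFunctionFieldBar N'),
      r0 (arithmeticGalois (modularFunctionFieldFull N') τ • P) = r0 P := by
    intro τ hτ P
    obtain ⟨τ', hτ', rfl⟩ := Subgroup.mem_map.mp hτ
    have h1 : MulSemiringAction.toRingEquiv (A.decompositionSubgroup ℚ)
        (IsLocalRing.ResidueField A) τ' = 1 := by
      have h2 : MulSemiringAction.toRingAut (A.decompositionSubgroup ℚ)
          (IsLocalRing.ResidueField A) τ' = 1 := MonoidHom.mem_ker.mp hτ'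
      exact h2
    have h3 := hequiv ((A.decompositionSubgroup ℚ).subtype τ') τ'.2 P
    rw [h3]
    have h4 : (⟨(A.decompositionSubgroup ℚ).subtype τ', τ'.2⟩ : A.decompositionSubgroup ℚ)
        = τ' := rfl
    rw [h4, h1, map_one, one_smul]
  have hfr : ∀ σ : GQ, A.IsFrobeniusAt σ ℓ → ∀ P : Place Qb (modularFunctionFieldBar N'),
      r0 (arithmeticGalois (modularFunctionFieldFull N') σ • P)
        = fr66_resGalois N' φk • r0 P := by
    rintro σ ⟨hσD, hσx⟩ P
    have h1 : MulSemiringAction.toRingEquiv (A.decompositionSubgroup ℚ)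
        (IsLocalRing.ResidueField A) ⟨σ, hσD⟩ = φk := by
      ext y
      show (⟨σ, hσD⟩ : A.decompositionSubgroup ℚ) • y = φk y
      rw [hσx y, hφkx y]
    rw [hequiv σ hσD P, h1]
  refine ⟨Place (IsLocalRing.ResidueField A)
      (modularFunctionFieldFullC (IsLocalRing.ResidueField A) N') →₀ ℤ, inferInstance,
    (Finsupp.mapDomain.addMonoidHom r0).comp (tv1_pull h),
    Finsupp.mapDomain.addMonoidHom (fun Q => fr66_resGalois N' φk • Q),
    Finsupp.mapDomain.addMonoidHom (fun Q => (fr66_resGalois N' φk)⁻¹ • Q), ?_, ?_, ?_, ?_, ?_⟩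
  · intro x
    rw [Finsupp.mapDomain.addMonoidHom_apply, Finsupp.mapDomain.addMonoidHom_apply,
      ← Finsupp.mapDomain_comp]
    have hid : ((fun Q : Place (IsLocalRing.ResidueField A)
        (modularFunctionFieldFullC (IsLocalRing.ResidueField A) N') =>
          (fr66_resGalois N' φk)⁻¹ • Q) ∘ fun Q => fr66_resGalois N' φk • Q) = id :=
      funext fun Q => inv_smul_smul _ Q
    rw [hid, Finsupp.mapDomain_id]
  · intro τ hτ D
    show Finsupp.mapDomain r0 (tv1_pull h (arithmeticGalois (modularFunctionFieldFull N) τ • D))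
      = Finsupp.mapDomain r0 (tv1_pull h D)
    rw [tv1_pull_smul]
    have := h14_cpush_smul r0 id (arithmeticGalois (modularFunctionFieldFull N') τ)
      (hin τ hτ) (tv1_pull h D)
    rw [h14_cpush_apply, h14_cpush_apply, Finsupp.mapDomain_id] at this
    exact this
  · intro σ hσ D
    show Finsupp.mapDomain r0 (tv1_pull h (arithmeticGalois (modularFunctionFieldFull N) σ • D))
      = Finsupp.mapDomain (fun Q => fr66_resGalois N' φk • Q)
          (Finsupp.mapDomain r0 (tv1_pull h D))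
    rw [tv1_pull_smul]
    have := h14_cpush_smul r0 (fun Q => fr66_resGalois N' φk • Q)
      (arithmeticGalois (modularFunctionFieldFull N') σ) (hfr σ hσ) (tv1_pull h D)
    rw [h14_cpush_apply, h14_cpush_apply] at this
    exact this
  · intro D hD
    exact h64_es_degZero hℓ hN A hA h hr hα hβ hFI hWR φk hφkx D hD
  · rintro D hD hcD ⟨k, hk⟩
    have hcD' : Finsupp.mapDomain r0 (tv1_pull h D) = 0 := hcD
    have hE : tv1_pull h D ∈ Divisor.principal (K := Qb) (F := modularFunctionFieldBar N') := by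
      refine h14_principal_of_reduction_eq_zero hS18 hr hgen (m := p ^ k)
        (fun hdvd => hℓp (hℓ.dvd_of_dvd_pow hdvd)) (tv1_pull h D)
        (tv1_degree_pull_eq_zero h hD) hcD' ?_
      rw [← map_nsmul]
      exact tv1_pull_mem_principal h hk
    exact tv1_principal_of_pull h hE

/-- Two packages combine: injectivity up to the gcd of the two factors. -/
theorem h64_pack_prod0 {N p ℓ : ℕ} [NeZero N] [NeZero ℓ] {A : ValuationSubring Qb}
    {hα : HeckeAlphaBarIntegral Qb N ℓ} {hβ : HeckeBetaBarIntegral Qb N ℓ}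
    [HasPrincipalDivisors Qb (modularFunctionFieldBar (N * ℓ))] {n₁ n₂ : ℕ}
    (h₁ : h64_Pack0 N p ℓ A hα hβ n₁) (h₂ : h64_Pack0 N p ℓ A hα hβ n₂) :
    h64_Pack0 N p ℓ A hα hβ (Nat.gcd n₁ n₂) := by
  obtain ⟨G₁, _, c₁, Fr₁, V₁, a₁, b₁, d₁, e₁, f₁⟩ := h₁
  obtain ⟨G₂, _, c₂, Fr₂, V₂, a₂, b₂, d₂, e₂, f₂⟩ := h₂
  refine ⟨G₁ × G₂, inferInstance, c₁.prod c₂, Fr₁.prodMap Fr₂, V₁.prodMap V₂, ?_, ?_, ?_, ?_, ?_⟩
  · rintro ⟨x, y⟩
    exact Prod.ext (a₁ x) (a₂ y)
  · intro τ hτ D
    exact Prod.ext (b₁ τ hτ D) (b₂ τ hτ D)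
  · intro σ hσ D
    exact Prod.ext (d₁ σ hσ D) (d₂ σ hσ D)
  · intro D hD
    exact Prod.ext (e₁ D hD) (e₂ D hD)
  · intro D hD hcD hk
    have h1 : c₁ D = 0 := congrArg Prod.fst hcD
    have h2 : c₂ D = 0 := congrArg Prod.snd hcD
    have hn₁ := f₁ D hD h1 hk
    have hn₂ := f₂ D hD h2 hk
    have hbez : ((Nat.gcd n₁ n₂ : ℕ) : ℤ) = (n₁ : ℤ) * Nat.gcdA n₁ n₂ + (n₂ : ℤ) * Nat.gcdB n₁ n₂ :=
      Nat.gcd_eq_gcd_ab n₁ n₂
    have h3 : (Nat.gcd n₁ n₂) • D
        = Nat.gcdA n₁ n₂ • (n₁ • D) + Nat.gcdB n₁ n₂ • (n₂ • D) := by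
      rw [← natCast_zsmul D (Nat.gcd n₁ n₂), hbez, add_smul, mul_comm (n₁ : ℤ),
        mul_comm (n₂ : ℤ), mul_smul, mul_smul, natCast_zsmul, natCast_zsmul]
    rw [h3]
    exact AddSubgroup.add_mem _ (AddSubgroup.zsmul_mem _ hn₁ _) (AddSubgroup.zsmul_mem _ hn₂ _)

/-- **S37 from the reduction data at the levels `lcm N p₀`, S18, the Hecke inputs and the weak
Riemann property of `F(N)`** (two-level route, degree-zero form: no Eichler-Shimura relation on
single places, no tube functions). -/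
theorem h64_final0 (N p : ℕ) [NeZero N] (hcomm : HeckeOperatorsCommuteBar N)
    (hS18 : ∀ (M : ℕ) [NeZero M] (ℓ : ℕ), ℓ.Prime → ¬ ℓ ∣ M → ∀ A : ValuationSubring Qb,
      A.LiesOverPrime ℓ → top13_S18At M A ℓ)
    (hH : ∀ (ℓ : ℕ) (hℓ : ℓ.Prime), ¬ ℓ ∣ N →
      haveI : NeZero ℓ := ⟨hℓ.ne_zero⟩
      HeckeInputsAlong Qb N ℓ)
    (hWR : ∃ B : ℕ, ∀ (P P0 : Place Qb (modularFunctionFieldBar N)) (m : ℕ),
      ∃ f : modularFunctionFieldBar N, f ≠ 0 ∧
        ∃ G1 G2 : Divisor Qb (modularFunctionFieldBar N),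
          0 ≤ G1 ∧ 0 ≤ G2 ∧ Divisor.degree G1 ≤ B ∧ Divisor.degree G2 ≤ B ∧
          ∀ v : Place Qb (modularFunctionFieldBar N), v.ord f
            = (m : ℤ) * (Finsupp.single P0 (1 : ℤ) v - Finsupp.single P (1 : ℤ) v)
              + G1 v - G2 v)
    (hrc : ∀ p₀ : ℕ, p₀ = 2 ∨ p₀ = 3 → ∀ (ℓ : ℕ), ℓ.Prime → ¬ ℓ ∣ N → ℓ ≠ p₀ →
      ∀ A : ValuationSubring Qb, A.LiesOverPrime ℓ → ∀ [NeZero (Nat.lcm N p₀)],
      h64_RC (Nat.lcm N p₀) A) :
    letI := ModularCurve.heckeModuleBar N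
    ∀ (_ : SMulCommClass GQ ModularCurve.HeckeAlg (ModularCurve.JZero N)),
      ModularCurve.SpecializationExists (K := ℚ) (L := Qb) N p (ModularCurve.JZero N) := by
  refine h64_S37_of_divHom0 N p hcomm ?_
  intro ℓ hℓ hN hp A hA φ hφ
  haveI : NeZero ℓ := ⟨hℓ.ne_zero⟩
  obtain ⟨hα, hβ, hP, hfin, hFI, hNF⟩ := hH ℓ hℓ hN
  haveI := hP
  have key : ∀ p₀ : ℕ, p₀.Prime → (p₀ = 2 ∨ p₀ = 3) → ℓ ≠ p₀ →
      h64_Pack0 N p ℓ A hα hβ (dedekindPsi (Nat.lcm N p₀) / dedekindPsi N) := by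
    intro p₀ hp₀ h23 hne
    haveI : NeZero (Nat.lcm N p₀) := ⟨Nat.lcm_ne_zero (NeZero.ne N) hp₀.ne_zero⟩
    have hℓN' : ¬ ℓ ∣ Nat.lcm N p₀ := by
      intro hdvd
      have h1 : ℓ ∣ N * p₀ := hdvd.trans (Nat.lcm_dvd_mul N p₀)
      rcases (Nat.Prime.dvd_mul hℓ).mp h1 with h2 | h2
      · exact hN h2
      · exact hne ((Nat.prime_dvd_prime_iff_eq hℓ hp₀).mp h2)
    exact h64_pack_of_rc (Nat.dvd_lcm_left N p₀) hℓ hN p hp hA
      (hS18 (Nat.lcm N p₀) ℓ hℓ hℓN' A hA) hα hβ hFI hWR (hrc p₀ h23 ℓ hℓ hN hne A hA)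
  have hpack : ∃ n : ℕ, Nat.Coprime n p ∧ h64_Pack0 N p ℓ A hα hβ n := by
    by_cases h2 : ℓ = 2
    · refine ⟨_, ?_, key 3 Nat.prime_three (Or.inr rfl) (by omega)⟩
      rcases Fermat.Agent.S18.nd38_psi_lcm N 3 Nat.prime_three with h | h
      · rw [h]
        exact Nat.coprime_one_left _
      · rw [h, show 3 + 1 = 2 ^ 2 from rfl]
        refine Nat.Coprime.pow_left 2 ?_
        rw [Nat.Prime.coprime_iff_not_dvd Nat.prime_two]
        rw [h2] at hp
        exact hp
    by_cases h3 : ℓ = 3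
    · refine ⟨_, ?_, key 2 Nat.prime_two (Or.inl rfl) (by omega)⟩
      rcases Fermat.Agent.S18.nd38_psi_lcm N 2 Nat.prime_two with h | h
      · rw [h]
        exact Nat.coprime_one_left _
      · rw [h, show 2 + 1 = 3 from rfl, Nat.Prime.coprime_iff_not_dvd Nat.prime_three]
        rw [h3] at hp
        exact hp
    · refine ⟨_, ?_, h64_pack_prod0 (key 2 Nat.prime_two (Or.inl rfl) h2)
        (key 3 Nat.prime_three (Or.inr rfl) h3)⟩
      have hg : Nat.gcd (dedekindPsi (Nat.lcm N 2) / dedekindPsi N)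
          (dedekindPsi (Nat.lcm N 3) / dedekindPsi N) = 1 := by
        rcases Fermat.Agent.S18.nd38_psi_lcm N 2 Nat.prime_two with h | h <;>
          rcases Fermat.Agent.S18.nd38_psi_lcm N 3 Nat.prime_three with h' | h' <;>
          rw [h, h'] <;> decide
      rw [hg]
      exact Nat.coprime_one_left _
  obtain ⟨n, hn, G, instG, c, Fr, V, h1, h2, h3, h4, h5⟩ := hpack
  refine ⟨hα, hβ, hP, hfin, hFI, hNF, G, instG, c, Fr, V, h1, h2, h3, h4, ?_⟩
  rintro D hD hcD ⟨k, hk⟩
  have hnD := h5 D hD hcD ⟨k, hk⟩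
  have hcop : Nat.Coprime n (p ^ k) := Nat.Coprime.pow_right k hn
  have hbez : (1 : ℤ) = (n : ℤ) * Nat.gcdA n (p ^ k) + ((p ^ k : ℕ) : ℤ) * Nat.gcdB n (p ^ k) := by
    have := Nat.gcd_eq_gcd_ab n (p ^ k)
    rw [hcop] at this
    exact_mod_cast this
  have h6 : D = Nat.gcdA n (p ^ k) • (n • D) + Nat.gcdB n (p ^ k) • ((p ^ k) • D) := by
    conv_lhs => rw [← one_zsmul D, hbez, add_smul, mul_comm (n : ℤ),
      mul_comm ((p ^ k : ℕ) : ℤ), mul_smul, mul_smul, natCast_zsmul, natCast_zsmul]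
  rw [h6]
  exact AddSubgroup.add_mem _ (AddSubgroup.zsmul_mem _ hnD _) (AddSubgroup.zsmul_mem _ hk _)

end Top

end Fermat.Agent.S37
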