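import Fermat.Agent.S18
import Fermat.Agent.S37.DegZeroTop64

/-!
# S37, row ESZ-TopEntry (helper64): the frozen statement S37 modulo (WR) and (RC)

`h64_S37_of_WR_RC` : the frozen statement S37 (literal type) from

* `hWR` : the weak Riemann property of the function fields `F(M) = modularFunctionFieldBar M`
  (the conclusion of `wr15_main` / `wr86_exists`, literal shape), and
* `hrc` : `h64_RC M A` (a Prelude place reduction at level `M`, `PrincipalGeneratedByIntegral`,
  equivariance under the decomposition group) for the levels `M` divisible by `2` or `3` and the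
  primes `ℓ ∤ M`.

Everything else is discharged: statement S18 (`Fermat.Agent.S18.result`), the Hecke inputs
(`hi63_heckeInputsAlong`), Eichler-Shimura on principal divisors (`mx49_tv1_principal_nat`), the
passage to divisors of degree zero (`h64_es_mapDomain`) and the two-level torsion argument.
-/

set_option autoImplicit false
set_option linter.style.haveILetI false

namespace Fermat.Agent.S37

open ModularCurve AlgebraicCurve

local notation "Qb" => AlgebraicClosure ℚ

/-- **The frozen statement S37 from the weak Riemann property and the reduction data `h64_RC`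
at the levels divisible by `2` or `3`.** -/
theorem h64_S37_of_WR_RC (N p : ℕ) [NeZero N] (hcomm : ModularCurve.HeckeOperatorsCommuteBar N)
    (hWR : ∀ (M : ℕ) [NeZero M], ∃ B : ℕ,
      ∀ (P P0 : Place Qb (modularFunctionFieldBar M)) (m : ℕ),
      ∃ f : modularFunctionFieldBar M, f ≠ 0 ∧
        ∃ G1 G2 : Divisor Qb (modularFunctionFieldBar M),
          0 ≤ G1 ∧ 0 ≤ G2 ∧ Divisor.degree G1 ≤ B ∧ Divisor.degree G2 ≤ B ∧
          ∀ v : Place Qb (modularFunctionFieldBar M), v.ord f
            = (m : ℤ) * (Finsupp.single P0 (1 : ℤ) v - Finsupp.single P (1 : ℤ) v)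
              + G1 v - G2 v)
    (hrc : ∀ (M : ℕ) [NeZero M] (ℓ : ℕ), ℓ.Prime → ¬ ℓ ∣ M → (2 ∣ M ∨ 3 ∣ M) →
      ∀ A : ValuationSubring Qb, A.LiesOverPrime ℓ → h64_RC M A) :
    letI := ModularCurve.heckeModuleBar N
    ∀ (_ : SMulCommClass (AlgebraicClosure ℚ ≃ₐ[ℚ] AlgebraicClosure ℚ) ModularCurve.HeckeAlg
      (ModularCurve.JZero N)),
      ModularCurve.SpecializationExists (K := ℚ) (L := AlgebraicClosure ℚ) N p
        (ModularCurve.JZero N) := by
  refine h64_final0 N p hcomm ?_ ?_ (hWR N) ?_
  · intro M _ ℓ hℓ hM A hA h m hm z hmz hz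
    haveI : Fact ℓ.Prime := ⟨hℓ⟩
    exact Fermat.Agent.S18.result M hM A hA h m hm z hmz hz
  · intro ℓ hℓ hN
    haveI : NeZero ℓ := ⟨hℓ.ne_zero⟩
    exact hi63_heckeInputsAlong N ℓ
  · intro p₀ hp₀ ℓ hℓ hN hne A hA _
    have hp₀' : p₀.Prime := by
      rcases hp₀ with rfl | rfl
      · exact Nat.prime_two
      · exact Nat.prime_three
    refine hrc (Nat.lcm N p₀) ℓ hℓ ?_ ?_ A hA
    · intro hdvd
      have h1 : ℓ ∣ N * p₀ := hdvd.trans (Nat.lcm_dvd_mul N p₀)
      rcases (Nat.Prime.dvd_mul hℓ).mp h1 with h2 | h2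
      · exact hN h2
      · exact hne ((Nat.prime_dvd_prime_iff_eq hℓ hp₀').mp h2)
    · rcases hp₀ with rfl | rfl
      · exact Or.inl (Nat.dvd_lcm_right N 2)
      · exact Or.inr (Nat.dvd_lcm_right N 3)

end Fermat.Agent.S37
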