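import Mathlib
import Fermat.Agent.S37.FunFieldRel63

/-!
# S37 — a weak Riemann inequality (second seat for the `DegZeroES` shortcut)

`K` algebraically closed of characteristic `0`, `F / K` a function field (finite over `K(y)`,
`y` transcendental).  There is a bound `B` such that for all places `P`, `P0` and all `m` there
is `f ≠ 0` whose divisor is `m ([P0] - [P]) + G1 - G2` with `G1, G2 ≥ 0` of degree `≤ B`
(`wr15_main`).  No genus, no Riemann–Roch: only the dimension count
`dim {∑ pᵢ(y) bᵢ : deg pᵢ ≤ r} = d (r + 1)` against `deg (r (y)_∞ + D₀) = d r + deg D₀`, and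
"one more order of vanishing at a place costs at most one dimension".
-/

set_option autoImplicit false

open AlgebraicCurve IntermediateField

namespace Fermat.Agent.S37

open Fermat.Agent.S24

section filtration

variable {K F : Type*} [Field K] [Field F] [Algebra K F]

/-- The functions of order `≥ n` at `v` (together with `0`), as a `K`-subspace. -/
def wr15_L (v : Place K F) (n : ℤ) : Submodule K F where
  carrier := {u | u = 0 ∨ n ≤ v.ord u}
  zero_mem' := Or.inl rfl
  add_mem' := by
    rintro a b ha hb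
    by_cases hab : a + b = 0
    · exact Or.inl hab
    rcases ha with rfl | ha
    · rw [zero_add]; exact hb
    rcases hb with rfl | hb
    · rw [add_zero]; exact Or.inr ha
    by_cases ha0 : a = 0
    · rw [ha0, zero_add]; exact Or.inr hb
    by_cases hb0 : b = 0
    · rw [hb0, add_zero]; exact Or.inr ha
    exact Or.inr ((le_min ha hb).trans (wp1_ord_add v a b hab ha0 hb0))
  smul_mem' := by
    rintro c u hu
    rcases hu with rfl | hu
    · exact Or.inl (smul_zero c)
    by_cases hc : c = 0
    · exact Or.inl (by rw [hc, zero_smul])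
    by_cases hu0 : u = 0
    · exact Or.inl (by rw [hu0, smul_zero])
    right
    have hc' : algebraMap K F c ≠ 0 := by
      rw [Ne, map_eq_zero]; exact hc
    rw [Algebra.smul_def, v.ord_mul hc' hu0, wp1_ord_algebraMap, zero_add]
    exact hu

theorem wr15_mem_L (v : Place K F) (n : ℤ) (u : F) :
    u ∈ wr15_L v n ↔ u = 0 ∨ n ≤ v.ord u := Iff.rfl

theorem wr15_L_anti (v : Place K F) {n n' : ℤ} (h : n ≤ n') : wr15_L v n' ≤ wr15_L v n := by
  rintro u (rfl | hu)
  · exact Or.inl rfl
  · exact Or.inr (h.trans hu)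

end filtration

section codim

variable {K F : Type*} [Field K] [IsAlgClosed K] [Field F] [Algebra K F]

/-- One more order of vanishing at `v` costs at most one dimension. -/
theorem wr15_codim (y : F) (hy : Transcendental K y) [FiniteDimensional K⟮y⟯ F]
    (v : Place K F) (W : Submodule K F) [FiniteDimensional K W] (n : ℤ) :
    Module.finrank K ↥(W ⊓ wr15_L v n) ≤ Module.finrank K ↥(W ⊓ wr15_L v (n + 1)) + 1 := by
  classical
  by_cases hall : W ⊓ wr15_L v n ≤ W ⊓ wr15_L v (n + 1)
  · have hfd : FiniteDimensional K ↥(W ⊓ wr15_L v (n + 1)) :=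
      Submodule.finiteDimensional_of_le inf_le_left
    exact (Submodule.finrank_mono hall).trans (Nat.le_succ _)
  · obtain ⟨g, hg, hg'⟩ := SetLike.not_le_iff_exists.mp hall
    have hgW : g ∈ W := hg.1
    have hgn : g ∈ wr15_L v n := hg.2
    have hg1 : g ∉ wr15_L v (n + 1) := fun h => hg' ⟨hgW, h⟩
    have hg0 : g ≠ 0 := fun h => hg1 (Or.inl h)
    have hordg : v.ord g = n := by
      rcases hgn with h | h
      · exact absurd h hg0
      · have : ¬ n + 1 ≤ v.ord g := fun h' => hg1 (Or.inr h')
        omega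
    have hle : W ⊓ wr15_L v n ≤ (W ⊓ wr15_L v (n + 1)) ⊔ Submodule.span K {g} := by
      rintro u ⟨huW, hun⟩
      by_cases hu0 : u = 0
      · rw [hu0]; exact zero_mem _
      have hordu : n ≤ v.ord u := hun.resolve_left hu0
      have hq : u * g⁻¹ ∈ v.toValuationSubring := by
        rw [wp1_mem_iff_ord_nonneg, v.ord_mul hu0 (inv_ne_zero hg0), v.ord_inv, hordg]
        omega
      obtain ⟨c, hc⟩ := wp1_exists_const y hy v (u * g⁻¹) hq
      have hdecomp : u = (u - c • g) + c • g := by ring
      rw [hdecomp]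
      refine Submodule.add_mem_sup ⟨W.sub_mem huW (W.smul_mem c hgW), ?_⟩
        (Submodule.smul_mem _ c (Submodule.mem_span_singleton_self g))
      rcases hc with hc | hc
      · left
        have : u = algebraMap K F c * g := by
          rw [← hc, mul_assoc, inv_mul_cancel₀ hg0, mul_one]
        rw [Algebra.smul_def, this, sub_self]
      · by_cases hz : u - c • g = 0
        · exact Or.inl hz
        right
        have hne : u * g⁻¹ - algebraMap K F c ≠ 0 := by
          intro h0
          apply hz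
          rw [Algebra.smul_def]
          have : u = algebraMap K F c * g := by
            rw [← sub_eq_zero.mp h0, mul_assoc, inv_mul_cancel₀ hg0, mul_one]
          rw [this, sub_self]
        have heq : u - c • g = (u * g⁻¹ - algebraMap K F c) * g := by
          rw [Algebra.smul_def, sub_mul, mul_assoc, inv_mul_cancel₀ hg0, mul_one]
        rw [heq, v.ord_mul hne hg0, hordg]
        omega
    have hfd : FiniteDimensional K ↥((W ⊓ wr15_L v (n + 1)) ⊔ Submodule.span K {g}) := by
      have h1 : FiniteDimensional K ↥(W ⊓ wr15_L v (n + 1)) :=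
        Submodule.finiteDimensional_of_le inf_le_left
      infer_instance
    calc Module.finrank K ↥(W ⊓ wr15_L v n)
        ≤ Module.finrank K ↥((W ⊓ wr15_L v (n + 1)) ⊔ Submodule.span K {g}) :=
          Submodule.finrank_mono hle
      _ ≤ Module.finrank K ↥(W ⊓ wr15_L v (n + 1)) + Module.finrank K ↥(Submodule.span K {g}) :=
          Submodule.finrank_add_le_finrank_add_finrank _ _
      _ = Module.finrank K ↥(W ⊓ wr15_L v (n + 1)) + 1 := by
          rw [finrank_span_singleton hg0]

/-- `m` more orders of vanishing cost at most `m` dimensions. -/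
theorem wr15_codim_add (y : F) (hy : Transcendental K y) [FiniteDimensional K⟮y⟯ F]
    (v : Place K F) (W : Submodule K F) [FiniteDimensional K W] (n : ℤ) (m : ℕ) :
    Module.finrank K ↥(W ⊓ wr15_L v n) ≤ Module.finrank K ↥(W ⊓ wr15_L v (n + m)) + m := by
  induction m with
  | zero => rw [Nat.cast_zero, add_zero, add_zero]
  | succ m ih =>
    have h := wr15_codim y hy v W (n + m)
    have h' : (n + (m : ℤ) + 1) = (n + ((m + 1 : ℕ) : ℤ)) := by push_cast; ring
    rw [h'] at h
    omega

/-- A space of dimension `> m` all of whose elements have order `≥ n` at `v` contains a nonzero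
element of order `≥ n + m` at `v`. -/
theorem wr15_exists (y : F) (hy : Transcendental K y) [FiniteDimensional K⟮y⟯ F]
    (v : Place K F) (W : Submodule K F) [FiniteDimensional K W] (n : ℤ) (hW : W ≤ wr15_L v n)
    (m : ℕ) (hm : m < Module.finrank K W) : ∃ u ∈ W, u ≠ 0 ∧ n + m ≤ v.ord u := by
  have h1 := wr15_codim_add y hy v W n m
  have h2 : W ⊓ wr15_L v n = W := inf_eq_left.mpr hW
  rw [h2] at h1
  have hpos : 0 < Module.finrank K ↥(W ⊓ wr15_L v (n + m)) := by omega
  have hfd : FiniteDimensional K ↥(W ⊓ wr15_L v (n + m)) :=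
    Submodule.finiteDimensional_of_le inf_le_left
  obtain ⟨⟨u, huW, hun⟩, hu0⟩ := Module.finrank_pos_iff_exists_ne_zero.mp hpos
  have hu0' : u ≠ 0 := fun h => hu0 (Subtype.ext h)
  exact ⟨u, huW, hu0', hun.resolve_left hu0'⟩

end codim

section space

variable {K F : Type*} [Field K] [Field F] [Algebra K F]

/-- Powers of the generator of `K(y)` are `K`-linearly independent when `y` is transcendental. -/
theorem wr15_pow_linearIndependent (y : F) (hy : Transcendental K y) (r : ℕ) :
    LinearIndependent K (fun j : Fin (r + 1) => (AdjoinSimple.gen K y) ^ (j : ℕ)) := by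
  have hgen : Transcendental K (AdjoinSimple.gen K y) := by
    intro halg
    apply hy
    have := halg.algebraMap (A := F)
    simpa using this
  have h1 : LinearIndependent K (fun n : ℕ => (Polynomial.X : Polynomial K) ^ n) := by
    have := (Polynomial.basisMonomials K).linearIndependent
    convert this using 1
    ext n : 1
    simp [Polynomial.X_pow_eq_monomial]
  have h2 := h1.map' (Polynomial.aeval (AdjoinSimple.gen K y)).toLinearMap
    (LinearMap.ker_eq_bot.mpr (transcendental_iff_injective.mp hgen))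
  have h3 := h2.comp (fun j : Fin (r + 1) => (j : ℕ)) Fin.val_injective
  have key : (fun j : Fin (r + 1) => (AdjoinSimple.gen K y) ^ (j : ℕ)) =
      ((Polynomial.aeval (AdjoinSimple.gen K y)).toLinearMap ∘
        fun n : ℕ => (Polynomial.X : Polynomial K) ^ n) ∘ fun j : Fin (r + 1) => (j : ℕ) := by
    funext j
    simp
  rw [key]
  exact h3

/-- The monomials `y ^ j * b i` (`j ≤ r`, `b` independent over `K(y)`) are `K`-independent. -/
theorem wr15_family_linearIndependent (y : F) (hy : Transcendental K y) (r : ℕ) {ι : Type*}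
    (b : ι → F) (hb : LinearIndependent K⟮y⟯ b) :
    LinearIndependent K (fun p : Fin (r + 1) × ι => y ^ (p.1 : ℕ) * b p.2) := by
  have h := linearIndependent_smul (wr15_pow_linearIndependent y hy r) hb
  have key : (fun p : Fin (r + 1) × ι => y ^ (p.1 : ℕ) * b p.2) =
      fun p : Fin (r + 1) × ι => (AdjoinSimple.gen K y) ^ (p.1 : ℕ) • b p.2 := by
    funext p
    rw [Algebra.smul_def]
    simp
  rw [key]
  exact h

/-- The order of a monomial `y ^ j * g`, `j ≤ r`, is bounded below by the pole orders. -/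
theorem wr15_ord_monomial (v : Place K F) (y g : F) (hy0 : y ≠ 0) (hg0 : g ≠ 0) (r j : ℕ)
    (hj : j ≤ r) (D : ℤ) (hD : max (-v.ord g) 0 ≤ D) :
    -((r : ℤ) * max (-v.ord y) 0 + D) ≤ v.ord (y ^ j * g) := by
  have h1 : v.ord (y ^ j) = (j : ℤ) * v.ord y := by
    rw [← zpow_natCast, v.ord_zpow]
  rw [v.ord_mul (pow_ne_zero j hy0) hg0, h1]
  have hZ0 : (0 : ℤ) ≤ max (-v.ord y) 0 := le_max_right _ _
  have hZ1 : -v.ord y ≤ max (-v.ord y) 0 := le_max_left _ _
  have hg1 : -v.ord g ≤ max (-v.ord g) 0 := le_max_left _ _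
  have hjr : (j : ℤ) ≤ r := by exact_mod_cast hj
  have hj0 : (0 : ℤ) ≤ j := by positivity
  nlinarith [mul_le_mul_of_nonneg_left hZ1 hj0, mul_le_mul_of_nonneg_right hjr hZ0]

end space

section main

variable {K F : Type*} [Field K] [IsAlgClosed K] [CharZero K] [Field F] [Algebra K F]

/-- The pole divisor `v ↦ max (- ord_v f) 0` of a nonzero function. -/
noncomputable def wr15_poleDiv (y : F) (hy : Transcendental K y) [FiniteDimensional K⟮y⟯ F]
    (f : F) (hf : f ≠ 0) : Divisor K F :=
  Finsupp.onFinset (wp1_finite_ord_ne_zero y hy f hf).toFinset (fun v => max (-v.ord f) 0) (by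
    intro v hv
    rw [Set.Finite.mem_toFinset, Set.mem_ofPred_eq]
    intro h0
    apply hv
    simp [h0])

theorem wr15_poleDiv_apply (y : F) (hy : Transcendental K y) [FiniteDimensional K⟮y⟯ F]
    (f : F) (hf : f ≠ 0) (v : Place K F) :
    wr15_poleDiv y hy f hf v = max (-v.ord f) 0 := rfl

/-- The pole divisor of `y` has degree `[F : K(y)]`. -/
theorem wr15_degree_poleDiv (y : F) (hy : Transcendental K y) [FiniteDimensional K⟮y⟯ F]
    (hy0 : y ≠ 0) :
    Divisor.degree (wr15_poleDiv y hy y hy0) = (Module.finrank K⟮y⟯ F : ℤ) := by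
  classical
  have hdeg : ∀ v : Place K F, v.deg = 1 := wp1_deg_eq_one y hy
  have hy' : Transcendental K y⁻¹ := wp1b_transcendental_inv hy
  have : FiniteDimensional K⟮y⁻¹⟯ F := wp1_finite_of_transcendental y hy y⁻¹ hy'
  have hsum := wp1_sum_ord_zeros y⁻¹ hy'
  rw [wp1b_finrank_adjoin_inv] at hsum
  rw [wr15_poleDiv, Divisor.degree, Finsupp.liftAddHom_apply, Finsupp.onFinset_sum]
  · simp only [AddMonoidHom.coe_mulRight, hdeg, Nat.cast_one, mul_one]
    rw [← hsum]
    symm
    have hsub : (wp1_finite_zeros y⁻¹ hy').toFinset ⊆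
        (wp1_finite_ord_ne_zero y hy y hy0).toFinset := by
      intro v hv
      rw [Set.Finite.mem_toFinset, Set.mem_ofPred_eq] at hv ⊢
      rw [v.ord_inv] at hv
      omega
    rw [← Finset.sum_subset hsub]
    · refine Finset.sum_congr rfl fun v hv => ?_
      rw [Set.Finite.mem_toFinset, Set.mem_ofPred_eq, v.ord_inv] at hv
      rw [v.ord_inv, max_eq_left hv.le]
    · intro v _ hv
      rw [Set.Finite.mem_toFinset, Set.mem_ofPred_eq, v.ord_inv] at hv
      exact max_eq_right (by omega)
  · intro v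
    simp

/-- Order bound on the span of the monomials `y ^ j * b i`, `j ≤ r`. -/
theorem wr15_span_le (y : F) (hy : Transcendental K y) [FiniteDimensional K⟮y⟯ F]
    (hy0 : y ≠ 0) {d : ℕ} (b : Fin d → F) (hb0 : ∀ i, b i ≠ 0) (r : ℕ) (v : Place K F) :
    Submodule.span K (Set.range fun p : Fin (r + 1) × Fin d => y ^ (p.1 : ℕ) * b p.2) ≤
      wr15_L v (-((r : ℤ) * wr15_poleDiv y hy y hy0 v +
        (∑ i, wr15_poleDiv y hy (b i) (hb0 i)) v)) := by
  rw [Submodule.span_le]
  rintro _ ⟨p, rfl⟩
  right
  rw [wr15_poleDiv_apply]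
  apply wr15_ord_monomial v y (b p.2) hy0 (hb0 p.2) r p.1 (Nat.lt_succ_iff.mp p.1.2)
  rw [Finsupp.finsetSum_apply]
  exact Finset.single_le_sum (f := fun i => wr15_poleDiv y hy (b i) (hb0 i) v)
    (fun i _ => le_max_right _ _) (Finset.mem_univ p.2)

/-- One half of the weak Riemann inequality: a nonzero function vanishing to order `m` at `P0`
relative to the fixed pole bound `(m / d) (y)_∞ + D₀`, with residual zero divisor of degree
`≤ deg D₀`. -/
theorem wr15_half (y : F) (hy : Transcendental K y) [FiniteDimensional K⟮y⟯ F] :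
    ∃ (B : ℕ) (E : ℕ → Divisor K F), ∀ (P0 : Place K F) (m : ℕ), ∃ u : F, u ≠ 0 ∧
      ∃ G : Divisor K F, (∀ v, 0 ≤ G v) ∧ Divisor.degree G ≤ B ∧
        ∀ v : Place K F, v.ord u = G v + (m : ℤ) * Finsupp.single P0 (1 : ℤ) v - E m v := by
  classical
  have hy0 : y ≠ 0 := fun h => hy (h ▸ isAlgebraic_zero)
  have hdegP : ∀ v : Place K F, v.deg = 1 := wp1_deg_eq_one y hy
  set d : ℕ := Module.finrank K⟮y⟯ F with hd
  have hdpos : 0 < d := Module.finrank_pos
  let b : Module.Basis (Fin d) K⟮y⟯ F := Module.finBasis K⟮y⟯ F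
  have hb0 : ∀ i, b i ≠ 0 := fun i => b.ne_zero i
  set Z : Divisor K F := wr15_poleDiv y hy y hy0 with hZ
  set D0 : Divisor K F := ∑ i, wr15_poleDiv y hy (b i) (hb0 i) with hD0
  refine ⟨(Divisor.degree D0).toNat, fun m => (m / d) • Z + D0, fun P0 m => ?_⟩
  set r : ℕ := m / d with hr
  let g : Fin (r + 1) × Fin d → F := fun p => y ^ (p.1 : ℕ) * b p.2
  have hli : LinearIndependent K g := wr15_family_linearIndependent y hy r b b.linearIndependent
  set W : Submodule K F := Submodule.span K (Set.range g) with hW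
  have : FiniteDimensional K W := FiniteDimensional.span_of_finite K (Set.finite_range g)
  have hfr : Module.finrank K W = (r + 1) * d := by
    rw [hW, finrank_span_eq_card hli, Fintype.card_prod, Fintype.card_fin, Fintype.card_fin]
  have hbound : ∀ v : Place K F, W ≤ wr15_L v (-((r : ℤ) * Z v + D0 v)) := fun v =>
    wr15_span_le y hy hy0 b hb0 r v
  have hm : m < Module.finrank K W := by
    rw [hfr, mul_comm]
    exact Nat.lt_mul_div_succ m hdpos
  obtain ⟨u, huW, hu0, hu⟩ := wr15_exists y hy P0 W _ (hbound P0) m hm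
  obtain ⟨Du, hDu, hDudeg⟩ := (hi63_hasPrincipalDivisors y hy).exists_divisor u hu0
  refine ⟨u, hu0, Du - (m : ℤ) • Finsupp.single P0 (1 : ℤ) + (r • Z + D0), ?_, ?_, ?_⟩
  · intro v
    have hv := (hbound v huW).resolve_left hu0
    simp only [Finsupp.add_apply, Finsupp.sub_apply, Finsupp.smul_apply, smul_eq_mul,
      nsmul_eq_mul, hDu]
    by_cases hvP : v = P0
    · subst hvP
      rw [Finsupp.single_eq_same]
      linarith
    · rw [Finsupp.single_eq_of_ne hvP]
      linarith
  · have h1 : Divisor.degree (Finsupp.single P0 (1 : ℤ)) = 1 := by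
      rw [Divisor.degree_single, hdegP, Nat.cast_one, mul_one]
    have h2 : Divisor.degree Z = (d : ℤ) := wr15_degree_poleDiv y hy hy0
    rw [map_add, map_sub, map_add, map_zsmul, map_nsmul, hDudeg, h1, h2]
    have h3 : (r : ℤ) * d ≤ m := by
      have := Nat.div_mul_le_self m d
      exact_mod_cast this
    have h4 : Divisor.degree D0 ≤ ((Divisor.degree D0).toNat : ℤ) := Int.self_le_toNat _
    simp only [smul_eq_mul, nsmul_eq_mul, mul_one]
    linarith
  · intro v
    simp only [Finsupp.add_apply, Finsupp.sub_apply, Finsupp.smul_apply, smul_eq_mul,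
      nsmul_eq_mul, hDu]
    ring

/-- **Weak Riemann inequality.**  There is a bound `B` such that for all places `P`, `P0` and
all `m` some nonzero `f` has divisor `m ([P0] - [P]) + G1 - G2` with `G1, G2` effective of degree
at most `B`. -/
theorem wr15_main (y : F) (hy : Transcendental K y) [FiniteDimensional K⟮y⟯ F] :
    ∃ B : ℕ, ∀ (P P0 : Place K F) (m : ℕ), ∃ f : F, f ≠ 0 ∧ ∃ G1 G2 : Divisor K F,
      (∀ v, 0 ≤ G1 v) ∧ (∀ v, 0 ≤ G2 v) ∧ Divisor.degree G1 ≤ B ∧ Divisor.degree G2 ≤ B ∧
      ∀ v : Place K F, v.ord f =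
        (m : ℤ) * (Finsupp.single P0 (1 : ℤ) v - Finsupp.single P (1 : ℤ) v) + G1 v - G2 v := by
  obtain ⟨B, E, h⟩ := wr15_half y hy
  refine ⟨B, fun P P0 m => ?_⟩
  obtain ⟨u, hu0, G1, hG1, hG1d, hu⟩ := h P0 m
  obtain ⟨w, hw0, G2, hG2, hG2d, hw⟩ := h P m
  refine ⟨u / w, div_ne_zero hu0 hw0, G1, G2, hG1, hG2, hG1d, hG2d, fun v => ?_⟩
  rw [div_eq_mul_inv, v.ord_mul hu0 (inv_ne_zero hw0), v.ord_inv, hu v, hw v]
  ring

end main
end Fermat.Agent.S37
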