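import Fermat.Agent.S37.DegZero66
import Fermat.Agent.S37.WeakRiemann15
import Fermat.Agent.S37.HeckeInputs63

/-!
# S37 (helper66): the degree-zero principle for function fields and for `ℚ̄ · F_N`

`dz66_degZero` (DegZero66) with its two hypotheses (weak Riemann `dz66_WR`, all places of degree
`1`) discharged: by `wr15_main` (helper15) and `wp1_deg_eq_one` for a function field over an
algebraically closed field of characteristic `0`, and by `hi63_x` for the modular function
fields `modularFunctionFieldBar N`.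

* `dz66_fun_degZero`, `dz66_fun_eq_on_degZero` : generic function field.
* `dz66_modular_degZero`, `dz66_modular_eq_on_degZero` : `F = modularFunctionFieldBar N`.
-/

set_option autoImplicit false
set_option linter.style.haveILetI false
set_option linter.unusedSectionVars false

open ModularCurve AlgebraicCurve IntermediateField

namespace Fermat.Agent.S37

open Fermat.Agent.S24

section Generic

variable {K F : Type*} [Field K] [IsAlgClosed K] [CharZero K] [Field F] [Algebra K F]

/-- The weak Riemann property of a function field (`wr15_main`). -/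
theorem dz66_WR_fun (y : F) (hy : Transcendental K y) [FiniteDimensional K⟮y⟯ F] :
    dz66_WR K F := by
  obtain ⟨B, hB⟩ := wr15_main y hy
  refine ⟨B, fun P P0 m => ?_⟩
  obtain ⟨f, hf, G1, G2, h1, h2, hd1, hd2, hord⟩ := hB P P0 m
  exact ⟨f, hf, G1, G2, fun v => h1 v, fun v => h2 v, hd1, hd2, hord⟩

/-- **Degree-zero principle** for a function field over an algebraically closed field of
characteristic `0`: an additive map on divisors into a free abelian group which kills principal
divisors and is bounded on single places kills all divisors of degree `0`. -/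
theorem dz66_fun_degZero (y : F) (hy : Transcendental K y) [FiniteDimensional K⟮y⟯ F]
    {Y : Type*} (θ : Divisor K F →+ (Y →₀ ℤ))
    (hb : ∀ Q : Y, ∃ C : ℤ, ∀ P, |θ (Finsupp.single P 1) Q| ≤ C)
    (hprinc : ∀ D ∈ Divisor.principal (K := K) (F := F), θ D = 0)
    (D : Divisor K F) (hD : Divisor.degree D = 0) : θ D = 0 :=
  dz66_degZero (dz66_WR_fun y hy) (wp1_deg_eq_one y hy) θ hb hprinc D hD

/-- Two additive maps agreeing on principal divisors, with difference bounded on single places,
agree on divisors of degree `0`. -/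
theorem dz66_fun_eq_on_degZero (y : F) (hy : Transcendental K y) [FiniteDimensional K⟮y⟯ F]
    {Y : Type*} (θ₁ θ₂ : Divisor K F →+ (Y →₀ ℤ))
    (hb : ∀ Q : Y, ∃ C : ℤ, ∀ P,
      |θ₁ (Finsupp.single P 1) Q - θ₂ (Finsupp.single P 1) Q| ≤ C)
    (hprinc : ∀ D ∈ Divisor.principal (K := K) (F := F), θ₁ D = θ₂ D)
    (D : Divisor K F) (hD : Divisor.degree D = 0) : θ₁ D = θ₂ D :=
  dz66_eq_on_degZero (dz66_WR_fun y hy) (wp1_deg_eq_one y hy) θ₁ θ₂ hb hprinc D hD

end Generic

section Modular

/-- Weak Riemann for `ℚ̄ · F_N`. -/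
theorem dz66_WR_modular (N : ℕ) [NeZero N] :
    dz66_WR (AlgebraicClosure ℚ) ↥(modularFunctionFieldBar N) := by
  haveI := hi63_finite_x N
  exact dz66_WR_fun (hi63_x N) (hi63_x_transcendental N)

/-- Every place of `ℚ̄ · F_N` has degree `1`. -/
theorem dz66_deg_modular (N : ℕ) [NeZero N]
    (v : Place (AlgebraicClosure ℚ) ↥(modularFunctionFieldBar N)) : v.deg = 1 := by
  haveI := hi63_finite_x N
  exact wp1_deg_eq_one (hi63_x N) (hi63_x_transcendental N) v

/-- **Degree-zero principle for `ℚ̄ · F_N`.** -/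
theorem dz66_modular_degZero (N : ℕ) [NeZero N] {Y : Type*}
    (θ : Divisor (AlgebraicClosure ℚ) ↥(modularFunctionFieldBar N) →+ (Y →₀ ℤ))
    (hb : ∀ Q : Y, ∃ C : ℤ, ∀ P, |θ (Finsupp.single P 1) Q| ≤ C)
    (hprinc : ∀ D ∈ Divisor.principal (K := AlgebraicClosure ℚ)
      (F := ↥(modularFunctionFieldBar N)), θ D = 0)
    (D : Divisor (AlgebraicClosure ℚ) ↥(modularFunctionFieldBar N))
    (hD : Divisor.degree D = 0) : θ D = 0 :=
  dz66_degZero (dz66_WR_modular N) (dz66_deg_modular N) θ hb hprinc D hD

/-- Two-map form of `dz66_modular_degZero`. -/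
theorem dz66_modular_eq_on_degZero (N : ℕ) [NeZero N] {Y : Type*}
    (θ₁ θ₂ : Divisor (AlgebraicClosure ℚ) ↥(modularFunctionFieldBar N) →+ (Y →₀ ℤ))
    (hb : ∀ Q : Y, ∃ C : ℤ, ∀ P,
      |θ₁ (Finsupp.single P 1) Q - θ₂ (Finsupp.single P 1) Q| ≤ C)
    (hprinc : ∀ D ∈ Divisor.principal (K := AlgebraicClosure ℚ)
      (F := ↥(modularFunctionFieldBar N)), θ₁ D = θ₂ D)
    (D : Divisor (AlgebraicClosure ℚ) ↥(modularFunctionFieldBar N))
    (hD : Divisor.degree D = 0) : θ₁ D = θ₂ D :=
  dz66_eq_on_degZero (dz66_WR_modular N) (dz66_deg_modular N) θ₁ θ₂ hb hprinc D hD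

end Modular

end Fermat.Agent.S37
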