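import Mathlib

/-!
# S37, row RC (helper48): chart data for the centre map — definitions only

Abstract setting of the conservation theorem.  `L` a field with a valuation subring `A`
(residue field `k`), `B` the coordinate ring of an affine chart of the generic fibre (an
`L[X]`-algebra: the integral closure of `L[x]` in the function field), `Bk` the coordinate
ring of the corresponding chart of the special fibre (a `k[X]`-algebra), `BA ⊆ B` the subring
of integral functions and `ρ : BA → Bk` the reduction map.

* `h48_Chart A BA ρ` : the hypotheses (polynomials over `A` are integral and reduce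
  coefficientwise; norms to the polynomial rings commute with reduction; `ρ` is surjective —
  normality of the chart; `BA` is saturated for division by elements with nonzero reduction).
* `h48_Red BA ρ P Q` : the maximal ideal `P` of `B` (a point of the generic fibre) reduces to
  the maximal ideal `Q` of `Bk` (a point of the special fibre).
* `h48_xv P` : the `X`-coordinate of a maximal ideal `P` of a `K[X]`-algebra.
-/

set_option autoImplicit false

namespace Fermat.Agent.S37

open Polynomial

section Defs

variable {L : Type*} [Field L] (A : ValuationSubring L)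
variable {B : Type*} [CommRing B] [Algebra L[X] B]
variable {Bk : Type*} [CommRing Bk] [Algebra (IsLocalRing.ResidueField A)[X] Bk]

/-- Chart data for the centre map: `BA ⊆ B` the integral functions of an affine chart of the
generic fibre, `ρ : BA → Bk` the reduction to the chart of the special fibre. -/
structure h48_Chart (BA : Subring B) (ρ : BA →+* Bk) : Prop where
  /-- polynomials in the coordinate with coefficients in `A` are integral -/
  poly_mem : ∀ p : A[X], algebraMap L[X] B (p.map A.subtype) ∈ BA
  /-- and reduce coefficientwise -/
  rho_poly : ∀ p : A[X], ρ ⟨algebraMap L[X] B (p.map A.subtype), poly_mem p⟩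
    = algebraMap (IsLocalRing.ResidueField A)[X] Bk (p.map (IsLocalRing.residue A))
  /-- the norm to the polynomial ring commutes with reduction -/
  norm : ∀ b : BA, ∃ p : A[X], Algebra.norm L[X] (b : B) = p.map A.subtype ∧
    Algebra.norm (IsLocalRing.ResidueField A)[X] (ρ b) = p.map (IsLocalRing.residue A)
  /-- normality of the chart of the special fibre -/
  surj : Function.Surjective ρ
  /-- `BA` is saturated for division by elements with nonzero reduction -/
  div : ∀ g b : BA, ρ g ≠ 0 → ∀ c : B, (b : B) = (g : B) * c → c ∈ BA

variable {A}

/-- The maximal ideal `P` of `B` reduces to the maximal ideal `Q` of `Bk`. -/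
def h48_Red (BA : Subring B) (ρ : BA →+* Bk) (P : Ideal B) (Q : Ideal Bk) : Prop :=
  ∀ b : BA, (b : B) ∈ P → ρ b ∈ Q

end Defs

section XV

variable {K : Type*} [Field K] {B : Type*} [CommRing B] [Algebra K[X] B]

open Classical in
/-- The `X`-coordinate of a (maximal) ideal of a `K[X]`-algebra: some `α` with
`X - α ∈ P` (`0` if there is none). -/
noncomputable def h48_xv (P : Ideal B) : K :=
  if h : ∃ α : K, algebraMap K[X] B (X - C α) ∈ P then h.choose else 0

theorem h48_xv_spec {P : Ideal B} (h : ∃ α : K, algebraMap K[X] B (X - C α) ∈ P) :
    algebraMap K[X] B (X - C (h48_xv P)) ∈ P := by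
  unfold h48_xv
  rw [dif_pos h]
  exact h.choose_spec

theorem h48_xv_eq {P : Ideal B} (hP : P ≠ ⊤) {α : K} (h : algebraMap K[X] B (X - C α) ∈ P) :
    h48_xv P = α := by
  have h1 := h48_xv_spec ⟨α, h⟩
  by_contra hne
  apply hP
  rw [Ideal.eq_top_iff_one]
  have h2 := P.sub_mem h h1
  rw [← map_sub] at h2
  have h3 : (X - C α : K[X]) - (X - C (h48_xv P)) = C (h48_xv P - α) := by
    rw [C_sub]; ring
  rw [h3] at h2
  have h4 : (h48_xv P - α) ≠ 0 := sub_ne_zero.mpr hne
  have h5 := P.mul_mem_left (algebraMap K[X] B (C (h48_xv P - α)⁻¹)) h2
  rw [← map_mul, ← C_mul, inv_mul_cancel₀ h4, C_1, map_one] at h5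
  exact h5

end XV

end Fermat.Agent.S37
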