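import Fermat.Agent.S37.PlacesSep14
import Fermat.Agent.S37.ChartDefs48
import Fermat.Agent.S37.ChartChange62

/-!
# S37, row RC-INST (helper31): the generic chart layer

`L` a field with a valuation subring `A` (residue field `k`), `F / L` and `Fk / k` fields,
`V` a valuation subring of `F` (the Gauss ring) with a reduction map `red : V → Fk` which is
compatible with the residue map of `A` and whose kernel consists of the non-units of `V`.
For a coordinate `x ∈ V` whose reduction `x̄` is transcendental over `k`: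

* `B := integralClosure L[x] F` with the `L[X]`-algebra structure `X ↦ x` (`ci31_alg`), and
  likewise `Bk := integralClosure k[x̄] Fk`;
* `ci31_BA` : the subring `B ∩ V` of `B`, `ci31_rho` : the reduction map `B ∩ V → Bk`;
* `ci31_chart` : these data satisfy `h48_Chart`, given (I1) (a family of `V` of cardinality
  `[F : L(x)]` reducing to a `k(x̄)`-basis of `Fk`) and (I2) (every element of `Fk` integral over
  `k[x̄]` lifts to an element of `V` integral over `L[x]`).

One-sided facts: `ci31_finite`, `ci31_free`, `ci31_isTorsionFree` (the chart ring over `K[X]`),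
`ci31_norm_eq` (the norm to `K[X]` computes the field norm to `K(y)`), `ci31_charpoly_coeff_mem`.
Gauss lemma: `ci31_gauss_mem` (`V ∩ L[x] = A[x]`), `ci31_transcendental`, `ci31_hOA`.
-/

set_option autoImplicit false
set_option linter.style.haveILetI false

open Polynomial IntermediateField

namespace Fermat.Agent.S37

section ci31_alg

open scoped IntermediateField.algebraAdjoinAdjoin

variable {K F : Type*} [Field K] [Field F] [Algebra K F]

/-- The coordinate `y` as an element of `K[y]`. -/
def ci31_gen (K : Type*) {F : Type*} [Field K] [Field F] [Algebra K F] (y : F) :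
    Algebra.adjoin K {y} := ⟨y, Algebra.self_mem_adjoin_singleton K y⟩

/-- The `K[X]`-algebra structure `X ↦ y` on the chart ring `integralClosure K[y] F`. -/
@[reducible] noncomputable def ci31_alg (K : Type*) {F : Type*} [Field K] [Field F] [Algebra K F]
    (y : F) : Algebra K[X] (integralClosure (Algebra.adjoin K {y}) F) :=
  ((algebraMap (Algebra.adjoin K {y}) (integralClosure (Algebra.adjoin K {y}) F)).comp
    ((aeval (ci31_gen K y) : K[X] →ₐ[K] Algebra.adjoin K {y}) :
      K[X] →+* Algebra.adjoin K {y})).toAlgebra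

theorem ci31_aeval_gen_coe (y : F) (q : K[X]) :
    (((aeval (ci31_gen K y) q : Algebra.adjoin K {y})) : F) = aeval y q := by
  induction q using Polynomial.induction_on' with
  | add p q hp hq => simp only [map_add, Subalgebra.coe_add, hp, hq]
  | monomial n a =>
    simp only [aeval_monomial, Subalgebra.coe_mul, Subalgebra.coe_pow,
      Subalgebra.coe_algebraMap]
    rfl

theorem ci31_algebraMap_coe (y : F) (p : K[X]) :
    ((@algebraMap K[X] (integralClosure (Algebra.adjoin K {y}) F) _ _ (ci31_alg K y) p :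
      integralClosure (Algebra.adjoin K {y}) F) : F) = aeval y p :=
  ci31_aeval_gen_coe y p

theorem ci31_aeval_gen_surjective (y : F) :
    Function.Surjective (aeval (ci31_gen K y) : K[X] → Algebra.adjoin K {y}) := by
  rintro ⟨r, hr⟩
  rw [Algebra.adjoin_singleton_eq_range_aeval] at hr
  obtain ⟨p, hp⟩ := hr
  exact ⟨p, Subtype.ext ((ci31_aeval_gen_coe y p).trans hp)⟩

theorem ci31_algebraMap_injective (y : F) (hy : Transcendental K y) :
    Function.Injective
      (@algebraMap K[X] (integralClosure (Algebra.adjoin K {y}) F) _ _ (ci31_alg K y)) := by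
  intro p q hpq
  have h := congrArg (fun b : integralClosure (Algebra.adjoin K {y}) F => (b : F)) hpq
  simp only [ci31_algebraMap_coe] at h
  exact transcendental_iff_injective.mp hy h

theorem ci31_isTorsionFree (y : F) (hy : Transcendental K y) :
    @Module.IsTorsionFree K[X] (integralClosure (Algebra.adjoin K {y}) F) _ _
      (ci31_alg K y).toModule := by
  letI := ci31_alg K y
  exact Module.isTorsionFree_iff_algebraMap_injective.mpr (ci31_algebraMap_injective y hy)

theorem ci31_finite [IsAlgClosed K] (y : F) (hy : Transcendental K y) [FiniteDimensional K⟮y⟯ F]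
    [Algebra.IsSeparable K⟮y⟯ F] :
    @Module.Finite K[X] (integralClosure (Algebra.adjoin K {y}) F) _ _
      (ci31_alg K y).toModule := by
  letI := ci31_alg K y
  letI : Algebra K[X] (Algebra.adjoin K {y}) :=
    ((aeval (ci31_gen K y) : K[X] →ₐ[K] Algebra.adjoin K {y}) :
      K[X] →+* Algebra.adjoin K {y}).toAlgebra
  haveI : IsScalarTower K[X] (Algebra.adjoin K {y}) (integralClosure (Algebra.adjoin K {y}) F) :=
    IsScalarTower.of_algebraMap_eq (fun _ => rfl)
  haveI : Module.Finite K[X] (Algebra.adjoin K {y}) :=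
    Module.Finite.of_surjective (Algebra.linearMap K[X] (Algebra.adjoin K {y}))
      (ci31_aeval_gen_surjective y)
  haveI := ps14_finite_integralClosure y hy
  exact Module.Finite.trans (Algebra.adjoin K {y}) _

theorem ci31_free [IsAlgClosed K] (y : F) (hy : Transcendental K y) [FiniteDimensional K⟮y⟯ F]
    [Algebra.IsSeparable K⟮y⟯ F] :
    @Module.Free K[X] (integralClosure (Algebra.adjoin K {y}) F) _ _
      (ci31_alg K y).toModule := by
  letI := ci31_alg K y
  haveI := ci31_finite y hy
  haveI := ci31_isTorsionFree y hy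
  exact Module.free_of_finite_type_torsion_free'

/-- `K ⊆ K[X] → B` is the `K`-algebra structure of the chart ring. -/
theorem ci31_isScalarTower (y : F) :
    @IsScalarTower K K[X] (integralClosure (Algebra.adjoin K {y}) F) _
      (ci31_alg K y).toSMul _ := by
  letI := ci31_alg K y
  refine IsScalarTower.of_algebraMap_eq (fun a => ?_)
  apply Subtype.ext
  rw [ci31_algebraMap_coe]
  simp only [Polynomial.algebraMap_eq, aeval_C]
  rfl

/-- The norm of the chart ring to `K[X]` computes the field norm to `K(y)`. -/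
theorem ci31_norm_eq [IsAlgClosed K] (y : F) (hy : Transcendental K y)
    [FiniteDimensional K⟮y⟯ F] [Algebra.IsSeparable K⟮y⟯ F]
    (b : integralClosure (Algebra.adjoin K {y}) F) :
    aeval y (@Algebra.norm K[X] _ _ _ (ci31_alg K y) b) =
      algebraMap K⟮y⟯ F (Algebra.norm K⟮y⟯ (b : F)) := by
  letI := ci31_alg K y
  haveI := ps14_finite_integralClosure y hy
  haveI : IsPrincipalIdealRing (Algebra.adjoin K {y}) := ps14_isPrincipalIdealRing y hy
  have h1 : (ps14_polyEquiv y hy) (Algebra.norm K[X] b) = Algebra.norm (Algebra.adjoin K {y}) b :=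
    Algebra.norm_eq_of_ringEquiv (ps14_polyEquiv y hy).toRingEquiv
      (RingHom.ext fun p => Subtype.ext (by
        rw [ci31_algebraMap_coe]
        exact ps14_polyEquiv_coe y hy p)) b
  haveI : IsLocalization (Algebra.algebraMapSubmonoid (integralClosure (Algebra.adjoin K {y}) F)
      (nonZeroDivisors (Algebra.adjoin K {y}))) F :=
    IsIntegralClosure.isLocalization (Algebra.adjoin K {y}) K⟮y⟯ F _
  have h2 : Algebra.norm K⟮y⟯ (algebraMap (integralClosure (Algebra.adjoin K {y}) F) F b) =
      algebraMap (Algebra.adjoin K {y}) K⟮y⟯ (Algebra.norm (Algebra.adjoin K {y}) b) :=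
    Algebra.norm_localization (Algebra.adjoin K {y}) (nonZeroDivisors (Algebra.adjoin K {y})) b
  have h3 : (algebraMap (integralClosure (Algebra.adjoin K {y}) F) F b) = (b : F) := rfl
  rw [← h3, h2, ← h1]
  rfl

/-- The characteristic polynomial over `K(y)` of an element of the chart ring has coefficients in
`K[y]`. -/
theorem ci31_charpoly_coeff_mem [IsAlgClosed K] (y : F) (hy : Transcendental K y)
    [FiniteDimensional K⟮y⟯ F] [Algebra.IsSeparable K⟮y⟯ F]
    (b : integralClosure (Algebra.adjoin K {y}) F) (i : ℕ) :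
    ∃ q : K[X], algebraMap K⟮y⟯ F ((Algebra.lmul K⟮y⟯ F (b : F)).charpoly.coeff i) = aeval y q := by
  classical
  haveI := ps14_finite_integralClosure y hy
  haveI : IsPrincipalIdealRing (Algebra.adjoin K {y}) := ps14_isPrincipalIdealRing y hy
  haveI : IsLocalization (Algebra.algebraMapSubmonoid (integralClosure (Algebra.adjoin K {y}) F)
      (nonZeroDivisors (Algebra.adjoin K {y}))) F :=
    IsIntegralClosure.isLocalization (Algebra.adjoin K {y}) K⟮y⟯ F _
  let β := Module.Free.chooseBasis (Algebra.adjoin K {y}) (integralClosure (Algebra.adjoin K {y}) F)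
  have h1 := Algebra.map_leftMulMatrix_localization (Algebra.adjoin K {y}) (Rₘ := K⟮y⟯) (Sₘ := F)
    (nonZeroDivisors (Algebra.adjoin K {y})) β b
  have h2 : (Algebra.lmul K⟮y⟯ F (b : F)).charpoly =
      ((Algebra.leftMulMatrix β b).charpoly).map (algebraMap (Algebra.adjoin K {y}) K⟮y⟯) := by
    rw [← LinearMap.charpoly_toMatrix (Algebra.lmul K⟮y⟯ F (b : F))
      (β.localizationLocalization K⟮y⟯ (nonZeroDivisors (Algebra.adjoin K {y})) F),
      ← Matrix.charpoly_map]
    congr 1
    rw [← RingHom.mapMatrix_apply, h1]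
    rfl
  rw [h2, coeff_map]
  obtain ⟨q, hq⟩ := ci31_aeval_gen_surjective y ((Algebra.leftMulMatrix β b).charpoly.coeff i)
  refine ⟨q, ?_⟩
  rw [← ci31_aeval_gen_coe y q, hq]
  rfl

end ci31_alg

section ci31_gauss

variable {L F Fk : Type*} [Field L] [Field F] [Algebra L F] {A : ValuationSubring L}
  [Field Fk] [Algebra (IsLocalRing.ResidueField A) Fk] {V : ValuationSubring F}

/-- The inverse of an element outside `A` lies in the maximal ideal. -/
theorem ci31_residue_inv (a : L) (ha : a ∉ A) :
    ∃ h : a⁻¹ ∈ A, IsLocalRing.residue A ⟨a⁻¹, h⟩ = 0 := by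
  have hainv : a⁻¹ ∈ A := (A.mem_or_inv_mem a).resolve_left ha
  refine ⟨hainv, ?_⟩
  by_contra hne
  obtain ⟨b, hb⟩ := ((IsLocalRing.residue_ne_zero_iff_isUnit _).mp hne).exists_right_inv
  have h1 : a⁻¹ * (b : L) = 1 := congrArg Subtype.val hb
  have ha0 : a ≠ 0 := fun h0 => ha (h0 ▸ A.zero_mem)
  have h2 : (b : L) = a := by
    have := congrArg (fun t => a * t) h1
    simpa [← mul_assoc, mul_inv_cancel₀ ha0] using this
  exact ha (h2 ▸ b.2)

variable (red : V →+* Fk)

/-- `A = V ∩ L`. -/
theorem ci31_hOA (hAO : ∀ a : L, a ∈ A → algebraMap L F a ∈ V)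
    (hcompat : ∀ (a : L) (ha : a ∈ A), red ⟨algebraMap L F a, hAO a ha⟩ =
      algebraMap (IsLocalRing.ResidueField A) Fk (IsLocalRing.residue A ⟨a, ha⟩))
    (a : L) (ha : algebraMap L F a ∈ V) : a ∈ A := by
  by_contra hne
  obtain ⟨hainv, hres⟩ := ci31_residue_inv a hne
  have ha0 : a ≠ 0 := fun h0 => hne (h0 ▸ A.zero_mem)
  have h1 : (⟨algebraMap L F a, ha⟩ : V) * ⟨algebraMap L F a⁻¹, hAO _ hainv⟩ = 1 := by
    apply Subtype.ext
    show algebraMap L F a * algebraMap L F a⁻¹ = 1
    rw [← map_mul, mul_inv_cancel₀ ha0, map_one]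
  have h2 := congrArg red h1
  rw [map_mul, hcompat _ hainv, hres, map_zero, mul_zero, map_one] at h2
  exact zero_ne_one h2

/-- **Gauss ring ∩ `L[x]` = `A[x]`**: a polynomial over `L` whose value at `x` lies in `V` has
coefficients in `A`. -/
theorem ci31_gauss_mem (hAO : ∀ a : L, a ∈ A → algebraMap L F a ∈ V)
    (hcompat : ∀ (a : L) (ha : a ∈ A), red ⟨algebraMap L F a, hAO a ha⟩ =
      algebraMap (IsLocalRing.ResidueField A) Fk (IsLocalRing.residue A ⟨a, ha⟩))
    (x : V) (hx : Transcendental (IsLocalRing.ResidueField A) (red x))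
    (P : L[X]) (hP : aeval (x : F) P ∈ V) : ∃ p : A[X], P = p.map A.subtype := by
  by_cases hP0 : P = 0
  · exact ⟨0, by rw [hP0, Polynomial.map_zero]⟩
  obtain ⟨a, p₁, ha, hPa, hp₁⟩ := cc62_scale (IsLocalRing.residue A)
    (by rw [map_one]; exact one_ne_zero) P hP0
  by_cases haA : a ∈ A
  · exact ⟨C ⟨a, haA⟩ * p₁, by rw [hPa, Polynomial.map_mul, Polynomial.map_C]; rfl⟩
  · exfalso
    obtain ⟨hainv, hres0⟩ := ci31_residue_inv a haA
    have h1 : p₁.eval₂ (cc62_iota hAO) x =
        cc62_iota hAO ⟨a⁻¹, hainv⟩ * ⟨aeval (x : F) P, hP⟩ := by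
      apply Subtype.ext
      rw [cc62_coe_eval₂]
      show aeval (x : F) (p₁.map A.subtype) = algebraMap L F a⁻¹ * aeval (x : F) P
      rw [hPa, map_mul, aeval_C, ← mul_assoc, ← map_mul, inv_mul_cancel₀ ha, map_one, one_mul]
    have h2 := congrArg red h1
    rw [cc62_red_eval₂ (IsLocalRing.residue A) red hAO hcompat, map_mul] at h2
    have h3 : red (cc62_iota hAO ⟨a⁻¹, hainv⟩) = 0 := by
      have := hcompat a⁻¹ hainv
      rw [hres0, map_zero] at this
      exact this
    rw [h3, zero_mul] at h2
    exact hp₁ (transcendental_iff.mp hx _ h2)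

/-- The coordinate `x` is transcendental over `L` as soon as its reduction is transcendental
over `k`. -/
theorem ci31_transcendental (hAO : ∀ a : L, a ∈ A → algebraMap L F a ∈ V)
    (hcompat : ∀ (a : L) (ha : a ∈ A), red ⟨algebraMap L F a, hAO a ha⟩ =
      algebraMap (IsLocalRing.ResidueField A) Fk (IsLocalRing.residue A ⟨a, ha⟩))
    (x : V) (hx : Transcendental (IsLocalRing.ResidueField A) (red x)) :
    Transcendental L (x : F) := by
  rw [transcendental_iff]
  intro P hP
  by_contra hP0
  obtain ⟨a, p₁, ha, hPa, hp₁⟩ := cc62_scale (IsLocalRing.residue A)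
    (by rw [map_one]; exact one_ne_zero) P hP0
  have h0 : aeval (x : F) (p₁.map A.subtype) = 0 := by
    rw [hPa, map_mul, aeval_C] at hP
    rcases mul_eq_zero.mp hP with h | h
    · exact absurd ((map_eq_zero _).mp h) ha
    · exact h
  have h1 : p₁.eval₂ (cc62_iota hAO) x = 0 := by
    apply Subtype.ext
    rw [cc62_coe_eval₂]
    exact h0
  have h2 := congrArg red h1
  rw [cc62_red_eval₂ (IsLocalRing.residue A) red hAO hcompat, map_zero] at h2
  exact hp₁ (transcendental_iff.mp hx _ h2)

end ci31_gauss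

section ci31_chart

open scoped IntermediateField.algebraAdjoinAdjoin

variable {L F Fk : Type*} [Field L] [Field F] [Algebra L F] {A : ValuationSubring L}
  [Field Fk] [Algebra (IsLocalRing.ResidueField A) Fk] {V : ValuationSubring F}

/-- `BA`: the elements of the chart ring lying in the Gauss ring `V`. -/
def ci31_BA (L : Type*) {F : Type*} [Field L] [Field F] [Algebra L F] (V : ValuationSubring F)
    (x : F) : Subring (integralClosure (Algebra.adjoin L {x}) F) :=
  V.toSubring.comap (algebraMap (integralClosure (Algebra.adjoin L {x}) F) F)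

theorem ci31_mem_BA (V : ValuationSubring F) (x : F)
    (b : integralClosure (Algebra.adjoin L {x}) F) : b ∈ ci31_BA L V x ↔ (b : F) ∈ V := Iff.rfl

/-- The inclusion `BA → V`. -/
def ci31_toV (L : Type*) {F : Type*} [Field L] [Field F] [Algebra L F] (V : ValuationSubring F)
    (x : F) : ci31_BA L V x →+* V :=
  ((algebraMap (integralClosure (Algebra.adjoin L {x}) F) F).comp
    (ci31_BA L V x).subtype).codRestrict V (fun b => b.2)

theorem ci31_toV_coe (V : ValuationSubring F) (x : F) (b : ci31_BA L V x) :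
    ((ci31_toV L V x b : V) : F) = ((b : integralClosure (Algebra.adjoin L {x}) F) : F) := rfl

/-- The reduction map of the chart: `ρ : BA → Bk`. -/
noncomputable def ci31_rho (red : V →+* Fk) (x : V)
    (hint : ∀ f : V, IsIntegral (Algebra.adjoin L {(x : F)}) (f : F) →
      IsIntegral (Algebra.adjoin (IsLocalRing.ResidueField A) {red x}) (red f)) :
    ci31_BA L V (x : F) →+*
      integralClosure (Algebra.adjoin (IsLocalRing.ResidueField A) {red x}) Fk :=
  (red.comp (ci31_toV L V (x : F))).codRestrict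
    (integralClosure (Algebra.adjoin (IsLocalRing.ResidueField A) {red x}) Fk)
    (fun b => hint _ b.1.2)

theorem ci31_rho_coe (red : V →+* Fk) (x : V)
    (hint : ∀ f : V, IsIntegral (Algebra.adjoin L {(x : F)}) (f : F) →
      IsIntegral (Algebra.adjoin (IsLocalRing.ResidueField A) {red x}) (red f))
    (b : ci31_BA L V (x : F)) :
    ((ci31_rho red x hint b :
      integralClosure (Algebra.adjoin (IsLocalRing.ResidueField A) {red x}) Fk) : Fk) =
      red (ci31_toV L V (x : F) b) := rfl

/-- (I1) ⟹ the reduction of an element of `V` integral over `L[x]` is integral over `k[x̄]`. -/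
theorem ci31_red_isIntegral [IsAlgClosed L]
    (red : V →+* Fk)
    (hAO : ∀ a : L, a ∈ A → algebraMap L F a ∈ V)
    (hcompat : ∀ (a : L) (ha : a ∈ A), red ⟨algebraMap L F a, hAO a ha⟩ =
      algebraMap (IsLocalRing.ResidueField A) Fk (IsLocalRing.residue A ⟨a, ha⟩))
    (hunit : ∀ v : V, red v ≠ 0 → (v : F)⁻¹ ∈ V)
    (x : V) (hx : Transcendental (IsLocalRing.ResidueField A) (red x))
    [Algebra.IsSeparable L⟮(x : F)⟯ F]
    {ι : Type*} [Fintype ι] (b : ι → V)
    (hcard : Fintype.card ι = Module.finrank L⟮(x : F)⟯ F)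
    (bκ : Module.Basis ι (IsLocalRing.ResidueField A)⟮red x⟯ Fk) (hbκ : ∀ i, bκ i = red (b i))
    (f : V) (hf : IsIntegral (Algebra.adjoin L {(x : F)}) (f : F)) :
    IsIntegral (Algebra.adjoin (IsLocalRing.ResidueField A) {red x}) (red f) := by
  classical
  have hne : Nonempty ι := bκ.index_nonempty
  haveI hfκ : FiniteDimensional (IsLocalRing.ResidueField A)⟮red x⟯ Fk := Module.Finite.of_basis bκ
  haveI hfL : FiniteDimensional L⟮(x : F)⟯ F :=
    Module.finite_of_finrank_pos (by rw [← hcard]; exact Fintype.card_pos)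
  have hxL : Transcendental L (x : F) := ci31_transcendental red hAO hcompat x hx
  have hOA := ci31_hOA red hAO hcompat
  obtain ⟨p, hpm, hpL, hpk⟩ := nm62_charpoly_red
    (cc62_red (IsLocalRing.residue A) red hAO hcompat hOA hunit x hx) red (fun _ h => h)
    (fun _ _ => rfl) (cc62_red_eq_zero (IsLocalRing.residue A) red hAO hcompat hOA hunit x hx)
    b hcard bκ hbκ f
  have hlift : (Algebra.lmul (IsLocalRing.ResidueField A)⟮red x⟯ Fk (red f)).charpoly ∈
      Polynomial.lifts (algebraMap (Algebra.adjoin (IsLocalRing.ResidueField A) {red x})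
        (IsLocalRing.ResidueField A)⟮red x⟯) := by
    rw [Polynomial.lifts_iff_coeff_lifts]
    intro i
    rw [← hpk, coeff_map]
    obtain ⟨q, hq⟩ := ci31_charpoly_coeff_mem (x : F) hxL ⟨(f : F), hf⟩ i
    have hc : algebraMap L⟮(x : F)⟯ F ((p.coeff i : ↥(V.comap (algebraMap L⟮(x : F)⟯ F))) :
        L⟮(x : F)⟯) = aeval (x : F) q := by
      rw [← hq]
      show algebraMap L⟮(x : F)⟯ F ((p.coeff i : ↥(V.comap (algebraMap L⟮(x : F)⟯ F))) :
        L⟮(x : F)⟯) = algebraMap L⟮(x : F)⟯ F
          ((Algebra.lmul L⟮(x : F)⟯ F (f : F)).charpoly.coeff i)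
      rw [← hpL, coeff_map]
      rfl
    have hqV : aeval (x : F) q ∈ V := by
      rw [← hc]
      exact (p.coeff i).2
    obtain ⟨q₁, hq₁⟩ := ci31_gauss_mem red hAO hcompat x hx q hqV
    refine ⟨aeval (ci31_gen (IsLocalRing.ResidueField A) (red x))
      (q₁.map (IsLocalRing.residue A)), ?_⟩
    apply Subtype.ext
    have h1 : ((algebraMap (Algebra.adjoin (IsLocalRing.ResidueField A) {red x})
        (IsLocalRing.ResidueField A)⟮red x⟯
        (aeval (ci31_gen (IsLocalRing.ResidueField A) (red x))
          (q₁.map (IsLocalRing.residue A))) : (IsLocalRing.ResidueField A)⟮red x⟯) : Fk) =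
        aeval (red x) (q₁.map (IsLocalRing.residue A)) :=
      ci31_aeval_gen_coe (red x) _
    rw [h1, ← cc62_red_eval₂ (IsLocalRing.residue A) red hAO hcompat x q₁]
    have h2 : ((cc62_red (IsLocalRing.residue A) red hAO hcompat hOA hunit x hx (p.coeff i) :
        (IsLocalRing.ResidueField A)⟮red x⟯) : Fk) =
        red ⟨algebraMap L⟮(x : F)⟯ F ((p.coeff i : ↥(V.comap (algebraMap L⟮(x : F)⟯ F))) :
          L⟮(x : F)⟯), (p.coeff i).2⟩ := rfl
    rw [h2]
    congr 1
    apply Subtype.ext
    rw [cc62_coe_eval₂, ← hq₁]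
    exact hc.symm
  obtain ⟨T, hTmap, -, hTmonic⟩ := Polynomial.lifts_and_natDegree_eq_and_monic hlift
    (LinearMap.charpoly_monic _)
  refine ⟨T, hTmonic, ?_⟩
  have hCH : aeval (red f)
      (Algebra.lmul (IsLocalRing.ResidueField A)⟮red x⟯ Fk (red f)).charpoly = 0 := by
    have h := LinearMap.aeval_self_charpoly
      (Algebra.lmul (IsLocalRing.ResidueField A)⟮red x⟯ Fk (red f))
    have h2 := Polynomial.aeval_algHom_apply
      (Algebra.lmul (IsLocalRing.ResidueField A)⟮red x⟯ Fk) (red f)
      (Algebra.lmul (IsLocalRing.ResidueField A)⟮red x⟯ Fk (red f)).charpoly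
    rw [h] at h2
    have h3 := congrArg (fun φ : Module.End (IsLocalRing.ResidueField A)⟮red x⟯ Fk => φ 1) h2
    simpa using h3.symm
  rw [← hTmap, aeval_def, eval₂_map, ← IsScalarTower.algebraMap_eq] at hCH
  exact hCH

/-- **The chart `x`** (generic form): from (I1) (a family of `V` reducing to a `k(x̄)`-basis
of `Fk`, of cardinality `[F : L(x)]`) and (I2) (normality: every element of `Fk` integral over
`k[x̄]` lifts to an element of `V` integral over `L[x]`). -/
theorem ci31_chart [IsAlgClosed L] [IsAlgClosed (IsLocalRing.ResidueField A)]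
    (red : V →+* Fk)
    (hAO : ∀ a : L, a ∈ A → algebraMap L F a ∈ V)
    (hcompat : ∀ (a : L) (ha : a ∈ A), red ⟨algebraMap L F a, hAO a ha⟩ =
      algebraMap (IsLocalRing.ResidueField A) Fk (IsLocalRing.residue A ⟨a, ha⟩))
    (hunit : ∀ v : V, red v ≠ 0 → (v : F)⁻¹ ∈ V)
    (x : V) (hx : Transcendental (IsLocalRing.ResidueField A) (red x))
    [Algebra.IsSeparable L⟮(x : F)⟯ F]
    [Algebra.IsSeparable (IsLocalRing.ResidueField A)⟮red x⟯ Fk]
    {ι : Type*} [Fintype ι] (b : ι → V)
    (hcard : Fintype.card ι = Module.finrank L⟮(x : F)⟯ F)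
    (bκ : Module.Basis ι (IsLocalRing.ResidueField A)⟮red x⟯ Fk) (hbκ : ∀ i, bκ i = red (b i))
    (hsurj : ∀ g : Fk, IsIntegral (Algebra.adjoin (IsLocalRing.ResidueField A) {red x}) g →
      ∃ f : V, IsIntegral (Algebra.adjoin L {(x : F)}) (f : F) ∧ red f = g) :
    @h48_Chart L _ A (integralClosure (Algebra.adjoin L {(x : F)}) F) _ (ci31_alg L (x : F))
      (integralClosure (Algebra.adjoin (IsLocalRing.ResidueField A) {red x}) Fk) _
      (ci31_alg (IsLocalRing.ResidueField A) (red x))
      (ci31_BA L V (x : F))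
      (ci31_rho red x (ci31_red_isIntegral red hAO hcompat hunit x hx b hcard bκ hbκ)) := by
  classical
  have hne : Nonempty ι := bκ.index_nonempty
  haveI hfκ : FiniteDimensional (IsLocalRing.ResidueField A)⟮red x⟯ Fk := Module.Finite.of_basis bκ
  haveI hfL : FiniteDimensional L⟮(x : F)⟯ F :=
    Module.finite_of_finrank_pos (by rw [← hcard]; exact Fintype.card_pos)
  have hxL : Transcendental L (x : F) := ci31_transcendental red hAO hcompat x hx
  have hOA := ci31_hOA red hAO hcompat
  letI := ci31_alg L (x : F)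
  letI := ci31_alg (IsLocalRing.ResidueField A) (red x)
  have hpoly : ∀ p : A[X], algebraMap L[X] (integralClosure (Algebra.adjoin L {(x : F)}) F)
      (p.map A.subtype) ∈ ci31_BA L V (x : F) := fun p => by
    rw [ci31_mem_BA, ci31_algebraMap_coe, ← cc62_coe_eval₂ hAO x p]
    exact (p.eval₂ (cc62_iota hAO) x).2
  have htoV : ∀ p : A[X], ci31_toV L V (x : F) ⟨_, hpoly p⟩ = p.eval₂ (cc62_iota hAO) x :=
    fun p => Subtype.ext (by
      rw [ci31_toV_coe, cc62_coe_eval₂]
      exact ci31_algebraMap_coe _ _)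
  refine ⟨hpoly, ?_, ?_, ?_, ?_⟩
  · -- rho_poly
    intro p
    apply Subtype.ext
    rw [ci31_rho_coe, ci31_algebraMap_coe, htoV,
      cc62_red_eval₂ (IsLocalRing.residue A) red hAO hcompat]
  · -- norm
    intro β
    obtain ⟨n, hn1, hn2⟩ := nm62_norm_red
      (cc62_red (IsLocalRing.residue A) red hAO hcompat hOA hunit x hx) red (fun _ h => h)
      (fun _ _ => rfl) (cc62_red_eq_zero (IsLocalRing.residue A) red hAO hcompat hOA hunit x hx)
      b hcard bκ hbκ (ci31_toV L V (x : F) β)
    have h1 := ci31_norm_eq (x : F) hxL (β : integralClosure (Algebra.adjoin L {(x : F)}) F)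
    have hnF : aeval (x : F) (Algebra.norm L[X]
        (β : integralClosure (Algebra.adjoin L {(x : F)}) F)) =
        algebraMap L⟮(x : F)⟯ F ((n : ↥(V.comap (algebraMap L⟮(x : F)⟯ F))) : L⟮(x : F)⟯) := by
      rw [h1, hn1]
      rfl
    have hV : aeval (x : F) (Algebra.norm L[X]
        (β : integralClosure (Algebra.adjoin L {(x : F)}) F)) ∈ V := by
      rw [hnF]
      exact n.2
    obtain ⟨p, hp⟩ := ci31_gauss_mem red hAO hcompat x hx _ hV
    refine ⟨p, hp, ?_⟩
    have h2 := ci31_norm_eq (red x) hx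
      (ci31_rho red x (ci31_red_isIntegral red hAO hcompat hunit x hx b hcard bκ hbκ) β)
    apply transcendental_iff_injective.mp hx
    rw [h2, ← cc62_red_eval₂ (IsLocalRing.residue A) red hAO hcompat x p]
    have h3 : ((ci31_rho red x (ci31_red_isIntegral red hAO hcompat hunit x hx b hcard bκ hbκ) β :
        integralClosure (Algebra.adjoin (IsLocalRing.ResidueField A) {red x}) Fk) : Fk) =
        red (ci31_toV L V (x : F) β) := rfl
    rw [h3, ← hn2]
    have h4 : algebraMap (IsLocalRing.ResidueField A)⟮red x⟯ Fk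
        (cc62_red (IsLocalRing.residue A) red hAO hcompat hOA hunit x hx n) =
        red ⟨algebraMap L⟮(x : F)⟯ F ((n : ↥(V.comap (algebraMap L⟮(x : F)⟯ F))) : L⟮(x : F)⟯),
          n.2⟩ := rfl
    rw [h4]
    congr 1
    apply Subtype.ext
    rw [cc62_coe_eval₂, ← hp]
    exact hnF.symm
  · -- surj
    intro g
    obtain ⟨f, hf, hfg⟩ := hsurj (g : Fk) g.2
    exact ⟨⟨⟨(f : F), hf⟩, f.2⟩, Subtype.ext hfg⟩
  · -- div
    intro g β hg c hc
    rw [ci31_mem_BA]
    have hg' : red (ci31_toV L V (x : F) g) ≠ 0 := fun h0 => hg (Subtype.ext h0)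
    have hinv := hunit _ hg'
    rw [ci31_toV_coe] at hinv
    have hg0 : ((g : integralClosure (Algebra.adjoin L {(x : F)}) F) : F) ≠ 0 := by
      intro h0
      apply hg'
      have : ci31_toV L V (x : F) g = 0 := Subtype.ext h0
      rw [this, map_zero]
    have hcF : ((β : integralClosure (Algebra.adjoin L {(x : F)}) F) : F) =
        ((g : integralClosure (Algebra.adjoin L {(x : F)}) F) : F) * (c : F) := by
      rw [hc]
      rfl
    have : (c : F) = ((g : integralClosure (Algebra.adjoin L {(x : F)}) F) : F)⁻¹ *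
        ((β : integralClosure (Algebra.adjoin L {(x : F)}) F) : F) := by
      rw [hcF, ← mul_assoc, inv_mul_cancel₀ hg0, one_mul]
    rw [this]
    exact V.mul_mem _ _ hinv β.2

end ci31_chart

end Fermat.Agent.S37
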