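import Fermat.Agent.S37.ChartGlueCore89
import Fermat.Agent.S37.ChartInst31

/-!
# S37, row RC-GLUE (helper89): the glue for the chart rings of `ChartInst31`

* `cg89_chart_of_ci31` : for the chart rings `integralClosure L[x] F`, `integralClosure k[x̄] Fk`
  of `ChartInst31` (helper31) with the place dictionary of `PlacesSep14` (helper14), an instance
  of `h48_Chart` gives the chart package `cg89_Chart` of the glue.
* `cg89_Reduction A V red x r0` : the output of the gluing, free of chart rings (conservation
  of number, coordinate of the reduction, equivariance, tube functions of the two charts).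
* `cg89_exists_reduction` : two `h48_Chart` instances (coordinates `x` and `y`, `x * y = 1`)
  ⟹ `∃ r0, cg89_Reduction A V red x r0`.
* `cg89_exists_reduction_of_I1_I2` : the same from the hypotheses of `ci31_chart` ((I1) and (I2)
  for the two coordinates).
-/

set_option autoImplicit false
set_option linter.style.haveILetI false

open Polynomial IntermediateField AlgebraicCurve IsDedekindDomain

namespace Fermat.Agent.S37

section Inst

open scoped IntermediateField.algebraAdjoinAdjoin

variable {L F Fk : Type*} [Field L] [IsAlgClosed L] [Field F] [Algebra L F]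
  {A : ValuationSubring L} [IsAlgClosed (IsLocalRing.ResidueField A)]
  [Field Fk] [Algebra (IsLocalRing.ResidueField A) Fk] {V : ValuationSubring F}

/-- The chart package of the glue for the chart rings of `ChartInst31`. -/
theorem cg89_chart_of_ci31 (red : V →+* Fk) (x : V)
    (hxL : Transcendental L (x : F))
    (hxk : Transcendental (IsLocalRing.ResidueField A) (red x))
    [FiniteDimensional L⟮(x : F)⟯ F] [Algebra.IsSeparable L⟮(x : F)⟯ F]
    [FiniteDimensional (IsLocalRing.ResidueField A)⟮red x⟯ Fk]
    [Algebra.IsSeparable (IsLocalRing.ResidueField A)⟮red x⟯ Fk]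
    (hint : ∀ f : V, IsIntegral (Algebra.adjoin L {(x : F)}) (f : F) →
      IsIntegral (Algebra.adjoin (IsLocalRing.ResidueField A) {red x}) (red f))
    (hchart : @h48_Chart L _ A (integralClosure (Algebra.adjoin L {(x : F)}) F) _
      (ci31_alg L (x : F))
      (integralClosure (Algebra.adjoin (IsLocalRing.ResidueField A) {red x}) Fk) _
      (ci31_alg (IsLocalRing.ResidueField A) (red x)) (ci31_BA L V (x : F))
      (ci31_rho red x hint)) :
    letI := ci31_alg L (x : F)
    letI := ci31_alg (IsLocalRing.ResidueField A) (red x)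
    haveI := ps14_isDedekindDomain (x : F) hxL
    haveI := ps14_isDedekindDomain (red x) hxk
    haveI := ps14_isFractionRing (K := L) (x : F)
    haveI := ps14_isFractionRing (K := IsLocalRing.ResidueField A) (red x)
    haveI := ps14_isScalarTower (K := L) (x : F)
    haveI := ps14_isScalarTower (K := IsLocalRing.ResidueField A) (red x)
    cg89_Chart A V.toSubring red (x : F) (red x) (ci31_BA L V (x : F))
      (ci31_rho red x hint) := by
  letI := ci31_alg L (x : F)
  letI := ci31_alg (IsLocalRing.ResidueField A) (red x)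
  haveI := ps14_isDedekindDomain (x : F) hxL
  haveI := ps14_isDedekindDomain (red x) hxk
  haveI := ps14_isFractionRing (K := L) (x : F)
  haveI := ps14_isFractionRing (K := IsLocalRing.ResidueField A) (red x)
  haveI := ps14_isScalarTower (K := L) (x : F)
  haveI := ps14_isScalarTower (K := IsLocalRing.ResidueField A) (red x)
  haveI := ci31_finite (x : F) hxL
  haveI := ci31_finite (red x) hxk
  haveI := ci31_isTorsionFree (x : F) hxL
  haveI := ci31_isTorsionFree (red x) hxk
  refine cg89_chart_mk (fun p => ci31_algebraMap_coe (x : F) p)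
    (fun p => ci31_algebraMap_coe (red x) p) (fun b => Iff.rfl) (fun b hb => ?_)
    (fun v hv => ps14_exists_eq_ofHeightOneSpectrum (x : F) hxL v hv)
    (fun v hv => ps14_exists_eq_ofHeightOneSpectrum (red x) hxk v hv) hchart
  rfl

end Inst

section Congr

variable {L : Type*} [Field L] {A : ValuationSubring L}
  {F : Type*} [Field F] [Algebra L F] {Fk : Type*} [Field Fk]
  [Algebra (IsLocalRing.ResidueField A) Fk]
  {O : Subring F} {red : O →+* Fk} {x x' : F} {xbar xbar' : Fk}
  {B : Type*} [CommRing B] [IsDedekindDomain B] [Algebra L[X] B] [Algebra L B]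
  [Algebra B F] [IsFractionRing B F] [IsScalarTower L B F]
  {Bk : Type*} [CommRing Bk] [IsDedekindDomain Bk] [Algebra (IsLocalRing.ResidueField A)[X] Bk]
  [Algebra (IsLocalRing.ResidueField A) Bk] [Algebra Bk Fk] [IsFractionRing Bk Fk]
  [IsScalarTower (IsLocalRing.ResidueField A) Bk Fk]
  {BA : Subring B} {ρ : BA →+* Bk}

/-- Change of the names of the coordinates of a chart. -/
theorem cg89_chart_congr (h : cg89_Chart A O red x xbar BA ρ) (hx : x = x') (hxbar : xbar = xbar') :
    cg89_Chart A O red x' xbar' BA ρ := by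
  subst hx hxbar
  exact h

end Congr

section Reduction

open scoped IntermediateField.algebraAdjoinAdjoin

variable {L F Fk : Type*} [Field L] [Field F] [Algebra L F]
  {A : ValuationSubring L} [Field Fk] [Algebra (IsLocalRing.ResidueField A) Fk]

/-- **The output of the two-chart gluing**, free of chart rings: a reduction map `r0` on places
for the Gauss ring `V`, its reduction map `red` and the coordinate `x ∈ V`:
conservation of number, the coordinate of the reduction of a point, equivariance, and the tube
functions of the two charts. -/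
structure cg89_Reduction (A : ValuationSubring L) {Fk : Type*} [Field Fk]
    [Algebra (IsLocalRing.ResidueField A) Fk] (V : ValuationSubring F) (red : V →+* Fk) (x : V)
    (r0 : Place L F → Place (IsLocalRing.ResidueField A) Fk) : Prop where
  /-- (a) conservation of number -/
  cons : ∀ f : V, red f ≠ 0 → ∀ D : Divisor L F, (∀ P, D P = P.ord (f : F)) →
    ∀ Q, Finsupp.mapDomain r0 D Q = Q.ord (red f)
  /-- (b) a point with coordinate `a ∈ A` reduces to a point with coordinate `res a` -/
  coord : ∀ (P : Place L F) (a : A), 0 < P.ord ((x : F) - algebraMap L F (a : L)) →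
    0 < (r0 P).ord (red x - algebraMap (IsLocalRing.ResidueField A) Fk (IsLocalRing.residue A a))
  /-- (b) a point with coordinate outside `A` reduces to a pole of the coordinate -/
  notMem : ∀ (P : Place L F) (c : L), c ∉ A → 0 < P.ord ((x : F) - algebraMap L F c) →
    (r0 P).ord (red x) < 0
  /-- (b) a pole of the coordinate reduces to a pole of the coordinate -/
  pole : ∀ P : Place L F, P.ord (x : F) < 0 → (r0 P).ord (red x) < 0
  /-- (c) equivariance -/
  smul : ∀ (g : SemilinearAut L F) (gk : SemilinearAut (IsLocalRing.ResidueField A) Fk),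
    (∀ f : F, g • f ∈ V ↔ f ∈ V) →
    (∀ (f : V) (hf : g • (f : F) ∈ V), red ⟨g • (f : F), hf⟩ = gk • red f) →
    g • (x : F) = x → (∀ a : L, SemilinearAut.baseAut g a ∈ A ↔ a ∈ A) →
    ∀ P : Place L F, r0 (g • P) = gk • r0 P
  /-- (d) tube functions over finite classes of the coordinate -/
  tube : ∀ (G : Finset (IsLocalRing.ResidueField A)) (P : Place L F) (a : A),
    0 < P.ord ((x : F) - algebraMap L F (a : L)) → IsLocalRing.residue A a ∈ G →
    ∃ f : V, red f ≠ 0 ∧ P.ord (f : F) = 1 ∧
      ∀ P' : Place L F, P' ≠ P → ∀ a' : A, 0 < P'.ord ((x : F) - algebraMap L F (a' : L)) →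
        IsLocalRing.residue A a' ∈ G → P'.ord (f : F) = 0
  /-- (d) tube functions over finite classes of the inverse coordinate -/
  tube_inv : ∀ (G : Finset (IsLocalRing.ResidueField A)) (P : Place L F) (a : A),
    0 < P.ord ((x : F)⁻¹ - algebraMap L F (a : L)) → IsLocalRing.residue A a ∈ G →
    ∃ f : V, red f ≠ 0 ∧ P.ord (f : F) = 1 ∧
      ∀ P' : Place L F, P' ≠ P → ∀ a' : A, 0 < P'.ord ((x : F)⁻¹ - algebraMap L F (a' : L)) →
        IsLocalRing.residue A a' ∈ G → P'.ord (f : F) = 0

variable [IsAlgClosed L] [IsAlgClosed (IsLocalRing.ResidueField A)] {V : ValuationSubring F}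

/-- **RC-GLUE, final form**: from the two chart instances `h48_Chart` (coordinates `x` and
`y = x⁻¹`, chart rings of `ChartInst31`) to a reduction map on places with all its
properties. -/
theorem cg89_exists_reduction (red : V →+* Fk) (x y : V) (hxy : x * y = 1)
    (hxL : Transcendental L (x : F))
    (hxk : Transcendental (IsLocalRing.ResidueField A) (red x))
    [FiniteDimensional L⟮(x : F)⟯ F] [Algebra.IsSeparable L⟮(x : F)⟯ F]
    [FiniteDimensional (IsLocalRing.ResidueField A)⟮red x⟯ Fk]
    [Algebra.IsSeparable (IsLocalRing.ResidueField A)⟮red x⟯ Fk]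
    [FiniteDimensional L⟮(y : F)⟯ F] [Algebra.IsSeparable L⟮(y : F)⟯ F]
    [FiniteDimensional (IsLocalRing.ResidueField A)⟮red y⟯ Fk]
    [Algebra.IsSeparable (IsLocalRing.ResidueField A)⟮red y⟯ Fk]
    (hintx : ∀ f : V, IsIntegral (Algebra.adjoin L {(x : F)}) (f : F) →
      IsIntegral (Algebra.adjoin (IsLocalRing.ResidueField A) {red x}) (red f))
    (hinty : ∀ f : V, IsIntegral (Algebra.adjoin L {(y : F)}) (f : F) →
      IsIntegral (Algebra.adjoin (IsLocalRing.ResidueField A) {red y}) (red f))
    (hchartx : @h48_Chart L _ A (integralClosure (Algebra.adjoin L {(x : F)}) F) _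
      (ci31_alg L (x : F))
      (integralClosure (Algebra.adjoin (IsLocalRing.ResidueField A) {red x}) Fk) _
      (ci31_alg (IsLocalRing.ResidueField A) (red x)) (ci31_BA L V (x : F))
      (ci31_rho red x hintx))
    (hcharty : @h48_Chart L _ A (integralClosure (Algebra.adjoin L {(y : F)}) F) _
      (ci31_alg L (y : F))
      (integralClosure (Algebra.adjoin (IsLocalRing.ResidueField A) {red y}) Fk) _
      (ci31_alg (IsLocalRing.ResidueField A) (red y)) (ci31_BA L V (y : F))
      (ci31_rho red y hinty)) :
    ∃ r0 : Place L F → Place (IsLocalRing.ResidueField A) Fk, cg89_Reduction A V red x r0 := by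
  have ey : (y : F) = (x : F)⁻¹ :=
    eq_inv_of_mul_eq_one_right (congrArg Subtype.val hxy)
  have eyk : red y = (red x)⁻¹ :=
    eq_inv_of_mul_eq_one_right (by rw [← map_mul, hxy, map_one])
  have hyL : Transcendental L (y : F) := by
    intro halg
    rw [ey] at halg
    exact hxL (IsAlgebraic.inv_iff.mp halg)
  have hyk : Transcendental (IsLocalRing.ResidueField A) (red y) := by
    intro halg
    rw [eyk] at halg
    exact hxk (IsAlgebraic.inv_iff.mp halg)
  letI := ci31_alg L (x : F)
  letI := ci31_alg (IsLocalRing.ResidueField A) (red x)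
  haveI := ps14_isDedekindDomain (x : F) hxL
  haveI := ps14_isDedekindDomain (red x) hxk
  haveI := ps14_isFractionRing (K := L) (x : F)
  haveI := ps14_isFractionRing (K := IsLocalRing.ResidueField A) (red x)
  haveI := ps14_isScalarTower (K := L) (x : F)
  haveI := ps14_isScalarTower (K := IsLocalRing.ResidueField A) (red x)
  letI := ci31_alg L (y : F)
  letI := ci31_alg (IsLocalRing.ResidueField A) (red y)
  haveI := ps14_isDedekindDomain (y : F) hyL
  haveI := ps14_isDedekindDomain (red y) hyk
  haveI := ps14_isFractionRing (K := L) (y : F)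
  haveI := ps14_isFractionRing (K := IsLocalRing.ResidueField A) (red y)
  haveI := ps14_isScalarTower (K := L) (y : F)
  haveI := ps14_isScalarTower (K := IsLocalRing.ResidueField A) (red y)
  haveI := ci31_finite (x : F) hxL
  haveI := ci31_finite (red x) hxk
  haveI := ci31_isTorsionFree (x : F) hxL
  haveI := ci31_isTorsionFree (red x) hxk
  haveI := ci31_finite (y : F) hyL
  haveI := ci31_finite (red y) hyk
  haveI := ci31_isTorsionFree (y : F) hyL
  haveI := ci31_isTorsionFree (red y) hyk
  have h1 : cg89_Chart A V.toSubring red (x : F) (red x) (ci31_BA L V (x : F))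
      (ci31_rho red x hintx) := cg89_chart_of_ci31 red x hxL hxk hintx hchartx
  have h2 : cg89_Chart A V.toSubring red (x : F)⁻¹ (red x)⁻¹ (ci31_BA L V (y : F))
      (ci31_rho red y hinty) :=
    cg89_chart_congr (cg89_chart_of_ci31 red y hyL hyk hinty hcharty) ey eyk
  exact ⟨cg89_r0 h1 h2,
    { cons := fun f hf D hD Q => cg89_conservation h1 h2 f hf D hD Q
      coord := fun P a ha => cg89_r0_coord h1 h2 P a ha
      notMem := fun P c hc hP => cg89_r0_of_notMem h1 h2 P c hc hP
      pole := fun P hP => cg89_r0_of_pole h1 h2 P hP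
      smul := fun g gk hgO hgred hgx hgA P => cg89_r0_smul h1 h2 g gk hgO hgred hgx hgA P
      tube := fun G P a ha haG => cg89_tube h1 G P a ha haG
      tube_inv := fun G P a ha haG => cg89_tube h2 G P a ha haG }⟩

/-- **RC-GLUE, final form, from (I1) and (I2) of the two charts** (the hypotheses of
`ci31_chart` for the coordinates `x` and `y = x⁻¹`). -/
theorem cg89_exists_reduction_of_I1_I2 (red : V →+* Fk)
    (hAO : ∀ a : L, a ∈ A → algebraMap L F a ∈ V)
    (hcompat : ∀ (a : L) (ha : a ∈ A), red ⟨algebraMap L F a, hAO a ha⟩ =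
      algebraMap (IsLocalRing.ResidueField A) Fk (IsLocalRing.residue A ⟨a, ha⟩))
    (hunit : ∀ v : V, red v ≠ 0 → (v : F)⁻¹ ∈ V)
    (x y : V) (hxy : x * y = 1)
    (hx : Transcendental (IsLocalRing.ResidueField A) (red x))
    [Algebra.IsSeparable L⟮(x : F)⟯ F]
    [Algebra.IsSeparable (IsLocalRing.ResidueField A)⟮red x⟯ Fk]
    [Algebra.IsSeparable L⟮(y : F)⟯ F]
    [Algebra.IsSeparable (IsLocalRing.ResidueField A)⟮red y⟯ Fk]
    {ι : Type*} [Fintype ι] (b : ι → V)
    (hcard : Fintype.card ι = Module.finrank L⟮(x : F)⟯ F)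
    (bκ : Module.Basis ι (IsLocalRing.ResidueField A)⟮red x⟯ Fk) (hbκ : ∀ i, bκ i = red (b i))
    (hsurj : ∀ g : Fk, IsIntegral (Algebra.adjoin (IsLocalRing.ResidueField A) {red x}) g →
      ∃ f : V, IsIntegral (Algebra.adjoin L {(x : F)}) (f : F) ∧ red f = g)
    {ι' : Type*} [Fintype ι'] (b' : ι' → V)
    (hcard' : Fintype.card ι' = Module.finrank L⟮(y : F)⟯ F)
    (bκ' : Module.Basis ι' (IsLocalRing.ResidueField A)⟮red y⟯ Fk)
    (hbκ' : ∀ i, bκ' i = red (b' i))
    (hsurj' : ∀ g : Fk, IsIntegral (Algebra.adjoin (IsLocalRing.ResidueField A) {red y}) g →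
      ∃ f : V, IsIntegral (Algebra.adjoin L {(y : F)}) (f : F) ∧ red f = g) :
    ∃ r0 : Place L F → Place (IsLocalRing.ResidueField A) Fk, cg89_Reduction A V red x r0 := by
  have eyk : red y = (red x)⁻¹ :=
    eq_inv_of_mul_eq_one_right (by rw [← map_mul, hxy, map_one])
  have hy : Transcendental (IsLocalRing.ResidueField A) (red y) := by
    intro halg
    rw [eyk] at halg
    exact hx (IsAlgebraic.inv_iff.mp halg)
  have hne : Nonempty ι := bκ.index_nonempty
  have hne' : Nonempty ι' := bκ'.index_nonempty
  haveI : FiniteDimensional (IsLocalRing.ResidueField A)⟮red x⟯ Fk := Module.Finite.of_basis bκ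
  haveI : FiniteDimensional (IsLocalRing.ResidueField A)⟮red y⟯ Fk := Module.Finite.of_basis bκ'
  haveI : FiniteDimensional L⟮(x : F)⟯ F :=
    Module.finite_of_finrank_pos (by rw [← hcard]; exact Fintype.card_pos)
  haveI : FiniteDimensional L⟮(y : F)⟯ F :=
    Module.finite_of_finrank_pos (by rw [← hcard']; exact Fintype.card_pos)
  exact cg89_exists_reduction red x y hxy (ci31_transcendental red hAO hcompat x hx) hx
    (ci31_red_isIntegral red hAO hcompat hunit x hx b hcard bκ hbκ)
    (ci31_red_isIntegral red hAO hcompat hunit y hy b' hcard' bκ' hbκ')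
    (ci31_chart red hAO hcompat hunit x hx b hcard bκ hbκ hsurj)
    (ci31_chart red hAO hcompat hunit y hy b' hcard' bκ' hbκ' hsurj')

end Reduction

end Fermat.Agent.S37
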