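import Fermat.Agent.S37.Equiv73b
import Fermat.Agent.S37.ChartGlueInst89

/-!
# S37, row RC-EQUIV (helper73), part c: clause (2) of `geo17_RC` from `cg89_Reduction`

`cg89_Reduction A V red x r0` (helper89, `ChartGlueInst89`) is the chart-ring-free output of the
two-chart gluing.  For the Gauss valuation ring `V = ga41_V N A hN`, any `red` agreeing with
`ga41_red N A hN` (e.g. `cm80_red`, by `rfl`) and a coordinate `x` fixed by the decomposition
group (e.g. with integer `q`-expansion coefficients, `x = cm80_xV ..`), its field `smul` gives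
clause (2) of `geo17_RC` verbatim:

* `eq73_reduction_smul_of_fixed` : coordinate fixed by `arithmeticGalois σ`.
* `eq73_reduction_smul` : coordinate with integer `q`-expansion coefficients.
-/

set_option autoImplicit false

open ModularCurve AlgebraicCurve IntermediateField

namespace Fermat.Agent.S37

local notation "Qb" => AlgebraicClosure ℚ

section Main

variable (N : ℕ) [NeZero N] (A : ValuationSubring Qb)

/-- **Clause (2) of `geo17_RC` from `cg89_Reduction`**, coordinate fixed by the given `σ`. -/
theorem eq73_reduction_smul_of_fixed (hN : (N : IsLocalRing.ResidueField A) ≠ 0)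
    {red : ↥(ga41_V N A hN) →+* ↥(modularFunctionFieldFullC (IsLocalRing.ResidueField A) N)}
    (hred : ∀ (f : ↥(modularFunctionFieldBar N)) (hf : f ∈ ga41_V N A hN),
      red ⟨f, hf⟩ = ga41_red N A hN ⟨f, (ga41_mem_V N A hN f).mp hf⟩)
    {x : ↥(ga41_V N A hN)}
    {r0 : Place Qb ↥(modularFunctionFieldBar N) →
      Place (IsLocalRing.ResidueField A)
        ↥(modularFunctionFieldFullC (IsLocalRing.ResidueField A) N)}
    (h : cg89_Reduction A (ga41_V N A hN) red x r0)
    (σ : Qb ≃ₐ[ℚ] Qb) (hσ : σ ∈ A.decompositionSubgroup ℚ)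
    (hx : arithmeticGalois (modularFunctionFieldFull N) σ • (x : ↥(modularFunctionFieldBar N))
      = (x : ↥(modularFunctionFieldBar N)))
    (P : Place Qb ↥(modularFunctionFieldBar N)) :
    r0 (arithmeticGalois (modularFunctionFieldFull N) σ • P)
      = fr66_resGalois N (MulSemiringAction.toRingEquiv (A.decompositionSubgroup ℚ)
          (IsLocalRing.ResidueField A) ⟨σ, hσ⟩) • r0 P := by
  refine h.smul _ _ ?_ ?_ hx (eq73_hgA N A σ hσ) P
  · intro f
    rw [ga41_mem_V, ga41_mem_V]
    exact eq73_hgO N A σ hσ f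
  · intro f hf
    rw [hred _ hf, hred _ f.2]
    exact eq73_hgred N A hN σ hσ
      ⟨(f : ↥(modularFunctionFieldBar N)), (ga41_mem_V N A hN _).mp f.2⟩ _

/-- **Clause (2) of `geo17_RC` from `cg89_Reduction`**, verbatim: coordinate with integer
`q`-expansion coefficients (`hx := rfl` for `x = cm80_xV ..`, whose underlying series is
`ka46_g Qb g = coeffMap (Int.castRingHom Qb) g`). -/
theorem eq73_reduction_smul (hN : (N : IsLocalRing.ResidueField A) ≠ 0)
    {red : ↥(ga41_V N A hN) →+* ↥(modularFunctionFieldFullC (IsLocalRing.ResidueField A) N)}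
    (hred : ∀ (f : ↥(modularFunctionFieldBar N)) (hf : f ∈ ga41_V N A hN),
      red ⟨f, hf⟩ = ga41_red N A hN ⟨f, (ga41_mem_V N A hN f).mp hf⟩)
    {x : ↥(ga41_V N A hN)}
    {r0 : Place Qb ↥(modularFunctionFieldBar N) →
      Place (IsLocalRing.ResidueField A)
        ↥(modularFunctionFieldFullC (IsLocalRing.ResidueField A) N)}
    (h : cg89_Reduction A (ga41_V N A hN) red x r0)
    (g : LaurentSeries ℤ)
    (hx : (((x : ↥(modularFunctionFieldBar N))) : LaurentSeries Qb)
      = coeffMap (Int.castRingHom Qb) g) :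
    ∀ (σ : Qb ≃ₐ[ℚ] Qb) (hσ : σ ∈ A.decompositionSubgroup ℚ)
      (P : Place Qb ↥(modularFunctionFieldBar N)),
      r0 (arithmeticGalois (modularFunctionFieldFull N) σ • P)
        = fr66_resGalois N (MulSemiringAction.toRingEquiv (A.decompositionSubgroup ℚ)
            (IsLocalRing.ResidueField A) ⟨σ, hσ⟩) • r0 P :=
  fun σ hσ P => eq73_reduction_smul_of_fixed N A hN hred h σ hσ
    (eq73_smul_intCoeff N σ _ g hx) P

end Main

end Fermat.Agent.S37
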