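import Fermat.Agent.S37.GaussA41
import Fermat.Agent.S18.RElimFull41

/-!
# S37, row GA (helper41), part 2: `PrincipalGeneratedByIntegral` over `ℚ̄`

For a valuation subring `A` of `ℚ̄` with residue field `k` and `(N : k) ≠ 0`:

* `ga41_bar_eq` : `modularFunctionFieldBar N = modularFunctionFieldFullC ℚ̄ N`.
* `ga41_red_mem` : an `A`-integral series of `F_L` reduces into `F_k`.
* `ga41_HF` : every nonzero element of `F_L` is a constant times a quotient of integral series of
  `F_L` with nonzero reductions in `F_k`.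
* `ga41_pgi` : `PrincipalGeneratedByIntegral A (residue A) N` (the Prelude hypothesis).
* `ga41_natCast_ne_zero`, `ga41_pgi_of_liesOver` : the same from `A.LiesOverPrime ℓ`, `ℓ ∤ N`.
-/

set_option autoImplicit false
set_option synthInstance.maxHeartbeats 400000

open ModularCurve IntermediateField AlgebraicCurve

namespace Fermat.Agent.S37

open Fermat.Agent.S18 Fermat.Agent.S28 Fermat.Agent.S24

/-- The Prelude's base-changed function field is generated by the `j(q^d)`. -/
theorem ga41_bar_eq (N : ℕ) :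
    modularFunctionFieldBar N = modularFunctionFieldFullC (AlgebraicClosure ℚ) N := by
  have hgen : ∀ (d : ℕ) [NeZero d], coeffEmb (AlgebraicClosure ℚ) (qExpand ℚ d jq) =
      qExpand (AlgebraicClosure ℚ) d (jqModC (AlgebraicClosure ℚ)) := by
    intro d _
    show coeffMap (algebraMap ℚ (AlgebraicClosure ℚ)) (qExpand ℚ d (jqModC ℚ)) = _
    rw [coeffMap_qExpand, coeffMap_jqModC]
  have key : ∀ x ∈ IntermediateField.adjoin ℚ (divisorExpansions N),
      coeffEmb (AlgebraicClosure ℚ) x ∈ modularFunctionFieldFullC (AlgebraicClosure ℚ) N := by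
    intro x hx
    induction hx using IntermediateField.adjoin_induction with
    | mem x hx =>
      obtain ⟨d, hd0, hd, rfl⟩ := hx
      rw [hgen d]
      exact jqModCd_mem_full _ N hd
    | algebraMap r =>
      have e : coeffEmb (AlgebraicClosure ℚ) (algebraMap ℚ (LaurentSeries ℚ) r) =
          algebraMap (AlgebraicClosure ℚ) (LaurentSeries (AlgebraicClosure ℚ))
            (algebraMap ℚ (AlgebraicClosure ℚ) r) := by
        rw [coeffEmb, algebraMap_laurentSeries_eq_single, coeffMap_single,
          ← algebraMap_laurentSeries_eq_single]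
      rw [e]
      exact (modularFunctionFieldFullC (AlgebraicClosure ℚ) N).algebraMap_mem _
    | add x y _ _ hx hy =>
      rw [map_add]
      exact add_mem hx hy
    | inv x _ hx =>
      rw [map_inv₀]
      exact inv_mem hx
    | mul x y _ _ hx hy =>
      rw [map_mul]
      exact mul_mem hx hy
  apply le_antisymm
  · refine IntermediateField.adjoin_le_iff.mpr ?_
    rintro _ ⟨x, hx, rfl⟩
    exact key x hx
  · refine IntermediateField.adjoin_le_iff.mpr ?_
    rintro _ ⟨d, hd0, hd, rfl⟩
    rw [SetLike.mem_coe, ← hgen d]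
    exact coeffEmb_mem_laurentBaseChange (AlgebraicClosure ℚ) (jqd_mem_full N hd)

variable (N : ℕ) [NeZero N] (A : ValuationSubring (AlgebraicClosure ℚ))

/-- **Integral series of `F_L` reduce into `F_k`.** -/
theorem ga41_red_mem (hN : (N : IsLocalRing.ResidueField A) ≠ 0) (y : LaurentSeries A)
    (hy : coeffMap A.subtype y ∈ modularFunctionFieldBar N) :
    coeffMap (IsLocalRing.residue A) y ∈
      modularFunctionFieldFullC (IsLocalRing.ResidueField A) N := by
  rw [ga41_bar_eq] at hy
  exact ga41_red_mem_fullC A N hN y hy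

/-- **(HF)** over `ℚ̄`. -/
theorem ga41_HF (hN : (N : IsLocalRing.ResidueField A) ≠ 0)
    (f : LaurentSeries (AlgebraicClosure ℚ)) (hf : f ∈ modularFunctionFieldBar N) (hf0 : f ≠ 0) :
    ∃ (a b : LaurentSeries A) (c : AlgebraicClosure ℚ), c ≠ 0 ∧
      coeffMap A.subtype a ∈ modularFunctionFieldBar N ∧
      coeffMap A.subtype b ∈ modularFunctionFieldBar N ∧
      coeffMap (IsLocalRing.residue A) a ∈
        modularFunctionFieldFullC (IsLocalRing.ResidueField A) N ∧
      coeffMap (IsLocalRing.residue A) b ∈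
        modularFunctionFieldFullC (IsLocalRing.ResidueField A) N ∧
      coeffMap (IsLocalRing.residue A) a ≠ 0 ∧ coeffMap (IsLocalRing.residue A) b ≠ 0 ∧
      f * coeffMap A.subtype b =
        algebraMap (AlgebraicClosure ℚ) (LaurentSeries (AlgebraicClosure ℚ)) c *
          coeffMap A.subtype a := by
  rw [ga41_bar_eq] at hf ⊢
  exact ga41_HF_fullC A N hN f hf hf0

/-- **The Prelude hypothesis `PrincipalGeneratedByIntegral`** for a valuation subring of `ℚ̄`
whose residue characteristic does not divide `N`. -/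
theorem ga41_pgi (hN : (N : IsLocalRing.ResidueField A) ≠ 0) :
    PrincipalGeneratedByIntegral A (IsLocalRing.residue A) N := by
  intro D hD
  obtain ⟨f, hf0, hDf⟩ := hD
  obtain ⟨a, b, c, hc, haL, hbL, hak, hbk, hane, hbne, hab⟩ :=
    ga41_HF N A hN f f.2 (fun h => hf0 (Subtype.ext h))
  have haL0 : (⟨_, haL⟩ : modularFunctionFieldBar N) ≠ 0 :=
    fun h => re41_ne_zero_of_residue_ne_zero hane (congrArg Subtype.val h)
  have hbL0 : (⟨_, hbL⟩ : modularFunctionFieldBar N) ≠ 0 :=
    fun h => re41_ne_zero_of_residue_ne_zero hbne (congrArg Subtype.val h)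
  obtain ⟨Ea, hEa, -⟩ := re41_exists_div N ⟨_, haL⟩ haL0
  obtain ⟨Eb, hEb, -⟩ := re41_exists_div N ⟨_, hbL⟩ hbL0
  have hcF : algebraMap (AlgebraicClosure ℚ) (modularFunctionFieldBar N) c ≠ 0 := by
    rw [Ne, map_eq_zero]
    exact hc
  have hfab : f * (⟨_, hbL⟩ : modularFunctionFieldBar N) =
      algebraMap (AlgebraicClosure ℚ) (modularFunctionFieldBar N) c * ⟨_, haL⟩ :=
    Subtype.ext hab
  have hDE : D = Ea - Eb := by
    ext P
    have h1 := congrArg P.ord hfab
    rw [P.ord_mul hf0 hbL0, P.ord_mul hcF haL0, wp1_ord_algebraMap, zero_add] at h1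
    rw [Finsupp.sub_apply, hDf P, hEa P, hEb P]
    linarith
  rw [hDE]
  exact AddSubgroup.sub_mem _ (AddSubgroup.subset_closure ⟨a, haL, hak, hane, hEa⟩)
    (AddSubgroup.subset_closure ⟨b, hbL, hbk, hbne, hEb⟩)

omit [NeZero N] in
/-- The level is invertible in the residue field of a valuation ring over `ℓ ∤ N`. -/
theorem ga41_natCast_ne_zero {L : Type*} [Field L] (B : ValuationSubring L) {ℓ : ℕ}
    (hℓ : ℓ.Prime) (hB : B.LiesOverPrime ℓ) (hN : ¬ ℓ ∣ N) :
    (N : IsLocalRing.ResidueField B) ≠ 0 := by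
  intro h0
  have hcop : IsCoprime (N : ℤ) (ℓ : ℤ) :=
    Nat.isCoprime_iff_coprime.mpr ((Nat.Prime.coprime_iff_not_dvd hℓ).mpr hN).symm
  obtain ⟨u, v, huv⟩ := hcop
  have hℓ0 : (ℓ : IsLocalRing.ResidueField B) = 0 := by
    have h1 : IsLocalRing.residue B (ℓ : B) = 0 := by
      rw [IsLocalRing.residue_eq_zero_iff, ← ValuationSubring.coe_mem_nonunits_iff]
      exact hB
    rwa [map_natCast] at h1
  have h2 := congrArg (Int.cast : ℤ → IsLocalRing.ResidueField B) huv
  push_cast at h2
  rw [h0, hℓ0, mul_zero, mul_zero, add_zero] at h2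
  exact zero_ne_one h2

/-- `PrincipalGeneratedByIntegral` at a prime `ℓ ∤ N`. -/
theorem ga41_pgi_of_liesOver {ℓ : ℕ} (hℓ : ℓ.Prime) (hA : A.LiesOverPrime ℓ) (hN : ¬ ℓ ∣ N) :
    PrincipalGeneratedByIntegral A (IsLocalRing.residue A) N :=
  ga41_pgi N A (ga41_natCast_ne_zero N A hℓ hA hN)

end Fermat.Agent.S37
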