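import Fermat.Agent.S37.ChartModRed80
import Fermat.Agent.S37.Equiv73c
import Fermat.Agent.S37.DegZeroAsm64
import Fermat.Agent.S37.GaussPGI41
import Fermat.Agent.S37.WeakRiemann15
import Fermat.Agent.S37.DegZeroInst66

/-!
# S37, rows RC-INST / ESZ-Close (helper80): the closing composition of chain B

* `cm80_deg_bar`, `cm80_deg_res` : the places of both fibres have degree one.
* `cm80_isPlaceReductionModL` : clause (1), the Prelude statement `IsPlaceReductionModL A M r0`,
  from the conservation law `cg89_Reduction.cons` on the Gauss ring `ga41_V M A`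
  (integral series lie in the Gauss ring and reduce coefficientwise).
* `cm80_h64_RC_of_reduction`, `cm80_h64_RC` : the reduction data `h64_RC M A` of `DegZeroTop64`
  (place reduction, generation of principal divisors by integral functions, equivariance under
  the decomposition group), with no hypothesis left, at the levels divisible by `2` or `3` and
  the primes `ℓ ∤ M`.
* `cm80_S37` : the frozen statement S37 (literal type), with no hypothesis left, through
  `h64_S37_of_WR_RC` and the weak Riemann property `dz66_WR_modular`.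
-/

set_option autoImplicit false
set_option linter.style.haveILetI false

namespace Fermat.Agent.S37

open ModularCurve AlgebraicCurve IntermediateField HahnSeries Fermat.Agent.S24 Fermat.Agent.S18

local notation "Qb" => AlgebraicClosure ℚ

section PR

set_option synthInstance.maxHeartbeats 400000
set_option maxHeartbeats 1000000

variable (M : ℕ) [NeZero M] (A : ValuationSubring Qb)
  (hM : (M : IsLocalRing.ResidueField A) ≠ 0)

theorem cm80_deg_bar (P : Place Qb ↥(modularFunctionFieldBar M)) : P.deg = 1 := by
  haveI := (ga41_finrank_bar M).1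
  exact wp1_deg_eq_one (ga41_jF M) (ga41_transcendental_jF M) P

include hM in
theorem cm80_deg_res (Q : Place (IsLocalRing.ResidueField A)
    ↥(modularFunctionFieldFullC (IsLocalRing.ResidueField A) M)) : Q.deg = 1 := by
  haveI := rc5_isAlgClosed_residueField A
  haveI := (ga41_finrank_res M (IsLocalRing.ResidueField A) hM).1
  exact wp1_deg_eq_one (ga41_jk M (IsLocalRing.ResidueField A))
    (ga41_transcendental_jk M (IsLocalRing.ResidueField A)) Q

/-- **Clause (1)**: the Prelude statement `IsPlaceReductionModL` from conservation of number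
on the Gauss ring. -/
theorem cm80_isPlaceReductionModL
    {x : ↥(ga41_V M A hM)}
    {r0 : Place Qb ↥(modularFunctionFieldBar M) →
      Place (IsLocalRing.ResidueField A)
        ↥(modularFunctionFieldFullC (IsLocalRing.ResidueField A) M)}
    (h : cg89_Reduction A (ga41_V M A hM) (cm80_red M A hM) x r0) :
    IsPlaceReductionModL A M r0 := by
  refine ⟨fun P => by rw [cm80_deg_bar M P, cm80_deg_res M A hM (r0 P)], ?_⟩
  intro y hy hyk hne D hD Q
  have hf : (⟨coeffMap A.subtype y, hy⟩ : ↥(modularFunctionFieldBar M)) ∈ ga41_V M A hM :=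
    ga41_mem_O_of_integral y rfl
  have hred : cm80_red M A hM ⟨_, hf⟩ = ⟨coeffMap (IsLocalRing.residue A) y, hyk⟩ :=
    Subtype.ext (ga41_redHom_integral _ y rfl)
  have h1 := h.cons ⟨_, hf⟩
    (by rw [hred]; intro h0; exact hne (congrArg Subtype.val h0)) D hD Q
  rw [hred] at h1
  exact h1

end PR

end Fermat.Agent.S37

namespace Fermat.Agent.S37

open ModularCurve AlgebraicCurve IntermediateField HahnSeries Fermat.Agent.S24 Fermat.Agent.S18

local notation "Qb" => AlgebraicClosure ℚ

section Close

set_option synthInstance.maxHeartbeats 400000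
set_option maxHeartbeats 1000000

/-- `h64_RC` from any `cg89_Reduction` on the Gauss ring whose coordinate has integer
`q`-expansion coefficients. -/
theorem cm80_h64_RC_of_reduction (M : ℕ) [NeZero M] (A : ValuationSubring Qb)
    (hM : (M : IsLocalRing.ResidueField A) ≠ 0)
    {x : ↥(ga41_V M A hM)}
    {r0 : Place Qb ↥(modularFunctionFieldBar M) →
      Place (IsLocalRing.ResidueField A)
        ↥(modularFunctionFieldFullC (IsLocalRing.ResidueField A) M)}
    (h : cg89_Reduction A (ga41_V M A hM) (cm80_red M A hM) x r0)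
    (g : LaurentSeries ℤ)
    (hx : (((x : ↥(modularFunctionFieldBar M))) : LaurentSeries Qb)
      = coeffMap (Int.castRingHom Qb) g) :
    h64_RC M A :=
  ⟨r0, cm80_isPlaceReductionModL M A hM h, ga41_pgi M A hM,
    eq73_reduction_smul M A hM (fun _ _ => rfl) h g hx⟩

/-- **`h64_RC M A`, hypothesis-free**, at the levels divisible by `2` or `3` and primes
`ℓ ∤ M`. -/
theorem cm80_h64_RC (M : ℕ) [NeZero M] (ℓ : ℕ) (hℓ : ℓ.Prime) (hℓM : ¬ ℓ ∣ M)
    (h23 : 2 ∣ M ∨ 3 ∣ M) (A : ValuationSubring Qb) (hA : A.LiesOverPrime ℓ) :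
    h64_RC M A := by
  have hM : (M : IsLocalRing.ResidueField A) ≠ 0 := ga41_natCast_ne_zero M A hℓ hA hℓM
  have hcop : Nat.Coprime M ℓ := ((Nat.Prime.coprime_iff_not_dvd hℓ).mpr hℓM).symm
  rcases h23 with h2 | h3
  · obtain ⟨r0, hr0⟩ := cm80_exists_reduction_h2 A hℓ hA M hcop hM h2
    exact cm80_h64_RC_of_reduction M A hM hr0 (h70_h2 ℤ) rfl
  · obtain ⟨r0, hr0⟩ := cm80_exists_reduction_h3 A hℓ hA M hcop hM h3
    exact cm80_h64_RC_of_reduction M A hM hr0 (h34_h3R ℤ) rfl

/-- **The frozen statement S37, hypothesis-free.** -/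
theorem cm80_S37 (N p : ℕ) [NeZero N] (hcomm : ModularCurve.HeckeOperatorsCommuteBar N) :
    letI := ModularCurve.heckeModuleBar N
    ∀ (_ : SMulCommClass (AlgebraicClosure ℚ ≃ₐ[ℚ] AlgebraicClosure ℚ) ModularCurve.HeckeAlg
      (ModularCurve.JZero N)),
      ModularCurve.SpecializationExists (K := ℚ) (L := AlgebraicClosure ℚ) N p
        (ModularCurve.JZero N) :=
  h64_S37_of_WR_RC N p hcomm (fun M _ => dz66_WR_modular M) cm80_h64_RC

end Close

end Fermat.Agent.S37

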