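import Fermat.Agent.S37.Top13

/-!
# S37, assembly of `top13_RedData` (helper13)

`asm13_redData`: the package `top13_RedData N A ℓ` from

* a place reduction `r0` (Prelude sense: `IsPlaceReductionModL` + `PrincipalGeneratedByIntegral`),
* an action `ρ` of `Aut(k)` on the function field of the special fibre by semilinear
  automorphisms (row FR: coefficientwise action on `k((q))`),
* equivariance of `r0` under the decomposition group (row RC),
* the Eichler-Shimura relation on `Pic⁰` for the automorphism of `k` given by `x ↦ x ^ ℓ`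
  (rows ES1-ES3).
-/

set_option autoImplicit false
set_option linter.style.haveILetI false

namespace Fermat.Agent.S37

open ModularCurve AlgebraicCurve

local notation "Qb" => AlgebraicClosure ℚ
local notation "GQ" => AlgebraicClosure ℚ ≃ₐ[ℚ] AlgebraicClosure ℚ

section MapDomain

variable {K F K' F' : Type*} [Field K] [Field F] [Algebra K F] [Field K'] [Field F'] [Algebra K' F']

/-- Transport of an equivariance statement from places to divisors. -/
theorem asm13_mapDomain_smul (r : Place K F → Place K' F') (g : SemilinearAut K F)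
    (g' : SemilinearAut K' F') (h : ∀ P, r (g • P) = g' • r P) (D : Divisor K F) :
    Finsupp.mapDomain r (g • D) = g' • Finsupp.mapDomain r D := by
  rw [SemilinearAut.divisor_smul_def, SemilinearAut.divisor_smul_def, ← Finsupp.mapDomain_comp,
    ← Finsupp.mapDomain_comp]
  congr 1
  funext P
  exact h P

end MapDomain

section Equivariance

variable {N : ℕ} {A : ValuationSubring Qb}

local notation "kA" => IsLocalRing.ResidueField A

/-- Equivariance of the `Pic⁰`-reduction from equivariance of the place reduction. -/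
theorem asm13_red_smul
    {r0 : Place Qb (modularFunctionFieldBar N) → Place kA (modularFunctionFieldFullC kA N)}
    (hr : IsPlaceReductionModL A N r0)
    (hgen : PrincipalGeneratedByIntegral A (IsLocalRing.residue A) N)
    (σ : GQ) (g' : SemilinearAut kA (modularFunctionFieldFullC kA N))
    (h : ∀ P, r0 (arithmeticGalois (modularFunctionFieldFull N) σ • P) = g' • r0 P)
    (x : JZero N) :
    reductionPic0Along r0 hr hgen (σ • x) = g' • reductionPic0Along r0 hr hgen x := by
  obtain ⟨D, rfl⟩ := Pic0.mk_surjective x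
  rw [galois_smul_pic0_def, SemilinearAut.pic0_smul_mk, reductionPic0Along_mk,
    reductionPic0Along_mk, SemilinearAut.pic0_smul_mk]
  congr 1
  apply Subtype.ext
  rw [coe_reductionDegZeroAlong, SemilinearAut.coe_degZeroSMulHom,
    SemilinearAut.coe_degZeroSMulHom, coe_reductionDegZeroAlong]
  exact asm13_mapDomain_smul r0 _ g' h _

end Equivariance

section Assembly

variable (N : ℕ) [NeZero N] (A : ValuationSubring Qb) (ℓ : Nat.Primes)

local notation "kA" => IsLocalRing.ResidueField A

/-- **Assembly.** The package `top13_RedData` from the outputs of rows RC, FR, ES3. -/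
theorem asm13_redData
    (ρ : (kA ≃+* kA) →* SemilinearAut kA (modularFunctionFieldFullC kA N))
    (r0 : Place Qb (modularFunctionFieldBar N) → Place kA (modularFunctionFieldFullC kA N))
    (hr : IsPlaceReductionModL A N r0)
    (hgen : PrincipalGeneratedByIntegral A (IsLocalRing.residue A) N)
    (hequiv : ∀ (σ : GQ) (hσ : σ ∈ A.decompositionSubgroup ℚ)
      (P : Place Qb (modularFunctionFieldBar N)),
      r0 (arithmeticGalois (modularFunctionFieldFull N) σ • P)
        = ρ (MulSemiringAction.toRingEquiv (A.decompositionSubgroup ℚ) kA ⟨σ, hσ⟩) • r0 P)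
    (hes : ∀ φk : kA ≃+* kA, (∀ x : kA, φk x = x ^ (ℓ : ℕ)) → ∀ x : JZero N,
      reductionPic0Along r0 hr hgen (heckeOperatorBar N ℓ x)
        = ρ φk • reductionPic0Along r0 hr hgen x
          + (ℓ : ℕ) • (ρ φk)⁻¹ • reductionPic0Along r0 hr hgen x)
    (hA : A.LiesOverPrime (ℓ : ℕ)) :
    Nonempty (top13_RedData N A ℓ) := by
  obtain ⟨σ₀, hσ₀⟩ := h14_exists_isFrobeniusAt (ℓ : ℕ) ℓ.2 A hA
  obtain ⟨hσ₀D, hσ₀x⟩ := hσ₀
  set φk : kA ≃+* kA :=
    MulSemiringAction.toRingEquiv (A.decompositionSubgroup ℚ) kA ⟨σ₀, hσ₀D⟩ with hφk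
  have hφkx : ∀ x : kA, φk x = x ^ (ℓ : ℕ) := fun x => hσ₀x x
  refine ⟨{
    r0 := r0
    hr := hr
    hgen := hgen
    Fr := DistribSMul.toAddMonoidHom _ (ρ φk)
    FrInv := DistribSMul.toAddMonoidHom _ (ρ φk)⁻¹
    FrInv_Fr := fun y => inv_smul_smul (ρ φk) y
    inertia := ?_
    frob := ?_
    es := fun x => hes φk hφkx x }⟩
  · intro σ hσ x
    obtain ⟨τ, hτ, rfl⟩ := Subgroup.mem_map.mp hσ
    have h1 : MulSemiringAction.toRingEquiv (A.decompositionSubgroup ℚ) kA τ = 1 := by
      have h2 : MulSemiringAction.toRingAut (A.decompositionSubgroup ℚ) kA τ = 1 :=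
        MonoidHom.mem_ker.mp hτ
      exact h2
    have h3 := asm13_red_smul hr hgen ((A.decompositionSubgroup ℚ).subtype τ)
      (ρ (MulSemiringAction.toRingEquiv (A.decompositionSubgroup ℚ) kA τ))
      (fun P => hequiv _ τ.2 P) x
    rw [h3, h1, map_one, one_smul]
  · intro σ hσ x
    obtain ⟨hσD, hσx⟩ := hσ
    have h1 : MulSemiringAction.toRingEquiv (A.decompositionSubgroup ℚ) kA ⟨σ, hσD⟩ = φk := by
      ext y
      show (⟨σ, hσD⟩ : A.decompositionSubgroup ℚ) • y = φk y
      rw [hσx y, hφkx y]
    have h3 := asm13_red_smul hr hgen σ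
      (ρ (MulSemiringAction.toRingEquiv (A.decompositionSubgroup ℚ) kA ⟨σ, hσD⟩))
      (fun P => hequiv σ hσD P) x
    rw [h3, h1]
    rfl

end Assembly

end Fermat.Agent.S37
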