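import Fermat.Agent.S24.Infinity
import Fermat.Agent.S24.AsmBridgeB
import Fermat.Prelude.Def_ModularCurve_HeckeOperator
import Fermat.Prelude.Thm_ModularCurve_coeffMap_qExpand

/-!
# S37 (helper97): the Atkin-Lehner involution on the formal function field of level `N * ℓ`

For a prime `ℓ ∤ N` there is a `ℚ̄`-algebra endomorphism `w` of
`modularFunctionFieldBar (N * ℓ) = ℚ̄(j(q^e) : e ∣ N ℓ)` with `j(q^d) ↦ j(q^(dℓ))` and
`j(q^(dℓ)) ↦ j(q^d)` for `d ∣ N`; equivalently `w ∘ α = β` and `w ∘ β = α` for the two degeneracy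
maps of the Prelude (`heckeAlphaBar`, `heckeBetaBar`).

Route: polynomial relations among the formal series `JJ e` are the relations among the functions
`τ ↦ j(eτ)` on the upper half plane (S24, `wpA4_rel_iff`), and the substitution
`τ ↦ (ℓxτ + 1)/(Nℓzτ + ℓ)` (`ℓx - Nz = 1`) swaps `j(dτ)` and `j(dℓτ)`.
-/

set_option autoImplicit false

open ModularCurve AlgebraicCurve MatrixGroups UpperHalfPlane IntermediateField
open Fermat.Agent.S24

namespace Fermat.Agent.S37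

/-! ### The analytic substitution -/

/-- For every `τ` there is `τ'` with `j(dτ') = j(dℓτ)` and `j(dℓτ') = j(dτ)` for all `d ∣ N`. -/
theorem al97_point (N ℓ : ℕ) (hN0 : N ≠ 0) (hℓ0 : ℓ ≠ 0) (hcop : Nat.Coprime ℓ N) (τ : ℍ) :
    ∃ τ' : ℍ, ∀ d : ℕ, d ∣ N →
      kleinJ (scaleH d τ') = kleinJ (scaleH (d * ℓ) τ) ∧
      kleinJ (scaleH (d * ℓ) τ') = kleinJ (scaleH d τ) := by
  -- Bezout: `ℓ x - N z = 1`
  obtain ⟨x, z, hxz⟩ : ∃ x z : ℤ, (ℓ : ℤ) * x - (N : ℤ) * z = 1 := by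
    have h := Int.isCoprime_iff_gcd_eq_one.mpr (by exact_mod_cast hcop : Int.gcd (ℓ : ℤ) (N : ℤ) = 1)
    obtain ⟨a, b, hab⟩ := h
    exact ⟨a, -b, by linear_combination hab⟩
  have hdet1 : (!![x, 1; (N : ℤ) * z, (ℓ : ℤ)] : Matrix (Fin 2) (Fin 2) ℤ).det = 1 := by
    rw [Matrix.det_fin_two_of]
    linear_combination hxz
  let γ1 : SL(2, ℤ) := ⟨!![x, 1; (N : ℤ) * z, (ℓ : ℤ)], hdet1⟩
  refine ⟨γ1 • scaleH ℓ τ, fun d hd => ?_⟩
  obtain ⟨m, rfl⟩ := hd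
  have hd0 : d ≠ 0 := fun h => hN0 (by rw [h, zero_mul])
  have hdℓ0 : d * ℓ ≠ 0 := Nat.mul_ne_zero hd0 hℓ0
  have hℓC : (ℓ : ℂ) ≠ 0 := by exact_mod_cast hℓ0
  constructor
  · -- `d • (γ1 (ℓτ)) = γ_d (dℓτ)`, `γ_d = [[x, d], [m z, ℓ]]`
    have hdet : (!![x, (d : ℤ); (m : ℤ) * z, (ℓ : ℤ)] : Matrix (Fin 2) (Fin 2) ℤ).det = 1 := by
      rw [Matrix.det_fin_two_of]
      push_cast at hxz
      linear_combination hxz
    let γ : SL(2, ℤ) := ⟨!![x, (d : ℤ); (m : ℤ) * z, (ℓ : ℤ)], hdet⟩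
    have key : scaleH d (γ1 • scaleH ℓ τ) = γ • scaleH (d * ℓ) τ := by
      apply UpperHalfPlane.ext
      rw [coe_scaleH d hd0, coe_specialLinearGroup_apply, coe_specialLinearGroup_apply,
        coe_scaleH ℓ hℓ0, coe_scaleH (d * ℓ) hdℓ0]
      have e00 : γ1 0 0 = x := rfl
      have e01 : γ1 0 1 = 1 := rfl
      have e10 : γ1 1 0 = ((d * m : ℕ) : ℤ) * z := rfl
      have e11 : γ1 1 1 = (ℓ : ℤ) := rfl
      have f00 : γ 0 0 = x := rfl
      have f01 : γ 0 1 = (d : ℤ) := rfl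
      have f10 : γ 1 0 = (m : ℤ) * z := rfl
      have f11 : γ 1 1 = (ℓ : ℤ) := rfl
      rw [e00, e01, e10, e11, f00, f01, f10, f11]
      have hden : ((algebraMap ℤ ℝ (((d * m : ℕ) : ℤ) * z) : ℝ) : ℂ) * ((ℓ : ℂ) * (τ : ℂ)) +
          ((algebraMap ℤ ℝ (ℓ : ℤ) : ℝ) : ℂ) =
          ((algebraMap ℤ ℝ ((m : ℤ) * z) : ℝ) : ℂ) * (((d * ℓ : ℕ) : ℂ) * (τ : ℂ)) +
            ((algebraMap ℤ ℝ (ℓ : ℤ) : ℝ) : ℂ) := by
        simp
        ring
      rw [← hden, mul_div_assoc']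
      congr 1
      simp
      ring
    rw [key, wpA1_kleinJ_smul]
  · -- `dℓ • (γ1 (ℓτ)) = γ'_d (dτ)`, `γ'_d = [[ℓ x, d], [m z, 1]]`
    have hdet : (!![(ℓ : ℤ) * x, (d : ℤ); (m : ℤ) * z, 1] : Matrix (Fin 2) (Fin 2) ℤ).det = 1 := by
      rw [Matrix.det_fin_two_of]
      push_cast at hxz
      linear_combination hxz
    let γ : SL(2, ℤ) := ⟨!![(ℓ : ℤ) * x, (d : ℤ); (m : ℤ) * z, 1], hdet⟩
    have key : scaleH (d * ℓ) (γ1 • scaleH ℓ τ) = γ • scaleH d τ := by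
      apply UpperHalfPlane.ext
      rw [coe_scaleH (d * ℓ) hdℓ0, coe_specialLinearGroup_apply, coe_specialLinearGroup_apply,
        coe_scaleH ℓ hℓ0, coe_scaleH d hd0]
      have e00 : γ1 0 0 = x := rfl
      have e01 : γ1 0 1 = 1 := rfl
      have e10 : γ1 1 0 = ((d * m : ℕ) : ℤ) * z := rfl
      have e11 : γ1 1 1 = (ℓ : ℤ) := rfl
      have f00 : γ 0 0 = (ℓ : ℤ) * x := rfl
      have f01 : γ 0 1 = (d : ℤ) := rfl
      have f10 : γ 1 0 = (m : ℤ) * z := rfl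
      have f11 : γ 1 1 = 1 := rfl
      rw [e00, e01, e10, e11, f00, f01, f10, f11]
      have hden : ((algebraMap ℤ ℝ (((d * m : ℕ) : ℤ) * z) : ℝ) : ℂ) * ((ℓ : ℂ) * (τ : ℂ)) +
          ((algebraMap ℤ ℝ (ℓ : ℤ) : ℝ) : ℂ) =
          (ℓ : ℂ) * (((algebraMap ℤ ℝ ((m : ℤ) * z) : ℝ) : ℂ) * ((d : ℂ) * (τ : ℂ)) +
            ((algebraMap ℤ ℝ (1 : ℤ) : ℝ) : ℂ)) := by
        simp
        ring
      have hnum : ((d * ℓ : ℕ) : ℂ) * (((algebraMap ℤ ℝ x : ℝ) : ℂ) * ((ℓ : ℂ) * (τ : ℂ)) +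
          ((algebraMap ℤ ℝ (1 : ℤ) : ℝ) : ℂ)) =
          (ℓ : ℂ) * (((algebraMap ℤ ℝ ((ℓ : ℤ) * x) : ℝ) : ℂ) * ((d : ℂ) * (τ : ℂ)) +
            ((algebraMap ℤ ℝ (d : ℤ) : ℝ) : ℂ)) := by
        simp
        ring
      rw [hden, mul_div_assoc', hnum, mul_div_mul_left _ _ hℓC]
    rw [key, wpA1_kleinJ_smul]


/-! ### Fields generated by families with the same relations -/

section Lift

variable {K Ω : Type*} [Field K] [Field Ω] [Algebra K Ω] {σ : Type*}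

/-- On the range of the evaluation at `J`: evaluate at `J'` instead. -/
noncomputable def al97_psiRange (J J' : σ → Ω)
    (h : ∀ P : MvPolynomial σ K, MvPolynomial.aeval J P = 0 → MvPolynomial.aeval J' P = 0) :
    (MvPolynomial.aeval J : MvPolynomial σ K →ₐ[K] Ω).range →ₐ[K] Ω :=
  (Ideal.Quotient.liftₐ (RingHom.ker (MvPolynomial.aeval J : MvPolynomial σ K →ₐ[K] Ω))
      (MvPolynomial.aeval J' : MvPolynomial σ K →ₐ[K] Ω) (fun a ha => h a ha)).comp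
    ((Ideal.quotientKerEquivRange (MvPolynomial.aeval J : MvPolynomial σ K →ₐ[K] Ω)).symm :
      (MvPolynomial.aeval J : MvPolynomial σ K →ₐ[K] Ω).range →ₐ[K] _)

theorem al97_psiRange_apply (J J' : σ → Ω)
    (h : ∀ P : MvPolynomial σ K, MvPolynomial.aeval J P = 0 → MvPolynomial.aeval J' P = 0)
    (P : MvPolynomial σ K) :
    al97_psiRange J J' h ⟨MvPolynomial.aeval J P, ⟨P, rfl⟩⟩ = MvPolynomial.aeval J' P := by
  have h1 : (Ideal.quotientKerEquivRange (MvPolynomial.aeval J : MvPolynomial σ K →ₐ[K] Ω)).symm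
      ⟨MvPolynomial.aeval J P, ⟨P, rfl⟩⟩ = Ideal.Quotient.mk _ P := by
    rw [AlgEquiv.symm_apply_eq]
    rfl
  unfold al97_psiRange
  rw [AlgHom.comp_apply]
  erw [h1]
  rfl

theorem al97_psiRange_injective (J J' : σ → Ω)
    (h : ∀ P : MvPolynomial σ K, MvPolynomial.aeval J P = 0 ↔ MvPolynomial.aeval J' P = 0) :
    Function.Injective (al97_psiRange J J' (fun P => (h P).mp)) := by
  rw [injective_iff_map_eq_zero]
  rintro ⟨x, P, hP⟩ h0
  have hx : (⟨x, P, hP⟩ : (MvPolynomial.aeval J : MvPolynomial σ K →ₐ[K] Ω).range) =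
      ⟨MvPolynomial.aeval J P, ⟨P, rfl⟩⟩ := Subtype.ext hP.symm
  rw [hx, al97_psiRange_apply] at h0
  rw [hx]
  exact Subtype.ext ((h P).mpr h0)

open IntermediateField.algebraAdjoinAdjoin in
/-- **Same relations ⇒ field embedding**: if the families `J`, `J'` satisfy the same polynomial
relations over `K`, there is a `K`-embedding of `K(J)` with `J i ↦ J' i`. -/
theorem al97_lift (J J' : σ → Ω)
    (h : ∀ P : MvPolynomial σ K, MvPolynomial.aeval J P = 0 ↔ MvPolynomial.aeval J' P = 0) :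
    ∃ w : ↥(IntermediateField.adjoin K (Set.range J)) →ₐ[K] Ω,
      ∀ i, w ⟨J i, IntermediateField.subset_adjoin K _ ⟨i, rfl⟩⟩ = J' i := by
  have hrange : (MvPolynomial.aeval J : MvPolynomial σ K →ₐ[K] Ω).range =
      Algebra.adjoin K (Set.range J) := MvPolynomial.aeval_range _
  let ψ : Algebra.adjoin K (Set.range J) →ₐ[K] Ω :=
    (al97_psiRange J J' (fun P => (h P).mp)).comp
      (Subalgebra.equivOfEq _ _ hrange.symm : _ →ₐ[K] (MvPolynomial.aeval J).range)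
  have hψinj : Function.Injective ψ :=
    (al97_psiRange_injective J J' h).comp (AlgEquiv.injective _)
  have hψgen : ∀ i, ψ ⟨J i, Algebra.subset_adjoin ⟨i, rfl⟩⟩ = J' i := by
    intro i
    have h1 : (MvPolynomial.aeval J : MvPolynomial σ K →ₐ[K] Ω) (MvPolynomial.X i) = J i :=
      MvPolynomial.aeval_X _ _
    have h2 : (MvPolynomial.aeval J' : MvPolynomial σ K →ₐ[K] Ω) (MvPolynomial.X i) = J' i :=
      MvPolynomial.aeval_X _ _
    have h3 : (Subalgebra.equivOfEq _ _ hrange.symm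
        (⟨J i, Algebra.subset_adjoin ⟨i, rfl⟩⟩ : Algebra.adjoin K (Set.range J)))
        = ⟨MvPolynomial.aeval J (MvPolynomial.X i), ⟨MvPolynomial.X i, rfl⟩⟩ :=
      Subtype.ext h1.symm
    show (al97_psiRange J J' (fun P => (h P).mp)) (Subalgebra.equivOfEq _ _ hrange.symm _) = _
    rw [h3, al97_psiRange_apply, h2]
  refine ⟨IsFractionRing.liftAlgHom hψinj, fun i => ?_⟩
  have hi : (⟨J i, IntermediateField.subset_adjoin K _ ⟨i, rfl⟩⟩ :
      ↥(IntermediateField.adjoin K (Set.range J)))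
      = algebraMap (Algebra.adjoin K (Set.range J)) _ ⟨J i, Algebra.subset_adjoin ⟨i, rfl⟩⟩ := rfl
  rw [hi, IsFractionRing.liftAlgHom_apply, IsFractionRing.lift_algebraMap]
  exact hψgen i

end Lift

/-! ### The swap on the divisors of `N * ℓ` -/

/-- `e ↦ e / ℓ` if `ℓ ∣ e`, `e ↦ e * ℓ` otherwise. -/
def al97_swap (ℓ e : ℕ) : ℕ := if ℓ ∣ e then e / ℓ else e * ℓ

theorem al97_swap_of_dvd {ℓ e : ℕ} (h : ℓ ∣ e) : al97_swap ℓ e = e / ℓ := if_pos h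

theorem al97_swap_of_not_dvd {ℓ e : ℕ} (h : ¬ ℓ ∣ e) : al97_swap ℓ e = e * ℓ := if_neg h

theorem al97_dvd_of_not_dvd {N ℓ e : ℕ} (hℓ : ℓ.Prime) (he : e ∣ N * ℓ) (h : ¬ ℓ ∣ e) : e ∣ N :=
  (Nat.Coprime.dvd_of_dvd_mul_right ((Nat.Prime.coprime_iff_not_dvd hℓ).mpr h).symm he)

theorem al97_div_dvd {N ℓ e : ℕ} (hℓ : ℓ.Prime) (he : e ∣ N * ℓ) (h : ℓ ∣ e) : e / ℓ ∣ N := by
  obtain ⟨e', rfl⟩ := h
  rw [Nat.mul_div_cancel_left _ hℓ.pos]
  rw [mul_comm ℓ e'] at he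
  exact (Nat.mul_dvd_mul_iff_right hℓ.pos).mp he

theorem al97_swap_mem {N ℓ e : ℕ} (hℓ : ℓ.Prime) (he : e ∈ (N * ℓ).divisors) :
    al97_swap ℓ e ∈ (N * ℓ).divisors := by
  rw [Nat.mem_divisors] at he ⊢
  refine ⟨?_, he.2⟩
  by_cases h : ℓ ∣ e
  · rw [al97_swap_of_dvd h]
    exact (al97_div_dvd hℓ he.1 h).trans (dvd_mul_right N ℓ)
  · rw [al97_swap_of_not_dvd h]
    exact Nat.mul_dvd_mul_right (al97_dvd_of_not_dvd hℓ he.1 h) ℓ

theorem al97_swap_swap {N ℓ e : ℕ} (hℓ : ℓ.Prime) (hN : ¬ ℓ ∣ N) (he : e ∣ N * ℓ) :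
    al97_swap ℓ (al97_swap ℓ e) = e := by
  by_cases h : ℓ ∣ e
  · rw [al97_swap_of_dvd h]
    have h1 : ¬ ℓ ∣ e / ℓ := fun h2 => hN (h2.trans (al97_div_dvd hℓ he h))
    rw [al97_swap_of_not_dvd h1, Nat.div_mul_cancel h]
  · rw [al97_swap_of_not_dvd h, al97_swap_of_dvd (dvd_mul_left ℓ e),
      Nat.mul_div_cancel _ hℓ.pos]

/-- The swap as a self-map of the divisors of `N * ℓ`. -/
def al97_iota (N ℓ : ℕ) (hℓ : ℓ.Prime) (e : (N * ℓ).divisors) : (N * ℓ).divisors :=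
  ⟨al97_swap ℓ e.1, al97_swap_mem hℓ e.2⟩

theorem al97_iota_iota (N ℓ : ℕ) (hℓ : ℓ.Prime) (hN : ¬ ℓ ∣ N) (e : (N * ℓ).divisors) :
    al97_iota N ℓ hℓ (al97_iota N ℓ hℓ e) = e :=
  Subtype.ext (al97_swap_swap hℓ hN (Nat.dvd_of_mem_divisors e.2))

/-! ### The relations are invariant under the swap -/

theorem al97_genFn_swap (N ℓ : ℕ) (hN0 : N ≠ 0) (hℓ : ℓ.Prime) (hN : ¬ ℓ ∣ N) (τ : ℍ) :
    ∃ τ' : ℍ, ∀ e : (N * ℓ).divisors,
      genFn 1 e.1 τ' = genFn 1 (al97_iota N ℓ hℓ e).1 τ := by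
  obtain ⟨τ', hτ'⟩ := al97_point N ℓ hN0 hℓ.ne_zero ((Nat.Prime.coprime_iff_not_dvd hℓ).mpr hN) τ
  refine ⟨τ', fun e => ?_⟩
  have he : e.1 ∣ N * ℓ := Nat.dvd_of_mem_divisors e.2
  simp only [genFn_apply, inv_one, one_smul, al97_iota]
  by_cases h : ℓ ∣ e.1
  · rw [al97_swap_of_dvd h]
    have h1 := (hτ' (e.1 / ℓ) (al97_div_dvd hℓ he h)).2
    rwa [Nat.div_mul_cancel h] at h1
  · rw [al97_swap_of_not_dvd h]
    exact (hτ' e.1 (al97_dvd_of_not_dvd hℓ he h)).1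

theorem al97_aeval_apply {σ : Type*} (f : σ → ℍ → ℂ) (P : MvPolynomial σ Kbar) (τ : ℍ) :
    (MvPolynomial.aeval f P) τ = MvPolynomial.aeval (fun e => f e τ) P := by
  have h := MvPolynomial.comp_aeval (R := Kbar) f (Pi.evalAlgHom Kbar (fun _ : ℍ => ℂ) τ)
  exact congrArg (fun a : MvPolynomial σ Kbar →ₐ[Kbar] ℂ => a P) h

/-- **Invariance of the relations**: the families `JJ e` and `JJ (swap e)`, `e ∣ N ℓ`, satisfy the
same polynomial relations over `ℚ̄`. -/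
theorem al97_rel (N ℓ : ℕ) [NeZero N] (hℓ : ℓ.Prime) (hN : ¬ ℓ ∣ N)
    (P : MvPolynomial (N * ℓ).divisors Kbar) :
    MvPolynomial.aeval (fun e : (N * ℓ).divisors => JJ e.1) P = 0 ↔
      MvPolynomial.aeval (fun e : (N * ℓ).divisors => JJ (al97_swap ℓ e.1)) P = 0 := by
  haveI : NeZero (N * ℓ) := ⟨Nat.mul_ne_zero (NeZero.ne N) hℓ.ne_zero⟩
  have hr : MvPolynomial.aeval (fun e : (N * ℓ).divisors => JJ (al97_swap ℓ e.1)) P =
      MvPolynomial.aeval (fun e : (N * ℓ).divisors => JJ e.1)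
        (MvPolynomial.rename (al97_iota N ℓ hℓ) P) := by
    rw [MvPolynomial.aeval_rename]
    rfl
  rw [hr, wpA4_rel_iff (N * ℓ) P, wpA4_rel_iff (N * ℓ) (MvPolynomial.rename (al97_iota N ℓ hℓ) P),
    MvPolynomial.aeval_rename]
  have hpt := al97_genFn_swap N ℓ (NeZero.ne N) hℓ hN
  constructor
  · intro h0
    funext τ
    obtain ⟨τ', hτ'⟩ := hpt τ
    have h1 := congrFun h0 τ'
    rw [al97_aeval_apply] at h1 ⊢
    have h2 : (fun e : (N * ℓ).divisors => genFn 1 e.1 τ') =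
        fun e => ((fun d : (N * ℓ).divisors => genFn 1 d.1) ∘ al97_iota N ℓ hℓ) e τ := by
      funext e
      exact hτ' e
    rw [h2] at h1
    exact h1
  · intro h0
    funext τ
    obtain ⟨τ', hτ'⟩ := hpt τ
    have h1 := congrFun h0 τ'
    rw [al97_aeval_apply] at h1 ⊢
    have h2 : (fun e => ((fun d : (N * ℓ).divisors => genFn 1 d.1) ∘ al97_iota N ℓ hℓ) e τ') =
        fun e : (N * ℓ).divisors => genFn 1 e.1 τ := by
      funext e
      have h3 := hτ' (al97_iota N ℓ hℓ e)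
      rw [al97_iota_iota N ℓ hℓ hN] at h3
      exact h3
    rw [h2] at h1
    exact h1

/-! ### The Atkin-Lehner endomorphism -/

theorem al97_JJ_mul (d ℓ : ℕ) [NeZero ℓ] (hd : d ≠ 0) : qExpand Kbar ℓ (JJ d) = JJ (d * ℓ) := by
  haveI : NeZero d := ⟨hd⟩
  haveI : NeZero (d * ℓ) := ⟨Nat.mul_ne_zero hd (NeZero.ne ℓ)⟩
  rw [JJ_of_neZero, JJ_of_neZero, coeffEmb, ← coeffMap_qExpand, qExpand_qExpand]
  exact congrArg _ (qExpand_congr (mul_comm ℓ d) jq)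

/-- **The Atkin-Lehner involution at `ℓ`** on the formal function field of level `N ℓ`
(`ℓ` prime, `ℓ ∤ N`): a `ℚ̄`-algebra endomorphism `w` with `w ∘ α = β` and `w ∘ β = α`, where
`α = heckeAlphaBar` (inclusion) and `β = heckeBetaBar` (`q ↦ q^ℓ`) are the two degeneracy maps
from level `N`.  The third clause gives its values on the generators. -/
theorem al97_exists (N ℓ : ℕ) [NeZero N] [NeZero ℓ] (hℓ : ℓ.Prime) (hN : ¬ ℓ ∣ N) :
    ∃ w : ↥(modularFunctionFieldBar (N * ℓ)) →ₐ[Kbar] ↥(modularFunctionFieldBar (N * ℓ)),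
      w.comp (heckeAlphaBar Kbar N ℓ) = heckeBetaBar Kbar N ℓ ∧
      w.comp (heckeBetaBar Kbar N ℓ) = heckeAlphaBar Kbar N ℓ ∧
      ∀ (e : ℕ) (_ : e ∣ N * ℓ) (x : ↥(modularFunctionFieldBar (N * ℓ))),
        (x : LaurentSeries Kbar) = JJ e → ((w x : ↥(modularFunctionFieldBar (N * ℓ))) :
          LaurentSeries Kbar) = JJ (al97_swap ℓ e) := by
  have hF : modularFunctionFieldBar (N * ℓ) =
      IntermediateField.adjoin Kbar (asmAb_gens (N * ℓ)) := asmAb_eq_adjoin (N * ℓ)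
  obtain ⟨w0, hw0⟩ : ∃ w : ↥(IntermediateField.adjoin Kbar (asmAb_gens (N * ℓ))) →ₐ[Kbar]
      LaurentSeries Kbar, ∀ i : (N * ℓ).divisors,
        w ⟨JJ i.1, IntermediateField.subset_adjoin Kbar _ ⟨i, rfl⟩⟩ = JJ (al97_swap ℓ i.1) :=
    al97_lift (K := Kbar) (fun e : (N * ℓ).divisors => JJ e.1)
      (fun e : (N * ℓ).divisors => JJ (al97_swap ℓ e.1)) (al97_rel N ℓ hℓ hN)
  have hNℓ0 : N * ℓ ≠ 0 := Nat.mul_ne_zero (NeZero.ne N) hℓ.ne_zero
  -- the image lies in the function field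
  have hmem : ∀ (x : LaurentSeries Kbar)
      (hx : x ∈ IntermediateField.adjoin Kbar (asmAb_gens (N * ℓ))),
      w0 ⟨x, hx⟩ ∈ modularFunctionFieldBar (N * ℓ) := by
    intro x hx
    induction hx using IntermediateField.adjoin_induction with
    | mem y hy =>
      obtain ⟨e, rfl⟩ := hy
      rw [hw0 e]
      exact asmAb_JJ_mem (N * ℓ) _ (Nat.dvd_of_mem_divisors (al97_swap_mem hℓ e.2))
    | algebraMap c =>
      have h : (⟨algebraMap Kbar (LaurentSeries Kbar) c, IntermediateField.algebraMap_mem _ c⟩ :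
          ↥(IntermediateField.adjoin Kbar (asmAb_gens (N * ℓ)))) = algebraMap Kbar _ c := rfl
      rw [h, AlgHom.commutes]
      exact IntermediateField.algebraMap_mem _ c
    | add x y hx hy ihx ihy =>
      have h : (⟨x + y, add_mem hx hy⟩ : ↥(IntermediateField.adjoin Kbar (asmAb_gens (N * ℓ))))
          = ⟨x, hx⟩ + ⟨y, hy⟩ := rfl
      rw [h, map_add]
      exact add_mem ihx ihy
    | inv x hx ihx =>
      have h : (⟨x⁻¹, inv_mem hx⟩ : ↥(IntermediateField.adjoin Kbar (asmAb_gens (N * ℓ))))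
          = (⟨x, hx⟩ : ↥(IntermediateField.adjoin Kbar (asmAb_gens (N * ℓ))))⁻¹ := rfl
      rw [h, map_inv₀]
      exact inv_mem ihx
    | mul x y hx hy ihx ihy =>
      have h : (⟨x * y, mul_mem hx hy⟩ : ↥(IntermediateField.adjoin Kbar (asmAb_gens (N * ℓ))))
          = ⟨x, hx⟩ * ⟨y, hy⟩ := rfl
      rw [h, map_mul]
      exact mul_mem ihx ihy
  let w0' : ↥(modularFunctionFieldBar (N * ℓ)) →ₐ[Kbar] LaurentSeries Kbar :=
    w0.comp (IntermediateField.inclusion (le_of_eq hF))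
  let w : ↥(modularFunctionFieldBar (N * ℓ)) →ₐ[Kbar] ↥(modularFunctionFieldBar (N * ℓ)) :=
    AlgHom.codRestrict w0' (modularFunctionFieldBar (N * ℓ)).toSubalgebra
      (fun x => hmem _ _)
  have key : ∀ (e : ℕ) (he : e ∣ N * ℓ) (x : ↥(modularFunctionFieldBar (N * ℓ))),
      (x : LaurentSeries Kbar) = JJ e → ((w x : ↥(modularFunctionFieldBar (N * ℓ))) :
        LaurentSeries Kbar) = JJ (al97_swap ℓ e) := by
    intro e he x hx
    have h1 : IntermediateField.inclusion (le_of_eq hF) x =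
        ⟨JJ (⟨e, Nat.mem_divisors.mpr ⟨he, hNℓ0⟩⟩ : (N * ℓ).divisors).1,
          IntermediateField.subset_adjoin Kbar _ ⟨⟨e, Nat.mem_divisors.mpr ⟨he, hNℓ0⟩⟩, rfl⟩⟩ :=
      Subtype.ext hx
    show w0 (IntermediateField.inclusion (le_of_eq hF) x) = _
    rw [h1]
    exact hw0 ⟨e, Nat.mem_divisors.mpr ⟨he, hNℓ0⟩⟩
  refine ⟨w, ?_, ?_, key⟩
  · apply IntermediateField.algHom_ext_of_eq_adjoin Kbar (asmAb_eq_adjoin N)
    rintro x ⟨d, rfl⟩
    have hd : d.1 ∣ N := Nat.dvd_of_mem_divisors d.2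
    have hd0 : d.1 ≠ 0 := fun h => NeZero.ne N (by simpa [h] using hd)
    apply Subtype.ext
    rw [AlgHom.comp_apply, key d.1 (hd.trans (dvd_mul_right N ℓ)) _ rfl,
      al97_swap_of_not_dvd (fun h => hN (h.trans hd)), coe_heckeBetaBar]
    exact (al97_JJ_mul d.1 ℓ hd0).symm
  · apply IntermediateField.algHom_ext_of_eq_adjoin Kbar (asmAb_eq_adjoin N)
    rintro x ⟨d, rfl⟩
    have hd : d.1 ∣ N := Nat.dvd_of_mem_divisors d.2
    have hd0 : d.1 ≠ 0 := fun h => NeZero.ne N (by simpa [h] using hd)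
    apply Subtype.ext
    rw [AlgHom.comp_apply, key (d.1 * ℓ) (Nat.mul_dvd_mul_right hd ℓ) _
        (by rw [coe_heckeBetaBar]; exact al97_JJ_mul d.1 ℓ hd0),
      al97_swap_of_dvd (dvd_mul_left ℓ d.1), Nat.mul_div_cancel _ hℓ.pos, coe_heckeAlphaBar]

end Fermat.Agent.S37
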