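import Fermat.Agent.S37.Glue14

/-!
# S37 glue, divisor level: the frozen statement from a "centre map" on places

`h14_S37_of_centre`: S37 follows if for every good prime `ℓ`, valuation subring `A ∣ ℓ` and
Frobenius element `φ` at `A` there are a set `C` ("closed points of the special fibre"), maps
`Fr V : C → C` with `V ∘ Fr = id` and a map `c : Place ℚ̄ F(N) → C` ("centre") such that
* `c (τ • P) = c P` for `τ` in the inertia group, `c (σ • P) = Fr (c P)` for Frobenius elements,
* divisor-level Eichler-Shimura: `c_* (T_ℓ P) = Fr (c P) + ℓ • V (c P)`,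
* a degree-zero divisor `D` with `c_* D = 0` and `p ^ n • D` principal is principal.
The target of the reduction map is `(C →₀ ℤ) / c_* (principal divisors)`, so no conservation of
number is needed to define it.
-/

set_option autoImplicit false
set_option linter.style.haveILetI false

namespace Fermat.Agent.S37

open ModularCurve AlgebraicCurve

section Abstract

variable {K F : Type} [Field K] [Field F] [Algebra K F] {C : Type}

/-- Push a divisor forward along a map of places to a set of "centres". -/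
noncomputable def h14_cpush (c : Place K F → C) : Divisor K F →+ (C →₀ ℤ) :=
  Finsupp.mapDomain.addMonoidHom c

theorem h14_cpush_apply (c : Place K F → C) (D : Divisor K F) :
    h14_cpush c D = Finsupp.mapDomain c D := rfl

theorem h14_cpush_single (c : Place K F → C) (P : Place K F) (n : ℤ) :
    h14_cpush c (Finsupp.single P n) = Finsupp.single (c P) n := by
  rw [h14_cpush_apply, Finsupp.mapDomain_single]

/-- The push-forwards of the principal divisors of degree zero. -/
noncomputable def h14_cprin (c : Place K F → C) : AddSubgroup (C →₀ ℤ) :=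
  ((Divisor.principal (K := K) (F := F)) ⊓ (Divisor.degZero (K := K) (F := F))).map (h14_cpush c)

/-- The reduction map `Pic⁰ → (C →₀ ℤ) / c_* (principal)`. -/
noncomputable def h14_red (c : Place K F → C) : Pic0 K F →+ ((C →₀ ℤ) ⧸ h14_cprin c) :=
  QuotientAddGroup.lift _
    ((QuotientAddGroup.mk' (h14_cprin c)).comp
      ((h14_cpush c).comp (Divisor.degZero (K := K) (F := F)).subtype))
    (by
      rintro ⟨D, hD0⟩ hD
      have hD' : D ∈ Divisor.principal (K := K) (F := F) := hD
      show (QuotientAddGroup.mk' (h14_cprin c)) (h14_cpush c D) = 0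
      rw [QuotientAddGroup.mk'_apply, QuotientAddGroup.eq_zero_iff]
      exact ⟨D, ⟨hD', hD0⟩, rfl⟩)

theorem h14_red_mk (c : Place K F → C) (D : Divisor.degZero (K := K) (F := F)) :
    h14_red c (Pic0.mk D) = QuotientAddGroup.mk' (h14_cprin c) (h14_cpush c (D : Divisor K F)) :=
  rfl

theorem h14_red_mk_eq_zero_of (c : Place K F → C) (D : Divisor.degZero (K := K) (F := F))
    (h : h14_cpush c (D : Divisor K F) = 0) : h14_red c (Pic0.mk D) = 0 := by
  rw [h14_red_mk, h, map_zero]

theorem h14_cpush_smul (c : Place K F → C) (f : C → C) (g : SemilinearAut K F)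
    (hg : ∀ P : Place K F, c (g • P) = f (c P)) (D : Divisor K F) :
    h14_cpush c (g • D) = Finsupp.mapDomain f (h14_cpush c D) := by
  rw [h14_cpush_apply, h14_cpush_apply, SemilinearAut.divisor_smul_def,
    ← Finsupp.mapDomain_comp, ← Finsupp.mapDomain_comp]
  congr 1
  funext P
  exact hg P

/-- The endomorphism of the target induced by a map `Fr` of centres that is realised by a
semilinear automorphism. -/
noncomputable def h14_frob (c : Place K F → C) (Fr : C → C) (g : SemilinearAut K F)
    (hg : ∀ P : Place K F, c (g • P) = Fr (c P)) :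
    ((C →₀ ℤ) ⧸ h14_cprin c) →+ ((C →₀ ℤ) ⧸ h14_cprin c) :=
  QuotientAddGroup.map _ _ (Finsupp.mapDomain.addMonoidHom Fr) (by
    rintro _ ⟨E, ⟨hE, hE0⟩, rfl⟩
    rw [AddSubgroup.mem_comap, Finsupp.mapDomain.addMonoidHom_apply, ← h14_cpush_smul c Fr g hg]
    exact ⟨g • E, ⟨SemilinearAut.smul_mem_principal g hE, SemilinearAut.smul_mem_degZero g hE0⟩,
      rfl⟩)

theorem h14_red_smul_of_fix (c : Place K F → C) (g : SemilinearAut K F)
    (hg : ∀ P : Place K F, c (g • P) = c P) (x : Pic0 K F) :
    h14_red c (g • x) = h14_red c x := by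
  obtain ⟨D, rfl⟩ := Pic0.mk_surjective x
  rw [SemilinearAut.pic0_smul_mk, h14_red_mk, h14_red_mk, SemilinearAut.coe_degZeroSMulHom,
    h14_cpush_smul c id g hg, Finsupp.mapDomain_id]

theorem h14_red_smul_of_frob (c : Place K F → C) (Fr : C → C) (g : SemilinearAut K F)
    (hg : ∀ P : Place K F, c (g • P) = Fr (c P)) (h : SemilinearAut K F)
    (hh : ∀ P : Place K F, c (h • P) = Fr (c P)) (x : Pic0 K F) :
    h14_red c (h • x) = h14_frob c Fr g hg (h14_red c x) := by
  obtain ⟨D, rfl⟩ := Pic0.mk_surjective x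
  rw [SemilinearAut.pic0_smul_mk, h14_red_mk, h14_red_mk, SemilinearAut.coe_degZeroSMulHom,
    h14_cpush_smul c Fr h hh]
  rfl

/-- Injectivity of the reduction map on classes killed by `m`, from the divisor-level
statement. -/
theorem h14_red_inj (c : Place K F → C) (m : ℕ)
    (hinj : ∀ D : Divisor K F, Divisor.degree D = 0 → h14_cpush c D = 0 →
      m • D ∈ Divisor.principal (K := K) (F := F) → D ∈ Divisor.principal (K := K) (F := F))
    (x : Pic0 K F) (hx : h14_red c x = 0) (hm : m • x = 0) : x = 0 := by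
  obtain ⟨D, rfl⟩ := Pic0.mk_surjective x
  rw [h14_red_mk, QuotientAddGroup.mk'_apply, QuotientAddGroup.eq_zero_iff] at hx
  obtain ⟨E, ⟨hE, hE0⟩, hED⟩ := hx
  have hmD : m • (D : Divisor K F) ∈ Divisor.principal (K := K) (F := F) := by
    have h1 : Pic0.mk (m • D) = 0 := hm
    have h2 : (m • D) ∈ (Divisor.principal (K := K) (F := F)).addSubgroupOf
        (Divisor.degZero (K := K) (F := F)) := (QuotientAddGroup.eq_zero_iff _).mp h1
    exact h2
  have h3 : (D : Divisor K F) - E ∈ Divisor.principal (K := K) (F := F) := by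
    refine hinj _ ?_ ?_ ?_
    · rw [map_sub, Divisor.mem_degZero.mp D.2, Divisor.mem_degZero.mp hE0, sub_zero]
    · rw [map_sub, hED, sub_self]
    · rw [smul_sub]
      exact AddSubgroup.sub_mem _ hmD (AddSubgroup.nsmul_mem _ hE m)
  have h4 : (D : Divisor K F) ∈ Divisor.principal (K := K) (F := F) := by
    have := AddSubgroup.add_mem _ h3 hE
    rwa [sub_add_cancel] at this
  exact (QuotientAddGroup.eq_zero_iff _).mpr h4

end Abstract

end Fermat.Agent.S37

namespace Fermat.Agent.S37

open ModularCurve AlgebraicCurve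

section Modular

local notation "Qb" => AlgebraicClosure ℚ
local notation "GQ" => AlgebraicClosure ℚ ≃ₐ[ℚ] AlgebraicClosure ℚ

/-- Additivity: the divisor-level Eichler-Shimura relation on single places extends to all
divisors. -/
theorem h14_cpush_hecke {K F : Type} [Field K] [Field F] [Algebra K F] {C : Type}
    (c : Place K F → C) (Fr V : C → C) (ℓ : ℕ) (T : Divisor K F →+ Divisor K F)
    (hT : ∀ P : Place K F, Finsupp.mapDomain c (T (Finsupp.single P 1))
      = Finsupp.single (Fr (c P)) 1 + Finsupp.single (V (c P)) (ℓ : ℤ))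
    (E : Divisor K F) :
    h14_cpush c (T E) = Finsupp.mapDomain Fr (h14_cpush c E)
      + (ℓ : ℤ) • Finsupp.mapDomain V (h14_cpush c E) := by
  have key : (h14_cpush c).comp T
      = (Finsupp.mapDomain.addMonoidHom Fr).comp (h14_cpush c)
        + (ℓ : ℤ) • ((Finsupp.mapDomain.addMonoidHom V).comp (h14_cpush c)) := by
    refine Finsupp.addHom_ext ?_
    intro P n
    have h1 : (Finsupp.single P n : Divisor K F) = n • Finsupp.single P 1 := by
      rw [Finsupp.smul_single, smul_eq_mul, mul_one]
    simp only [AddMonoidHom.comp_apply, AddMonoidHom.add_apply, AddMonoidHom.smul_apply,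
      Finsupp.mapDomain.addMonoidHom_apply]
    rw [h14_cpush_single, Finsupp.mapDomain_single, Finsupp.mapDomain_single, h1, map_zsmul,
      map_zsmul, h14_cpush_apply, hT P, smul_add, Finsupp.smul_single, Finsupp.smul_single,
      Finsupp.smul_single, smul_eq_mul, smul_eq_mul, smul_eq_mul, mul_one, mul_comm]
  exact DFunLike.congr_fun key E

set_option maxHeartbeats 1600000 in
/-- **S37 from a centre map** (divisor-level inputs). -/
theorem h14_S37_of_centre (N p : ℕ) [NeZero N] (hcomm : HeckeOperatorsCommuteBar N)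
    (key : ∀ (ℓ : ℕ) (hℓ : ℓ.Prime), ¬ ℓ ∣ N → ¬ ℓ ∣ p → ∀ A : ValuationSubring Qb,
      A.LiesOverPrime ℓ → ∀ φ : GQ, A.IsFrobeniusAt φ ℓ →
      haveI : NeZero ℓ := ⟨hℓ.ne_zero⟩
      ∃ (hα : HeckeAlphaBarIntegral Qb N ℓ) (hβ : HeckeBetaBarIntegral Qb N ℓ)
        (_ : HasPrincipalDivisors Qb (modularFunctionFieldBar (N * ℓ)))
        (hfin : FiniteAlong Qb (heckeAlphaBar Qb N ℓ))
        (_ : FundamentalIdentityAlong Qb (heckeBetaBar Qb N ℓ) hβ)
        (_ : NormFormulaAlong Qb (heckeAlphaBar Qb N ℓ) hfin)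
        (C : Type) (c : Place Qb (modularFunctionFieldBar N) → C) (Fr V : C → C),
        (∀ x : C, V (Fr x) = x) ∧
        (∀ τ ∈ A.inertiaSubgroupIn ℚ, ∀ P : Place Qb (modularFunctionFieldBar N),
          c (arithmeticGalois (modularFunctionFieldFull N) τ • P) = c P) ∧
        (∀ σ : GQ, A.IsFrobeniusAt σ ℓ → ∀ P : Place Qb (modularFunctionFieldBar N),
          c (arithmeticGalois (modularFunctionFieldFull N) σ • P) = Fr (c P)) ∧
        (∀ P : Place Qb (modularFunctionFieldBar N),
          Finsupp.mapDomain c (heckeDivBar hα hβ (Finsupp.single P 1))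
            = Finsupp.single (Fr (c P)) 1 + Finsupp.single (V (c P)) (ℓ : ℤ)) ∧
        (∀ D : Divisor Qb (modularFunctionFieldBar N), Divisor.degree D = 0 →
          Finsupp.mapDomain c D = 0 →
          (∃ n : ℕ, p ^ n • D ∈ Divisor.principal (K := Qb) (F := modularFunctionFieldBar N)) →
          D ∈ Divisor.principal (K := Qb) (F := modularFunctionFieldBar N))) :
    letI := ModularCurve.heckeModuleBar N
    ∀ (_ : SMulCommClass GQ ModularCurve.HeckeAlg (ModularCurve.JZero N)),
      ModularCurve.SpecializationExists (K := ℚ) (L := Qb) N p (ModularCurve.JZero N) := by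
  refine h14_S37_of_red N p hcomm ?_
  intro ℓ hℓ hN hp A hA φ hφ
  haveI : NeZero ℓ := ⟨hℓ.ne_zero⟩
  obtain ⟨hα, hβ, hP, hfin, hFI, hNF, C, c, Fr, V, hVF, hin, hfr, hES, hinj⟩ :=
    key ℓ hℓ hN hp A hA φ hφ
  set g := arithmeticGalois (L := Qb) (modularFunctionFieldFull N) φ with hg
  have hgc : ∀ P : Place Qb (modularFunctionFieldBar N), c (g • P) = Fr (c P) := hfr φ hφ
  refine ⟨(C →₀ ℤ) ⧸ h14_cprin c, inferInstance, h14_red c, h14_frob c Fr g hgc, ?_, ?_, ?_, ?_⟩
  · intro τ hτ x
    rw [galois_smul_pic0_def]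
    exact h14_red_smul_of_fix c _ (hin τ hτ) x
  · intro σ hσ x
    rw [galois_smul_pic0_def]
    exact h14_red_smul_of_frob c Fr g hgc _ (hfr σ hσ) x
  · intro x
    obtain ⟨D, rfl⟩ := Pic0.mk_surjective x
    have e1 : φ • Pic0.mk D = Pic0.mk (SemilinearAut.degZeroSMulHom g D) := by
      rw [galois_smul_pic0_def]
      rfl
    have e2 : φ • Pic0.mk (SemilinearAut.degZeroSMulHom g D)
        = Pic0.mk (SemilinearAut.degZeroSMulHom g (SemilinearAut.degZeroSMulHom g D)) := by
      rw [galois_smul_pic0_def]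
      rfl
    have e3 : heckeOperatorBar N ⟨ℓ, hℓ⟩ (Pic0.mk (SemilinearAut.degZeroSMulHom g D))
        = Pic0.mk (Pic0.degZeroCorrespondence (heckeBetaBar Qb N ℓ) (heckeAlphaBar Qb N ℓ) hβ hα
            hFI (SemilinearAut.degZeroSMulHom g D)) := by
      refine (heckeOperatorBar_apply N ⟨ℓ, hℓ⟩ _).trans ?_
      rw [heckeOperatorAlong_eq hα hβ hFI hfin hNF]
      rfl
    rw [map_add, map_sub, map_nsmul, e1, e2, e3]
    rw [h14_red_mk, h14_red_mk, h14_red_mk]
    rw [← map_nsmul, ← map_sub, ← map_add]
    have hz : h14_cpush c ((SemilinearAut.degZeroSMulHom g (SemilinearAut.degZeroSMulHom g D) :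
          Divisor.degZero (K := Qb) (F := modularFunctionFieldBar N)) : Divisor Qb _)
        - h14_cpush c ((Pic0.degZeroCorrespondence (heckeBetaBar Qb N ℓ) (heckeAlphaBar Qb N ℓ)
            hβ hα hFI (SemilinearAut.degZeroSMulHom g D) :
              Divisor.degZero (K := Qb) (F := modularFunctionFieldBar N)) : Divisor Qb _)
        + ℓ • h14_cpush c (D : Divisor Qb _) = 0 := by
      have h1 : h14_cpush c ((SemilinearAut.degZeroSMulHom g (SemilinearAut.degZeroSMulHom g D) :
          Divisor.degZero (K := Qb) (F := modularFunctionFieldBar N)) : Divisor Qb _)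
          = Finsupp.mapDomain Fr (Finsupp.mapDomain Fr (h14_cpush c (D : Divisor Qb _))) := by
        rw [SemilinearAut.coe_degZeroSMulHom, SemilinearAut.coe_degZeroSMulHom,
          h14_cpush_smul c Fr g hgc, h14_cpush_smul c Fr g hgc]
      have h2 := h14_cpush_hecke c Fr V ℓ (heckeDivBar hα hβ) hES (g • (D : Divisor Qb _))
      have h3 : h14_cpush c ((Pic0.degZeroCorrespondence (heckeBetaBar Qb N ℓ)
          (heckeAlphaBar Qb N ℓ) hβ hα hFI (SemilinearAut.degZeroSMulHom g D) :
            Divisor.degZero (K := Qb) (F := modularFunctionFieldBar N)) : Divisor Qb _)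
          = h14_cpush c (heckeDivBar hα hβ (g • (D : Divisor Qb _))) := rfl
      rw [h1, h3, h2, h14_cpush_smul c Fr g hgc, ← Finsupp.mapDomain_comp (f := Fr) (g := V),
        show V ∘ Fr = id from funext hVF, Finsupp.mapDomain_id, natCast_zsmul]
      abel
    rw [hz, map_zero]
  · intro x hx htors
    obtain ⟨n, hn⟩ := htors
    exact h14_red_inj c (p ^ n) (fun D hD hc hm => hinj D hD hc ⟨n, hm⟩) x hx hn

end Modular

end Fermat.Agent.S37
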