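import Mathlib

set_option autoImplicit false

/-!
# Chart gluing for "normality in chart form"  (S37, row NM, step (c))

Abstract setting: a commutative ring `O` ("functions with good reduction"), a ring hom
`red : O →+* Fk` ("reduction"), and *charts* `φ : P →+* O` (think `P = A[X]`, `X ↦ x`).
The chart `φ` is *normal in chart form* if every element of `Fk` integral over `red ∘ φ` is the
reduction of an element of `O` integral over `φ`.

* `ch44_glue`: normality for finitely many charts `φ i` implies normality for a chart `φz`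
  covered by them (partition of unity `∑ u i = 1` inside the integral closure of `φz`).
* `ch44_level2_j`, `ch44_level2_jinv`, `ch44_level3_j`, `ch44_level3_jinv`: the charts `j`, `1/j`
  from the charts `h`, `1/h` for the Hauptmodul relations
  `j * h ^ 2 = (h + 256) ^ 3` (level 2, `2` invertible) and
  `j * h ^ 3 = (h + 27) * (h + 243) ^ 3` (level 3, `3` invertible).
-/

namespace Fermat.Agent.S37

open Polynomial

section generic

/-- Integrality over a ring hom only depends on its range. -/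
theorem ch44_isIntegralElem_of_range_le {R R' S : Type*} [CommRing R] [CommRing R'] [CommRing S]
    (φ : R →+* S) (ψ : R' →+* S) (h : ∀ r, ∃ r', ψ r' = φ r) {x : S} (hx : φ.IsIntegralElem x) :
    ψ.IsIntegralElem x := by
  obtain ⟨p, hp, hpx⟩ := hx
  have hmem : p.map φ ∈ Polynomial.lifts ψ := by
    rw [Polynomial.lifts_iff_coeff_lifts]
    intro n
    rw [Polynomial.coeff_map]
    obtain ⟨r', hr'⟩ := h (p.coeff n)
    exact ⟨r', hr'⟩
  obtain ⟨q, hq, -, hqm⟩ := Polynomial.lifts_and_natDegree_eq_and_monic hmem (hp.map φ)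
  refine ⟨q, hqm, ?_⟩
  rw [← Polynomial.eval_map, hq, Polynomial.eval_map]
  exact hpx

/-- A root of a monic polynomial whose coefficients are integral over `ψ` is integral over `ψ`. -/
theorem ch44_isIntegralElem_of_monic {R S : Type*} [CommRing R] [CommRing S] (ψ : R →+* S)
    (Q : S[X]) (hQ : Q.Monic) (hcoeff : ∀ i, ψ.IsIntegralElem (Q.coeff i)) {x : S}
    (hx : Q.eval x = 0) : ψ.IsIntegralElem x := by
  let _ := ψ.toAlgebra
  have hmem : Q ∈ Polynomial.lifts (algebraMap (integralClosure R S) S) := by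
    rw [Polynomial.lifts_iff_coeff_lifts]
    intro n
    exact ⟨⟨Q.coeff n, hcoeff n⟩, rfl⟩
  obtain ⟨q, hq, -, hqm⟩ := Polynomial.lifts_and_natDegree_eq_and_monic hmem hQ
  have h1 : IsIntegral (integralClosure R S) x := by
    refine ⟨q, hqm, ?_⟩
    rw [← Polynomial.eval_map, hq]
    exact hx
  exact isIntegral_trans (R := R) (A := integralClosure R S) x h1

/-- Scaling lemma: if `g` is integral over `φ`, `w` is integral over `ψ` and `w` clears
denominators of `φ` with respect to `ψ`, then `w ^ m * g` is integral over `ψ` for large `m`. -/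
theorem ch44_scale {R P S : Type*} [CommRing R] [CommRing P] [CommRing S] (ψ : R →+* S)
    (φ : P →+* S) (w : S) (hw : ψ.IsIntegralElem w)
    (hφ : ∀ p : P, ∃ n : ℕ, ψ.IsIntegralElem (w ^ n * φ p)) {g : S} (hg : φ.IsIntegralElem g) :
    ∃ n : ℕ, ∀ m, n ≤ m → ψ.IsIntegralElem (w ^ m * g) := by
  obtain ⟨q, hq, hqg⟩ := hg
  choose n hn using hφ
  refine ⟨∑ i ∈ Finset.range q.natDegree, n (q.coeff i), fun m hm => ?_⟩
  have hpow : ∀ k : ℕ, ψ.IsIntegralElem (w ^ k) := by
    intro k
    induction k with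
    | zero => rw [pow_zero]; exact ψ.isIntegralElem_one
    | succ k ih => rw [pow_succ]; exact RingHom.IsIntegralElem.mul ψ ih hw
  refine ch44_isIntegralElem_of_monic ψ (Polynomial.scaleRoots (q.map φ) (w ^ m))
    ((Polynomial.monic_scaleRoots_iff _).mpr (hq.map φ)) ?_ ?_
  · intro i
    rw [Polynomial.coeff_scaleRoots]
    by_cases hi : i < (q.map φ).natDegree
    · have hi' : i < q.natDegree := lt_of_lt_of_le hi (Polynomial.natDegree_map_le)
      have hle : n (q.coeff i) ≤ m * ((q.map φ).natDegree - i) := by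
        have h1 : n (q.coeff i) ≤ ∑ i ∈ Finset.range q.natDegree, n (q.coeff i) :=
          Finset.single_le_sum (f := fun i => n (q.coeff i)) (fun _ _ => Nat.zero_le _)
            (Finset.mem_range.mpr hi')
        have h2 : 1 ≤ (q.map φ).natDegree - i := by omega
        calc n (q.coeff i) ≤ m := h1.trans hm
          _ = m * 1 := (mul_one m).symm
          _ ≤ m * ((q.map φ).natDegree - i) := Nat.mul_le_mul_left m h2
      have heq : (q.map φ).coeff i * (w ^ m) ^ ((q.map φ).natDegree - i) =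
          w ^ (m * ((q.map φ).natDegree - i) - n (q.coeff i)) * (w ^ n (q.coeff i) * φ (q.coeff i)) := by
        rw [Polynomial.coeff_map, ← pow_mul, ← mul_assoc, ← pow_add, Nat.sub_add_cancel hle, mul_comm]
      rw [heq]
      exact RingHom.IsIntegralElem.mul ψ (hpow _) (hn _)
    · have hi' : (q.map φ).natDegree ≤ i := not_lt.mp hi
      rw [Nat.sub_eq_zero_of_le hi', pow_zero, mul_one]
      rcases hi'.eq_or_lt with h | h
      · rw [← h, Polynomial.coeff_natDegree, (hq.map φ).leadingCoeff]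
        exact ψ.isIntegralElem_one
      · rw [Polynomial.coeff_eq_zero_of_natDegree_lt h]
        exact ψ.isIntegralElem_zero
  · have h0 : Polynomial.eval₂ (RingHom.id S) g (q.map φ) = 0 := by
      rw [Polynomial.eval₂_map, RingHomCompTriple.comp_eq]
      exact hqg
    have := Polynomial.scaleRoots_eval₂_eq_zero (RingHom.id S) (s := w ^ m) h0
    simpa using this

/-- **Chart gluing.**  `red : O →+* Fk` a reduction map, `φz : Pz →+* O` the target chart,
`φ i : P i →+* O` finitely many source charts.  Data per source chart: `u i` (a member of a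
partition of unity in the integral closure of `φz`, clearing the denominators of `φ i` relative to
`φz`), and a unit `w i` (inverse `w' i` integral over `φz`) integral over `φ i` clearing the
denominators of `φz` relative to `φ i`.  If every source chart is normal in chart form, so is the
target chart. -/
theorem ch44_glue {O Fk Pz : Type*} [CommRing O] [CommRing Fk] [CommRing Pz] (red : O →+* Fk)
    (φz : Pz →+* O) {ι : Type*} [Fintype ι] {P : ι → Type*} [∀ i, CommRing (P i)]
    (φ : ∀ i, P i →+* O) (u w w' : ι → O)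
    (hu : ∀ i, φz.IsIntegralElem (u i)) (hsum : ∑ i, u i = 1)
    (hux : ∀ i (p : P i), ∃ e : ℕ, φz.IsIntegralElem (u i ^ e * φ i p))
    (hw : ∀ i, (φ i).IsIntegralElem (w i))
    (hwz : ∀ i (p : Pz), ∃ n : ℕ, (φ i).IsIntegralElem (w i ^ n * φz p))
    (hw' : ∀ i, φz.IsIntegralElem (w' i)) (hww' : ∀ i, w i * w' i = 1)
    (hP : ∀ i, ∀ g : Fk, (red.comp (φ i)).IsIntegralElem g →
      ∃ f : O, (φ i).IsIntegralElem f ∧ red f = g) :
    ∀ g : Fk, (red.comp φz).IsIntegralElem g → ∃ f : O, φz.IsIntegralElem f ∧ red f = g := by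
  intro g hg
  have hpow : ∀ (x : O), φz.IsIntegralElem x → ∀ k : ℕ, φz.IsIntegralElem (x ^ k) := by
    intro x hx k
    induction k with
    | zero => rw [pow_zero]; exact φz.isIntegralElem_one
    | succ k ih => rw [pow_succ]; exact RingHom.IsIntegralElem.mul φz ih hx
  -- per chart: `u i ^ m * g` lifts for all large `m`
  have key : ∀ i, ∃ e : ℕ, ∀ m, e ≤ m →
      ∃ y : O, φz.IsIntegralElem y ∧ red y = red (u i) ^ m * g := by
    intro i
    obtain ⟨n, hn⟩ := ch44_scale (red.comp (φ i)) (red.comp φz) (red (w i)) ((hw i).map red)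
      (fun p => by
        obtain ⟨n, hn⟩ := hwz i p
        refine ⟨n, ?_⟩
        have := hn.map red
        simpa [map_mul, map_pow] using this) hg
    obtain ⟨f, hf, hfg⟩ := hP i _ (hn n le_rfl)
    obtain ⟨e, he⟩ := ch44_scale φz (φ i) (u i) (hu i) (hux i) hf
    refine ⟨e, fun m hm => ⟨u i ^ m * f * w' i ^ n, ?_, ?_⟩⟩
    · exact RingHom.IsIntegralElem.mul φz (he m hm) (hpow _ (hw' i) n)
    · have h1 : red (w i) * red (w' i) = 1 := by rw [← map_mul, hww', map_one]
      rw [map_mul, map_mul, map_pow, map_pow, hfg]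
      calc red (u i) ^ m * (red (w i) ^ n * g) * red (w' i) ^ n
          = red (u i) ^ m * g * (red (w i) * red (w' i)) ^ n := by rw [mul_pow]; ring
        _ = red (u i) ^ m * g := by rw [h1, one_pow, mul_one]
  choose e he using key
  set E : ℕ := ∑ i, e i with hE
  have hle : ∀ i, e i ≤ E := fun i =>
    Finset.single_le_sum (f := e) (fun _ _ => Nat.zero_le _) (Finset.mem_univ i)
  choose y hy hred using fun i => he i E (hle i)
  -- partition of unity in the integral closure of `φz`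
  let _ := φz.toAlgebra
  set Bz := integralClosure Pz O with hBz
  set u' : ι → Bz := fun i => ⟨u i, hu i⟩ with hu'
  have hspan : Ideal.span (Set.range u') = ⊤ := by
    rw [Ideal.eq_top_iff_one]
    have h1 : (1 : Bz) = ∑ i, u' i := by
      apply Subtype.ext
      rw [AddSubmonoidClass.coe_finsetSum]
      simp only [hu']
      exact hsum.symm
    rw [h1]
    exact Ideal.sum_mem _ (fun i _ => Ideal.subset_span ⟨i, rfl⟩)
  have hspan' := Ideal.span_pow_eq_top _ hspan E
  have h1 : (1 : Bz) ∈ Ideal.span (Set.range fun i => u' i ^ E) := by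
    have : (Set.range fun i => u' i ^ E) = (fun x : Bz => x ^ E) '' Set.range u' := by
      rw [← Set.range_comp]; rfl
    rw [this, hspan']
    trivial
  rw [Ideal.mem_span_range_iff_exists_fun] at h1
  obtain ⟨c, hc⟩ := h1
  have hc' : ∑ i, (c i : O) * u i ^ E = 1 := by
    have := congrArg (Subtype.val) hc
    rw [AddSubmonoidClass.coe_finsetSum] at this
    simpa [hu'] using this
  refine ⟨∑ i, (c i : O) * y i, ?_, ?_⟩
  · have hsumInt : ∀ (s : Finset ι), φz.IsIntegralElem (∑ i ∈ s, (c i : O) * y i) := by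
      intro s
      classical
      induction s using Finset.induction_on with
      | empty => rw [Finset.sum_empty]; exact φz.isIntegralElem_zero
      | insert a s ha ih =>
        rw [Finset.sum_insert ha]
        exact RingHom.IsIntegralElem.add φz (RingHom.IsIntegralElem.mul φz (c a).2 (hy a)) ih
    exact hsumInt _
  · rw [map_sum]
    have : ∀ i, red ((c i : O) * y i) = red ((c i : O) * u i ^ E) * g := by
      intro i
      rw [map_mul, hred, map_mul, map_pow]
      ring
    rw [Finset.sum_congr rfl (fun i _ => this i), ← Finset.sum_mul, ← map_sum, hc', map_one,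
      one_mul]

end generic

section poly

variable (A : Type*) [CommRing A] {O : Type*} [CommRing O] [Algebra A O]

/-- `f` is integral over `A[x]` (as the image of `A[X]` under `X ↦ x`). -/
def ch44_Int (x f : O) : Prop :=
  ((Polynomial.aeval x : A[X] →ₐ[A] O) : A[X] →+* O).IsIntegralElem f

/-- The `A`-subalgebra of the elements of `O` integral over `A[x]`. -/
def ch44_intSub (x : O) : Subalgebra A O where
  carrier := {f | ch44_Int A x f}
  mul_mem' := fun ha hb => RingHom.IsIntegralElem.mul _ ha hb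
  one_mem' := RingHom.isIntegralElem_one _
  add_mem' := fun ha hb => RingHom.IsIntegralElem.add _ ha hb
  zero_mem' := RingHom.isIntegralElem_zero _
  algebraMap_mem' := fun a => by
    have h : algebraMap A O a = ((Polynomial.aeval x : A[X] →ₐ[A] O) : A[X] →+* O) (C a) := by
      simp
    show ch44_Int A x _
    rw [h]
    exact RingHom.isIntegralElem_map _

theorem ch44_mem_intSub {x f : O} : f ∈ ch44_intSub A x ↔ ch44_Int A x f := Iff.rfl

theorem ch44_self_mem (x : O) : x ∈ ch44_intSub A x := by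
  have h : x = ((Polynomial.aeval x : A[X] →ₐ[A] O) : A[X] →+* O) X := by simp
  show ch44_Int A x _
  conv_rhs => rw [h]
  exact RingHom.isIntegralElem_map _

theorem ch44_aeval_mem {z x : O} (hx : x ∈ ch44_intSub A z) (p : A[X]) :
    Polynomial.aeval x p ∈ ch44_intSub A z := by
  have := Polynomial.aeval_subalgebra_coe p (ch44_intSub A z) ⟨x, hx⟩
  rw [← this]
  exact Subtype.coe_prop _

/-- `ch44_intSub A z` is integrally closed in `O`. -/
theorem ch44_mem_of_monic {z y : O} (q : Polynomial (ch44_intSub A z)) (hq : q.Monic)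
    (hy : Polynomial.aeval y q = 0) : y ∈ ch44_intSub A z := by
  refine ch44_isIntegralElem_of_monic _ (q.map (algebraMap (ch44_intSub A z) O)) (hq.map _)
    (fun i => ?_) ?_
  · rw [Polynomial.coeff_map]
    exact (q.coeff i).2
  · rw [Polynomial.eval_map]
    exact hy

theorem ch44_cubic_mem {z y c0 c1 c2 : O} (h0 : c0 ∈ ch44_intSub A z)
    (h1 : c1 ∈ ch44_intSub A z) (h2 : c2 ∈ ch44_intSub A z)
    (h : y ^ 3 + c2 * y ^ 2 + c1 * y + c0 = 0) : y ∈ ch44_intSub A z := by
  refine ch44_mem_of_monic A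
    (X ^ 3 + (C (⟨c2, h2⟩ : ch44_intSub A z) * X ^ 2 + C ⟨c1, h1⟩ * X + C ⟨c0, h0⟩)) ?_ ?_
  · refine Polynomial.monic_X_pow_add ?_
    exact lt_of_le_of_lt (Polynomial.degree_quadratic_le) (by norm_num)
  · simp only [map_add, map_mul, map_pow, Polynomial.aeval_X, Polynomial.aeval_C]
    have e : ∀ (c : O) (hc : c ∈ ch44_intSub A z),
        algebraMap (ch44_intSub A z) O ⟨c, hc⟩ = c := fun _ _ => rfl
    rw [← h]
    simp only [e]
    ring

theorem ch44_quartic_mem {z y c0 c1 c2 c3 : O} (h0 : c0 ∈ ch44_intSub A z)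
    (h1 : c1 ∈ ch44_intSub A z) (h2 : c2 ∈ ch44_intSub A z) (h3 : c3 ∈ ch44_intSub A z)
    (h : y ^ 4 + c3 * y ^ 3 + c2 * y ^ 2 + c1 * y + c0 = 0) : y ∈ ch44_intSub A z := by
  refine ch44_mem_of_monic A
    (X ^ 4 + (C (⟨c3, h3⟩ : ch44_intSub A z) * X ^ 3 + C ⟨c2, h2⟩ * X ^ 2 + C ⟨c1, h1⟩ * X +
      C ⟨c0, h0⟩)) ?_ ?_
  · refine Polynomial.monic_X_pow_add ?_
    exact lt_of_le_of_lt (Polynomial.degree_cubic_le) (by norm_num)
  · simp only [map_add, map_mul, map_pow, Polynomial.aeval_X, Polynomial.aeval_C]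
    have e : ∀ (c : O) (hc : c ∈ ch44_intSub A z),
        algebraMap (ch44_intSub A z) O ⟨c, hc⟩ = c := fun _ _ => rfl
    rw [← h]
    simp only [e]
    ring

/-- Clearing denominators of a polynomial expression. -/
theorem ch44_pow_mul_aeval (B : Subalgebra A O) (w x : O) (a : ℕ) (hw : w ∈ B)
    (hwx : w ^ a * x ∈ B) (p : A[X]) : w ^ (a * p.natDegree) * Polynomial.aeval x p ∈ B := by
  rw [Polynomial.aeval_eq_sum_range, Finset.mul_sum]
  refine Subalgebra.sum_mem _ (fun i hi => ?_)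
  have hi' : i ≤ p.natDegree := Nat.lt_succ_iff.mp (Finset.mem_range.mp hi)
  have heq : w ^ (a * p.natDegree) * (p.coeff i • x ^ i) =
      p.coeff i • (w ^ (a * (p.natDegree - i)) * (w ^ a * x) ^ i) := by
    rw [mul_smul_comm, mul_pow, ← pow_mul, ← mul_assoc, ← pow_add, ← Nat.mul_add,
      Nat.sub_add_cancel hi']
  rw [heq]
  exact B.smul_mem (B.mul_mem (B.pow_mem hw _) (B.pow_mem hwx _)) _

variable {Fk : Type*} [CommRing Fk]

/-- Normality in chart form for the chart `x`: every element of `Fk` integral over `red (A[x])`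
is the reduction of an element of `O` integral over `A[x]`. -/
def ch44_Lifts (red : O →+* Fk) (x : O) : Prop :=
  ∀ g : Fk, (red.comp ((Polynomial.aeval x : A[X] →ₐ[A] O) : A[X] →+* O)).IsIntegralElem g →
    ∃ f : O, ch44_Int A x f ∧ red f = g

end poly

section levels

variable {A : Type*} [CommRing A] {O : Type*} [CommRing O] [Algebra A O]
  {Fk : Type*} [CommRing Fk]

/-- One-chart version of `ch44_glue` (localisation): the chart `z` is an affine open of the
chart `x`, namely the locus where `w ∈ A[x]` is invertible. -/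
theorem ch44_localize (red : O →+* Fk) (x z w w' : O) (a : ℕ) (hx : x ∈ ch44_intSub A z)
    (hw : w ∈ ch44_intSub A x) (hwz : w ^ a * z ∈ ch44_intSub A x)
    (hw' : w' ∈ ch44_intSub A z) (hww' : w * w' = 1) (H : ch44_Lifts A red x) :
    ch44_Lifts A red z := by
  refine ch44_glue red ((Polynomial.aeval z : A[X] →ₐ[A] O) : A[X] →+* O) (ι := Unit)
    (P := fun _ => A[X]) (fun _ => ((Polynomial.aeval x : A[X] →ₐ[A] O) : A[X] →+* O))
    (fun _ => 1) (fun _ => w) (fun _ => w') (fun _ => RingHom.isIntegralElem_one _) (by simp)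
    (fun _ p => ⟨0, ?_⟩) (fun _ => hw) (fun _ p => ⟨a * p.natDegree, ?_⟩) (fun _ => hw')
    (fun _ => hww') (fun _ => H)
  · simp only [pow_zero, one_mul]
    exact ch44_aeval_mem A hx p
  · exact ch44_pow_mul_aeval A (ch44_intSub A x) w z a hw hwz p

/-- Two-chart version of `ch44_glue`. -/
theorem ch44_glue_two (red : O →+* Fk) (z x₁ x₂ u₁ u₂ w₁ w₁' w₂ w₂' : O) (a₁ a₂ b₁ b₂ : ℕ)
    (hu₁ : u₁ ∈ ch44_intSub A z) (hu₂ : u₂ ∈ ch44_intSub A z) (hsum : u₁ + u₂ = 1)
    (hux₁ : u₁ ^ b₁ * x₁ ∈ ch44_intSub A z) (hux₂ : u₂ ^ b₂ * x₂ ∈ ch44_intSub A z)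
    (hw₁ : w₁ ∈ ch44_intSub A x₁) (hw₂ : w₂ ∈ ch44_intSub A x₂)
    (hwz₁ : w₁ ^ a₁ * z ∈ ch44_intSub A x₁) (hwz₂ : w₂ ^ a₂ * z ∈ ch44_intSub A x₂)
    (hw₁' : w₁' ∈ ch44_intSub A z) (hw₂' : w₂' ∈ ch44_intSub A z)
    (hww₁ : w₁ * w₁' = 1) (hww₂ : w₂ * w₂' = 1)
    (H₁ : ch44_Lifts A red x₁) (H₂ : ch44_Lifts A red x₂) : ch44_Lifts A red z := by
  refine ch44_glue red ((Polynomial.aeval z : A[X] →ₐ[A] O) : A[X] →+* O) (ι := Bool)
    (P := fun _ => A[X])
    (fun b => ((Polynomial.aeval (cond b x₁ x₂) : A[X] →ₐ[A] O) : A[X] →+* O))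
    (fun b => cond b u₁ u₂) (fun b => cond b w₁ w₂) (fun b => cond b w₁' w₂')
    ?_ ?_ ?_ ?_ ?_ ?_ ?_ ?_
  · intro b; cases b
    · exact hu₂
    · exact hu₁
  · simp [hsum]
  · intro b p; cases b
    · exact ⟨b₂ * p.natDegree, ch44_pow_mul_aeval A (ch44_intSub A z) u₂ x₂ b₂ hu₂ hux₂ p⟩
    · exact ⟨b₁ * p.natDegree, ch44_pow_mul_aeval A (ch44_intSub A z) u₁ x₁ b₁ hu₁ hux₁ p⟩
  · intro b; cases b
    · exact hw₂
    · exact hw₁
  · intro b p; cases b
    · exact ⟨a₂ * p.natDegree, ch44_pow_mul_aeval A (ch44_intSub A x₂) w₂ z a₂ hw₂ hwz₂ p⟩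
    · exact ⟨a₁ * p.natDegree, ch44_pow_mul_aeval A (ch44_intSub A x₁) w₁ z a₁ hw₁ hwz₁ p⟩
  · intro b; cases b
    · exact hw₂'
    · exact hw₁'
  · intro b; cases b
    · exact hww₂
    · exact hww₁
  · intro b; cases b
    · exact H₂
    · exact H₁

/-- Level 2, chart `j` from the chart `h` (`j * h ^ 2 = (h + 256) ^ 3`, `2` invertible). -/
theorem ch44_level2_j (red : O →+* Fk) (h2 : IsUnit (2 : A)) {j h s : O} (hs : h * s = 1)
    (hrel : j * h ^ 2 = (h + 256) ^ 3) (H : ch44_Lifts A red h) : ch44_Lifts A red j := by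
  obtain ⟨c, hc⟩ := h2.exists_right_inv
  have hi2 : (2 : O) * algebraMap A O c = 1 := by
    rw [← map_ofNat (algebraMap A O) 2, ← map_mul, hc, map_one]
  set i2 : O := algebraMap A O c with hi2def
  set S := ch44_intSub A j with hS
  have hjS : j ∈ S := ch44_self_mem A j
  have hi2S : i2 ∈ S := S.algebraMap_mem c
  have hhS : h ∈ S := by
    refine ch44_cubic_mem A (c2 := 768 - j) (c1 := 196608) (c0 := 16777216) (ofNat_mem S _)
      (ofNat_mem S _) (S.sub_mem (ofNat_mem S _) hjS) ?_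
    linear_combination (-1 : O) * hrel
  have h24 : (16777216 : O) * i2 ^ 24 = 1 := by
    calc (16777216 : O) * i2 ^ 24 = (2 * i2) ^ 24 := by ring
      _ = 1 := by rw [hi2, one_pow]
  have e1 : (16777216 : O) * s = -(h ^ 2 + (768 - j) * h + 196608) := by
    linear_combination (-s) * hrel - (h ^ 2 + (768 - j) * h + 196608) * hs
  have e2 : s = -(i2 ^ 24) * (h ^ 2 + (768 - j) * h + 196608) := by
    linear_combination (-s) * h24 + i2 ^ 24 * e1
  have hsS : s ∈ S := by
    rw [e2]
    exact S.mul_mem (S.neg_mem (S.pow_mem hi2S 24)) (S.add_mem (S.add_mem (S.pow_mem hhS 2)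
      (S.mul_mem (S.sub_mem (ofNat_mem S _) hjS) hhS)) (ofNat_mem S _))
  refine ch44_localize red h j h s 2 hhS (ch44_self_mem A h) ?_ hsS hs H
  rw [mul_comm, hrel]
  exact Subalgebra.pow_mem _ (Subalgebra.add_mem _ (ch44_self_mem A h) (ofNat_mem _ _)) 3

/-- Level 2, chart `z = 1/j` from the charts `h` and `s = 1/h`. -/
theorem ch44_level2_jinv (red : O →+* Fk) (h2 : IsUnit (2 : A)) {j h s z : O} (hs : h * s = 1)
    (hz : j * z = 1) (hrel : j * h ^ 2 = (h + 256) ^ 3) (Hh : ch44_Lifts A red h)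
    (Hs : ch44_Lifts A red s) : ch44_Lifts A red z := by
  obtain ⟨c, hc⟩ := h2.exists_right_inv
  have hi2 : (2 : O) * algebraMap A O c = 1 := by
    rw [← map_ofNat (algebraMap A O) 2, ← map_mul, hc, map_one]
  set i2 : O := algebraMap A O c with hi2def
  set S := ch44_intSub A z with hS
  have hzS : z ∈ S := ch44_self_mem A z
  have hi2S : i2 ∈ S := S.algebraMap_mem c
  obtain ⟨t, ht⟩ : ∃ t : O, t = z * s ^ 2 * (h + 256) ^ 2 := ⟨_, rfl⟩
  have ht1 : (h + 256) * t = 1 := by
    rw [ht]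
    linear_combination (-(z * s ^ 2)) * hrel + (h * s) ^ 2 * hz + (h * s + 1) * hs
  have hht : h * t = 1 - 256 * t := by linear_combination ht1
  have hz3 : z = h ^ 2 * t ^ 3 := by
    linear_combination (-(z * (((h + 256) * t) ^ 2 + (h + 256) * t + 1))) * ht1
      - (t ^ 3 * z) * hrel + (h ^ 2 * t ^ 3) * hz
  have hcub : 65536 * t ^ 3 - 512 * t ^ 2 + t - z = 0 := by
    linear_combination (-1 : O) * hz3 - ((1 - 256 * t + h * t) * t) * hht
  have h16 : (65536 : O) * i2 ^ 16 = 1 := by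
    calc (65536 : O) * i2 ^ 16 = (2 * i2) ^ 16 := by ring
      _ = 1 := by rw [hi2, one_pow]
  have htS : t ∈ S := by
    refine ch44_cubic_mem A (c2 := -(512 * i2 ^ 16)) (c1 := i2 ^ 16) (c0 := -(i2 ^ 16 * z))
      (S.neg_mem (S.mul_mem (S.pow_mem hi2S 16) hzS)) (S.pow_mem hi2S 16)
      (S.neg_mem (S.mul_mem (ofNat_mem S _) (S.pow_mem hi2S 16))) ?_
    linear_combination (i2 ^ 16) * hcub - t ^ 3 * h16
  have hu₂ : 1 - 256 * t ∈ S := S.sub_mem S.one_mem (S.mul_mem (ofNat_mem S _) htS)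
  have hY : 1 + 256 * s = s * (h + 256) := by linear_combination (-1 : O) * hs
  have hwz1 : (h + 256) ^ 3 * z = h ^ 2 := by
    linear_combination (-z) * hrel + h ^ 2 * hz
  refine ch44_glue_two red z h s (256 * t) (1 - 256 * t) (h + 256) t (1 + 256 * s) (1 - 256 * t)
    3 3 1 1 (S.mul_mem (ofNat_mem S _) htS) hu₂ (by ring) ?_ ?_ ?_ ?_ ?_ ?_ htS hu₂ ht1 ?_ Hh Hs
  · have e : (256 * t) ^ 1 * h = 256 * (1 - 256 * t) := by linear_combination 256 * hht
    rw [e]
    exact S.mul_mem (ofNat_mem S _) hu₂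
  · have e : (1 - 256 * t) ^ 1 * s = t := by linear_combination (-s) * hht + t * hs
    rw [e]
    exact htS
  · exact Subalgebra.add_mem _ (ch44_self_mem A h) (ofNat_mem _ _)
  · exact Subalgebra.add_mem _ (Subalgebra.one_mem _)
      (Subalgebra.mul_mem _ (ofNat_mem _ _) (ch44_self_mem A s))
  · rw [hwz1]
    exact Subalgebra.pow_mem _ (ch44_self_mem A h) 2
  · have e : (1 + 256 * s) ^ 3 * z = s := by
      calc (1 + 256 * s) ^ 3 * z = s ^ 3 * ((h + 256) ^ 3 * z) := by rw [hY]; ring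
        _ = s * (h * s) ^ 2 := by rw [hwz1]; ring
        _ = s := by rw [hs]; ring
    rw [e]
    exact ch44_self_mem A s
  · calc (1 + 256 * s) * (1 - 256 * t) = (h * s) * ((h + 256) * t) := by rw [hY, ← hht]; ring
      _ = 1 := by rw [hs, ht1, one_mul]

/-- Level 3, chart `j` from the chart `h`
(`j * h ^ 3 = (h + 27) * (h + 243) ^ 3`, `3` invertible). -/
theorem ch44_level3_j (red : O →+* Fk) (h3 : IsUnit (3 : A)) {j h s : O} (hs : h * s = 1)
    (hrel : j * h ^ 3 = (h + 27) * (h + 243) ^ 3) (H : ch44_Lifts A red h) :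
    ch44_Lifts A red j := by
  obtain ⟨c, hc⟩ := h3.exists_right_inv
  have hi3 : (3 : O) * algebraMap A O c = 1 := by
    rw [← map_ofNat (algebraMap A O) 3, ← map_mul, hc, map_one]
  set i3 : O := algebraMap A O c with hi3def
  set S := ch44_intSub A j with hS
  have hjS : j ∈ S := ch44_self_mem A j
  have hi3S : i3 ∈ S := S.algebraMap_mem c
  have hhS : h ∈ S := by
    refine ch44_quartic_mem A (c3 := 756 - j) (c2 := 196830) (c1 := 19131876) (c0 := 387420489)
      (ofNat_mem S _) (ofNat_mem S _) (ofNat_mem S _) (S.sub_mem (ofNat_mem S _) hjS) ?_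
    linear_combination (-1 : O) * hrel
  have h18 : (387420489 : O) * i3 ^ 18 = 1 := by
    calc (387420489 : O) * i3 ^ 18 = (3 * i3) ^ 18 := by ring
      _ = 1 := by rw [hi3, one_pow]
  have e1 : (387420489 : O) * s = -(h ^ 3 + (756 - j) * h ^ 2 + 196830 * h + 19131876) := by
    linear_combination (-s) * hrel - (h ^ 3 + (756 - j) * h ^ 2 + 196830 * h + 19131876) * hs
  have e2 : s = -(i3 ^ 18) * (h ^ 3 + (756 - j) * h ^ 2 + 196830 * h + 19131876) := by
    linear_combination (-s) * h18 + i3 ^ 18 * e1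
  have hsS : s ∈ S := by
    rw [e2]
    exact S.mul_mem (S.neg_mem (S.pow_mem hi3S 18)) (S.add_mem (S.add_mem (S.add_mem
      (S.pow_mem hhS 3) (S.mul_mem (S.sub_mem (ofNat_mem S _) hjS) (S.pow_mem hhS 2)))
      (S.mul_mem (ofNat_mem S _) hhS)) (ofNat_mem S _))
  refine ch44_localize red h j h s 3 hhS (ch44_self_mem A h) ?_ hsS hs H
  rw [mul_comm, hrel]
  exact Subalgebra.mul_mem _ (Subalgebra.add_mem _ (ch44_self_mem A h) (ofNat_mem _ _))
    (Subalgebra.pow_mem _ (Subalgebra.add_mem _ (ch44_self_mem A h) (ofNat_mem _ _)) 3)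

/-- Level 3, chart `z = 1/j` from the charts `h` and `s = 1/h`. -/
theorem ch44_level3_jinv (red : O →+* Fk) (h3 : IsUnit (3 : A)) {j h s z : O} (hs : h * s = 1)
    (hz : j * z = 1) (hrel : j * h ^ 3 = (h + 27) * (h + 243) ^ 3) (Hh : ch44_Lifts A red h)
    (Hs : ch44_Lifts A red s) : ch44_Lifts A red z := by
  obtain ⟨c, hc⟩ := h3.exists_right_inv
  have hi3 : (3 : O) * algebraMap A O c = 1 := by
    rw [← map_ofNat (algebraMap A O) 3, ← map_mul, hc, map_one]
  set i3 : O := algebraMap A O c with hi3def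
  set S := ch44_intSub A z with hS
  have hzS : z ∈ S := ch44_self_mem A z
  have hi3S : i3 ∈ S := S.algebraMap_mem c
  have hD : z * s ^ 3 * ((h + 27) * (h + 243) ^ 3) = 1 := by
    calc z * s ^ 3 * ((h + 27) * (h + 243) ^ 3) = (j * z) * (h * s) ^ 3 := by rw [← hrel]; ring
      _ = 1 := by rw [hz, hs]; ring
  obtain ⟨α, hαdef⟩ : ∃ α : O, α = z * s ^ 3 * (h + 27) * (h + 243) ^ 2 := ⟨_, rfl⟩
  obtain ⟨β, hβdef⟩ : ∃ β : O, β = z * s ^ 3 * (h + 243) ^ 3 := ⟨_, rfl⟩
  have hα : (h + 243) * α = 1 := by rw [hαdef, ← hD]; ring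
  have hβ : (h + 27) * β = 1 := by rw [hβdef, ← hD]; ring
  have hhα : h * α = 1 - 243 * α := by linear_combination hα
  have hhβ : h * β = 1 - 27 * β := by linear_combination hβ
  have hzh : z * ((h + 27) * (h + 243) ^ 3) = h ^ 3 := by
    calc z * ((h + 27) * (h + 243) ^ 3) = (j * z) * h ^ 3 := by rw [← hrel]; ring
      _ = h ^ 3 := by rw [hz, one_mul]
  -- `α = 1 / (h + 243)` is integral over `A[z]`
  have eα : z * (1 - 216 * α) = (1 - 243 * α) ^ 3 * α := by
    have h1 : (h + 27) * α = 1 - 216 * α := by linear_combination hα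
    calc z * (1 - 216 * α) = z * ((h + 27) * α) * ((h + 243) * α) ^ 3 := by rw [h1, hα]; ring
      _ = (z * ((h + 27) * (h + 243) ^ 3)) * α ^ 4 := by ring
      _ = (h * α) ^ 3 * α := by rw [hzh]; ring
      _ = (1 - 243 * α) ^ 3 * α := by rw [hhα]
  have h15 : (14348907 : O) * i3 ^ 15 = 1 := by
    calc (14348907 : O) * i3 ^ 15 = (3 * i3) ^ 15 := by ring
      _ = 1 := by rw [hi3, one_pow]
  have hαS : α ∈ S := by
    refine ch44_quartic_mem A (c3 := -(177147 * i3 ^ 15)) (c2 := 729 * i3 ^ 15)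
      (c1 := -(i3 ^ 15 * (1 + 216 * z))) (c0 := i3 ^ 15 * z)
      (S.mul_mem (S.pow_mem hi3S 15) hzS)
      (S.neg_mem (S.mul_mem (S.pow_mem hi3S 15)
        (S.add_mem S.one_mem (S.mul_mem (ofNat_mem S _) hzS))))
      (S.mul_mem (ofNat_mem S _) (S.pow_mem hi3S 15))
      (S.neg_mem (S.mul_mem (ofNat_mem S _) (S.pow_mem hi3S 15))) ?_
    linear_combination (i3 ^ 15) * eα - α ^ 4 * h15
  -- `β = 1 / (h + 27)` is integral over `A[z]`
  have eβ : z * (1 + 216 * β) ^ 3 = (1 - 27 * β) ^ 3 * β := by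
    have h1 : (h + 243) * β = 1 + 216 * β := by linear_combination hβ
    calc z * (1 + 216 * β) ^ 3 = z * ((h + 243) * β) ^ 3 * ((h + 27) * β) := by
          rw [h1, hβ, mul_one]
      _ = (z * ((h + 27) * (h + 243) ^ 3)) * β ^ 4 := by ring
      _ = (h * β) ^ 3 * β := by rw [hzh]; ring
      _ = (1 - 27 * β) ^ 3 * β := by rw [hhβ]
  have h9 : (19683 : O) * i3 ^ 9 = 1 := by
    calc (19683 : O) * i3 ^ 9 = (3 * i3) ^ 9 := by ring
      _ = 1 := by rw [hi3, one_pow]
  have hβS : β ∈ S := by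
    refine ch44_quartic_mem A (c3 := i3 ^ 9 * (10077696 * z - 2187))
      (c2 := i3 ^ 9 * (139968 * z + 81)) (c1 := i3 ^ 9 * (648 * z - 1)) (c0 := i3 ^ 9 * z)
      (S.mul_mem (S.pow_mem hi3S 9) hzS)
      (S.mul_mem (S.pow_mem hi3S 9) (S.sub_mem (S.mul_mem (ofNat_mem S _) hzS) S.one_mem))
      (S.mul_mem (S.pow_mem hi3S 9) (S.add_mem (S.mul_mem (ofNat_mem S _) hzS) (ofNat_mem S _)))
      (S.mul_mem (S.pow_mem hi3S 9) (S.sub_mem (S.mul_mem (ofNat_mem S _) hzS) (ofNat_mem S _)))
      ?_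
    linear_combination (i3 ^ 9) * eβ - β ^ 4 * h9
  have hA : 1 - 243 * α ∈ S := S.sub_mem S.one_mem (S.mul_mem (ofNat_mem S _) hαS)
  have hB : 1 - 27 * β ∈ S := S.sub_mem S.one_mem (S.mul_mem (ofNat_mem S _) hβS)
  have hv : (1 - 243 * α) * (1 - 27 * β) ∈ S := S.mul_mem hA hB
  have hY1 : 1 + 27 * s = s * (h + 27) := by linear_combination (-1 : O) * hs
  have hY2 : 1 + 243 * s = s * (h + 243) := by linear_combination (-1 : O) * hs
  refine ch44_glue_two red z h s (1 - (1 - 243 * α) * (1 - 27 * β))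
    ((1 - 243 * α) * (1 - 27 * β)) ((h + 27) * (h + 243)) (α * β)
    ((1 + 27 * s) * (1 + 243 * s)) ((1 - 243 * α) * (1 - 27 * β))
    3 3 1 1 (S.sub_mem S.one_mem hv) hv (by ring) ?_ ?_ ?_ ?_ ?_ ?_ (S.mul_mem hαS hβS) hv ?_ ?_
    Hh Hs
  · have e : (1 - (1 - 243 * α) * (1 - 27 * β)) ^ 1 * h =
        243 * (1 - 243 * α) + 27 * (1 - 27 * β) - 6561 * ((1 - 243 * α) * β) := by
      linear_combination (243 - 6561 * β) * hhα + 27 * hhβ
    rw [e]
    exact S.sub_mem (S.add_mem (S.mul_mem (ofNat_mem S _) hA) (S.mul_mem (ofNat_mem S _) hB))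
      (S.mul_mem (ofNat_mem S _) (S.mul_mem hA hβS))
  · have e : ((1 - 243 * α) * (1 - 27 * β)) ^ 1 * s = α * (1 - 27 * β) := by
      linear_combination (-(1 - 27 * β) * s) * hhα + ((1 - 27 * β) * α) * hs
    rw [e]
    exact S.mul_mem hαS hB
  · exact Subalgebra.mul_mem _ (Subalgebra.add_mem _ (ch44_self_mem A h) (ofNat_mem _ _))
      (Subalgebra.add_mem _ (ch44_self_mem A h) (ofNat_mem _ _))
  · exact Subalgebra.mul_mem _
      (Subalgebra.add_mem _ (Subalgebra.one_mem _)
        (Subalgebra.mul_mem _ (ofNat_mem _ _) (ch44_self_mem A s)))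
      (Subalgebra.add_mem _ (Subalgebra.one_mem _)
        (Subalgebra.mul_mem _ (ofNat_mem _ _) (ch44_self_mem A s)))
  · have e : ((h + 27) * (h + 243)) ^ 3 * z = (h + 27) ^ 2 * h ^ 3 := by
      calc ((h + 27) * (h + 243)) ^ 3 * z = (h + 27) ^ 2 * (z * ((h + 27) * (h + 243) ^ 3)) := by
            ring
        _ = (h + 27) ^ 2 * h ^ 3 := by rw [hzh]
    rw [e]
    exact Subalgebra.mul_mem _
      (Subalgebra.pow_mem _ (Subalgebra.add_mem _ (ch44_self_mem A h) (ofNat_mem _ _)) 2)
      (Subalgebra.pow_mem _ (ch44_self_mem A h) 3)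
  · have e : ((1 + 27 * s) * (1 + 243 * s)) ^ 3 * z = s * (1 + 27 * s) ^ 2 := by
      calc ((1 + 27 * s) * (1 + 243 * s)) ^ 3 * z
          = s ^ 6 * (h + 27) ^ 2 * (z * ((h + 27) * (h + 243) ^ 3)) := by rw [hY1, hY2]; ring
        _ = s * (s * (h + 27)) ^ 2 * (h * s) ^ 3 := by rw [hzh]; ring
        _ = s * (1 + 27 * s) ^ 2 := by rw [hs, ← hY1]; ring
    rw [e]
    exact Subalgebra.mul_mem _ (ch44_self_mem A s)
      (Subalgebra.pow_mem _ (Subalgebra.add_mem _ (Subalgebra.one_mem _)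
        (Subalgebra.mul_mem _ (ofNat_mem _ _) (ch44_self_mem A s))) 2)
  · calc (h + 27) * (h + 243) * (α * β) = ((h + 243) * α) * ((h + 27) * β) := by ring
      _ = 1 := by rw [hα, hβ, one_mul]
  · calc (1 + 27 * s) * (1 + 243 * s) * ((1 - 243 * α) * (1 - 27 * β))
        = (h * s) ^ 2 * ((h + 243) * α) * ((h + 27) * β) := by rw [hY1, hY2, ← hhα, ← hhβ]; ring
      _ = 1 := by rw [hs, hα, hβ]; ring

/-- Charts with the same integral closure are interchangeable. -/
theorem ch44_lifts_of_mutual (red : O →+* Fk) {x z : O} (hx : x ∈ ch44_intSub A z)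
    (hz : z ∈ ch44_intSub A x) (H : ch44_Lifts A red x) : ch44_Lifts A red z :=
  ch44_localize red x z 1 1 0 hx (Subalgebra.one_mem _) (by simpa using hz)
    (Subalgebra.one_mem _) (mul_one 1) H

end levels

section adapters

variable (A : Type*) [CommRing A] {O : Type*} [CommRing O] [Algebra A O]

theorem ch44_int_iff_isIntegral_adjoin {x f : O} :
    ch44_Int A x f ↔ IsIntegral (Algebra.adjoin A {x}) f := by
  constructor
  · intro h
    refine ch44_isIntegralElem_of_range_le _ (algebraMap (Algebra.adjoin A {x}) O) (fun r => ?_) h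
    exact ⟨⟨Polynomial.aeval x r, Polynomial.aeval_mem_adjoin_singleton A x⟩, rfl⟩
  · intro h
    refine ch44_isIntegralElem_of_range_le (algebraMap (Algebra.adjoin A {x}) O) _ (fun r => ?_) h
    have hr : (r : O) ∈ (Polynomial.aeval (R := A) x).range :=
      (Algebra.adjoin_singleton_eq_range_aeval A x) ▸ r.2
    obtain ⟨p, hp⟩ := hr
    exact ⟨p, hp⟩

theorem ch44_int_iff_mem_integralClosure {x f : O} :
    ch44_Int A x f ↔ f ∈ integralClosure (Algebra.adjoin A {x}) O :=
  ch44_int_iff_isIntegral_adjoin A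

variable {Fk : Type*} [CommRing Fk] {k : Type*} [CommRing k] [Algebra k Fk]

/-- Integrality over the reduced chart, in `Algebra.adjoin` form over the residue ring `k`. -/
theorem ch44_redInt_iff (red : O →+* Fk) (res : A →+* k) (hres : Function.Surjective res)
    (hcompat : ∀ a : A, red (algebraMap A O a) = algebraMap k Fk (res a)) {x : O} {g : Fk} :
    (red.comp ((Polynomial.aeval x : A[X] →ₐ[A] O) : A[X] →+* O)).IsIntegralElem g ↔
      IsIntegral (Algebra.adjoin k {red x}) g := by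
  have key : ∀ p : A[X], red (Polynomial.aeval x p) = Polynomial.aeval (red x) (p.map res) := by
    intro p
    rw [Polynomial.aeval_def, Polynomial.aeval_def, Polynomial.hom_eval₂, Polynomial.eval₂_map]
    congr 1
    ext a
    simp [hcompat]
  constructor
  · intro h
    refine ch44_isIntegralElem_of_range_le _ (algebraMap (Algebra.adjoin k {red x}) Fk)
      (fun r => ?_) h
    exact ⟨⟨Polynomial.aeval (red x) (r.map res),
      Polynomial.aeval_mem_adjoin_singleton k (red x)⟩, (key r).symm⟩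
  · intro h
    refine ch44_isIntegralElem_of_range_le (algebraMap (Algebra.adjoin k {red x}) Fk) _
      (fun r => ?_) h
    have hr : (r : Fk) ∈ (Polynomial.aeval (R := k) (red x)).range :=
      (Algebra.adjoin_singleton_eq_range_aeval k (red x)) ▸ r.2
    obtain ⟨q, hq⟩ := hr
    obtain ⟨p, hp⟩ := Polynomial.map_surjective res hres q
    refine ⟨p, ?_⟩
    have := key p
    rw [hp] at this
    exact this.trans hq

/-- `ch44_Lifts` in `Algebra.adjoin` form. -/
theorem ch44_lifts_iff (red : O →+* Fk) (res : A →+* k) (hres : Function.Surjective res)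
    (hcompat : ∀ a : A, red (algebraMap A O a) = algebraMap k Fk (res a)) {x : O} :
    ch44_Lifts A red x ↔ ∀ g : Fk, IsIntegral (Algebra.adjoin k {red x}) g →
      ∃ f : O, IsIntegral (Algebra.adjoin A {x}) f ∧ red f = g := by
  constructor
  · intro H g hg
    obtain ⟨f, hf, hfg⟩ := H g ((ch44_redInt_iff A red res hres hcompat).mpr hg)
    exact ⟨f, (ch44_int_iff_isIntegral_adjoin A).mp hf, hfg⟩
  · intro H g hg
    obtain ⟨f, hf, hfg⟩ := H g ((ch44_redInt_iff A red res hres hcompat).mp hg)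
    exact ⟨f, (ch44_int_iff_isIntegral_adjoin A).mpr hf, hfg⟩

end adapters

end Fermat.Agent.S37
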