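import Mathlib

/-!
# S37, row NM (c) (helper13): abstract chart change for chart normality

`Γ : Subring (E × Ek)` is the graph of a reduction (pairs `(f, red f)`), `τ : R →+* E` and
`τk : Rk →+* Ek` are "chart rings" (`A[x] → F`, `k[x̄] → F_k`).  `ch13_Normal Γ Fk τ τk` says that
every element of `Fk` integral over `τk` is the reduction of an element integral over `τ`.

* `ch13_one_chart` : from the chart `t` to a chart `x` with `A[t]` integral over `A[x]`, a unit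
  `u` integral over `A[x]` whose reduction inverse `v⁻¹` clears the denominators of `k[x̄]`
  into `k[t̄]` (application: `t = h`, `x = j`, `u = 1/h`).
* `ch13_two_chart` : from two charts `t₁, t₂` (application `h`, `1/h`) to a chart `x` whose
  domain is covered by the two (application `x = 1/j`), with a partition of unity
  `P u₁ + Q u₂ = 1` (application `u₁ = 1/G(h)`, `u₂ = h ^ d / G(h)`).
-/

set_option autoImplicit false
set_option linter.style.haveILetI false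

namespace Fermat.Agent.S37

open Polynomial

section Integral

variable {E R : Type*} [CommRing E] [CommRing R]

/-- Elements integral over a ring hom form a subring. -/
def ch13_intSub (τ : R →+* E) : Subring E where
  carrier := {x | τ.IsIntegralElem x}
  mul_mem' := fun ha hb => RingHom.IsIntegralElem.mul τ ha hb
  one_mem' := τ.isIntegralElem_one
  add_mem' := fun ha hb => RingHom.IsIntegralElem.add τ ha hb
  zero_mem' := τ.isIntegralElem_zero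
  neg_mem' := fun ha => RingHom.IsIntegralElem.neg τ ha

theorem ch13_mem_intSub (τ : R →+* E) (x : E) : x ∈ ch13_intSub τ ↔ τ.IsIntegralElem x :=
  Iff.rfl

theorem ch13_pow (τ : R →+* E) {x : E} (hx : τ.IsIntegralElem x) (n : ℕ) :
    τ.IsIntegralElem (x ^ n) :=
  (ch13_intSub τ).pow_mem hx n

/-- A root of a monic polynomial with integral coefficients is integral. -/
theorem ch13_of_monic (τ : R →+* E) (Q : E[X]) (hQ : Q.Monic)
    (hc : ∀ i, τ.IsIntegralElem (Q.coeff i)) (y : E) (hy : Q.eval y = 0) :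
    τ.IsIntegralElem y := by
  letI := τ.toAlgebra
  have hlift : Q ∈ Polynomial.lifts (algebraMap (integralClosure R E) E) := by
    rw [Polynomial.lifts_iff_coeff_lifts]
    intro n
    exact ⟨⟨Q.coeff n, hc n⟩, rfl⟩
  obtain ⟨q, hq, -, hqm⟩ := Polynomial.lifts_and_natDegree_eq_and_monic hlift hQ
  have h1 : IsIntegral (integralClosure R E) y := by
    refine ⟨q, hqm, ?_⟩
    rw [← Polynomial.eval_map, hq, hy]
  exact isIntegral_trans y h1

/-- **Scaling lemma.** If `g` is integral over `τ` and every element of the range of `τ'`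
becomes integral over `τ` after multiplication by a power of `g`, then the same holds for every
element integral over `τ'`. -/
theorem ch13_scale {R' : Type*} [CommRing R'] (τ : R →+* E) (τ' : R' →+* E) (g : E)
    (hg : τ.IsIntegralElem g) (h : ∀ c : R', ∃ n : ℕ, τ.IsIntegralElem (g ^ n * τ' c))
    (z : E) (hz : τ'.IsIntegralElem z) : ∃ n : ℕ, τ.IsIntegralElem (g ^ n * z) := by
  obtain ⟨p, hp, hpz⟩ := hz
  have hmono : ∀ (c : R') (n m : ℕ), n ≤ m → τ.IsIntegralElem (g ^ n * τ' c) →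
      τ.IsIntegralElem (g ^ m * τ' c) := by
    intro c n m hnm hn
    obtain ⟨d, rfl⟩ := Nat.exists_eq_add_of_le hnm
    have : g ^ (n + d) * τ' c = g ^ d * (g ^ n * τ' c) := by ring
    rw [this]
    exact RingHom.IsIntegralElem.mul τ (ch13_pow τ hg d) hn
  choose e he using h
  set n := (Finset.range (p.natDegree + 1)).sup (fun i => e (p.coeff i)) with hn
  have hn' : ∀ i, τ.IsIntegralElem (g ^ n * τ' (p.coeff i)) := by
    intro i
    by_cases hi : i ∈ Finset.range (p.natDegree + 1)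
    · exact hmono _ _ _ (Finset.le_sup (f := fun i => e (p.coeff i)) hi) (he _)
    · have h0 : p.coeff i = 0 := by
        apply coeff_eq_zero_of_natDegree_lt
        simp only [Finset.mem_range, not_lt] at hi
        omega
      rw [h0, map_zero, mul_zero]
      exact τ.isIntegralElem_zero
  have hPm : (p.map τ').Monic := hp.map τ'
  refine ⟨n, ch13_of_monic τ ((p.map τ').scaleRoots (g ^ n)) ?_ ?_ _ ?_⟩
  · exact (monic_scaleRoots_iff _).mpr hPm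
  · intro i
    rw [coeff_scaleRoots, coeff_map]
    rcases lt_trichotomy i (p.map τ').natDegree with hi | hi | hi
    · obtain ⟨d, hd⟩ : ∃ d, (p.map τ').natDegree - i = d + 1 := ⟨(p.map τ').natDegree - i - 1, by omega⟩
      rw [hd, pow_succ]
      have : τ' (p.coeff i) * ((g ^ n) ^ d * g ^ n) = (g ^ n) ^ d * (g ^ n * τ' (p.coeff i)) := by
        ring
      rw [this]
      exact RingHom.IsIntegralElem.mul τ (ch13_pow τ (ch13_pow τ hg n) d) (hn' i)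
    · have h1 : τ' (p.coeff i) = 1 := by
        have := hPm.coeff_natDegree
        rw [coeff_map, ← hi] at this
        exact this
      rw [h1, hi, Nat.sub_self, pow_zero, mul_one]
      exact τ.isIntegralElem_one
    · have h0 : τ' (p.coeff i) = 0 := by
        rw [← coeff_map]
        exact coeff_eq_zero_of_natDegree_lt hi
      rw [h0, zero_mul]
      exact τ.isIntegralElem_zero
  · have h1 := scaleRoots_eval₂_mul (p := p.map τ') (RingHom.id E) z (g ^ n)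
    rw [eval₂_id, eval₂_id, RingHom.id_apply, eval_map, hpz, mul_zero] at h1
    exact h1

/-- Transitivity in ring-hom form. -/
theorem ch13_trans {R' : Type*} [CommRing R'] (τ : R →+* E) (τ' : R' →+* E)
    (h : ∀ c : R', τ.IsIntegralElem (τ' c)) (z : E) (hz : τ'.IsIntegralElem z) :
    τ.IsIntegralElem z := by
  obtain ⟨n, hn⟩ := ch13_scale τ τ' 1 τ.isIntegralElem_one
    (fun c => ⟨0, by simpa using h c⟩) z hz
  simpa using hn

/-- To check the hypothesis of `ch13_scale` on a polynomial ring it suffices to check it on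
constants and on the variable. -/
theorem ch13_scale_poly {S : Type*} [CommRing S] (τ : R →+* E) (φ : Polynomial S →+* E) (g : E)
    (hg : τ.IsIntegralElem g) (hC : ∀ a : S, τ.IsIntegralElem (φ (C a)))
    (hX : ∃ n : ℕ, τ.IsIntegralElem (g ^ n * φ X)) (c : Polynomial S) :
    ∃ n : ℕ, τ.IsIntegralElem (g ^ n * φ c) := by
  have hmul : ∀ a b : Polynomial S, (∃ n : ℕ, τ.IsIntegralElem (g ^ n * φ a)) →
      (∃ n : ℕ, τ.IsIntegralElem (g ^ n * φ b)) → ∃ n : ℕ, τ.IsIntegralElem (g ^ n * φ (a * b)) := by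
    rintro a b ⟨n1, h1⟩ ⟨n2, h2⟩
    refine ⟨n1 + n2, ?_⟩
    have : g ^ (n1 + n2) * φ (a * b) = (g ^ n1 * φ a) * (g ^ n2 * φ b) := by
      rw [map_mul]; ring
    rw [this]
    exact RingHom.IsIntegralElem.mul τ h1 h2
  induction c using Polynomial.induction_on with
  | C a => exact ⟨0, by simpa using hC a⟩
  | add p q hp hq =>
    obtain ⟨n1, h1⟩ := hp
    obtain ⟨n2, h2⟩ := hq
    refine ⟨n1 + n2, ?_⟩
    have : g ^ (n1 + n2) * φ (p + q) = g ^ n2 * (g ^ n1 * φ p) + g ^ n1 * (g ^ n2 * φ q) := by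
      rw [map_add]; ring
    rw [this]
    exact RingHom.IsIntegralElem.add τ (RingHom.IsIntegralElem.mul τ (ch13_pow τ hg n2) h1)
      (RingHom.IsIntegralElem.mul τ (ch13_pow τ hg n1) h2)
  | monomial n a ih =>
    have : C a * X ^ (n + 1) = (C a * X ^ n) * X := by ring
    rw [this]
    exact hmul _ _ ih hX

/-- Partition of unity for a quadratic denominator: if `a₀ u₁ + a₁ m + u₂ = 1` and
`m² = u₁ u₂` (application `u₁ = 1/G`, `m = h/G`, `u₂ = h²/G`, `G = h² + a₁ h + a₀`), then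
`u₁` and `u₂` are coprime, explicitly. -/
theorem ch13_cop2 {T : Type*} [CommRing T] (u1 u2 m a0 a1 : T)
    (h1 : a0 * u1 + a1 * m + u2 = 1) (h2 : m * m = u1 * u2) :
    (a0 * (2 - (a0 * u1 + u2)) + a1 ^ 2 * u2) * u1 + (2 - (a0 * u1 + u2)) * u2 = 1 := by
  linear_combination (-(a0 * u1 + u2 + a1 * m - 1) + 2 * a1 * m) * h1 - a1 ^ 2 * h2

end Integral

section Chart

variable {E Ek : Type*} [CommRing E] [Field Ek]

/-- Chart normality: every element of `Fk` integral over `τk` is the `Γ`-reduction of an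
element integral over `τ`. -/
def ch13_Normal {R Rk : Type*} [CommRing R] [CommRing Rk]
    (Γ : Subring (E × Ek)) (Fk : Subring Ek) (τ : R →+* E) (τk : Rk →+* Ek) : Prop :=
  ∀ z : Ek, z ∈ Fk → τk.IsIntegralElem z → ∃ f : E, τ.IsIntegralElem f ∧ (f, z) ∈ Γ

/-- **Chart change, one chart** (application `t = h`, `x = j`, `u = 1/h`, `v = 1/h̄`). -/
theorem ch13_one_chart {R1 Rx R1k Rxk : Type*} [CommRing R1] [CommRing Rx] [CommRing R1k]
    [CommRing Rxk] (Γ : Subring (E × Ek)) (Fk : Subring Ek)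
    (τ1 : R1 →+* E) (τx : Rx →+* E) (τ1k : R1k →+* Ek) (τxk : Rxk →+* Ek)
    (u : E) (v : Ek) (hu : (u, v) ∈ Γ) (hux : τx.IsIntegralElem u) (hv : v ≠ 0)
    (hvF : v⁻¹ ∈ Fk)
    (hb : ∀ c : R1, τx.IsIntegralElem (τ1 c))
    (hg : τ1k.IsIntegralElem v⁻¹)
    (hd : ∀ c : Rxk, ∃ n : ℕ, τ1k.IsIntegralElem (v⁻¹ ^ n * τxk c))
    (h1 : ch13_Normal Γ Fk τ1 τ1k) : ch13_Normal Γ Fk τx τxk := by
  intro z hzF hz
  obtain ⟨M, hM⟩ := ch13_scale τ1k τxk v⁻¹ hg hd z hz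
  obtain ⟨f1, hf1, hf1Γ⟩ := h1 (v⁻¹ ^ M * z) (Fk.mul_mem (Fk.pow_mem hvF M) hzF) hM
  refine ⟨u ^ M * f1, ?_, ?_⟩
  · exact RingHom.IsIntegralElem.mul τx (ch13_pow τx hux M) (ch13_trans τx τ1 hb f1 hf1)
  · have h2 := Γ.mul_mem (Γ.pow_mem hu M) hf1Γ
    have h3 : (u, v) ^ M * (f1, v⁻¹ ^ M * z) = (u ^ M * f1, z) := by
      refine Prod.ext rfl ?_
      show v ^ M * (v⁻¹ ^ M * z) = z
      rw [← mul_assoc, ← mul_pow, mul_inv_cancel₀ hv, one_pow, one_mul]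
    rw [h3] at h2
    exact h2

/-- **Chart change, two charts** (application `t₁ = h`, `t₂ = 1/h`, `x = 1/j`,
`u₁ = 1/G(h)`, `u₂ = h ^ d / G(h)`). -/
theorem ch13_two_chart {R1 R2 Rx R1k R2k Rxk : Type*} [CommRing R1] [CommRing R2] [CommRing Rx]
    [CommRing R1k] [CommRing R2k] [CommRing Rxk] (Γ : Subring (E × Ek)) (Fk : Subring Ek)
    (τ1 : R1 →+* E) (τ2 : R2 →+* E) (τx : Rx →+* E)
    (τ1k : R1k →+* Ek) (τ2k : R2k →+* Ek) (τxk : Rxk →+* Ek)
    (u1 u2 P Q : E) (v1 v2 Pk Qk : Ek)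
    (hu1 : (u1, v1) ∈ Γ) (hu2 : (u2, v2) ∈ Γ) (hP : (P, Pk) ∈ Γ) (hQ : (Q, Qk) ∈ Γ)
    (hu1x : τx.IsIntegralElem u1) (hu2x : τx.IsIntegralElem u2)
    (hPx : τx.IsIntegralElem P) (hQx : τx.IsIntegralElem Q)
    (hPQ : P * u1 + Q * u2 = 1) (hPQk : Pk * v1 + Qk * v2 = 1)
    (hv1 : v1 ≠ 0) (hv2 : v2 ≠ 0) (hv1F : v1⁻¹ ∈ Fk) (hv2F : v2⁻¹ ∈ Fk)
    (hb1 : ∀ c : R1, ∃ n : ℕ, τx.IsIntegralElem (u1 ^ n * τ1 c))
    (hb2 : ∀ c : R2, ∃ n : ℕ, τx.IsIntegralElem (u2 ^ n * τ2 c))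
    (hg1 : τ1k.IsIntegralElem v1⁻¹)
    (hd1 : ∀ c : Rxk, ∃ n : ℕ, τ1k.IsIntegralElem (v1⁻¹ ^ n * τxk c))
    (hg2 : τ2k.IsIntegralElem v2⁻¹)
    (hd2 : ∀ c : Rxk, ∃ n : ℕ, τ2k.IsIntegralElem (v2⁻¹ ^ n * τxk c))
    (h1 : ch13_Normal Γ Fk τ1 τ1k) (h2 : ch13_Normal Γ Fk τ2 τ2k) :
    ch13_Normal Γ Fk τx τxk := by
  intro z hzF hz
  obtain ⟨M1, hM1⟩ := ch13_scale τ1k τxk v1⁻¹ hg1 hd1 z hz
  obtain ⟨M2, hM2⟩ := ch13_scale τ2k τxk v2⁻¹ hg2 hd2 z hz
  obtain ⟨f1, hf1, hf1Γ⟩ := h1 (v1⁻¹ ^ M1 * z) (Fk.mul_mem (Fk.pow_mem hv1F M1) hzF) hM1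
  obtain ⟨f2, hf2, hf2Γ⟩ := h2 (v2⁻¹ ^ M2 * z) (Fk.mul_mem (Fk.pow_mem hv2F M2) hzF) hM2
  obtain ⟨r1, hr1⟩ := ch13_scale τx τ1 u1 hu1x hb1 f1 hf1
  obtain ⟨r2, hr2⟩ := ch13_scale τx τ2 u2 hu2x hb2 f2 hf2
  -- the ring of pairs `(f, f̄) ∈ Γ` with `f` integral over `τx`
  set S : Subring (E × Ek) := Γ ⊓ (ch13_intSub τx).comap (RingHom.fst E Ek) with hS
  have hmemS : ∀ {a : E} {b : Ek}, (a, b) ∈ Γ → τx.IsIntegralElem a → (a, b) ∈ S :=
    fun ha hb => ⟨ha, hb⟩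
  let U1 : S := ⟨(u1, v1), hmemS hu1 hu1x⟩
  let U2 : S := ⟨(u2, v2), hmemS hu2 hu2x⟩
  have hcop : IsCoprime U1 U2 := by
    refine ⟨⟨(P, Pk), hmemS hP hPx⟩, ⟨(Q, Qk), hmemS hQ hQx⟩, ?_⟩
    apply Subtype.ext
    exact Prod.ext hPQ hPQk
  obtain ⟨P', Q', hPQ'⟩ := IsCoprime.pow (m := r1) (n := r2) hcop
  have hPQ'' : (P' : E × Ek) * (u1, v1) ^ r1 + (Q' : E × Ek) * (u2, v2) ^ r2 = 1 := by
    have := congrArg (Subtype.val) hPQ'
    simpa [U1, U2] using this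
  have hPQ1 : (P' : E × Ek).1 * u1 ^ r1 + (Q' : E × Ek).1 * u2 ^ r2 = 1 := by
    simpa using congrArg Prod.fst hPQ''
  have hPQ2 : (P' : E × Ek).2 * v1 ^ r1 + (Q' : E × Ek).2 * v2 ^ r2 = 1 := by
    simpa using congrArg Prod.snd hPQ''
  have hP'Γ : ((P' : E × Ek).1, (P' : E × Ek).2) ∈ Γ := P'.2.1
  have hQ'Γ : ((Q' : E × Ek).1, (Q' : E × Ek).2) ∈ Γ := Q'.2.1
  have hP'x : τx.IsIntegralElem (P' : E × Ek).1 := P'.2.2
  have hQ'x : τx.IsIntegralElem (Q' : E × Ek).1 := Q'.2.2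
  refine ⟨(P' : E × Ek).1 * (u1 ^ M1 * (u1 ^ r1 * f1)) + (Q' : E × Ek).1 * (u2 ^ M2 * (u2 ^ r2 * f2)),
    ?_, ?_⟩
  · exact RingHom.IsIntegralElem.add τx
      (RingHom.IsIntegralElem.mul τx hP'x (RingHom.IsIntegralElem.mul τx (ch13_pow τx hu1x M1) hr1))
      (RingHom.IsIntegralElem.mul τx hQ'x (RingHom.IsIntegralElem.mul τx (ch13_pow τx hu2x M2) hr2))
  · have e1 := Γ.mul_mem hP'Γ (Γ.mul_mem (Γ.pow_mem hu1 M1) (Γ.mul_mem (Γ.pow_mem hu1 r1) hf1Γ))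
    have e2 := Γ.mul_mem hQ'Γ (Γ.mul_mem (Γ.pow_mem hu2 M2) (Γ.mul_mem (Γ.pow_mem hu2 r2) hf2Γ))
    have e3 := Γ.add_mem e1 e2
    have h3 : ((P' : E × Ek).1, (P' : E × Ek).2) * ((u1, v1) ^ M1 * ((u1, v1) ^ r1 * (f1, v1⁻¹ ^ M1 * z)))
        + ((Q' : E × Ek).1, (Q' : E × Ek).2) * ((u2, v2) ^ M2 * ((u2, v2) ^ r2 * (f2, v2⁻¹ ^ M2 * z)))
        = ((P' : E × Ek).1 * (u1 ^ M1 * (u1 ^ r1 * f1)) + (Q' : E × Ek).1 * (u2 ^ M2 * (u2 ^ r2 * f2)), z) := by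
      refine Prod.ext rfl ?_
      show (P' : E × Ek).2 * (v1 ^ M1 * (v1 ^ r1 * (v1⁻¹ ^ M1 * z)))
        + (Q' : E × Ek).2 * (v2 ^ M2 * (v2 ^ r2 * (v2⁻¹ ^ M2 * z))) = z
      have a1 : v1 ^ M1 * (v1 ^ r1 * (v1⁻¹ ^ M1 * z)) = v1 ^ r1 * z := by
        have : v1 ^ M1 * v1⁻¹ ^ M1 = 1 := by rw [← mul_pow, mul_inv_cancel₀ hv1, one_pow]
        calc v1 ^ M1 * (v1 ^ r1 * (v1⁻¹ ^ M1 * z)) = (v1 ^ M1 * v1⁻¹ ^ M1) * (v1 ^ r1 * z) := by ring
          _ = v1 ^ r1 * z := by rw [this, one_mul]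
      have a2 : v2 ^ M2 * (v2 ^ r2 * (v2⁻¹ ^ M2 * z)) = v2 ^ r2 * z := by
        have : v2 ^ M2 * v2⁻¹ ^ M2 = 1 := by rw [← mul_pow, mul_inv_cancel₀ hv2, one_pow]
        calc v2 ^ M2 * (v2 ^ r2 * (v2⁻¹ ^ M2 * z)) = (v2 ^ M2 * v2⁻¹ ^ M2) * (v2 ^ r2 * z) := by ring
          _ = v2 ^ r2 * z := by rw [this, one_mul]
      rw [a1, a2]
      calc (P' : E × Ek).2 * (v1 ^ r1 * z) + (Q' : E × Ek).2 * (v2 ^ r2 * z)
          = ((P' : E × Ek).2 * v1 ^ r1 + (Q' : E × Ek).2 * v2 ^ r2) * z := by ring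
        _ = z := by rw [hPQ2, one_mul]
    rw [h3] at e3
    exact e3

end Chart

end Fermat.Agent.S37
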