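import Fermat.Agent.S37.GaussPGI41
import Fermat.Agent.S18.GaussVal85

/-!
# S37, row GA (helper41), part 3: the Gauss ring of `F_L` over `A` and its reduction map

`A` a valuation subring of `ℚ̄` with residue field `k`, `F_L = modularFunctionFieldBar N`,
`F_k = modularFunctionFieldFullC k N`.

* `ga41_O N A : Subring F_L` — the Gauss ring `{x | ∃ s t ∈ A((q)), s̄ ≠ 0, s·x = t}`
  (it is helper85's `gv85_subring` for `(A, ℚ̄)`).
* `ga41_redHom : ga41_O N A →+* k((q))` — the reduction map `x ↦ t̄ / s̄`; no hypothesis.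
* With `(N : k) ≠ 0`: `ga41_red : ga41_O N A →+* F_k`, surjective, `red x ≠ 0 ↔ IsUnit x`,
  coefficientwise on integral series, `ga41_mem_or_inv_mem` (valuation ring),
  `ga41_exists_unit` (value group = value group of `A`).
-/

set_option autoImplicit false
set_option synthInstance.maxHeartbeats 400000

open ModularCurve IntermediateField AlgebraicCurve

namespace Fermat.Agent.S37

open Fermat.Agent.S18 Fermat.Agent.S28

section Def

variable (N : ℕ) (A : ValuationSubring (AlgebraicClosure ℚ))

/-- The Gauss ring of `F_L` with respect to `A`. -/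
noncomputable def ga41_O : Subring ↥(modularFunctionFieldBar N) :=
  gv85_subring (IsLocalRing.residue A) (modularFunctionFieldBar N)

variable {N A}

theorem ga41_mem_O {x : ↥(modularFunctionFieldBar N)} :
    x ∈ ga41_O N A ↔ ∃ s t : LaurentSeries A, coeffMap (IsLocalRing.residue A) s ≠ 0 ∧
      coeffMap A.subtype s * (x : LaurentSeries (AlgebraicClosure ℚ)) = coeffMap A.subtype t :=
  Iff.rfl

/-- Two presentations of the same element have the same reduced quotient. -/
theorem ga41_quot_eq {x : LaurentSeries (AlgebraicClosure ℚ)} {s t s' t' : LaurentSeries A}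
    (hs : coeffMap (IsLocalRing.residue A) s ≠ 0) (hs' : coeffMap (IsLocalRing.residue A) s' ≠ 0)
    (h : coeffMap A.subtype s * x = coeffMap A.subtype t)
    (h' : coeffMap A.subtype s' * x = coeffMap A.subtype t') :
    coeffMap (IsLocalRing.residue A) t / coeffMap (IsLocalRing.residue A) s =
      coeffMap (IsLocalRing.residue A) t' / coeffMap (IsLocalRing.residue A) s' := by
  have h1 : coeffMap A.subtype (s' * t) = coeffMap A.subtype (s * t') := by
    rw [map_mul, map_mul, ← h, ← h']
    ring
  have h2 : s' * t = s * t' := re41_coeffMap_subtype_injective A h1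
  have h3 := congrArg (coeffMap (IsLocalRing.residue A)) h2
  rw [map_mul, map_mul] at h3
  rw [div_eq_div_iff hs hs']
  linear_combination h3

/-- The reduction map on the Gauss ring, as a function. -/
noncomputable def ga41_redFun (x : ga41_O N A) : LaurentSeries (IsLocalRing.ResidueField A) :=
  coeffMap (IsLocalRing.residue A) (ga41_mem_O.mp x.2).choose_spec.choose /
    coeffMap (IsLocalRing.residue A) (ga41_mem_O.mp x.2).choose

theorem ga41_redFun_eq (x : ga41_O N A) {s t : LaurentSeries A}
    (hs : coeffMap (IsLocalRing.residue A) s ≠ 0)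
    (h : coeffMap A.subtype s * ((x : ↥(modularFunctionFieldBar N)) :
      LaurentSeries (AlgebraicClosure ℚ)) = coeffMap A.subtype t) :
    ga41_redFun x = coeffMap (IsLocalRing.residue A) t / coeffMap (IsLocalRing.residue A) s :=
  ga41_quot_eq (ga41_mem_O.mp x.2).choose_spec.choose_spec.1 hs
    (ga41_mem_O.mp x.2).choose_spec.choose_spec.2 h

/-- **The reduction map** `ga41_O N A →+* k((q))`. -/
noncomputable def ga41_redHom : ga41_O N A →+* LaurentSeries (IsLocalRing.ResidueField A) where
  toFun := ga41_redFun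
  map_one' := by
    rw [ga41_redFun_eq (1 : ga41_O N A) (s := 1) (t := 1) (by rw [map_one]; exact one_ne_zero)
      (by rw [map_one, one_mul]; rfl), map_one, div_one]
  map_mul' := by
    intro x y
    obtain ⟨s, t, hs, hst⟩ := ga41_mem_O.mp x.2
    obtain ⟨s', t', hs', hst'⟩ := ga41_mem_O.mp y.2
    rw [ga41_redFun_eq x hs hst, ga41_redFun_eq y hs' hst',
      ga41_redFun_eq (x * y) (s := s * s') (t := t * t')
        (by rw [map_mul]; exact mul_ne_zero hs hs')
        (by
          rw [map_mul, map_mul, ← hst, ← hst']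
          push_cast
          ring),
      map_mul, map_mul, mul_div_mul_comm]
  map_zero' := by
    rw [ga41_redFun_eq (0 : ga41_O N A) (s := 1) (t := 0) (by rw [map_one]; exact one_ne_zero)
      (by rw [map_one, one_mul, map_zero]; rfl), map_zero, zero_div]
  map_add' := by
    intro x y
    obtain ⟨s, t, hs, hst⟩ := ga41_mem_O.mp x.2
    obtain ⟨s', t', hs', hst'⟩ := ga41_mem_O.mp y.2
    rw [ga41_redFun_eq x hs hst, ga41_redFun_eq y hs' hst',
      ga41_redFun_eq (x + y) (s := s * s') (t := s' * t + s * t')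
        (by rw [map_mul]; exact mul_ne_zero hs hs')
        (by
          rw [map_mul, map_add, map_mul, map_mul, ← hst, ← hst']
          push_cast
          ring),
      map_mul, map_add, map_mul, map_mul, div_add_div _ _ hs hs']
    congr 1
    ring

theorem ga41_redHom_eq (x : ga41_O N A) {s t : LaurentSeries A}
    (hs : coeffMap (IsLocalRing.residue A) s ≠ 0)
    (h : coeffMap A.subtype s * ((x : ↥(modularFunctionFieldBar N)) :
      LaurentSeries (AlgebraicClosure ℚ)) = coeffMap A.subtype t) :
    ga41_redHom x = coeffMap (IsLocalRing.residue A) t / coeffMap (IsLocalRing.residue A) s :=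
  ga41_redFun_eq x hs h

/-- `s̄ · red x = t̄` whenever `s · x = t` with `s̄ ≠ 0`. -/
theorem ga41_redHom_spec (x : ga41_O N A) {s t : LaurentSeries A}
    (hs : coeffMap (IsLocalRing.residue A) s ≠ 0)
    (h : coeffMap A.subtype s * ((x : ↥(modularFunctionFieldBar N)) :
      LaurentSeries (AlgebraicClosure ℚ)) = coeffMap A.subtype t) :
    coeffMap (IsLocalRing.residue A) s * ga41_redHom x = coeffMap (IsLocalRing.residue A) t := by
  rw [ga41_redHom_eq x hs h, mul_div_cancel₀ _ hs]

/-- Integral series lie in the Gauss ring. -/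
theorem ga41_mem_O_of_integral {x : ↥(modularFunctionFieldBar N)} (y : LaurentSeries A)
    (hxy : (x : LaurentSeries (AlgebraicClosure ℚ)) = coeffMap A.subtype y) : x ∈ ga41_O N A :=
  ga41_mem_O.mpr ⟨1, y, by rw [map_one]; exact one_ne_zero, by rw [map_one, one_mul, hxy]⟩

/-- The reduction map is the coefficientwise reduction on integral series. -/
theorem ga41_redHom_integral (x : ga41_O N A) (y : LaurentSeries A)
    (hxy : ((x : ↥(modularFunctionFieldBar N)) : LaurentSeries (AlgebraicClosure ℚ)) =
      coeffMap A.subtype y) :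
    ga41_redHom x = coeffMap (IsLocalRing.residue A) y := by
  rw [ga41_redHom_eq x (s := 1) (t := y) (by rw [map_one]; exact one_ne_zero)
    (by rw [map_one, one_mul, hxy]), map_one, div_one]

end Def

section Main

variable (N : ℕ) [NeZero N] (A : ValuationSubring (AlgebraicClosure ℚ))

/-- **Normal form**: every nonzero `x ∈ F_L` is `c · a / b` with `a, b` integral series of `F_L`
whose reductions are nonzero elements of `F_k`; and `x` lies in the Gauss ring iff `c ∈ A`. -/
theorem ga41_normal_form (hN : (N : IsLocalRing.ResidueField A) ≠ 0)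
    (x : ↥(modularFunctionFieldBar N)) (hx : x ≠ 0) :
    ∃ (a b : LaurentSeries A) (c : AlgebraicClosure ℚ), c ≠ 0 ∧
      coeffMap A.subtype a ∈ modularFunctionFieldBar N ∧
      coeffMap A.subtype b ∈ modularFunctionFieldBar N ∧
      coeffMap (IsLocalRing.residue A) a ∈
        modularFunctionFieldFullC (IsLocalRing.ResidueField A) N ∧
      coeffMap (IsLocalRing.residue A) b ∈
        modularFunctionFieldFullC (IsLocalRing.ResidueField A) N ∧
      coeffMap (IsLocalRing.residue A) a ≠ 0 ∧ coeffMap (IsLocalRing.residue A) b ≠ 0 ∧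
      (x : LaurentSeries (AlgebraicClosure ℚ)) * coeffMap A.subtype b =
        algebraMap (AlgebraicClosure ℚ) (LaurentSeries (AlgebraicClosure ℚ)) c *
          coeffMap A.subtype a ∧
      (x ∈ ga41_O N A ↔ c ∈ A) := by
  obtain ⟨a, b, c, hc, haL, hbL, hak, hbk, hane, hbne, hab⟩ :=
    ga41_HF N A hN x x.2 (fun h => hx (Subtype.ext h))
  refine ⟨a, b, c, hc, haL, hbL, hak, hbk, hane, hbne, hab, ?_, ?_⟩
  · intro hxO
    by_contra hcA
    obtain ⟨s, t, hs, hst⟩ := ga41_mem_O.mp hxO
    have hcinv : c⁻¹ ∈ A := (A.mem_or_inv_mem c).resolve_left hcA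
    have hnonunit : IsLocalRing.residue A ⟨c⁻¹, hcinv⟩ = 0 := by
      rw [IsLocalRing.residue_eq_zero_iff, IsLocalRing.mem_maximalIdeal, mem_nonunits_iff]
      intro hu
      apply hcA
      obtain ⟨v, hv⟩ := hu.exists_right_inv
      have h1 : c⁻¹ * (v : AlgebraicClosure ℚ) = 1 := congrArg Subtype.val hv
      have h2 : (v : AlgebraicClosure ℚ) = c := by
        rw [← mul_one c, ← h1, ← mul_assoc, mul_inv_cancel₀ hc, one_mul]
      rw [← h2]
      exact v.2
    have hcL : algebraMap (AlgebraicClosure ℚ) (LaurentSeries (AlgebraicClosure ℚ)) c ≠ 0 := by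
      rw [algebraMap_laurentSeries_eq_single]
      exact HahnSeries.single_ne_zero hc
    have h1 : coeffMap A.subtype (s * a) =
        coeffMap A.subtype (HahnSeries.single 0 (⟨c⁻¹, hcinv⟩ : A) * (t * b)) := by
      rw [map_mul, map_mul, map_mul, coeffMap_single, ← hst]
      have e : (HahnSeries.single 0 (A.subtype ⟨c⁻¹, hcinv⟩) :
          LaurentSeries (AlgebraicClosure ℚ)) =
          (algebraMap (AlgebraicClosure ℚ) (LaurentSeries (AlgebraicClosure ℚ)) c)⁻¹ := by
        rw [← map_inv₀, algebraMap_laurentSeries_eq_single]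
        rfl
      rw [e, mul_assoc (coeffMap A.subtype s), hab]
      field_simp
    have h2 := re41_coeffMap_subtype_injective A h1
    have h3 := congrArg (coeffMap (IsLocalRing.residue A)) h2
    rw [map_mul, map_mul, coeffMap_single, hnonunit, HahnSeries.single_eq_zero, zero_mul] at h3
    exact mul_ne_zero hs hane h3
  · intro hcA
    refine ga41_mem_O.mpr ⟨b, HahnSeries.single 0 (⟨c, hcA⟩ : A) * a, hbne, ?_⟩
    rw [map_mul, coeffMap_single, mul_comm, hab, algebraMap_laurentSeries_eq_single]
    rfl

omit [NeZero N] in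
theorem ga41_single_mem_fullC (k : Type*) [Field k] (c : k) :
    (HahnSeries.single 0 c : LaurentSeries k) ∈ modularFunctionFieldFullC k N := by
  rw [← algebraMap_laurentSeries_eq_single]
  exact (modularFunctionFieldFullC k N).algebraMap_mem c

/-- The reduction map takes its values in `F_k`. -/
theorem ga41_redHom_mem (hN : (N : IsLocalRing.ResidueField A) ≠ 0) (x : ga41_O N A) :
    ga41_redHom x ∈ modularFunctionFieldFullC (IsLocalRing.ResidueField A) N := by
  by_cases hx : (x : ↥(modularFunctionFieldBar N)) = 0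
  · have h0 : x = 0 := Subtype.ext hx
    rw [h0, map_zero]
    exact zero_mem _
  obtain ⟨a, b, c, hc, haL, hbL, hak, hbk, hane, hbne, hab, hiff⟩ :=
    ga41_normal_form N A hN x hx
  have hcA : c ∈ A := hiff.mp x.2
  rw [ga41_redHom_eq x (s := b) (t := HahnSeries.single 0 (⟨c, hcA⟩ : A) * a) hbne
    (by
      rw [map_mul, coeffMap_single, mul_comm, hab, algebraMap_laurentSeries_eq_single]
      rfl),
    map_mul, coeffMap_single]
  exact div_mem (mul_mem (ga41_single_mem_fullC N _ _) hak) hbk

/-- **The reduction map of the Gauss ring onto `F_k`.** -/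
noncomputable def ga41_red (hN : (N : IsLocalRing.ResidueField A) ≠ 0) :
    ga41_O N A →+* ↥(modularFunctionFieldFullC (IsLocalRing.ResidueField A) N) :=
  ga41_redHom.codRestrict (modularFunctionFieldFullC (IsLocalRing.ResidueField A) N)
    (ga41_redHom_mem N A hN)

theorem ga41_red_coe (hN : (N : IsLocalRing.ResidueField A) ≠ 0) (x : ga41_O N A) :
    ((ga41_red N A hN x : ↥(modularFunctionFieldFullC (IsLocalRing.ResidueField A) N)) :
      LaurentSeries (IsLocalRing.ResidueField A)) = ga41_redHom x := rfl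

omit [NeZero N] in
/-- **Units of the Gauss ring** are the elements with nonzero reduction. -/
theorem ga41_isUnit_iff (x : ga41_O N A) : IsUnit x ↔ ga41_redHom x ≠ 0 := by
  constructor
  · intro hu h0
    obtain ⟨y, hy⟩ := hu.exists_right_inv
    have h1 := congrArg ga41_redHom hy
    rw [map_mul, h0, zero_mul, map_one] at h1
    exact zero_ne_one h1
  · intro hne
    obtain ⟨s, t, hs, hst⟩ := ga41_mem_O.mp x.2
    rw [ga41_redHom_eq x hs hst] at hne
    have ht : coeffMap (IsLocalRing.residue A) t ≠ 0 := fun h => hne (by rw [h, zero_div])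
    have htL : coeffMap A.subtype t ≠ 0 := re41_ne_zero_of_residue_ne_zero ht
    have hxL : ((x : ↥(modularFunctionFieldBar N)) : LaurentSeries (AlgebraicClosure ℚ)) ≠ 0 := by
      intro h0
      rw [h0, mul_zero] at hst
      exact htL hst.symm
    have hx0 : (x : ↥(modularFunctionFieldBar N)) ≠ 0 := fun h => hxL (by rw [h]; rfl)
    have hinv : (x : ↥(modularFunctionFieldBar N))⁻¹ ∈ ga41_O N A := by
      refine ga41_mem_O.mpr ⟨t, s, ht, ?_⟩
      show coeffMap A.subtype t *
        ((x : ↥(modularFunctionFieldBar N)) : LaurentSeries (AlgebraicClosure ℚ))⁻¹ =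
          coeffMap A.subtype s
      rw [← hst]
      field_simp
    exact IsUnit.of_mul_eq_one (⟨_, hinv⟩ : ga41_O N A) (Subtype.ext (mul_inv_cancel₀ hx0))

/-- The reduction map is surjective. -/
theorem ga41_red_surjective (hN : (N : IsLocalRing.ResidueField A) ≠ 0) :
    Function.Surjective (ga41_red N A hN) := by
  intro z
  obtain ⟨P, Q, hP, hQ, hPk, hQk, hQne, hzQ⟩ := re41_exists_lift (A := A) z.2
  have hQL : coeffMap A.subtype Q ≠ 0 := re41_ne_zero_of_residue_ne_zero hQne
  have hmem : ((⟨_, hP⟩ : ↥(modularFunctionFieldBar N)) / ⟨_, hQ⟩) ∈ ga41_O N A := by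
    refine ga41_mem_O.mpr ⟨Q, P, hQne, ?_⟩
    show coeffMap A.subtype Q * (coeffMap A.subtype P / coeffMap A.subtype Q) = coeffMap A.subtype P
    rw [mul_div_cancel₀ _ hQL]
  refine ⟨⟨_, hmem⟩, Subtype.ext ?_⟩
  rw [ga41_red_coe, ga41_redHom_eq (⟨_, hmem⟩ : ga41_O N A) (s := Q) (t := P) hQne
    (by
      show coeffMap A.subtype Q * (coeffMap A.subtype P / coeffMap A.subtype Q) =
        coeffMap A.subtype P
      rw [mul_div_cancel₀ _ hQL]), ← hzQ, mul_div_cancel_right₀ _ hQne]

/-- **The Gauss ring is a valuation ring of `F_L`.** -/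
theorem ga41_mem_or_inv_mem (hN : (N : IsLocalRing.ResidueField A) ≠ 0)
    (x : ↥(modularFunctionFieldBar N)) : x ∈ ga41_O N A ∨ x⁻¹ ∈ ga41_O N A := by
  by_cases hx : x = 0
  · left
    rw [hx]
    exact zero_mem _
  obtain ⟨a, b, c, hc, haL, hbL, hak, hbk, hane, hbne, hab, hiff⟩ :=
    ga41_normal_form N A hN x hx
  rcases A.mem_or_inv_mem c with hcA | hcA
  · exact Or.inl (hiff.mpr hcA)
  · right
    have hxL : (x : LaurentSeries (AlgebraicClosure ℚ)) ≠ 0 := fun h => hx (Subtype.ext h)
    have hcL : algebraMap (AlgebraicClosure ℚ) (LaurentSeries (AlgebraicClosure ℚ)) c ≠ 0 := by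
      rw [algebraMap_laurentSeries_eq_single]
      exact HahnSeries.single_ne_zero hc
    refine ga41_mem_O.mpr ⟨a, HahnSeries.single 0 (⟨c⁻¹, hcA⟩ : A) * b, hane, ?_⟩
    show coeffMap A.subtype a * (x : LaurentSeries (AlgebraicClosure ℚ))⁻¹ =
      coeffMap A.subtype (HahnSeries.single 0 (⟨c⁻¹, hcA⟩ : A) * b)
    have e : (HahnSeries.single 0 (A.subtype ⟨c⁻¹, hcA⟩) :
        LaurentSeries (AlgebraicClosure ℚ)) =
        (algebraMap (AlgebraicClosure ℚ) (LaurentSeries (AlgebraicClosure ℚ)) c)⁻¹ := by
      rw [← map_inv₀, algebraMap_laurentSeries_eq_single]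
      rfl
    rw [map_mul, coeffMap_single, e, eq_comm, inv_mul_eq_iff_eq_mul₀ hcL, ← mul_assoc, ← hab]
    field_simp

/-- The Gauss ring as a valuation subring of `F_L`. -/
noncomputable def ga41_V (hN : (N : IsLocalRing.ResidueField A) ≠ 0) :
    ValuationSubring ↥(modularFunctionFieldBar N) :=
  { ga41_O N A with mem_or_inv_mem' := ga41_mem_or_inv_mem N A hN }

theorem ga41_mem_V (hN : (N : IsLocalRing.ResidueField A) ≠ 0)
    (x : ↥(modularFunctionFieldBar N)) : x ∈ ga41_V N A hN ↔ x ∈ ga41_O N A := Iff.rfl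

/-- **Value group**: every nonzero element of `F_L` is a constant times a unit of the Gauss
ring. -/
theorem ga41_exists_unit (hN : (N : IsLocalRing.ResidueField A) ≠ 0)
    (x : ↥(modularFunctionFieldBar N)) (hx : x ≠ 0) :
    ∃ (c : AlgebraicClosure ℚ) (u : ga41_O N A), c ≠ 0 ∧ IsUnit u ∧
      x = algebraMap (AlgebraicClosure ℚ) ↥(modularFunctionFieldBar N) c * u := by
  obtain ⟨a, b, c, hc, haL, hbL, hak, hbk, hane, hbne, hab, -⟩ :=
    ga41_normal_form N A hN x hx
  have hbL0 : coeffMap A.subtype b ≠ 0 := re41_ne_zero_of_residue_ne_zero hbne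
  have hmem : ((⟨_, haL⟩ : ↥(modularFunctionFieldBar N)) / ⟨_, hbL⟩) ∈ ga41_O N A := by
    refine ga41_mem_O.mpr ⟨b, a, hbne, ?_⟩
    show coeffMap A.subtype b * (coeffMap A.subtype a / coeffMap A.subtype b) = coeffMap A.subtype a
    rw [mul_div_cancel₀ _ hbL0]
  refine ⟨c, ⟨_, hmem⟩, hc, ?_, ?_⟩
  · rw [ga41_isUnit_iff, ga41_redHom_eq (⟨_, hmem⟩ : ga41_O N A) (s := b) (t := a) hbne
      (by
        show coeffMap A.subtype b * (coeffMap A.subtype a / coeffMap A.subtype b) =
          coeffMap A.subtype a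
        rw [mul_div_cancel₀ _ hbL0])]
    exact div_ne_zero hane hbne
  · apply Subtype.ext
    show (x : LaurentSeries (AlgebraicClosure ℚ)) =
      algebraMap (AlgebraicClosure ℚ) (LaurentSeries (AlgebraicClosure ℚ)) c *
        (coeffMap A.subtype a / coeffMap A.subtype b)
    rw [← mul_div_assoc, ← hab, mul_div_cancel_right₀ _ hbL0]

omit [NeZero N] in
/-- Constants of `A` lie in the Gauss ring. -/
theorem ga41_algebraMap_mem (c : A) :
    algebraMap (AlgebraicClosure ℚ) ↥(modularFunctionFieldBar N) (c : AlgebraicClosure ℚ) ∈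
      ga41_O N A :=
  ga41_mem_O_of_integral (HahnSeries.single 0 c) (by
    rw [coeffMap_single]
    exact algebraMap_laurentSeries_eq_single _ _)

omit [NeZero N] in
/-- The reduction of a constant of `A` is its residue class. -/
theorem ga41_redHom_algebraMap (c : A) :
    ga41_redHom (⟨_, ga41_algebraMap_mem N A c⟩ : ga41_O N A) =
      algebraMap (IsLocalRing.ResidueField A) (LaurentSeries (IsLocalRing.ResidueField A))
        (IsLocalRing.residue A c) := by
  rw [ga41_redHom_integral _ (HahnSeries.single 0 c) (by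
    rw [coeffMap_single]
    exact algebraMap_laurentSeries_eq_single _ _), coeffMap_single,
    algebraMap_laurentSeries_eq_single]

end Main

end Fermat.Agent.S37
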