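import Fermat.Agent.S37.Chart44
import Fermat.Agent.S37.QExp46
import Fermat.Agent.S37.GaussRed41
import Fermat.Agent.S18.Haupt2R70
import Fermat.Agent.S18.Haupt3Mem_34
import Fermat.Agent.S18.Haupt3Mem53b
import Fermat.Agent.S18.ConstCap87

/-!
# S37, row NM-c-adapter (helper47): chart normality, `h`-charts to `j`-charts, at the A-level

`A` a valuation subring of `ℚ̄` with residue field `k`, `M` a level with `(M : k) ≠ 0`,
`O = ga41_O M A` the Gauss ring of `F = modularFunctionFieldBar M` and
`red = ga41_red M A hM : O →+* F_k` its reduction map (helper41).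

* `cci47_algebra M A : Algebra A (ga41_O M A)` (a definition, not an instance) and
  `cci47_x M A g hgF : ga41_O M A`, the chart coordinate with integer `q`-expansion `g`.
* `cci47_lifts_of_normalAt` : helper46's `ka46_NormalAt A.subtype (residue A) M g` (fraction
  form) implies helper44's `ch44_Lifts A red x_g` over `(A, O, red)`.
* `cci47_normalAt_of_lifts` : the converse (with denominator `s = 1`).
* `cci47_level2_j`, `cci47_level2_jinv`, `cci47_level3_j`, `cci47_level3_jinv` : chart normality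
  for `j` and `1/j` at level `M` from chart normality for the Hauptmodul `h` and `1/h`
  (`2 ∣ M` resp. `3 ∣ M`), everything in the `ka46_NormalAt` vocabulary.
* `cci47_surj_of_normalAt` : the `Algebra.adjoin` form over the Gauss ring.
-/

set_option autoImplicit false
set_option synthInstance.maxHeartbeats 400000
set_option linter.unusedSectionVars false
set_option linter.style.haveILetI false

open ModularCurve

namespace Fermat.Agent.S37

open Fermat.Agent.S18 Fermat.Agent.S28

local notation "Qb" => AlgebraicClosure ℚ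

section Generic

/-- Integrality along a ring hom can be tested after an injective ring hom. -/
theorem cci47_isIntegralElem_iff_of_injective {R S T : Type*} [CommRing R] [CommRing S]
    [CommRing T] (φ : R →+* S) (ι : S →+* T) (hι : Function.Injective ι) (x : S) :
    φ.IsIntegralElem x ↔ (ι.comp φ).IsIntegralElem (ι x) := by
  constructor
  · rintro ⟨p, hp, hpx⟩
    exact ⟨p, hp, by rw [← Polynomial.hom_eval₂, hpx, map_zero]⟩
  · rintro ⟨p, hp, hpx⟩
    refine ⟨p, hp, hι ?_⟩
    rw [Polynomial.hom_eval₂, hpx, map_zero]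

end Generic

section Adapter

variable (M : ℕ) [NeZero M] (A : ValuationSubring Qb)

/-- The structure map `A → ga41_O M A` (constants). -/
noncomputable def cci47_algHom : A →+* ga41_O M A :=
  ((algebraMap Qb ↥(modularFunctionFieldBar M)).comp A.subtype).codRestrict (ga41_O M A)
    (fun c => ga41_algebraMap_mem M A c)

/-- The `A`-algebra structure of the Gauss ring (a definition, not an instance). -/
@[reducible] noncomputable def cci47_algebra : Algebra A (ga41_O M A) :=
  (cci47_algHom M A).toAlgebra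

/-- The inclusion of the Gauss ring into `ℚ̄((q))`. -/
noncomputable def cci47_incl : ga41_O M A →+* LaurentSeries Qb :=
  (algebraMap ↥(modularFunctionFieldBar M) (LaurentSeries Qb)).comp (ga41_O M A).subtype

theorem cci47_incl_apply (f : ga41_O M A) :
    cci47_incl M A f = ((f : ↥(modularFunctionFieldBar M)) : LaurentSeries Qb) := rfl

theorem cci47_incl_injective : Function.Injective (cci47_incl M A) :=
  fun _ _ h => Subtype.ext (Subtype.ext h)

/-- The chart coordinate with integer `q`-expansion `g`, as an element of the Gauss ring. -/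
noncomputable def cci47_x (g : LaurentSeries ℤ) (hgF : ka46_g Qb g ∈ modularFunctionFieldBar M) :
    ga41_O M A :=
  ⟨⟨ka46_g Qb g, hgF⟩, ga41_mem_O_of_integral (ka46_g A g) (ka46_coeffMap_g A.subtype g).symm⟩

theorem cci47_incl_x (g : LaurentSeries ℤ) (hgF : ka46_g Qb g ∈ modularFunctionFieldBar M) :
    cci47_incl M A (cci47_x M A g hgF) = ka46_g Qb g := rfl

theorem cci47_redHom_x (g : LaurentSeries ℤ) (hgF : ka46_g Qb g ∈ modularFunctionFieldBar M) :
    ga41_redHom (cci47_x M A g hgF) = ka46_g (IsLocalRing.ResidueField A) g := by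
  rw [ga41_redHom_integral (cci47_x M A g hgF) (ka46_g A g) (ka46_coeffMap_g A.subtype g).symm,
    ka46_coeffMap_g]

/-- The chart `A[X] → O → ℚ̄((q))` is `ka46_ev A.subtype g`. -/
theorem cci47_incl_comp_aeval (g : LaurentSeries ℤ)
    (hgF : ka46_g Qb g ∈ modularFunctionFieldBar M) :
    letI := cci47_algebra M A
    (cci47_incl M A).comp ((Polynomial.aeval (cci47_x M A g hgF) :
      Polynomial A →ₐ[A] ga41_O M A) : Polynomial A →+* ga41_O M A) = ka46_ev A.subtype g := by
  letI := cci47_algebra M A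
  refine Polynomial.ringHom_ext (fun c => ?_) ?_
  · rw [RingHom.comp_apply, AlgHom.coe_toRingHom, Polynomial.aeval_C, ka46_ev_apply,
      Polynomial.eval₂_C, RingHom.comp_apply, HahnSeries.C_apply,
      ← algebraMap_laurentSeries_eq_single]
    rfl
  · rw [RingHom.comp_apply, AlgHom.coe_toRingHom, Polynomial.aeval_X, ka46_ev_apply,
      Polynomial.eval₂_X]
    rfl

/-- The reduced chart `A[X] → O → F_k → k((q))` is `ka46_ev (residue A) g`. -/
theorem cci47_red_comp_aeval (hM : (M : IsLocalRing.ResidueField A) ≠ 0) (g : LaurentSeries ℤ)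
    (hgF : ka46_g Qb g ∈ modularFunctionFieldBar M) :
    letI := cci47_algebra M A
    (algebraMap ↥(modularFunctionFieldFullC (IsLocalRing.ResidueField A) M)
        (LaurentSeries (IsLocalRing.ResidueField A))).comp
      ((ga41_red M A hM).comp ((Polynomial.aeval (cci47_x M A g hgF) :
        Polynomial A →ₐ[A] ga41_O M A) : Polynomial A →+* ga41_O M A)) =
      ka46_ev (IsLocalRing.residue A) g := by
  letI := cci47_algebra M A
  refine Polynomial.ringHom_ext (fun c => ?_) ?_
  · rw [RingHom.comp_apply, RingHom.comp_apply, AlgHom.coe_toRingHom, Polynomial.aeval_C,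
      ka46_ev_apply, Polynomial.eval₂_C, RingHom.comp_apply, HahnSeries.C_apply,
      ← algebraMap_laurentSeries_eq_single]
    exact ga41_redHom_algebraMap M A c
  · rw [RingHom.comp_apply, RingHom.comp_apply, AlgHom.coe_toRingHom, Polynomial.aeval_X,
      ka46_ev_apply, Polynomial.eval₂_X]
    exact cci47_redHom_x M A g hgF

omit [NeZero M] in
/-- Integrality over `k[ḡ]`: the coefficient ring may be `A` (through the residue map). -/
theorem cci47_isIntegralElem_res_iff (g : LaurentSeries ℤ)
    (z : LaurentSeries (IsLocalRing.ResidueField A)) :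
    (ka46_ev (IsLocalRing.residue A) g).IsIntegralElem z ↔
      (ka46_ev (RingHom.id (IsLocalRing.ResidueField A)) g).IsIntegralElem z := by
  constructor
  · exact ch44_isIntegralElem_of_range_le _ _
      (fun r => ⟨r.map (IsLocalRing.residue A), ka46_ev_id_map _ g r⟩)
  · refine ch44_isIntegralElem_of_range_le _ _ (fun r => ?_)
    obtain ⟨r', hr'⟩ := Polynomial.map_surjective _ IsLocalRing.residue_surjective r
    exact ⟨r', by rw [← hr', ka46_ev_id_map]⟩

/-- `ch44_Int` over the Gauss ring is integrality of the `q`-expansion over `A[g]`. -/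
theorem cci47_int_iff (g : LaurentSeries ℤ) (hgF : ka46_g Qb g ∈ modularFunctionFieldBar M)
    (f : ga41_O M A) :
    letI := cci47_algebra M A
    ch44_Int A (cci47_x M A g hgF) f ↔
      (ka46_ev A.subtype g).IsIntegralElem (cci47_incl M A f) := by
  letI := cci47_algebra M A
  rw [← cci47_incl_comp_aeval M A g hgF]
  exact cci47_isIntegralElem_iff_of_injective _ _ (cci47_incl_injective M A) f

/-- Integrality over the reduced chart is integrality of the `q`-expansion over `k[ḡ]`. -/
theorem cci47_redInt_iff (hM : (M : IsLocalRing.ResidueField A) ≠ 0) (g : LaurentSeries ℤ)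
    (hgF : ka46_g Qb g ∈ modularFunctionFieldBar M)
    (z : ↥(modularFunctionFieldFullC (IsLocalRing.ResidueField A) M)) :
    letI := cci47_algebra M A
    ((ga41_red M A hM).comp ((Polynomial.aeval (cci47_x M A g hgF) :
        Polynomial A →ₐ[A] ga41_O M A) : Polynomial A →+* ga41_O M A)).IsIntegralElem z ↔
      (ka46_ev (RingHom.id (IsLocalRing.ResidueField A)) g).IsIntegralElem
        (z : LaurentSeries (IsLocalRing.ResidueField A)) := by
  letI := cci47_algebra M A
  rw [← cci47_isIntegralElem_res_iff, ← cci47_red_comp_aeval M A hM g hgF]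
  exact cci47_isIntegralElem_iff_of_injective _
    (algebraMap ↥(modularFunctionFieldFullC (IsLocalRing.ResidueField A) M)
      (LaurentSeries (IsLocalRing.ResidueField A))) Subtype.val_injective z

/-- **Adapter (T1)**: chart normality in fraction form (`ka46_NormalAt`, helper46) implies
chart normality over the Gauss ring (`ch44_Lifts`, helper44). -/
theorem cci47_lifts_of_normalAt (hM : (M : IsLocalRing.ResidueField A) ≠ 0)
    (g : LaurentSeries ℤ) (hgF : ka46_g Qb g ∈ modularFunctionFieldBar M)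
    (hT : ∀ s : Polynomial (IsLocalRing.ResidueField A), s ≠ 0 →
      ka46_ev (RingHom.id (IsLocalRing.ResidueField A)) g s ≠ 0)
    (H : ka46_NormalAt A.subtype (IsLocalRing.residue A) M g) :
    letI := cci47_algebra M A
    ch44_Lifts A (ga41_red M A hM) (cci47_x M A g hgF) := by
  letI := cci47_algebra M A
  intro z hz
  have hz' := (cci47_redInt_iff M A hM g hgF z).mp hz
  obtain ⟨y, hyF, hyint, hyz⟩ := qx46_lift_of_normalAt A.subtype A.subtype_injective
    (IsLocalRing.residue A) M g (fun x hx hint => qx46_integral_expansion_A A M g x hx hint)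
    hT H z z.2 hz'
  have hyF' : coeffMap A.subtype y ∈ modularFunctionFieldBar M := by
    rw [ga41_bar_eq]
    exact hyF
  refine ⟨⟨⟨coeffMap A.subtype y, hyF'⟩, ga41_mem_O_of_integral y rfl⟩, ?_, ?_⟩
  · rw [cci47_int_iff]
    exact hyint
  · apply Subtype.ext
    rw [ga41_red_coe, ga41_redHom_integral _ y rfl, hyz]

/-- **Adapter (T2)**: chart normality over the Gauss ring (`ch44_Lifts`) implies chart normality
in fraction form (`ka46_NormalAt`), with denominator `s = 1`. -/
theorem cci47_normalAt_of_lifts (hM : (M : IsLocalRing.ResidueField A) ≠ 0)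
    (g : LaurentSeries ℤ) (hgF : ka46_g Qb g ∈ modularFunctionFieldBar M)
    (H : letI := cci47_algebra M A
      ch44_Lifts A (ga41_red M A hM) (cci47_x M A g hgF)) :
    ka46_NormalAt A.subtype (IsLocalRing.residue A) M g := by
  letI := cci47_algebra M A
  intro z hz hzint
  obtain ⟨f, hf, hfz⟩ := H ⟨z, hz⟩ ((cci47_redInt_iff M A hM g hgF ⟨z, hz⟩).mpr hzint)
  have hfint := (cci47_int_iff M A g hgF f).mp hf
  have hfF : cci47_incl M A f ∈ modularFunctionFieldFullC Qb M := by
    rw [← ga41_bar_eq]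
    exact (f : ↥(modularFunctionFieldBar M)).2
  obtain ⟨y, hy⟩ := qx46_integral_expansion_A A M g _ hfF hfint
  refine ⟨cci47_incl M A f, 1, y, hfF, hfint, ?_, ?_, ?_⟩
  · rw [Polynomial.map_one]
    exact one_ne_zero
  · rw [map_one, one_mul, hy]
  · rw [Polynomial.map_one, map_one, one_mul, ← ga41_redHom_integral f y hy.symm,
      ← ga41_red_coe M A hM, hfz]

end Adapter

section Series

variable (S : Type*) [CommRing S]

theorem cci47_g_h2 : ka46_g S (h70_h2 ℤ) = h70_h2 S := h70_coeffMap_h2 _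

theorem cci47_g_h2inv : ka46_g S (h70_h2inv ℤ) = h70_h2inv S := h70_coeffMap_h2inv _

theorem cci47_g_h3 : ka46_g S (h34_h3R ℤ) = h34_h3R S := h34_coeffMap_h3R _

theorem cci47_g_h3inv : ka46_g S (h34_h3Rinv ℤ) = h34_h3Rinv S := h34_coeffMap_h3Rinv _

theorem cci47_g_j : ka46_g S (jqModC ℤ) = jqModC S := coeffMap_jqModC _

theorem cci47_g_jinv : ka46_g S (h63_jInv ℤ) = h63_jInv S := h63_coeffMap_jInv _

/-- The transcendence hypothesis of `cci47_lifts_of_normalAt`, from `Transcendental`. -/
theorem cci47_hT (κ : Type*) [Field κ] (g : LaurentSeries ℤ)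
    (h : Transcendental κ (ka46_g κ g)) :
    ∀ s : Polynomial κ, s ≠ 0 → ka46_ev (RingHom.id κ) g s ≠ 0 := by
  intro s hs h0
  rw [qx46_ev_id_eq_aeval] at h0
  exact hs (transcendental_iff.mp h s h0)

theorem cci47_hT_h2 (κ : Type*) [Field κ] :
    ∀ s : Polynomial κ, s ≠ 0 → ka46_ev (RingHom.id κ) (h70_h2 ℤ) s ≠ 0 :=
  cci47_hT κ _ (by rw [cci47_g_h2]; exact h70_h2_transcendental κ)

theorem cci47_hT_h2inv (κ : Type*) [Field κ] :
    ∀ s : Polynomial κ, s ≠ 0 → ka46_ev (RingHom.id κ) (h70_h2inv ℤ) s ≠ 0 :=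
  cci47_hT κ _ (by
    rw [cci47_g_h2inv, h70_h2inv_eq_inv]
    exact cap87_transcendental_inv _ (h70_h2_transcendental κ))

theorem cci47_hT_h3 (κ : Type*) [Field κ] :
    ∀ s : Polynomial κ, s ≠ 0 → ka46_ev (RingHom.id κ) (h34_h3R ℤ) s ≠ 0 :=
  cci47_hT κ _ (by rw [cci47_g_h3]; exact h53m_h3R_transcendental κ)

theorem cci47_hT_h3inv (κ : Type*) [Field κ] :
    ∀ s : Polynomial κ, s ≠ 0 → ka46_ev (RingHom.id κ) (h34_h3Rinv ℤ) s ≠ 0 :=
  cci47_hT κ _ (by
    rw [cci47_g_h3inv, h34_h3Rinv_eq_inv]
    exact cap87_transcendental_inv _ (h53m_h3R_transcendental κ))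

end Series

section Levels

variable (M : ℕ) [NeZero M] (A : ValuationSubring Qb)

theorem cci47_j_mem : ka46_g Qb (jqModC ℤ) ∈ modularFunctionFieldBar M := by
  rw [cci47_g_j, ga41_bar_eq]
  exact jqModC_mem_full Qb M

theorem cci47_jinv_mem : ka46_g Qb (h63_jInv ℤ) ∈ modularFunctionFieldBar M := by
  rw [cci47_g_jinv, h63_jInv_eq_inv, ga41_bar_eq]
  exact inv_mem (jqModC_mem_full Qb M)

theorem cci47_h2_mem (h2 : 2 ∣ M) : ka46_g Qb (h70_h2 ℤ) ∈ modularFunctionFieldBar M := by
  rw [cci47_g_h2]
  exact h70_h2_mem_bar M h2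

theorem cci47_h2inv_mem (h2 : 2 ∣ M) : ka46_g Qb (h70_h2inv ℤ) ∈ modularFunctionFieldBar M := by
  rw [cci47_g_h2inv, h70_h2inv_eq_inv]
  exact inv_mem (h70_h2_mem_bar M h2)

theorem cci47_h3_mem (h3 : 3 ∣ M) : ka46_g Qb (h34_h3R ℤ) ∈ modularFunctionFieldBar M := by
  rw [cci47_g_h3]
  exact h34_h3R_mem_bar M h3

theorem cci47_h3inv_mem (h3 : 3 ∣ M) : ka46_g Qb (h34_h3Rinv ℤ) ∈ modularFunctionFieldBar M := by
  rw [cci47_g_h3inv, h34_h3Rinv_eq_inv]
  exact inv_mem (h34_h3R_mem_bar M h3)

/-- A prime-to-residue-characteristic natural number dividing the level is a unit of `A`. -/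
theorem cci47_isUnit_natCast (hM : (M : IsLocalRing.ResidueField A) ≠ 0) {p : ℕ} (hp : p ∣ M) :
    IsUnit ((p : ℕ) : A) := by
  rw [← IsLocalRing.residue_ne_zero_iff_isUnit, map_natCast]
  intro h
  obtain ⟨c, rfl⟩ := hp
  apply hM
  rw [Nat.cast_mul, h, zero_mul]

theorem cci47_isUnit_two (hM : (M : IsLocalRing.ResidueField A) ≠ 0) (h2 : 2 ∣ M) :
    IsUnit (2 : A) := by
  have := cci47_isUnit_natCast M A hM h2
  rwa [Nat.cast_ofNat] at this

theorem cci47_isUnit_three (hM : (M : IsLocalRing.ResidueField A) ≠ 0) (h3 : 3 ∣ M) :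
    IsUnit (3 : A) := by
  have := cci47_isUnit_natCast M A hM h3
  rwa [Nat.cast_ofNat] at this

/-- **Level 2, chart `j`**: chart normality for `j` at level `M` (`2 ∣ M`, `(M : k) ≠ 0`) from
chart normality for the Hauptmodul `h₂`. -/
theorem cci47_level2_j (h2 : 2 ∣ M) (hM : (M : IsLocalRing.ResidueField A) ≠ 0)
    (Hh : ka46_NormalAt A.subtype (IsLocalRing.residue A) M (h70_h2 ℤ)) :
    ka46_NormalAt A.subtype (IsLocalRing.residue A) M (jqModC ℤ) := by
  letI := cci47_algebra M A
  have hFh := cci47_h2_mem M h2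
  have hFs := cci47_h2inv_mem M h2
  refine cci47_normalAt_of_lifts M A hM (jqModC ℤ) (cci47_j_mem M) ?_
  refine ch44_level2_j (ga41_red M A hM) (cci47_isUnit_two M A hM h2)
    (h := cci47_x M A _ hFh) (s := cci47_x M A _ hFs) ?_ ?_
    (cci47_lifts_of_normalAt M A hM _ hFh (cci47_hT_h2 _) Hh)
  · apply cci47_incl_injective M A
    rw [map_mul, map_one, cci47_incl_x, cci47_incl_x, cci47_g_h2, cci47_g_h2inv]
    exact h70_h2_mul_h2inv Qb
  · apply cci47_incl_injective M A
    rw [map_mul, map_pow, map_pow, map_add, map_ofNat, cci47_incl_x, cci47_incl_x, cci47_g_j,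
      cci47_g_h2]
    exact h70_j_mul_h2_sq Qb

/-- **Level 2, chart `1/j`**: chart normality for `1/j` at level `M` (`2 ∣ M`, `(M : k) ≠ 0`)
from chart normality for the Hauptmodul `h₂` and for `1/h₂`. -/
theorem cci47_level2_jinv (h2 : 2 ∣ M) (hM : (M : IsLocalRing.ResidueField A) ≠ 0)
    (Hh : ka46_NormalAt A.subtype (IsLocalRing.residue A) M (h70_h2 ℤ))
    (Hs : ka46_NormalAt A.subtype (IsLocalRing.residue A) M (h70_h2inv ℤ)) :
    ka46_NormalAt A.subtype (IsLocalRing.residue A) M (h63_jInv ℤ) := by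
  letI := cci47_algebra M A
  have hFh := cci47_h2_mem M h2
  have hFs := cci47_h2inv_mem M h2
  refine cci47_normalAt_of_lifts M A hM (h63_jInv ℤ) (cci47_jinv_mem M) ?_
  refine ch44_level2_jinv (ga41_red M A hM) (cci47_isUnit_two M A hM h2)
    (j := cci47_x M A _ (cci47_j_mem M)) (h := cci47_x M A _ hFh) (s := cci47_x M A _ hFs)
    ?_ ?_ ?_
    (cci47_lifts_of_normalAt M A hM _ hFh (cci47_hT_h2 _) Hh)
    (cci47_lifts_of_normalAt M A hM _ hFs (cci47_hT_h2inv _) Hs)
  · apply cci47_incl_injective M A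
    rw [map_mul, map_one, cci47_incl_x, cci47_incl_x, cci47_g_h2, cci47_g_h2inv]
    exact h70_h2_mul_h2inv Qb
  · apply cci47_incl_injective M A
    rw [map_mul, map_one, cci47_incl_x, cci47_incl_x, cci47_g_j, cci47_g_jinv]
    exact h63_jqModC_mul_jInv Qb
  · apply cci47_incl_injective M A
    rw [map_mul, map_pow, map_pow, map_add, map_ofNat, cci47_incl_x, cci47_incl_x, cci47_g_j,
      cci47_g_h2]
    exact h70_j_mul_h2_sq Qb

/-- **Level 3, chart `j`**: chart normality for `j` at level `M` (`3 ∣ M`, `(M : k) ≠ 0`) from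
chart normality for the Hauptmodul `h₃`. -/
theorem cci47_level3_j (h3 : 3 ∣ M) (hM : (M : IsLocalRing.ResidueField A) ≠ 0)
    (Hh : ka46_NormalAt A.subtype (IsLocalRing.residue A) M (h34_h3R ℤ)) :
    ka46_NormalAt A.subtype (IsLocalRing.residue A) M (jqModC ℤ) := by
  letI := cci47_algebra M A
  have hFh := cci47_h3_mem M h3
  have hFs := cci47_h3inv_mem M h3
  refine cci47_normalAt_of_lifts M A hM (jqModC ℤ) (cci47_j_mem M) ?_
  refine ch44_level3_j (ga41_red M A hM) (cci47_isUnit_three M A hM h3)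
    (h := cci47_x M A _ hFh) (s := cci47_x M A _ hFs) ?_ ?_
    (cci47_lifts_of_normalAt M A hM _ hFh (cci47_hT_h3 _) Hh)
  · apply cci47_incl_injective M A
    rw [map_mul, map_one, cci47_incl_x, cci47_incl_x, cci47_g_h3, cci47_g_h3inv]
    exact h34_h3R_mul_inv Qb
  · apply cci47_incl_injective M A
    rw [map_mul, map_mul, map_pow, map_pow, map_add, map_add, map_ofNat, map_ofNat,
      cci47_incl_x, cci47_incl_x, cci47_g_j, cci47_g_h3]
    exact h34_h3R_j Qb

/-- **Level 3, chart `1/j`**: chart normality for `1/j` at level `M` (`3 ∣ M`, `(M : k) ≠ 0`)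
from chart normality for the Hauptmodul `h₃` and for `1/h₃`. -/
theorem cci47_level3_jinv (h3 : 3 ∣ M) (hM : (M : IsLocalRing.ResidueField A) ≠ 0)
    (Hh : ka46_NormalAt A.subtype (IsLocalRing.residue A) M (h34_h3R ℤ))
    (Hs : ka46_NormalAt A.subtype (IsLocalRing.residue A) M (h34_h3Rinv ℤ)) :
    ka46_NormalAt A.subtype (IsLocalRing.residue A) M (h63_jInv ℤ) := by
  letI := cci47_algebra M A
  have hFh := cci47_h3_mem M h3
  have hFs := cci47_h3inv_mem M h3
  refine cci47_normalAt_of_lifts M A hM (h63_jInv ℤ) (cci47_jinv_mem M) ?_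
  refine ch44_level3_jinv (ga41_red M A hM) (cci47_isUnit_three M A hM h3)
    (j := cci47_x M A _ (cci47_j_mem M)) (h := cci47_x M A _ hFh) (s := cci47_x M A _ hFs)
    ?_ ?_ ?_
    (cci47_lifts_of_normalAt M A hM _ hFh (cci47_hT_h3 _) Hh)
    (cci47_lifts_of_normalAt M A hM _ hFs (cci47_hT_h3inv _) Hs)
  · apply cci47_incl_injective M A
    rw [map_mul, map_one, cci47_incl_x, cci47_incl_x, cci47_g_h3, cci47_g_h3inv]
    exact h34_h3R_mul_inv Qb
  · apply cci47_incl_injective M A
    rw [map_mul, map_one, cci47_incl_x, cci47_incl_x, cci47_g_j, cci47_g_jinv]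
    exact h63_jqModC_mul_jInv Qb
  · apply cci47_incl_injective M A
    rw [map_mul, map_mul, map_pow, map_pow, map_add, map_add, map_ofNat, map_ofNat,
      cci47_incl_x, cci47_incl_x, cci47_g_j, cci47_g_h3]
    exact h34_h3R_j Qb

end Levels

end Fermat.Agent.S37
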