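import Mathlib

set_option autoImplicit false

/-!
# Root count in a residue class (Gauss lemma for roots)

`L` algebraically closed, `A` a valuation subring with residue map `res : A → k`.
For `p : A[X]` with nonzero reduction `p̄` and `γ : A`, the multiplicity of `res γ` as a root of
`p̄` equals the number of roots `α` of `p` (in `L`, with multiplicity) with `v (α - γ) < 1`.
-/

open Polynomial

namespace Fermat.Agent.S37

variable {L : Type*} [Field L] (A : ValuationSubring L)

/-- peeling a non-integral root: if `p = (1 - β X) * q` over `L`, `β ∈ A`, and `p` has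
coefficients in `A`, then so does `q`. -/
theorem h48_coeff_mem_of_one_sub_mul {β : L} (hβ : β ∈ A) (p q : L[X])
    (hpq : p = (C 1 - C β * X) * q) (hp : ∀ i, p.coeff i ∈ A) : ∀ i, q.coeff i ∈ A := by
  intro i
  induction i with
  | zero =>
    have h := hp 0
    rw [hpq] at h
    simpa [Polynomial.mul_coeff_zero] using h
  | succ j ih =>
    have h := hp (j + 1)
    have hc : p.coeff (j + 1) = q.coeff (j + 1) - β * q.coeff j := by
      rw [hpq, sub_mul, Polynomial.coeff_sub, Polynomial.coeff_C_mul, mul_assoc,
        Polynomial.coeff_C_mul, Polynomial.coeff_X_mul]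
      simp
    have : q.coeff (j + 1) = p.coeff (j + 1) + β * q.coeff j := by rw [hc]; ring
    rw [this]
    exact A.add_mem _ _ h (A.mul_mem _ _ hβ ih)

theorem h48_residue_eq_iff (a γ : A) :
    IsLocalRing.residue A γ = IsLocalRing.residue A a ↔ A.valuation ((a : L) - (γ : L)) < 1 := by
  have h1 : IsLocalRing.residue A γ = IsLocalRing.residue A a ↔
      a - γ ∈ IsLocalRing.maximalIdeal A := by
    rw [eq_comm]
    exact Ideal.Quotient.eq
  rw [h1, ValuationSubring.valuation_lt_one_iff]
  rfl

open Classical in
/-- **Gauss root count.** -/
theorem h48_rootMultiplicity_residue [IsAlgClosed L] (p : A[X])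
    (hp : p.map (IsLocalRing.residue A) ≠ 0) (γ : A) :
    (p.map (IsLocalRing.residue A)).rootMultiplicity (IsLocalRing.residue A γ) =
      Multiset.countP (fun α : L => A.valuation (α - (γ : L)) < 1) (p.map A.subtype).roots := by
  induction hn : p.natDegree using Nat.strong_induction_on generalizing p with
  | _ n ih =>
  have hp0 : p ≠ 0 := by
    rintro rfl
    exact hp (Polynomial.map_zero _)
  have hinj : Function.Injective A.subtype := Subtype.val_injective
  have hP0 : p.map A.subtype ≠ 0 := by
    intro h
    exact hp0 (Polynomial.map_injective _ hinj (by rw [h, Polynomial.map_zero]))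
  rcases Nat.eq_zero_or_pos n with h0 | hpos
  · -- constant polynomial
    have hpC : p = C (p.coeff 0) := Polynomial.eq_C_of_natDegree_eq_zero (hn.trans h0)
    rw [hpC, Polynomial.map_C, Polynomial.map_C, Polynomial.rootMultiplicity_C,
      Polynomial.roots_C]
    simp
  · -- positive degree: pick a root
    have hdeg : (p.map A.subtype).degree ≠ 0 := by
      intro h
      have := Polynomial.natDegree_eq_zero_iff_degree_le_zero.mpr h.le
      rw [Polynomial.natDegree_map_eq_of_injective hinj] at this
      omega
    obtain ⟨α, hα⟩ := IsAlgClosed.exists_root (p.map A.subtype) hdeg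
    by_cases hαA : α ∈ A
    · -- integral root
      set a : A := ⟨α, hαA⟩ with ha
      have hroot : p.IsRoot a := by
        have h1 : (p.map A.subtype).eval (A.subtype a) = A.subtype (p.eval a) := by
          rw [Polynomial.eval_map, Polynomial.eval₂_at_apply]
        have h2 : (p.map A.subtype).eval (A.subtype a) = 0 := hα
        rw [h1] at h2
        exact hinj (by rw [h2, map_zero])
      obtain ⟨p1, hp1⟩ := Polynomial.dvd_iff_isRoot.mpr hroot
      have hp1ne : p1 ≠ 0 := by
        rintro rfl
        exact hp0 (by rw [hp1, mul_zero])
      have hdeg1 : p1.natDegree < n := by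
        rw [← hn, hp1, Polynomial.natDegree_mul (Polynomial.X_sub_C_ne_zero a) hp1ne,
          Polynomial.natDegree_X_sub_C]
        omega
      have hmapres : p.map (IsLocalRing.residue A) =
          (X - C (IsLocalRing.residue A a)) * p1.map (IsLocalRing.residue A) := by
        rw [hp1, Polynomial.map_mul, Polynomial.map_sub, Polynomial.map_X, Polynomial.map_C]
      have hp1res : p1.map (IsLocalRing.residue A) ≠ 0 := by
        intro h
        exact hp (by rw [hmapres, h, mul_zero])
      have hmapL : p.map A.subtype = (X - C α) * p1.map A.subtype := by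
        rw [hp1, Polynomial.map_mul, Polynomial.map_sub, Polynomial.map_X, Polynomial.map_C]
        rfl
      have hIH := ih p1.natDegree hdeg1 p1 hp1res rfl
      rw [hmapres, Polynomial.rootMultiplicity_mul (by rw [← hmapres]; exact hp),
        Polynomial.rootMultiplicity_X_sub_C, hIH, hmapL,
        Polynomial.roots_mul (by rw [← hmapL]; exact hP0), Polynomial.roots_X_sub_C,
        Multiset.countP_add]
      congr 1
      have hiff := h48_residue_eq_iff A a γ
      by_cases hc : IsLocalRing.residue A γ = IsLocalRing.residue A a
      · rw [if_pos hc]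
        have : A.valuation (α - (γ : L)) < 1 := hiff.mp hc
        rw [← Multiset.cons_zero, Multiset.countP_cons, Multiset.countP_zero, if_pos this]
      · rw [if_neg hc]
        have : ¬ A.valuation (α - (γ : L)) < 1 := fun h => hc (hiff.mpr h)
        rw [← Multiset.cons_zero, Multiset.countP_cons, Multiset.countP_zero, if_neg this]
    · -- non-integral root
      have hα0 : α ≠ 0 := by
        rintro rfl
        exact hαA A.zero_mem
      have hβA : α⁻¹ ∈ A := (A.mem_or_inv_mem α).resolve_left hαA
      obtain ⟨P1, hP1⟩ := Polynomial.dvd_iff_isRoot.mpr hα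
      have hP1ne : P1 ≠ 0 := by
        rintro rfl
        exact hP0 (by rw [hP1, mul_zero])
      set Q2 : L[X] := C (-α) * P1 with hQ2
      have hfact : p.map A.subtype = (C 1 - C α⁻¹ * X) * Q2 := by
        rw [hP1, hQ2, ← mul_assoc]
        congr 1
        rw [sub_mul, ← C_mul, one_mul, mul_comm (C α⁻¹ * X), ← mul_assoc, ← C_mul,
          neg_mul, mul_inv_cancel₀ hα0, C_neg, C_neg, C_1]
        ring
      have hcoef : ∀ i, Q2.coeff i ∈ A :=
        h48_coeff_mem_of_one_sub_mul A hβA _ _ hfact (fun i => by
          rw [Polynomial.coeff_map]
          exact (p.coeff i).2)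
      have hlift : Q2 ∈ Polynomial.lifts A.subtype := by
        rw [Polynomial.lifts_iff_coeff_lifts]
        intro i
        exact ⟨⟨Q2.coeff i, hcoef i⟩, rfl⟩
      obtain ⟨q2, hq2⟩ := (Polynomial.mem_lifts _).mp hlift
      set b : A := ⟨α⁻¹, hβA⟩ with hb
      have hpfact : p = (C 1 - C b * X) * q2 := by
        apply Polynomial.map_injective _ hinj
        rw [hfact, Polynomial.map_mul, Polynomial.map_sub, Polynomial.map_mul, Polynomial.map_X,
          Polynomial.map_C, Polynomial.map_C, hq2, map_one]
        rfl
      have hbres : IsLocalRing.residue A b = 0 := by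
        rw [IsLocalRing.residue_eq_zero_iff, ValuationSubring.valuation_lt_one_iff]
        show A.valuation α⁻¹ < 1
        rw [map_inv₀]
        have h1 : 1 < A.valuation α := by
          by_contra h
          exact hαA ((A.valuation_le_one_iff α).mp (not_lt.mp h))
        exact inv_lt_one_of_one_lt₀ h1
      have hmapres : p.map (IsLocalRing.residue A) = q2.map (IsLocalRing.residue A) := by
        rw [hpfact, Polynomial.map_mul, Polynomial.map_sub, Polynomial.map_mul, Polynomial.map_X,
          Polynomial.map_C, Polynomial.map_C, hbres, map_one]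
        simp
      have hQ2ne : Q2 ≠ 0 := mul_ne_zero (by simpa using hα0) hP1ne
      have hdegQ : q2.natDegree < n := by
        have h1 : q2.natDegree = Q2.natDegree := by
          rw [← hq2, Polynomial.natDegree_map_eq_of_injective hinj]
        have h2 : Q2.natDegree = P1.natDegree := by
          rw [hQ2, Polynomial.natDegree_C_mul (by simpa using hα0)]
        have h3 : (p.map A.subtype).natDegree = 1 + P1.natDegree := by
          rw [hP1, Polynomial.natDegree_mul (Polynomial.X_sub_C_ne_zero α) hP1ne,
            Polynomial.natDegree_X_sub_C]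
        rw [Polynomial.natDegree_map_eq_of_injective hinj, hn] at h3
        omega
      have hIH := ih q2.natDegree hdegQ q2 (by rw [← hmapres]; exact hp) rfl
      have hnot : ¬ A.valuation (α - (γ : L)) < 1 := by
        intro h
        apply hαA
        have h1 : α - (γ : L) ∈ A := (A.valuation_le_one_iff _).mp h.le
        have : α = (α - (γ : L)) + γ := by ring
        rw [this]
        exact A.add_mem _ _ h1 γ.2
      have hroots : (p.map A.subtype).roots = {α} + Q2.roots := by
        rw [hP1, Polynomial.roots_mul (p := X - C α) (q := P1) (by rw [← hP1]; exact hP0),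
          Polynomial.roots_X_sub_C, hQ2, Polynomial.roots_C_mul _ (by simpa using hα0)]
      rw [hmapres, hIH, hq2, hroots, Multiset.countP_add, ← Multiset.cons_zero,
        Multiset.countP_cons, Multiset.countP_zero, if_neg hnot]
      simp

end Fermat.Agent.S37
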