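import Mathlib

/-!
# S37, row NM part (d) (helper62): descent of chart-normality along norms

Abstract form.  `C ⊆ C'` a finite extension of Dedekind domains (the integral closures of
`k[x̄]` in the function fields of level `N` and `N'`), `B ⊆ C` a subring over which `C` is
finite (the reductions of the integral functions of level `N`).  If the norm of every element
of `C'` lies in `B` and all residue fields of `C'` are covered by `B`, then `B = C`.
No Galois hypothesis, no separability hypothesis, no restriction on the degree.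
-/

set_option autoImplicit false

namespace Fermat.Agent.S37

open Ideal

section Local

variable {B C : Type*} [CommRing B] [CommRing C] [Algebra B C] [Module.Finite B C]

/-- **Nakayama, chart form.** If `C = B + 𝔪 C` for every maximal ideal `𝔪` of `B` and `C` is a
finite `B`-module, then `B → C` is surjective. -/
theorem nm62_surjective_of_local
    (h : ∀ m : Ideal B, m.IsMaximal → ∀ c : C, ∃ b : B,
      c - algebraMap B C b ∈ m.map (algebraMap B C)) :
    Function.Surjective (algebraMap B C) := by
  classical
  set N : Submodule B C := LinearMap.range (Algebra.linearMap B C) with hN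
  have hNb : ∀ b : B, algebraMap B C b ∈ N := fun b => ⟨b, rfl⟩
  by_contra hns
  have hI : Module.annihilator B (C ⧸ N) ≠ ⊤ := by
    intro hI
    apply hns
    intro c
    have h1 : (1 : B) ∈ Module.annihilator B (C ⧸ N) := by rw [hI]; trivial
    rw [Module.mem_annihilator] at h1
    have h2 := h1 (N.mkQ c)
    rw [one_smul, Submodule.mkQ_apply, Submodule.Quotient.mk_eq_zero] at h2
    obtain ⟨b, hb⟩ := h2
    exact ⟨b, hb⟩
  obtain ⟨m, hm, hIm⟩ := Ideal.exists_le_maximal _ hI
  have hfg : (⊤ : Submodule B (C ⧸ N)).FG := Module.Finite.fg_top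
  have hle : (⊤ : Submodule B (C ⧸ N)) ≤ m • ⊤ := by
    intro x _
    obtain ⟨c, rfl⟩ := N.mkQ_surjective x
    obtain ⟨b, hb⟩ := h m hm c
    have h1 : c - algebraMap B C b ∈ (m • ⊤ : Submodule B C) := by
      rw [Ideal.smul_top_eq_map]
      exact hb
    have h2 : N.mkQ (c - algebraMap B C b) ∈ (m • ⊤ : Submodule B (C ⧸ N)) := by
      have h3 := Submodule.mem_map_of_mem (f := N.mkQ) h1
      rw [Submodule.map_smul''] at h3
      exact Submodule.smul_mono le_rfl le_top h3
    have h3 : N.mkQ (algebraMap B C b) = 0 := by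
      rw [Submodule.mkQ_apply, Submodule.Quotient.mk_eq_zero]
      exact hNb b
    rw [map_sub, h3, sub_zero] at h2
    exact h2
  obtain ⟨r, hr1, hr2⟩ :=
    Submodule.exists_sub_one_mem_and_smul_eq_zero_of_fg_of_le_smul m ⊤ hfg hle
  have hrI : r ∈ Module.annihilator B (C ⧸ N) := by
    rw [Module.mem_annihilator]
    intro x
    exact hr2 x trivial
  have h1 : (1 : B) ∈ m := by
    have := m.sub_mem (hIm hrI) hr1
    simpa using this
  exact hm.ne_top ((Ideal.eq_top_iff_one m).mpr h1)

end Local

section RelNorm

variable {C C' : Type*} [CommRing C] [IsDedekindDomain C] [CommRing C'] [IsDedekindDomain C']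
  [Algebra C C'] [Module.Finite C C'] [Module.IsTorsionFree C C']

/-- If every residue field extension over the maximal ideal `P` is trivial, the relative norm
of every prime over `P` is `P` itself (no separability or Galois hypothesis). -/
theorem nm62_relNorm_eq (P : Ideal C) [hPmax : P.IsMaximal] (hP : P ≠ ⊥)
    (hres : ∀ Q : Ideal C', Q.IsPrime → Q.LiesOver P →
      ∀ c' : C', ∃ c : C, c' - algebraMap C C' c ∈ Q)
    (P' : Ideal C') [hP'prime : P'.IsPrime] [hover : P'.LiesOver P] :
    Ideal.relNorm C P' = P := by
  classical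
  have hint : Algebra.IsIntegral C C' := Algebra.IsIntegral.of_finite C C'
  -- exponents
  have hs : ∀ Q : P.primesOver C', ∃ s : ℕ, Ideal.relNorm C (Q : Ideal C') = P ^ s := fun Q =>
    Ideal.exists_relNorm_eq_pow_of_isPrime (Q : Ideal C') P
  choose s hs using hs
  have hs1 : ∀ Q : P.primesOver C', 1 ≤ s Q := by
    intro Q
    by_contra h
    have h0 : s Q = 0 := by omega
    have h1 := Ideal.relNorm_le_comap C (Q : Ideal C')
    rw [hs Q, h0, pow_zero, Ideal.one_eq_top, top_le_iff, Ideal.comap_eq_top_iff] at h1
    exact (Q.2.1).ne_top h1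
  -- inertia degrees are one
  have hf : ∀ Q : P.primesOver C', (Q : Ideal C').inertiaDeg C = 1 := by
    intro Q
    have hQmax : (Q : Ideal C').IsMaximal :=
      Ideal.IsMaximal.of_liesOver_isMaximal (Q : Ideal C') P
    rw [Ideal.inertiaDeg_eq_of_isMaximal P (Q : Ideal C')]
    let _ : Field (C ⧸ P) := Ideal.Quotient.field P
    rw [finrank_eq_one_iff_of_nonzero' (1 : C' ⧸ (Q : Ideal C')) one_ne_zero]
    intro w
    obtain ⟨c', rfl⟩ := Ideal.Quotient.mk_surjective w
    obtain ⟨c, hc⟩ := hres (Q : Ideal C') Q.2.1 Q.2.2 c'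
    refine ⟨Ideal.Quotient.mk P c, ?_⟩
    rw [Algebra.smul_def, mul_one]
    have : algebraMap (C ⧸ P) (C' ⧸ (Q : Ideal C')) (Ideal.Quotient.mk P c)
        = Ideal.Quotient.mk (Q : Ideal C') (algebraMap C C' c) := rfl
    rw [this]
    exact (Ideal.Quotient.eq.mpr hc).symm
  -- the two sums
  have hsum1 : ∑ Q : P.primesOver C', (Q : Ideal C').ramificationIdx C
      = Module.finrank C C' := by
    have := Ideal.sum_ramification_inertia_eq_finrank P C'
    simpa [hf] using this
  have hPunit : ¬ IsUnit P := by
    rw [Ideal.isUnit_iff]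
    exact hPmax.ne_top
  have hsum2 : ∑ Q : P.primesOver C', (Q : Ideal C').ramificationIdx C * s Q
      = Module.finrank C C' := by
    have h1 := Ideal.relNorm_algebraMap C' P
    rw [Ideal.map_algebraMap_eq_finsetProd_pow hP, map_prod, ← Finset.prod_set_coe] at h1
    simp only [map_pow, hs, ← pow_mul] at h1
    rw [Finset.prod_pow_eq_pow_sum] at h1
    have h2 := pow_injective_of_not_isUnit hPunit hP h1
    rw [← h2]
    exact Finset.sum_congr rfl (fun Q _ => mul_comm _ _)
  -- conclude
  have hle : ∀ Q : P.primesOver C', (Q : Ideal C').ramificationIdx C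
      ≤ (Q : Ideal C').ramificationIdx C * s Q := fun Q => Nat.le_mul_of_pos_right _ (hs1 Q)
  have heq := (Finset.sum_eq_sum_iff_of_le (fun Q _ => hle Q)).mp (hsum1.trans hsum2.symm)
  let Q0 : P.primesOver C' := ⟨P', hP'prime, hover⟩
  have h3 := heq Q0 (Finset.mem_univ _)
  have hpos : 0 < (Q0 : Ideal C').ramificationIdx C := Ideal.ramificationIdx_pos _ C
  have hs0 : s Q0 = 1 := by
    have : (Q0 : Ideal C').ramificationIdx C * 1 = (Q0 : Ideal C').ramificationIdx C * s Q0 := by
      rw [mul_one]
      exact h3
    exact (Nat.eq_of_mul_eq_mul_left hpos this).symm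
  have := hs Q0
  rw [hs0, pow_one] at this
  exact this

end RelNorm

section Main

variable {B C C' : Type*} [CommRing B] [CommRing C] [IsDedekindDomain C] [CommRing C']
  [IsDedekindDomain C'] [Algebra C C'] [Module.Finite C C'] [Module.IsTorsionFree C C']
  [Algebra B C] [Module.Finite B C]

/-- **Norm descent (NM (d)).** `C ⊆ C'` finite extension of Dedekind domains, `B → C` a finite
ring map.  If the norm of every element of `C'` comes from `B` and every residue field of `C'`
is covered by `B`, then `B → C` is surjective. -/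
theorem nm62_surjective_of_norm
    (hnorm : ∀ y : C', ∃ b : B, algebraMap B C b = Algebra.intNorm C C' y)
    (hres : ∀ P' : Ideal C', P'.IsMaximal → ∀ c' : C', ∃ b : B,
      c' - algebraMap C C' (algebraMap B C b) ∈ P') :
    Function.Surjective (algebraMap B C) := by
  classical
  have hintB : Algebra.IsIntegral B C := Algebra.IsIntegral.of_finite B C
  have hintC : Algebra.IsIntegral C C' := Algebra.IsIntegral.of_finite C C'
  apply nm62_surjective_of_local
  intro m hm c
  by_cases hker : RingHom.ker (algebraMap B C) ≤ m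
  · obtain ⟨P, hPmax, hPm⟩ := Ideal.exists_ideal_over_maximal_of_isIntegral (S := C) m hker
    have hker' : RingHom.ker (algebraMap C C') ≤ P := by
      rw [(RingHom.injective_iff_ker_eq_bot _).mp (FaithfulSMul.algebraMap_injective C C')]
      exact bot_le
    obtain ⟨P', hP'max, hP'P⟩ := Ideal.exists_ideal_over_maximal_of_isIntegral (S := C') P hker'
    obtain ⟨b, hb⟩ := hres P' hP'max (algebraMap C C' c)
    have hcb : c - algebraMap B C b ∈ P := by
      rw [← hP'P, Ideal.mem_comap, map_sub]
      exact hb
    refine ⟨b, ?_⟩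
    by_cases hP0 : P = ⊥
    · rw [hP0, Ideal.mem_bot] at hcb
      rw [hcb]
      exact zero_mem _
    · have hlo : P'.LiesOver P := ⟨hP'P.symm⟩
      have hP'prime : P'.IsPrime := hP'max.isPrime
      have hrel : Ideal.relNorm C P' = P := by
        refine nm62_relNorm_eq P hP0 (fun Q hQ hQP c' => ?_) P'
        have hQmax : Q.IsMaximal := Ideal.IsMaximal.of_liesOver_isMaximal Q P
        obtain ⟨b', hb'⟩ := hres Q hQmax c'
        exact ⟨algebraMap B C b', hb'⟩
      have hle : P ≤ m.map (algebraMap B C) := by
        rw [← hrel, ← Ideal.spanNorm_eq, Ideal.spanNorm, Ideal.map, Ideal.span_le]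
        rintro _ ⟨y, hy, rfl⟩
        obtain ⟨b', hb'⟩ := hnorm y
        have h1 : Algebra.intNorm C C' y ∈ P := by
          have h2 := Ideal.relNorm_le_comap C P'
            (by rw [← Ideal.spanNorm_eq]; exact Ideal.intNorm_mem_spanNorm C hy)
          rw [hP'P] at h2
          exact h2
        rw [SetLike.mem_coe, ← hb']
        apply Ideal.mem_map_of_mem
        rw [← hPm, Ideal.mem_comap, hb']
        exact h1
      exact hle hcb
  · obtain ⟨b, hbker, hbm⟩ := Set.not_subset.mp hker
    obtain ⟨y, i, hi, hyi⟩ := hm.exists_inv hbm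
    have h1 : (1 : C) ∈ m.map (algebraMap B C) := by
      have h2 : algebraMap B C (y * b + i) = algebraMap B C i := by
        rw [map_add, map_mul, (RingHom.mem_ker).mp hbker, mul_zero, zero_add]
      rw [hyi, map_one] at h2
      rw [h2]
      exact Ideal.mem_map_of_mem _ hi
    refine ⟨0, ?_⟩
    rw [(Ideal.eq_top_iff_one _).mpr h1]
    trivial

end Main

end Fermat.Agent.S37
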