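import Mathlib
import Fermat.Agent.S37.ChartDefs48
import Fermat.Agent.S37.GaussRoots48
import Fermat.Agent.S37.NormDescent62

/-!
# S37, row RC (helper48): the conservation theorem in chart form

See `ChartDefs48.lean` for the setting (`h48_Chart`, `h48_Red`, `h48_xv`).
-/

set_option autoImplicit false
set_option linter.unusedSectionVars false

namespace Fermat.Agent.S37

open Polynomial UniqueFactorizationMonoid

section Points

variable {K : Type*} [Field K] [IsAlgClosed K] {B : Type*} [CommRing B] [Algebra K[X] B]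

/-- A maximal ideal of `K[X]`, `K` algebraically closed, contains some `X - α`. -/
theorem h48_exists_root_of_isMaximal (p : Ideal K[X]) (hp : p.IsMaximal) :
    ∃ α : K, X - C α ∈ p := by
  have hne : p ≠ ⊥ := Ring.ne_bot_of_isMaximal_of_not_isField hp (Polynomial.not_isField K)
  obtain ⟨f, hfp, hf0⟩ := Submodule.exists_mem_ne_zero_of_ne_bot hne
  have hsplit := IsAlgClosed.splits f
  have hprod := hsplit.eq_prod_roots
  rw [hprod] at hfp
  rcases hp.isPrime.mem_or_mem hfp with h1 | h1
  · exfalso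
    apply hp.ne_top
    rw [Ideal.eq_top_iff_one]
    have h2 := p.mul_mem_left (C (f.leadingCoeff)⁻¹) h1
    rwa [← C_mul, inv_mul_cancel₀ (leadingCoeff_ne_zero.mpr hf0), C_1] at h2
  · obtain ⟨q, hq, hqp⟩ := (hp.isPrime.multiset_prod_mem_iff_exists_mem _).mp h1
    obtain ⟨α, -, rfl⟩ := Multiset.mem_map.mp hq
    exact ⟨α, hqp⟩

variable [Algebra.IsIntegral K[X] B]

theorem h48_exists_xv (P : Ideal B) (hP : P.IsMaximal) :
    ∃ α : K, algebraMap K[X] B (X - C α) ∈ P := by
  have h1 : (P.comap (algebraMap K[X] B)).IsMaximal :=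
    Ideal.isMaximal_comap_of_isIntegral_of_isMaximal P
  obtain ⟨α, hα⟩ := h48_exists_root_of_isMaximal _ h1
  exact ⟨α, hα⟩

theorem h48_xv_mem (P : Ideal B) (hP : P.IsMaximal) :
    algebraMap K[X] B (X - C (h48_xv P : K)) ∈ P :=
  h48_xv_spec (h48_exists_xv (K := K) P hP)

/-- The residue field of a maximal ideal is `K`. -/
theorem h48_exists_const (P : Ideal B) (hP : P.IsMaximal) (b : B) :
    ∃ β : K, b - algebraMap K[X] B (C β) ∈ P := by
  have hα := h48_xv_mem (K := K) P hP
  set α : K := h48_xv P with hαdef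
  let f : K[X] →+* B ⧸ P := (Ideal.Quotient.mk P).comp (algebraMap K[X] B)
  let g : K →+* B ⧸ P := f.comp C
  have hfg : f = g.comp (evalRingHom α) := by
    refine Polynomial.ringHom_ext (fun a => ?_) ?_
    · simp [g]
    · have h1 : f X = f (C α) := by
        have h2 : f (X - C α) = 0 := Ideal.Quotient.eq_zero_iff_mem.mpr hα
        rw [map_sub, sub_eq_zero] at h2
        exact h2
      rw [h1]
      simp [g]
  have : P.IsPrime := hP.isPrime
  have hg : g.IsIntegral := by
    intro y
    obtain ⟨b', rfl⟩ := Ideal.Quotient.mk_surjective y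
    obtain ⟨q, hq, hqb⟩ := Algebra.IsIntegral.isIntegral (R := K[X]) b'
    refine ⟨q.map (evalRingHom α), hq.map _, ?_⟩
    rw [eval₂_map, ← hfg]
    have h3 : eval₂ f (Ideal.Quotient.mk P b') q
        = Ideal.Quotient.mk P (eval₂ (algebraMap K[X] B) b' q) := by
      rw [hom_eval₂]
    rw [h3, hqb, map_zero]
  obtain ⟨β, hβ⟩ := (IsAlgClosed.ringHom_bijective_of_isIntegral g hg).2 (Ideal.Quotient.mk P b)
  refine ⟨β, ?_⟩
  rw [← Ideal.Quotient.eq_zero_iff_mem, map_sub, sub_eq_zero]
  exact hβ.symm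

end Points

section Roots

variable {K : Type*} [Field K] [IsAlgClosed K] {B : Type*} [CommRing B] [IsDedekindDomain B]
  [Algebra K[X] B] [Module.Finite K[X] B] [Module.IsTorsionFree K[X] B]

omit [IsAlgClosed K] in
theorem h48_algebraMap_injective : Function.Injective (algebraMap K[X] B) :=
  FaithfulSMul.algebraMap_injective K[X] B

variable (K) in
include K in
theorem h48_ne_bot_of_isMaximal (P : Ideal B) (hP : P.IsMaximal) : P ≠ ⊥ := by
  intro h
  have h1 := h48_xv_mem (K := K) P hP
  rw [h, Ideal.mem_bot] at h1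
  have h2 := h48_algebraMap_injective (K := K) (B := B) (h1.trans (map_zero _).symm)
  exact X_sub_C_ne_zero _ h2

/-- The relative norm of a maximal ideal is the ideal of its `X`-coordinate. -/
theorem h48_relNorm_eq (P : Ideal B) (hP : P.IsMaximal) :
    Ideal.relNorm K[X] P = Ideal.span {X - C (h48_xv P : K)} := by
  set α : K := h48_xv P with hα
  set p : Ideal K[X] := Ideal.span {X - C α} with hp
  have hpmax : p.IsMaximal :=
    PrincipalIdealRing.isMaximal_of_irreducible (irreducible_X_sub_C α)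
  have hpne : p ≠ ⊥ := by
    rw [hp, Ne, Ideal.span_singleton_eq_bot]
    exact X_sub_C_ne_zero α
  have hcomap : (P.comap (algebraMap K[X] B)).IsMaximal :=
    Ideal.isMaximal_comap_of_isIntegral_of_isMaximal P
  have hle : p ≤ P.comap (algebraMap K[X] B) := by
    rw [hp, Ideal.span_singleton_le_iff_mem]
    exact h48_xv_mem (K := K) P hP
  have heq : p = P.comap (algebraMap K[X] B) := hpmax.eq_of_le hcomap.ne_top hle
  have hover : P.LiesOver p := ⟨heq⟩
  have hPprime : P.IsPrime := hP.isPrime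
  refine nm62_relNorm_eq p hpne ?_ P
  intro Q hQ hQover c'
  have hQmax : Q.IsMaximal := Ideal.IsMaximal.of_liesOver_isMaximal Q p
  obtain ⟨β, hβ⟩ := h48_exists_const (K := K) Q hQmax c'
  exact ⟨C β, hβ⟩

/-- The roots of the norm of `b` are the `X`-coordinates of the prime factors of `(b)`. -/
theorem h48_roots_norm (b : B) (hb : b ≠ 0) :
    (Algebra.norm K[X] b).roots = (normalizedFactors (Ideal.span {b})).map h48_xv := by
  classical
  set s := normalizedFactors (Ideal.span {b}) with hs
  have hspan : Ideal.span {b} ≠ ⊥ := by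
    rw [Ne, Ideal.span_singleton_eq_bot]
    exact hb
  have hprod : s.prod = Ideal.span {b} := Ideal.prod_normalizedFactors_eq_self hspan
  have hmax : ∀ P ∈ s, P.IsMaximal := by
    intro P hP
    have h1 : Prime P := prime_of_normalized_factor P hP
    exact (Ideal.isPrime_of_prime h1).isMaximal h1.ne_zero
  have h1 : Ideal.relNorm K[X] (Ideal.span {b}) = Ideal.span {Algebra.norm K[X] b} := by
    rw [Ideal.relNorm_singleton, Algebra.intNorm_eq_norm]
  have h2 : Ideal.relNorm K[X] s.prod
      = Ideal.span {((s.map (h48_xv (K := K))).map (fun a => X - C a)).prod} := by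
    rw [map_multiset_prod, Multiset.map_map, ← Ideal.multiset_prod_span_singleton,
      Multiset.map_map]
    congr 1
    refine Multiset.map_congr rfl (fun P hP => ?_)
    exact h48_relNorm_eq P (hmax P hP)
  rw [hprod, h1, Ideal.span_singleton_eq_span_singleton] at h2
  obtain ⟨u, hu⟩ := h2
  obtain ⟨c, hc, hcu⟩ := Polynomial.isUnit_iff.mp u.isUnit
  have h3 : ((s.map (h48_xv (K := K))).map (fun a => X - C a)).prod
      = C c * Algebra.norm K[X] b := by
    rw [← hu, hcu, mul_comm]
  have h4 := Polynomial.roots_multiset_prod_X_sub_C (s.map (h48_xv (K := K)))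
  rw [h3, roots_C_mul _ hc.ne_zero] at h4
  exact h4

end Roots

section Aux

theorem h48_countP_le {α : Type*} (s : Multiset α) (p q : α → Prop) [DecidablePred p]
    [DecidablePred q] (h : ∀ x ∈ s, p x → q x) : Multiset.countP p s ≤ Multiset.countP q s := by
  induction s using Multiset.induction_on with
  | empty => simp
  | cons a s ih =>
    rw [Multiset.countP_cons, Multiset.countP_cons]
    have h1 := ih (fun x hx => h x (Multiset.mem_cons_of_mem hx))
    have h2 := h a (Multiset.mem_cons_self a s)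
    by_cases h3 : p a
    · rw [if_pos h3, if_pos (h2 h3)]
      omega
    · rw [if_neg h3]
      split_ifs <;> omega

theorem h48_prod_mem_prod {R : Type*} [CommRing R] (s : Multiset (Ideal R)) (f : Ideal R → R)
    (h : ∀ I ∈ s, f I ∈ I) : (s.map f).prod ∈ s.prod := by
  induction s using Multiset.induction_on with
  | empty => simp
  | cons a s ih =>
    rw [Multiset.map_cons, Multiset.prod_cons, Multiset.prod_cons]
    exact Ideal.mul_mem_mul (h a (Multiset.mem_cons_self a s))
      (ih (fun I hI => h I (Multiset.mem_cons_of_mem hI)))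

/-- A uniformiser at `Q` that is a unit at finitely many other maximal ideals. -/
theorem h48_exists_unif {R : Type*} [CommRing R] [IsDedekindDomain R] (Q : Ideal R)
    (hQ : Q.IsMaximal) (hQ0 : Q ≠ ⊥) (T : Finset (Ideal R)) (hT : ∀ Q' ∈ T, Q'.IsMaximal) :
    ∃ t : R, t ∈ Q ∧ t ∉ Q ^ 2 ∧ ∀ Q' ∈ T, Q' ≠ Q → t ∉ Q' := by
  classical
  have hanti := Ideal.pow_right_strictAnti Q hQ0 hQ.ne_top
  have hlt : Q ^ 2 < Q ^ 1 := hanti (by norm_num)
  obtain ⟨u, hu1, hu2⟩ := SetLike.exists_of_lt hlt
  rw [pow_one] at hu1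
  have hnf : ¬ IsField R :=
    Ring.not_isField_iff_exists_ideal_bot_lt_and_lt_top.mpr
      ⟨Q, bot_lt_iff_ne_bot.mpr hQ0, lt_top_iff_ne_top.mpr hQ.ne_top⟩
  have hprime : ∀ I ∈ insert Q T, Prime I := by
    intro I hI
    have hImax : I.IsMaximal := by
      rcases Finset.mem_insert.mp hI with rfl | h
      · exact hQ
      · exact hT I h
    exact Ideal.prime_of_isPrime (Ring.ne_bot_of_isMaximal_of_not_isField hImax hnf)
      hImax.isPrime
  obtain ⟨y, hy⟩ := IsDedekindDomain.exists_forall_sub_mem_ideal (s := insert Q T)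
    (fun I => I) (fun I => if I = Q then 2 else 1) hprime (fun i _ j _ hij => hij)
    (fun i => if (i : Ideal R) = Q then u else 1)
  have hyQ := hy Q (Finset.mem_insert_self Q T)
  simp only [if_true] at hyQ
  refine ⟨y, ?_, ?_, ?_⟩
  · have h1 : y - u ∈ Q := Ideal.pow_le_self (by norm_num) hyQ
    simpa using Q.add_mem h1 hu1
  · intro h1
    apply hu2
    have h2 := (Q ^ 2).sub_mem h1 hyQ
    simpa using h2
  · intro Q' hQ' hne h1
    have h2 := hy Q' (Finset.mem_insert_of_mem hQ')
    simp only [if_neg hne, pow_one] at h2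
    apply (hT Q' hQ').ne_top
    rw [Ideal.eq_top_iff_one]
    simpa using Q'.sub_mem h1 h2

theorem h48_countP_eq_sum_count {α : Type*} [DecidableEq α] (s : Multiset α) (p : α → Prop)
    [DecidablePred p] (T : Finset α) (h1 : ∀ x ∈ s, p x → x ∈ T) (h2 : ∀ x ∈ T, p x) :
    Multiset.countP p s = ∑ x ∈ T, Multiset.count x s := by
  induction s using Multiset.induction_on with
  | empty => simp
  | cons a s ih =>
    have ih' := ih (fun x hx => h1 x (Multiset.mem_cons_of_mem hx))
    rw [Multiset.countP_cons, ih']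
    have h3 : ∀ x ∈ T, Multiset.count x (a ::ₘ s)
        = Multiset.count x s + if x = a then 1 else 0 := by
      intro x _
      rw [Multiset.count_cons]
    rw [Finset.sum_congr rfl h3, Finset.sum_add_distrib, Finset.sum_ite_eq' T a]
    congr 1
    by_cases ha : p a
    · rw [if_pos ha, if_pos (h1 a (Multiset.mem_cons_self a s) ha)]
    · rw [if_neg ha, if_neg (fun haT => ha (h2 a haT))]

theorem h48_countP_eq_sum_countP {α β : Type*} (s : Multiset β) (q : β → Prop)
    [DecidablePred q] (R : β → α → Prop) [∀ x, DecidablePred (fun y => R y x)]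
    [∀ y, DecidablePred (R y)] (T : Finset α)
    (h1 : ∀ y ∈ s, q y ↔ ∃ x ∈ T, R y x)
    (h2 : ∀ y ∈ s, ∀ x ∈ T, ∀ x' ∈ T, R y x → R y x' → x = x') :
    Multiset.countP q s = ∑ x ∈ T, Multiset.countP (fun y => R y x) s := by
  induction s using Multiset.induction_on with
  | empty => simp
  | cons a s ih =>
    have ih' := ih (fun y hy => h1 y (Multiset.mem_cons_of_mem hy))
      (fun y hy => h2 y (Multiset.mem_cons_of_mem hy))
    rw [Multiset.countP_cons, ih']
    have h3 : ∀ x ∈ T, Multiset.countP (fun y => R y x) (a ::ₘ s)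
        = Multiset.countP (fun y => R y x) s + if R a x then 1 else 0 := by
      intro x _
      rw [Multiset.countP_cons]
    rw [Finset.sum_congr rfl h3, Finset.sum_add_distrib]
    congr 1
    rw [← Finset.card_filter]
    have ha := h1 a (Multiset.mem_cons_self a s)
    have hu := h2 a (Multiset.mem_cons_self a s)
    by_cases hq : q a
    · rw [if_pos hq]
      obtain ⟨x, hxT, hx⟩ := ha.mp hq
      symm
      rw [Finset.card_eq_one]
      refine ⟨x, ?_⟩
      ext x'
      rw [Finset.mem_filter, Finset.mem_singleton]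
      constructor
      · rintro ⟨hx'T, hx'⟩
        exact hu x' hx'T x hxT hx' hx
      · rintro rfl
        exact ⟨hxT, hx⟩
    · rw [if_neg hq]
      symm
      rw [Finset.card_eq_zero, Finset.filter_eq_empty_iff]
      intro x hxT hx
      exact hq (ha.mpr ⟨x, hxT, hx⟩)

end Aux

section Chart

variable {L : Type*} [Field L] [IsAlgClosed L] {A : ValuationSubring L}
  [IsAlgClosed (IsLocalRing.ResidueField A)]
variable {B : Type*} [CommRing B] [IsDedekindDomain B] [Algebra L[X] B]
  [Module.Finite L[X] B] [Module.IsTorsionFree L[X] B]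
variable {Bk : Type*} [CommRing Bk] [IsDedekindDomain Bk]
  [Algebra (IsLocalRing.ResidueField A)[X] Bk]
  [Module.Finite (IsLocalRing.ResidueField A)[X] Bk]
  [Module.IsTorsionFree (IsLocalRing.ResidueField A)[X] Bk]
variable {BA : Subring B} {ρ : BA →+* Bk}

local notation "k" => IsLocalRing.ResidueField A
local notation "res" => IsLocalRing.residue A

omit [IsAlgClosed L] [IsAlgClosed (IsLocalRing.ResidueField A)] in
theorem h48_residue_inv_eq_zero {x : L} (hx : x ∉ A) (hc : x⁻¹ ∈ A) :
    res (⟨x⁻¹, hc⟩ : A) = 0 := by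
  rw [IsLocalRing.residue_eq_zero_iff, IsLocalRing.mem_maximalIdeal, mem_nonunits_iff]
  intro hu
  obtain ⟨d, hd⟩ := hu.exists_right_inv
  apply hx
  have hx0 : x ≠ 0 := fun h0 => hx (h0 ▸ A.zero_mem)
  have h1 : x⁻¹ * (d : L) = 1 := congrArg Subtype.val hd
  have h2 : (d : L) = x := by
    field_simp at h1
    exact h1
  exact h2 ▸ d.2

/-- The element of `BA` given by a polynomial over `A`. -/
noncomputable def h48_polyBA (h : h48_Chart A BA ρ) (p : A[X]) : BA :=
  ⟨algebraMap L[X] B (p.map A.subtype), h.poly_mem p⟩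

omit [IsAlgClosed L] [IsAlgClosed (IsLocalRing.ResidueField A)] [IsDedekindDomain B]
  [Module.Finite L[X] B] [Module.IsTorsionFree L[X] B] [IsDedekindDomain Bk]
  [Module.Finite (IsLocalRing.ResidueField A)[X] Bk]
  [Module.IsTorsionFree (IsLocalRing.ResidueField A)[X] Bk] in
theorem h48_coe_polyBA (h : h48_Chart A BA ρ) (p : A[X]) :
    ((h48_polyBA h p : BA) : B) = algebraMap L[X] B (p.map A.subtype) := rfl

omit [IsAlgClosed L] [IsAlgClosed (IsLocalRing.ResidueField A)] [IsDedekindDomain B]
  [Module.Finite L[X] B] [Module.IsTorsionFree L[X] B] [IsDedekindDomain Bk]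
  [Module.Finite (IsLocalRing.ResidueField A)[X] Bk]
  [Module.IsTorsionFree (IsLocalRing.ResidueField A)[X] Bk] in
theorem h48_rho_polyBA (h : h48_Chart A BA ρ) (p : A[X]) :
    ρ (h48_polyBA h p) = algebraMap k[X] Bk (p.map res) := h.rho_poly p

omit [IsAlgClosed (IsLocalRing.ResidueField A)] [IsDedekindDomain Bk]
  [Module.Finite (IsLocalRing.ResidueField A)[X] Bk]
  [Module.IsTorsionFree (IsLocalRing.ResidueField A)[X] Bk] in
/-- If the integral function `g ≠ 0` vanishes at the tube point `P`, the reduction of its norm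
vanishes at the class of `P`. -/
theorem h48_norm_isRoot {P : Ideal B} (hP : P.IsMaximal) {α : A}
    (hα : (h48_xv P : L) = α) (g : BA) (hg0 : (g : B) ≠ 0) (hgP : (g : B) ∈ P) (p : A[X])
    (hp : Algebra.norm L[X] (g : B) = p.map A.subtype) : (p.map res).IsRoot (res α) := by
  have hspan : Ideal.span {(g : B)} ≠ ⊥ := by
    rw [Ne, Ideal.span_singleton_eq_bot]
    exact hg0
  have hmem : P ∈ normalizedFactors (Ideal.span {(g : B)}) :=
    (Ideal.mem_normalizedFactors_iff hspan).mpr
      ⟨hP.isPrime, (Ideal.span_singleton_le_iff_mem _).mpr hgP⟩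
  have h1 : (h48_xv P : L) ∈ (Algebra.norm L[X] (g : B)).roots := by
    rw [h48_roots_norm (K := L) (g : B) hg0]
    exact Multiset.mem_map_of_mem _ hmem
  rw [hp, hα] at h1
  have h2 : (p.map A.subtype).eval (A.subtype α) = 0 := (mem_roots'.mp h1).2
  rw [eval_map, eval₂_at_apply] at h2
  have h3 : p.eval α = 0 := Subtype.ext h2
  rw [IsRoot.def, eval_map, eval₂_at_apply, h3, map_zero]

/-- **Values of integral functions at tube points are integral.** -/
theorem h48_value (h : h48_Chart A BA ρ) {P : Ideal B} (hP : P.IsMaximal) {α : A}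
    (hα : (h48_xv P : L) = α) (b : BA) :
    ∃ β : A, (b : B) - algebraMap L[X] B (C (β : L)) ∈ P := by
  obtain ⟨β₀, hβ₀⟩ := h48_exists_const (K := L) P hP (b : B)
  by_cases hmem : β₀ ∈ A
  · exact ⟨⟨β₀, hmem⟩, hβ₀⟩
  exfalso
  have hβ0 : β₀ ≠ 0 := fun h0 => hmem (h0 ▸ A.zero_mem)
  have hc : β₀⁻¹ ∈ A := (A.mem_or_inv_mem β₀).resolve_left hmem
  have hres : res (⟨β₀⁻¹, hc⟩ : A) = 0 := h48_residue_inv_eq_zero hmem hc
  set g : BA := 1 - h48_polyBA h (C ⟨β₀⁻¹, hc⟩) * b with hg
  have hgcoe : (g : B) = 1 - algebraMap L[X] B (C (β₀⁻¹)) * (b : B) := by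
    rw [hg]
    push_cast
    rw [h48_coe_polyBA, Polynomial.map_C]
    rfl
  have hgP : (g : B) ∈ P := by
    have h1 : (g : B)
        = - (algebraMap L[X] B (C β₀⁻¹) * ((b : B) - algebraMap L[X] B (C β₀))) := by
      rw [hgcoe, mul_sub, ← map_mul (algebraMap L[X] B) (C β₀⁻¹) (C β₀), ← C_mul,
        inv_mul_cancel₀ hβ0, C_1, map_one]
      ring
    rw [h1]
    exact P.neg_mem (P.mul_mem_left _ hβ₀)
  have hρg : ρ g = 1 := by
    rw [hg, map_sub, map_one, map_mul, h48_rho_polyBA, Polynomial.map_C, hres, C_0, map_zero,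
      zero_mul, sub_zero]
  obtain ⟨p, hp1, hp2⟩ := h.norm g
  rw [hρg, map_one] at hp2
  have hg0 : (g : B) ≠ 0 := by
    intro h0
    have h1 : g = 0 := Subtype.ext h0
    rw [h1, map_zero] at hρg
    exact zero_ne_one hρg
  have hroot := h48_norm_isRoot hP hα g hg0 hgP p hp1
  rw [← hp2, IsRoot.def, eval_one] at hroot
  exact one_ne_zero hroot

/-- An integral function with zero reduction has values in the maximal ideal of `A` at tube
points. -/
theorem h48_residue_value_eq_zero (h : h48_Chart A BA ρ) {P : Ideal B} (hP : P.IsMaximal)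
    {α : A} (hα : (h48_xv P : L) = α) (b : BA) (hb : ρ b = 0) (β : A)
    (hβ : (b : B) - algebraMap L[X] B (C (β : L)) ∈ P) : res β = 0 := by
  by_contra hne
  set g : BA := b - h48_polyBA h (C β) with hg
  have hgcoe : (g : B) = (b : B) - algebraMap L[X] B (C (β : L)) := by
    rw [hg]
    push_cast
    rw [h48_coe_polyBA, Polynomial.map_C]
    rfl
  have hρg : ρ g = algebraMap k[X] Bk (C (- res β)) := by
    rw [hg, map_sub, hb, h48_rho_polyBA, Polynomial.map_C, zero_sub, C_neg, map_neg]
  obtain ⟨p, hp1, hp2⟩ := h.norm g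
  rw [hρg, Algebra.norm_algebraMap] at hp2
  have hg0 : (g : B) ≠ 0 := by
    intro h0
    have h1 : g = 0 := Subtype.ext h0
    rw [h1, map_zero] at hρg
    have h2 := h48_algebraMap_injective (K := k) (B := Bk) (hρg.symm.trans (map_zero _).symm)
    rw [C_eq_zero, neg_eq_zero] at h2
    exact hne h2
  have hroot := h48_norm_isRoot hP hα g hg0 (hgcoe ▸ hβ) p hp1
  rw [← hp2, IsRoot.def, eval_pow, eval_C] at hroot
  exact pow_ne_zero _ (neg_ne_zero.mpr hne) hroot

/-- The centre of the point `P`: the image of `P ∩ BA` in the chart of the special fibre. -/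
def h48_centre (ρ : BA →+* Bk) (P : Ideal B) : Ideal Bk :=
  Ideal.map ρ (Ideal.comap BA.subtype P)

theorem h48_red_centre (P : Ideal B) : h48_Red BA ρ P (h48_centre ρ P) :=
  fun _ hb => Ideal.mem_map_of_mem ρ (Ideal.mem_comap.mpr hb)

theorem h48_centre_le {P : Ideal B} {Q : Ideal Bk} (hred : h48_Red BA ρ P Q) :
    h48_centre ρ P ≤ Q := by
  rw [h48_centre, Ideal.map_le_iff_le_comap]
  intro b hb
  exact hred b hb

/-- The centre of a tube point is a maximal ideal. -/
theorem h48_centre_isMaximal (h : h48_Chart A BA ρ) {P : Ideal B} (hP : P.IsMaximal) {α : A}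
    (hα : (h48_xv P : L) = α) : (h48_centre ρ P).IsMaximal := by
  rw [Ideal.isMaximal_iff]
  constructor
  · intro h1
    obtain ⟨b, hbP, hb1⟩ := (Ideal.mem_map_iff_of_surjective ρ h.surj).mp h1
    have hbP' : (b : B) ∈ P := hbP
    obtain ⟨β, hβ⟩ := h48_value h hP hα (b - 1)
    have hβ0 : res β = 0 :=
      h48_residue_value_eq_zero h hP hα (b - 1) (by rw [map_sub, hb1, map_one, sub_self]) β hβ
    have h2 : algebraMap L[X] B (C ((1 + β : A) : L)) ∈ P := by
      have h3 : algebraMap L[X] B (C ((1 + β : A) : L))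
          = (b : B) - ((((b - 1 : BA)) : B) - algebraMap L[X] B (C (β : L))) := by
        push_cast
        rw [C_add, map_add, C_1, map_one]
        ring
      rw [h3]
      exact P.sub_mem hbP' hβ
    have hu : ((1 + β : A) : L) ≠ 0 := by
      intro h0
      have h4 : (1 + β : A) = 0 := Subtype.ext h0
      have h5 := congrArg res h4
      rw [map_add, map_one, hβ0, add_zero, map_zero] at h5
      exact one_ne_zero h5
    apply hP.ne_top
    rw [Ideal.eq_top_iff_one]
    have h3 := P.mul_mem_left (algebraMap L[X] B (C ((1 + β : A) : L)⁻¹)) h2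
    rwa [← map_mul, ← C_mul, inv_mul_cancel₀ hu, C_1, map_one] at h3
  · intro J x hJ hx hxJ
    obtain ⟨c, rfl⟩ := h.surj x
    obtain ⟨β, hβ⟩ := h48_value h hP hα c
    have h1 : ρ (c - h48_polyBA h (C β)) ∈ h48_centre ρ P := by
      refine Ideal.mem_map_of_mem ρ (Ideal.mem_comap.mpr ?_)
      have h2 : BA.subtype (c - h48_polyBA h (C β))
          = (c : B) - algebraMap L[X] B (C (β : L)) := by
        rw [map_sub]
        show (c : B) - ((h48_polyBA h (C β) : BA) : B) = _
        rw [h48_coe_polyBA, Polynomial.map_C]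
        rfl
      rw [h2]
      exact hβ
    have h2 : algebraMap k[X] Bk (C (res β)) ∈ J := by
      have h3 := J.sub_mem hxJ (hJ h1)
      rwa [map_sub, sub_sub_cancel, h48_rho_polyBA, Polynomial.map_C] at h3
    have hβ0 : res β ≠ 0 := by
      intro h0
      apply hx
      have h3 := h1
      rw [map_sub, h48_rho_polyBA, Polynomial.map_C, h0, C_0, map_zero, sub_zero] at h3
      exact h3
    have h3 := J.mul_mem_left (algebraMap k[X] Bk (C (res β)⁻¹)) h2
    rwa [← map_mul, ← C_mul, inv_mul_cancel₀ hβ0, C_1, map_one] at h3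

/-- A point that reduces to a point of the special fibre lies in the tube (its coordinate is
integral), and the coordinate of the reduction is the reduction of the coordinate. -/
theorem h48_red_tube (h : h48_Chart A BA ρ) {P : Ideal B} {Q : Ideal Bk} (hP : P.IsMaximal)
    (hQ : Q ≠ ⊤) (hred : h48_Red BA ρ P Q) :
    ∃ α : A, (h48_xv P : L) = α ∧ (h48_xv Q : k) = res α := by
  have hxP := h48_xv_mem (K := L) P hP
  by_cases hmem : (h48_xv P : L) ∈ A
  · refine ⟨⟨h48_xv P, hmem⟩, rfl, ?_⟩
    have h1 : ((h48_polyBA h (X - C ⟨h48_xv P, hmem⟩) : BA) : B) ∈ P := by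
      rw [h48_coe_polyBA, Polynomial.map_sub, Polynomial.map_X, Polynomial.map_C]
      exact hxP
    have h2 := hred _ h1
    rw [h48_rho_polyBA, Polynomial.map_sub, Polynomial.map_X, Polynomial.map_C] at h2
    exact h48_xv_eq hQ h2
  · exfalso
    have hα0 : (h48_xv P : L) ≠ 0 := fun h0 => hmem (h0 ▸ A.zero_mem)
    have hc : (h48_xv P : L)⁻¹ ∈ A := (A.mem_or_inv_mem _).resolve_left hmem
    have hres : res (⟨(h48_xv P : L)⁻¹, hc⟩ : A) = 0 := h48_residue_inv_eq_zero hmem hc
    have h1 : ((h48_polyBA h (C ⟨(h48_xv P : L)⁻¹, hc⟩ * X - 1) : BA) : B) ∈ P := by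
      rw [h48_coe_polyBA]
      have h2 : (C ⟨(h48_xv P : L)⁻¹, hc⟩ * X - 1 : A[X]).map A.subtype
          = C (h48_xv P : L)⁻¹ * (X - C (h48_xv P : L)) := by
        rw [Polynomial.map_sub, Polynomial.map_mul, Polynomial.map_X, Polynomial.map_C,
          Polynomial.map_one, mul_sub, ← C_mul, inv_mul_cancel₀ hα0, C_1]
        rfl
      rw [h2, map_mul]
      exact P.mul_mem_left _ hxP
    have h2 := hred _ h1
    rw [h48_rho_polyBA, Polynomial.map_sub, Polynomial.map_mul, Polynomial.map_X,
      Polynomial.map_C, Polynomial.map_one, hres, C_0, zero_mul, zero_sub, map_neg, map_one]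
      at h2
    apply hQ
    rw [Ideal.eq_top_iff_one]
    simpa using Q.neg_mem h2

/-- **Existence of the reduction of a tube point.** -/
theorem h48_exists_red (h : h48_Chart A BA ρ) {P : Ideal B} (hP : P.IsMaximal) {α : A}
    (hα : (h48_xv P : L) = α) : ∃ Q : Ideal Bk, Q.IsMaximal ∧ h48_Red BA ρ P Q :=
  ⟨h48_centre ρ P, h48_centre_isMaximal h hP hα, h48_red_centre P⟩

/-- **Uniqueness of the reduction.** -/
theorem h48_red_unique (h : h48_Chart A BA ρ) {P : Ideal B} (hP : P.IsMaximal)
    {Q Q' : Ideal Bk} (hQ : Q.IsMaximal) (hQ' : Q'.IsMaximal) (h1 : h48_Red BA ρ P Q)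
    (h2 : h48_Red BA ρ P Q') : Q = Q' := by
  obtain ⟨α, hα, -⟩ := h48_red_tube h hP hQ.ne_top h1
  have hmax := h48_centre_isMaximal h hP hα
  rw [← hmax.eq_of_le hQ.ne_top (h48_centre_le h1), ← hmax.eq_of_le hQ'.ne_top (h48_centre_le h2)]

theorem h48_red_iff (h : h48_Chart A BA ρ) {P : Ideal B} (hP : P.IsMaximal)
    {Q : Ideal Bk} (hQ : Q.IsMaximal) : h48_Red BA ρ P Q ↔ h48_centre ρ P = Q := by
  constructor
  · intro h1
    obtain ⟨α, hα, -⟩ := h48_red_tube h hP hQ.ne_top h1
    exact (h48_centre_isMaximal h hP hα).eq_of_le hQ.ne_top (h48_centre_le h1)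
  · rintro rfl
    exact h48_red_centre P

/-- Evaluation: the value of `ρ b` at the reduction of `P` is the reduction of the value of
`b` at `P`. -/
theorem h48_red_eval (h : h48_Chart A BA ρ) {P : Ideal B} {Q : Ideal Bk}
    (hred : h48_Red BA ρ P Q) (b : BA) (β : A)
    (hβ : (b : B) - algebraMap L[X] B (C (β : L)) ∈ P) :
    ρ b - algebraMap k[X] Bk (C (res β)) ∈ Q := by
  have h1 : ((b - h48_polyBA h (C β) : BA) : B) ∈ P := by
    push_cast
    rw [h48_coe_polyBA, Polynomial.map_C]
    exact hβ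
  have h2 := hred _ h1
  rwa [map_sub, h48_rho_polyBA, Polynomial.map_C] at h2

open Classical in
/-- **Class count.** For an integral `b` with nonzero reduction and a class `γ`: the number of
zeros of `ρ b` over the class equals the number of zeros of `b` in the tube of the class. -/
theorem h48_classCount (h : h48_Chart A BA ρ) (b : BA) (hb : ρ b ≠ 0) (γ : A) :
    Multiset.countP (fun Q : Ideal Bk => (h48_xv Q : k) = res γ)
        (normalizedFactors (Ideal.span {ρ b}))
      = Multiset.countP (fun P : Ideal B => A.valuation ((h48_xv P : L) - γ) < 1)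
        (normalizedFactors (Ideal.span {(b : B)})) := by
  obtain ⟨p, hp1, hp2⟩ := h.norm b
  have hb0 : (b : B) ≠ 0 := fun h0 => hb (by rw [show b = 0 from Subtype.ext h0, map_zero])
  have hpne : p.map res ≠ 0 := by
    rw [← hp2]
    exact Algebra.norm_ne_zero_iff.mpr hb
  have hk := h48_roots_norm (K := k) (ρ b) hb
  have hL := h48_roots_norm (K := L) (b : B) hb0
  have h1 := h48_rootMultiplicity_residue A p hpne γ
  rw [← hp2, ← hp1, ← count_roots, hk, hL, Multiset.countP_map, Multiset.count_map] at h1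
  rw [Multiset.countP_eq_card_filter, Multiset.countP_eq_card_filter]
  rw [← h1]
  congr 1
  refine Multiset.filter_congr (fun Q _ => ?_)
  exact eq_comm

omit [IsAlgClosed L] [IsDedekindDomain B] [Module.Finite L[X] B] [Module.IsTorsionFree L[X] B] in
/-- A maximal ideal of `Bk` containing a nonzero constant is impossible. -/
theorem h48_const_notMem {Q : Ideal Bk} (hQ : Q ≠ ⊤) {c : k} (hc : c ≠ 0) :
    algebraMap k[X] Bk (C c) ∉ Q := by
  intro h2
  apply hQ
  rw [Ideal.eq_top_iff_one]
  have h3 := Q.mul_mem_left (algebraMap k[X] Bk (C c⁻¹)) h2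
  rwa [← map_mul, ← C_mul, inv_mul_cancel₀ hc, C_1, map_one] at h3

open Classical in
/-- **Division step.** If the integral function `b` vanishes at a point `P₀` reducing to `Q`,
then `b` can be divided (up to a polynomial in the coordinate that is a unit at `Q` and on the
disc of `Q`) by a disc coordinate vanishing at `P₀`. -/
theorem h48_step (h : h48_Chart A BA ρ) {Q : Ideal Bk} (hQ : Q.IsMaximal) (b : BA)
    (hb : ρ b ≠ 0) {P₀ : Ideal B} (hP₀ : P₀.IsMaximal) (hbP₀ : (b : B) ∈ P₀)
    (hred : h48_Red BA ρ P₀ Q) :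
    ∃ c : BA, ρ c ≠ 0 ∧
      Multiset.count Q (normalizedFactors (Ideal.span {ρ b}))
        = Multiset.count Q (normalizedFactors (Ideal.span {ρ c})) + 1 ∧
      Multiset.countP (fun P => h48_Red BA ρ P Q) (normalizedFactors (Ideal.span {(b : B)}))
        ≤ Multiset.countP (fun P => h48_Red BA ρ P Q)
            (normalizedFactors (Ideal.span {(c : B)})) + 1 := by
  obtain ⟨α₀, hα₀, hQα⟩ := h48_red_tube h hP₀ hQ.ne_top hred
  have hQ0 : Q ≠ ⊥ := h48_ne_bot_of_isMaximal k Q hQ
  have hQprime : Q.IsPrime := hQ.isPrime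
  have hb0 : (b : B) ≠ 0 := fun h0 => hb (by rw [show b = 0 from Subtype.ext h0, map_zero])
  -- the finite set of points of the special fibre over the class of `α₀`
  set e₀ : Bk := algebraMap k[X] Bk (X - C (res α₀)) with he₀
  have he₀0 : e₀ ≠ 0 :=
    (map_ne_zero_iff _ (h48_algebraMap_injective (K := k) (B := Bk))).mpr (X_sub_C_ne_zero _)
  have he₀span : Ideal.span {e₀} ≠ ⊥ := by
    rw [Ne, Ideal.span_singleton_eq_bot]
    exact he₀0
  set T : Finset (Ideal Bk) := (normalizedFactors (Ideal.span {e₀})).toFinset with hTdef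
  have hT : ∀ Q' ∈ T, Q'.IsMaximal := by
    intro Q' hQ'
    have h1 : Prime Q' := prime_of_normalized_factor Q' (Multiset.mem_toFinset.mp hQ')
    exact (Ideal.isPrime_of_prime h1).isMaximal h1.ne_zero
  -- the disc coordinate
  obtain ⟨tb, htQ, htQ2, htT⟩ := h48_exists_unif Q hQ hQ0 T hT
  obtain ⟨t, rfl⟩ := h.surj tb
  obtain ⟨τ, hτ⟩ := h48_value h hP₀ hα₀ t
  have hτ0 : res τ = 0 := by
    have h1 := h48_red_eval h hred t τ hτ
    have h2 : algebraMap k[X] Bk (C (res τ)) ∈ Q := by
      have h3 := Q.sub_mem htQ h1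
      rwa [sub_sub_cancel] at h3
    by_contra hne
    exact h48_const_notMem hQ.ne_top hne h2
  set t' : BA := t - h48_polyBA h (C τ) with ht'
  have ht'coe : (t' : B) = (t : B) - algebraMap L[X] B (C (τ : L)) := by
    rw [ht']
    push_cast
    rw [h48_coe_polyBA, Polynomial.map_C]
    rfl
  have hρt' : ρ t' = ρ t := by
    rw [ht', map_sub, h48_rho_polyBA, Polynomial.map_C, hτ0, C_0, map_zero, sub_zero]
  have ht'P₀ : (t' : B) ∈ P₀ := ht'coe ▸ hτ
  have hρt0 : ρ t ≠ 0 := fun h0 => htQ2 (h0 ▸ (Q ^ 2).zero_mem)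
  have hρt'0 : ρ t' ≠ 0 := hρt' ▸ hρt0
  have ht'0 : (t' : B) ≠ 0 :=
    fun h0 => hρt'0 (by rw [show t' = 0 from Subtype.ext h0, map_zero])
  have hspant : Ideal.span {ρ t} ≠ ⊥ := by
    rw [Ne, Ideal.span_singleton_eq_bot]
    exact hρt0
  have hspant' : Ideal.span {(t' : B)} ≠ ⊥ := by
    rw [Ne, Ideal.span_singleton_eq_bot]
    exact ht'0
  have hcountQ : Multiset.count Q (normalizedFactors (Ideal.span {ρ t})) = 1 :=
    Ideal.count_normalizedFactors_eq
      (by rw [pow_one, Ideal.span_singleton_le_iff_mem]; exact htQ)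
      (by rw [Ideal.span_singleton_le_iff_mem]; exact htQ2)
  -- exactly one zero of `t'` in the tube
  have hcc := h48_classCount h t' hρt'0 α₀
  have hlhs : Multiset.countP (fun Q' : Ideal Bk => (h48_xv Q' : k) = res α₀)
      (normalizedFactors (Ideal.span {ρ t'})) = 1 := by
    rw [hρt', ← hcountQ, Multiset.count]
    refine Multiset.countP_congr rfl (fun Q' hQ' => ?_)
    have h1 : Prime Q' := prime_of_normalized_factor Q' hQ'
    have hQ'prime : Q'.IsPrime := Ideal.isPrime_of_prime h1
    have hQ'max : Q'.IsMaximal := hQ'prime.isMaximal h1.ne_zero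
    have htQ' : ρ t ∈ Q' :=
      (Ideal.span_singleton_le_iff_mem _).mp ((Ideal.mem_normalizedFactors_iff hspant).mp hQ').2
    refine propext ⟨fun hx => ?_, fun hx => ?_⟩
    · by_contra hne
      have h2 : e₀ ∈ Q' := by
        rw [he₀, ← hx]
        exact h48_xv_mem (K := k) Q' hQ'max
      have h3 : Q' ∈ T := by
        rw [hTdef, Multiset.mem_toFinset, Ideal.mem_normalizedFactors_iff he₀span]
        exact ⟨hQ'prime, (Ideal.span_singleton_le_iff_mem _).mpr h2⟩
      exact htT Q' h3 (fun h4 => hne h4.symm) htQ'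
    · rw [← hx]
      exact hQα
  rw [hlhs] at hcc
  -- the norm of `t'`
  obtain ⟨p, hp1, hp2⟩ := h.norm t'
  have hpne : p.map res ≠ 0 := by
    rw [← hp2]
    exact Algebra.norm_ne_zero_iff.mpr hρt'0
  have hP₀mem : P₀ ∈ normalizedFactors (Ideal.span {(t' : B)}) :=
    (Ideal.mem_normalizedFactors_iff hspant').mpr
      ⟨hP₀.isPrime, (Ideal.span_singleton_le_iff_mem _).mpr ht'P₀⟩
  have hrootsL := h48_roots_norm (K := L) (t' : B) ht'0
  have hroot : p.IsRoot α₀ := by
    have h1 : (h48_xv P₀ : L) ∈ (Algebra.norm L[X] (t' : B)).roots := by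
      rw [hrootsL]
      exact Multiset.mem_map_of_mem _ hP₀mem
    rw [hp1, hα₀] at h1
    have h2 : (p.map A.subtype).eval (A.subtype α₀) = 0 := (mem_roots'.mp h1).2
    rw [eval_map, eval₂_at_apply] at h2
    exact Subtype.ext h2
  obtain ⟨s, hs⟩ : ∃ s : A[X], p = (X - C α₀) * s := dvd_iff_isRoot.mpr hroot
  have hmult : (p.map res).rootMultiplicity (res α₀) = 1 := by
    rw [h48_rootMultiplicity_residue A p hpne α₀, ← hp1, hrootsL, Multiset.countP_map,
      ← Multiset.countP_eq_card_filter]
    exact hcc.symm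
  have hs_eval : (s.map res).eval (res α₀) ≠ 0 := by
    intro h0
    have h1 : (X - C (res α₀)) ∣ s.map res := dvd_iff_isRoot.mpr h0
    have h2 : (X - C (res α₀)) ^ 2 ∣ p.map res := by
      rw [hs, Polynomial.map_mul, Polynomial.map_sub, Polynomial.map_X, Polynomial.map_C,
        pow_two]
      exact mul_dvd_mul_left _ h1
    have h3 := (le_rootMultiplicity_iff hpne).mpr h2
    omega
  set σ : BA := h48_polyBA h s with hσ
  have hρσ : ρ σ = algebraMap k[X] Bk (s.map res) := h48_rho_polyBA h s
  have hρσQ : ρ σ ∉ Q := by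
    intro hmem
    have h1 : algebraMap k[X] Bk (X - C (res α₀)) ∈ Q := by
      rw [← hQα]
      exact h48_xv_mem (K := k) Q hQ
    have h2 : algebraMap k[X] Bk (C ((s.map res).eval (res α₀))) ∈ Q := by
      have h3 : C ((s.map res).eval (res α₀))
          = s.map res - (X - C (res α₀)) * ((s.map res) /ₘ (X - C (res α₀))) := by
        have h4 := Polynomial.modByMonic_add_div (s.map res) (X - C (res α₀))
        rw [modByMonic_X_sub_C_eq_C_eval] at h4
        exact eq_sub_of_add_eq h4
      rw [h3, map_sub, map_mul]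
      exact Q.sub_mem (hρσ ▸ hmem) (Q.mul_mem_right _ h1)
    exact h48_const_notMem hQ.ne_top hs_eval h2
  have hρσ0 : ρ σ ≠ 0 := fun h0 => hρσQ (h0 ▸ Q.zero_mem)
  have hσ0 : (σ : B) ≠ 0 := fun h0 => hρσ0 (by rw [show σ = 0 from Subtype.ext h0, map_zero])
  -- divisibility
  have hdiv : ∃ c : B, ((σ * b : BA) : B) = (t' : B) * c := by
    set F' := normalizedFactors (Ideal.span {(t' : B)}) with hF'
    have hprod : P₀ * (F'.erase P₀).prod = Ideal.span {(t' : B)} := by
      rw [Multiset.prod_erase hP₀mem]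
      exact Ideal.prod_normalizedFactors_eq_self hspant'
    have hsmap0 : s.map A.subtype ≠ 0 := by
      intro h0
      apply hσ0
      rw [hσ, h48_coe_polyBA, h0, map_zero]
    have hrootss : (s.map A.subtype).roots = (F'.erase P₀).map (h48_xv (K := L)) := by
      have h1 : (p.map A.subtype).roots = F'.map (h48_xv (K := L)) := by
        rw [← hp1]
        exact hrootsL
      have h2 : p.map A.subtype = (X - C (α₀ : L)) * s.map A.subtype := by
        rw [hs, Polynomial.map_mul, Polynomial.map_sub, Polynomial.map_X, Polynomial.map_C]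
        rfl
      have h3 : (X - C (α₀ : L)) * s.map A.subtype ≠ 0 :=
        mul_ne_zero (X_sub_C_ne_zero _) hsmap0
      rw [h2, roots_mul h3, roots_X_sub_C] at h1
      rw [Multiset.map_erase_of_mem _ _ hP₀mem, ← h1, hα₀, Multiset.singleton_add,
        Multiset.erase_cons_head]
    have hsplit := (IsAlgClosed.splits (s.map A.subtype)).eq_prod_roots
    have hσJ : (σ : B) ∈ (F'.erase P₀).prod := by
      rw [hσ, h48_coe_polyBA, hsplit, map_mul, hrootss, Multiset.map_map]
      refine Ideal.mul_mem_left _ _ ?_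
      rw [map_multiset_prod, Multiset.map_map]
      refine h48_prod_mem_prod _ _ (fun I hI => ?_)
      have hI' : I ∈ F' := Multiset.mem_of_mem_erase hI
      have h1 : Prime I := prime_of_normalized_factor I hI'
      exact h48_xv_mem (K := L) I ((Ideal.isPrime_of_prime h1).isMaximal h1.ne_zero)
    have h1 : ((σ * b : BA) : B) ∈ Ideal.span {(t' : B)} := by
      rw [← hprod, mul_comm P₀]
      push_cast
      exact Ideal.mul_mem_mul hσJ hbP₀
    obtain ⟨c, hc⟩ := Ideal.mem_span_singleton'.mp h1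
    exact ⟨c, by rw [← hc, mul_comm]⟩
  obtain ⟨c, hc⟩ := hdiv
  have hcBA : c ∈ BA := h.div t' (σ * b) hρt'0 c hc
  have hcc' : σ * b = t' * ⟨c, hcBA⟩ := Subtype.ext hc
  have hρc : ρ σ * ρ b = ρ t * ρ ⟨c, hcBA⟩ := by
    rw [← map_mul, hcc', map_mul, hρt']
  have hρc0 : ρ ⟨c, hcBA⟩ ≠ 0 := by
    intro h0
    rw [h0, mul_zero] at hρc
    exact (mul_ne_zero hρσ0 hb) hρc
  have hc0 : c ≠ 0 := by
    intro h0
    apply hρc0
    rw [show (⟨c, hcBA⟩ : BA) = 0 from Subtype.ext h0, map_zero]
  refine ⟨⟨c, hcBA⟩, hρc0, ?_, ?_⟩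
  · -- count on the special fibre
    have hspan : ∀ x : Bk, x ≠ 0 → Ideal.span {x} ≠ (0 : Ideal Bk) := by
      intro x hx
      rw [Ideal.zero_eq_bot, Ne, Ideal.span_singleton_eq_bot]
      exact hx
    have h1 : normalizedFactors (Ideal.span {ρ σ}) + normalizedFactors (Ideal.span {ρ b})
        = normalizedFactors (Ideal.span {ρ t}) + normalizedFactors (Ideal.span {ρ ⟨c, hcBA⟩}) := by
      rw [← normalizedFactors_mul (hspan _ hρσ0) (hspan _ hb),
        ← normalizedFactors_mul (hspan _ hρt0) (hspan _ hρc0),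
        Ideal.span_singleton_mul_span_singleton, Ideal.span_singleton_mul_span_singleton, hρc]
    have h2 := congrArg (Multiset.count Q) h1
    rw [Multiset.count_add, Multiset.count_add, hcountQ] at h2
    have h3 : Multiset.count Q (normalizedFactors (Ideal.span {ρ σ})) = 0 := by
      rw [Multiset.count_eq_zero]
      intro hmem
      have hspanσ : Ideal.span {ρ σ} ≠ ⊥ := by
        rw [Ne, Ideal.span_singleton_eq_bot]
        exact hρσ0
      exact hρσQ ((Ideal.span_singleton_le_iff_mem _).mp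
        ((Ideal.mem_normalizedFactors_iff hspanσ).mp hmem).2)
    omega
  · -- count on the generic fibre
    have hspan : ∀ x : B, x ≠ 0 → Ideal.span {x} ≠ (0 : Ideal B) := by
      intro x hx
      rw [Ideal.zero_eq_bot, Ne, Ideal.span_singleton_eq_bot]
      exact hx
    have h1 : normalizedFactors (Ideal.span {(σ : B)}) + normalizedFactors (Ideal.span {(b : B)})
        = normalizedFactors (Ideal.span {(t' : B)}) + normalizedFactors (Ideal.span {c}) := by
      have hc2 : (σ : B) * (b : B) = (t' : B) * c := hc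
      rw [← normalizedFactors_mul (hspan _ hσ0) (hspan _ hb0),
        ← normalizedFactors_mul (hspan _ ht'0) (hspan _ hc0),
        Ideal.span_singleton_mul_span_singleton, Ideal.span_singleton_mul_span_singleton, hc2]
    have h2 := congrArg (Multiset.countP (fun P => h48_Red BA ρ P Q)) h1
    rw [Multiset.countP_add, Multiset.countP_add] at h2
    have h3 : Multiset.countP (fun P => h48_Red BA ρ P Q)
        (normalizedFactors (Ideal.span {(σ : B)})) = 0 := by
      rw [Multiset.countP_eq_zero]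
      intro P hP hPred
      have hspanσ : Ideal.span {(σ : B)} ≠ ⊥ := by
        rw [Ne, Ideal.span_singleton_eq_bot]
        exact hσ0
      exact hρσQ (hPred σ ((Ideal.span_singleton_le_iff_mem _).mp
        ((Ideal.mem_normalizedFactors_iff hspanσ).mp hP).2))
    have h4 : Multiset.countP (fun P => h48_Red BA ρ P Q)
        (normalizedFactors (Ideal.span {(t' : B)})) ≤ 1 := by
      rw [hcc]
      refine h48_countP_le _ _ _ (fun P hP hPred => ?_)
      have h5 : Prime P := prime_of_normalized_factor P hP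
      have hPmax : P.IsMaximal := (Ideal.isPrime_of_prime h5).isMaximal h5.ne_zero
      obtain ⟨α, hα, hQα'⟩ := h48_red_tube h hPmax hQ.ne_top hPred
      rw [hα]
      exact (h48_residue_eq_iff A α α₀).mp (by rw [← hQα, ← hQα'])
    show _ ≤ Multiset.countP (fun P => h48_Red BA ρ P Q) (normalizedFactors (Ideal.span {c})) + 1
    omega

open Classical in
/-- One inequality of the conservation theorem, at a single point of the special fibre. -/
theorem h48_countP_red_le (h : h48_Chart A BA ρ) {Q : Ideal Bk} (hQ : Q.IsMaximal) (b : BA)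
    (hb : ρ b ≠ 0) :
    Multiset.countP (fun P => h48_Red BA ρ P Q) (normalizedFactors (Ideal.span {(b : B)}))
      ≤ Multiset.count Q (normalizedFactors (Ideal.span {ρ b})) := by
  induction hm : Multiset.count Q (normalizedFactors (Ideal.span {ρ b})) generalizing b with
  | zero =>
    by_contra hlt
    have hpos : 0 < Multiset.countP (fun P => h48_Red BA ρ P Q)
        (normalizedFactors (Ideal.span {(b : B)})) := by omega
    obtain ⟨P₀, hP₀mem, hP₀red⟩ := Multiset.countP_pos.mp hpos
    have hb0 : (b : B) ≠ 0 := fun h0 => hb (by rw [show b = 0 from Subtype.ext h0, map_zero])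
    have hspan : Ideal.span {(b : B)} ≠ ⊥ := by
      rw [Ne, Ideal.span_singleton_eq_bot]
      exact hb0
    have h1 : Prime P₀ := prime_of_normalized_factor P₀ hP₀mem
    have hP₀max : P₀.IsMaximal := (Ideal.isPrime_of_prime h1).isMaximal h1.ne_zero
    have hbP₀ : (b : B) ∈ P₀ := (Ideal.span_singleton_le_iff_mem _).mp
      ((Ideal.mem_normalizedFactors_iff hspan).mp hP₀mem).2
    obtain ⟨c, -, hc1, -⟩ := h48_step h hQ b hb hP₀max hbP₀ hP₀red
    omega
  | succ m ih =>
    by_cases h0 : Multiset.countP (fun P => h48_Red BA ρ P Q)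
        (normalizedFactors (Ideal.span {(b : B)})) = 0
    · omega
    obtain ⟨P₀, hP₀mem, hP₀red⟩ := Multiset.countP_pos.mp (Nat.pos_of_ne_zero h0)
    have hb0 : (b : B) ≠ 0 := fun h0 => hb (by rw [show b = 0 from Subtype.ext h0, map_zero])
    have hspan : Ideal.span {(b : B)} ≠ ⊥ := by
      rw [Ne, Ideal.span_singleton_eq_bot]
      exact hb0
    have h1 : Prime P₀ := prime_of_normalized_factor P₀ hP₀mem
    have hP₀max : P₀.IsMaximal := (Ideal.isPrime_of_prime h1).isMaximal h1.ne_zero
    have hbP₀ : (b : B) ∈ P₀ := (Ideal.span_singleton_le_iff_mem _).mp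
      ((Ideal.mem_normalizedFactors_iff hspan).mp hP₀mem).2
    obtain ⟨c, hc0, hc1, hc2⟩ := h48_step h hQ b hb hP₀max hbP₀ hP₀red
    have h2 := ih c hc0 (by omega)
    omega

open Classical in
/-- **Conservation of number, chart form.** For an integral function `b` with nonzero reduction
and a point `Q` of the special fibre: the order of `ρ b` at `Q` is the number of zeros of `b`
(with multiplicity) at the points of the generic fibre that reduce to `Q`. -/
theorem h48_conservation (h : h48_Chart A BA ρ) (b : BA) (hb : ρ b ≠ 0) {Q : Ideal Bk}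
    (hQ : Q.IsMaximal) :
    Multiset.count Q (normalizedFactors (Ideal.span {ρ b}))
      = Multiset.countP (fun P => h48_Red BA ρ P Q)
          (normalizedFactors (Ideal.span {(b : B)})) := by
  obtain ⟨γ, hγ⟩ := IsLocalRing.residue_surjective (h48_xv Q : k)
  have hb0 : (b : B) ≠ 0 := fun h0 => hb (by rw [show b = 0 from Subtype.ext h0, map_zero])
  set e₀ : Bk := algebraMap k[X] Bk (X - C (res γ)) with he₀
  have he₀0 : e₀ ≠ 0 :=
    (map_ne_zero_iff _ (h48_algebraMap_injective (K := k) (B := Bk))).mpr (X_sub_C_ne_zero _)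
  have he₀span : Ideal.span {e₀} ≠ ⊥ := by
    rw [Ne, Ideal.span_singleton_eq_bot]
    exact he₀0
  set T : Finset (Ideal Bk) := (normalizedFactors (Ideal.span {e₀})).toFinset with hTdef
  have hTmax : ∀ Q' ∈ T, Q'.IsMaximal := by
    intro Q' hQ'
    have h1 : Prime Q' := prime_of_normalized_factor Q' (Multiset.mem_toFinset.mp hQ')
    exact (Ideal.isPrime_of_prime h1).isMaximal h1.ne_zero
  have hTiff : ∀ Q' : Ideal Bk, Q'.IsMaximal → (Q' ∈ T ↔ (h48_xv Q' : k) = res γ) := by
    intro Q' hQ'
    rw [hTdef, Multiset.mem_toFinset, Ideal.mem_normalizedFactors_iff he₀span]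
    constructor
    · rintro ⟨-, hle⟩
      exact h48_xv_eq hQ'.ne_top ((Ideal.span_singleton_le_iff_mem _).mp hle)
    · intro hx
      refine ⟨hQ'.isPrime, (Ideal.span_singleton_le_iff_mem _).mpr ?_⟩
      rw [he₀, ← hx]
      exact h48_xv_mem (K := k) Q' hQ'
  have hQT : Q ∈ T := (hTiff Q hQ).mpr hγ.symm
  have hspank : Ideal.span {ρ b} ≠ ⊥ := by
    rw [Ne, Ideal.span_singleton_eq_bot]
    exact hb
  have hspanL : Ideal.span {(b : B)} ≠ ⊥ := by
    rw [Ne, Ideal.span_singleton_eq_bot]
    exact hb0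
  have hmaxk : ∀ Q' ∈ normalizedFactors (Ideal.span {ρ b}), Q'.IsMaximal := by
    intro Q' hQ'
    have h1 : Prime Q' := prime_of_normalized_factor Q' hQ'
    exact (Ideal.isPrime_of_prime h1).isMaximal h1.ne_zero
  have hmaxL : ∀ P ∈ normalizedFactors (Ideal.span {(b : B)}), P.IsMaximal := by
    intro P hP
    have h1 : Prime P := prime_of_normalized_factor P hP
    exact (Ideal.isPrime_of_prime h1).isMaximal h1.ne_zero
  -- the two sums
  have hsum1 : Multiset.countP (fun Q' : Ideal Bk => (h48_xv Q' : k) = res γ)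
      (normalizedFactors (Ideal.span {ρ b}))
      = ∑ Q' ∈ T, Multiset.count Q' (normalizedFactors (Ideal.span {ρ b})) :=
    h48_countP_eq_sum_count _ _ T
      (fun Q' hQ' hx => (hTiff Q' (hmaxk Q' hQ')).mpr hx)
      (fun Q' hQ' => (hTiff Q' (hTmax Q' hQ')).mp hQ')
  have hsum2 : Multiset.countP (fun P : Ideal B => A.valuation ((h48_xv P : L) - γ) < 1)
      (normalizedFactors (Ideal.span {(b : B)}))
      = ∑ Q' ∈ T, Multiset.countP (fun P => h48_Red BA ρ P Q')
          (normalizedFactors (Ideal.span {(b : B)})) := by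
    refine h48_countP_eq_sum_countP _ _ (fun P Q' => h48_Red BA ρ P Q') T ?_ ?_
    · intro P hP
      have hPmax := hmaxL P hP
      constructor
      · intro hv
        have hmem : (h48_xv P : L) ∈ A := by
          have h1 : (h48_xv P : L) - γ ∈ A :=
            (A.valuation_le_one_iff _).mp hv.le
          have h2 := A.add_mem _ _ h1 γ.2
          rwa [sub_add_cancel] at h2
        have hα : (h48_xv P : L) = ((⟨h48_xv P, hmem⟩ : A) : L) := rfl
        have hcmax := h48_centre_isMaximal h hPmax hα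
        obtain ⟨α', hα', hcx⟩ := h48_red_tube h hPmax hcmax.ne_top (h48_red_centre (ρ := ρ) P)
        refine ⟨h48_centre ρ P, (hTiff _ hcmax).mpr ?_, h48_red_centre P⟩
        rw [hcx]
        refine ((h48_residue_eq_iff A α' γ).mpr ?_).symm
        rw [← hα']
        exact hv
      · rintro ⟨Q', hQ'T, hQ'red⟩
        obtain ⟨α', hα', hcx⟩ := h48_red_tube h hPmax (hTmax Q' hQ'T).ne_top hQ'red
        rw [hα']
        refine (h48_residue_eq_iff A α' γ).mp ?_
        rw [← hcx]
        exact ((hTiff Q' (hTmax Q' hQ'T)).mp hQ'T).symm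
    · intro P hP Q' hQ' Q'' hQ'' h1 h2
      exact h48_red_unique h (hmaxL P hP) (hTmax Q' hQ') (hTmax Q'' hQ'') h1 h2
  have hcc := h48_classCount h b hb γ
  rw [hsum1, hsum2] at hcc
  have hle : ∀ Q' ∈ T, Multiset.countP (fun P => h48_Red BA ρ P Q')
      (normalizedFactors (Ideal.span {(b : B)}))
      ≤ Multiset.count Q' (normalizedFactors (Ideal.span {ρ b})) :=
    fun Q' hQ' => h48_countP_red_le h (hTmax Q' hQ') b hb
  exact ((Finset.sum_eq_sum_iff_of_le hle).mp hcc.symm Q hQT).symm

open Classical in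
/-- **Tube toolkit.** For a finite set `G` of classes and a tube point `P` with class in `G`
there is an integral function `f` with nonzero reduction, a simple zero at `P` and no other
zero in the tubes of the classes in `G`. -/
theorem h48_toolkit (h : h48_Chart A BA ρ) (G : Finset k) {P : Ideal B} (hP : P.IsMaximal)
    {α : A} (hα : (h48_xv P : L) = α) :
    ∃ f : BA, ρ f ≠ 0 ∧ (f : B) ∈ P ∧
      Multiset.count P (normalizedFactors (Ideal.span {(f : B)})) = 1 ∧
      ∀ P' : Ideal B, P'.IsMaximal → P' ≠ P → (f : B) ∈ P' →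
        ¬ ∃ α' : A, (h48_xv P' : L) = α' ∧ res α' ∈ G := by
  have hQ := h48_centre_isMaximal h hP hα
  have hred : h48_Red BA ρ P (h48_centre ρ P) := h48_red_centre P
  set Q := h48_centre ρ P with hQdef
  have hQ0 : Q ≠ ⊥ := h48_ne_bot_of_isMaximal k Q hQ
  have hQprime : Q.IsPrime := hQ.isPrime
  set T : Finset (Ideal Bk) := G.biUnion (fun g =>
    (normalizedFactors (Ideal.span {algebraMap k[X] Bk (X - C g)})).toFinset) with hTdef
  have hT : ∀ Q' ∈ T, Q'.IsMaximal := by
    intro Q' hQ'
    obtain ⟨g, -, hg⟩ := Finset.mem_biUnion.mp hQ'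
    have h1 : Prime Q' := prime_of_normalized_factor Q' (Multiset.mem_toFinset.mp hg)
    exact (Ideal.isPrime_of_prime h1).isMaximal h1.ne_zero
  have hTmem : ∀ Q' : Ideal Bk, Q'.IsMaximal → (h48_xv Q' : k) ∈ G → Q' ∈ T := by
    intro Q' hQ' hx
    refine Finset.mem_biUnion.mpr ⟨h48_xv Q', hx, ?_⟩
    have he0 : Ideal.span {algebraMap k[X] Bk (X - C (h48_xv Q' : k))} ≠ ⊥ := by
      rw [Ne, Ideal.span_singleton_eq_bot]
      exact (map_ne_zero_iff _ (h48_algebraMap_injective (K := k) (B := Bk))).mpr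
        (X_sub_C_ne_zero _)
    rw [Multiset.mem_toFinset, Ideal.mem_normalizedFactors_iff he0]
    exact ⟨hQ'.isPrime, (Ideal.span_singleton_le_iff_mem _).mpr (h48_xv_mem (K := k) Q' hQ')⟩
  obtain ⟨tb, htQ, htQ2, htT⟩ := h48_exists_unif Q hQ hQ0 T hT
  obtain ⟨t, rfl⟩ := h.surj tb
  obtain ⟨τ, hτ⟩ := h48_value h hP hα t
  have hτ0 : res τ = 0 := by
    have h1 := h48_red_eval h hred t τ hτ
    have h2 : algebraMap k[X] Bk (C (res τ)) ∈ Q := by
      have h3 := Q.sub_mem htQ h1
      rwa [sub_sub_cancel] at h3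
    by_contra hne
    exact h48_const_notMem hQ.ne_top hne h2
  set f : BA := t - h48_polyBA h (C τ) with hf
  have hfcoe : (f : B) = (t : B) - algebraMap L[X] B (C (τ : L)) := by
    rw [hf]
    push_cast
    rw [h48_coe_polyBA, Polynomial.map_C]
    rfl
  have hρf : ρ f = ρ t := by
    rw [hf, map_sub, h48_rho_polyBA, Polynomial.map_C, hτ0, C_0, map_zero, sub_zero]
  have hfP : (f : B) ∈ P := hfcoe ▸ hτ
  have hρt0 : ρ t ≠ 0 := fun h0 => htQ2 (h0 ▸ (Q ^ 2).zero_mem)
  have hρf0 : ρ f ≠ 0 := hρf ▸ hρt0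
  have hf0 : (f : B) ≠ 0 :=
    fun h0 => hρf0 (by rw [show f = 0 from Subtype.ext h0, map_zero])
  have hspanf : Ideal.span {(f : B)} ≠ ⊥ := by
    rw [Ne, Ideal.span_singleton_eq_bot]
    exact hf0
  have hcountQ : Multiset.count Q (normalizedFactors (Ideal.span {ρ t})) = 1 :=
    Ideal.count_normalizedFactors_eq
      (by rw [pow_one, Ideal.span_singleton_le_iff_mem]; exact htQ)
      (by rw [Ideal.span_singleton_le_iff_mem]; exact htQ2)
  have hcons := h48_conservation h f hρf0 hQ
  rw [hρf, hcountQ, Multiset.countP_eq_card_filter] at hcons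
  obtain ⟨a, ha⟩ := Multiset.card_eq_one.mp hcons.symm
  have hmemf : ∀ P' : Ideal B, P'.IsMaximal → (f : B) ∈ P' →
      P' ∈ normalizedFactors (Ideal.span {(f : B)}) := fun P' hP' hfP' =>
    (Ideal.mem_normalizedFactors_iff hspanf).mpr
      ⟨hP'.isPrime, (Ideal.span_singleton_le_iff_mem _).mpr hfP'⟩
  have hPa : P = a := by
    have h1 : P ∈ Multiset.filter (fun P => h48_Red BA ρ P Q)
        (normalizedFactors (Ideal.span {(f : B)})) :=
      Multiset.mem_filter.mpr ⟨hmemf P hP hfP, hred⟩
    rw [ha] at h1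
    exact Multiset.mem_singleton.mp h1
  refine ⟨f, hρf0, hfP, ?_, ?_⟩
  · have h1 : Multiset.count P (Multiset.filter (fun P => h48_Red BA ρ P Q)
        (normalizedFactors (Ideal.span {(f : B)})))
        = Multiset.count P (normalizedFactors (Ideal.span {(f : B)})) :=
      Multiset.count_filter_of_pos hred
    rw [← h1, ha, hPa, Multiset.count_singleton_self]
  · rintro P' hP' hne hfP' ⟨α', hα', hG'⟩
    have hQ' := h48_centre_isMaximal h hP' hα'
    have hred' : h48_Red BA ρ P' (h48_centre ρ P') := h48_red_centre P'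
    obtain ⟨α'', hα'', hcx⟩ := h48_red_tube h hP' hQ'.ne_top hred'
    have hαeq : α'' = α' := Subtype.ext (hα''.symm.trans hα')
    have hQ'T : h48_centre ρ P' ∈ T := hTmem _ hQ' (by rw [hcx, hαeq]; exact hG')
    by_cases hQQ : h48_centre ρ P' = Q
    · have h1 : P' ∈ Multiset.filter (fun P => h48_Red BA ρ P Q)
          (normalizedFactors (Ideal.span {(f : B)})) :=
        Multiset.mem_filter.mpr ⟨hmemf P' hP' hfP', hQQ ▸ hred'⟩
      rw [ha] at h1
      exact hne ((Multiset.mem_singleton.mp h1).trans hPa.symm)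
    · exact htT _ hQ'T hQQ (hρf ▸ hred' f hfP')

end Chart

end Fermat.Agent.S37
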