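import Mathlib
import Fermat.Agent.S37.ChartDefs48
import Fermat.Agent.S37.NormDescent62

/-!
# S37, row RC (twin of the core, helper50): generic norm/root calculus on a chart

`K` algebraically closed, `B` a Dedekind domain, finite and torsion free over `K[X]` (the
coordinate ring of an affine chart of a curve over `K`, `X ↦ x`).

* `h50_exists_xv`, `h50_xv_mem` : every maximal ideal contains `X - xv P`;
* `h50_ev P : B →+* K` : evaluation at the point `P` (`h50_ev_spec`, `h50_ev_eq_zero_iff`,
  `h50_ev_C`, `h50_ev_algebraMap`);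
* `h50_relNorm` : `relNorm P = (X - xv P)`;
* `h50_norm_roots` : the roots of `Algebra.norm K[X] b` are the `x`-coordinates of the prime
  factors of `(b)`, with multiplicity;
* `h50_exists_unif` : CRT uniformiser (simple zero at `Q₀`, no zero on a finite set `S`);
* `h50_fibre g` : the finite set of points over `x = g`; `h50_countP_fibre`;
* `h50_countP_eq_sum` : partition of a multiset count along a relation.
-/

set_option autoImplicit false

namespace Fermat.Agent.S37

open Polynomial UniqueFactorizationMonoid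

section Generic

variable {K : Type*} [Field K] [IsAlgClosed K]
variable {B : Type*} [CommRing B] [IsDedekindDomain B] [Algebra K[X] B] [Module.Finite K[X] B]
  [Module.IsTorsionFree K[X] B]

omit [IsAlgClosed K] [Module.Finite K[X] B] in
theorem h50_algebraMap_injective : Function.Injective (algebraMap K[X] B) :=
  FaithfulSMul.algebraMap_injective K[X] B

omit [IsAlgClosed K] [IsDedekindDomain B] [Module.Finite K[X] B] [Module.IsTorsionFree K[X] B] in
/-- a constant lying in a proper ideal is zero -/
theorem h50_C_mem {P : Ideal B} (hP : P ≠ ⊤) {c : K} (h : algebraMap K[X] B (C c) ∈ P) :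
    c = 0 := by
  by_contra hc
  apply hP
  rw [Ideal.eq_top_iff_one]
  have h5 := P.mul_mem_left (algebraMap K[X] B (C c⁻¹)) h
  rw [← map_mul, ← C_mul, inv_mul_cancel₀ hc, C_1, map_one] at h5
  exact h5

omit [IsDedekindDomain B] [Module.IsTorsionFree K[X] B] in
/-- every maximal ideal contains some `X - α` -/
theorem h50_exists_xv (P : Ideal B) [hP : P.IsMaximal] :
    ∃ α : K, algebraMap K[X] B (X - C α) ∈ P := by
  have hint : Algebra.IsIntegral K[X] B := Algebra.IsIntegral.of_finite K[X] B
  have hmax : (P.comap (algebraMap K[X] B)).IsMaximal :=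
    Ideal.isMaximal_comap_of_isIntegral_of_isMaximal P
  have hne : P.comap (algebraMap K[X] B) ≠ ⊥ :=
    Ring.ne_bot_of_isMaximal_of_not_isField hmax (Polynomial.not_isField K)
  obtain ⟨q, hq, hq0⟩ := Submodule.exists_mem_ne_zero_of_ne_bot hne
  have hsplit := (IsAlgClosed.splits q).eq_prod_roots
  rw [hsplit] at hq
  rcases hmax.isPrime.mem_or_mem hq with h1 | h1
  · exfalso
    have : q.leadingCoeff = 0 := h50_C_mem hP.ne_top h1
    exact hq0 (leadingCoeff_eq_zero.mp this)
  · rw [hmax.isPrime.multiset_prod_mem_iff_exists_mem] at h1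
    obtain ⟨p, hp, hpP⟩ := h1
    rw [Multiset.mem_map] at hp
    obtain ⟨a, -, rfl⟩ := hp
    exact ⟨a, hpP⟩

omit [IsDedekindDomain B] [Module.IsTorsionFree K[X] B] in
theorem h50_xv_mem (P : Ideal B) [hP : P.IsMaximal] :
    algebraMap K[X] B (X - C (h48_xv P : K)) ∈ P :=
  h48_xv_spec (h50_exists_xv P)

omit [IsDedekindDomain B] [Module.IsTorsionFree K[X] B] in
/-- the residue field of a maximal ideal is `K` -/
theorem h50_bijective (P : Ideal B) [hP : P.IsMaximal] :
    Function.Bijective ((Ideal.Quotient.mk P).comp ((algebraMap K[X] B).comp C)) := by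
  obtain ⟨α, hα⟩ := h50_exists_xv (K := K) P
  let f : K →+* B ⧸ P := (Ideal.Quotient.mk P).comp ((algebraMap K[X] B).comp C)
  let g : K[X] →+* B ⧸ P := (Ideal.Quotient.mk P).comp (algebraMap K[X] B)
  have hg : g.IsIntegral :=
    RingHom.IsIntegral.trans _ _
      (algebraMap_isIntegral_iff.mpr (Algebra.IsIntegral.of_finite K[X] B))
      (RingHom.isIntegral_of_surjective _ Ideal.Quotient.mk_surjective)
  have hgf : g = f.comp (evalRingHom α) := by
    apply Polynomial.ringHom_ext
    · intro a
      simp [f, g]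
    · simp only [f, g, RingHom.comp_apply, coe_evalRingHom, eval_X]
      rw [Ideal.Quotient.eq, ← map_sub]
      exact hα
  rw [hgf] at hg
  have hf : f.IsIntegral := RingHom.IsIntegral.tower_top _ _ hg
  have : IsDomain (B ⧸ P) := Ideal.Quotient.isDomain P
  exact IsAlgClosed.ringHom_bijective_of_isIntegral f hf

/-- evaluation at the point `P` -/
noncomputable def h50_ev (P : Ideal B) [hP : P.IsMaximal] : B →+* K :=
  ((RingEquiv.ofBijective _ (h50_bijective (K := K) P)).symm : B ⧸ P →+* K).comp
    (Ideal.Quotient.mk P)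

omit [IsDedekindDomain B] [Module.IsTorsionFree K[X] B] in
theorem h50_ev_spec (P : Ideal B) [hP : P.IsMaximal] (b : B) :
    b - algebraMap K[X] B (C (h50_ev (K := K) P b)) ∈ P := by
  rw [← Ideal.Quotient.eq]
  have := (RingEquiv.ofBijective _ (h50_bijective (K := K) P)).apply_symm_apply
    (Ideal.Quotient.mk P b)
  exact this.symm

omit [IsDedekindDomain B] [Module.IsTorsionFree K[X] B] in
theorem h50_ev_eq_zero_iff (P : Ideal B) [hP : P.IsMaximal] (b : B) :
    h50_ev (K := K) P b = 0 ↔ b ∈ P := by
  unfold h50_ev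
  rw [RingHom.comp_apply, RingHom.coe_coe, map_eq_zero_iff _ (RingEquiv.injective _),
    Ideal.Quotient.eq_zero_iff_mem]

omit [IsDedekindDomain B] [Module.IsTorsionFree K[X] B] in
theorem h50_ev_eq (P : Ideal B) [hP : P.IsMaximal] {b : B} {c : K}
    (h : b - algebraMap K[X] B (C c) ∈ P) : h50_ev (K := K) P b = c := by
  have h1 := h50_ev_spec (K := K) P b
  have h2 := P.sub_mem h h1
  have h3 : b - algebraMap K[X] B (C c) - (b - algebraMap K[X] B (C (h50_ev (K := K) P b)))
      = algebraMap K[X] B (C (h50_ev (K := K) P b - c)) := by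
    rw [C_sub, map_sub]; ring
  rw [h3] at h2
  have := h50_C_mem hP.ne_top h2
  exact sub_eq_zero.mp this

omit [IsDedekindDomain B] [Module.IsTorsionFree K[X] B] in
theorem h50_ev_C (P : Ideal B) [hP : P.IsMaximal] (c : K) :
    h50_ev (K := K) P (algebraMap K[X] B (C c)) = c :=
  h50_ev_eq P (by rw [sub_self]; exact P.zero_mem)

omit [IsDedekindDomain B] [Module.IsTorsionFree K[X] B] in
theorem h50_ev_algebraMap (P : Ideal B) [hP : P.IsMaximal] (p : K[X]) :
    h50_ev (K := K) P (algebraMap K[X] B p) = p.eval (h48_xv P) := by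
  apply h50_ev_eq
  obtain ⟨q, hq⟩ := Polynomial.X_sub_C_dvd_sub_C_eval (a := (h48_xv P : K)) (p := p)
  rw [← map_sub, hq, map_mul]
  exact P.mul_mem_right _ (h50_xv_mem P)

omit [IsDedekindDomain B] [Module.IsTorsionFree K[X] B] in
theorem h50_exists_value (P : Ideal B) [hP : P.IsMaximal] (b : B) :
    ∃ c : K, b - algebraMap K[X] B (C c) ∈ P :=
  ⟨_, h50_ev_spec P b⟩

omit [IsAlgClosed K] in
theorem h50_span_isMaximal (α : K) : (Ideal.span {X - C α} : Ideal K[X]).IsMaximal :=
  PrincipalIdealRing.isMaximal_of_irreducible (irreducible_X_sub_C α)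

omit [IsDedekindDomain B] [Module.IsTorsionFree K[X] B] in
theorem h50_liesOver (P : Ideal B) [hP : P.IsMaximal] :
    P.LiesOver (Ideal.span {X - C (h48_xv P : K)} : Ideal K[X]) := by
  constructor
  refine (h50_span_isMaximal _).eq_of_le ?_ ?_
  · exact Ideal.comap_ne_top _ hP.ne_top
  · rw [Ideal.span_le, Set.singleton_subset_iff]
    exact h50_xv_mem P

/-- the relative norm of a maximal ideal is generated by `X - xv P` -/
theorem h50_relNorm (P : Ideal B) [hP : P.IsMaximal] :
    Ideal.relNorm K[X] P = Ideal.span {X - C (h48_xv P : K)} := by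
  have hmax := h50_span_isMaximal (h48_xv P : K)
  have hne : (Ideal.span {X - C (h48_xv P : K)} : Ideal K[X]) ≠ ⊥ := by
    rw [Ne, Ideal.span_singleton_eq_bot]
    exact X_sub_C_ne_zero _
  have hlo := h50_liesOver (K := K) P
  refine nm62_relNorm_eq _ hne ?_ P
  intro Q hQ hQo c'
  have hQmax : Q.IsMaximal := Ideal.IsMaximal.of_liesOver_isMaximal Q
    (Ideal.span {X - C (h48_xv P : K)} : Ideal K[X])
  obtain ⟨c, hc⟩ := h50_exists_value (K := K) Q c'
  exact ⟨C c, hc⟩

omit [IsAlgClosed K] [Algebra K[X] B] [Module.Finite K[X] B] [Module.IsTorsionFree K[X] B] in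
/-- prime factors of an ideal are maximal -/
theorem h50_isMaximal_of_mem {I : Ideal B} {P : Ideal B} (hP : P ∈ normalizedFactors I) :
    P.IsMaximal := by
  have h1 := prime_of_normalized_factor P hP
  exact (Ideal.isPrime_of_prime h1).isMaximal h1.ne_zero

/-- maximal ideals are nonzero -/
theorem h50_ne_bot (K : Type*) [Field K] [IsAlgClosed K] {B : Type*} [CommRing B]
    [IsDedekindDomain B] [Algebra K[X] B] [Module.Finite K[X] B] [Module.IsTorsionFree K[X] B]
    (P : Ideal B) [hP : P.IsMaximal] : P ≠ ⊥ := by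
  intro h
  have h1 := h50_xv_mem (K := K) P
  rw [h, Ideal.mem_bot] at h1
  have h2 := h50_algebraMap_injective (K := K) (B := B) (h1.trans (map_zero _).symm)
  exact X_sub_C_ne_zero _ h2

omit [IsDedekindDomain B] [IsAlgClosed K] [Algebra K[X] B] [Module.Finite K[X] B]
  [Module.IsTorsionFree K[X] B] in
theorem h50_span_ne_bot {b : B} (hb : b ≠ 0) : (Ideal.span {b} : Ideal B) ≠ ⊥ := by
  rwa [Ne, Ideal.span_singleton_eq_bot]

omit [IsAlgClosed K] [Algebra K[X] B] [Module.Finite K[X] B] [Module.IsTorsionFree K[X] B] in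
/-- membership in the factor multiset -/
theorem h50_mem_factors {b : B} (hb : b ≠ 0) {P : Ideal B} [hP : P.IsPrime] :
    P ∈ normalizedFactors (Ideal.span {b}) ↔ b ∈ P := by
  rw [Ideal.mem_normalizedFactors_iff (h50_span_ne_bot hb), Ideal.span_le,
    Set.singleton_subset_iff]
  exact ⟨fun h => h.2, fun h => ⟨hP, h⟩⟩

omit [IsAlgClosed K] [Algebra K[X] B] [Module.Finite K[X] B] [Module.IsTorsionFree K[X] B] in
theorem h50_factors_mul {x y : B} (hx : x ≠ 0) (hy : y ≠ 0) :
    normalizedFactors (Ideal.span {x * y})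
      = normalizedFactors (Ideal.span {x}) + normalizedFactors (Ideal.span {y}) := by
  rw [← Ideal.span_singleton_mul_span_singleton,
    normalizedFactors_mul (h50_span_ne_bot hx) (h50_span_ne_bot hy)]

/-- **Roots of the norm**: the roots of `N(b)` are the `x`-coordinates of the zeros of `b`. -/
theorem h50_norm_roots {b : B} (hb : b ≠ 0) :
    (Algebra.norm K[X] b).roots
      = (normalizedFactors (Ideal.span {b})).map (h48_xv (K := K)) := by
  have hI : (Ideal.span {b} : Ideal B) ≠ ⊥ := h50_span_ne_bot hb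
  have h1 : Ideal.span {Algebra.norm K[X] b} = Ideal.relNorm K[X] (Ideal.span {b}) := by
    rw [Ideal.relNorm_singleton, Algebra.intNorm_eq_norm]
  have h2 : Ideal.relNorm K[X] (Ideal.span {b})
      = Ideal.span {((normalizedFactors (Ideal.span {b})).map
          (fun P : Ideal B => X - C (h48_xv P : K))).prod} := by
    conv_lhs => rw [← Ideal.prod_normalizedFactors_eq_self hI]
    rw [map_multiset_prod, ← Ideal.multiset_prod_span_singleton, Multiset.map_map]
    congr 1
    apply Multiset.map_congr rfl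
    intro P hP
    have := h50_isMaximal_of_mem hP
    exact h50_relNorm P
  rw [h2, Ideal.span_singleton_eq_span_singleton] at h1
  rw [h1.roots_eq]
  have h3 : (normalizedFactors (Ideal.span {b})).map (fun P : Ideal B => X - C (h48_xv P : K))
      = ((normalizedFactors (Ideal.span {b})).map (h48_xv (K := K))).map (fun a => X - C a) := by
    rw [Multiset.map_map]
    rfl
  rw [h3, roots_multiset_prod_X_sub_C]

open Classical in
/-- **Uniformiser by CRT**: an element with a simple zero at `Q₀` and no zero on `S`. -/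
theorem h50_exists_unif (K : Type*) [Field K] [IsAlgClosed K] {B : Type*} [CommRing B]
    [IsDedekindDomain B] [Algebra K[X] B] [Module.Finite K[X] B] [Module.IsTorsionFree K[X] B]
    (Q₀ : Ideal B) [hQ₀ : Q₀.IsMaximal] (S : Finset (Ideal B))
    (hS : ∀ Q ∈ S, Q.IsMaximal) (hQS : Q₀ ∉ S) :
    ∃ t : B, t ∈ Q₀ ∧ Multiset.count Q₀ (normalizedFactors (Ideal.span {t})) = 1 ∧
      ∀ Q ∈ S, t ∉ Q := by
  have hne : Q₀ ≠ ⊥ := h50_ne_bot K Q₀
  have hlt : Q₀ ^ 2 < Q₀ ^ 1 := Ideal.pow_right_strictAnti Q₀ hne hQ₀.ne_top (by norm_num)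
  obtain ⟨u, hu1, hu2⟩ := SetLike.exists_of_lt hlt
  rw [pow_one] at hu1
  obtain ⟨y, hy⟩ := IsDedekindDomain.exists_forall_sub_mem_ideal (s := insert Q₀ S)
    (fun Q : Ideal B => Q) (fun Q => if Q = Q₀ then 2 else 1)
    (by
      intro Q hQ
      rcases Finset.mem_insert.mp hQ with rfl | hQ
      · exact Ideal.prime_of_isPrime hne hQ₀.isPrime
      · have := hS Q hQ
        exact Ideal.prime_of_isPrime (h50_ne_bot K Q) this.isPrime)
    (fun i _ j _ hij => hij)
    (fun i => if i.1 = Q₀ then u else 1)
  have h0 := hy Q₀ (Finset.mem_insert_self _ _)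
  simp only [if_true] at h0
  have hyQ : y ∈ Q₀ := by
    have : y = (y - u) + u := by ring
    rw [this]
    exact Q₀.add_mem (Ideal.pow_le_self (by norm_num) h0) hu1
  have hyQ2 : y ∉ Q₀ ^ 2 := by
    intro h
    apply hu2
    have : u = y - (y - u) := by ring
    rw [this]
    exact (Q₀ ^ 2).sub_mem h h0
  refine ⟨y, hyQ, ?_, ?_⟩
  · have := hQ₀.isPrime
    apply Ideal.count_normalizedFactors_eq
    · rw [pow_one, Ideal.span_le, Set.singleton_subset_iff]
      exact hyQ
    · rw [Ideal.span_le, Set.singleton_subset_iff]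
      exact hyQ2
  · intro Q hQ hyQ'
    have h1 := hy Q (Finset.mem_insert_of_mem hQ)
    have hne' : Q ≠ Q₀ := fun h => hQS (h ▸ hQ)
    simp only [hne', if_false, pow_one] at h1
    have : (1 : B) = y - (y - 1) := by ring
    have h2 : (1 : B) ∈ Q := by
      rw [this]
      exact Q.sub_mem hyQ' h1
    exact (hS Q hQ).ne_top ((Ideal.eq_top_iff_one Q).mpr h2)

variable (B) in
open Classical in
/-- the points of the chart over `x = g` -/
noncomputable def h50_fibre (g : K) : Finset (Ideal B) :=
  (normalizedFactors (Ideal.span {algebraMap K[X] B (X - C g)})).toFinset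

theorem h50_mem_fibre {g : K} {Q : Ideal B} :
    Q ∈ h50_fibre B g ↔ Q.IsMaximal ∧ h48_xv Q = g := by
  have hne : algebraMap K[X] B (X - C g) ≠ 0 := by
    intro h
    exact X_sub_C_ne_zero g (h50_algebraMap_injective (h.trans (map_zero _).symm))
  unfold h50_fibre
  rw [Multiset.mem_toFinset]
  constructor
  · intro h
    have hmax := h50_isMaximal_of_mem h
    have := hmax.isPrime
    refine ⟨hmax, h48_xv_eq hmax.ne_top ((h50_mem_factors hne).mp h)⟩
  · rintro ⟨hmax, rfl⟩
    have := hmax.isPrime
    exact (h50_mem_factors hne).mpr (h50_xv_mem Q)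

end Generic

section Comb

open Classical in
/-- partition of a count along a relation -/
theorem h50_countP_eq_sum {α β : Type*} (s : Multiset α) (S : Finset β) (p : α → Prop)
    (r : α → β → Prop)
    (h1 : ∀ a ∈ s, p a → ∃! q, q ∈ S ∧ r a q)
    (h2 : ∀ a ∈ s, ¬ p a → ∀ q ∈ S, ¬ r a q) :
    s.countP p = ∑ q ∈ S, s.countP (fun a => r a q) := by
  induction s using Multiset.induction_on with
  | empty => simp
  | cons a s ih =>
    have ih' := ih (fun b hb => h1 b (Multiset.mem_cons_of_mem hb))
      (fun b hb => h2 b (Multiset.mem_cons_of_mem hb))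
    simp only [Multiset.countP_cons, Finset.sum_add_distrib]
    rw [ih']
    congr 1
    by_cases hp : p a
    · obtain ⟨q, ⟨hqS, hq⟩, huniq⟩ := h1 a (Multiset.mem_cons_self a s) hp
      rw [if_pos hp, Finset.sum_eq_single q]
      · rw [if_pos hq]
      · intro q' hq' hne
        rw [if_neg]
        intro hr
        exact hne (huniq q' ⟨hq', hr⟩)
      · intro h
        exact absurd hqS h
    · rw [if_neg hp, Finset.sum_eq_zero]
      intro q hq
      rw [if_neg (h2 a (Multiset.mem_cons_self a s) hp q hq)]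

end Comb

section Fibre

variable {K : Type*} [Field K] [IsAlgClosed K]
variable {B : Type*} [CommRing B] [IsDedekindDomain B] [Algebra K[X] B] [Module.Finite K[X] B]
  [Module.IsTorsionFree K[X] B]

open Classical in
/-- the number of zeros of `y` over `x = g` is the sum of the multiplicities over the fibre -/
theorem h50_countP_fibre (y : B) (g : K) :
    (normalizedFactors (Ideal.span {y})).countP (fun Q : Ideal B => h48_xv Q = g)
      = ∑ Q ∈ h50_fibre B g, (normalizedFactors (Ideal.span {y})).count Q := by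
  rw [h50_countP_eq_sum (normalizedFactors (Ideal.span {y})) (h50_fibre B g)
    (fun Q : Ideal B => h48_xv Q = g) (fun Q' Q => Q = Q')]
  · rfl
  · intro Q' hQ' hg
    refine ⟨Q', ⟨h50_mem_fibre.mpr ⟨h50_isMaximal_of_mem hQ', hg⟩, rfl⟩, ?_⟩
    rintro q ⟨-, rfl⟩
    rfl
  · rintro Q' - hg q hq rfl
    exact hg (h50_mem_fibre.mp hq).2

end Fibre

end Fermat.Agent.S37
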