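import Mathlib
import Fermat.Agent.S37.ChartDefs48
import Fermat.Agent.S37.GaussRoots48
import Fermat.Agent.S37.ChartNorm50

/-!
# S37, row RC: the core theorems T0–T4 for a chart (independent twin by helper50)

Setting of `ChartDefs48.lean` (helper48): `L` algebraically closed with a valuation subring `A`
whose residue field `k` is algebraically closed; `B` (resp. `Bk`) a Dedekind domain, finite and
torsion free over `L[X]` (resp. `k[X]`); `BA ⊆ B` the integral functions and `ρ : BA → Bk` the
reduction, with `h : h48_Chart A BA ρ`.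

* `h50_value`        (T0) : values of integral functions at tube points lie in `A`;
* `h50_value_ker`         : the kernel of `ρ` takes values in the maximal ideal at tube points;
* `h50_exists_red`   (T1) : a tube point `P` (`x(P) ∈ A`) has a unique reduction `Q`;
* `h50_red_tube`     (T2) : if `P` reduces to `Q` then `x(P) ∈ A` and `x(Q) = res x(P)`;
* `h50_class_count`       : zeros of `ρ b` over `x̄ = res γ` = zeros of `b` in the disc of `γ`;
* `h50_count_le`          : zeros of `b` reducing to `Q₀` are at most `ord_{Q₀} (ρ b)`;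
* `h50_conservation` (T3) : `ord_Q (ρ b) = #{zeros of b reducing to Q}` (with multiplicity);
* `h50_toolkit`      (T4) : a function with a simple zero at `P` and no other zero in the
  tubes over a finite set `G` of classes.

Auxiliary: `h50_poly` (polynomials over `A` in the coordinate as elements of `BA`), `h50_evA`
(evaluation `BA → A` at a tube point), `h50_chi` (its reduction, a character of `Bk`),
`h50_tube_iff`, `h50_lin`, `h50_clear`.
-/

set_option autoImplicit false
set_option linter.unusedSectionVars false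

namespace Fermat.Agent.S37

open Polynomial UniqueFactorizationMonoid

section Core

variable {L : Type*} [Field L] [IsAlgClosed L] {A : ValuationSubring L}
  [IsAlgClosed (IsLocalRing.ResidueField A)]
variable {B : Type*} [CommRing B] [IsDedekindDomain B] [Algebra L[X] B] [Module.Finite L[X] B]
  [Module.IsTorsionFree L[X] B]
variable {Bk : Type*} [CommRing Bk] [IsDedekindDomain Bk]
  [Algebra (IsLocalRing.ResidueField A)[X] Bk] [Module.Finite (IsLocalRing.ResidueField A)[X] Bk]
  [Module.IsTorsionFree (IsLocalRing.ResidueField A)[X] Bk]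
variable {BA : Subring B} {ρ : BA →+* Bk}

/-- a polynomial over `A` in the coordinate, as an integral function -/
noncomputable def h50_poly (h : h48_Chart A BA ρ) (p : A[X]) : BA :=
  ⟨algebraMap L[X] B (p.map A.subtype), h.poly_mem p⟩

theorem h50_poly_coe (h : h48_Chart A BA ρ) (p : A[X]) :
    ((h50_poly h p : BA) : B) = algebraMap L[X] B (p.map A.subtype) := rfl

theorem h50_rho_poly (h : h48_Chart A BA ρ) (p : A[X]) :
    ρ (h50_poly h p) = algebraMap (IsLocalRing.ResidueField A)[X] Bk
      (p.map (IsLocalRing.residue A)) := h.rho_poly p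

/-- **Key vanishing**: if an integral function vanishes at a tube point `P` (`x(P) = a ∈ A`),
then the norm of its reduction vanishes at `res a`. -/
theorem h50_norm_eval (h : h48_Chart A BA ρ) (P : Ideal B) [hP : P.IsMaximal] (a : A)
    (ha : h48_xv P = (a : L)) (b : BA) (hb : (b : B) ∈ P) :
    (Algebra.norm (IsLocalRing.ResidueField A)[X] (ρ b)).eval (IsLocalRing.residue A a) = 0 := by
  obtain ⟨p, hp1, hp2⟩ := h.norm b
  rw [hp2, eval_map, eval₂_at_apply]
  by_cases hb0 : (b : B) = 0
  · have hp0 : p = 0 := by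
      have h1 : p.map A.subtype = 0 := by rw [← hp1, hb0, Algebra.norm_zero]
      exact Polynomial.map_injective _ Subtype.val_injective (by rw [h1, Polynomial.map_zero])
    rw [hp0, eval_zero, map_zero]
  · have hmem : h48_xv P ∈ (Algebra.norm L[X] (b : B)).roots := by
      rw [h50_norm_roots hb0, Multiset.mem_map]
      have := hP.isPrime
      exact ⟨P, (h50_mem_factors hb0).mpr hb, rfl⟩
    have hroot := Polynomial.isRoot_of_mem_roots hmem
    rw [hp1, ha, IsRoot.def, eval_map] at hroot
    change eval₂ A.subtype (A.subtype a) p = 0 at hroot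
    rw [eval₂_at_apply] at hroot
    have : p.eval a = 0 := Subtype.val_injective (by rw [← A.subtype_apply, hroot]; rfl)
    rw [this, map_zero]

/-- the inverse of a non-integral element reduces to zero -/
theorem h50_res_inv {c : L} (hc : c ∉ A) (hc' : c⁻¹ ∈ A) :
    IsLocalRing.residue A ⟨c⁻¹, hc'⟩ = 0 := by
  by_contra hne
  have hu : IsUnit (⟨c⁻¹, hc'⟩ : A) := (IsLocalRing.residue_ne_zero_iff_isUnit _).mp hne
  obtain ⟨v, hv⟩ := hu.exists_right_inv
  apply hc
  have h1 : c⁻¹ * (v : L) = 1 := by
    have := congrArg Subtype.val hv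
    simpa using this
  have hc0 : c ≠ 0 := by
    rintro rfl
    simp at h1
  have : (v : L) = c := by
    field_simp at h1
    exact h1
  rw [← this]
  exact v.2

/-- auxiliary: `1 - u b` cannot vanish at a tube point when its reduction is `1` -/
theorem h50_one_sub_notMem (h : h48_Chart A BA ρ) (P : Ideal B) [hP : P.IsMaximal] (a : A)
    (ha : h48_xv P = (a : L)) (b : BA) (u : A)
    (hz : algebraMap (IsLocalRing.ResidueField A)[X] Bk (C (IsLocalRing.residue A u)) * ρ b = 0) :
    ((1 - h50_poly h (C u) * b : BA) : B) ∉ P := by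
  intro hmem
  have h1 := h50_norm_eval h P a ha (1 - h50_poly h (C u) * b) hmem
  have h2 : ρ (1 - h50_poly h (C u) * b) = 1 := by
    rw [map_sub, map_one, map_mul, h50_rho_poly, Polynomial.map_C, hz, sub_zero]
  rw [h2, map_one, eval_one] at h1
  exact one_ne_zero h1

/-- **(T0)** values of integral functions at tube points lie in `A`. -/
theorem h50_value (h : h48_Chart A BA ρ) {P : Ideal B} (hP : P.IsMaximal)
    (hx : h48_xv P ∈ A) (b : BA) :
    ∃ β : A, (b : B) - algebraMap L[X] B (C (β : L)) ∈ P := by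
  obtain ⟨c, hc⟩ := h50_exists_value (K := L) P (b : B)
  by_cases hcA : c ∈ A
  · exact ⟨⟨c, hcA⟩, hc⟩
  · exfalso
    have hc' : c⁻¹ ∈ A := (A.mem_or_inv_mem c).resolve_left hcA
    have hc0 : c ≠ 0 := fun h0 => hcA (h0 ▸ A.zero_mem)
    have hres := h50_res_inv hcA hc'
    refine h50_one_sub_notMem h P ⟨h48_xv P, hx⟩ rfl b ⟨c⁻¹, hc'⟩ ?_ ?_
    · rw [hres, C_0, map_zero, zero_mul]
    · have heq : ((1 - h50_poly h (C (⟨c⁻¹, hc'⟩ : A)) * b : BA) : B)
          = - (algebraMap L[X] B (C c⁻¹) * ((b : B) - algebraMap L[X] B (C c))) := by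
        have h1 : algebraMap L[X] B (C c⁻¹) * algebraMap L[X] B (C c) = 1 := by
          rw [← map_mul, ← C_mul, inv_mul_cancel₀ hc0, C_1, map_one]
        push_cast
        rw [h50_poly_coe, Polynomial.map_C]
        change 1 - algebraMap L[X] B (C c⁻¹) * (b : B) = _
        rw [mul_sub, h1]
        ring
      rw [heq]
      exact P.neg_mem (P.mul_mem_left _ hc)

/-- the reduction kernel vanishes modulo `𝔪_A` at tube points. -/
theorem h50_value_ker (h : h48_Chart A BA ρ) {P : Ideal B} (hP : P.IsMaximal)
    (hx : h48_xv P ∈ A) (b : BA) (hb : ρ b = 0) (β : A)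
    (hβ : (b : B) - algebraMap L[X] B (C (β : L)) ∈ P) : IsLocalRing.residue A β = 0 := by
  by_contra hne
  have hu : IsUnit β := (IsLocalRing.residue_ne_zero_iff_isUnit _).mp hne
  obtain ⟨u, hu⟩ := hu.exists_left_inv
  refine h50_one_sub_notMem h P ⟨h48_xv P, hx⟩ rfl b u ?_ ?_
  · rw [hb, mul_zero]
  · have h1 : algebraMap L[X] B (C (u : L)) * algebraMap L[X] B (C (β : L)) = 1 := by
      rw [← map_mul, ← C_mul]
      have : (u : L) * (β : L) = 1 := by
        have := congrArg Subtype.val hu
        simpa using this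
      rw [this, C_1, map_one]
    have heq : ((1 - h50_poly h (C u) * b : BA) : B)
        = - (algebraMap L[X] B (C (u : L)) * ((b : B) - algebraMap L[X] B (C (β : L)))) := by
      push_cast
      rw [h50_poly_coe, Polynomial.map_C]
      change 1 - algebraMap L[X] B (C (u : L)) * (b : B) = _
      rw [mul_sub, h1]
      ring
    rw [heq]
    exact P.neg_mem (P.mul_mem_left _ hβ)

/-- **(T2)** a point reducing to `Q` lies in the tube over `x(Q)`. -/
theorem h50_red_tube (h : h48_Chart A BA ρ) {P : Ideal B} {Q : Ideal Bk} (hP : P.IsMaximal)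
    (hQ : Q.IsMaximal) (hred : h48_Red BA ρ P Q) :
    ∃ α : A, h48_xv P = (α : L) ∧ h48_xv Q = IsLocalRing.residue A α := by
  have hc := h50_xv_mem (K := L) P
  by_cases hcA : h48_xv P ∈ A
  · refine ⟨⟨h48_xv P, hcA⟩, rfl, ?_⟩
    apply h48_xv_eq hQ.ne_top
    have h1 := hred (h50_poly h (X - C (⟨h48_xv P, hcA⟩ : A))) (by
      rw [h50_poly_coe, Polynomial.map_sub, Polynomial.map_X, Polynomial.map_C]
      exact hc)
    rw [h50_rho_poly, Polynomial.map_sub, Polynomial.map_X, Polynomial.map_C] at h1
    exact h1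
  · exfalso
    have hc' : (h48_xv P : L)⁻¹ ∈ A := (A.mem_or_inv_mem _).resolve_left hcA
    have hc0 : (h48_xv P : L) ≠ 0 := fun h0 => hcA (h0 ▸ A.zero_mem)
    have hres := h50_res_inv hcA hc'
    have h1 := hred (h50_poly h (C 1 - C (⟨(h48_xv P : L)⁻¹, hc'⟩ : A) * X)) (by
      rw [h50_poly_coe, Polynomial.map_sub, Polynomial.map_mul, Polynomial.map_X,
        Polynomial.map_C, Polynomial.map_C]
      have : (C (A.subtype 1) - C (A.subtype ⟨(h48_xv P : L)⁻¹, hc'⟩) * X : L[X])
          = C (-(h48_xv P : L)⁻¹) * (X - C (h48_xv P : L)) := by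
        simp only [ValuationSubring.subtype_apply, OneMemClass.coe_one]
        rw [mul_sub, ← C_mul, neg_mul, inv_mul_cancel₀ hc0, C_neg, C_neg, C_1]
        ring
      rw [this, map_mul]
      exact P.mul_mem_left _ hc)
    rw [h50_rho_poly, Polynomial.map_sub, Polynomial.map_mul, Polynomial.map_X,
      Polynomial.map_C, Polynomial.map_C, hres, C_0, zero_mul, sub_zero, map_one, C_1,
      map_one] at h1
    exact hQ.ne_top ((Ideal.eq_top_iff_one Q).mpr h1)

/-- evaluation of integral functions at a tube point, with values in `A` -/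
noncomputable def h50_evA (h : h48_Chart A BA ρ) (P : Ideal B) [hP : P.IsMaximal]
    (hx : h48_xv P ∈ A) : BA →+* A :=
  ((h50_ev (K := L) P).comp BA.subtype).codRestrict A (fun b => by
    obtain ⟨β, hβ⟩ := h50_value h hP hx b
    have h1 := h50_ev_eq (K := L) P hβ
    change h50_ev (K := L) P (b : B) ∈ A
    rw [h1]
    exact β.2)

theorem h50_evA_coe (h : h48_Chart A BA ρ) (P : Ideal B) [hP : P.IsMaximal]
    (hx : h48_xv P ∈ A) (b : BA) :
    ((h50_evA h P hx b : A) : L) = h50_ev (K := L) P (b : B) := rfl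

theorem h50_evA_spec (h : h48_Chart A BA ρ) (P : Ideal B) [hP : P.IsMaximal]
    (hx : h48_xv P ∈ A) (b : BA) :
    (b : B) - algebraMap L[X] B (C ((h50_evA h P hx b : A) : L)) ∈ P := by
  rw [h50_evA_coe]
  exact h50_ev_spec P (b : B)

theorem h50_evA_poly (h : h48_Chart A BA ρ) (P : Ideal B) [hP : P.IsMaximal]
    (hx : h48_xv P ∈ A) (p : A[X]) :
    h50_evA h P hx (h50_poly h p) = p.eval ⟨h48_xv P, hx⟩ := by
  apply Subtype.val_injective
  rw [h50_evA_coe, h50_poly_coe, h50_ev_algebraMap, eval_map]
  change eval₂ A.subtype (A.subtype ⟨h48_xv P, hx⟩) p = _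
  rw [eval₂_at_apply]
  rfl

/-- the reduction of the evaluation at a tube point, as a character of `Bk` -/
noncomputable def h50_chi (h : h48_Chart A BA ρ) (P : Ideal B) [hP : P.IsMaximal]
    (hx : h48_xv P ∈ A) : Bk →+* IsLocalRing.ResidueField A :=
  ρ.liftOfSurjective h.surj ⟨(IsLocalRing.residue A).comp (h50_evA h P hx), by
    intro b hb
    rw [RingHom.mem_ker] at hb ⊢
    rw [RingHom.comp_apply]
    exact h50_value_ker h hP hx b hb _ (h50_evA_spec h P hx b)⟩

theorem h50_chi_rho (h : h48_Chart A BA ρ) (P : Ideal B) [hP : P.IsMaximal]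
    (hx : h48_xv P ∈ A) (b : BA) :
    h50_chi h P hx (ρ b) = IsLocalRing.residue A (h50_evA h P hx b) :=
  ρ.liftOfRightInverse_comp_apply _ _ _ b

theorem h50_chi_surjective (h : h48_Chart A BA ρ) (P : Ideal B) [hP : P.IsMaximal]
    (hx : h48_xv P ∈ A) : Function.Surjective (h50_chi h P hx) := by
  intro c
  obtain ⟨a, rfl⟩ := IsLocalRing.residue_surjective c
  refine ⟨ρ (h50_poly h (C a)), ?_⟩
  rw [h50_chi_rho, h50_evA_poly, eval_C]

/-- **(T1)** a tube point has a unique reduction. -/
theorem h50_exists_red (h : h48_Chart A BA ρ) {P : Ideal B} (hP : P.IsMaximal)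
    (hx : h48_xv P ∈ A) : ∃! Q : Ideal Bk, Q.IsMaximal ∧ h48_Red BA ρ P Q := by
  have hmax : (RingHom.ker (h50_chi h P hx)).IsMaximal :=
    RingHom.ker_isMaximal_of_surjective _ (h50_chi_surjective h P hx)
  refine ⟨RingHom.ker (h50_chi h P hx), ⟨hmax, ?_⟩, ?_⟩
  · intro b hb
    rw [RingHom.mem_ker, h50_chi_rho]
    have : h50_evA h P hx b = 0 := by
      apply Subtype.val_injective
      rw [h50_evA_coe]
      exact (h50_ev_eq_zero_iff P _).mpr hb
    rw [this, map_zero]
  · rintro Q' ⟨hQ', hred⟩
    symm
    apply hmax.eq_of_le hQ'.ne_top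
    intro y hy
    obtain ⟨b, rfl⟩ := h.surj y
    rw [RingHom.mem_ker, h50_chi_rho] at hy
    have h1 := hred (b - h50_poly h (C (h50_evA h P hx b))) (by
      push_cast
      rw [h50_poly_coe, Polynomial.map_C]
      exact h50_evA_spec h P hx b)
    rw [map_sub, h50_rho_poly, Polynomial.map_C, hy, C_0, map_zero, sub_zero] at h1
    exact h1

/-- the residue disc of `γ` -/
theorem h50_tube_iff (γ : A) (c : L) :
    A.valuation (c - (γ : L)) < 1 ↔
      ∃ a : A, c = (a : L) ∧ IsLocalRing.residue A a = IsLocalRing.residue A γ := by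
  constructor
  · intro hv
    have h1 : c - (γ : L) ∈ A := (A.valuation_le_one_iff _).mp hv.le
    have h2 : c ∈ A := by
      have : c = (c - (γ : L)) + (γ : L) := by ring
      rw [this]
      exact A.add_mem _ _ h1 γ.2
    exact ⟨⟨c, h2⟩, rfl, ((h48_residue_eq_iff A ⟨c, h2⟩ γ).mpr hv).symm⟩
  · rintro ⟨a, rfl, ha⟩
    exact (h48_residue_eq_iff A a γ).mp ha.symm

open Classical in
/-- **Class-level count**: the zeros of `ρ b` over `x̄ = res γ` are as many as the zeros of `b`
in the residue disc of `γ`. -/
theorem h50_class_count (h : h48_Chart A BA ρ) (b : BA) (hb : ρ b ≠ 0) (γ : A) :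
    (normalizedFactors (Ideal.span {ρ b})).countP
        (fun Q : Ideal Bk => h48_xv Q = IsLocalRing.residue A γ)
      = (normalizedFactors (Ideal.span {(b : B)})).countP
        (fun P : Ideal B => A.valuation (h48_xv P - (γ : L)) < 1) := by
  have hb0 : (b : B) ≠ 0 := by
    intro h0
    apply hb
    have : b = 0 := Subtype.val_injective h0
    rw [this, map_zero]
  obtain ⟨p, hp1, hp2⟩ := h.norm b
  have hp : p.map (IsLocalRing.residue A) ≠ 0 := by
    rw [← hp2]
    exact (Algebra.norm_ne_zero_iff).mpr hb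
  have e1 := h50_norm_roots (K := IsLocalRing.ResidueField A) hb
  have e2 := h50_norm_roots (K := L) hb0
  have e3 := h48_rootMultiplicity_residue A p hp γ
  rw [← hp1, e2, ← hp2, ← Polynomial.count_roots, e1] at e3
  rw [Multiset.count_map, Multiset.countP_map] at e3
  rw [Multiset.countP_eq_card_filter, Multiset.countP_eq_card_filter]
  rw [← e3]
  congr 1
  apply Multiset.filter_congr
  intro Q _
  exact eq_comm

open Classical in
/-- the normalised linear factor at `a'`, with coefficients in `A` and nonzero reduction -/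
noncomputable def h50_lin (A : ValuationSubring L) (a' : L) : A[X] :=
  if h : a' ∈ A then X - C ⟨a', h⟩
  else C 1 - C ⟨a'⁻¹, (A.mem_or_inv_mem a').resolve_left h⟩ * X

theorem h50_lin_map (a' : L) :
    ∃ u : L, (h50_lin A a').map A.subtype = C u * (X - C a') := by
  unfold h50_lin
  split_ifs with h
  · refine ⟨1, ?_⟩
    rw [Polynomial.map_sub, Polynomial.map_X, Polynomial.map_C, C_1, one_mul]
    rfl
  · have hc0 : a' ≠ 0 := fun h0 => h (h0 ▸ A.zero_mem)
    refine ⟨-a'⁻¹, ?_⟩
    rw [Polynomial.map_sub, Polynomial.map_mul, Polynomial.map_X, Polynomial.map_C,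
      Polynomial.map_C]
    simp only [ValuationSubring.subtype_apply, OneMemClass.coe_one]
    rw [mul_sub, ← C_mul, neg_mul, inv_mul_cancel₀ hc0, C_neg, C_neg, C_1]
    ring

theorem h50_lin_eval (γ : A) (a' : L) (hv : ¬ A.valuation (a' - (γ : L)) < 1) :
    ((h50_lin A a').map (IsLocalRing.residue A)).eval (IsLocalRing.residue A γ) ≠ 0 := by
  unfold h50_lin
  split_ifs with h
  · rw [Polynomial.map_sub, Polynomial.map_X, Polynomial.map_C, eval_sub, eval_X, eval_C,
      sub_ne_zero]
    intro heq
    exact hv ((h48_residue_eq_iff A ⟨a', h⟩ γ).mp heq)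
  · rw [Polynomial.map_sub, Polynomial.map_mul, Polynomial.map_X, Polynomial.map_C,
      Polynomial.map_C, h50_res_inv h _, C_0, zero_mul, sub_zero, map_one, C_1, eval_one]
    exact one_ne_zero

/-- **Clearing lemma**: finitely many points outside the residue disc of `γ` are zeros of a
polynomial over `A` in the coordinate whose reduction does not vanish at `res γ`. -/
theorem h50_clear (γ : A) (M : Multiset (Ideal B)) (hM : ∀ P ∈ M, P.IsMaximal)
    (hv : ∀ P ∈ M, ¬ A.valuation (h48_xv P - (γ : L)) < 1) :
    ∃ s : A[X], (s.map (IsLocalRing.residue A)).eval (IsLocalRing.residue A γ) ≠ 0 ∧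
      M.prod ∣ Ideal.span {algebraMap L[X] B (s.map A.subtype)} := by
  induction M using Multiset.induction_on with
  | empty =>
    refine ⟨1, ?_, ?_⟩
    · rw [Polynomial.map_one, eval_one]
      exact one_ne_zero
    · rw [Multiset.prod_zero]
      exact one_dvd _
  | cons P M ih =>
    obtain ⟨s, hs1, hs2⟩ := ih (fun P' hP' => hM P' (Multiset.mem_cons_of_mem hP'))
      (fun P' hP' => hv P' (Multiset.mem_cons_of_mem hP'))
    have hPmax := hM P (Multiset.mem_cons_self P M)
    refine ⟨h50_lin A (h48_xv P) * s, ?_, ?_⟩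
    · rw [Polynomial.map_mul, eval_mul]
      exact mul_ne_zero (h50_lin_eval γ _ (hv P (Multiset.mem_cons_self P M))) hs1
    · rw [Multiset.prod_cons, Polynomial.map_mul, map_mul,
        ← Ideal.span_singleton_mul_span_singleton]
      refine mul_dvd_mul ?_ hs2
      rw [Ideal.dvd_span_singleton]
      obtain ⟨u, hu⟩ := h50_lin_map (A := A) (h48_xv P : L)
      rw [hu, map_mul]
      exact P.mul_mem_left _ (h50_xv_mem P)

open Classical in
/-- **Inequality**: the zeros of `b` reducing to `Q₀` are at most as many as the order of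
vanishing of `ρ b` at `Q₀`. -/
theorem h50_count_le (h : h48_Chart A BA ρ) {Q₀ : Ideal Bk} (hQ₀ : Q₀.IsMaximal) :
    ∀ (n : ℕ) (b : BA), ρ b ≠ 0 →
      (normalizedFactors (Ideal.span {(b : B)})).countP (fun P => h48_Red BA ρ P Q₀) = n →
      n ≤ (normalizedFactors (Ideal.span {ρ b})).count Q₀ := by
  obtain ⟨γ, hγ⟩ := IsLocalRing.residue_surjective (h48_xv Q₀ : IsLocalRing.ResidueField A)
  -- a uniformiser at `Q₀` without other zeros over `x̄(Q₀)`
  obtain ⟨tb, htQ, htc, htS⟩ := h50_exists_unif (IsLocalRing.ResidueField A) Q₀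
    ((h50_fibre Bk (h48_xv Q₀ : IsLocalRing.ResidueField A)).erase Q₀)
    (fun Q hQ => (h50_mem_fibre.mp (Finset.mem_of_mem_erase hQ)).1) (Finset.notMem_erase _ _)
  obtain ⟨t, rfl⟩ := h.surj tb
  have ht0 : ρ t ≠ 0 := by
    intro h0
    rw [h0, Set.singleton_zero, Ideal.span_zero, ← Ideal.zero_eq_bot, normalizedFactors_zero,
      Multiset.count_zero] at htc
    exact zero_ne_one htc
  have hU : (normalizedFactors (Ideal.span {ρ t})).countP
      (fun Q : Ideal Bk => h48_xv Q = IsLocalRing.residue A γ) = 1 := by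
    rw [hγ, h50_countP_fibre, ← Finset.add_sum_erase _ _ (h50_mem_fibre.mpr ⟨hQ₀, rfl⟩), htc,
      Finset.sum_eq_zero, add_zero]
    intro Q hQ
    rw [Multiset.count_eq_zero]
    intro hmem
    have hQmax := (h50_mem_fibre.mp (Finset.mem_of_mem_erase hQ)).1
    have := hQmax.isPrime
    exact htS Q hQ ((h50_mem_factors ht0).mp hmem)
  intro n
  induction n with
  | zero =>
    intro b _ _
    exact Nat.zero_le _
  | succ n ih =>
    intro b hb hcount
    have hb0 : (b : B) ≠ 0 := by
      intro h0
      apply hb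
      have : b = 0 := Subtype.val_injective h0
      rw [this, map_zero]
    have hpos : 0 < (normalizedFactors (Ideal.span {(b : B)})).countP
        (fun P => h48_Red BA ρ P Q₀) := by
      rw [hcount]
      exact Nat.succ_pos n
    obtain ⟨P, hPmem, hPred⟩ := Multiset.countP_pos.mp hpos
    have hPmax : P.IsMaximal := h50_isMaximal_of_mem hPmem
    have hPprime := hPmax.isPrime
    have hbP : (b : B) ∈ P := (h50_mem_factors hb0).mp hPmem
    obtain ⟨a, haP, haQ⟩ := h50_red_tube h hPmax hQ₀ hPred
    have hxA : h48_xv P ∈ A := by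
      rw [haP]
      exact a.2
    -- the value of `t` at `P` lies in the maximal ideal
    obtain ⟨τ, hτ⟩ := h50_value h hPmax hxA t
    set d : BA := t - h50_poly h (C τ) with hd
    have hdP : (d : B) ∈ P := by
      rw [hd]
      push_cast
      rw [h50_poly_coe, Polynomial.map_C]
      exact hτ
    have hρd0 : ρ d = ρ t - algebraMap (IsLocalRing.ResidueField A)[X] Bk
        (C (IsLocalRing.residue A τ)) := by
      rw [hd, map_sub, h50_rho_poly, Polynomial.map_C]
    have hτ0 : IsLocalRing.residue A τ = 0 := by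
      have h1 := hPred d hdP
      rw [hρd0] at h1
      have h2 : algebraMap (IsLocalRing.ResidueField A)[X] Bk (C (IsLocalRing.residue A τ))
          ∈ Q₀ := by
        have := Q₀.sub_mem htQ h1
        simpa using this
      exact h50_C_mem hQ₀.ne_top h2
    have hρd : ρ d = ρ t := by
      rw [hρd0, hτ0, C_0, map_zero, sub_zero]
    have hd0 : (d : B) ≠ 0 := by
      intro h0
      apply ht0
      rw [← hρd]
      have : d = 0 := Subtype.val_injective h0
      rw [this, map_zero]
    -- class count for `d`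
    have hcls : (normalizedFactors (Ideal.span {(d : B)})).countP
        (fun P : Ideal B => A.valuation (h48_xv P - (γ : L)) < 1) = 1 := by
      rw [← h50_class_count h d (by rw [hρd]; exact ht0) γ, hρd]
      exact hU
    have hPd : P ∈ normalizedFactors (Ideal.span {(d : B)}) := (h50_mem_factors hd0).mpr hdP
    have hPtube : A.valuation (h48_xv P - (γ : L)) < 1 :=
      (h50_tube_iff γ _).mpr ⟨a, haP, by rw [← haQ, hγ]⟩
    obtain ⟨M', hM'⟩ := Multiset.exists_cons_of_mem hPd
    have hM'tube : ∀ P' ∈ M', ¬ A.valuation (h48_xv P' - (γ : L)) < 1 := by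
      rw [hM', Multiset.countP_cons_of_pos
        (p := fun P : Ideal B => A.valuation (h48_xv P - (γ : L)) < 1) M' hPtube] at hcls
      have h0 : M'.countP (fun P : Ideal B => A.valuation (h48_xv P - (γ : L)) < 1) = 0 := by
        omega
      exact fun P' hP' => (Multiset.countP_eq_zero.mp h0) P' hP'
    have hM'max : ∀ P' ∈ M', P'.IsMaximal := fun P' hP' =>
      h50_isMaximal_of_mem (I := Ideal.span {(d : B)})
        (by rw [hM']; exact Multiset.mem_cons_of_mem hP')
    obtain ⟨s, hs1, hs2⟩ := h50_clear γ M' hM'max hM'tube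
    -- divisibility
    have hdvd : (d : B) ∣ (b : B) * algebraMap L[X] B (s.map A.subtype) := by
      rw [← Ideal.span_singleton_le_span_singleton, ← Ideal.dvd_iff_le,
        ← Ideal.span_singleton_mul_span_singleton,
        ← Ideal.prod_normalizedFactors_eq_self (h50_span_ne_bot hd0), hM', Multiset.prod_cons]
      exact mul_dvd_mul (Ideal.dvd_span_singleton.mpr hbP) hs2
    obtain ⟨c, hc⟩ := hdvd
    have hcBA : c ∈ BA := h.div d (b * h50_poly h s) (by rw [hρd]; exact ht0) c (by
      push_cast
      rw [h50_poly_coe]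
      exact hc)
    set c' : BA := ⟨c, hcBA⟩ with hc'
    have heq : b * h50_poly h s = d * c' := Subtype.val_injective (by
      push_cast
      rw [h50_poly_coe]
      exact hc)
    have hρeq : ρ b * algebraMap (IsLocalRing.ResidueField A)[X] Bk
        (s.map (IsLocalRing.residue A)) = ρ t * ρ c' := by
      have := congrArg ρ heq
      rw [map_mul, map_mul, h50_rho_poly, hρd] at this
      exact this
    have hsk0 : s.map (IsLocalRing.residue A) ≠ 0 := fun h0 => hs1 (by rw [h0, eval_zero])
    have hsB0 : algebraMap (IsLocalRing.ResidueField A)[X] Bk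
        (s.map (IsLocalRing.residue A)) ≠ 0 :=
      fun h0 => hsk0 (h50_algebraMap_injective (h0.trans (map_zero _).symm))
    have hρc0 : ρ c' ≠ 0 := by
      intro h0
      rw [h0, mul_zero] at hρeq
      exact mul_ne_zero hb hsB0 hρeq
    have hsQ : algebraMap (IsLocalRing.ResidueField A)[X] Bk
        (s.map (IsLocalRing.residue A)) ∉ Q₀ := by
      intro hmem
      have h1 := (h50_ev_eq_zero_iff (K := IsLocalRing.ResidueField A) Q₀ _).mpr hmem
      rw [h50_ev_algebraMap, ← hγ] at h1
      exact hs1 h1
    -- count on the special fibre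
    have hk : (normalizedFactors (Ideal.span {ρ b})).count Q₀
        = 1 + (normalizedFactors (Ideal.span {ρ c'})).count Q₀ := by
      have h1 : (normalizedFactors (Ideal.span {ρ b * algebraMap (IsLocalRing.ResidueField A)[X] Bk
          (s.map (IsLocalRing.residue A))})).count Q₀
          = (normalizedFactors (Ideal.span {ρ t * ρ c'})).count Q₀ := by rw [hρeq]
      rw [h50_factors_mul hb hsB0, h50_factors_mul ht0 hρc0, Multiset.count_add,
        Multiset.count_add, htc] at h1
      have h2 : (normalizedFactors (Ideal.span {algebraMap (IsLocalRing.ResidueField A)[X] Bk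
          (s.map (IsLocalRing.residue A))})).count Q₀ = 0 := by
        rw [Multiset.count_eq_zero]
        intro hmem
        have := hQ₀.isPrime
        exact hsQ ((h50_mem_factors hsB0).mp hmem)
      omega
    -- count on the generic fibre
    have hsL0 : algebraMap L[X] B (s.map A.subtype) ≠ 0 := by
      intro h0
      have h1 : s.map A.subtype = 0 := h50_algebraMap_injective (h0.trans (map_zero _).symm)
      have h2 : s = 0 :=
        Polynomial.map_injective _ Subtype.val_injective (by rw [h1, Polynomial.map_zero])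
      exact hsk0 (by rw [h2, Polynomial.map_zero])
    have hc0 : c ≠ 0 := by
      rintro rfl
      rw [mul_zero] at hc
      exact mul_ne_zero hb0 hsL0 hc
    have hL : n + 1 = 1 + (normalizedFactors (Ideal.span {c})).countP
        (fun P => h48_Red BA ρ P Q₀) := by
      have h1 : (normalizedFactors (Ideal.span {(b : B) * algebraMap L[X] B
          (s.map A.subtype)})).countP (fun P => h48_Red BA ρ P Q₀)
          = (normalizedFactors (Ideal.span {(d : B) * c})).countP
            (fun P => h48_Red BA ρ P Q₀) := by rw [hc]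
      rw [h50_factors_mul hb0 hsL0, h50_factors_mul hd0 hc0, Multiset.countP_add,
        Multiset.countP_add, hcount] at h1
      have h2 : (normalizedFactors (Ideal.span {algebraMap L[X] B (s.map A.subtype)})).countP
          (fun P => h48_Red BA ρ P Q₀) = 0 := by
        rw [Multiset.countP_eq_zero]
        intro P'' hP'' hred''
        have hmax'' := h50_isMaximal_of_mem hP''
        have := hmax''.isPrime
        have h3 := hred'' (h50_poly h s) ((h50_mem_factors hsL0).mp hP'')
        rw [h50_rho_poly] at h3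
        exact hsQ h3
      have h3 : (normalizedFactors (Ideal.span {(d : B)})).countP
          (fun P => h48_Red BA ρ P Q₀) = 1 := by
        rw [hM', Multiset.countP_cons_of_pos (p := fun P => h48_Red BA ρ P Q₀) M' hPred]
        have h0 : M'.countP (fun P => h48_Red BA ρ P Q₀) = 0 := by
          rw [Multiset.countP_eq_zero]
          intro P' hP' hred'
          obtain ⟨a', ha'P, ha'Q⟩ := h50_red_tube h (hM'max P' hP') hQ₀ hred'
          exact hM'tube P' hP' ((h50_tube_iff γ _).mpr ⟨a', ha'P, by rw [← ha'Q, hγ]⟩)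
        rw [h0]
      omega
    have h4 := ih c' hρc0 (by
      change (normalizedFactors (Ideal.span {c})).countP (fun P => h48_Red BA ρ P Q₀) = n
      omega)
    omega

open Classical in
/-- **(T3) Conservation**: the order of vanishing of `ρ b` at a point `Q` of the special fibre
is the number of zeros of `b` (with multiplicity) reducing to `Q`. -/
theorem h50_conservation (h : h48_Chart A BA ρ) (b : BA) (hb : ρ b ≠ 0) (Q : Ideal Bk)
    (hQ : Q.IsMaximal) :
    (normalizedFactors (Ideal.span {ρ b})).count Q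
      = (normalizedFactors (Ideal.span {(b : B)})).countP (fun P => h48_Red BA ρ P Q) := by
  obtain ⟨γ, hγ⟩ := IsLocalRing.residue_surjective (h48_xv Q : IsLocalRing.ResidueField A)
  have hQS : Q ∈ h50_fibre Bk (h48_xv Q : IsLocalRing.ResidueField A) :=
    h50_mem_fibre.mpr ⟨hQ, rfl⟩
  have e1 := h50_countP_fibre (ρ b) (h48_xv Q : IsLocalRing.ResidueField A)
  have e2 : (normalizedFactors (Ideal.span {(b : B)})).countP
        (fun P : Ideal B => A.valuation (h48_xv P - (γ : L)) < 1)
      = ∑ Q' ∈ h50_fibre Bk (h48_xv Q : IsLocalRing.ResidueField A),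
          (normalizedFactors (Ideal.span {(b : B)})).countP (fun P => h48_Red BA ρ P Q') := by
    have key := h50_countP_eq_sum (normalizedFactors (Ideal.span {(b : B)}))
      (h50_fibre Bk (h48_xv Q : IsLocalRing.ResidueField A))
      (fun P : Ideal B => A.valuation (h48_xv P - (γ : L)) < 1)
      (fun P Q' => h48_Red BA ρ P Q')
      (by
        intro P hP hv
        have hPmax := h50_isMaximal_of_mem hP
        obtain ⟨a, haP, hares⟩ := (h50_tube_iff γ _).mp hv
        have hxA : h48_xv P ∈ A := by
          rw [haP]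
          exact a.2
        obtain ⟨Q', ⟨hQ'max, hQ'red⟩, huniq⟩ := h50_exists_red h hPmax hxA
        refine ⟨Q', ⟨?_, hQ'red⟩, ?_⟩
        · apply h50_mem_fibre.mpr ⟨hQ'max, ?_⟩
          obtain ⟨a', ha'P, ha'Q⟩ := h50_red_tube h hPmax hQ'max hQ'red
          have : a' = a := Subtype.val_injective (ha'P.symm.trans haP)
          rw [ha'Q, this, hares, hγ]
        · rintro q ⟨hqS, hqred⟩
          exact huniq q ⟨(h50_mem_fibre.mp hqS).1, hqred⟩)
      (by
        intro P hP hv q hqS hqred
        have hPmax := h50_isMaximal_of_mem hP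
        obtain ⟨hqmax, hqx⟩ := h50_mem_fibre.mp hqS
        obtain ⟨a', ha'P, ha'Q⟩ := h50_red_tube h hPmax hqmax hqred
        exact hv ((h50_tube_iff γ _).mpr ⟨a', ha'P, by rw [← ha'Q, hqx, hγ]⟩))
    convert key
  have e3 := h50_class_count h b hb γ
  rw [hγ, e1, e2] at e3
  have hle : ∀ Q' ∈ h50_fibre Bk (h48_xv Q : IsLocalRing.ResidueField A),
      (normalizedFactors (Ideal.span {(b : B)})).countP (fun P => h48_Red BA ρ P Q')
        ≤ (normalizedFactors (Ideal.span {ρ b})).count Q' :=
    fun Q' hQ' => h50_count_le h (h50_mem_fibre.mp hQ').1 _ b hb rfl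
  exact ((Finset.sum_eq_sum_iff_of_le hle).mp e3.symm Q hQS).symm

open Classical in
/-- **(T4) Tube toolkit**: for a tube point `P` over a class in the finite set `G` there is an
integral function with nonzero reduction, a simple zero at `P`, and no other zero in the tubes
over `G`. -/
theorem h50_toolkit (h : h48_Chart A BA ρ) (G : Finset (IsLocalRing.ResidueField A))
    {P : Ideal B} (hP : P.IsMaximal) (α : A) (hα : h48_xv P = (α : L))
    (_hG : IsLocalRing.residue A α ∈ G) :
    ∃ f : BA, ρ f ≠ 0 ∧ (f : B) ∈ P ∧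
      (normalizedFactors (Ideal.span {(f : B)})).count P = 1 ∧
      ∀ P' : Ideal B, P'.IsMaximal → P' ≠ P → (f : B) ∈ P' →
        ¬ ∃ α' : A, h48_xv P' = (α' : L) ∧ IsLocalRing.residue A α' ∈ G := by
  have hxA : h48_xv P ∈ A := by
    rw [hα]
    exact α.2
  have hPprime := hP.isPrime
  obtain ⟨Q₀, ⟨hQ₀, hred⟩, -⟩ := h50_exists_red h hP hxA
  obtain ⟨tb, htQ, htc, htS⟩ := h50_exists_unif (IsLocalRing.ResidueField A) Q₀
    ((G.biUnion (fun g => h50_fibre Bk g)).erase Q₀)
    (fun Q hQ => by
      obtain ⟨g, -, hg⟩ := Finset.mem_biUnion.mp (Finset.mem_of_mem_erase hQ)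
      exact (h50_mem_fibre.mp hg).1)
    (Finset.notMem_erase _ _)
  obtain ⟨t, rfl⟩ := h.surj tb
  have ht0 : ρ t ≠ 0 := by
    intro h0
    rw [h0, Set.singleton_zero, Ideal.span_zero, ← Ideal.zero_eq_bot, normalizedFactors_zero,
      Multiset.count_zero] at htc
    exact zero_ne_one htc
  obtain ⟨τ, hτ⟩ := h50_value h hP hxA t
  set d : BA := t - h50_poly h (C τ) with hd
  have hdP : (d : B) ∈ P := by
    rw [hd]
    push_cast
    rw [h50_poly_coe, Polynomial.map_C]
    exact hτ
  have hρd0 : ρ d = ρ t - algebraMap (IsLocalRing.ResidueField A)[X] Bk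
      (C (IsLocalRing.residue A τ)) := by
    rw [hd, map_sub, h50_rho_poly, Polynomial.map_C]
  have hτ0 : IsLocalRing.residue A τ = 0 := by
    have h1 := hred d hdP
    rw [hρd0] at h1
    have h2 : algebraMap (IsLocalRing.ResidueField A)[X] Bk (C (IsLocalRing.residue A τ))
        ∈ Q₀ := by
      have := Q₀.sub_mem htQ h1
      simpa using this
    exact h50_C_mem hQ₀.ne_top h2
  have hρd : ρ d = ρ t := by
    rw [hρd0, hτ0, C_0, map_zero, sub_zero]
  have hd0 : (d : B) ≠ 0 := by
    intro h0
    apply ht0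
    rw [← hρd]
    have : d = 0 := Subtype.val_injective h0
    rw [this, map_zero]
  have hcons := h50_conservation h d (by rw [hρd]; exact ht0) Q₀ hQ₀
  rw [hρd, htc] at hcons
  have hPd : P ∈ normalizedFactors (Ideal.span {(d : B)}) := (h50_mem_factors hd0).mpr hdP
  obtain ⟨M, hM⟩ := Multiset.exists_cons_of_mem hPd
  rw [hM, Multiset.countP_cons_of_pos (p := fun P => h48_Red BA ρ P Q₀) M hred] at hcons
  have hM0 : M.countP (fun P => h48_Red BA ρ P Q₀) = 0 := by omega
  refine ⟨d, by rw [hρd]; exact ht0, hdP, ?_, ?_⟩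
  · rw [hM, Multiset.count_cons_self]
    have : M.count P = 0 := by
      rw [Multiset.count_eq_zero]
      intro hPM
      exact (Multiset.countP_eq_zero.mp hM0) P hPM hred
    rw [this]
  · rintro P' hP' hne hdP' ⟨α', hα', hG'⟩
    have hP'prime := hP'.isPrime
    have hxA' : h48_xv P' ∈ A := by
      rw [hα']
      exact α'.2
    obtain ⟨Q', ⟨hQ'max, hred'⟩, -⟩ := h50_exists_red h hP' hxA'
    obtain ⟨a'', ha''P, ha''Q⟩ := h50_red_tube h hP' hQ'max hred'
    have ha'' : a'' = α' := Subtype.val_injective (ha''P.symm.trans hα')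
    have hQ'fib : Q' ∈ h50_fibre Bk (IsLocalRing.residue A α') :=
      h50_mem_fibre.mpr ⟨hQ'max, by rw [ha''Q, ha'']⟩
    have h1 : ρ t ∈ Q' := by
      have := hred' d hdP'
      rwa [hρd] at this
    have hQ'eq : Q' = Q₀ := by
      by_contra hne'
      exact htS Q' (Finset.mem_erase.mpr ⟨hne', Finset.mem_biUnion.mpr ⟨_, hG', hQ'fib⟩⟩) h1
    rw [hQ'eq] at hred'
    have hP'd : P' ∈ normalizedFactors (Ideal.span {(d : B)}) := (h50_mem_factors hd0).mpr hdP'
    rw [hM] at hP'd
    have hP'M : P' ∈ M := (Multiset.mem_cons.mp hP'd).resolve_left hne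
    exact (Multiset.countP_eq_zero.mp hM0) P' hP'M hred'

end Core

end Fermat.Agent.S37
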