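import Fermat.Agent.S37.Conserve57
import Fermat.Agent.S37.ChartInst31

/-!
# S37, row RC (helper57): the chart hypotheses `cv57_Chart` from the Dedekind dictionary

The hypotheses of `cv57_chart` (`Conserve57.lean`) in the setting of the generic chart layer
(`ChartInst31.lean`): `L` algebraically closed with a valuation subring `A` whose residue field
`k` is algebraically closed, `V` a valuation subring of `F` with reduction `red : V → Fk`,
a coordinate `x : V` with transcendental reduction, `F / L(x)` and `Fk / k(x̄)` finite separable,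
(I1) a family of `V` reducing to a `k(x̄)`-basis of `Fk` of cardinality `[F : L(x)]`,
(I2) every element of `Fk` integral over `k[x̄]` lifts to an element of `V` integral over `L[x]`.

* Dedekind dictionary, any characteristic: `cd57_sum_ord_zeros`, `cd57_integral_of_regular`,
  `cd57_exists_place`, `cd57_separate`, `cd57_uniformizer`.
* `cd57_exists_poly` : an element of `V` integral over `L[x]` is a root of a monic polynomial
  with coefficients in `A[x]` whose reduction is the characteristic polynomial of its reduction.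
* `cd57_chart` : `cv57_Chart` for the chart `x`.
-/

set_option autoImplicit false
set_option linter.style.haveILetI false
set_option linter.unusedSectionVars false
set_option linter.deprecated false

open AlgebraicCurve IntermediateField

namespace Fermat.Agent.S37

open Fermat.Agent.S24

section cd57_dedekind

open IsDedekindDomain IsDedekindDomain.HeightOneSpectrum WithZero
open scoped IntermediateField.algebraAdjoinAdjoin

variable {K F : Type*} [Field K] [IsAlgClosed K] [Field F] [Algebra K F]

/-- The zeros of `y - a`, counted with multiplicity, number `[F : K(y)]` (separable case,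
any characteristic). -/
theorem cd57_sum_ord_zeros (y : F) (hy : Transcendental K y) [FiniteDimensional K⟮y⟯ F]
    [Algebra.IsSeparable K⟮y⟯ F] (a : K) :
    ∑ v ∈ (ps14_finite_zeros y hy a).toFinset, v.ord (y - algebraMap K F a) =
      (Module.finrank K⟮y⟯ F : ℤ) := by
  classical
  haveI := ps14_isPrincipalIdealRing y hy
  haveI := ps14_isDedekindDomain y hy
  haveI := ps14_isFractionRing (K := K) y
  haveI := ps14_isScalarTower (K := K) y
  haveI := ps14_finite_integralClosure y hy
  haveI := ps14_lin_isMaximal (K := K) y hy a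
  have hyA0 : ps14_lin (K := K) y a ≠ 0 := (ps14_lin_prime y hy a).ne_zero
  have hyB0 : ps14_linB (K := K) y a ≠ 0 := ps14_linB_ne_zero y hy a
  have hp0 : Ideal.span {ps14_lin (K := K) y a} ≠ ⊥ := by
    rw [Ne, Ideal.span_singleton_eq_bot]; exact hyA0
  have hI0 : Ideal.span {ps14_linB (K := K) y a} ≠ 0 := by
    rw [Ne, Ideal.zero_eq_bot, Ideal.span_singleton_eq_bot]; exact hyB0
  have hmap : (Ideal.span {ps14_lin (K := K) y a}).map
      (algebraMap (Algebra.adjoin K {y}) (integralClosure (Algebra.adjoin K {y}) F)) =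
      Ideal.span {ps14_linB (K := K) y a} := by
    rw [Ideal.map_span, Set.image_singleton]
    rfl
  have hfund := Ideal.sum_ramification_inertia (integralClosure (Algebra.adjoin K {y}) F)
    K⟮y⟯ F hp0
  have hS : {w : HeightOneSpectrum (integralClosure (Algebra.adjoin K {y}) F) |
      w.asIdeal ∣ Ideal.span {ps14_linB (K := K) y a}}.Finite := Ideal.finite_factors hI0
  have h1 : (ps14_finite_zeros y hy a).toFinset = hS.toFinset.image
      (fun w => Place.ofHeightOneSpectrum (K := K) (F := F) w) := by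
    apply Finset.coe_injective
    rw [Set.Finite.coe_toFinset, Finset.coe_image, Set.Finite.coe_toFinset]
    exact ps14_zeros_eq_image y hy a
  have h2 : IsDedekindDomain.primesOverFinset (Ideal.span {ps14_lin (K := K) y a})
      (integralClosure (Algebra.adjoin K {y}) F) = hS.toFinset.image (fun w => w.asIdeal) := by
    ext P
    rw [IsDedekindDomain.mem_primesOverFinset_iff hp0, Finset.mem_image]
    constructor
    · rintro ⟨hP, hPover⟩
      have hyP : ps14_linB (K := K) y a ∈ P := (ps14_liesOver_iff y hy a P hP).mp hPover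
      have hPne : P ≠ ⊥ := by
        rintro rfl
        exact hyB0 ((Ideal.mem_bot).mp hyP)
      refine ⟨⟨P, hP, hPne⟩, ?_, rfl⟩
      rw [Set.Finite.mem_toFinset, Set.mem_ofPred_eq, Ideal.dvd_iff_le,
        Ideal.span_singleton_le_iff_mem]
      exact hyP
    · rintro ⟨w, hw, rfl⟩
      rw [Set.Finite.mem_toFinset, Set.mem_ofPred_eq, Ideal.dvd_iff_le,
        Ideal.span_singleton_le_iff_mem] at hw
      exact ⟨w.isPrime, (ps14_liesOver_iff y hy a w.asIdeal w.isPrime).mpr hw⟩
  rw [h1, Finset.sum_image (fun a _ b _ h => wp1a_ofHeightOneSpectrum_injective h), ← hfund, h2,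
    Finset.sum_image (fun a _ b _ h => HeightOneSpectrum.ext h), Nat.cast_sum]
  refine Finset.sum_congr rfl (fun w hw => ?_)
  rw [Set.Finite.mem_toFinset, Set.mem_ofPred_eq, Ideal.dvd_iff_le,
    Ideal.span_singleton_le_iff_mem] at hw
  haveI : w.asIdeal.LiesOver (Ideal.span {ps14_lin (K := K) y a}) :=
    (ps14_liesOver_iff y hy a w.asIdeal w.isPrime).mpr hw
  haveI := w.isPrime
  rw [ps14_inertiaDeg_eq_one y hy a w.asIdeal, mul_one,
    Ideal.IsDedekindDomain.ramificationIdx'_eq_normalizedFactors_count (by rw [hmap]; exact hI0)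
      w.isPrime w.ne_bot, hmap,
    ← Ideal.count_associates_factors_eq hI0 w.isPrime w.ne_bot]
  have h3 : (Place.ofHeightOneSpectrum (K := K) (F := F) w).ord (y - algebraMap K F a) =
      -(WithZero.log (w.valuation F (algebraMap _ F (ps14_linB (K := K) y a)))) := by
    rw [ps14_linB_coe]
    exact wp1a_ord_ofHeightOneSpectrum w _
  rw [h3, valuation_of_algebraMap, intValuation_if_neg w hyB0, WithZero.log_exp, neg_neg]

/-- A function regular at every place where `y` is regular is integral over `K[y]`. -/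
theorem cd57_integral_of_regular (y : F) (hy : Transcendental K y) [FiniteDimensional K⟮y⟯ F]
    [Algebra.IsSeparable K⟮y⟯ F] (f : F)
    (hf : ∀ P : Place K F, y ∈ P.toValuationSubring → f ∈ P.toValuationSubring) :
    IsIntegral (Algebra.adjoin K {y}) f := by
  haveI := ps14_isDedekindDomain y hy
  haveI := ps14_isFractionRing (K := K) y
  haveI := ps14_isScalarTower (K := K) y
  have hyB : IsIntegral (Algebra.adjoin K {y}) y :=
    isIntegral_algebraMap (x := (⟨y, Algebra.self_mem_adjoin_singleton K y⟩ : Algebra.adjoin K {y}))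
  have h1 : ∀ w : HeightOneSpectrum (integralClosure (Algebra.adjoin K {y}) F),
      w.valuation F f ≤ 1 := by
    intro w
    have h2 : y ∈ (Place.ofHeightOneSpectrum (K := K) (F := F) w).toValuationSubring := by
      rw [Place.ofHeightOneSpectrum_toValuationSubring, Valuation.mem_valuationSubring_iff]
      exact w.valuation_le_one (⟨y, hyB⟩ : integralClosure (Algebra.adjoin K {y}) F)
    have h3 := hf _ h2
    rwa [Place.ofHeightOneSpectrum_toValuationSubring, Valuation.mem_valuationSubring_iff] at h3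
  obtain ⟨b, hb⟩ := IsDedekindDomain.HeightOneSpectrum.mem_integers_of_valuation_le_one F f h1
  rw [← hb]
  exact b.2

/-- The chart ring of a transcendental coordinate has a height one prime over every proper
ideal. -/
theorem cd57_exists_place (y : F) (hy : Transcendental K y) [FiniteDimensional K⟮y⟯ F]
    [Algebra.IsSeparable K⟮y⟯ F] (I : Ideal (integralClosure (Algebra.adjoin K {y}) F))
    (hI : I ≠ ⊤) :
    ∃ Q : Place K F, y ∈ Q.toValuationSubring ∧
      ∀ z ∈ I, (z : F) ∈ Q.toValuationSubring.nonunits := by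
  haveI := ps14_isDedekindDomain y hy
  haveI := ps14_isFractionRing (K := K) y
  haveI := ps14_isScalarTower (K := K) y
  have hyB : IsIntegral (Algebra.adjoin K {y}) y :=
    isIntegral_algebraMap (x := (⟨y, Algebra.self_mem_adjoin_singleton K y⟩ : Algebra.adjoin K {y}))
  -- a maximal ideal containing `I` and `y - a` for a suitable `a` is not zero
  obtain ⟨m, hm, hIm⟩ := Ideal.exists_le_maximal I hI
  by_cases hm0 : m = ⊥
  · -- then `I = ⊥`; use any place above `y = 0`
    have hI0 : I = ⊥ := by rw [eq_bot_iff, ← hm0]; exact hIm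
    haveI := ps14_lin_isMaximal (K := K) y hy 0
    obtain ⟨P, hPmax, hPover⟩ := Ideal.exists_ideal_over_maximal_of_isIntegral
      (S := integralClosure (Algebra.adjoin K {y}) F) (Ideal.span {ps14_lin (K := K) y 0})
      (by
        intro z hz
        have h1 : algebraMap (Algebra.adjoin K {y}) (integralClosure (Algebra.adjoin K {y}) F) z
            = 0 := hz
        have h2 : z = 0 := by
          apply Subtype.ext
          have := congrArg (fun b : integralClosure (Algebra.adjoin K {y}) F => (b : F)) h1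
          exact this
        rw [h2]
        exact Ideal.zero_mem _)
    have hPne : P ≠ ⊥ := by
      rintro rfl
      have h1 : ps14_lin (K := K) y 0 ∈ Ideal.comap
          (algebraMap (Algebra.adjoin K {y}) (integralClosure (Algebra.adjoin K {y}) F)) ⊥ := by
        rw [hPover]
        exact Ideal.subset_span rfl
      rw [Ideal.mem_comap, Ideal.mem_bot] at h1
      exact ps14_linB_ne_zero y hy 0 h1
    refine ⟨Place.ofHeightOneSpectrum (K := K) (F := F) ⟨P, hPmax.isPrime, hPne⟩, ?_, ?_⟩
    · rw [Place.ofHeightOneSpectrum_toValuationSubring, Valuation.mem_valuationSubring_iff]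
      exact (HeightOneSpectrum.valuation_le_one _
        (⟨y, hyB⟩ : integralClosure (Algebra.adjoin K {y}) F))
    · intro z hz
      rw [hI0, Ideal.mem_bot] at hz
      rw [hz]
      exact (cv57_mem_nonunits_iff _ _).mpr (Or.inl rfl)
  · refine ⟨Place.ofHeightOneSpectrum (K := K) (F := F) ⟨m, hm.isPrime, hm0⟩, ?_, ?_⟩
    · rw [Place.ofHeightOneSpectrum_toValuationSubring, Valuation.mem_valuationSubring_iff]
      exact (HeightOneSpectrum.valuation_le_one _
        (⟨y, hyB⟩ : integralClosure (Algebra.adjoin K {y}) F))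
    · intro z hz
      rw [cv57_mem_nonunits_iff]
      by_cases hz0 : z = 0
      · left; rw [hz0]; rfl
      · right
        exact (wp1a_ord_pos_iff (K := K) (F := F)
          (⟨m, hm.isPrime, hm0⟩ : HeightOneSpectrum (integralClosure (Algebra.adjoin K {y}) F))
          hz0).mpr (hIm hz)

/-- Two distinct places at which `y` is regular are separated by an element integral over
`K[y]`. -/
theorem cd57_separate (y : F) (hy : Transcendental K y) [FiniteDimensional K⟮y⟯ F]
    [Algebra.IsSeparable K⟮y⟯ F] (Q Q' : Place K F) (hQ : y ∈ Q.toValuationSubring)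
    (hQ' : y ∈ Q'.toValuationSubring) (hne : Q ≠ Q') :
    ∃ v : F, IsIntegral (Algebra.adjoin K {y}) v ∧
      v ∈ Q'.toValuationSubring.nonunits ∧ v ∉ Q.toValuationSubring.nonunits := by
  haveI := ps14_isDedekindDomain y hy
  haveI := ps14_isFractionRing (K := K) y
  haveI := ps14_isScalarTower (K := K) y
  obtain ⟨w, rfl⟩ := ps14_exists_eq_ofHeightOneSpectrum y hy Q hQ
  obtain ⟨w', rfl⟩ := ps14_exists_eq_ofHeightOneSpectrum y hy Q' hQ'
  have hww' : ¬ w'.asIdeal ≤ w.asIdeal := by
    intro hle
    apply hne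
    have h1 : w'.asIdeal = w.asIdeal := (w'.isMaximal).eq_of_le w.isPrime.ne_top hle
    rw [HeightOneSpectrum.ext h1.symm]
  obtain ⟨v, hv', hv⟩ := SetLike.not_le_iff_exists.mp hww'
  have hv0 : v ≠ 0 := by
    rintro rfl
    exact hv (Ideal.zero_mem _)
  refine ⟨(v : F), v.2, ?_, ?_⟩
  · rw [cv57_mem_nonunits_iff]
    right
    exact (wp1a_ord_pos_iff (K := K) (F := F) w' hv0).mpr hv'
  · rw [cv57_mem_nonunits_iff]
    rintro (h | h)
    · exact hv0 (Subtype.ext h)
    · have h2 := wp1a_ord_eq_zero_of_notMem (K := K) (F := F) w hv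
      have h3 : algebraMap (integralClosure (Algebra.adjoin K {y}) F) F v = (v : F) := rfl
      rw [h3] at h2
      omega

/-- A place at which `y` is regular has a uniformizer integral over `K[y]`. -/
theorem cd57_uniformizer (y : F) (hy : Transcendental K y) [FiniteDimensional K⟮y⟯ F]
    [Algebra.IsSeparable K⟮y⟯ F] (Q : Place K F) (hQ : y ∈ Q.toValuationSubring) :
    ∃ t : F, IsIntegral (Algebra.adjoin K {y}) t ∧ Q.ord t = 1 := by
  haveI := ps14_isDedekindDomain y hy
  haveI := ps14_isFractionRing (K := K) y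
  haveI := ps14_isScalarTower (K := K) y
  obtain ⟨w, rfl⟩ := ps14_exists_eq_ofHeightOneSpectrum y hy Q hQ
  obtain ⟨t, ht⟩ := w.intValuation_exists_uniformizer
  refine ⟨(t : F), t.2, ?_⟩
  have h3 : algebraMap (integralClosure (Algebra.adjoin K {y}) F) F t = (t : F) := rfl
  rw [wp1a_ord_ofHeightOneSpectrum, ← h3, valuation_of_algebraMap, ht, WithZero.log_exp, neg_neg]

end cd57_dedekind

section cd57_aux

variable {L : Type*} [Field L]

/-- A root of a monic polynomial over a valuation ring lies in it (explicit form). -/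
theorem cd57_mem_of_monic_eq (A : ValuationSubring L) (n : ℕ) (α : ℕ → A) (c : L)
    (h : c ^ n + ∑ i ∈ Finset.range n, (α i : L) * c ^ i = 0) : c ∈ A := by
  by_contra hc
  have hc0 : c ≠ 0 := fun h0 => hc (h0 ▸ A.zero_mem)
  obtain ⟨hcinv, hres⟩ := ci31_residue_inv c hc
  have hd : (⟨c⁻¹, hcinv⟩ : A) ∈ IsLocalRing.maximalIdeal A :=
    (IsLocalRing.residue_eq_zero_iff _).mp hres
  have hs : (∑ i ∈ Finset.range n, α i * (⟨c⁻¹, hcinv⟩ : A) ^ (n - i)) ∈
      IsLocalRing.maximalIdeal A :=
    Ideal.sum_mem _ (fun i hi => Ideal.mul_mem_left _ _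
      (Ideal.pow_mem_of_mem _ hd _ (Nat.sub_pos_of_lt (Finset.mem_range.mp hi))))
  have h1 : (1 : A) + ∑ i ∈ Finset.range n, α i * (⟨c⁻¹, hcinv⟩ : A) ^ (n - i) = 0 := by
    apply Subtype.ext
    push_cast
    have h2 : (1 : L) + ∑ i ∈ Finset.range n, (α i : L) * c⁻¹ ^ (n - i) =
        c⁻¹ ^ n * (c ^ n + ∑ i ∈ Finset.range n, (α i : L) * c ^ i) := by
      rw [mul_add, Finset.mul_sum, ← mul_pow, inv_mul_cancel₀ hc0, one_pow]
      congr 1
      refine Finset.sum_congr rfl (fun i hi => ?_)
      have hi' := Finset.mem_range.mp hi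
      have h3 : c⁻¹ ^ n = c⁻¹ ^ (n - i) * c⁻¹ ^ i := by
        rw [← pow_add, Nat.sub_add_cancel hi'.le]
      have h4 : c⁻¹ ^ i * c ^ i = 1 := by rw [← mul_pow, inv_mul_cancel₀ hc0, one_pow]
      calc (α i : L) * c⁻¹ ^ (n - i) = (α i : L) * c⁻¹ ^ (n - i) * (c⁻¹ ^ i * c ^ i) := by
            rw [h4, mul_one]
        _ = c⁻¹ ^ n * ((α i : L) * c ^ i) := by rw [h3]; ring
    rw [h2, h, mul_zero]
  have h2 : (1 : A) ∈ IsLocalRing.maximalIdeal A := by
    rw [eq_neg_of_add_eq_zero_left h1]
    exact neg_mem hs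
  exact (IsLocalRing.maximalIdeal.isMaximal A).ne_top ((Ideal.eq_top_iff_one _).mpr h2)

/-- A root of `Y ^ n + ∑ i < n, α i Y ^ i` with all `α i` in the maximal ideal of a valuation
ring is a non-unit of it. -/
theorem cd57_nonunit_of_monic_eq (A : ValuationSubring L) (n : ℕ) (α : ℕ → A)
    (hα : ∀ i ∈ Finset.range n, α i ∈ IsLocalRing.maximalIdeal A) (c : L)
    (h : c ^ n + ∑ i ∈ Finset.range n, (α i : L) * c ^ i = 0) : c ∈ A.nonunits := by
  have hc : c ∈ A := cd57_mem_of_monic_eq A n α c h
  have h1 : (⟨c, hc⟩ : A) ^ n + ∑ i ∈ Finset.range n, α i * (⟨c, hc⟩ : A) ^ i = 0 := by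
    apply Subtype.ext
    push_cast
    exact h
  have h2 : (⟨c, hc⟩ : A) ^ n ∈ IsLocalRing.maximalIdeal A := by
    rw [eq_neg_of_add_eq_zero_left h1]
    exact neg_mem (Ideal.sum_mem _ (fun i hi => Ideal.mul_mem_right _ _ (hα i hi)))
  have h3 : (⟨c, hc⟩ : A) ∈ IsLocalRing.maximalIdeal A :=
    Ideal.IsPrime.mem_of_pow_mem inferInstance n h2
  exact ValuationSubring.mem_nonunits_iff_exists_mem_maximalIdeal.mpr ⟨hc, h3⟩

end cd57_aux

section cd57_chart

open Polynomial
open scoped IntermediateField.algebraAdjoinAdjoin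

variable {L F Fk : Type*} [Field L] [Field F] [Algebra L F] {A : ValuationSubring L}
  [Field Fk] [Algebra (IsLocalRing.ResidueField A) Fk] {V : ValuationSubring F}

/-- (I1) ⟹ an element `f` of `V` integral over `L[x]` is a root of a monic polynomial
`Y ^ n + ∑ i < n, q i (x) Y ^ i` with `q i ∈ A[X]`; if `red f = 0` all the `q i` reduce
to `0`. -/
theorem cd57_exists_poly [IsAlgClosed L]
    (red : V →+* Fk)
    (hAO : ∀ a : L, a ∈ A → algebraMap L F a ∈ V)
    (hcompat : ∀ (a : L) (ha : a ∈ A), red ⟨algebraMap L F a, hAO a ha⟩ =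
      algebraMap (IsLocalRing.ResidueField A) Fk (IsLocalRing.residue A ⟨a, ha⟩))
    (hunit : ∀ v : V, red v ≠ 0 → (v : F)⁻¹ ∈ V)
    (x : V) (hx : Transcendental (IsLocalRing.ResidueField A) (red x))
    [Algebra.IsSeparable L⟮(x : F)⟯ F]
    {ι : Type*} [Fintype ι] (b : ι → V)
    (hcard : Fintype.card ι = Module.finrank L⟮(x : F)⟯ F)
    (bκ : Module.Basis ι (IsLocalRing.ResidueField A)⟮red x⟯ Fk) (hbκ : ∀ i, bκ i = red (b i))
    (f : V) (hf : IsIntegral (Algebra.adjoin L {(x : F)}) (f : F)) :
    ∃ (n : ℕ) (q : ℕ → A[X]),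
      (f : F) ^ n + ∑ i ∈ Finset.range n, aeval (x : F) ((q i).map A.subtype) * (f : F) ^ i = 0 ∧
      (red f = 0 → ∀ i ∈ Finset.range n, (q i).map (IsLocalRing.residue A) = 0) := by
  classical
  have hne : Nonempty ι := bκ.index_nonempty
  haveI hfκ : FiniteDimensional (IsLocalRing.ResidueField A)⟮red x⟯ Fk := Module.Finite.of_basis bκ
  haveI hfL : FiniteDimensional L⟮(x : F)⟯ F :=
    Module.finite_of_finrank_pos (by rw [← hcard]; exact Fintype.card_pos)
  have hxL : Transcendental L (x : F) := ci31_transcendental red hAO hcompat x hx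
  have hOA := ci31_hOA red hAO hcompat
  obtain ⟨p, hpm, hpL, hpk⟩ := nm62_charpoly_red
    (cc62_red (IsLocalRing.residue A) red hAO hcompat hOA hunit x hx) red (fun _ h => h)
    (fun _ _ => rfl) (cc62_red_eq_zero (IsLocalRing.residue A) red hAO hcompat hOA hunit x hx)
    b hcard bκ hbκ f
  have hcoef : ∀ i : ℕ, ∃ q₁ : A[X],
      algebraMap L⟮(x : F)⟯ F ((p.coeff i : ↥(V.comap (algebraMap L⟮(x : F)⟯ F))) : L⟮(x : F)⟯) =
        aeval (x : F) (q₁.map A.subtype) := by
    intro i
    obtain ⟨q, hq⟩ := ci31_charpoly_coeff_mem (x : F) hxL ⟨(f : F), hf⟩ i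
    have hc : algebraMap L⟮(x : F)⟯ F ((p.coeff i : ↥(V.comap (algebraMap L⟮(x : F)⟯ F))) :
        L⟮(x : F)⟯) = aeval (x : F) q := by
      rw [← hq]
      show algebraMap L⟮(x : F)⟯ F ((p.coeff i : ↥(V.comap (algebraMap L⟮(x : F)⟯ F))) :
        L⟮(x : F)⟯) = algebraMap L⟮(x : F)⟯ F
          ((Algebra.lmul L⟮(x : F)⟯ F (f : F)).charpoly.coeff i)
      rw [← hpL, coeff_map]
      rfl
    have hqV : aeval (x : F) q ∈ V := by
      rw [← hc]
      exact (p.coeff i).2
    obtain ⟨q₁, hq₁⟩ := ci31_gauss_mem red hAO hcompat x hx q hqV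
    exact ⟨q₁, by rw [hc, hq₁]⟩
  choose q hq using hcoef
  refine ⟨p.natDegree, q, ?_, ?_⟩
  · -- Cayley-Hamilton
    have hCH : aeval (f : F) (Algebra.lmul L⟮(x : F)⟯ F (f : F)).charpoly = 0 := by
      have h := LinearMap.aeval_self_charpoly (Algebra.lmul L⟮(x : F)⟯ F (f : F))
      have h2 := Polynomial.aeval_algHom_apply (Algebra.lmul L⟮(x : F)⟯ F) (f : F)
        (Algebra.lmul L⟮(x : F)⟯ F (f : F)).charpoly
      rw [h] at h2
      have h3 := congrArg (fun φ : Module.End L⟮(x : F)⟯ F => φ 1) h2
      simpa using h3.symm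
    rw [← hpL] at hCH
    have h5 : aeval (f : F) (p.map (V.comap (algebraMap L⟮(x : F)⟯ F)).subtype) =
        (f : F) ^ p.natDegree + ∑ i ∈ Finset.range p.natDegree,
          algebraMap L⟮(x : F)⟯ F
            ((p.coeff i : ↥(V.comap (algebraMap L⟮(x : F)⟯ F))) : L⟮(x : F)⟯) * (f : F) ^ i := by
      conv_lhs => rw [hpm.as_sum]
      simp only [Polynomial.map_add, Polynomial.map_pow, Polynomial.map_X, Polynomial.map_sum,
        Polynomial.map_mul, Polynomial.map_C, map_add, map_pow, map_sum, map_mul, aeval_X,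
        aeval_C]
      rfl
    rw [h5] at hCH
    rw [← hCH]
    congr 1
    exact Finset.sum_congr rfl (fun i _ => by rw [hq i])
  · intro h0 i hi
    have hk : p.map (cc62_red (IsLocalRing.residue A) red hAO hcompat hOA hunit x hx) =
        X ^ Module.finrank (IsLocalRing.ResidueField A)⟮red x⟯ Fk := by
      rw [hpk, h0, map_zero, LinearMap.charpoly_zero]
    have hdeg : (p.map (cc62_red (IsLocalRing.residue A) red hAO hcompat hOA hunit x hx)).natDegree
        = p.natDegree := hpm.natDegree_map _
    have hm : Module.finrank (IsLocalRing.ResidueField A)⟮red x⟯ Fk = p.natDegree := by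
      rw [← hdeg, hk, natDegree_X_pow]
    have hci : cc62_red (IsLocalRing.residue A) red hAO hcompat hOA hunit x hx (p.coeff i) = 0 := by
      have h1 := congrArg (fun P => P.coeff i) hk
      simp only [coeff_map, coeff_X_pow] at h1
      rw [h1, if_neg]
      rw [hm]
      exact (Finset.mem_range.mp hi).ne
    have h6 : red ((q i).eval₂ (cc62_iota hAO) x) = 0 := by
      have h7 : ((q i).eval₂ (cc62_iota hAO) x : V) =
          ⟨algebraMap L⟮(x : F)⟯ F ((p.coeff i : ↥(V.comap (algebraMap L⟮(x : F)⟯ F))) :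
            L⟮(x : F)⟯), (p.coeff i).2⟩ := by
        apply Subtype.ext
        rw [cc62_coe_eval₂]
        exact (hq i).symm
      rw [h7]
      have h8 := congrArg (fun z : (IsLocalRing.ResidueField A)⟮red x⟯ => (z : Fk)) hci
      exact h8
    rw [cc62_red_eval₂ (IsLocalRing.residue A) red hAO hcompat] at h6
    exact transcendental_iff.mp hx _ h6

/-- **The chart hypotheses of `cv57_chart` for the chart `x`**, in the setting (and with the
hypotheses) of the generic chart layer `ci31_chart`: (I1) a family of `V` reducing to a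
`k(x̄)`-basis of `Fk` of cardinality `[F : L(x)]`, (I2) normality of the special fibre. -/
theorem cd57_chart [IsAlgClosed L] [IsAlgClosed (IsLocalRing.ResidueField A)]
    (red : V →+* Fk)
    (hAO : ∀ a : L, a ∈ A → algebraMap L F a ∈ V)
    (hcompat : ∀ (a : L) (ha : a ∈ A), red ⟨algebraMap L F a, hAO a ha⟩ =
      algebraMap (IsLocalRing.ResidueField A) Fk (IsLocalRing.residue A ⟨a, ha⟩))
    (hunit : ∀ v : V, red v ≠ 0 → (v : F)⁻¹ ∈ V)
    (x : V) (hx : Transcendental (IsLocalRing.ResidueField A) (red x))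
    [Algebra.IsSeparable L⟮(x : F)⟯ F]
    [Algebra.IsSeparable (IsLocalRing.ResidueField A)⟮red x⟯ Fk]
    {ι : Type*} [Fintype ι] (b : ι → V)
    (hcard : Fintype.card ι = Module.finrank L⟮(x : F)⟯ F)
    (bκ : Module.Basis ι (IsLocalRing.ResidueField A)⟮red x⟯ Fk) (hbκ : ∀ i, bκ i = red (b i))
    (hsurj : ∀ g : Fk, IsIntegral (Algebra.adjoin (IsLocalRing.ResidueField A) {red x}) g →
      ∃ f : V, IsIntegral (Algebra.adjoin L {(x : F)}) (f : F) ∧ red f = g)
    (evK : ∀ P : Place L F, P.toValuationSubring →+* L)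
    (evκ : ∀ Q : Place (IsLocalRing.ResidueField A) Fk,
      Q.toValuationSubring →+* IsLocalRing.ResidueField A)
    (hb : cv57_Base A (IsLocalRing.residue A) V red evK evκ) :
    cv57_Chart A (IsLocalRing.residue A) V red evK (x : F) x.2 := by
  classical
  have hne : Nonempty ι := bκ.index_nonempty
  haveI hfκ : FiniteDimensional (IsLocalRing.ResidueField A)⟮red x⟯ Fk := Module.Finite.of_basis bκ
  haveI hfL : FiniteDimensional L⟮(x : F)⟯ F :=
    Module.finite_of_finrank_pos (by rw [← hcard]; exact Fintype.card_pos)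
  have hxL : Transcendental L (x : F) := ci31_transcendental red hAO hcompat x hx
  -- constants of `A` and polynomials in `x` over `A` inside the chart ring
  let ιB : A →+* cv57_B L V (x : F) :=
    ((algebraMap L F).comp A.subtype).codRestrict (cv57_B L V (x : F))
      (fun a => cv57_mem_B.mpr ⟨hAO a a.2,
        cv57_isIntegral_of_mem_adjoin (Subalgebra.algebraMap_mem _ _)⟩)
  have hcoe : ∀ r : A[X], ((r.eval₂ ιB (cv57_xB L x.2) : cv57_B L V (x : F)) : F) =
      aeval (x : F) (r.map A.subtype) := by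
    intro r
    have h1 : (cv57_B L V (x : F)).subtype (r.eval₂ ιB (cv57_xB L x.2)) =
        r.eval₂ ((cv57_B L V (x : F)).subtype.comp ιB)
          ((cv57_B L V (x : F)).subtype (cv57_xB L x.2)) := Polynomial.hom_eval₂ _ _ _ _
    rw [aeval_def, eval₂_map]
    exact h1
  -- the key relation at a place of the chart
  have hkey : ∀ (P : Place L F) (hxP : (x : F) ∈ P.toValuationSubring)
      (ha0 : evK P ⟨(x : F), hxP⟩ ∈ A) (b' : cv57_B L V (x : F)),
      ∃ (n : ℕ) (α : ℕ → A),
        (cv57_evB V (x : F) evK P hxP b') ^ n +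
          ∑ i ∈ Finset.range n, (α i : L) * (cv57_evB V (x : F) evK P hxP b') ^ i = 0 ∧
        (cv57_redB V red (x : F) b' = 0 →
          ∀ i ∈ Finset.range n, α i ∈ IsLocalRing.maximalIdeal A) := by
    intro P hxP ha0 b'
    obtain ⟨n, q, heq, hzero⟩ := cd57_exists_poly red hAO hcompat hunit x hx b hcard bκ hbκ
      ⟨(b' : F), b'.2.1⟩ b'.2.2
    refine ⟨n, fun i => (q i).eval ⟨evK P ⟨(x : F), hxP⟩, ha0⟩, ?_, ?_⟩
    · have hB : b' ^ n + ∑ i ∈ Finset.range n, (q i).eval₂ ιB (cv57_xB L x.2) * b' ^ i = 0 := by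
        apply Subtype.ext
        push_cast
        rw [← heq]
        congr 1
        exact Finset.sum_congr rfl (fun i _ => by rw [hcoe])
      have hψ : ∀ r : A[X], cv57_evB V (x : F) evK P hxP (r.eval₂ ιB (cv57_xB L x.2)) =
          ((r.eval (⟨evK P ⟨(x : F), hxP⟩, ha0⟩ : A) : A) : L) := by
        intro r
        rw [Polynomial.hom_eval₂]
        have h3 : (cv57_evB V (x : F) evK P hxP).comp ιB = A.subtype :=
          RingHom.ext (fun a => hb.evK_algebraMap P (a : L))
        rw [h3]
        have h4 : cv57_evB V (x : F) evK P hxP (cv57_xB L x.2) =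
            A.subtype ⟨evK P ⟨(x : F), hxP⟩, ha0⟩ := rfl
        rw [h4, Polynomial.eval₂_at_apply]
        rfl
      have h2 := congrArg (cv57_evB V (x : F) evK P hxP) hB
      rw [map_add, map_pow, map_sum, map_zero] at h2
      rw [← h2]
      congr 1
      exact Finset.sum_congr rfl (fun i _ => by rw [map_mul, map_pow, hψ])
    · intro h0 i hi
      have h1 := hzero h0 i hi
      rw [← IsLocalRing.residue_eq_zero_iff, ← Polynomial.eval_map_apply, h1, Polynomial.eval_zero]
  refine
    { xbar_ne := ?_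
      integral_of_regular := ?_
      red_integral := ?_
      ev_mem := ?_
      ev_nonunit := ?_
      lift := ?_
      exists_place := ?_
      separate := ?_
      uniformizer := ?_
      zeros_finite := ?_
      degree_eq := ?_ }
  · intro c h
    apply hx
    have h' : red x = algebraMap (IsLocalRing.ResidueField A) Fk c := h
    rw [h']
    exact isAlgebraic_algebraMap c
  · exact fun f hf => cd57_integral_of_regular (x : F) hxL f hf
  · intro b'
    exact ci31_red_isIntegral red hAO hcompat hunit x hx b hcard bκ hbκ ⟨(b' : F), b'.2.1⟩ b'.2.2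
  · intro P hxP ha0 b'
    obtain ⟨n, α, h1, -⟩ := hkey P hxP ha0 b'
    exact cd57_mem_of_monic_eq A n α _ h1
  · intro P hxP ha0 b' h0
    obtain ⟨n, α, h1, h2⟩ := hkey P hxP ha0 b'
    exact cd57_nonunit_of_monic_eq A n α (h2 h0) _ h1
  · intro z hz
    obtain ⟨f, hf, hfz⟩ := hsurj z hz
    exact ⟨⟨(f : F), cv57_mem_B.mpr ⟨f.2, hf⟩⟩, hfz⟩
  · exact fun I hI => cd57_exists_place (red x) hx I hI
  · exact fun Q Q' hQ hQ' hne => cd57_separate (red x) hx Q Q' hQ hQ' hne
  · exact fun Q hQ => cd57_uniformizer (red x) hx Q hQ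
  · exact fun a => ps14_finite_zeros (red x) hx (IsLocalRing.residue A a)
  · intro a s s' hs hs'
    have h1 : s = (ps14_finite_zeros (x : F) hxL (a : L)).toFinset := by
      ext P
      rw [hs, Set.Finite.mem_toFinset, Set.mem_ofPred_eq]
    have h2 : s' = (ps14_finite_zeros (red x) hx (IsLocalRing.residue A a)).toFinset := by
      ext Q
      rw [hs', Set.Finite.mem_toFinset, Set.mem_ofPred_eq]
    rw [h1, h2]
    have h3 := cd57_sum_ord_zeros (x : F) hxL (a : L)
    have h4 := cd57_sum_ord_zeros (red x) hx (IsLocalRing.residue A a)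
    rw [h3]
    refine Eq.trans ?_ h4.symm
    rw [← hcard, Module.finrank_eq_card_basis bκ]

end cd57_chart

end Fermat.Agent.S37
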