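import Mathlib
import Fermat.Agent.S37.ChartFacts93

/-!
# S37, row NMK (helper93): A-level chart normality for the Hauptmodul charts

`ka46_NormalAt A.subtype (IsLocalRing.residue A) M g` for a valuation subring `A` of `ℚ̄` over a
prime `ℓ ∤ M` and the four Hauptmodul charts (`h70_h2 ℤ`, `h70_h2inv ℤ` when `2 ∣ M`;
`h34_h3R ℤ`, `h34_h3Rinv ℤ` when `3 ∣ M`): specialise `cf93_normalAt_level2/3` to the discrete
valuation rings `A ∩ K₀` of the number fields `K₀ ⊆ ℚ̄` and apply `ka46_normalA_of_normalK`.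
-/

set_option autoImplicit false
set_option linter.style.haveILetI false

open ModularCurve

namespace Fermat.Agent.S37

open Fermat.Agent.S18

local notation "Qb" => AlgebraicClosure ℚ

/-- The K-level statement over `R = A ∩ K₀` for both Hauptmodul levels. -/
theorem cf93_normalK (A : ValuationSubring Qb) {ℓ : ℕ} (hℓ0 : ℓ ≠ 0) (hA : A.LiesOverPrime ℓ)
    (M : ℕ) [NeZero M] (hℓM : Nat.Coprime M ℓ) (K0 : IntermediateField ℚ Qb)
    (hNF : NumberField K0) :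
    (2 ∣ M →
      ka46_NormalAt (A.comap (algebraMap K0 Qb)).subtype
          (IsLocalRing.residue (A.comap (algebraMap K0 Qb))) M (h70_h2 ℤ) ∧
        ka46_NormalAt (A.comap (algebraMap K0 Qb)).subtype
          (IsLocalRing.residue (A.comap (algebraMap K0 Qb))) M (h70_h2inv ℤ)) ∧
    (3 ∣ M →
      ka46_NormalAt (A.comap (algebraMap K0 Qb)).subtype
          (IsLocalRing.residue (A.comap (algebraMap K0 Qb))) M (h34_h3R ℤ) ∧
        ka46_NormalAt (A.comap (algebraMap K0 Qb)).subtype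
          (IsLocalRing.residue (A.comap (algebraMap K0 Qb))) M (h34_h3Rinv ℤ)) := by
  haveI : IsDiscreteValuationRing (A.comap (algebraMap K0 Qb)) :=
    nf23_comap_isDVR_of_liesOverPrime (algebraMap K0 Qb) A hℓ0 hA
  letI alg : Algebra (A.comap (algebraMap K0 Qb)) ↥(modularFunctionFieldFullC K0 M) :=
    ((algebraMap K0 ↥(modularFunctionFieldFullC K0 M)).comp
      (algebraMap (A.comap (algebraMap K0 Qb)) K0)).toAlgebra
  haveI htower : IsScalarTower (A.comap (algebraMap K0 Qb)) K0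
      ↥(modularFunctionFieldFullC K0 M) :=
    IsScalarTower.of_algebraMap_eq (fun _ => rfl)
  have hQ : Algebra.IsAlgebraic ℚ Qb := AlgebraicClosure.isAlgebraic ℚ
  haveI halg : Algebra.IsAlgebraic K0 Qb :=
    Algebra.IsAlgebraic.tower_top (K := ℚ) (L := K0) (A := Qb)
  have hM : IsUnit ((M : ℕ) : A.comap (algebraMap K0 Qb)) := by
    obtain ⟨μ, hμ⟩ := nf23_exists_natCast_mul_eq_one (algebraMap K0 Qb) A hA hℓM
    exact IsUnit.of_mul_eq_one _ hμ
  exact ⟨fun h2M => cf93_normalAt_level2 (R := A.comap (algebraMap K0 Qb)) K0 M hM h2M,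
    fun h3M => cf93_normalAt_level3 (R := A.comap (algebraMap K0 Qb)) K0 M hM h3M⟩

/-- **A-level chart normality, level 2** (`2 ∣ M`, `ℓ ∤ M`): charts `h` and `1/h`. -/
theorem cf93_normalA_level2 (A : ValuationSubring Qb) {ℓ : ℕ} (hℓ0 : ℓ ≠ 0)
    (hA : A.LiesOverPrime ℓ) (M : ℕ) [NeZero M] (hℓM : Nat.Coprime M ℓ) (h2M : 2 ∣ M) :
    ka46_NormalAt A.subtype (IsLocalRing.residue A) M (h70_h2 ℤ) ∧
      ka46_NormalAt A.subtype (IsLocalRing.residue A) M (h70_h2inv ℤ) :=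
  ⟨ka46_normalA_of_normalK A M (h70_h2 ℤ) ∅ fun K0 hNF _ =>
      ((cf93_normalK A hℓ0 hA M hℓM K0 hNF).1 h2M).1,
    ka46_normalA_of_normalK A M (h70_h2inv ℤ) ∅ fun K0 hNF _ =>
      ((cf93_normalK A hℓ0 hA M hℓM K0 hNF).1 h2M).2⟩

/-- **A-level chart normality, level 3** (`3 ∣ M`, `ℓ ∤ M`): charts `h` and `1/h`. -/
theorem cf93_normalA_level3 (A : ValuationSubring Qb) {ℓ : ℕ} (hℓ0 : ℓ ≠ 0)
    (hA : A.LiesOverPrime ℓ) (M : ℕ) [NeZero M] (hℓM : Nat.Coprime M ℓ) (h3M : 3 ∣ M) :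
    ka46_NormalAt A.subtype (IsLocalRing.residue A) M (h34_h3R ℤ) ∧
      ka46_NormalAt A.subtype (IsLocalRing.residue A) M (h34_h3Rinv ℤ) :=
  ⟨ka46_normalA_of_normalK A M (h34_h3R ℤ) ∅ fun K0 hNF _ =>
      ((cf93_normalK A hℓ0 hA M hℓM K0 hNF).2 h3M).1,
    ka46_normalA_of_normalK A M (h34_h3Rinv ℤ) ∅ fun K0 hNF _ =>
      ((cf93_normalK A hℓ0 hA M hℓM K0 hNF).2 h3M).2⟩

end Fermat.Agent.S37
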