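import Fermat.Agent.S37.ChartModInst80
import Fermat.Agent.S37.ChartFactsA93

/-!
# S37, row RC-INST (helper80), part 3: the four Hauptmodul charts, hypothesis-free

`A` a valuation subring of `ℚ̄` over a prime `ℓ`, `M` a level prime to `ℓ`, `k` the residue field
of `A`, `hM : (M : k) ≠ 0` (`cm80_hM`).  For `2 ∣ M` the charts `h₂`, `1/h₂` and for `3 ∣ M` the
charts `h₃`, `1/h₃` of `F(M)` satisfy `h48_Chart` (chart normality: helper93's
`cf93_normalA_level2/3`, from the S18-B5 Dedekind fibres).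

* `cm80_hM` : `(M : k) ≠ 0`.
* `cm80_chart_h2`, `cm80_chart_h2inv`, `cm80_chart_h3`, `cm80_chart_h3inv` : the four instances
  of `h48_Chart A BA ρ` (shape of `cm80_chart`, i.e. of helper31's `ci31_chart` with
  `V = ga41_V M A hM`, `red = cm80_red M A hM`, `x = cm80_xV M A g hM _`).
-/

set_option autoImplicit false
set_option synthInstance.maxHeartbeats 400000
set_option linter.style.haveILetI false
set_option linter.unusedSectionVars false
set_option maxSynthPendingDepth 3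

open ModularCurve IntermediateField

namespace Fermat.Agent.S37

open Fermat.Agent.S18 Fermat.Agent.S28

local notation "Qb" => AlgebraicClosure ℚ

section Final

variable (A : ValuationSubring Qb) {ℓ : ℕ} (hℓ : ℓ.Prime) (hA : A.LiesOverPrime ℓ)
  (M : ℕ) [NeZero M] (hℓM : Nat.Coprime M ℓ)

include hℓ hA hℓM in
/-- The level is invertible in the residue field. -/
theorem cm80_hM : (M : IsLocalRing.ResidueField A) ≠ 0 :=
  ga41_natCast_ne_zero M A hℓ hA (fun h => hℓ.one_lt.ne' (Nat.eq_one_of_dvd_coprimes hℓM.symm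
    (dvd_refl ℓ) h))

variable (hM : (M : IsLocalRing.ResidueField A) ≠ 0)

include hℓ hA hℓM in
/-- **The chart `h₂`** at a level `2 ∣ M` prime to `ℓ`. -/
theorem cm80_chart_h2 (h2 : 2 ∣ M) :
    @h48_Chart Qb _ A
      (integralClosure (Algebra.adjoin Qb {cm80_xF M (h70_h2 ℤ) (cm80_h2_memF M h2)})
        ↥(modularFunctionFieldBar M)) _
      (ci31_alg Qb (cm80_xF M (h70_h2 ℤ) (cm80_h2_memF M h2)))
      (integralClosure (Algebra.adjoin (IsLocalRing.ResidueField A)
        {cm80_red M A hM (cm80_xV M A (h70_h2 ℤ) hM (cm80_h2_memF M h2))})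
        ↥(modularFunctionFieldFullC (IsLocalRing.ResidueField A) M)) _
      (ci31_alg (IsLocalRing.ResidueField A)
        (cm80_red M A hM (cm80_xV M A (h70_h2 ℤ) hM (cm80_h2_memF M h2))))
      (ci31_BA Qb (ga41_V M A hM) (cm80_xF M (h70_h2 ℤ) (cm80_h2_memF M h2)))
      (cm80_rho hM (cm80_coord_h2 hM h2)) :=
  cm80_chart hM (cm80_coord_h2 hM h2) (cf93_normalA_level2 A hℓ.ne_zero hA M hℓM h2).1

include hℓ hA hℓM in
/-- **The chart `1/h₂`** at a level `2 ∣ M` prime to `ℓ`. -/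
theorem cm80_chart_h2inv (h2 : 2 ∣ M) :
    @h48_Chart Qb _ A
      (integralClosure (Algebra.adjoin Qb {cm80_xF M (h70_h2inv ℤ) (cm80_h2inv_memF M h2)})
        ↥(modularFunctionFieldBar M)) _
      (ci31_alg Qb (cm80_xF M (h70_h2inv ℤ) (cm80_h2inv_memF M h2)))
      (integralClosure (Algebra.adjoin (IsLocalRing.ResidueField A)
        {cm80_red M A hM (cm80_xV M A (h70_h2inv ℤ) hM (cm80_h2inv_memF M h2))})
        ↥(modularFunctionFieldFullC (IsLocalRing.ResidueField A) M)) _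
      (ci31_alg (IsLocalRing.ResidueField A)
        (cm80_red M A hM (cm80_xV M A (h70_h2inv ℤ) hM (cm80_h2inv_memF M h2))))
      (ci31_BA Qb (ga41_V M A hM) (cm80_xF M (h70_h2inv ℤ) (cm80_h2inv_memF M h2)))
      (cm80_rho hM (cm80_coord_h2inv hM h2)) :=
  cm80_chart hM (cm80_coord_h2inv hM h2) (cf93_normalA_level2 A hℓ.ne_zero hA M hℓM h2).2

include hℓ hA hℓM in
/-- **The chart `h₃`** at a level `3 ∣ M` prime to `ℓ`. -/
theorem cm80_chart_h3 (h3 : 3 ∣ M) :
    @h48_Chart Qb _ A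
      (integralClosure (Algebra.adjoin Qb {cm80_xF M (h34_h3R ℤ) (cm80_h3_memF M h3)})
        ↥(modularFunctionFieldBar M)) _
      (ci31_alg Qb (cm80_xF M (h34_h3R ℤ) (cm80_h3_memF M h3)))
      (integralClosure (Algebra.adjoin (IsLocalRing.ResidueField A)
        {cm80_red M A hM (cm80_xV M A (h34_h3R ℤ) hM (cm80_h3_memF M h3))})
        ↥(modularFunctionFieldFullC (IsLocalRing.ResidueField A) M)) _
      (ci31_alg (IsLocalRing.ResidueField A)
        (cm80_red M A hM (cm80_xV M A (h34_h3R ℤ) hM (cm80_h3_memF M h3))))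
      (ci31_BA Qb (ga41_V M A hM) (cm80_xF M (h34_h3R ℤ) (cm80_h3_memF M h3)))
      (cm80_rho hM (cm80_coord_h3 hM h3)) :=
  cm80_chart hM (cm80_coord_h3 hM h3) (cf93_normalA_level3 A hℓ.ne_zero hA M hℓM h3).1

include hℓ hA hℓM in
/-- **The chart `1/h₃`** at a level `3 ∣ M` prime to `ℓ`. -/
theorem cm80_chart_h3inv (h3 : 3 ∣ M) :
    @h48_Chart Qb _ A
      (integralClosure (Algebra.adjoin Qb {cm80_xF M (h34_h3Rinv ℤ) (cm80_h3inv_memF M h3)})
        ↥(modularFunctionFieldBar M)) _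
      (ci31_alg Qb (cm80_xF M (h34_h3Rinv ℤ) (cm80_h3inv_memF M h3)))
      (integralClosure (Algebra.adjoin (IsLocalRing.ResidueField A)
        {cm80_red M A hM (cm80_xV M A (h34_h3Rinv ℤ) hM (cm80_h3inv_memF M h3))})
        ↥(modularFunctionFieldFullC (IsLocalRing.ResidueField A) M)) _
      (ci31_alg (IsLocalRing.ResidueField A)
        (cm80_red M A hM (cm80_xV M A (h34_h3Rinv ℤ) hM (cm80_h3inv_memF M h3))))
      (ci31_BA Qb (ga41_V M A hM) (cm80_xF M (h34_h3Rinv ℤ) (cm80_h3inv_memF M h3)))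
      (cm80_rho hM (cm80_coord_h3inv hM h3)) :=
  cm80_chart hM (cm80_coord_h3inv hM h3) (cf93_normalA_level3 A hℓ.ne_zero hA M hℓM h3).2

end Final

end Fermat.Agent.S37
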