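import Fermat.Agent.S37.GaussRed41
import Fermat.Agent.S37.FrobL66
import Fermat.Prelude.Def_ModularCurve_ArithmeticGalois

/-!
# S37, row RC-EQUIV (helper73): the decomposition group and the Gauss reduction

`A` a valuation subring of `ℚ̄` with residue field `k`, `σ` in the decomposition group of `A`,
`σ̄` the induced automorphism of `k`, `F = modularFunctionFieldBar N`,
`F_k = modularFunctionFieldFullC k N`, `O = ga41_O N A` the Gauss ring with its reduction map.

* `eq73_resA`, `eq73_resK` : the restriction of `σ` to `A` and the induced automorphism of `k`.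
* `eq73_smul_mem_O` : `arithmeticGalois σ` preserves the Gauss ring.
* `eq73_redHom_smul`, `eq73_red_smul` : `red (σ • x) = fr66_resGalois σ̄ • red x`.
* `eq73_smul_V` : `arithmeticGalois σ • ga41_V = ga41_V`.
* `eq73_smul_coeffEmb`, `eq73_smul_eq_self` : functions with rational coefficients are fixed.
-/

set_option autoImplicit false

open ModularCurve AlgebraicCurve IntermediateField

namespace Fermat.Agent.S37

local notation "Qb" => AlgebraicClosure ℚ

section Coeff

variable (A : ValuationSubring Qb)

/-- The restriction to `A` of an element of the decomposition group of `A`. -/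
noncomputable def eq73_resA (σ : A.decompositionSubgroup ℚ) : A →+* A :=
  MulSemiringAction.toRingHom (A.decompositionSubgroup ℚ) A σ

theorem eq73_coe_resA (σ : A.decompositionSubgroup ℚ) (a : A) :
    ((eq73_resA A σ a : A) : Qb) = (σ : Qb ≃ₐ[ℚ] Qb) (a : Qb) := rfl

/-- The automorphism of the residue field induced by an element of the decomposition group. -/
noncomputable abbrev eq73_resK (σ : A.decompositionSubgroup ℚ) :
    IsLocalRing.ResidueField A ≃+* IsLocalRing.ResidueField A :=
  MulSemiringAction.toRingEquiv (A.decompositionSubgroup ℚ) (IsLocalRing.ResidueField A) σ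

theorem eq73_residue_resA (σ : A.decompositionSubgroup ℚ) (a : A) :
    IsLocalRing.residue A (eq73_resA A σ a) = eq73_resK A σ (IsLocalRing.residue A a) :=
  rfl

theorem eq73_coeffMap_subtype (σ : A.decompositionSubgroup ℚ) (y : LaurentSeries A) :
    coeffMap (((σ : Qb ≃ₐ[ℚ] Qb)) : Qb →+* Qb) (coeffMap A.subtype y)
      = coeffMap A.subtype (coeffMap (eq73_resA A σ) y) := by
  ext n
  rfl

theorem eq73_coeffMap_residue (σ : A.decompositionSubgroup ℚ) (y : LaurentSeries A) :
    coeffMap (IsLocalRing.residue A) (coeffMap (eq73_resA A σ) y)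
      = coeffMap ((eq73_resK A σ : IsLocalRing.ResidueField A ≃+* IsLocalRing.ResidueField A) :
          IsLocalRing.ResidueField A →+* IsLocalRing.ResidueField A)
        (coeffMap (IsLocalRing.residue A) y) := by
  ext n
  rw [coeffMap_coeff, coeffMap_coeff, coeffMap_coeff, coeffMap_coeff, eq73_residue_resA]
  rfl

end Coeff

section Gauss

variable (N : ℕ) (A : ValuationSubring Qb)

/-- the transported presentation `σ s * (σ • x) = σ t`. -/
theorem eq73_smul_pres (σ : A.decompositionSubgroup ℚ) (x : ↥(modularFunctionFieldBar N))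
    {s t : LaurentSeries A}
    (hst : coeffMap A.subtype s * (x : LaurentSeries Qb) = coeffMap A.subtype t) :
    coeffMap A.subtype (coeffMap (eq73_resA A σ) s) *
      ((arithmeticGalois (modularFunctionFieldFull N) (σ : Qb ≃ₐ[ℚ] Qb) • x :
        ↥(modularFunctionFieldBar N)) : LaurentSeries Qb)
      = coeffMap A.subtype (coeffMap (eq73_resA A σ) t) := by
  rw [← eq73_coeffMap_subtype, ← eq73_coeffMap_subtype, coe_arithmeticGalois_smul, ← map_mul,
    hst]

theorem eq73_residue_ne_zero (σ : A.decompositionSubgroup ℚ) {s : LaurentSeries A}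
    (hs : coeffMap (IsLocalRing.residue A) s ≠ 0) :
    coeffMap (IsLocalRing.residue A) (coeffMap (eq73_resA A σ) s) ≠ 0 := by
  rw [eq73_coeffMap_residue]
  exact (map_ne_zero _).mpr hs

/-- **The decomposition group preserves the Gauss ring.** -/
theorem eq73_smul_mem_O (σ : A.decompositionSubgroup ℚ) {x : ↥(modularFunctionFieldBar N)}
    (hx : x ∈ ga41_O N A) :
    arithmeticGalois (modularFunctionFieldFull N) (σ : Qb ≃ₐ[ℚ] Qb) • x ∈ ga41_O N A := by
  obtain ⟨s, t, hs, hst⟩ := ga41_mem_O.mp hx
  exact ga41_mem_O.mpr ⟨coeffMap (eq73_resA A σ) s, coeffMap (eq73_resA A σ) t,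
    eq73_residue_ne_zero A σ hs, eq73_smul_pres N A σ x hst⟩

/-- **The Gauss reduction is equivariant** (Laurent-series form). -/
theorem eq73_redHom_smul (σ : A.decompositionSubgroup ℚ) (x : ga41_O N A)
    (hx : arithmeticGalois (modularFunctionFieldFull N) (σ : Qb ≃ₐ[ℚ] Qb) •
        (x : ↥(modularFunctionFieldBar N)) ∈ ga41_O N A) :
    ga41_redHom (⟨arithmeticGalois (modularFunctionFieldFull N) (σ : Qb ≃ₐ[ℚ] Qb) •
        (x : ↥(modularFunctionFieldBar N)), hx⟩ : ga41_O N A)
      = coeffMap ((eq73_resK A σ : IsLocalRing.ResidueField A ≃+* IsLocalRing.ResidueField A) :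
          IsLocalRing.ResidueField A →+* IsLocalRing.ResidueField A) (ga41_redHom x) := by
  obtain ⟨s, t, hs, hst⟩ := ga41_mem_O.mp x.2
  have h1 := ga41_redHom_eq (⟨arithmeticGalois (modularFunctionFieldFull N)
      (σ : Qb ≃ₐ[ℚ] Qb) • (x : ↥(modularFunctionFieldBar N)), hx⟩ : ga41_O N A)
    (eq73_residue_ne_zero A σ hs) (eq73_smul_pres N A σ x hst)
  have h2 := ga41_redHom_eq x hs hst
  rw [h1, h2, eq73_coeffMap_residue, eq73_coeffMap_residue, map_div₀]

variable [NeZero N]

/-- **The Gauss reduction is equivariant**: `red (σ • x) = σ̄ • red x`, with `σ̄` acting on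
`F_k` through `fr66_resGalois`. -/
theorem eq73_red_smul (hN : (N : IsLocalRing.ResidueField A) ≠ 0)
    (σ : A.decompositionSubgroup ℚ) (x : ga41_O N A) :
    ga41_red N A hN (⟨arithmeticGalois (modularFunctionFieldFull N) (σ : Qb ≃ₐ[ℚ] Qb) •
        (x : ↥(modularFunctionFieldBar N)), eq73_smul_mem_O N A σ x.2⟩ : ga41_O N A)
      = fr66_resGalois N (eq73_resK A σ) • ga41_red N A hN x := by
  apply Subtype.ext
  rw [ga41_red_coe, fr66_coe_resGalois_smul, ga41_red_coe]
  exact eq73_redHom_smul N A σ x _

open scoped Pointwise in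
/-- **The decomposition group fixes the Gauss valuation ring.** -/
theorem eq73_smul_V (hN : (N : IsLocalRing.ResidueField A) ≠ 0)
    (σ : A.decompositionSubgroup ℚ) :
    arithmeticGalois (modularFunctionFieldFull N) (σ : Qb ≃ₐ[ℚ] Qb) • ga41_V N A hN
      = ga41_V N A hN := by
  ext x
  rw [ValuationSubring.mem_pointwise_smul_iff_inv_smul_mem, ga41_mem_V, ga41_mem_V]
  have hinv : (arithmeticGalois (modularFunctionFieldFull N) (σ : Qb ≃ₐ[ℚ] Qb))⁻¹
      = arithmeticGalois (modularFunctionFieldFull N) ((σ⁻¹ : A.decompositionSubgroup ℚ) :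
          Qb ≃ₐ[ℚ] Qb) := by
    rw [← map_inv]
    rfl
  constructor
  · intro h
    have h1 := eq73_smul_mem_O N A σ h
    rwa [smul_inv_smul] at h1
  · intro h
    rw [hinv]
    exact eq73_smul_mem_O N A σ⁻¹ h

end Gauss

section Fixed

variable (N : ℕ)

/-- Elements of `F` whose coefficients are fixed by `σ` are fixed by `arithmeticGalois σ`. -/
theorem eq73_smul_eq_self (σ : Qb ≃ₐ[ℚ] Qb) (x : ↥(modularFunctionFieldBar N))
    (hx : ∀ n : ℤ, σ ((x : LaurentSeries Qb).coeff n) = (x : LaurentSeries Qb).coeff n) :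
    arithmeticGalois (modularFunctionFieldFull N) σ • x = x := by
  apply Subtype.ext
  rw [coe_arithmeticGalois_smul]
  ext n
  rw [coeffMap_coeff]
  exact hx n

/-- Functions with rational coefficients are fixed by `arithmeticGalois σ`. -/
theorem eq73_smul_coeffEmb (σ : Qb ≃ₐ[ℚ] Qb) (y : LaurentSeries ℚ)
    (hy : coeffEmb Qb y ∈ modularFunctionFieldBar N) :
    arithmeticGalois (modularFunctionFieldFull N) σ •
        (⟨coeffEmb Qb y, hy⟩ : ↥(modularFunctionFieldBar N))
      = ⟨coeffEmb Qb y, hy⟩ := by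
  apply Subtype.ext
  rw [coe_arithmeticGalois_smul]
  exact coeffMap_coeffEmb σ y

end Fixed

end Fermat.Agent.S37
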