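import Fermat.Agent.S37.TwoChartCons87
import Fermat.Prelude.Def_AlgebraicCurve_BaseChangeGalois

/-!
# S37, row RC (helper87): equivariance of the two-chart centre map `cw87_r0`

For a semilinear automorphism `g` of `F/K` and a semilinear automorphism `gk` of `Fκ/κ` such
that `g` preserves the Gauss ring `O`, fixes the coordinate `x`, preserves `A` on constants and
`red ∘ g = gk ∘ red`:  `cw87_r0 (g • P) = gk • cw87_r0 P`  (`cw87_r0_smul`, the shape of
`cg89_r0_smul`).
-/

set_option autoImplicit false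

namespace Fermat.Agent.S37

open AlgebraicCurve Fermat.Agent.S24

open scoped Pointwise

section Ev

variable {K F : Type*} [Field K] [Field F] [Algebra K F]

theorem cw87_smul_mem (g : SemilinearAut K F) (P : Place K F) {f : F}
    (hf : f ∈ P.toValuationSubring) : g • f ∈ (g • P).toValuationSubring :=
  ValuationSubring.smul_mem_pointwise_smul g f _ hf

theorem cw87_smul_mem_iff (g : SemilinearAut K F) (P : Place K F) (f : F) :
    g • f ∈ (g • P).toValuationSubring ↔ f ∈ P.toValuationSubring :=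
  ValuationSubring.smul_mem_pointwise_smul_iff

theorem cw87_smul_mem_nonunits (g : SemilinearAut K F) (P : Place K F) {f : F}
    (hf : f ∈ P.toValuationSubring.nonunits) :
    g • f ∈ (g • P).toValuationSubring.nonunits := by
  rw [cv57_mem_nonunits_iff] at hf ⊢
  rcases hf with rfl | hf
  · left
    exact smul_zero g
  · right
    rwa [SemilinearAut.ord_smul]

/-- The value of `f` at `P` is `c` iff `f - c` lies in the maximal ideal. -/
theorem cw87_ev_eq_iff (ev : ∀ P : Place K F, P.toValuationSubring →+* K)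
    (h1 : ∀ (P : Place K F) (c : K), ev P (algebraMap K P.toValuationSubring c) = c)
    (h2 : ∀ (P : Place K F) (f : P.toValuationSubring), ev P f = 0 ↔ ¬ IsUnit f)
    (P : Place K F) {f : F} (hf : f ∈ P.toValuationSubring) (c : K) :
    ev P ⟨f, hf⟩ = c ↔ f - algebraMap K F c ∈ P.toValuationSubring.nonunits := by
  have hmem : f - algebraMap K F c ∈ P.toValuationSubring :=
    sub_mem hf (P.algebraMap_mem' c)
  have e1 : (⟨f - algebraMap K F c, hmem⟩ : P.toValuationSubring)
      = ⟨f, hf⟩ - algebraMap K P.toValuationSubring c := Subtype.ext rfl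
  show ev P ⟨f, hf⟩ = c ↔
    ((⟨f - algebraMap K F c, hmem⟩ : P.toValuationSubring) : F) ∈ P.toValuationSubring.nonunits
  rw [cv57_coe_mem_nonunits_iff, ← h2, e1, map_sub, h1, sub_eq_zero]

/-- Evaluation at places is equivariant. -/
theorem cw87_ev_smul (ev : ∀ P : Place K F, P.toValuationSubring →+* K)
    (h1 : ∀ (P : Place K F) (c : K), ev P (algebraMap K P.toValuationSubring c) = c)
    (h2 : ∀ (P : Place K F) (f : P.toValuationSubring), ev P f = 0 ↔ ¬ IsUnit f)
    (g : SemilinearAut K F) (P : Place K F) {f f' : F}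
    (hf : f ∈ P.toValuationSubring) (hf' : f' ∈ (g • P).toValuationSubring) (h : g • f = f') :
    ev (g • P) ⟨f', hf'⟩ = SemilinearAut.baseAut g (ev P ⟨f, hf⟩) := by
  subst h
  rw [cw87_ev_eq_iff ev h1 h2]
  have h3 := (cw87_ev_eq_iff ev h1 h2 P hf (ev P ⟨f, hf⟩)).mp rfl
  have h4 := cw87_smul_mem_nonunits g P h3
  rwa [smul_sub, SemilinearAut.smul_algebraMap] at h4

/-- A semilinear automorphism fixing `x` preserves integrality over `K[x]`. -/
theorem cw87_isIntegral_smul (g : SemilinearAut K F) {x f : F} (hgx : g • x = x)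
    (hf : IsIntegral (Algebra.adjoin K {x}) f) : IsIntegral (Algebra.adjoin K {x}) (g • f) := by
  have hsub : ∀ s : F, s ∈ Algebra.adjoin K {x} → g • s ∈ Algebra.adjoin K {x} := by
    intro s hs
    induction hs using Algebra.adjoin_induction with
    | mem y hy =>
      rw [Set.mem_singleton_iff] at hy
      rw [hy, hgx]
      exact Algebra.self_mem_adjoin_singleton K x
    | algebraMap r =>
      rw [SemilinearAut.smul_algebraMap]
      exact Subalgebra.algebraMap_mem _ _
    | add y z _ _ hy hz =>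
      rw [smul_add]
      exact add_mem hy hz
    | mul y z _ _ hy hz =>
      rw [smul_mul']
      exact mul_mem hy hz
  let ψ : F →+* F := (SemilinearAut.toRingAut g : F →+* F)
  let φ : Algebra.adjoin K {x} →+* Algebra.adjoin K {x} :=
    (ψ.comp (algebraMap (Algebra.adjoin K {x}) F)).codRestrict (Algebra.adjoin K {x})
      (fun z => hsub _ z.2)
  exact IsIntegral.map_of_comp_eq φ ψ rfl hf

end Ev

section Equiv

variable {K F κ Fκ : Type*} [Field K] [Field F] [Algebra K F] [Field κ] [Field Fκ] [Algebra κ Fκ]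
variable {A : ValuationSubring K} {res : A →+* κ} {O : ValuationSubring F} {red : O →+* Fκ}
  {evK : ∀ P : Place K F, P.toValuationSubring →+* K}
  {evκ : ∀ Q : Place κ Fκ, Q.toValuationSubring →+* κ} {x : F} {hx : x ∈ O} {hx' : x⁻¹ ∈ O}

theorem cw87_red_smul {g : SemilinearAut K F} {gk : SemilinearAut κ Fκ}
    (hgred : ∀ (f : O) (hf : g • (f : F) ∈ O), red ⟨g • (f : F), hf⟩ = gk • red f)
    (f : O) {f' : F} (hf' : f' ∈ O) (h : g • (f : F) = f') : red ⟨f', hf'⟩ = gk • red f := by
  subst h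
  exact hgred f hf'

/-- The residue map intertwines the base automorphisms. -/
theorem cw87_res_baseAut (hb : cv57_Base A res O red evK evκ) {g : SemilinearAut K F}
    {gk : SemilinearAut κ Fκ}
    (hgred : ∀ (f : O) (hf : g • (f : F) ∈ O), red ⟨g • (f : F), hf⟩ = gk • red f)
    (a : A) (ha : SemilinearAut.baseAut g (a : K) ∈ A) :
    res ⟨SemilinearAut.baseAut g (a : K), ha⟩ = SemilinearAut.baseAut gk (res a) := by
  have h1 := cw87_red_smul hgred ⟨algebraMap K F (a : K), hb.algebraMap_mem a⟩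
    (hb.algebraMap_mem ⟨_, ha⟩) (SemilinearAut.smul_algebraMap g (a : K))
  rw [hb.red_algebraMap ⟨_, ha⟩, hb.red_algebraMap a, SemilinearAut.smul_algebraMap] at h1
  exact (algebraMap κ Fκ).injective h1

/-- **Equivariance of the chart relation.** -/
theorem cw87_Red_smul (hb : cv57_Base A res O red evK evκ) (g : SemilinearAut K F)
    (gk : SemilinearAut κ Fκ) (hgO : ∀ f : F, g • f ∈ O ↔ f ∈ O)
    (hgred : ∀ (f : O) (hf : g • (f : F) ∈ O), red ⟨g • (f : F), hf⟩ = gk • red f)
    (hgx : g • x = x) (hgA : ∀ a : K, SemilinearAut.baseAut g a ∈ A ↔ a ∈ A)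
    {P : Place K F} {Q : Place κ Fκ} (hR : cv57_Red A res O red evK evκ x hx P Q) :
    cv57_Red A res O red evK evκ x hx (g • P) (gk • Q) := by
  obtain ⟨hxP, hα, hQ, hval⟩ := hR
  have hxP' : x ∈ (g • P).toValuationSubring := by
    have := cw87_smul_mem g P hxP
    rwa [hgx] at this
  have hgkx : gk • red ⟨x, hx⟩ = red ⟨x, hx⟩ := (cw87_red_smul hgred ⟨x, hx⟩ hx hgx).symm
  refine ⟨hxP', ?_, ?_, ?_⟩
  · rw [cw87_ev_smul evK hb.evK_algebraMap hb.evK_ker g P hxP hxP' hgx]
    exact (hgA _).mpr hα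
  · have := cw87_smul_mem gk Q hQ
    rwa [hgkx] at this
  · intro b h1 h2
    -- the preimage of `b` in the chart ring
    have hginvx : g⁻¹ • x = x := by
      rw [inv_smul_eq_iff, hgx]
    have hb'O : g⁻¹ • (b : F) ∈ O := by
      rw [← hgO, smul_inv_smul]
      exact b.2.1
    let b' : cv57_B K O x := ⟨g⁻¹ • (b : F), hb'O, cw87_isIntegral_smul g⁻¹ hginvx b.2.2⟩
    have hgb' : g • (b' : F) = (b : F) := smul_inv_smul g (b : F)
    have hredb : cv57_redB O red x b = gk • cv57_redB O red x b' :=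
      cw87_red_smul hgred ⟨(b' : F), hb'O⟩ b.2.1 hgb'
    have hevb : cv57_evB O x evK (g • P) hxP' b
        = SemilinearAut.baseAut g (cv57_evB O x evK P hxP b') :=
      cw87_ev_smul evK hb.evK_algebraMap hb.evK_ker g P (cv57_B_mem_place P hxP b')
        (cv57_B_mem_place (g • P) hxP' b) hgb'
    have h1' : cv57_evB O x evK P hxP b' ∈ A := by
      rw [hevb] at h1
      exact (hgA _).mp h1
    have h2' : cv57_redB O red x b' ∈ Q.toValuationSubring := by
      rw [hredb] at h2
      exact (cw87_smul_mem_iff gk Q _).mp h2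
    have h3 := hval b' h1' h2'
    rw [cw87_ev_eq_iff evκ hb.evκ_algebraMap hb.evκ_ker] at h3 ⊢
    have h4 := cw87_smul_mem_nonunits gk Q h3
    rw [smul_sub, SemilinearAut.smul_algebraMap, ← hredb,
      ← cw87_res_baseAut hb hgred ⟨_, h1'⟩ ((hgA _).mpr h1')] at h4
    have h5 : (⟨SemilinearAut.baseAut g (cv57_evB O x evK P hxP b'), (hgA _).mpr h1'⟩ : A)
        = ⟨cv57_evB O x evK (g • P) hxP' b, h1⟩ := Subtype.ext hevb.symm
    rw [← h5]
    exact h4

/-- **Equivariance of the two-chart centre map** (the shape of `cg89_r0_smul`). -/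
theorem cw87_r0_smul (hb : cv57_Base A res O red evK evκ)
    (hc1 : cv57_Chart A res O red evK x hx) (hc2 : cv57_Chart A res O red evK x⁻¹ hx')
    (g : SemilinearAut K F) (gk : SemilinearAut κ Fκ) (hgO : ∀ f : F, g • f ∈ O ↔ f ∈ O)
    (hgred : ∀ (f : O) (hf : g • (f : F) ∈ O), red ⟨g • (f : F), hf⟩ = gk • red f)
    (hgx : g • x = x) (hgA : ∀ a : K, SemilinearAut.baseAut g a ∈ A ↔ a ∈ A)
    (P : Place K F) :
    cw87_r0 hb hc1 hc2 (g • P) = gk • cw87_r0 hb hc1 hc2 P := by
  have hgkx : gk • red ⟨x, hx⟩ = red ⟨x, hx⟩ := (cw87_red_smul hgred ⟨x, hx⟩ hx hgx).symm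
  by_cases h : ∃ hxP : x ∈ P.toValuationSubring, evK P ⟨x, hxP⟩ ∈ A
  · have hR := cw87_r0_spec1 hb hc1 hc2 h
    have hR' := cw87_Red_smul hb g gk hgO hgred hgx hgA hR
    exact (cw87_tube1 hb hc1 hc2 hR'.snd.2.1).mpr hR'
  · have hR := cw87_r0_spec2 hb hc1 hc2 h
    have hgx' : g • x⁻¹ = x⁻¹ := by rw [smul_inv'', hgx]
    have hR' := cw87_Red_smul hb g gk hgO hgred hgx' hgA hR
    have hnot : red ⟨x, hx⟩ ∉ (gk • cw87_r0 hb hc1 hc2 P).toValuationSubring := by
      intro hmem
      rw [← hgkx, cw87_smul_mem_iff] at hmem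
      exact cw87_r0_not_mem hb hc1 hc2 h hmem
    exact (cw87_tube2 hb hc1 hc2 hnot).mpr hR'

end Equiv

end Fermat.Agent.S37
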