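import Fermat.Agent.S37.ConsMod87
import Fermat.Agent.S37.TwoChartEquiv87
import Fermat.Agent.S37.Equiv73

/-!
# S37, row RC (helper87): clauses (1) + (2) for the two-chart centre map `cw87_r0` at the
modular function field

* `cw87_r0_pole'` : outside the first chart the coordinate has a pole at the centre.
* `cwm87_r0_smul` : decomposition-group equivariance of `cw87_r0` (clause (2) of `geo17_RC`) for a
  coordinate fixed by the arithmetic Galois action.
* `cwm87_rc` : the package `∃ r0, IsPlaceReductionModL A M r0 ∧ (2) ∧ (coordinate clauses for x)`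
  from two `cv57_Chart` instances.
-/

set_option autoImplicit false
set_option linter.style.haveILetI false

namespace Fermat.Agent.S37

open ModularCurve AlgebraicCurve IntermediateField Fermat.Agent.S24 Fermat.Agent.S18

open scoped Pointwise

local notation "Qb" => AlgebraicClosure ℚ
local notation "GQ" => AlgebraicClosure ℚ ≃ₐ[ℚ] AlgebraicClosure ℚ

section Generic

variable {K F κ Fκ : Type*} [Field K] [Field F] [Algebra K F] [Field κ] [Field Fκ] [Algebra κ Fκ]
variable {A : ValuationSubring K} {res : A →+* κ} {O : ValuationSubring F} {red : O →+* Fκ}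
  {evK : ∀ P : Place K F, P.toValuationSubring →+* K}
  {evκ : ∀ Q : Place κ Fκ, Q.toValuationSubring →+* κ} {x : F} {hx : x ∈ O} {hx' : x⁻¹ ∈ O}

/-- A place at which `x` has no value in `A` is mapped to a pole of `x̄`
(the shape of `cg89_r0_pole`). -/
theorem cw87_r0_pole' (hb : cv57_Base A res O red evK evκ)
    (hc1 : cv57_Chart A res O red evK x hx) (hc2 : cv57_Chart A res O red evK x⁻¹ hx')
    (P : Place K F) (hP : ¬ ∃ a : A, 0 < P.ord (x - algebraMap K F (a : K))) :
    (cw87_r0 hb hc1 hc2 P).ord (red ⟨x, hx⟩) < 0 := by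
  have h : ¬ ∃ hxP : x ∈ P.toValuationSubring, evK P ⟨x, hxP⟩ ∈ A := by
    rintro ⟨hxP, hα⟩
    apply hP
    refine ⟨⟨_, hα⟩, ?_⟩
    have h1 := (cw87_ev_eq_iff evK hb.evK_algebraMap hb.evK_ker P hxP (evK P ⟨x, hxP⟩)).mp rfl
    rcases (cv57_mem_nonunits_iff P _).mp h1 with h2 | h2
    · exfalso
      have hx0 : x = algebraMap K F (evK P ⟨x, hxP⟩) := sub_eq_zero.mp h2
      have h3 : (⟨x, hx⟩ : O) = ⟨algebraMap K F ((⟨_, hα⟩ : A) : K), hb.algebraMap_mem ⟨_, hα⟩⟩ :=
        Subtype.ext hx0
      exact hc1.xbar_ne (res ⟨_, hα⟩) (by rw [h3, hb.red_algebraMap])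
    · exact h2
  have h1 := cw87_r0_not_mem hb hc1 hc2 h
  by_contra hcon
  exact h1 ((wp1_mem_iff_ord_nonneg _ _).mpr (not_lt.mp hcon))

end Generic

section Mod

set_option synthInstance.maxHeartbeats 400000

variable (M : ℕ) [NeZero M] (A : ValuationSubring Qb)
  (hM : (M : IsLocalRing.ResidueField A) ≠ 0)

/-- **Clause (2) for `cw87_r0`**: equivariance under the decomposition group, for a coordinate
fixed by the arithmetic Galois action. -/
theorem cwm87_r0_smul (x : ↥(modularFunctionFieldBar M)) (hx : x ∈ ga41_V M A hM)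
    (hx' : x⁻¹ ∈ ga41_V M A hM)
    (hc1 : cv57_Chart A (IsLocalRing.residue A) (ga41_V M A hM) (cm80_red M A hM)
      (cwm87_evK M) x hx)
    (hc2 : cv57_Chart A (IsLocalRing.residue A) (ga41_V M A hM) (cm80_red M A hM)
      (cwm87_evK M) x⁻¹ hx')
    (σ : GQ) (hσ : σ ∈ A.decompositionSubgroup ℚ)
    (hxσ : arithmeticGalois (modularFunctionFieldFull M) σ • x = x)
    (P : Place Qb ↥(modularFunctionFieldBar M)) :
    cw87_r0 (cwm87_base M A hM) hc1 hc2 (arithmeticGalois (modularFunctionFieldFull M) σ • P)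
      = fr66_resGalois M (MulSemiringAction.toRingEquiv (A.decompositionSubgroup ℚ)
          (IsLocalRing.ResidueField A) ⟨σ, hσ⟩) • cw87_r0 (cwm87_base M A hM) hc1 hc2 P := by
  refine cw87_r0_smul (cwm87_base M A hM) hc1 hc2 _ _ ?_ ?_ hxσ ?_ P
  · intro f
    have h := eq73_smul_V M A hM ⟨σ, hσ⟩
    constructor
    · intro hf
      have hf' : arithmeticGalois (modularFunctionFieldFull M) σ • f ∈
          arithmeticGalois (modularFunctionFieldFull M) σ • ga41_V M A hM := by
        rw [h]
        exact hf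
      exact ValuationSubring.smul_mem_pointwise_smul_iff.mp hf'
    · intro hf
      rw [← h]
      exact ValuationSubring.smul_mem_pointwise_smul _ _ _ hf
  · intro f hf
    exact eq73_red_smul M A hM ⟨σ, hσ⟩ f
  · intro a
    rw [baseAut_arithmeticGalois]
    have hstab : σ • A = A := hσ
    constructor
    · intro ha
      have ha' : σ • a ∈ σ • A := by
        rw [hstab]
        exact ha
      exact ValuationSubring.smul_mem_pointwise_smul_iff.mp ha'
    · intro ha
      have ha' : σ • a ∈ σ • A := ValuationSubring.smul_mem_pointwise_smul _ _ _ ha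
      rw [hstab] at ha'
      exact ha'

/-- **Clauses (1) + (2) + the coordinate clauses, for one centre map**, from two `Conserve57`
charts `x`, `x⁻¹` whose coordinate is fixed by the decomposition group. -/
theorem cwm87_rc (x : ↥(modularFunctionFieldBar M)) (hx : x ∈ ga41_V M A hM)
    (hx' : x⁻¹ ∈ ga41_V M A hM)
    (hc1 : cv57_Chart A (IsLocalRing.residue A) (ga41_V M A hM) (cm80_red M A hM)
      (cwm87_evK M) x hx)
    (hc2 : cv57_Chart A (IsLocalRing.residue A) (ga41_V M A hM) (cm80_red M A hM)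
      (cwm87_evK M) x⁻¹ hx')
    (hxσ : ∀ σ : GQ, σ ∈ A.decompositionSubgroup ℚ →
      arithmeticGalois (modularFunctionFieldFull M) σ • x = x) :
    ∃ r0 : Place Qb ↥(modularFunctionFieldBar M) →
        Place (IsLocalRing.ResidueField A)
          ↥(modularFunctionFieldFullC (IsLocalRing.ResidueField A) M),
      IsPlaceReductionModL A M r0 ∧
      (∀ (σ : GQ) (hσ : σ ∈ A.decompositionSubgroup ℚ)
        (P : Place Qb ↥(modularFunctionFieldBar M)),
        r0 (arithmeticGalois (modularFunctionFieldFull M) σ • P)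
          = fr66_resGalois M (MulSemiringAction.toRingEquiv (A.decompositionSubgroup ℚ)
              (IsLocalRing.ResidueField A) ⟨σ, hσ⟩) • r0 P) ∧
      (∀ (P : Place Qb ↥(modularFunctionFieldBar M)) (a : A),
        0 < P.ord (x - algebraMap Qb ↥(modularFunctionFieldBar M) (a : Qb)) →
        0 < (r0 P).ord (cm80_red M A hM ⟨x, hx⟩ -
          algebraMap (IsLocalRing.ResidueField A)
            ↥(modularFunctionFieldFullC (IsLocalRing.ResidueField A) M)
            (IsLocalRing.residue A a))) ∧
      (∀ P : Place Qb ↥(modularFunctionFieldBar M),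
        (¬ ∃ a : A, 0 < P.ord (x - algebraMap Qb ↥(modularFunctionFieldBar M) (a : Qb))) →
        (r0 P).ord (cm80_red M A hM ⟨x, hx⟩) < 0) :=
  ⟨cw87_r0 (cwm87_base M A hM) hc1 hc2, cwm87_isPlaceReduction M A hM x hx hx' hc1 hc2,
    fun σ hσ P => cwm87_r0_smul M A hM x hx hx' hc1 hc2 σ hσ (hxσ σ hσ) P,
    fun P a ha => cw87_r0_coord (cwm87_base M A hM) hc1 hc2 P a ha,
    fun P hP => cw87_r0_pole' (cwm87_base M A hM) hc1 hc2 P hP⟩

end Mod

end Fermat.Agent.S37
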