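import Fermat.Agent.S37.ChartDed57
import Fermat.Agent.S37.ConsModEquiv87
import Fermat.Agent.S37.ChartModFinal80

/-!
# S37, row RC (helper57): the Conserve57 route at the modular function field, hypothesis-free

`cd57_chart` (`ChartDed57.lean`) applied to the chart coordinates of `ChartModInst80`, and
helper87's two-chart package `cwm87_rc` applied to the Hauptmodul charts:

* `cdm57_chart` : `cv57_Chart` for a chart coordinate `g` with chart normality.
* `cdm57_rc_pair` : clauses (1) + (2) + the coordinate clauses for two inverse coordinates.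
* `cdm57_rc_level2`, `cdm57_rc_level3` : the same, hypothesis-free, for `(h₂, 1/h₂)` (`2 ∣ M`)
  and `(h₃, 1/h₃)` (`3 ∣ M`), `A` over a prime `ℓ ∤ M`.
* `cdm57_rc12` : clauses (1) + (2) of `geo17_RC` at the levels `lcm N p₀`, `p₀ ∈ {2, 3}`.
-/

set_option autoImplicit false
set_option synthInstance.maxHeartbeats 400000
set_option linter.style.haveILetI false
set_option linter.unusedSectionVars false
set_option maxSynthPendingDepth 3

open ModularCurve IntermediateField AlgebraicCurve

namespace Fermat.Agent.S37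

open Fermat.Agent.S24 Fermat.Agent.S18 Fermat.Agent.S28

local notation "Qb" => AlgebraicClosure ℚ
local notation "GQ" => AlgebraicClosure ℚ ≃ₐ[ℚ] AlgebraicClosure ℚ

section Congr

variable {K F κ Fκ : Type*} [Field K] [Field F] [Algebra K F] [Field κ] [Field Fκ] [Algebra κ Fκ]
variable {A : ValuationSubring K} {res : A →+* κ} {O : ValuationSubring F} {red : O →+* Fκ}
  {evK : ∀ P : Place K F, P.toValuationSubring →+* K}

theorem cdm57_chart_congr {x x' : F} (h : x = x') {hx : x ∈ O} {hx' : x' ∈ O}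
    (hc : cv57_Chart A res O red evK x hx) : cv57_Chart A res O red evK x' hx' := by
  subst h
  exact hc

end Congr

section Chart

variable {M : ℕ} [NeZero M] {A : ValuationSubring Qb}
  (hM : (M : IsLocalRing.ResidueField A) ≠ 0) {g : LaurentSeries ℤ}

/-- **The Conserve57 chart hypotheses for a chart coordinate of the modular function field**,
given chart normality. -/
theorem cdm57_chart (hc : cm80_Coord M A g)
    (hnorm : ka46_NormalAt A.subtype (IsLocalRing.residue A) M g) :
    cv57_Chart A (IsLocalRing.residue A) (ga41_V M A hM) (cm80_red M A hM) (cwm87_evK M)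
      (cm80_xF M g hc.memF) (cm80_xF_mem_O M A g hc.memF) := by
  haveI := rc5_isAlgClosed_residueField A
  haveI : Algebra.IsSeparable ↥(Qb⟮((cm80_xV M A g hM hc.memF : ↥(ga41_V M A hM)) :
      ↥(modularFunctionFieldBar M))⟯) ↥(modularFunctionFieldBar M) :=
    cm80_isSeparable_F hM hc
  haveI := cm80_isSeparable_k M A hM g hc.memF hc.memk hc.tr hc.jmem
  obtain ⟨n, b, bκ, hn, hbκ⟩ := cm80_hasI1 hM hc
  exact cd57_chart (cm80_red M A hM) (cm80_hAO M A hM) (cm80_hcompat M A hM)
    (cm80_hunit M A hM) (cm80_xV M A g hM hc.memF)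
    (cm80_red_xV_transcendental M A g hM hc.memF hc.memk hc.tr) b
    (by rw [Fintype.card_fin]; exact hn) bκ hbκ
    (cm80_I2 M A g hM hc.memF hc.memk hc.tr hnorm) (cwm87_evK M) (cwm87_evk M A hM)
    (cwm87_base M A hM)

omit [NeZero M] in
/-- A chart coordinate is fixed by the arithmetic Galois action. -/
theorem cdm57_arith_smul (hgF : ka46_g Qb g ∈ modularFunctionFieldBar M) (σ : GQ) :
    arithmeticGalois (modularFunctionFieldFull M) σ • cm80_xF M g hgF = cm80_xF M g hgF := by
  apply Subtype.ext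
  rw [coe_arithmeticGalois_smul]
  exact ka46_coeffMap_g (σ : Qb →+* Qb) g

/-- **Clauses (1) + (2) + the coordinate clauses from two inverse chart coordinates.** -/
theorem cdm57_rc_pair {g' : LaurentSeries ℤ} (hc : cm80_Coord M A g) (hc' : cm80_Coord M A g')
    (hxy : cm80_xV M A g hM hc.memF * cm80_xV M A g' hM hc'.memF = 1)
    (hnorm : ka46_NormalAt A.subtype (IsLocalRing.residue A) M g)
    (hnorm' : ka46_NormalAt A.subtype (IsLocalRing.residue A) M g') :
    ∃ r0 : Place Qb ↥(modularFunctionFieldBar M) →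
        Place (IsLocalRing.ResidueField A)
          ↥(modularFunctionFieldFullC (IsLocalRing.ResidueField A) M),
      IsPlaceReductionModL A M r0 ∧
      (∀ (σ : GQ) (hσ : σ ∈ A.decompositionSubgroup ℚ)
        (P : Place Qb ↥(modularFunctionFieldBar M)),
        r0 (arithmeticGalois (modularFunctionFieldFull M) σ • P)
          = fr66_resGalois M (MulSemiringAction.toRingEquiv (A.decompositionSubgroup ℚ)
              (IsLocalRing.ResidueField A) ⟨σ, hσ⟩) • r0 P) ∧
      (∀ (P : Place Qb ↥(modularFunctionFieldBar M)) (a : A),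
        0 < P.ord (cm80_xF M g hc.memF - algebraMap Qb ↥(modularFunctionFieldBar M) (a : Qb)) →
        0 < (r0 P).ord (cm80_red M A hM (cm80_xV M A g hM hc.memF) -
          algebraMap (IsLocalRing.ResidueField A)
            ↥(modularFunctionFieldFullC (IsLocalRing.ResidueField A) M)
            (IsLocalRing.residue A a))) ∧
      (∀ P : Place Qb ↥(modularFunctionFieldBar M),
        (¬ ∃ a : A, 0 < P.ord (cm80_xF M g hc.memF -
          algebraMap Qb ↥(modularFunctionFieldBar M) (a : Qb))) →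
        (r0 P).ord (cm80_red M A hM (cm80_xV M A g hM hc.memF)) < 0) := by
  have hmul : cm80_xF M g hc.memF * cm80_xF M g' hc'.memF = 1 := congrArg Subtype.val hxy
  have hinv : cm80_xF M g' hc'.memF = (cm80_xF M g hc.memF)⁻¹ :=
    eq_inv_of_mul_eq_one_right hmul
  have hx' : (cm80_xF M g hc.memF)⁻¹ ∈ ga41_V M A hM := by
    rw [← hinv]
    exact cm80_xF_mem_O M A g' hc'.memF
  exact cwm87_rc M A hM (cm80_xF M g hc.memF) (cm80_xF_mem_O M A g hc.memF) hx'
    (cdm57_chart hM hc hnorm) (cdm57_chart_congr hinv (cdm57_chart hM hc' hnorm'))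
    (fun σ _ => cdm57_arith_smul hc.memF σ)

end Chart

section Final

variable (A : ValuationSubring Qb) {ℓ : ℕ} (hℓ : ℓ.Prime) (hA : A.LiesOverPrime ℓ)
  (M : ℕ) [NeZero M] (hℓM : Nat.Coprime M ℓ)

include hℓ hA hℓM in
/-- **Clauses (1) + (2) at a level `2 ∣ M` prime to `ℓ`** (charts `h₂`, `1/h₂`). -/
theorem cdm57_rc_level2 (h2 : 2 ∣ M) :
    ∃ r0 : Place Qb ↥(modularFunctionFieldBar M) →
        Place (IsLocalRing.ResidueField A)
          ↥(modularFunctionFieldFullC (IsLocalRing.ResidueField A) M),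
      IsPlaceReductionModL A M r0 ∧
      (∀ (σ : GQ) (hσ : σ ∈ A.decompositionSubgroup ℚ)
        (P : Place Qb ↥(modularFunctionFieldBar M)),
        r0 (arithmeticGalois (modularFunctionFieldFull M) σ • P)
          = fr66_resGalois M (MulSemiringAction.toRingEquiv (A.decompositionSubgroup ℚ)
              (IsLocalRing.ResidueField A) ⟨σ, hσ⟩) • r0 P) := by
  have hM := cm80_hM A hℓ hA M hℓM
  obtain ⟨r0, h1, h2', -, -⟩ := cdm57_rc_pair hM (cm80_coord_h2 hM h2) (cm80_coord_h2inv hM h2)
    (cm80_h2_mul_h2inv hM h2) (cf93_normalA_level2 A hℓ.ne_zero hA M hℓM h2).1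
    (cf93_normalA_level2 A hℓ.ne_zero hA M hℓM h2).2
  exact ⟨r0, h1, h2'⟩

include hℓ hA hℓM in
/-- **Clauses (1) + (2) at a level `3 ∣ M` prime to `ℓ`** (charts `h₃`, `1/h₃`). -/
theorem cdm57_rc_level3 (h3 : 3 ∣ M) :
    ∃ r0 : Place Qb ↥(modularFunctionFieldBar M) →
        Place (IsLocalRing.ResidueField A)
          ↥(modularFunctionFieldFullC (IsLocalRing.ResidueField A) M),
      IsPlaceReductionModL A M r0 ∧
      (∀ (σ : GQ) (hσ : σ ∈ A.decompositionSubgroup ℚ)
        (P : Place Qb ↥(modularFunctionFieldBar M)),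
        r0 (arithmeticGalois (modularFunctionFieldFull M) σ • P)
          = fr66_resGalois M (MulSemiringAction.toRingEquiv (A.decompositionSubgroup ℚ)
              (IsLocalRing.ResidueField A) ⟨σ, hσ⟩) • r0 P) := by
  have hM := cm80_hM A hℓ hA M hℓM
  obtain ⟨r0, h1, h2', -, -⟩ := cdm57_rc_pair hM (cm80_coord_h3 hM h3) (cm80_coord_h3inv hM h3)
    (cm80_h3_mul_h3inv hM h3) (cf93_normalA_level3 A hℓ.ne_zero hA M hℓM h3).1
    (cf93_normalA_level3 A hℓ.ne_zero hA M hℓM h3).2
  exact ⟨r0, h1, h2'⟩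

end Final

section RC12

/-- **Clauses (1) + (2) of `geo17_RC` at the auxiliary levels `lcm N p₀`, `p₀ ∈ {2, 3}`**,
hypothesis-free (the shape `hRC12` of the degree-zero route). -/
theorem cdm57_rc12 (N : ℕ) (p₀ : ℕ) (h23 : p₀ = 2 ∨ p₀ = 3) (ℓ : ℕ) (hℓ : ℓ.Prime)
    (hℓN : ¬ ℓ ∣ N) (hne : ℓ ≠ p₀) (A : ValuationSubring Qb) (hA : A.LiesOverPrime ℓ)
    [NeZero (Nat.lcm N p₀)] :
    ∃ r0 : Place Qb ↥(modularFunctionFieldBar (Nat.lcm N p₀)) →
        Place (IsLocalRing.ResidueField A)
          ↥(modularFunctionFieldFullC (IsLocalRing.ResidueField A) (Nat.lcm N p₀)),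
      IsPlaceReductionModL A (Nat.lcm N p₀) r0 ∧
      (∀ (σ : GQ) (hσ : σ ∈ A.decompositionSubgroup ℚ)
        (P : Place Qb ↥(modularFunctionFieldBar (Nat.lcm N p₀))),
        r0 (arithmeticGalois (modularFunctionFieldFull (Nat.lcm N p₀)) σ • P)
          = fr66_resGalois (Nat.lcm N p₀)
              (MulSemiringAction.toRingEquiv (A.decompositionSubgroup ℚ)
                (IsLocalRing.ResidueField A) ⟨σ, hσ⟩) • r0 P) := by
  have hp₀ : p₀.Prime := by
    rcases h23 with rfl | rfl
    · exact Nat.prime_two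
    · exact Nat.prime_three
  have hℓN' : ¬ ℓ ∣ Nat.lcm N p₀ := by
    intro hdvd
    have h1 : ℓ ∣ N * p₀ := hdvd.trans (Nat.lcm_dvd_mul N p₀)
    rcases (Nat.Prime.dvd_mul hℓ).mp h1 with h2 | h2
    · exact hℓN h2
    · exact hne ((Nat.prime_dvd_prime_iff_eq hℓ hp₀).mp h2)
  have hcop : Nat.Coprime (Nat.lcm N p₀) ℓ :=
    ((Nat.Prime.coprime_iff_not_dvd hℓ).mpr hℓN').symm
  rcases h23 with rfl | rfl
  · exact cdm57_rc_level2 A hℓ hA (Nat.lcm N 2) hcop (Nat.dvd_lcm_right N 2)
  · exact cdm57_rc_level3 A hℓ hA (Nat.lcm N 3) hcop (Nat.dvd_lcm_right N 3)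

end RC12

end Fermat.Agent.S37
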