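import Mathlib
import Fermat.Prelude.Def_ModularCurve_X0ModL
import Fermat.Agent.S18.Pack15
import Fermat.Agent.S37.NormalBridge46

/-!
# S37, row NM-B5bridge (helper46): the chart dictionary and the generic `K`-level statement

`F = F(M)_K = ↥(modularFunctionFieldFullC K M)` with an `R`-algebra structure compatible with
`K`; `x : F` a chart coordinate whose `q`-expansion is the integer series `g`
(`(x : K((q))) = ka46_g K g`).  The S18 chart `pk15_chart R {x}` (integral closure of `R[x]` in
`F`) is, through the coercion to `K((q))`, exactly the chart ring of `nb46_normalAt`: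

* `cd46_isIntegral_iff`: `IsIntegral (Algebra.adjoin R {x}) f ↔
    (ka46_ev (algebraMap R K) g).IsIntegralElem (f : K((q)))`;
* `cd46_emb`, `cd46_emb_injective`, `cd46_hC`, `cd46_hπC`: the hypotheses `emb`, `hemb`, `hC`,
  `hπC` of `nb46_normalAt` for `C := pk15_chart R {x}`;
* `cd46_hT`: the hypothesis `hT` from transcendence of the reduced coordinate;
* `cd46_normalAt`: **the generic `K`-level statement**: for a discrete valuation ring `R` with
  fraction field `K`, a Dedekind special fibre of `pk15_chart R {x}` (S18-B5), transcendence of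
  the reduced coordinate and `x ^ k * J_d ∈ pk15_chart R {x}` give
  `ka46_NormalAt (algebraMap R K) (residue R) M g`.
-/

set_option autoImplicit false

open ModularCurve

namespace Fermat.Agent.S37

open Fermat.Agent.S18

section Dict

variable {R K : Type*} [CommRing R] [Field K] [Algebra R K] (M : ℕ)
  [Algebra R ↥(modularFunctionFieldFullC K M)]
  [IsScalarTower R K ↥(modularFunctionFieldFullC K M)]

/-- The `q`-expansion of an `R`-constant. -/
theorem cd46_coe_algebraMap (r : R) :
    ((algebraMap R ↥(modularFunctionFieldFullC K M) r : ↥(modularFunctionFieldFullC K M)) :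
      LaurentSeries K) = HahnSeries.C (algebraMap R K r) := by
  rw [IsScalarTower.algebraMap_apply R K ↥(modularFunctionFieldFullC K M), HahnSeries.C_apply,
    ← algebraMap_laurentSeries_eq_single]
  rfl

/-- `ka46_ev` is `aeval x` followed by the coercion to `K((q))`. -/
theorem cd46_ev_eq (g : LaurentSeries ℤ) (x : ↥(modularFunctionFieldFullC K M))
    (hx : (x : LaurentSeries K) = ka46_g K g) (a : Polynomial R) :
    ka46_ev (algebraMap R K) g a =
      ((Polynomial.aeval x a : ↥(modularFunctionFieldFullC K M)) : LaurentSeries K) := by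
  have h1 : ((Polynomial.aeval x a : ↥(modularFunctionFieldFullC K M)) : LaurentSeries K) =
      ((modularFunctionFieldFullC K M).val : ↥(modularFunctionFieldFullC K M) →+* LaurentSeries K)
        (Polynomial.eval₂ (algebraMap R ↥(modularFunctionFieldFullC K M)) x a) := rfl
  rw [h1, Polynomial.hom_eval₂, ka46_ev_apply]
  have h2 : ((modularFunctionFieldFullC K M).val :
      ↥(modularFunctionFieldFullC K M) →+* LaurentSeries K).comp
        (algebraMap R ↥(modularFunctionFieldFullC K M)) =
      (HahnSeries.C : K →+* LaurentSeries K).comp (algebraMap R K) :=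
    RingHom.ext fun r => cd46_coe_algebraMap M r
  rw [h2]
  congr 1
  exact hx.symm

/-- **Integrality dictionary**: integral over `R[x]` in `F` iff the `q`-expansion is integral
along `ka46_ev`. -/
theorem cd46_isIntegral_iff (g : LaurentSeries ℤ) (x : ↥(modularFunctionFieldFullC K M))
    (hx : (x : LaurentSeries K) = ka46_g K g) (f : ↥(modularFunctionFieldFullC K M)) :
    IsIntegral (Algebra.adjoin R ({x} : Set ↥(modularFunctionFieldFullC K M))) f ↔
      (ka46_ev (algebraMap R K) g).IsIntegralElem (f : LaurentSeries K) := by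
  rw [← qx46_isIntegralElem_iff_adjoin]
  set ι : ↥(modularFunctionFieldFullC K M) →+* LaurentSeries K :=
    ((modularFunctionFieldFullC K M).val : ↥(modularFunctionFieldFullC K M) →+* LaurentSeries K)
    with hι
  have hcomp : ka46_ev (algebraMap R K) g =
      ι.comp ((Polynomial.aeval x : Polynomial R →ₐ[R] ↥(modularFunctionFieldFullC K M)) :
        Polynomial R →+* ↥(modularFunctionFieldFullC K M)) :=
    RingHom.ext fun a => cd46_ev_eq M g x hx a
  have hf : (f : LaurentSeries K) = ι f := rfl
  constructor
  · rintro ⟨p, hp, hpz⟩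
    refine ⟨p, hp, ?_⟩
    rw [hcomp, hf, ← Polynomial.hom_eval₂, hpz, map_zero]
  · rintro ⟨p, hp, hpz⟩
    refine ⟨p, hp, ?_⟩
    apply ι.injective
    rw [map_zero, Polynomial.hom_eval₂, ← hcomp, ← hf]
    exact hpz

/-- The chart `pk15_chart R {x}` inside `K((q))`. -/
noncomputable def cd46_emb (x : ↥(modularFunctionFieldFullC K M)) :
    ↥(pk15_chart R ({x} : Set ↥(modularFunctionFieldFullC K M))) →+* LaurentSeries K :=
  ((modularFunctionFieldFullC K M).val : ↥(modularFunctionFieldFullC K M) →+* LaurentSeries K).comp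
    ((pk15_chart R ({x} : Set ↥(modularFunctionFieldFullC K M))).val :
      ↥(pk15_chart R ({x} : Set ↥(modularFunctionFieldFullC K M))) →+*
        ↥(modularFunctionFieldFullC K M))

omit [Algebra R K] [IsScalarTower R K ↥(modularFunctionFieldFullC K M)] in
theorem cd46_emb_apply (x : ↥(modularFunctionFieldFullC K M))
    (c : ↥(pk15_chart R ({x} : Set ↥(modularFunctionFieldFullC K M)))) :
    cd46_emb M x c = ((c : ↥(modularFunctionFieldFullC K M)) : LaurentSeries K) := rfl

omit [Algebra R K] [IsScalarTower R K ↥(modularFunctionFieldFullC K M)] in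
theorem cd46_emb_injective (x : ↥(modularFunctionFieldFullC K M)) :
    Function.Injective (cd46_emb (R := R) M x) := by
  intro a b hab
  rw [cd46_emb_apply, cd46_emb_apply] at hab
  exact Subtype.ext (Subtype.ext hab)

/-- Hypothesis `hC` of `nb46_normalAt` for `C := pk15_chart R {x}`. -/
theorem cd46_hC (g : LaurentSeries ℤ) (x : ↥(modularFunctionFieldFullC K M))
    (hx : (x : LaurentSeries K) = ka46_g K g) (y : LaurentSeries K) :
    y ∈ Set.range (cd46_emb (R := R) M x) ↔
      y ∈ modularFunctionFieldFullC K M ∧ (ka46_ev (algebraMap R K) g).IsIntegralElem y := by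
  constructor
  · rintro ⟨c, rfl⟩
    rw [cd46_emb_apply]
    exact ⟨(c : ↥(modularFunctionFieldFullC K M)).2,
      (cd46_isIntegral_iff M g x hx (c : ↥(modularFunctionFieldFullC K M))).mp
        ((pk15_mem_chart _ _).mp c.2)⟩
  · rintro ⟨hy, hint⟩
    have h1 : IsIntegral (Algebra.adjoin R ({x} : Set ↥(modularFunctionFieldFullC K M)))
        (⟨y, hy⟩ : ↥(modularFunctionFieldFullC K M)) :=
      (cd46_isIntegral_iff M g x hx ⟨y, hy⟩).mpr hint
    exact ⟨⟨⟨y, hy⟩, (pk15_mem_chart _ _).mpr h1⟩, rfl⟩

/-- Hypothesis `hπC` of `nb46_normalAt` for `C := pk15_chart R {x}`. -/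
theorem cd46_hπC (x : ↥(modularFunctionFieldFullC K M)) (π : R) :
    cd46_emb M x (algebraMap R ↥(pk15_chart R ({x} : Set ↥(modularFunctionFieldFullC K M))) π) =
      HahnSeries.C (algebraMap R K π) := by
  rw [cd46_emb_apply]
  exact cd46_coe_algebraMap M π

end Dict

/-- Hypothesis `hT` of `nb46_normalAt` from transcendence of the reduced coordinate. -/
theorem cd46_hT (κ : Type*) [Field κ] (g : LaurentSeries ℤ)
    (hg : Transcendental κ (ka46_g κ g)) :
    ∀ s : Polynomial κ, s ≠ 0 → ka46_ev (RingHom.id κ) g s ≠ 0 := by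
  intro s hs h0
  rw [qx46_ev_id_eq_aeval] at h0
  exact hs ((transcendental_iff.mp hg) s h0)

section Generic

variable {R K : Type*} [CommRing R] [IsDomain R] [IsDiscreteValuationRing R] [Field K]
  [Algebra R K] [IsFractionRing R K] (M : ℕ)
  [Algebra R ↥(modularFunctionFieldFullC K M)]
  [IsScalarTower R K ↥(modularFunctionFieldFullC K M)]

/-- **The generic `K`-level statement.**  `R` a discrete valuation ring with fraction field `K`
and uniformiser `π`, `x ∈ F(M)_K` a chart coordinate with integer `q`-expansion `g`.  If the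
chart `pk15_chart R {x}` has a Dedekind special fibre (S18-B5), the reduced coordinate is
transcendental over the residue field, and `x ^ k * J_d` lies in the chart for suitable `k`
(every `d ∣ M`), then chart normality holds over `(R, K, residue field)`. -/
theorem cd46_normalAt {π : R} (hπ : Irreducible π) (g : LaurentSeries ℤ)
    (x : ↥(modularFunctionFieldFullC K M)) (hx : (x : LaurentSeries K) = ka46_g K g)
    (hD : IsDedekindDomain (↥(pk15_chart R ({x} : Set ↥(modularFunctionFieldFullC K M))) ⧸
      Ideal.span {algebraMap R ↥(pk15_chart R ({x} : Set ↥(modularFunctionFieldFullC K M))) π}))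
    (hT : Transcendental (IsLocalRing.ResidueField R) (ka46_g (IsLocalRing.ResidueField R) g))
    (hG : ∀ (d : ℕ) (_ : NeZero d) (hdM : d ∣ M), ∃ k : ℕ,
      x ^ k * (⟨qExpand K d (jqModC K), jqModCd_mem_full K M hdM⟩ :
        ↥(modularFunctionFieldFullC K M)) ∈
          pk15_chart R ({x} : Set ↥(modularFunctionFieldFullC K M))) :
    ka46_NormalAt (algebraMap R K) (IsLocalRing.residue R) M g := by
  haveI := hD
  have hfrac : ∀ c : K, ∃ r s : R, s ≠ 0 ∧ c * algebraMap R K s = algebraMap R K r := by
    intro c
    obtain ⟨⟨r, s⟩, hrs⟩ := IsLocalization.surj (nonZeroDivisors R) c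
    exact ⟨r, s, nonZeroDivisors.ne_zero s.2, hrs⟩
  have hres0 : ∀ r : R, IsLocalRing.residue R r = 0 ↔ π ∣ r := by
    intro r
    rw [IsLocalRing.residue_eq_zero_iff, hπ.maximalIdeal_eq, Ideal.mem_span_singleton]
  refine nb46_normalAt (algebraMap R K) (IsFractionRing.injective R K) hfrac
    (IsLocalRing.residue R) IsLocalRing.residue_surjective π ((hres0 π).mpr dvd_rfl)
    (fun r hr => (hres0 r).mp hr) M g (cd46_emb M x) (cd46_emb_injective M x)
    (cd46_hC M g x hx)
    (algebraMap R ↥(pk15_chart R ({x} : Set ↥(modularFunctionFieldFullC K M))) π)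
    (cd46_hπC M x π) (by rw [← hx]; exact x.2) (cd46_hT _ g hT) ?_
  intro d hd hdM
  obtain ⟨k, hk⟩ := hG d hd hdM
  refine ⟨k, ?_⟩
  have h1 := (cd46_isIntegral_iff M g x hx _).mp ((pk15_mem_chart _ _).mp hk)
  rw [← hx]
  exact h1

end Generic

end Fermat.Agent.S37
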