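import Mathlib
import Fermat.Agent.S37.ChartCore48

/-!
# S37, row RC (helper48): extra exports of the chart core

* `h48_exists_disc'`, `h48_exists_disc` : disc coordinates (a lift of a uniformiser at a point
  `Q` of the special fibre that is a unit at the other points over finitely many classes;
  normalised to vanish at a given point `P` reducing to `Q`).
* `h48_norm_mem_span`, `h48_exists_frac` : every element of the fraction field of a chart ring is
  `b / s(x)` with `b` in the chart ring and `s` a nonzero polynomial in the coordinate.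
-/

set_option autoImplicit false
set_option linter.unusedSectionVars false

namespace Fermat.Agent.S37

open Polynomial UniqueFactorizationMonoid

section Disc

variable {L : Type*} [Field L] [IsAlgClosed L] {A : ValuationSubring L}
  [IsAlgClosed (IsLocalRing.ResidueField A)]
variable {B : Type*} [CommRing B] [IsDedekindDomain B] [Algebra L[X] B]
  [Module.Finite L[X] B] [Module.IsTorsionFree L[X] B]
variable {Bk : Type*} [CommRing Bk] [IsDedekindDomain Bk]
  [Algebra (IsLocalRing.ResidueField A)[X] Bk]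
  [Module.Finite (IsLocalRing.ResidueField A)[X] Bk]
  [Module.IsTorsionFree (IsLocalRing.ResidueField A)[X] Bk]
variable {BA : Subring B} {ρ : BA →+* Bk}

local notation "k" => IsLocalRing.ResidueField A
local notation "res" => IsLocalRing.residue A

/-- **Disc coordinate on the special fibre.** An integral function whose reduction is a
uniformiser at `Q` and a unit at every other point of the special fibre over a class in `G`. -/
theorem h48_exists_disc' (h : h48_Chart A BA ρ) (G : Finset k) {Q : Ideal Bk}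
    (hQ : Q.IsMaximal) :
    ∃ t : BA, ρ t ∈ Q ∧ ρ t ∉ Q ^ 2 ∧
      ∀ Q' : Ideal Bk, Q'.IsMaximal → Q' ≠ Q → (h48_xv Q' : k) ∈ G → ρ t ∉ Q' := by
  classical
  have hQ0 : Q ≠ ⊥ := h48_ne_bot_of_isMaximal k Q hQ
  set T : Finset (Ideal Bk) := G.biUnion (fun g =>
    (normalizedFactors (Ideal.span {algebraMap k[X] Bk (X - C g)})).toFinset) with hTdef
  have hT : ∀ Q' ∈ T, Q'.IsMaximal := by
    intro Q' hQ'
    obtain ⟨g, -, hg⟩ := Finset.mem_biUnion.mp hQ'
    have h1 : Prime Q' := prime_of_normalized_factor Q' (Multiset.mem_toFinset.mp hg)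
    exact (Ideal.isPrime_of_prime h1).isMaximal h1.ne_zero
  have hTmem : ∀ Q' : Ideal Bk, Q'.IsMaximal → (h48_xv Q' : k) ∈ G → Q' ∈ T := by
    intro Q' hQ' hx
    refine Finset.mem_biUnion.mpr ⟨h48_xv Q', hx, ?_⟩
    have he0 : Ideal.span {algebraMap k[X] Bk (X - C (h48_xv Q' : k))} ≠ ⊥ := by
      rw [Ne, Ideal.span_singleton_eq_bot]
      exact (map_ne_zero_iff _ (h48_algebraMap_injective (K := k) (B := Bk))).mpr
        (X_sub_C_ne_zero _)
    rw [Multiset.mem_toFinset, Ideal.mem_normalizedFactors_iff he0]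
    exact ⟨hQ'.isPrime, (Ideal.span_singleton_le_iff_mem _).mpr (h48_xv_mem (K := k) Q' hQ')⟩
  obtain ⟨tb, htQ, htQ2, htT⟩ := h48_exists_unif Q hQ hQ0 T hT
  obtain ⟨t, rfl⟩ := h.surj tb
  exact ⟨t, htQ, htQ2, fun Q' hQ' hne hx => htT Q' (hTmem Q' hQ' hx) hne⟩

/-- **Disc coordinate at a tube point.** An integral function vanishing at the tube point `P`
whose reduction is a uniformiser at the centre of `P` and a unit at every other point of the
special fibre over a class in `G`. -/
theorem h48_exists_disc (h : h48_Chart A BA ρ) (G : Finset k) {P : Ideal B} (hP : P.IsMaximal)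
    {α : A} (hα : (h48_xv P : L) = α) :
    ∃ t : BA, (t : B) ∈ P ∧ ρ t ∈ h48_centre ρ P ∧ ρ t ∉ h48_centre ρ P ^ 2 ∧
      ∀ Q' : Ideal Bk, Q'.IsMaximal → Q' ≠ h48_centre ρ P → (h48_xv Q' : k) ∈ G → ρ t ∉ Q' := by
  have hQ := h48_centre_isMaximal h hP hα
  have hred : h48_Red BA ρ P (h48_centre ρ P) := h48_red_centre P
  obtain ⟨t, htQ, htQ2, htT⟩ := h48_exists_disc' h G hQ
  obtain ⟨τ, hτ⟩ := h48_value h hP hα t
  have hτ0 : res τ = 0 := by
    have h1 := h48_red_eval h hred t τ hτ
    have h2 : algebraMap k[X] Bk (C (res τ)) ∈ h48_centre ρ P := by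
      have h3 := (h48_centre ρ P).sub_mem htQ h1
      rwa [sub_sub_cancel] at h3
    by_contra hne
    exact h48_const_notMem hQ.ne_top hne h2
  have hρ : ρ (t - h48_polyBA h (C τ)) = ρ t := by
    rw [map_sub, h48_rho_polyBA, Polynomial.map_C, hτ0, C_0, map_zero, sub_zero]
  refine ⟨t - h48_polyBA h (C τ), ?_, ?_, ?_, ?_⟩
  · have h1 : ((t - h48_polyBA h (C τ) : BA) : B)
        = (t : B) - algebraMap L[X] B (C (τ : L)) := by
      push_cast
      rw [h48_coe_polyBA, Polynomial.map_C]
      rfl
    rw [h1]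
    exact hτ
  · rw [hρ]
    exact htQ
  · rw [hρ]
    exact htQ2
  · intro Q' hQ' hne hx
    rw [hρ]
    exact htT Q' hQ' hne hx

end Disc

section Frac

variable {K : Type*} [Field K] {B : Type*} [CommRing B] [IsDedekindDomain B]
  [Algebra K[X] B] [Module.Finite K[X] B] [Module.IsTorsionFree K[X] B]

/-- The norm of `b` is a multiple of `b`. -/
theorem h48_norm_mem_span (b : B) :
    algebraMap K[X] B (Algebra.norm K[X] b) ∈ Ideal.span {b} := by
  have h1 := Ideal.relNorm_le_comap (R := K[X]) (Ideal.span {b})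
  rw [Ideal.relNorm_singleton, Algebra.intNorm_eq_norm] at h1
  exact h1 (Ideal.mem_span_singleton_self _)

/-- Every element of the fraction field of a chart ring is `b / s(x)`. -/
theorem h48_exists_frac {F : Type*} [Field F] [Algebra B F] [IsFractionRing B F] (f : F) :
    ∃ (b : B) (s : K[X]), s ≠ 0 ∧
      f * algebraMap B F (algebraMap K[X] B s) = algebraMap B F b := by
  obtain ⟨b₁, b₂, hb₂, rfl⟩ := IsFractionRing.div_surjective (A := B) f
  have hb₂0 : b₂ ≠ 0 := nonZeroDivisors.ne_zero hb₂
  obtain ⟨c, hc⟩ := Ideal.mem_span_singleton'.mp (h48_norm_mem_span (K := K) b₂)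
  refine ⟨b₁ * c, Algebra.norm K[X] b₂, Algebra.norm_ne_zero_iff.mpr hb₂0, ?_⟩
  have h2 : algebraMap B F b₂ ≠ 0 :=
    (map_ne_zero_iff _ (IsFractionRing.injective B F)).mpr hb₂0
  rw [← hc, map_mul, map_mul]
  field_simp

end Frac

end Fermat.Agent.S37
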