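import Mathlib
import Fermat.Agent.S37.ChartCore48
import Fermat.Agent.S37.ChartChange62
import Fermat.Agent.S24.Places
import Fermat.Agent.S24.PlacesBasicCore

/-!
# S37, row RC-GLUE (helper38): the glued centre map in place form

Abstract two-chart gluing on top of helper48's chart core (`ChartCore48.lean`).

Setting: `L` algebraically closed with a valuation subring `A` whose residue field `k` is
algebraically closed; function fields `F / L` and `Fk / k`; `V` the Gauss valuation ring of `F`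
with reduction map `red : V →+* Fk`.  A chart (`cg38_Data A V red x xb BA ρ`) is: a Dedekind
ring `B` with fraction field `F`, finite and torsion free over `L[X]` (`X ↦ x`), the same on the
special fibre (`Bk`, `X ↦ xb`), `BA = B ∩ V`, `ρ = red` restricted, and `h48_Chart A BA ρ`.

Main results, for two charts `h₁` (coordinates `x`, `xb`) and `h₂` (coordinates `x⁻¹`, `xb⁻¹`):

* `cg38_r0 h₁ h₂ : Place L F → Place k Fk` : the glued centre map;
* `cg38_conservation` : (a) `r0_* (div f) = div (red f)` for every `f ∈ V` with `red f ≠ 0`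
  (the clause of the Prelude `IsPlaceReductionAlong`);
* `cg38_r0_value`, `cg38_r0_pole`, `cg38_r0_pole_of_ord_neg`, `cg38_r0_pole_of_notMem`,
  `cg38_r0_regular_iff` : (b) the reduced coordinate at `r0 P` is the reduction of the
  coordinate at `P`, in `k ∪ {∞}`;
* `cg38_toolkit` : (d) place form of the tube toolkit `h48_toolkit` (one chart);
* `cg38_unif` : disc coordinates on the special fibre (one chart);
* `cg38_r0_eq_iff₁`, `cg38_r0_eq_iff₂` : the fibres of `r0`;
* `cg38_main` : everything packaged as an existence statement.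
-/

set_option autoImplicit false
set_option linter.unusedSectionVars false

namespace Fermat.Agent.S37

open Polynomial UniqueFactorizationMonoid AlgebraicCurve IsDedekindDomain
open Fermat.Agent.S24

section Dict

variable {K : Type*} [Field K] {F : Type*} [Field F] [Algebra K F]
variable {B : Type*} [CommRing B] [IsDedekindDomain B] [Algebra B F] [IsFractionRing B F]
  [Algebra K B] [IsScalarTower K B F]

open Classical in
/-- The order at a chart point is the multiplicity in the prime factorisation. -/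
theorem cg38_ord_eq_count (w : HeightOneSpectrum B) {b : B} (hb : b ≠ 0) :
    (Place.ofHeightOneSpectrum (K := K) w).ord (algebraMap B F b)
      = (Multiset.count w.asIdeal (normalizedFactors (Ideal.span {b})) : ℤ) := by
  have hI : (Ideal.span {b} : Ideal B) ≠ 0 := by
    rw [Ne, Ideal.zero_eq_bot, Ideal.span_singleton_eq_bot]
    exact hb
  rw [wp1a_ord_ofHeightOneSpectrum, HeightOneSpectrum.valuation_of_algebraMap,
    HeightOneSpectrum.intValuation_if_neg _ hb, WithZero.log_exp, neg_neg,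
    Ideal.count_associates_factors_eq hI w.isPrime w.ne_bot]

open Classical in
/-- Order at a chart point of a quotient of two elements of the chart ring. -/
theorem cg38_ord_frac (w : HeightOneSpectrum B) {f : F} {b s : B} (hb : b ≠ 0) (hs : s ≠ 0)
    (hfs : f * algebraMap B F s = algebraMap B F b) :
    (Place.ofHeightOneSpectrum (K := K) w).ord f
      = (Multiset.count w.asIdeal (normalizedFactors (Ideal.span {b})) : ℤ)
        - (Multiset.count w.asIdeal (normalizedFactors (Ideal.span {s})) : ℤ) := by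
  have hsF : algebraMap B F s ≠ 0 := (map_ne_zero_iff _ (IsFractionRing.injective B F)).mpr hs
  have hbF : algebraMap B F b ≠ 0 := (map_ne_zero_iff _ (IsFractionRing.injective B F)).mpr hb
  have hf : f ≠ 0 := by
    rintro rfl
    rw [zero_mul] at hfs
    exact hbF hfs.symm
  have h1 := (Place.ofHeightOneSpectrum (K := K) w).ord_mul hf hsF
  rw [hfs, cg38_ord_eq_count w hb, cg38_ord_eq_count w hs] at h1
  linarith

/-- Elements of the chart ring are regular at chart points. -/
theorem cg38_mem_ofH (w : HeightOneSpectrum B) (b : B) :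
    algebraMap B F b ∈ (Place.ofHeightOneSpectrum (K := K) w).toValuationSubring := by
  rw [Place.ofHeightOneSpectrum_toValuationSubring, Valuation.mem_valuationSubring_iff]
  exact w.valuation_le_one b

theorem cg38_ord_nonneg (w : HeightOneSpectrum B) (b : B) :
    0 ≤ (Place.ofHeightOneSpectrum (K := K) w).ord (algebraMap B F b) :=
  (wp1_mem_iff_ord_nonneg _ _).mp (cg38_mem_ofH w b)

/-- An element of `F` integral over a ring mapping into a valuation ring lies in it. -/
theorem cg38_mem_of_isIntegralElem {R : Type*} [CommRing R] (O : ValuationSubring F)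
    (φ : R →+* F) (hφ : ∀ r, φ r ∈ O) (f : F) (hf : φ.IsIntegralElem f) : f ∈ O := by
  obtain ⟨p, hmonic, hp⟩ := hf
  let ψ : R →+* O := φ.codRestrict O.toSubring hφ
  have hint : IsIntegral O f := by
    refine ⟨p.map ψ, hmonic.map ψ, ?_⟩
    rw [eval₂_map]
    exact hp
  obtain ⟨y, hy⟩ := IsIntegrallyClosed.isIntegral_iff.mp hint
  rw [← hy]
  exact y.2

end Dict

section Val

variable {K : Type*} [Field K] {F : Type*} [Field F] [Algebra K F]

theorem cg38_ord_neg (P : Place K F) (f : F) : P.ord (-f) = P.ord f := by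
  rcases eq_or_ne f 0 with rfl | hf
  · simp
  have h1 : (-f) = algebraMap K F (-1) * f := by
    rw [map_neg, map_one, neg_one_mul]
  rw [h1, P.ord_mul (by rw [map_neg, map_one]; exact neg_ne_zero.mpr one_ne_zero) hf,
    wp1_ord_algebraMap, zero_add]

theorem cg38_ne_zero_of_pos (P : Place K F) {f : F} (h : 0 < P.ord f) : f ≠ 0 := by
  rintro rfl
  simp at h

theorem cg38_add_pos (P : Place K F) {f g : F} (hf : 0 < P.ord f) (hg : 0 < P.ord g)
    (hfg : f + g ≠ 0) : 0 < P.ord (f + g) :=
  lt_of_lt_of_le (lt_min hf hg)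
    (wp1_ord_add P f g hfg (cg38_ne_zero_of_pos P hf) (cg38_ne_zero_of_pos P hg))

/-- The value of a function at a place is unique. -/
theorem cg38_value_unique (P : Place K F) {y : F} {c c' : K}
    (h : 0 < P.ord (y - algebraMap K F c)) (h' : 0 < P.ord (y - algebraMap K F c')) : c = c' := by
  by_contra hne
  have h1 : (y - algebraMap K F c') + (-(y - algebraMap K F c)) = algebraMap K F (c - c') := by
    rw [map_sub]; ring
  have h2 : algebraMap K F (c - c') ≠ 0 :=
    (map_ne_zero_iff _ (algebraMap K F).injective).mpr (sub_ne_zero.mpr hne)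
  have h3 := cg38_add_pos P h' (by rw [cg38_ord_neg]; exact h) (by rw [h1]; exact h2)
  rw [h1, wp1_ord_algebraMap] at h3
  exact lt_irrefl _ h3

/-- A function with a value at a place is regular there. -/
theorem cg38_mem_of_value (P : Place K F) {y : F} {c : K}
    (h : 0 < P.ord (y - algebraMap K F c)) : y ∈ P.toValuationSubring := by
  have h1 : y = (y - algebraMap K F c) + algebraMap K F c := by ring
  rw [h1]
  exact add_mem (wp1a_mem_of_ord_pos P h) (P.algebraMap_mem' c)

/-- A function with a nonzero value at a place has order `0` there. -/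
theorem cg38_ord_eq_zero_of_value (P : Place K F) {y : F} {c : K} (hc : c ≠ 0)
    (h : 0 < P.ord (y - algebraMap K F c)) : P.ord y = 0 := by
  have hcF : algebraMap K F c ≠ 0 := (map_ne_zero_iff _ (algebraMap K F).injective).mpr hc
  have hy0 : y ≠ 0 := by
    rintro rfl
    rw [zero_sub, cg38_ord_neg, wp1_ord_algebraMap] at h
    exact lt_irrefl _ h
  refine le_antisymm ?_ ((wp1_mem_iff_ord_nonneg P y).mp (cg38_mem_of_value P h))
  by_contra hpos
  rw [not_le] at hpos
  have h1 : y + (-(y - algebraMap K F c)) = algebraMap K F c := by ring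
  have h3 := cg38_add_pos P hpos (by rw [cg38_ord_neg]; exact h) (by rw [h1]; exact hcF)
  rw [h1, wp1_ord_algebraMap] at h3
  exact lt_irrefl _ h3

/-- The inverse of a function with a nonzero value has the inverse value. -/
theorem cg38_inv_value (P : Place K F) {y : F} {c : K} (hc : c ≠ 0)
    (h : 0 < P.ord (y - algebraMap K F c)) : 0 < P.ord (y⁻¹ - algebraMap K F c⁻¹) := by
  have hcF : algebraMap K F c ≠ 0 := (map_ne_zero_iff _ (algebraMap K F).injective).mpr hc
  have hy := cg38_ord_eq_zero_of_value P hc h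
  have hy0 : y ≠ 0 := by
    rintro rfl
    rw [zero_sub, cg38_ord_neg, wp1_ord_algebraMap] at h
    exact lt_irrefl _ h
  have hne := cg38_ne_zero_of_pos P h
  have h1 : y⁻¹ - algebraMap K F c⁻¹ = (-(y - algebraMap K F c)) * (y⁻¹ * algebraMap K F c⁻¹) := by
    rw [map_inv₀]
    field_simp
    ring
  rw [h1, P.ord_mul (neg_ne_zero.mpr hne) (mul_ne_zero (inv_ne_zero hy0)
    (by rw [map_inv₀]; exact inv_ne_zero hcF)), cg38_ord_neg,
    P.ord_mul (inv_ne_zero hy0) (by rw [map_inv₀]; exact inv_ne_zero hcF), P.ord_inv, hy,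
    wp1_ord_algebraMap]
  simpa using h

/-- If `y` has value `c` and `y⁻¹` has value `a` at a place, then `c * a = 1`. -/
theorem cg38_value_mul_inv (P : Place K F) {y : F} {c a : K}
    (h : 0 < P.ord (y - algebraMap K F c)) (h' : 0 < P.ord (y⁻¹ - algebraMap K F a)) :
    c * a = 1 := by
  have ha : a ≠ 0 := by
    rintro rfl
    rw [map_zero, sub_zero, P.ord_inv] at h'
    have h2 := (wp1_mem_iff_ord_nonneg P y).mp (cg38_mem_of_value P h)
    linarith
  have h1 := cg38_inv_value P ha h'
  rw [inv_inv] at h1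
  rw [cg38_value_unique P h h1, inv_mul_cancel₀ ha]

end Val

section Dict2

variable {K : Type*} [Field K] {F : Type*} [Field F] [Algebra K F]
variable {B : Type*} [CommRing B] [IsDedekindDomain B] [Algebra B F] [IsFractionRing B F]
  [Algebra K B] [IsScalarTower K B F] [Algebra K[X] B] [Module.Finite K[X] B]
  [Module.IsTorsionFree K[X] B]
variable {x : F} (hx : ∀ p : K[X], algebraMap B F (algebraMap K[X] B p) = aeval x p)

include hx

/-- **Coverage**: a place at which the chart coordinate is regular is a chart point. -/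
theorem cg38_cover (P : Place K F) (hP : x ∈ P.toValuationSubring) :
    ∃ w : HeightOneSpectrum B, Place.ofHeightOneSpectrum (K := K) w = P := by
  refine wp1a_exists_heightOneSpectrum P (fun b => ?_)
  have hb : IsIntegral K[X] b := Algebra.IsIntegral.isIntegral b
  refine cg38_mem_of_isIntegralElem P.toValuationSubring
    ((algebraMap B F).comp (algebraMap K[X] B)) (fun p => ?_) _ ?_
  · rw [RingHom.comp_apply, hx, aeval_eq_sum_range]
    refine Subring.sum_mem _ (fun i _ => ?_)
    rw [Algebra.smul_def]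
    exact mul_mem (P.algebraMap_mem' _) (pow_mem hP i)
  · obtain ⟨p, hmonic, hp⟩ := hb
    refine ⟨p, hmonic, ?_⟩
    rw [← Polynomial.hom_eval₂, hp, map_zero]

/-- The coordinate is regular at chart points. -/
theorem cg38_x_mem (w : HeightOneSpectrum B) :
    x ∈ (Place.ofHeightOneSpectrum (K := K) w).toValuationSubring := by
  have h := cg38_mem_ofH (K := K) (F := F) w (algebraMap K[X] B X)
  rwa [hx, aeval_X] at h

/-- `X - c` lies in the chart point iff `x - c` vanishes at the place. -/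
theorem cg38_sub_mem_iff (w : HeightOneSpectrum B) (c : K) :
    algebraMap K[X] B (X - C c) ∈ w.asIdeal ↔
      0 < (Place.ofHeightOneSpectrum (K := K) w).ord (x - algebraMap K F c) := by
  have hne : algebraMap K[X] B (X - C c) ≠ 0 :=
    (map_ne_zero_iff _ (h48_algebraMap_injective (K := K) (B := B))).mpr (X_sub_C_ne_zero c)
  rw [← wp1a_ord_pos_iff (K := K) (F := F) w hne, hx, map_sub, aeval_X, aeval_C]

variable [IsAlgClosed K]

/-- The value of the coordinate at a chart point. -/
theorem cg38_xv_pos (w : HeightOneSpectrum B) :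
    0 < (Place.ofHeightOneSpectrum (K := K) w).ord (x - algebraMap K F (h48_xv w.asIdeal)) :=
  (cg38_sub_mem_iff hx w _).mp (h48_xv_mem (K := K) w.asIdeal w.isMaximal)

theorem cg38_xv_eq (w : HeightOneSpectrum B) {c : K}
    (h : 0 < (Place.ofHeightOneSpectrum (K := K) w).ord (x - algebraMap K F c)) :
    h48_xv w.asIdeal = c :=
  h48_xv_eq w.isMaximal.ne_top ((cg38_sub_mem_iff hx w c).mpr h)

end Dict2


section Swap

variable {K : Type*} [Field K] [IsAlgClosed K] {F : Type*} [Field F] [Algebra K F]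
variable {B : Type*} [CommRing B] [IsDedekindDomain B] [Algebra B F] [IsFractionRing B F]
  [Algebra K B] [IsScalarTower K B F] [Algebra K[X] B] [Module.Finite K[X] B]
  [Module.IsTorsionFree K[X] B]
variable {B' : Type*} [CommRing B'] [IsDedekindDomain B'] [Algebra B' F] [IsFractionRing B' F]
  [Algebra K B'] [IsScalarTower K B' F] [Algebra K[X] B'] [Module.Finite K[X] B']
  [Module.IsTorsionFree K[X] B']
variable {y : F}

/-- Change of chart `y ↦ y⁻¹` at a chart point with nonzero coordinate. -/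
theorem cg38_swap (hy : ∀ p : K[X], algebraMap B F (algebraMap K[X] B p) = aeval y p)
    (hy' : ∀ p : K[X], algebraMap B' F (algebraMap K[X] B' p) = aeval y⁻¹ p)
    (w : HeightOneSpectrum B) (hw : (h48_xv w.asIdeal : K) ≠ 0) :
    ∃ w' : HeightOneSpectrum B',
      (Place.ofHeightOneSpectrum (K := K) w' : Place K F)
        = Place.ofHeightOneSpectrum (K := K) w ∧
      (h48_xv w'.asIdeal : K) = (h48_xv w.asIdeal : K)⁻¹ := by
  have h1 := cg38_xv_pos hy w
  have h2 := cg38_inv_value _ hw h1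
  obtain ⟨w', hw'⟩ := cg38_cover hy' _ (cg38_mem_of_value _ h2)
  refine ⟨w', hw', cg38_xv_eq hy' w' ?_⟩
  rw [hw']
  exact h2

end Swap

section Count

open Classical in
/-- A `countP` over the prime factors of an ideal as a sum over height one primes. -/
theorem cg38_sum_count {R : Type*} [CommRing R] [IsDedekindDomain R] (I : Ideal R)
    (p : Ideal R → Prop) (T : Finset (HeightOneSpectrum R))
    (hT : ∀ w : HeightOneSpectrum R, w.asIdeal ∈ normalizedFactors I → w ∈ T) :
    ∑ w ∈ T, (if p w.asIdeal then Multiset.count w.asIdeal (normalizedFactors I) else 0)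
      = Multiset.countP p (normalizedFactors I) := by
  rw [Multiset.countP_eq_card_filter]
  have hinj : Function.Injective (fun w : HeightOneSpectrum R => w.asIdeal) :=
    fun w w' h => HeightOneSpectrum.ext h
  have hmem : ∀ a ∈ Multiset.filter p (normalizedFactors I),
      a ∈ T.image (fun w : HeightOneSpectrum R => w.asIdeal) := by
    intro a ha
    have ha' : a ∈ normalizedFactors I := Multiset.mem_of_mem_filter ha
    have hprime : Prime a := prime_of_normalized_factor a ha'
    exact Finset.mem_image.mpr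
      ⟨⟨a, Ideal.isPrime_of_prime hprime, hprime.ne_zero⟩, hT _ ha', rfl⟩
  rw [← Multiset.sum_count_eq_card hmem, Finset.sum_image (fun w _ w' _ h => hinj h)]
  refine Finset.sum_congr rfl (fun w _ => ?_)
  rw [Multiset.count_filter]

end Count

section Chart

variable {L : Type*} [Field L] [IsAlgClosed L] {A : ValuationSubring L}
  [IsAlgClosed (IsLocalRing.ResidueField A)]
variable {F : Type*} [Field F] [Algebra L F]
variable {Fk : Type*} [Field Fk] [Algebra (IsLocalRing.ResidueField A) Fk]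
variable {B : Type*} [CommRing B] [IsDedekindDomain B] [Algebra B F] [IsFractionRing B F]
  [Algebra L B] [IsScalarTower L B F] [Algebra L[X] B] [Module.Finite L[X] B]
  [Module.IsTorsionFree L[X] B]
variable {Bk : Type*} [CommRing Bk] [IsDedekindDomain Bk] [Algebra Bk Fk] [IsFractionRing Bk Fk]
  [Algebra (IsLocalRing.ResidueField A) Bk] [IsScalarTower (IsLocalRing.ResidueField A) Bk Fk]
  [Algebra (IsLocalRing.ResidueField A)[X] Bk]
  [Module.Finite (IsLocalRing.ResidueField A)[X] Bk]
  [Module.IsTorsionFree (IsLocalRing.ResidueField A)[X] Bk]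
variable {V : ValuationSubring F} {red : V →+* Fk} {x : F} {xb : Fk} {BA : Subring B}
  {ρ : BA →+* Bk}

local notation "k" => IsLocalRing.ResidueField A
local notation "res" => IsLocalRing.residue A

variable (A V red x xb BA ρ) in
/-- The data of one chart of the pair (generic fibre, special fibre): the chart rings `B`, `Bk`
sit in the function fields with coordinates `x`, `xb`; `BA = B ∩ V` for the Gauss valuation ring
`V`, and `ρ` is the restriction of the reduction map `red`. -/
structure cg38_Data : Prop where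
  hx : ∀ p : L[X], algebraMap B F (algebraMap L[X] B p) = aeval x p
  hxb : ∀ p : (IsLocalRing.ResidueField A)[X],
    algebraMap Bk Fk (algebraMap (IsLocalRing.ResidueField A)[X] Bk p) = aeval xb p
  hBA : ∀ b : B, b ∈ BA ↔ algebraMap B F b ∈ V
  hρ : ∀ (b : BA) (hb : algebraMap B F (b : B) ∈ V),
    algebraMap Bk Fk (ρ b) = red ⟨algebraMap B F (b : B), hb⟩
  chart : h48_Chart A BA ρ

/-- The centre of a tube point, as a height one prime of the special chart. -/
noncomputable def cg38_centre (h : h48_Chart A BA ρ) (w : HeightOneSpectrum B)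
    (hw : (h48_xv w.asIdeal : L) ∈ A) : HeightOneSpectrum Bk :=
  ⟨h48_centre ρ w.asIdeal,
    (h48_centre_isMaximal h w.isMaximal (α := ⟨_, hw⟩) rfl).isPrime,
    h48_ne_bot_of_isMaximal k _ (h48_centre_isMaximal h w.isMaximal (α := ⟨_, hw⟩) rfl)⟩

theorem cg38_centre_asIdeal (h : h48_Chart A BA ρ) (w : HeightOneSpectrum B)
    (hw : (h48_xv w.asIdeal : L) ∈ A) :
    (cg38_centre h w hw).asIdeal = h48_centre ρ w.asIdeal := rfl

theorem cg38_centre_eq_iff (h : h48_Chart A BA ρ) (w : HeightOneSpectrum B)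
    (hw : (h48_xv w.asIdeal : L) ∈ A) (u : HeightOneSpectrum Bk) :
    cg38_centre h w hw = u ↔ h48_Red BA ρ w.asIdeal u.asIdeal := by
  rw [h48_red_iff h w.isMaximal u.isMaximal]
  constructor
  · intro h1
    rw [← h1]
    rfl
  · intro h1
    exact HeightOneSpectrum.ext h1

/-- A point reducing to a point of the special chart is a tube point. -/
theorem cg38_mem_of_red (h : h48_Chart A BA ρ) (w : HeightOneSpectrum B)
    (u : HeightOneSpectrum Bk) (hred : h48_Red BA ρ w.asIdeal u.asIdeal) :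
    (h48_xv w.asIdeal : L) ∈ A := by
  obtain ⟨α, hα, -⟩ := h48_red_tube h w.isMaximal u.isMaximal.ne_top hred
  rw [hα]
  exact α.2

/-- The coordinate of the centre is the reduction of the coordinate. -/
theorem cg38_xv_centre (h : h48_Chart A BA ρ) (w : HeightOneSpectrum B)
    (hw : (h48_xv w.asIdeal : L) ∈ A) :
    (h48_xv (cg38_centre h w hw).asIdeal : k) = res ⟨h48_xv w.asIdeal, hw⟩ := by
  obtain ⟨α, hα, hα'⟩ := h48_red_tube h w.isMaximal (cg38_centre h w hw).isMaximal.ne_top
    (h48_red_centre (ρ := ρ) w.asIdeal)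
  rw [hα']
  congr 1
  exact Subtype.ext hα.symm

/-- **Fraction form**: a Gauss unit is a quotient of two integral functions of the chart with
nonzero reductions. -/
theorem cg38_frac (hc : cg38_Data A V red x xb BA ρ) (f : V) (hf : red f ≠ 0) :
    ∃ b s : BA, ρ b ≠ 0 ∧ ρ s ≠ 0 ∧ (f : F) * algebraMap B F (s : B) = algebraMap B F (b : B) := by
  obtain ⟨a, t, ht, hat⟩ := IsFractionRing.div_surjective (A := B) (f : F)
  have ht0 : t ≠ 0 := nonZeroDivisors.ne_zero ht
  have halg : IsAlgebraic L[X] t := (Algebra.IsIntegral.isIntegral (R := L[X]) t).isAlgebraic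
  obtain ⟨r, hr0, u, hu⟩ := halg.exists_nonzero_dvd ht
  obtain ⟨c, s₁, hc0, hrs, hs₁⟩ := cc62_scale res (by rw [map_one]; exact one_ne_zero) r hr0
  have htF : algebraMap B F t ≠ 0 :=
    (map_ne_zero_iff _ (IsFractionRing.injective B F)).mpr ht0
  set s : BA := h48_polyBA hc.chart s₁ with hs
  have hscoe : (s : B) = algebraMap L[X] B (s₁.map A.subtype) := rfl
  have hρs : ρ s = algebraMap k[X] Bk (s₁.map res) := h48_rho_polyBA hc.chart s₁
  have hρs0 : ρ s ≠ 0 := by
    rw [hρs]
    exact (map_ne_zero_iff _ (h48_algebraMap_injective (K := k) (B := Bk))).mpr hs₁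
  -- the numerator
  set b₀ : B := algebraMap L[X] B (C c⁻¹) * (a * u) with hb₀
  have hkey : (f : F) * algebraMap B F (s : B) = algebraMap B F b₀ := by
    have h1 : algebraMap L[X] B (C c) * (s : B) = t * u := by
      rw [hscoe, ← map_mul, ← hrs, hu]
    have h2 : algebraMap B F (algebraMap L[X] B (C c)) * algebraMap B F (s : B)
        = algebraMap B F t * algebraMap B F u := by
      rw [← map_mul, h1, map_mul]
    have h3 : algebraMap B F (algebraMap L[X] B (C c⁻¹)) * algebraMap B F (algebraMap L[X] B (C c))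
        = 1 := by
      rw [← map_mul, ← map_mul, ← C_mul, inv_mul_cancel₀ hc0, C_1, map_one, map_one]
    rw [hb₀, map_mul, map_mul, ← hat, div_mul_eq_mul_div, div_eq_iff htF]
    linear_combination (-(algebraMap B F a) * algebraMap B F (s : B)) * h3
      + (algebraMap B F (algebraMap L[X] B (C c⁻¹)) * algebraMap B F a) * h2
  have hsV : algebraMap B F (s : B) ∈ V := (hc.hBA _).mp s.2
  have hb₀V : algebraMap B F b₀ ∈ V := by
    rw [← hkey]
    exact mul_mem f.2 hsV
  refine ⟨⟨b₀, (hc.hBA _).mpr hb₀V⟩, s, ?_, hρs0, hkey⟩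
  intro h0
  have h1 := hc.hρ ⟨b₀, (hc.hBA _).mpr hb₀V⟩ hb₀V
  have h2 := hc.hρ s hsV
  have h3 : (⟨algebraMap B F b₀, hb₀V⟩ : V) = f * ⟨algebraMap B F (s : B), hsV⟩ :=
    Subtype.ext hkey.symm
  rw [h0, map_zero, h3, map_mul, ← h2] at h1
  rcases mul_eq_zero.mp h1.symm with h4 | h4
  · exact hf h4
  · exact hρs0 ((map_eq_zero_iff _ (IsFractionRing.injective Bk Fk)).mp h4)


open Classical in
/-- **Conservation of number for one chart, place form.** For a Gauss unit `f` and a point `u`
of the special chart, the sum of the orders of `f` over the places reducing to `u` is the order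
of `red f` at `u`. -/
theorem cg38_chart_conservation (hc : cg38_Data A V red x xb BA ρ) (f : V) (hf : red f ≠ 0)
    (D : Place L F →₀ ℤ) (hD : ∀ P, D P = P.ord (f : F)) (u : HeightOneSpectrum Bk)
    (S : Place L F → Prop)
    (hS : ∀ P, S P ↔ ∃ w : HeightOneSpectrum B,
      Place.ofHeightOneSpectrum (K := L) w = P ∧ h48_Red BA ρ w.asIdeal u.asIdeal) :
    ∑ P ∈ D.support, (if S P then D P else 0)
      = (Place.ofHeightOneSpectrum (K := k) u).ord (red f) := by
  obtain ⟨b, s, hb, hs, hfs⟩ := cg38_frac hc f hf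
  have hb0 : (b : B) ≠ 0 := fun h0 => hb (by rw [show b = 0 from Subtype.ext h0, map_zero])
  have hs0 : (s : B) ≠ 0 := fun h0 => hs (by rw [show s = 0 from Subtype.ext h0, map_zero])
  have hIb : (Ideal.span {(b : B)} : Ideal B) ≠ 0 := by
    rw [Ne, Ideal.zero_eq_bot, Ideal.span_singleton_eq_bot]
    exact hb0
  have hIs : (Ideal.span {(s : B)} : Ideal B) ≠ 0 := by
    rw [Ne, Ideal.zero_eq_bot, Ideal.span_singleton_eq_bot]
    exact hs0
  set T : Finset (HeightOneSpectrum B) :=
    (Ideal.finite_factors hIb).toFinset ∪ (Ideal.finite_factors hIs).toFinset with hT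
  have hTb : ∀ w : HeightOneSpectrum B,
      w.asIdeal ∈ normalizedFactors (Ideal.span {(b : B)}) → w ∈ T := by
    intro w hw
    rw [hT, Finset.mem_union]
    left
    rw [Set.Finite.mem_toFinset]
    exact dvd_of_mem_normalizedFactors hw
  have hTs : ∀ w : HeightOneSpectrum B,
      w.asIdeal ∈ normalizedFactors (Ideal.span {(s : B)}) → w ∈ T := by
    intro w hw
    rw [hT, Finset.mem_union]
    right
    rw [Set.Finite.mem_toFinset]
    exact dvd_of_mem_normalizedFactors hw
  have hord : ∀ w : HeightOneSpectrum B, D (Place.ofHeightOneSpectrum (K := L) w)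
      = (Multiset.count w.asIdeal (normalizedFactors (Ideal.span {(b : B)})) : ℤ)
        - (Multiset.count w.asIdeal (normalizedFactors (Ideal.span {(s : B)})) : ℤ) := by
    intro w
    rw [hD]
    exact cg38_ord_frac w hb0 hs0 hfs
  have hinj := wp1a_ofHeightOneSpectrum_injective (K := L) (F := F) (B := B)
  have hSw : ∀ w : HeightOneSpectrum B,
      S (Place.ofHeightOneSpectrum (K := L) w) ↔ h48_Red BA ρ w.asIdeal u.asIdeal := by
    intro w
    rw [hS]
    constructor
    · rintro ⟨w', hw', hred⟩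
      rwa [hinj hw'] at hred
    · intro hred
      exact ⟨w, rfl, hred⟩
  -- step 1: reindex over the chart points
  have step1 : ∑ P ∈ D.support, (if S P then D P else 0)
      = ∑ w ∈ T, (if h48_Red BA ρ w.asIdeal u.asIdeal
          then D (Place.ofHeightOneSpectrum (K := L) w) else 0) := by
    set U : Finset (Place L F) :=
      D.support ∪ T.image (fun w => Place.ofHeightOneSpectrum (K := L) w) with hU
    have e1 : ∑ P ∈ D.support, (if S P then D P else 0) = ∑ P ∈ U, (if S P then D P else 0) := by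
      refine Finset.sum_subset Finset.subset_union_left (fun P _ hP => ?_)
      rw [Finsupp.notMem_support_iff.mp hP, ite_self]
    have e2 : ∑ P ∈ T.image (fun w => Place.ofHeightOneSpectrum (K := L) w),
        (if S P then D P else 0) = ∑ P ∈ U, (if S P then D P else 0) := by
      refine Finset.sum_subset Finset.subset_union_right (fun P _ hP => ?_)
      by_cases hSP : S P
      · rw [if_pos hSP]
        obtain ⟨w, rfl, hred⟩ := (hS P).mp hSP
        have hwT : w ∉ T := fun hw => hP (Finset.mem_image_of_mem _ hw)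
        rw [hord w, Multiset.count_eq_zero_of_notMem (fun h => hwT (hTb w h)),
          Multiset.count_eq_zero_of_notMem (fun h => hwT (hTs w h))]
        simp
      · rw [if_neg hSP]
    rw [e1, ← e2, Finset.sum_image (fun w _ w' _ h => hinj h)]
    refine Finset.sum_congr rfl (fun w _ => ?_)
    simp only [hSw w]
  -- step 2: counts
  have step2 : ∑ w ∈ T, (if h48_Red BA ρ w.asIdeal u.asIdeal
      then D (Place.ofHeightOneSpectrum (K := L) w) else 0)
      = (Multiset.countP (fun P => h48_Red BA ρ P u.asIdeal)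
          (normalizedFactors (Ideal.span {(b : B)})) : ℤ)
        - (Multiset.countP (fun P => h48_Red BA ρ P u.asIdeal)
          (normalizedFactors (Ideal.span {(s : B)})) : ℤ) := by
    rw [← cg38_sum_count (Ideal.span {(b : B)}) (fun P => h48_Red BA ρ P u.asIdeal) T hTb,
      ← cg38_sum_count (Ideal.span {(s : B)}) (fun P => h48_Red BA ρ P u.asIdeal) T hTs]
    push_cast
    rw [← Finset.sum_sub_distrib]
    refine Finset.sum_congr rfl (fun w _ => ?_)
    by_cases hred : h48_Red BA ρ w.asIdeal u.asIdeal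
    · simp only [if_pos hred]
      exact hord w
    · simp only [if_neg hred]
      simp
  rw [step1, step2, ← h48_conservation hc.chart b hb u.isMaximal,
    ← h48_conservation hc.chart s hs u.isMaximal]
  -- the special fibre
  have hρb0 : ρ b ≠ 0 := hb
  have hsV : algebraMap B F (s : B) ∈ V := (hc.hBA _).mp s.2
  have hbV : algebraMap B F (b : B) ∈ V := (hc.hBA _).mp b.2
  have hk : red f * algebraMap Bk Fk (ρ s) = algebraMap Bk Fk (ρ b) := by
    rw [hc.hρ s hsV, hc.hρ b hbV, ← map_mul]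
    congr 1
    exact Subtype.ext hfs
  exact (cg38_ord_frac (K := k) u hb hs hk).symm


/-- The tube of the chart: the places at which the coordinate has a value in `A`. -/
theorem cg38_tube_iff (hc : cg38_Data A V red x xb BA ρ) (P : Place L F) :
    (∃ w : HeightOneSpectrum B, Place.ofHeightOneSpectrum (K := L) w = P ∧
      (h48_xv w.asIdeal : L) ∈ A) ↔ ∃ c : A, 0 < P.ord (x - algebraMap L F (c : L)) := by
  constructor
  · rintro ⟨w, rfl, hw⟩
    exact ⟨⟨_, hw⟩, cg38_xv_pos hc.hx w⟩
  · rintro ⟨c, hcpos⟩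
    obtain ⟨w, rfl⟩ := cg38_cover hc.hx P (cg38_mem_of_value P hcpos)
    refine ⟨w, rfl, ?_⟩
    rw [cg38_xv_eq hc.hx w hcpos]
    exact c.2

open Classical in
/-- **Tube toolkit, place form.** For a finite set `G` of classes and a tube point `P` there is
an integral function of the chart with nonzero reduction, a simple zero at `P` and no other
zero in the tubes of the classes in `G`. -/
theorem cg38_toolkit (hc : cg38_Data A V red x xb BA ρ) (G : Finset k) (P : Place L F) (c : A)
    (hcP : 0 < P.ord (x - algebraMap L F (c : L))) :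
    ∃ f : V, red f ≠ 0 ∧ (∃ b : B, algebraMap B F b = (f : F)) ∧ P.ord (f : F) = 1 ∧
      ∀ P' : Place L F, P' ≠ P → ∀ c' : A, 0 < P'.ord (x - algebraMap L F (c' : L)) →
        res c' ∈ G → P'.ord (f : F) = 0 := by
  obtain ⟨w, rfl⟩ := cg38_cover hc.hx P (cg38_mem_of_value P hcP)
  have hxv : (h48_xv w.asIdeal : L) = c := cg38_xv_eq hc.hx w hcP
  obtain ⟨f, hρf, -, hcount, hother⟩ := h48_toolkit hc.chart G w.isMaximal hxv
  have hfV : algebraMap B F (f : B) ∈ V := (hc.hBA _).mp f.2
  have hf0 : (f : B) ≠ 0 := fun h0 => hρf (by rw [show f = 0 from Subtype.ext h0, map_zero])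
  refine ⟨⟨algebraMap B F (f : B), hfV⟩, ?_, ⟨(f : B), rfl⟩, ?_, ?_⟩
  · rw [← hc.hρ f hfV]
    exact (map_ne_zero_iff _ (IsFractionRing.injective Bk Fk)).mpr hρf
  · show (Place.ofHeightOneSpectrum (K := L) w).ord (algebraMap B F (f : B)) = 1
    rw [cg38_ord_eq_count w hf0, hcount]
    rfl
  · intro P' hP' c' hc' hG
    obtain ⟨w', rfl⟩ := cg38_cover hc.hx P' (cg38_mem_of_value P' hc')
    have hxv' : (h48_xv w'.asIdeal : L) = c' := cg38_xv_eq hc.hx w' hc'
    have hne : w'.asIdeal ≠ w.asIdeal := fun h => hP' (by rw [HeightOneSpectrum.ext h])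
    have hnot : (f : B) ∉ w'.asIdeal := fun hmem =>
      hother w'.asIdeal w'.isMaximal hne hmem ⟨c', hxv', hG⟩
    exact wp1a_ord_eq_zero_of_notMem w' hnot

open Classical in
/-- **Disc coordinates on the special fibre.** For a finite set `G` of classes and a point `Q`
of the special chart there is an integral function of the chart whose reduction has a simple
zero at `Q` and no other zero over the classes in `G`. -/
theorem cg38_unif (hc : cg38_Data A V red x xb BA ρ) (G : Finset k) (Q : Place k Fk)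
    (hQ : xb ∈ Q.toValuationSubring) :
    ∃ f : V, (∃ b : B, algebraMap B F b = (f : F)) ∧ Q.ord (red f) = 1 ∧
      ∀ Q' : Place k Fk, Q' ≠ Q → ∀ g ∈ G, 0 < Q'.ord (xb - algebraMap k Fk g) →
        Q'.ord (red f) = 0 := by
  obtain ⟨u, rfl⟩ := cg38_cover hc.hxb Q hQ
  set T : Finset (Ideal Bk) := G.biUnion (fun g =>
    (normalizedFactors (Ideal.span {algebraMap k[X] Bk (X - C g)})).toFinset) with hT
  have hne : ∀ g : k, (Ideal.span {algebraMap k[X] Bk (X - C g)} : Ideal Bk) ≠ ⊥ := by
    intro g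
    rw [Ne, Ideal.span_singleton_eq_bot]
    exact (map_ne_zero_iff _ (h48_algebraMap_injective (K := k) (B := Bk))).mpr
      (X_sub_C_ne_zero g)
  have hTmax : ∀ Q' ∈ T, Q'.IsMaximal := by
    intro Q' hQ'
    obtain ⟨g, -, hg⟩ := Finset.mem_biUnion.mp hQ'
    rw [Multiset.mem_toFinset, Ideal.mem_normalizedFactors_iff (hne g)] at hg
    have hQ'0 : Q' ≠ ⊥ := by
      rintro rfl
      exact hne g (le_bot_iff.mp hg.2)
    exact hg.1.isMaximal hQ'0
  obtain ⟨t, htu, htu2, htT⟩ := h48_exists_unif u.asIdeal u.isMaximal u.ne_bot T hTmax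
  obtain ⟨b, rfl⟩ := hc.chart.surj t
  have hbV : algebraMap B F (b : B) ∈ V := (hc.hBA _).mp b.2
  have hρb0 : ρ b ≠ 0 := by
    intro h0
    apply htu2
    rw [h0]
    exact Ideal.zero_mem _
  refine ⟨⟨algebraMap B F (b : B), hbV⟩, ⟨(b : B), rfl⟩, ?_, ?_⟩
  · rw [← hc.hρ b hbV, cg38_ord_eq_count u hρb0]
    have hcount : Multiset.count u.asIdeal (normalizedFactors (Ideal.span {ρ b})) = 1 := by
      have := u.isPrime
      refine Ideal.count_normalizedFactors_eq ?_ ?_
      · rw [pow_one, Ideal.span_singleton_le_iff_mem]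
        exact htu
      · rw [Ideal.span_singleton_le_iff_mem]
        exact htu2
    rw [hcount]
    rfl
  · intro Q' hQ' g hg hpos
    obtain ⟨u', rfl⟩ := cg38_cover hc.hxb Q' (cg38_mem_of_value Q' hpos)
    have hmem : algebraMap k[X] Bk (X - C g) ∈ u'.asIdeal := (cg38_sub_mem_iff hc.hxb u' g).mpr hpos
    have hu'T : u'.asIdeal ∈ T := by
      rw [hT, Finset.mem_biUnion]
      refine ⟨g, hg, ?_⟩
      rw [Multiset.mem_toFinset, Ideal.mem_normalizedFactors_iff (hne g)]
      exact ⟨u'.isPrime, (Ideal.span_singleton_le_iff_mem _).mpr hmem⟩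
    have hne' : u'.asIdeal ≠ u.asIdeal := fun h => hQ' (by rw [HeightOneSpectrum.ext h])
    rw [← hc.hρ b hbV]
    exact wp1a_ord_eq_zero_of_notMem u' (htT _ hu'T hne')

end Chart

section Glue

variable {L : Type*} [Field L] [IsAlgClosed L] {A : ValuationSubring L}
  [IsAlgClosed (IsLocalRing.ResidueField A)]
variable {F : Type*} [Field F] [Algebra L F]
variable {Fk : Type*} [Field Fk] [Algebra (IsLocalRing.ResidueField A) Fk]
variable {B₁ : Type*} [CommRing B₁] [IsDedekindDomain B₁] [Algebra B₁ F] [IsFractionRing B₁ F]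
  [Algebra L B₁] [IsScalarTower L B₁ F] [Algebra L[X] B₁] [Module.Finite L[X] B₁]
  [Module.IsTorsionFree L[X] B₁]
variable {Bk₁ : Type*} [CommRing Bk₁] [IsDedekindDomain Bk₁] [Algebra Bk₁ Fk]
  [IsFractionRing Bk₁ Fk] [Algebra (IsLocalRing.ResidueField A) Bk₁]
  [IsScalarTower (IsLocalRing.ResidueField A) Bk₁ Fk]
  [Algebra (IsLocalRing.ResidueField A)[X] Bk₁]
  [Module.Finite (IsLocalRing.ResidueField A)[X] Bk₁]
  [Module.IsTorsionFree (IsLocalRing.ResidueField A)[X] Bk₁]
variable {B₂ : Type*} [CommRing B₂] [IsDedekindDomain B₂] [Algebra B₂ F] [IsFractionRing B₂ F]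
  [Algebra L B₂] [IsScalarTower L B₂ F] [Algebra L[X] B₂] [Module.Finite L[X] B₂]
  [Module.IsTorsionFree L[X] B₂]
variable {Bk₂ : Type*} [CommRing Bk₂] [IsDedekindDomain Bk₂] [Algebra Bk₂ Fk]
  [IsFractionRing Bk₂ Fk] [Algebra (IsLocalRing.ResidueField A) Bk₂]
  [IsScalarTower (IsLocalRing.ResidueField A) Bk₂ Fk]
  [Algebra (IsLocalRing.ResidueField A)[X] Bk₂]
  [Module.Finite (IsLocalRing.ResidueField A)[X] Bk₂]
  [Module.IsTorsionFree (IsLocalRing.ResidueField A)[X] Bk₂]
variable {V : ValuationSubring F} {red : V →+* Fk} {x : F} {xb : Fk}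
  {BA₁ : Subring B₁} {ρ₁ : BA₁ →+* Bk₁} {BA₂ : Subring B₂} {ρ₂ : BA₂ →+* Bk₂}

local notation "k" => IsLocalRing.ResidueField A
local notation "res" => IsLocalRing.residue A

/-- Outside the tube of the first chart a place is a tube point of the second chart. -/
theorem cg38_exists₂ (h₁ : cg38_Data A V red x xb BA₁ ρ₁)
    (h₂ : cg38_Data A V red x⁻¹ xb⁻¹ BA₂ ρ₂) (P : Place L F)
    (hP : ¬ ∃ w : HeightOneSpectrum B₁, Place.ofHeightOneSpectrum (K := L) w = P ∧
      (h48_xv w.asIdeal : L) ∈ A) :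
    ∃ w : HeightOneSpectrum B₂, Place.ofHeightOneSpectrum (K := L) w = P ∧
      (h48_xv w.asIdeal : L) ∈ A := by
  have hx' : ∀ p : L[X], algebraMap B₁ F (algebraMap L[X] B₁ p) = aeval (x⁻¹)⁻¹ p := by
    rw [inv_inv]
    exact h₁.hx
  rcases P.toValuationSubring.mem_or_inv_mem x with hx | hx
  · obtain ⟨w₁, rfl⟩ := cg38_cover h₁.hx P hx
    have hnot : (h48_xv w₁.asIdeal : L) ∉ A := fun h => hP ⟨w₁, rfl, h⟩
    have h0 : (h48_xv w₁.asIdeal : L) ≠ 0 := fun h => hnot (h ▸ A.zero_mem)
    obtain ⟨w₂, hw₂, hxv⟩ := cg38_swap h₁.hx h₂.hx w₁ h0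
    exact ⟨w₂, hw₂, by rw [hxv]; exact (A.mem_or_inv_mem _).resolve_left hnot⟩
  · obtain ⟨w₂, rfl⟩ := cg38_cover h₂.hx P hx
    by_cases hA : (h48_xv w₂.asIdeal : L) ∈ A
    · exact ⟨w₂, rfl, hA⟩
    · exfalso
      have h0 : (h48_xv w₂.asIdeal : L) ≠ 0 := fun h => hA (h ▸ A.zero_mem)
      obtain ⟨w₁, hw₁, hxv⟩ := cg38_swap h₂.hx hx' w₂ h0
      exact hP ⟨w₁, hw₁, by rw [hxv]; exact (A.mem_or_inv_mem _).resolve_left hA⟩

/-- Outside the tube of the first chart the coordinate of the second chart reduces to `0`. -/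
theorem cg38_res_zero (h₁ : cg38_Data A V red x xb BA₁ ρ₁)
    (h₂ : cg38_Data A V red x⁻¹ xb⁻¹ BA₂ ρ₂) (w : HeightOneSpectrum B₂)
    (hw : (h48_xv w.asIdeal : L) ∈ A)
    (hP : ¬ ∃ w₁ : HeightOneSpectrum B₁, (Place.ofHeightOneSpectrum (K := L) w₁ : Place L F)
      = Place.ofHeightOneSpectrum (K := L) w ∧ (h48_xv w₁.asIdeal : L) ∈ A) :
    res ⟨h48_xv w.asIdeal, hw⟩ = 0 := by
  have hx' : ∀ p : L[X], algebraMap B₁ F (algebraMap L[X] B₁ p) = aeval (x⁻¹)⁻¹ p := by
    rw [inv_inv]
    exact h₁.hx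
  by_cases h0 : (h48_xv w.asIdeal : L) = 0
  · have h1 : (⟨h48_xv w.asIdeal, hw⟩ : A) = 0 := Subtype.ext h0
    rw [h1, map_zero]
  · obtain ⟨w₁, hw₁, hxv⟩ := cg38_swap h₂.hx hx' w h0
    have hnot : (h48_xv w.asIdeal : L)⁻¹ ∉ A := fun h => hP ⟨w₁, hw₁, by rw [hxv]; exact h⟩
    have h1 := h48_residue_inv_eq_zero hnot (by rw [inv_inv]; exact hw)
    simpa only [inv_inv] using h1

open Classical in
/-- **The glued centre map**: a place in the tube of the first chart (`x(P) ∈ A`) goes to its
centre in the first special chart; every other place (`x⁻¹(P) ∈ 𝔪_A`) goes to its centre in the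
second special chart. -/
noncomputable def cg38_r0 (h₁ : cg38_Data A V red x xb BA₁ ρ₁)
    (h₂ : cg38_Data A V red x⁻¹ xb⁻¹ BA₂ ρ₂) (P : Place L F) : Place k Fk :=
  if h : ∃ w : HeightOneSpectrum B₁, Place.ofHeightOneSpectrum (K := L) w = P ∧
      (h48_xv w.asIdeal : L) ∈ A then
    Place.ofHeightOneSpectrum (K := k) (cg38_centre h₁.chart h.choose h.choose_spec.2)
  else
    Place.ofHeightOneSpectrum (K := k) (cg38_centre h₂.chart (cg38_exists₂ h₁ h₂ P h).choose
      (cg38_exists₂ h₁ h₂ P h).choose_spec.2)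

theorem cg38_r0_tube (h₁ : cg38_Data A V red x xb BA₁ ρ₁)
    (h₂ : cg38_Data A V red x⁻¹ xb⁻¹ BA₂ ρ₂) (w : HeightOneSpectrum B₁)
    (hw : (h48_xv w.asIdeal : L) ∈ A) :
    cg38_r0 h₁ h₂ (Place.ofHeightOneSpectrum (K := L) w)
      = Place.ofHeightOneSpectrum (K := k) (cg38_centre h₁.chart w hw) := by
  have hex : ∃ w' : HeightOneSpectrum B₁, (Place.ofHeightOneSpectrum (K := L) w' : Place L F)
      = Place.ofHeightOneSpectrum (K := L) w ∧ (h48_xv w'.asIdeal : L) ∈ A := ⟨w, rfl, hw⟩
  unfold cg38_r0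
  rw [dif_pos hex]
  have h1 : hex.choose = w := wp1a_ofHeightOneSpectrum_injective hex.choose_spec.1
  congr 1
  apply HeightOneSpectrum.ext
  show h48_centre ρ₁ hex.choose.asIdeal = h48_centre ρ₁ w.asIdeal
  rw [h1]

theorem cg38_r0_not_tube (h₁ : cg38_Data A V red x xb BA₁ ρ₁)
    (h₂ : cg38_Data A V red x⁻¹ xb⁻¹ BA₂ ρ₂) (w : HeightOneSpectrum B₂)
    (hw : (h48_xv w.asIdeal : L) ∈ A)
    (hP : ¬ ∃ w₁ : HeightOneSpectrum B₁, (Place.ofHeightOneSpectrum (K := L) w₁ : Place L F)
      = Place.ofHeightOneSpectrum (K := L) w ∧ (h48_xv w₁.asIdeal : L) ∈ A) :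
    cg38_r0 h₁ h₂ (Place.ofHeightOneSpectrum (K := L) w)
      = Place.ofHeightOneSpectrum (K := k) (cg38_centre h₂.chart w hw) := by
  unfold cg38_r0
  rw [dif_neg hP]
  have hex := cg38_exists₂ h₁ h₂ (Place.ofHeightOneSpectrum (K := L) w) hP
  have h1 : hex.choose = w := wp1a_ofHeightOneSpectrum_injective hex.choose_spec.1
  congr 1
  apply HeightOneSpectrum.ext
  show h48_centre ρ₂ hex.choose.asIdeal = h48_centre ρ₂ w.asIdeal
  rw [h1]

/-- **(b), poles and big values**: a place outside the tube of the first chart goes to a pole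
of the reduced coordinate. -/
theorem cg38_r0_pole (h₁ : cg38_Data A V red x xb BA₁ ρ₁)
    (h₂ : cg38_Data A V red x⁻¹ xb⁻¹ BA₂ ρ₂) (P : Place L F)
    (hP : ¬ ∃ c : A, 0 < P.ord (x - algebraMap L F (c : L))) :
    (cg38_r0 h₁ h₂ P).ord xb < 0 := by
  have hP' := mt (cg38_tube_iff h₁ P).mp hP
  obtain ⟨w, rfl, hw⟩ := cg38_exists₂ h₁ h₂ P hP'
  rw [cg38_r0_not_tube h₁ h₂ w hw hP']
  have hpos := cg38_xv_pos h₂.hxb (cg38_centre h₂.chart w hw)
  rw [cg38_xv_centre, cg38_res_zero h₁ h₂ w hw hP', map_zero, sub_zero, Place.ord_inv] at hpos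
  linarith

/-- **(b), integral values**: the reduced coordinate at `r0 P` is the reduction of the
coordinate at `P`. -/
theorem cg38_r0_value (h₁ : cg38_Data A V red x xb BA₁ ρ₁)
    (h₂ : cg38_Data A V red x⁻¹ xb⁻¹ BA₂ ρ₂) (P : Place L F) (c : A)
    (hc : 0 < P.ord (x - algebraMap L F (c : L))) :
    0 < (cg38_r0 h₁ h₂ P).ord (xb - algebraMap k Fk (res c)) := by
  obtain ⟨w, rfl⟩ := cg38_cover h₁.hx P (cg38_mem_of_value P hc)
  have hxv : (h48_xv w.asIdeal : L) = c := cg38_xv_eq h₁.hx w hc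
  have hw : (h48_xv w.asIdeal : L) ∈ A := by rw [hxv]; exact c.2
  rw [cg38_r0_tube h₁ h₂ w hw]
  have hpos := cg38_xv_pos h₁.hxb (cg38_centre h₁.chart w hw)
  rw [cg38_xv_centre] at hpos
  have h1 : (⟨h48_xv w.asIdeal, hw⟩ : A) = c := Subtype.ext hxv
  rwa [h1] at hpos

/-- The tube of the first chart is the preimage of the regular locus of the reduced
coordinate. -/
theorem cg38_r0_regular_iff (h₁ : cg38_Data A V red x xb BA₁ ρ₁)
    (h₂ : cg38_Data A V red x⁻¹ xb⁻¹ BA₂ ρ₂) (P : Place L F) :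
    0 ≤ (cg38_r0 h₁ h₂ P).ord xb ↔ ∃ c : A, 0 < P.ord (x - algebraMap L F (c : L)) := by
  constructor
  · intro h
    by_contra hP
    exact absurd (cg38_r0_pole h₁ h₂ P hP) (not_lt.mpr h)
  · rintro ⟨c, hc⟩
    exact (wp1_mem_iff_ord_nonneg _ _).mp (cg38_mem_of_value _ (cg38_r0_value h₁ h₂ P c hc))

/-- The fibre of `r0` over a point of the first special chart. -/
theorem cg38_r0_eq_iff₁ (h₁ : cg38_Data A V red x xb BA₁ ρ₁)
    (h₂ : cg38_Data A V red x⁻¹ xb⁻¹ BA₂ ρ₂) (u : HeightOneSpectrum Bk₁) (P : Place L F) :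
    cg38_r0 h₁ h₂ P = Place.ofHeightOneSpectrum (K := k) u ↔
      ∃ w : HeightOneSpectrum B₁, Place.ofHeightOneSpectrum (K := L) w = P ∧
        h48_Red BA₁ ρ₁ w.asIdeal u.asIdeal := by
  constructor
  · intro h
    have hreg : 0 ≤ (cg38_r0 h₁ h₂ P).ord xb := by
      rw [h]
      exact (wp1_mem_iff_ord_nonneg _ _).mp (cg38_x_mem h₁.hxb u)
    obtain ⟨w, rfl, hw⟩ := (cg38_tube_iff h₁ P).mpr ((cg38_r0_regular_iff h₁ h₂ P).mp hreg)
    rw [cg38_r0_tube h₁ h₂ w hw] at h
    exact ⟨w, rfl, (cg38_centre_eq_iff h₁.chart w hw u).mp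
      (wp1a_ofHeightOneSpectrum_injective h)⟩
  · rintro ⟨w, rfl, hred⟩
    have hw := cg38_mem_of_red h₁.chart w u hred
    rw [cg38_r0_tube h₁ h₂ w hw, (cg38_centre_eq_iff h₁.chart w hw u).mpr hred]

/-- The fibre of `r0` over a point of the second special chart at which the reduced coordinate
has a pole. -/
theorem cg38_r0_eq_iff₂ (h₁ : cg38_Data A V red x xb BA₁ ρ₁)
    (h₂ : cg38_Data A V red x⁻¹ xb⁻¹ BA₂ ρ₂) (u : HeightOneSpectrum Bk₂)
    (hu : (Place.ofHeightOneSpectrum (K := k) u).ord xb < 0) (P : Place L F) :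
    cg38_r0 h₁ h₂ P = Place.ofHeightOneSpectrum (K := k) u ↔
      ∃ w : HeightOneSpectrum B₂, Place.ofHeightOneSpectrum (K := L) w = P ∧
        h48_Red BA₂ ρ₂ w.asIdeal u.asIdeal := by
  constructor
  · intro h
    have hP : ¬ ∃ c : A, 0 < P.ord (x - algebraMap L F (c : L)) := by
      intro hc
      have := (cg38_r0_regular_iff h₁ h₂ P).mpr hc
      rw [h] at this
      exact absurd hu (not_lt.mpr this)
    have hP' := mt (cg38_tube_iff h₁ P).mp hP
    obtain ⟨w, rfl, hw⟩ := cg38_exists₂ h₁ h₂ P hP'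
    rw [cg38_r0_not_tube h₁ h₂ w hw hP'] at h
    exact ⟨w, rfl, (cg38_centre_eq_iff h₂.chart w hw u).mp
      (wp1a_ofHeightOneSpectrum_injective h)⟩
  · rintro ⟨w, rfl, hred⟩
    have hw := cg38_mem_of_red h₂.chart w u hred
    have hP' : ¬ ∃ w₁ : HeightOneSpectrum B₁, (Place.ofHeightOneSpectrum (K := L) w₁ : Place L F)
        = Place.ofHeightOneSpectrum (K := L) w ∧ (h48_xv w₁.asIdeal : L) ∈ A := by
      rintro ⟨w₁, hw₁, hw₁A⟩
      -- the value of `x⁻¹` at the point is in the maximal ideal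
      obtain ⟨α, hα, hα'⟩ := h48_red_tube h₂.chart w.isMaximal u.isMaximal.ne_top hred
      have hxu : (h48_xv u.asIdeal : k) = 0 := by
        refine cg38_xv_eq h₂.hxb u ?_
        rw [map_zero, sub_zero, Place.ord_inv]
        linarith
      have hresα : res α = 0 := by rw [← hα', hxu]
      have hv1 := cg38_xv_pos h₁.hx w₁
      rw [hw₁] at hv1
      have hv2 := cg38_xv_pos h₂.hx w
      have hmul := cg38_value_mul_inv _ hv1 hv2
      have h1 : (⟨h48_xv w₁.asIdeal, hw₁A⟩ : A) * α = 1 := by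
        apply Subtype.ext
        show (h48_xv w₁.asIdeal : L) * (α : L) = 1
        rw [← hα]
        exact hmul
      have h2 := congrArg res h1
      rw [map_mul, hresα, mul_zero, map_one] at h2
      exact zero_ne_one h2
    rw [cg38_r0_not_tube h₁ h₂ w hw hP', (cg38_centre_eq_iff h₂.chart w hw u).mpr hred]

/-- **(a) Conservation of number** for the glued centre map: for every Gauss unit `f` the
push-forward of the divisor of `f` is the divisor of `red f`. -/
theorem cg38_conservation (h₁ : cg38_Data A V red x xb BA₁ ρ₁)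
    (h₂ : cg38_Data A V red x⁻¹ xb⁻¹ BA₂ ρ₂) (f : V) (hf : red f ≠ 0)
    (D : Place L F →₀ ℤ) (hD : ∀ P, D P = P.ord (f : F)) (Q : Place k Fk) :
    Finsupp.mapDomain (cg38_r0 h₁ h₂) D Q = Q.ord (red f) := by
  classical
  have hsum : Finsupp.mapDomain (cg38_r0 h₁ h₂) D Q
      = ∑ P ∈ D.support, (if cg38_r0 h₁ h₂ P = Q then D P else 0) := by
    rw [Finsupp.mapDomain, Finsupp.sum_apply, Finsupp.sum]
    refine Finset.sum_congr rfl (fun P _ => ?_)
    rw [Finsupp.single_apply]
  rw [hsum]
  by_cases hQ : xb ∈ Q.toValuationSubring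
  · obtain ⟨u, rfl⟩ := cg38_cover h₁.hxb Q hQ
    exact cg38_chart_conservation h₁ f hf D hD u _ (cg38_r0_eq_iff₁ h₁ h₂ u)
  · have hQ' : xb⁻¹ ∈ Q.toValuationSubring :=
      (Q.toValuationSubring.mem_or_inv_mem xb).resolve_left hQ
    obtain ⟨u, rfl⟩ := cg38_cover h₂.hxb Q hQ'
    have hu : (Place.ofHeightOneSpectrum (K := k) u).ord xb < 0 := by
      by_contra hnn
      exact hQ ((wp1_mem_iff_ord_nonneg _ _).mpr (not_lt.mp hnn))
    exact cg38_chart_conservation h₂ f hf D hD u _ (cg38_r0_eq_iff₂ h₁ h₂ u hu)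


/-- **(b), poles**: poles of the coordinate go to poles of the reduced coordinate. -/
theorem cg38_r0_pole_of_ord_neg (h₁ : cg38_Data A V red x xb BA₁ ρ₁)
    (h₂ : cg38_Data A V red x⁻¹ xb⁻¹ BA₂ ρ₂) (P : Place L F) (hP : P.ord x < 0) :
    (cg38_r0 h₁ h₂ P).ord xb < 0 := by
  refine cg38_r0_pole h₁ h₂ P ?_
  rintro ⟨c, hc⟩
  have := (wp1_mem_iff_ord_nonneg P x).mp (cg38_mem_of_value P hc)
  linarith

/-- **(b), big values**: places at which the coordinate has a non-integral value go to poles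
of the reduced coordinate. -/
theorem cg38_r0_pole_of_notMem (h₁ : cg38_Data A V red x xb BA₁ ρ₁)
    (h₂ : cg38_Data A V red x⁻¹ xb⁻¹ BA₂ ρ₂) (P : Place L F) (c : L)
    (hc : 0 < P.ord (x - algebraMap L F c)) (hcA : c ∉ A) :
    (cg38_r0 h₁ h₂ P).ord xb < 0 := by
  refine cg38_r0_pole h₁ h₂ P ?_
  rintro ⟨c', hc'⟩
  rw [cg38_value_unique P hc hc'] at hcA
  exact hcA c'.2

/-- **RC-GLUE, packaged.** From the two charts (`x`, `x⁻¹`): a centre map `r0` with
(a) conservation of number on the Gauss units, (b) the evaluation characterisation for the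
coordinate (poles, big values, integral values), (d) the tube toolkit on both charts. -/
theorem cg38_main (h₁ : cg38_Data A V red x xb BA₁ ρ₁)
    (h₂ : cg38_Data A V red x⁻¹ xb⁻¹ BA₂ ρ₂) :
    ∃ r0 : Place L F → Place k Fk,
      (∀ f : V, red f ≠ 0 → ∀ D : Place L F →₀ ℤ, (∀ P, D P = P.ord (f : F)) →
        ∀ Q, Finsupp.mapDomain r0 D Q = Q.ord (red f)) ∧
      (∀ P : Place L F, P.ord x < 0 → (r0 P).ord xb < 0) ∧
      (∀ (P : Place L F) (c : L), 0 < P.ord (x - algebraMap L F c) → c ∉ A →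
        (r0 P).ord xb < 0) ∧
      (∀ (P : Place L F) (c : L) (hc : c ∈ A), 0 < P.ord (x - algebraMap L F c) →
        0 < (r0 P).ord (xb - algebraMap k Fk (res ⟨c, hc⟩))) ∧
      (∀ (G : Finset k) (P : Place L F) (c : A), 0 < P.ord (x - algebraMap L F (c : L)) →
        ∃ f : V, red f ≠ 0 ∧ P.ord (f : F) = 1 ∧
          ∀ P' : Place L F, P' ≠ P → ∀ c' : A, 0 < P'.ord (x - algebraMap L F (c' : L)) →
            res c' ∈ G → P'.ord (f : F) = 0) ∧
      (∀ (G : Finset k) (P : Place L F) (c : A), 0 < P.ord (x⁻¹ - algebraMap L F (c : L)) →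
        ∃ f : V, red f ≠ 0 ∧ P.ord (f : F) = 1 ∧
          ∀ P' : Place L F, P' ≠ P → ∀ c' : A, 0 < P'.ord (x⁻¹ - algebraMap L F (c' : L)) →
            res c' ∈ G → P'.ord (f : F) = 0) := by
  refine ⟨cg38_r0 h₁ h₂, fun f hf D hD Q => cg38_conservation h₁ h₂ f hf D hD Q,
    fun P hP => cg38_r0_pole_of_ord_neg h₁ h₂ P hP,
    fun P c hc hcA => cg38_r0_pole_of_notMem h₁ h₂ P c hc hcA,
    fun P c hc hpos => cg38_r0_value h₁ h₂ P ⟨c, hc⟩ hpos, ?_, ?_⟩
  · intro G P c hc
    obtain ⟨f, hf, -, hP, hother⟩ := cg38_toolkit h₁ G P c hc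
    exact ⟨f, hf, hP, hother⟩
  · intro G P c hc
    obtain ⟨f, hf, -, hP, hother⟩ := cg38_toolkit h₂ G P c hc
    exact ⟨f, hf, hP, hother⟩

end Glue

end Fermat.Agent.S37
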