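import Mathlib
import Fermat.Prelude.Def_AlgebraicCurve_BaseChangeGalois
import Fermat.Agent.S24.Places
import Fermat.Agent.S24.PlacesBasicCore
import Fermat.Agent.S37.PerPlace72
import Fermat.Agent.S37.ChartDefs48

/-!
# S37, row RC-GLUE (helper89): from the chart theorems to the reduction map on places

Abstract two-chart gluing on top of helper48's chart interface (`ChartDefs48`).

`L ⊇ A` a valued field of constants with residue field `k` (both algebraically closed),
`F / L` and `Fk / k` fields, `O ⊆ F` the Gauss ring with reduction map `red : O → Fk`,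
`x : F` a coordinate with reduction `xbar`.  A chart (`cg89_Chart A O red x xbar BA ρ`) is a pair
of Dedekind coordinate rings `B` (an `L[X]`-algebra with fraction field `F`, `X ↦ x`) and `Bk`
(same over `k`, `X ↦ xbar`) with `BA = B ∩ O`, `ρ = red|BA`, the chart data `h48_Chart`, the
core theorems (T1)-(T3) of the chart (`cg89_Core`: unique reduction of points with coordinate in
`A`, coordinates of a point and of its reduction, conservation of number on ideals) and the
coverage of the places by the height one primes on both fibres.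

From a chart for `(x, xbar)` and a chart for `(x⁻¹, xbar⁻¹)`:

* `cg89_r0 h1 h2 : Place L F → Place k Fk` — the reduction map (chart 1 where the coordinate of
  the point lies in `A`, chart 2 elsewhere), characterised by `cg89_r0_spec` / `cg89_r0_eq`;
* `cg89_conservation` — (a) for `f ∈ O` with `red f ≠ 0`: `r0_* (div f) = div (red f)` (the clause
  of the Prelude's `IsPlaceReductionAlong`);
* `cg89_r0_coord`, `cg89_r0_pole`, `cg89_r0_of_pole`, `cg89_r0_of_notMem` — (b) the coordinate of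
  the reduction of a point;
* `cg89_r0_smul` — (c) equivariance for semilinear automorphisms compatible with `red`;
* `cg89_toolkit` — (d) the tube toolkit (T4) of a chart in place form.
-/

set_option autoImplicit false
set_option linter.unusedSectionVars false

open Polynomial AlgebraicCurve IsDedekindDomain UniqueFactorizationMonoid

namespace Fermat.Agent.S37

open Fermat.Agent.S24

section Generic

variable {α β ι : Type*}

open Classical in
theorem cg89_mapDomain_apply (r : α → β) (D : α →₀ ℤ) (Q : β) :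
    Finsupp.mapDomain r D Q = ∑ P ∈ D.support, if r P = Q then D P else 0 := by
  rw [Finsupp.mapDomain, Finsupp.sum_apply, Finsupp.sum]
  refine Finset.sum_congr rfl fun P _ => ?_
  rw [Finsupp.single_apply]

/-- Fibre sum: if the fibre of `r` over `Q` (inside the support of `D`) is parametrised by a
finite set `W`, the push-forward at `Q` is the sum over `W`. -/
theorem cg89_mapDomain_eq_sum (r : α → β) (D : α →₀ ℤ) (Q : β) (W : Finset ι) (e : ι → α)
    (he : Set.InjOn e W) (h1 : ∀ w ∈ W, r (e w) = Q)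
    (h2 : ∀ P, D P ≠ 0 → r P = Q → ∃ w ∈ W, e w = P) :
    Finsupp.mapDomain r D Q = ∑ w ∈ W, D (e w) := by
  classical
  rw [cg89_mapDomain_apply, ← Finset.sum_filter, ← Finset.sum_image he]
  refine Finset.sum_subset ?_ ?_
  · intro P hP
    rw [Finset.mem_filter, Finsupp.mem_support_iff] at hP
    obtain ⟨w, hw, rfl⟩ := h2 P hP.1 hP.2
    exact Finset.mem_image_of_mem e hw
  · intro P hP hP'
    rw [Finset.mem_image] at hP
    obtain ⟨w, hw, rfl⟩ := hP
    by_contra hne
    exact hP' (Finset.mem_filter.mpr ⟨Finsupp.mem_support_iff.mpr hne, h1 w hw⟩)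

/-- `countP` as a sum of multiplicities over a parametrisation of the elements satisfying the
predicate. -/
theorem cg89_countP_eq_sum [DecidableEq α] (m : Multiset α) (p : α → Prop) [DecidablePred p]
    (W : Finset ι) (e : ι → α) (he : Set.InjOn e W) (h1 : ∀ w ∈ W, p (e w))
    (h2 : ∀ a ∈ m, p a → ∃ w ∈ W, e w = a) :
    Multiset.countP p m = ∑ w ∈ W, Multiset.count (e w) m := by
  rw [Multiset.countP_eq_card_filter, ← Multiset.toFinset_sum_count_eq,
    ← Finset.sum_image (f := fun a => Multiset.count a m) he]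
  refine Finset.sum_subset_zero_on_sdiff ?_ ?_ ?_
  · intro a ha
    rw [Multiset.mem_toFinset, Multiset.mem_filter] at ha
    obtain ⟨w, hw, rfl⟩ := h2 a ha.1 ha.2
    exact Finset.mem_image_of_mem e hw
  · intro a ha
    rw [Finset.mem_sdiff, Finset.mem_image] at ha
    obtain ⟨⟨w, hw, rfl⟩, hn⟩ := ha
    rw [Multiset.mem_toFinset, Multiset.mem_filter] at hn
    rw [Multiset.count_eq_zero]
    exact fun hm => hn ⟨hm, h1 w hw⟩
  · intro a ha
    rw [Multiset.mem_toFinset, Multiset.mem_filter] at ha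
    rw [Multiset.count_filter_of_pos ha.2]

end Generic

section Dict

variable {K F : Type*} [Field K] [Field F] [Algebra K F]
variable {B : Type*} [CommRing B] [IsDedekindDomain B] [Algebra B F] [IsFractionRing B F]
  [Algebra K B] [IsScalarTower K B F]

open Classical in
/-- The order at the place of a height one prime is the multiplicity in the factorisation. -/
theorem cg89_ord_eq_count (w : HeightOneSpectrum B) {b : B} (hb : b ≠ 0) :
    (Place.ofHeightOneSpectrum (K := K) w).ord (algebraMap B F b)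
      = (Multiset.count w.asIdeal (normalizedFactors (Ideal.span {b})) : ℤ) := by
  rw [wp1a_ord_ofHeightOneSpectrum, HeightOneSpectrum.valuation_of_algebraMap,
    HeightOneSpectrum.intValuation_if_neg _ hb,
    Ideal.count_associates_factors_eq (by simpa using hb) w.isPrime w.ne_bot]
  simp

variable [Algebra K[X] B]

/-- `X - α` lies in the prime `w` iff `x - α` vanishes at the place of `w`. -/
theorem cg89_mem_iff_ord_pos {x : F}
    (hX : ∀ p : K[X], algebraMap B F (algebraMap K[X] B p) = aeval x p)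
    (hinj : Function.Injective (algebraMap K[X] B)) (w : HeightOneSpectrum B) (a : K) :
    algebraMap K[X] B (X - C a) ∈ w.asIdeal ↔
      0 < (Place.ofHeightOneSpectrum (K := K) w).ord (x - algebraMap K F a) := by
  have h0 : algebraMap K[X] B (X - C a) ≠ 0 :=
    (map_ne_zero_iff _ hinj).mpr (X_sub_C_ne_zero a)
  rw [← wp1a_ord_pos_iff (K := K) (F := F) w h0, hX]
  simp

/-- Over an algebraically closed field every point of the chart has a coordinate. -/
theorem cg89_exists_coord [IsAlgClosed K] [Algebra.IsIntegral K[X] B]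
    (w : HeightOneSpectrum B) : ∃ a : K, algebraMap K[X] B (X - C a) ∈ w.asIdeal := by
  have hne : w.asIdeal.comap (algebraMap K[X] B) ≠ ⊥ := by
    obtain ⟨b, hb, hb0⟩ := Submodule.exists_mem_ne_zero_of_ne_bot w.ne_bot
    exact Ideal.comap_ne_bot_of_integral_mem hb0 hb (Algebra.IsIntegral.isIntegral b)
  obtain ⟨p, hp, hp0⟩ := Submodule.exists_mem_ne_zero_of_ne_bot hne
  have : (w.asIdeal.comap (algebraMap K[X] B)).IsPrime := Ideal.comap_isPrime _ _
  have hs := (IsAlgClosed.splits p).eq_prod_roots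
  rw [hs] at hp
  rcases Ideal.IsPrime.mem_or_mem inferInstance hp with h | h
  · exfalso
    have hlc : p.leadingCoeff ≠ 0 := leadingCoeff_ne_zero.mpr hp0
    have hu : IsUnit (C p.leadingCoeff : K[X]) := isUnit_C.mpr (isUnit_iff_ne_zero.mpr hlc)
    exact (Ideal.IsPrime.ne_top inferInstance)
      (Ideal.eq_top_of_isUnit_mem _ h hu)
  · obtain ⟨q, hq, hqm⟩ := (Ideal.IsPrime.multiset_prod_mem_iff_exists_mem inferInstance _).mp h
    obtain ⟨a, -, rfl⟩ := Multiset.mem_map.mp hq
    exact ⟨a, hqm⟩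

/-- The coordinate of a point in the sense of `h48_xv`. -/
theorem cg89_xv_eq_iff {x : F}
    (hX : ∀ p : K[X], algebraMap B F (algebraMap K[X] B p) = aeval x p)
    (hinj : Function.Injective (algebraMap K[X] B)) [IsAlgClosed K] [Algebra.IsIntegral K[X] B]
    (w : HeightOneSpectrum B) (a : K) :
    h48_xv w.asIdeal = a ↔
      0 < (Place.ofHeightOneSpectrum (K := K) w).ord (x - algebraMap K F a) := by
  rw [← cg89_mem_iff_ord_pos hX hinj]
  constructor
  · rintro rfl
    exact h48_xv_spec (cg89_exists_coord w)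
  · exact fun h => h48_xv_eq w.isPrime.ne_top h

end Dict

section Scale

variable {L : Type*} [Field L] (A : ValuationSubring L)

/-- A nonzero polynomial over the fraction field of a valuation ring is a constant times a
polynomial over the valuation ring with nonzero reduction. -/
theorem cg89_scale (q : L[X]) (hq : q ≠ 0) :
    ∃ (c : L) (p : A[X]), c ≠ 0 ∧ q = C c * p.map A.subtype ∧
      p.map (IsLocalRing.residue A) ≠ 0 := by
  classical
  obtain ⟨n₀, hn₀, hmax⟩ := Finset.exists_max_image q.support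
    (fun n => A.valuation (q.coeff n)) (support_nonempty.mpr hq)
  set c := q.coeff n₀ with hc
  have hc0 : c ≠ 0 := mem_support_iff.mp hn₀
  have hmem : ∀ n, q.coeff n / c ∈ A := by
    intro n
    rw [← A.valuation_le_one_iff, map_div₀]
    have hvc : A.valuation c ≠ 0 := (Valuation.ne_zero_iff _).mpr hc0
    rw [div_le_one₀ (zero_lt_iff.mpr hvc)]
    by_cases hn : n ∈ q.support
    · exact hmax n hn
    · rw [notMem_support_iff.mp hn, map_zero]
      exact zero_le
  set p : A[X] := ∑ n ∈ Finset.range (q.natDegree + 1), monomial n (⟨q.coeff n / c, hmem n⟩ : A)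
    with hp
  have hcoeff : ∀ n, p.coeff n = (⟨q.coeff n / c, hmem n⟩ : A) := by
    intro n
    rw [hp, finsetSum_coeff]
    simp only [coeff_monomial]
    rw [Finset.sum_ite_eq' (Finset.range (q.natDegree + 1)) n]
    split_ifs with h
    · rfl
    · have h1 : q.natDegree < n := by
        rw [Finset.mem_range] at h
        omega
      apply Subtype.ext
      show (0 : L) = q.coeff n / c
      rw [coeff_eq_zero_of_natDegree_lt h1, zero_div]
  refine ⟨c, p, hc0, ?_, ?_⟩
  · ext n
    rw [coeff_C_mul, coeff_map, hcoeff]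
    show q.coeff n = c * (q.coeff n / c)
    field_simp
  · intro h0
    have h1 := congrArg (fun r => r.coeff n₀) h0
    simp only [coeff_map, coeff_zero] at h1
    rw [hcoeff] at h1
    have h2 : (⟨q.coeff n₀ / c, hmem n₀⟩ : A) = 1 := by
      apply Subtype.ext
      show q.coeff n₀ / c = 1
      rw [← hc, div_self hc0]
    rw [h2, map_one] at h1
    exact one_ne_zero h1

end Scale


section Chart

variable {L : Type*} [Field L] (A : ValuationSubring L)

open Classical in
/-- The core theorems (T1)-(T3) of a chart (helper48, `ChartCore48`), as hypotheses. -/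
structure cg89_Core {B : Type*} [CommRing B] [IsDedekindDomain B] [Algebra L[X] B]
    {Bk : Type*} [CommRing Bk] [IsDedekindDomain Bk]
    [Algebra (IsLocalRing.ResidueField A)[X] Bk] (BA : Subring B) (ρ : BA →+* Bk) : Prop where
  /-- (T1) a point with coordinate in `A` has a unique reduction -/
  exists_red : ∀ P : Ideal B, P.IsMaximal → h48_xv P ∈ A →
    ∃! Q : Ideal Bk, Q.IsMaximal ∧ h48_Red BA ρ P Q
  /-- (T2) the coordinates of a point and of its reduction -/
  red_tube : ∀ (P : Ideal B) (Q : Ideal Bk), P.IsMaximal → Q.IsMaximal → h48_Red BA ρ P Q →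
    ∃ a : A, h48_xv P = (a : L) ∧ h48_xv Q = IsLocalRing.residue A a
  /-- (T3) conservation of number -/
  conservation : ∀ b : BA, ρ b ≠ 0 → ∀ Q : Ideal Bk, Q.IsMaximal →
    Multiset.count Q (normalizedFactors (Ideal.span {ρ b})) =
      Multiset.countP (fun P => h48_Red BA ρ P Q) (normalizedFactors (Ideal.span {(b : B)}))

variable {F : Type*} [Field F] [Algebra L F] {Fk : Type*} [Field Fk]
  [Algebra (IsLocalRing.ResidueField A) Fk]

/-- A chart of the pair (generic fibre, special fibre), with its dictionary to places: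
`x : F` the coordinate, `xbar : Fk` its reduction, `O ⊆ F` the Gauss ring with reduction map
`red`, `B`, `Bk` the coordinate rings, `BA = B ∩ O`, `ρ = red|BA`. -/
structure cg89_Chart (O : Subring F) (red : O →+* Fk) (x : F) (xbar : Fk)
    {B : Type*} [CommRing B] [IsDedekindDomain B] [Algebra L[X] B] [Algebra L B] [Algebra B F]
    [IsFractionRing B F] [IsScalarTower L B F]
    {Bk : Type*} [CommRing Bk] [IsDedekindDomain Bk] [Algebra (IsLocalRing.ResidueField A)[X] Bk]
    [Algebra (IsLocalRing.ResidueField A) Bk] [Algebra Bk Fk] [IsFractionRing Bk Fk]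
    [IsScalarTower (IsLocalRing.ResidueField A) Bk Fk]
    (BA : Subring B) (ρ : BA →+* Bk) : Prop where
  hX : ∀ p : L[X], algebraMap B F (algebraMap L[X] B p) = aeval x p
  hXk : ∀ p : (IsLocalRing.ResidueField A)[X],
    algebraMap Bk Fk (algebraMap (IsLocalRing.ResidueField A)[X] Bk p) = aeval xbar p
  inj : Function.Injective (algebraMap L[X] B)
  injk : Function.Injective (algebraMap (IsLocalRing.ResidueField A)[X] Bk)
  int : Algebra.IsIntegral L[X] B
  intk : Algebra.IsIntegral (IsLocalRing.ResidueField A)[X] Bk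
  mem_BA : ∀ b : B, b ∈ BA ↔ algebraMap B F b ∈ O
  rho_red : ∀ (b : BA) (hb : algebraMap B F (b : B) ∈ O),
    algebraMap Bk Fk (ρ b) = red ⟨algebraMap B F (b : B), hb⟩
  cover : ∀ v : Place L F, x ∈ v.toValuationSubring →
    ∃ w : HeightOneSpectrum B, Place.ofHeightOneSpectrum (K := L) w = v
  coverk : ∀ v : Place (IsLocalRing.ResidueField A) Fk, xbar ∈ v.toValuationSubring →
    ∃ w : HeightOneSpectrum Bk,
      Place.ofHeightOneSpectrum (K := IsLocalRing.ResidueField A) w = v
  chart : h48_Chart A BA ρ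
  core : cg89_Core A BA ρ

variable {B : Type*} [CommRing B] [IsDedekindDomain B] [Algebra L[X] B] [Algebra L B]
  [Algebra B F] [IsFractionRing B F] [IsScalarTower L B F]
  {Bk : Type*} [CommRing Bk] [IsDedekindDomain Bk] [Algebra (IsLocalRing.ResidueField A)[X] Bk]
  [Algebra (IsLocalRing.ResidueField A) Bk] [Algebra Bk Fk] [IsFractionRing Bk Fk]
  [IsScalarTower (IsLocalRing.ResidueField A) Bk Fk]

/-- The chart relation on places: `P` is a point of the chart and reduces to the point `Q`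
of the chart of the special fibre. -/
def cg89_Rel (BA : Subring B) (ρ : BA →+* Bk) (P : Place L F)
    (Q : Place (IsLocalRing.ResidueField A) Fk) : Prop :=
  ∃ (w : HeightOneSpectrum B) (w' : HeightOneSpectrum Bk),
    Place.ofHeightOneSpectrum (K := L) w = P ∧
      Place.ofHeightOneSpectrum (K := IsLocalRing.ResidueField A) w' = Q ∧
        h48_Red BA ρ w.asIdeal w'.asIdeal

variable {A} {O : Subring F} {red : O →+* Fk} {x : F} {xbar : Fk}
  {BA : Subring B} {ρ : BA →+* Bk}

theorem cg89_algebraMap_mem (w : HeightOneSpectrum B) (b : B) :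
    algebraMap B F b ∈ (Place.ofHeightOneSpectrum (K := L) (F := F) w).toValuationSubring := by
  rw [Place.ofHeightOneSpectrum_toValuationSubring, Valuation.mem_valuationSubring_iff]
  exact w.valuation_le_one b

theorem cg89_x_mem (h : cg89_Chart A O red x xbar BA ρ) (w : HeightOneSpectrum B) :
    x ∈ (Place.ofHeightOneSpectrum (K := L) (F := F) w).toValuationSubring := by
  have h1 := cg89_algebraMap_mem (L := L) (F := F) w (algebraMap L[X] B X)
  rwa [h.hX, aeval_X] at h1

theorem cg89_x_ne_zero (h : cg89_Chart A O red x xbar BA ρ) : x ≠ 0 := by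
  have h1 := h.hX X
  rw [aeval_X] at h1
  rw [← h1]
  exact (map_ne_zero_iff _ (IsFractionRing.injective B F)).mpr
    ((map_ne_zero_iff _ h.inj).mpr X_ne_zero)

theorem cg89_ne_bot_of_isMaximal (h : cg89_Chart A O red x xbar BA ρ) {Q : Ideal Bk}
    (hQ : Q.IsMaximal) : Q ≠ ⊥ := by
  rintro rfl
  have := h.intk
  exact Polynomial.not_isField _
    (isField_of_isIntegral_of_isField h.injk (Ring.isField_iff_maximal_bot.mpr hQ))

/-- (R1) coordinates of a point and of its reduction. -/
theorem cg89_Rel_coord [IsAlgClosed L] [IsAlgClosed (IsLocalRing.ResidueField A)]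
    (h : cg89_Chart A O red x xbar BA ρ) {P : Place L F}
    {Q : Place (IsLocalRing.ResidueField A) Fk} (hR : cg89_Rel A BA ρ P Q) :
    ∃ a : A, 0 < P.ord (x - algebraMap L F (a : L)) ∧
      0 < Q.ord (xbar - algebraMap (IsLocalRing.ResidueField A) Fk (IsLocalRing.residue A a)) := by
  obtain ⟨w, w', rfl, rfl, hRed⟩ := hR
  obtain ⟨a, ha, ha'⟩ := h.core.red_tube w.asIdeal w'.asIdeal w.isMaximal w'.isMaximal hRed
  have := h.int
  have := h.intk
  exact ⟨a, (cg89_xv_eq_iff h.hX h.inj w (a : L)).mp ha,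
    (cg89_xv_eq_iff h.hXk h.injk w' _).mp ha'⟩

/-- (R2) a point with coordinate in `A` has a reduction. -/
theorem cg89_Rel_exists [IsAlgClosed L] (h : cg89_Chart A O red x xbar BA ρ)
    (P : Place L F) (a : A) (ha : 0 < P.ord (x - algebraMap L F (a : L))) :
    ∃ Q : Place (IsLocalRing.ResidueField A) Fk, cg89_Rel A BA ρ P Q := by
  have hxP : x ∈ P.toValuationSubring := by
    have h1 := add_mem (wp1a_mem_of_ord_pos P ha) (P.algebraMap_mem' (a : L))
    rwa [sub_add_cancel] at h1
  obtain ⟨w, rfl⟩ := h.cover P hxP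
  have := h.int
  have hxv : h48_xv w.asIdeal = (a : L) := (cg89_xv_eq_iff h.hX h.inj w (a : L)).mpr ha
  obtain ⟨Q', ⟨hQmax, hRed⟩, -⟩ :=
    h.core.exists_red w.asIdeal w.isMaximal (by rw [hxv]; exact a.2)
  set wQ : HeightOneSpectrum Bk := ⟨Q', hQmax.isPrime, cg89_ne_bot_of_isMaximal h hQmax⟩
  exact ⟨Place.ofHeightOneSpectrum (K := IsLocalRing.ResidueField A) (F := Fk) wQ,
    w, wQ, rfl, rfl, hRed⟩

/-- (R3) the reduction of a point is unique. -/
theorem cg89_Rel_unique (h : cg89_Chart A O red x xbar BA ρ) {P : Place L F}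
    {Q Q' : Place (IsLocalRing.ResidueField A) Fk} (h1 : cg89_Rel A BA ρ P Q)
    (h2 : cg89_Rel A BA ρ P Q') : Q = Q' := by
  obtain ⟨w, w', rfl, rfl, hR⟩ := h1
  obtain ⟨v, v', hv, rfl, hR'⟩ := h2
  obtain rfl : v = w := wp1a_ofHeightOneSpectrum_injective hv
  obtain ⟨a, ha, -⟩ := h.core.red_tube v.asIdeal w'.asIdeal v.isMaximal w'.isMaximal hR
  obtain ⟨Q0, -, huniq⟩ := h.core.exists_red v.asIdeal v.isMaximal (by rw [ha]; exact a.2)
  have e1 := huniq w'.asIdeal ⟨w'.isMaximal, hR⟩
  have e2 := huniq v'.asIdeal ⟨v'.isMaximal, hR'⟩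
  have e3 : w' = v' := HeightOneSpectrum.ext (e1.trans e2.symm)
  rw [e3]

/-- Every element of the Gauss ring is `b / s(x)` with `b` an integral function of the chart and
`s` a polynomial over `A` with nonzero reduction. -/
theorem cg89_frac (h : cg89_Chart A O red x xbar BA ρ) (f : O) :
    ∃ (b : BA) (p : A[X]), p.map (IsLocalRing.residue A) ≠ 0 ∧
      algebraMap B F (b : B) = (f : F) * aeval x (p.map A.subtype) := by
  obtain ⟨b', s', hs', hf⟩ := IsFractionRing.div_surjective B (f : F)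
  have := h.int
  obtain ⟨q, hq0, c, hc⟩ :=
    (Algebra.IsIntegral.isIntegral (R := L[X]) s').isAlgebraic.exists_nonzero_dvd hs'
  obtain ⟨lam, p, hlam, hqp, hpres⟩ := cg89_scale A q hq0
  have hs0 : algebraMap B F s' ≠ 0 :=
    (map_ne_zero_iff _ (IsFractionRing.injective B F)).mpr (nonZeroDivisors.ne_zero hs')
  have key : algebraMap B F (algebraMap L B lam⁻¹ * b' * c) =
      (f : F) * aeval x (p.map A.subtype) := by
    have h1 : aeval x q = algebraMap B F s' * algebraMap B F c := by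
      rw [← h.hX, hc, map_mul]
    have h2 : aeval x q = algebraMap L F lam * aeval x (p.map A.subtype) := by
      rw [hqp, map_mul, aeval_C]
    have h3 : aeval x (p.map A.subtype) =
        algebraMap L F lam⁻¹ * (algebraMap B F s' * algebraMap B F c) := by
      rw [← h1, h2, ← mul_assoc, ← map_mul, inv_mul_cancel₀ hlam, map_one, one_mul]
    rw [map_mul, map_mul, ← IsScalarTower.algebraMap_apply, ← hf, h3]
    field_simp
  have hmem : algebraMap L B lam⁻¹ * b' * c ∈ BA := by
    rw [h.mem_BA, key]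
    refine O.mul_mem f.2 ?_
    rw [← h.hX, ← h.mem_BA]
    exact h.chart.poly_mem p
  exact ⟨⟨_, hmem⟩, p, hpres, key⟩

/-- Conservation of number on a chart, in place form: the orders of `f` at the points reducing
to `w'` add up to the order of the reduction of `f` at `w'`. -/
theorem cg89_chart_sum (h : cg89_Chart A O red x xbar BA ρ) (f : O) (hf : red f ≠ 0)
    (w' : HeightOneSpectrum Bk) :
    ∃ W : Finset (HeightOneSpectrum B),
      (∀ w ∈ W, h48_Red BA ρ w.asIdeal w'.asIdeal) ∧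
      (∀ w : HeightOneSpectrum B, h48_Red BA ρ w.asIdeal w'.asIdeal →
        (Place.ofHeightOneSpectrum (K := L) w).ord (f : F) ≠ 0 → w ∈ W) ∧
      ∑ w ∈ W, (Place.ofHeightOneSpectrum (K := L) w).ord (f : F) =
        (Place.ofHeightOneSpectrum (K := IsLocalRing.ResidueField A) w').ord (red f) := by
  classical
  obtain ⟨b, p, hp, hb⟩ := cg89_frac h f
  set s : BA := ⟨algebraMap L[X] B (p.map A.subtype), h.chart.poly_mem p⟩ with hs
  have hρs : ρ s = algebraMap _ Bk (p.map (IsLocalRing.residue A)) := h.chart.rho_poly p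
  have hρs0 : ρ s ≠ 0 := by
    rw [hρs]
    exact (map_ne_zero_iff _ h.injk).mpr hp
  have hp0 : p.map A.subtype ≠ 0 := by
    intro h0
    apply hp
    have h1 : p = 0 := (Polynomial.map_eq_zero_iff A.subtype_injective).mp h0
    rw [h1, Polynomial.map_zero]
  have hs0 : (s : B) ≠ 0 := (map_ne_zero_iff _ h.inj).mpr hp0
  have hsF : algebraMap B F (s : B) = aeval x (p.map A.subtype) := h.hX _
  have hsO : algebraMap B F (s : B) ∈ O := (h.mem_BA _).mp s.2
  have hbO : algebraMap B F (b : B) ∈ O := (h.mem_BA _).mp b.2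
  have hbs : algebraMap B F (b : B) = (f : F) * algebraMap B F (s : B) := by rw [hb, hsF]
  have hred : algebraMap Bk Fk (ρ b) = red f * algebraMap Bk Fk (ρ s) := by
    rw [h.rho_red b hbO, h.rho_red s hsO, ← map_mul]
    exact congrArg red (Subtype.ext hbs)
  have hρsF : algebraMap Bk Fk (ρ s) ≠ 0 :=
    (map_ne_zero_iff _ (IsFractionRing.injective Bk Fk)).mpr hρs0
  have hρb0 : ρ b ≠ 0 := by
    intro h0
    rw [h0, map_zero] at hred
    exact mul_ne_zero hf hρsF hred.symm
  have hb0 : (b : B) ≠ 0 := by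
    intro h0
    apply hρb0
    have h1 : b = 0 := Subtype.ext h0
    rw [h1, map_zero]
  have hsF0 : algebraMap B F (s : B) ≠ 0 :=
    (map_ne_zero_iff _ (IsFractionRing.injective B F)).mpr hs0
  have hbF0 : algebraMap B F (b : B) ≠ 0 :=
    (map_ne_zero_iff _ (IsFractionRing.injective B F)).mpr hb0
  have hf0 : (f : F) ≠ 0 := by
    intro h0
    rw [h0, zero_mul] at hbs
    exact hbF0 hbs
  have hord : ∀ w : HeightOneSpectrum B, (Place.ofHeightOneSpectrum (K := L) w).ord (f : F) =
      (Multiset.count w.asIdeal (normalizedFactors (Ideal.span {(b : B)})) : ℤ) -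
        (Multiset.count w.asIdeal (normalizedFactors (Ideal.span {(s : B)})) : ℤ) := by
    intro w
    rw [← cg89_ord_eq_count (K := L) (F := F) w hb0, ← cg89_ord_eq_count (K := L) (F := F) w hs0,
      hbs, Place.ord_mul _ hf0 hsF0]
    ring
  have hordk : (Place.ofHeightOneSpectrum (K := IsLocalRing.ResidueField A) w').ord (red f) =
      (Multiset.count w'.asIdeal (normalizedFactors (Ideal.span {ρ b})) : ℤ) -
        (Multiset.count w'.asIdeal (normalizedFactors (Ideal.span {ρ s})) : ℤ) := by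
    rw [← cg89_ord_eq_count (K := IsLocalRing.ResidueField A) (F := Fk) w' hρb0,
      ← cg89_ord_eq_count (K := IsLocalRing.ResidueField A) (F := Fk) w' hρs0,
      hred, Place.ord_mul _ hf hρsF]
    ring
  set m := normalizedFactors (Ideal.span {(b : B)}) + normalizedFactors (Ideal.span {(s : B)})
    with hm
  have hinj : ∀ T : Set (HeightOneSpectrum B), Set.InjOn HeightOneSpectrum.asIdeal T :=
    fun T a _ b _ hab => HeightOneSpectrum.ext hab
  set W : Finset (HeightOneSpectrum B) :=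
    (m.toFinset.filter (fun I => h48_Red BA ρ I w'.asIdeal)).preimage
      HeightOneSpectrum.asIdeal (hinj _) with hWdef
  have hW : ∀ w, w ∈ W ↔ (w.asIdeal ∈ m ∧ h48_Red BA ρ w.asIdeal w'.asIdeal) := by
    intro w
    rw [hWdef, Finset.mem_preimage, Finset.mem_filter, Multiset.mem_toFinset]
  refine ⟨W, fun w hw => ((hW w).mp hw).2, ?_, ?_⟩
  · intro w hR hne
    rw [hW]
    refine ⟨?_, hR⟩
    by_contra hmem
    rw [hm, Multiset.mem_add, not_or] at hmem
    apply hne
    rw [hord, Multiset.count_eq_zero_of_notMem hmem.1, Multiset.count_eq_zero_of_notMem hmem.2]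
    simp
  · have hcnt : ∀ c : BA, (∀ I ∈ normalizedFactors (Ideal.span {(c : B)}), I ∈ m) →
        Multiset.countP (fun P => h48_Red BA ρ P w'.asIdeal)
          (normalizedFactors (Ideal.span {(c : B)})) =
        ∑ w ∈ W, Multiset.count w.asIdeal (normalizedFactors (Ideal.span {(c : B)})) := by
      intro c hcm
      refine cg89_countP_eq_sum _ _ W HeightOneSpectrum.asIdeal (hinj _)
        (fun w hw => ((hW w).mp hw).2) ?_
      intro I hI hIR
      have hprime : Prime I := UniqueFactorizationMonoid.prime_of_normalized_factor I hI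
      refine ⟨⟨I, Ideal.isPrime_of_prime hprime, hprime.ne_zero⟩, ?_, rfl⟩
      rw [hW]
      exact ⟨hcm I hI, hIR⟩
    have hcb := hcnt b (fun I hI => by rw [hm]; exact Multiset.mem_add.mpr (Or.inl hI))
    have hcs := hcnt s (fun I hI => by rw [hm]; exact Multiset.mem_add.mpr (Or.inr hI))
    rw [hordk, h.core.conservation b hρb0 w'.asIdeal w'.isMaximal,
      h.core.conservation s hρs0 w'.asIdeal w'.isMaximal, hcb, hcs, Nat.cast_sum, Nat.cast_sum,
      ← Finset.sum_sub_distrib]
    exact Finset.sum_congr rfl fun w _ => hord w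

end Chart

section PlaceBasics

variable {K F : Type*} [Field K] [Field F] [Algebra K F]

theorem cg89_mul_mem_nonunits (V : ValuationSubring F) {s t : F} (hs : s ∈ V.nonunits)
    (ht : t ∈ V) : s * t ∈ V.nonunits := by
  rw [ValuationSubring.mem_nonunits_iff_exists_mem_maximalIdeal] at hs ⊢
  obtain ⟨hsV, hsm⟩ := hs
  exact ⟨mul_mem hsV ht, (IsLocalRing.maximalIdeal V).mul_mem_right ⟨t, ht⟩ hsm⟩

theorem cg89_add_mem_nonunits (V : ValuationSubring F) {s t : F} (hs : s ∈ V.nonunits)
    (ht : t ∈ V.nonunits) : s + t ∈ V.nonunits := by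
  rw [ValuationSubring.mem_nonunits_iff_exists_mem_maximalIdeal] at hs ht ⊢
  obtain ⟨hsV, hsm⟩ := hs
  obtain ⟨htV, htm⟩ := ht
  exact ⟨add_mem hsV htV, (IsLocalRing.maximalIdeal V).add_mem hsm htm⟩

theorem cg89_mem_nonunits_of_ord_pos (v : Place K F) {f : F} (h : 0 < v.ord f) :
    f ∈ v.toValuationSubring.nonunits := by
  have hf : f ≠ 0 := by
    rintro rfl
    simp at h
  exact (pp72_mem_nonunits_iff v hf).mpr h

/-- the coordinate of a point is unique -/
theorem cg89_coord_unique (v : Place K F) {y : F} {a a' : K}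
    (h : 0 < v.ord (y - algebraMap K F a)) (h' : 0 < v.ord (y - algebraMap K F a')) : a = a' := by
  by_contra hne
  have h1 := pp72_sub_mem_nonunits _ (cg89_mem_nonunits_of_ord_pos v h')
    (cg89_mem_nonunits_of_ord_pos v h)
  have h2 : y - algebraMap K F a' - (y - algebraMap K F a) = algebraMap K F (a - a') := by
    rw [map_sub]
    ring
  rw [h2] at h1
  exact pp72_algebraMap_notMem_nonunits v (sub_ne_zero.mpr hne) h1

theorem cg89_const_eq_zero (v : Place K F) {y : F} {c : K} (hy : 0 < v.ord y)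
    (h : 0 < v.ord (y - algebraMap K F c)) : c = 0 := by
  have h0 : 0 < v.ord (y - algebraMap K F 0) := by rwa [map_zero, sub_zero]
  exact cg89_coord_unique v h h0

theorem cg89_mem_of_coord (v : Place K F) {y : F} {a : K}
    (h : 0 < v.ord (y - algebraMap K F a)) : y ∈ v.toValuationSubring := by
  have h1 := add_mem (wp1a_mem_of_ord_pos v h) (v.algebraMap_mem' a)
  rwa [sub_add_cancel] at h1

theorem cg89_ord_eq_zero_of_coord (v : Place K F) {y : F} {c : K}
    (h : 0 < v.ord (y - algebraMap K F c)) (hc : c ≠ 0) : y ≠ 0 ∧ v.ord y = 0 := by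
  have hy : y ∉ v.toValuationSubring.nonunits := by
    intro hy
    have h1 := pp72_sub_mem_nonunits _ hy (cg89_mem_nonunits_of_ord_pos v h)
    rw [sub_sub_cancel] at h1
    exact pp72_algebraMap_notMem_nonunits v hc h1
  have hy0 : y ≠ 0 := by
    rintro rfl
    apply hy
    rw [ValuationSubring.mem_nonunits_iff_exists_mem_maximalIdeal]
    exact ⟨zero_mem _, zero_mem _⟩
  refine ⟨hy0, le_antisymm ?_ ((wp1_mem_iff_ord_nonneg v y).mp (cg89_mem_of_coord v h))⟩
  by_contra hlt
  exact hy ((pp72_mem_nonunits_iff v hy0).mpr (not_le.mp hlt))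

/-- the coordinate of a point in the inverse chart -/
theorem cg89_ord_inv_sub (v : Place K F) {y : F} {c : K}
    (h : 0 < v.ord (y - algebraMap K F c)) (hc : c ≠ 0) :
    0 < v.ord (y⁻¹ - algebraMap K F c⁻¹) := by
  obtain ⟨hy0, hy⟩ := cg89_ord_eq_zero_of_coord v h hc
  have hne : y - algebraMap K F c ≠ 0 := by
    intro h0
    rw [h0] at h
    simp at h
  have hcF : algebraMap K F (-c⁻¹) ≠ 0 :=
    (_root_.map_ne_zero _).mpr (neg_ne_zero.mpr (inv_ne_zero hc))
  have hcF' : algebraMap K F c ≠ 0 := (_root_.map_ne_zero _).mpr hc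
  have e : y⁻¹ - algebraMap K F c⁻¹ = (y - algebraMap K F c) * (algebraMap K F (-c⁻¹) * y⁻¹) := by
    rw [map_neg, map_inv₀]
    field_simp
    ring
  rw [e, v.ord_mul hne (mul_ne_zero hcF (inv_ne_zero hy0)), v.ord_mul hcF (inv_ne_zero hy0),
    wp1_ord_algebraMap, v.ord_inv, hy]
  simpa using h

/-- coordinates in the two charts are inverse to each other -/
theorem cg89_coord_mul (v : Place K F) {y : F} (hy0 : y ≠ 0) {a a₂ : K}
    (h : 0 < v.ord (y - algebraMap K F a)) (h₂ : 0 < v.ord (y⁻¹ - algebraMap K F a₂)) :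
    a * a₂ = 1 := by
  by_contra hne
  have h1 : algebraMap K F (1 - a * a₂) =
      (y - algebraMap K F a) * y⁻¹ + (y⁻¹ - algebraMap K F a₂) * algebraMap K F a := by
    rw [map_sub, map_one, map_mul]
    field_simp
    ring
  have h2 : algebraMap K F (1 - a * a₂) ∈ v.toValuationSubring.nonunits := by
    rw [h1]
    exact cg89_add_mem_nonunits _
      (cg89_mul_mem_nonunits _ (cg89_mem_nonunits_of_ord_pos v h) (cg89_mem_of_coord v h₂))
      (cg89_mul_mem_nonunits _ (cg89_mem_nonunits_of_ord_pos v h₂) (v.algebraMap_mem' a))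
  exact pp72_algebraMap_notMem_nonunits v (sub_ne_zero.mpr (Ne.symm hne)) h2

end PlaceBasics

section TwoCharts

variable {L : Type*} [Field L] {A : ValuationSubring L}
  {F : Type*} [Field F] [Algebra L F] {Fk : Type*} [Field Fk]
  [Algebra (IsLocalRing.ResidueField A) Fk]
  {O : Subring F} {red : O →+* Fk} {x : F} {xbar : Fk}
  {B₁ : Type*} [CommRing B₁] [IsDedekindDomain B₁] [Algebra L[X] B₁] [Algebra L B₁]
  [Algebra B₁ F] [IsFractionRing B₁ F] [IsScalarTower L B₁ F]
  {Bk₁ : Type*} [CommRing Bk₁] [IsDedekindDomain Bk₁]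
  [Algebra (IsLocalRing.ResidueField A)[X] Bk₁]
  [Algebra (IsLocalRing.ResidueField A) Bk₁] [Algebra Bk₁ Fk] [IsFractionRing Bk₁ Fk]
  [IsScalarTower (IsLocalRing.ResidueField A) Bk₁ Fk]
  {BA₁ : Subring B₁} {ρ₁ : BA₁ →+* Bk₁}
  {B₂ : Type*} [CommRing B₂] [IsDedekindDomain B₂] [Algebra L[X] B₂] [Algebra L B₂]
  [Algebra B₂ F] [IsFractionRing B₂ F] [IsScalarTower L B₂ F]
  {Bk₂ : Type*} [CommRing Bk₂] [IsDedekindDomain Bk₂]
  [Algebra (IsLocalRing.ResidueField A)[X] Bk₂]
  [Algebra (IsLocalRing.ResidueField A) Bk₂] [Algebra Bk₂ Fk] [IsFractionRing Bk₂ Fk]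
  [IsScalarTower (IsLocalRing.ResidueField A) Bk₂ Fk]
  {BA₂ : Subring B₂} {ρ₂ : BA₂ →+* Bk₂}

variable (A x BA₁ ρ₁ BA₂ ρ₂) in
/-- The reduction relation glued from the two charts: chart 1 (coordinate `x`) where the
coordinate of the point lies in `A`, chart 2 (coordinate `x⁻¹`) elsewhere. -/
def cg89_Rel2 (P : Place L F) (Q : Place (IsLocalRing.ResidueField A) Fk) : Prop :=
  cg89_Rel A BA₁ ρ₁ P Q ∨
    ((¬ ∃ a : A, 0 < P.ord (x - algebraMap L F (a : L))) ∧ cg89_Rel A BA₂ ρ₂ P Q)

/-- In the region of chart 2 the coordinate `x⁻¹` of a point reduces to `0`. -/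
theorem cg89_res_zero_of_not {P : Place L F}
    (hn : ¬ ∃ a : A, 0 < P.ord (x - algebraMap L F (a : L))) (a₂ : A)
    (ha₂ : 0 < P.ord (x⁻¹ - algebraMap L F (a₂ : L))) : IsLocalRing.residue A a₂ = 0 := by
  by_contra hne
  rw [IsLocalRing.residue_eq_zero_iff, IsLocalRing.mem_maximalIdeal, mem_nonunits_iff,
    not_not] at hne
  obtain ⟨u, rfl⟩ := hne
  have hu : ((u : A) : L) * (((u⁻¹ : Aˣ) : A) : L) = 1 := by
    have h1 : (u : A) * ((u⁻¹ : Aˣ) : A) = 1 := u.mul_inv
    exact congrArg Subtype.val h1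
  have hu0 : ((u : A) : L) ≠ 0 := left_ne_zero_of_mul_eq_one hu
  have hinv : (((u⁻¹ : Aˣ) : A) : L) = ((u : A) : L)⁻¹ := eq_inv_of_mul_eq_one_right hu
  have h1 := cg89_ord_inv_sub P ha₂ hu0
  rw [inv_inv, ← hinv] at h1
  exact hn ⟨((u⁻¹ : Aˣ) : A), h1⟩

theorem cg89_total [IsAlgClosed L] (h1 : cg89_Chart A O red x xbar BA₁ ρ₁)
    (h2 : cg89_Chart A O red x⁻¹ xbar⁻¹ BA₂ ρ₂) (P : Place L F) :
    ∃ Q : Place (IsLocalRing.ResidueField A) Fk, cg89_Rel2 A x BA₁ ρ₁ BA₂ ρ₂ P Q := by
  by_cases hP : ∃ a : A, 0 < P.ord (x - algebraMap L F (a : L))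
  · obtain ⟨a, ha⟩ := hP
    obtain ⟨Q, hQ⟩ := cg89_Rel_exists h1 P a ha
    exact ⟨Q, Or.inl hQ⟩
  · have key : ∃ a₂ : A, 0 < P.ord (x⁻¹ - algebraMap L F (a₂ : L)) := by
      by_cases hx : x ∈ P.toValuationSubring
      · obtain ⟨w, rfl⟩ := h1.cover P hx
        have := h1.int
        obtain ⟨c, hc⟩ := cg89_exists_coord (K := L) w
        have hc' := (cg89_mem_iff_ord_pos h1.hX h1.inj w c).mp hc
        have hcA : c ∉ A := fun hcA => hP ⟨⟨c, hcA⟩, hc'⟩
        have hc0 : c ≠ 0 := fun h0 => hcA (h0 ▸ A.zero_mem)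
        have hcinv : c⁻¹ ∈ A := (A.mem_or_inv_mem c).resolve_left hcA
        exact ⟨⟨c⁻¹, hcinv⟩, cg89_ord_inv_sub _ hc' hc0⟩
      · refine ⟨0, ?_⟩
        have h0 : ¬ 0 ≤ P.ord x := fun h0 => hx ((wp1_mem_iff_ord_nonneg P x).mpr h0)
        simp only [ZeroMemClass.coe_zero, map_zero, sub_zero]
        rw [Place.ord_inv]
        omega
    obtain ⟨a₂, ha₂⟩ := key
    obtain ⟨Q, hQ⟩ := cg89_Rel_exists h2 P a₂ ha₂
    exact ⟨Q, Or.inr ⟨hP, hQ⟩⟩

theorem cg89_Rel2_unique [IsAlgClosed L] [IsAlgClosed (IsLocalRing.ResidueField A)]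
    (h1 : cg89_Chart A O red x xbar BA₁ ρ₁) (h2 : cg89_Chart A O red x⁻¹ xbar⁻¹ BA₂ ρ₂)
    {P : Place L F} {Q Q' : Place (IsLocalRing.ResidueField A) Fk}
    (hQ : cg89_Rel2 A x BA₁ ρ₁ BA₂ ρ₂ P Q) (hQ' : cg89_Rel2 A x BA₁ ρ₁ BA₂ ρ₂ P Q') :
    Q = Q' := by
  rcases hQ with hQ | ⟨hn, hQ⟩ <;> rcases hQ' with hQ' | ⟨hn', hQ'⟩
  · exact cg89_Rel_unique h1 hQ hQ'
  · obtain ⟨a, ha, -⟩ := cg89_Rel_coord h1 hQ
    exact absurd ⟨a, ha⟩ hn'
  · obtain ⟨a, ha, -⟩ := cg89_Rel_coord h1 hQ'
    exact absurd ⟨a, ha⟩ hn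
  · exact cg89_Rel_unique h2 hQ hQ'

/-- **The reduction map on places** glued from the two charts. -/
noncomputable def cg89_r0 [IsAlgClosed L] (h1 : cg89_Chart A O red x xbar BA₁ ρ₁)
    (h2 : cg89_Chart A O red x⁻¹ xbar⁻¹ BA₂ ρ₂) (P : Place L F) :
    Place (IsLocalRing.ResidueField A) Fk :=
  (cg89_total h1 h2 P).choose

theorem cg89_r0_spec [IsAlgClosed L] (h1 : cg89_Chart A O red x xbar BA₁ ρ₁)
    (h2 : cg89_Chart A O red x⁻¹ xbar⁻¹ BA₂ ρ₂) (P : Place L F) :
    cg89_Rel2 A x BA₁ ρ₁ BA₂ ρ₂ P (cg89_r0 h1 h2 P) :=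
  (cg89_total h1 h2 P).choose_spec

theorem cg89_r0_eq [IsAlgClosed L] [IsAlgClosed (IsLocalRing.ResidueField A)]
    (h1 : cg89_Chart A O red x xbar BA₁ ρ₁) (h2 : cg89_Chart A O red x⁻¹ xbar⁻¹ BA₂ ρ₂)
    {P : Place L F} {Q : Place (IsLocalRing.ResidueField A) Fk}
    (hQ : cg89_Rel2 A x BA₁ ρ₁ BA₂ ρ₂ P Q) : cg89_r0 h1 h2 P = Q :=
  cg89_Rel2_unique h1 h2 (cg89_r0_spec h1 h2 P) hQ

/-- **(b), finite part.**  A point with coordinate `a ∈ A` reduces to a point with coordinate
`res a`. -/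
theorem cg89_r0_coord [IsAlgClosed L] [IsAlgClosed (IsLocalRing.ResidueField A)]
    (h1 : cg89_Chart A O red x xbar BA₁ ρ₁) (h2 : cg89_Chart A O red x⁻¹ xbar⁻¹ BA₂ ρ₂)
    (P : Place L F) (a : A) (ha : 0 < P.ord (x - algebraMap L F (a : L))) :
    0 < (cg89_r0 h1 h2 P).ord
      (xbar - algebraMap (IsLocalRing.ResidueField A) Fk (IsLocalRing.residue A a)) := by
  rcases cg89_r0_spec h1 h2 P with hR | ⟨hn, -⟩
  · obtain ⟨a', ha', hQ⟩ := cg89_Rel_coord h1 hR
    have e : (a : L) = (a' : L) := cg89_coord_unique P ha ha'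
    have e' : a = a' := Subtype.ext e
    rw [e']
    exact hQ
  · exact absurd ⟨a, ha⟩ hn

/-- **(b), infinite part.**  A point whose coordinate is not in `A` (or is `∞`) reduces to a
pole of `xbar`. -/
theorem cg89_r0_pole [IsAlgClosed L] [IsAlgClosed (IsLocalRing.ResidueField A)]
    (h1 : cg89_Chart A O red x xbar BA₁ ρ₁) (h2 : cg89_Chart A O red x⁻¹ xbar⁻¹ BA₂ ρ₂)
    (P : Place L F) (hP : ¬ ∃ a : A, 0 < P.ord (x - algebraMap L F (a : L))) :
    (cg89_r0 h1 h2 P).ord xbar < 0 := by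
  rcases cg89_r0_spec h1 h2 P with hR | ⟨-, hR⟩
  · obtain ⟨a, ha, -⟩ := cg89_Rel_coord h1 hR
    exact absurd ⟨a, ha⟩ hP
  · obtain ⟨a₂, ha₂, hQ⟩ := cg89_Rel_coord h2 hR
    rw [cg89_res_zero_of_not hP a₂ ha₂, map_zero, sub_zero, Place.ord_inv] at hQ
    omega

/-- (b) in the shape used by the point-level Eichler-Shimura step: poles. -/
theorem cg89_r0_of_pole [IsAlgClosed L] [IsAlgClosed (IsLocalRing.ResidueField A)]
    (h1 : cg89_Chart A O red x xbar BA₁ ρ₁) (h2 : cg89_Chart A O red x⁻¹ xbar⁻¹ BA₂ ρ₂)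
    (P : Place L F) (hP : P.ord x < 0) : (cg89_r0 h1 h2 P).ord xbar < 0 := by
  refine cg89_r0_pole h1 h2 P ?_
  rintro ⟨a, ha⟩
  have h3 := (wp1_mem_iff_ord_nonneg P x).mp (cg89_mem_of_coord P ha)
  omega

/-- (b) in the shape used by the point-level Eichler-Shimura step: non-integral values. -/
theorem cg89_r0_of_notMem [IsAlgClosed L] [IsAlgClosed (IsLocalRing.ResidueField A)]
    (h1 : cg89_Chart A O red x xbar BA₁ ρ₁) (h2 : cg89_Chart A O red x⁻¹ xbar⁻¹ BA₂ ρ₂)
    (P : Place L F) (c : L) (hc : c ∉ A) (hP : 0 < P.ord (x - algebraMap L F c)) :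
    (cg89_r0 h1 h2 P).ord xbar < 0 := by
  refine cg89_r0_pole h1 h2 P ?_
  rintro ⟨a, ha⟩
  exact hc (cg89_coord_unique P hP ha ▸ a.2)

/-- **(a) Conservation of number** (the clause of the Prelude's `IsPlaceReductionAlong`): for
every `f` in the Gauss ring with nonzero reduction, the push-forward of `div f` along the
reduction map is `div (red f)`. -/
theorem cg89_conservation [IsAlgClosed L] [IsAlgClosed (IsLocalRing.ResidueField A)]
    (h1 : cg89_Chart A O red x xbar BA₁ ρ₁) (h2 : cg89_Chart A O red x⁻¹ xbar⁻¹ BA₂ ρ₂)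
    (f : O) (hf : red f ≠ 0) (D : Divisor L F) (hD : ∀ P, D P = P.ord (f : F))
    (Q : Place (IsLocalRing.ResidueField A) Fk) :
    Finsupp.mapDomain (cg89_r0 h1 h2) D Q = Q.ord (red f) := by
  by_cases hQ : xbar ∈ Q.toValuationSubring
  · obtain ⟨w', rfl⟩ := h1.coverk Q hQ
    obtain ⟨W, hW1, hW2, hW3⟩ := cg89_chart_sum h1 f hf w'
    rw [← hW3, cg89_mapDomain_eq_sum (cg89_r0 h1 h2) D _ W
      (Place.ofHeightOneSpectrum (K := L) (F := F))
      (wp1a_ofHeightOneSpectrum_injective.injOn) ?_ ?_]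
    · exact Finset.sum_congr rfl fun w _ => hD _
    · intro w hw
      exact cg89_r0_eq h1 h2 (Or.inl ⟨w, w', rfl, rfl, hW1 w hw⟩)
    · intro P hP hr
      have hspec := cg89_r0_spec h1 h2 P
      rw [hr] at hspec
      rcases hspec with hR | ⟨hn, hR⟩
      · obtain ⟨w, v', rfl, hv', hRed⟩ := hR
        obtain rfl : v' = w' := wp1a_ofHeightOneSpectrum_injective hv'
        exact ⟨w, hW2 w hRed (by rw [← hD]; exact hP), rfl⟩
      · exfalso
        obtain ⟨a₂, ha₂, hQ'⟩ := cg89_Rel_coord h2 hR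
        rw [cg89_res_zero_of_not hn a₂ ha₂, map_zero, sub_zero, Place.ord_inv] at hQ'
        have h3 := (wp1_mem_iff_ord_nonneg _ xbar).mp hQ
        omega
  · have hQ2 : xbar⁻¹ ∈ Q.toValuationSubring :=
      (Q.toValuationSubring.mem_or_inv_mem xbar).resolve_left hQ
    have hQord : 0 < Q.ord xbar⁻¹ := by
      have h0 : ¬ 0 ≤ Q.ord xbar := fun h0 => hQ ((wp1_mem_iff_ord_nonneg Q xbar).mpr h0)
      rw [Place.ord_inv]
      omega
    obtain ⟨w', rfl⟩ := h2.coverk Q hQ2
    obtain ⟨W, hW1, hW2, hW3⟩ := cg89_chart_sum h2 f hf w'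
    rw [← hW3, cg89_mapDomain_eq_sum (cg89_r0 h1 h2) D _ W
      (Place.ofHeightOneSpectrum (K := L) (F := F))
      (wp1a_ofHeightOneSpectrum_injective.injOn) ?_ ?_]
    · exact Finset.sum_congr rfl fun w _ => hD _
    · intro w hw
      have hR : cg89_Rel A BA₂ ρ₂ (Place.ofHeightOneSpectrum (K := L) (F := F) w)
          (Place.ofHeightOneSpectrum (K := IsLocalRing.ResidueField A) (F := Fk) w') :=
        ⟨w, w', rfl, rfl, hW1 w hw⟩
      refine cg89_r0_eq h1 h2 (Or.inr ⟨?_, hR⟩)
      rintro ⟨a, ha⟩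
      obtain ⟨a₂, ha₂, hQ'⟩ := cg89_Rel_coord h2 hR
      have hres : IsLocalRing.residue A a₂ = 0 := cg89_const_eq_zero _ hQord hQ'
      have hmul : (a : L) * (a₂ : L) = 1 := cg89_coord_mul _ (cg89_x_ne_zero h1) ha ha₂
      have hmul' : a * a₂ = 1 := Subtype.ext hmul
      have h3 := congrArg (IsLocalRing.residue A) hmul'
      rw [map_mul, hres, mul_zero, map_one] at h3
      exact zero_ne_one h3
    · intro P hP hr
      have hspec := cg89_r0_spec h1 h2 P
      rw [hr] at hspec
      rcases hspec with hR | ⟨hn, hR⟩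
      · exfalso
        obtain ⟨a, -, ha'⟩ := cg89_Rel_coord h1 hR
        exact hQ (cg89_mem_of_coord _ ha')
      · obtain ⟨w, v', rfl, hv', hRed⟩ := hR
        obtain rfl : v' = w' := wp1a_ofHeightOneSpectrum_injective hv'
        exact ⟨w, hW2 w hRed (by rw [← hD]; exact hP), rfl⟩

end TwoCharts

section Equivariance

open scoped Pointwise

variable {L : Type*} [Field L] {A : ValuationSubring L}
  {F : Type*} [Field F] [Algebra L F] {Fk : Type*} [Field Fk]
  [Algebra (IsLocalRing.ResidueField A) Fk]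
  {O : Subring F} {red : O →+* Fk} {x : F} {xbar : Fk}
  {B : Type*} [CommRing B] [IsDedekindDomain B] [Algebra L[X] B] [Algebra L B]
  [Algebra B F] [IsFractionRing B F] [IsScalarTower L B F]
  {Bk : Type*} [CommRing Bk] [IsDedekindDomain Bk] [Algebra (IsLocalRing.ResidueField A)[X] Bk]
  [Algebra (IsLocalRing.ResidueField A) Bk] [Algebra Bk Fk] [IsFractionRing Bk Fk]
  [IsScalarTower (IsLocalRing.ResidueField A) Bk Fk]
  {BA : Subring B} {ρ : BA →+* Bk}

/-- The coordinate and its reduction: `x ∈ O` and `red x = xbar`. -/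
theorem cg89_red_x (h : cg89_Chart A O red x xbar BA ρ) :
    ∃ hx : x ∈ O, red ⟨x, hx⟩ = xbar := by
  have h0 := h.chart.poly_mem (X : A[X])
  have h1 := (h.mem_BA _).mp h0
  have e1 : algebraMap Bk Fk (ρ ⟨_, h0⟩) = xbar := by
    rw [h.chart.rho_poly, h.hXk, Polynomial.map_X, aeval_X]
  have h2 := h.rho_red ⟨_, h0⟩ h1
  have h3 : algebraMap B F (algebraMap L[X] B (Polynomial.map A.subtype X)) = x := by
    rw [h.hX, Polynomial.map_X, aeval_X]
  have hx : x ∈ O := h3 ▸ h1
  refine ⟨hx, ?_⟩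
  rw [← e1, h2]
  exact congrArg red (Subtype.ext h3.symm)

/-- A semilinear automorphism fixing the coordinate preserves the coordinate ring of the
chart. -/
theorem cg89_smul_mem_range (h : cg89_Chart A O red x xbar BA ρ) (g : SemilinearAut L F)
    (hgx : g • x = x) (b : B) : ∃ b' : B, algebraMap B F b' = g⁻¹ • algebraMap B F b := by
  refine HeightOneSpectrum.mem_integers_of_valuation_le_one F _ fun v => ?_
  have hx : x ∈ (g • Place.ofHeightOneSpectrum (K := L) (F := F) v).toValuationSubring := by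
    rw [SemilinearAut.smul_toValuationSubring, ← hgx]
    exact ValuationSubring.smul_mem_pointwise_smul g x _ (cg89_x_mem h v)
  obtain ⟨v₂, hv₂⟩ := h.cover _ hx
  have h1 := cg89_algebraMap_mem (L := L) (F := F) v₂ b
  rw [hv₂, SemilinearAut.smul_toValuationSubring,
    ValuationSubring.mem_pointwise_smul_iff_inv_smul_mem] at h1
  exact (Valuation.mem_valuationSubring_iff _ _).mp h1

/-- Equivariance of the chart relation. -/
theorem cg89_Rel_smul (h : cg89_Chart A O red x xbar BA ρ) (g : SemilinearAut L F)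
    (gk : SemilinearAut (IsLocalRing.ResidueField A) Fk)
    (hgO : ∀ f : F, g • f ∈ O ↔ f ∈ O)
    (hgred : ∀ (f : O) (hf : g • (f : F) ∈ O), red ⟨g • (f : F), hf⟩ = gk • red f)
    (hgx : g • x = x) {P : Place L F} {Q : Place (IsLocalRing.ResidueField A) Fk}
    (hR : cg89_Rel A BA ρ P Q) : cg89_Rel A BA ρ (g • P) (gk • Q) := by
  obtain ⟨w, w', rfl, rfl, hRed⟩ := hR
  obtain ⟨hxO, hxred⟩ := cg89_red_x h
  have hgkx : gk • xbar = xbar := by
    have h1 := hgred ⟨x, hxO⟩ (by rw [hgx]; exact hxO)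
    rw [hxred] at h1
    rw [← h1, ← hxred]
    exact congrArg red (Subtype.ext hgx)
  have hx : x ∈ (g • Place.ofHeightOneSpectrum (K := L) (F := F) w).toValuationSubring := by
    rw [SemilinearAut.smul_toValuationSubring, ← hgx]
    exact ValuationSubring.smul_mem_pointwise_smul g x _ (cg89_x_mem h w)
  have hxk : xbar ∈ (gk • Place.ofHeightOneSpectrum (K := IsLocalRing.ResidueField A)
      (F := Fk) w').toValuationSubring := by
    rw [SemilinearAut.smul_toValuationSubring, ← hgkx]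
    refine ValuationSubring.smul_mem_pointwise_smul gk xbar _ ?_
    have h1 := cg89_algebraMap_mem (L := IsLocalRing.ResidueField A) (F := Fk) w'
      (algebraMap (IsLocalRing.ResidueField A)[X] Bk X)
    rwa [h.hXk, aeval_X] at h1
  obtain ⟨v, hv⟩ := h.cover _ hx
  obtain ⟨v', hv'⟩ := h.coverk _ hxk
  refine ⟨v, v', hv, hv', ?_⟩
  intro b hb
  by_cases hρb : ρ b = 0
  · rw [hρb]
    exact zero_mem _
  have hb0 : (b : B) ≠ 0 := by
    intro h0
    apply hρb
    have h1 : b = 0 := Subtype.ext h0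
    rw [h1, map_zero]
  have hbO : algebraMap B F (b : B) ∈ O := (h.mem_BA _).mp b.2
  obtain ⟨b', hb'⟩ := cg89_smul_mem_range h g hgx (b : B)
  have hgb' : g • algebraMap B F b' = algebraMap B F (b : B) := by
    rw [hb', smul_inv_smul]
  have hb'O : algebraMap B F b' ∈ O := (hgO _).mp (by rw [hgb']; exact hbO)
  have hb'0 : b' ≠ 0 := by
    rintro rfl
    rw [map_zero, smul_zero] at hgb'
    exact hb0 ((map_eq_zero_iff _ (IsFractionRing.injective B F)).mp hgb'.symm)
  -- `b'` lies in the prime `w`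
  have h1 : 0 < (Place.ofHeightOneSpectrum (K := L) (F := F) v).ord (algebraMap B F (b : B)) :=
    (wp1a_ord_pos_iff (K := L) (F := F) v hb0).mpr hb
  rw [hv, ← hgb', SemilinearAut.ord_smul] at h1
  have hb'w : b' ∈ w.asIdeal := (wp1a_ord_pos_iff (K := L) (F := F) w hb'0).mp h1
  have hb'BA : b' ∈ BA := (h.mem_BA _).mpr hb'O
  have h2 : ρ ⟨b', hb'BA⟩ ∈ w'.asIdeal := hRed ⟨b', hb'BA⟩ hb'w
  -- transport along the reduction
  have h3 : algebraMap Bk Fk (ρ b) = gk • algebraMap Bk Fk (ρ ⟨b', hb'BA⟩) := by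
    rw [h.rho_red b hbO, h.rho_red ⟨b', hb'BA⟩ hb'O, ← hgred ⟨_, hb'O⟩ (by rw [hgb']; exact hbO)]
    exact congrArg red (Subtype.ext hgb'.symm)
  have hρb' : ρ ⟨b', hb'BA⟩ ≠ 0 := by
    intro h0
    rw [h0, map_zero, smul_zero] at h3
    exact hρb ((map_eq_zero_iff _ (IsFractionRing.injective Bk Fk)).mp h3)
  have h4 : 0 < (Place.ofHeightOneSpectrum (K := IsLocalRing.ResidueField A) (F := Fk) w').ord
      (algebraMap Bk Fk (ρ ⟨b', hb'BA⟩)) :=
    (wp1a_ord_pos_iff (K := IsLocalRing.ResidueField A) (F := Fk) w' hρb').mpr h2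
  rw [← SemilinearAut.ord_smul gk, ← h3, ← hv'] at h4
  exact (wp1a_ord_pos_iff (K := IsLocalRing.ResidueField A) (F := Fk) v' hρb).mp h4

open Classical in
/-- **(d) Tube toolkit in place form**, from (T4) of the chart (hypothesis `hT4`): for a point
`P` of the chart with coordinate `a ∈ A`, `res a ∈ G`, there is `f` in the Gauss ring with
nonzero reduction, a simple zero at `P` and no other zero or pole at the points of the chart
whose coordinate lies in `A` and reduces into `G`. -/
theorem cg89_toolkit [IsAlgClosed L] (h : cg89_Chart A O red x xbar BA ρ)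
    (hT4 : ∀ (G : Finset (IsLocalRing.ResidueField A)) (P : Ideal B), P.IsMaximal →
      ∀ a : A, h48_xv P = (a : L) → IsLocalRing.residue A a ∈ G →
      ∃ f : BA, ρ f ≠ 0 ∧ (f : B) ∈ P ∧
        Multiset.count P (normalizedFactors (Ideal.span {(f : B)})) = 1 ∧
        ∀ P' : Ideal B, P'.IsMaximal → P' ≠ P → (f : B) ∈ P' →
          ¬ ∃ a' : A, h48_xv P' = (a' : L) ∧ IsLocalRing.residue A a' ∈ G)
    (G : Finset (IsLocalRing.ResidueField A)) (P : Place L F) (a : A)
    (ha : 0 < P.ord (x - algebraMap L F (a : L))) (haG : IsLocalRing.residue A a ∈ G) :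
    ∃ f : O, red f ≠ 0 ∧ P.ord (f : F) = 1 ∧
      ∀ P' : Place L F, P' ≠ P → ∀ a' : A, 0 < P'.ord (x - algebraMap L F (a' : L)) →
        IsLocalRing.residue A a' ∈ G → P'.ord (f : F) = 0 := by
  have := h.int
  obtain ⟨w, rfl⟩ := h.cover P (cg89_mem_of_coord P ha)
  have hxv : h48_xv w.asIdeal = (a : L) := (cg89_xv_eq_iff h.hX h.inj w (a : L)).mpr ha
  obtain ⟨f, hρf, hfw, hcount, hother⟩ := hT4 G w.asIdeal w.isMaximal a hxv haG
  have hfO : algebraMap B F (f : B) ∈ O := (h.mem_BA _).mp f.2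
  have hf0 : (f : B) ≠ 0 := by
    intro h0
    apply hρf
    have h1 : f = 0 := Subtype.ext h0
    rw [h1, map_zero]
  refine ⟨⟨_, hfO⟩, ?_, ?_, ?_⟩
  · rw [← h.rho_red f hfO]
    exact (map_ne_zero_iff _ (IsFractionRing.injective Bk Fk)).mpr hρf
  · show (Place.ofHeightOneSpectrum (K := L) (F := F) w).ord (algebraMap B F (f : B)) = 1
    rw [cg89_ord_eq_count (K := L) (F := F) w hf0, hcount]
    rfl
  · intro P' hP' a' ha' ha'G
    obtain ⟨w₁, rfl⟩ := h.cover P' (cg89_mem_of_coord P' ha')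
    have hxv' : h48_xv w₁.asIdeal = (a' : L) := (cg89_xv_eq_iff h.hX h.inj w₁ (a' : L)).mpr ha'
    have hne : w₁.asIdeal ≠ w.asIdeal := by
      intro he
      apply hP'
      rw [HeightOneSpectrum.ext he]
    have hnot : (f : B) ∉ w₁.asIdeal := fun hmem =>
      hother w₁.asIdeal w₁.isMaximal hne hmem ⟨a', hxv', ha'G⟩
    exact wp1a_ord_eq_zero_of_notMem (K := L) (F := F) w₁ hnot

end Equivariance

section TwoChartsEquivariance

variable {L : Type*} [Field L] {A : ValuationSubring L}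
  {F : Type*} [Field F] [Algebra L F] {Fk : Type*} [Field Fk]
  [Algebra (IsLocalRing.ResidueField A) Fk]
  {O : Subring F} {red : O →+* Fk} {x : F} {xbar : Fk}
  {B₁ : Type*} [CommRing B₁] [IsDedekindDomain B₁] [Algebra L[X] B₁] [Algebra L B₁]
  [Algebra B₁ F] [IsFractionRing B₁ F] [IsScalarTower L B₁ F]
  {Bk₁ : Type*} [CommRing Bk₁] [IsDedekindDomain Bk₁]
  [Algebra (IsLocalRing.ResidueField A)[X] Bk₁]
  [Algebra (IsLocalRing.ResidueField A) Bk₁] [Algebra Bk₁ Fk] [IsFractionRing Bk₁ Fk]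
  [IsScalarTower (IsLocalRing.ResidueField A) Bk₁ Fk]
  {BA₁ : Subring B₁} {ρ₁ : BA₁ →+* Bk₁}
  {B₂ : Type*} [CommRing B₂] [IsDedekindDomain B₂] [Algebra L[X] B₂] [Algebra L B₂]
  [Algebra B₂ F] [IsFractionRing B₂ F] [IsScalarTower L B₂ F]
  {Bk₂ : Type*} [CommRing Bk₂] [IsDedekindDomain Bk₂]
  [Algebra (IsLocalRing.ResidueField A)[X] Bk₂]
  [Algebra (IsLocalRing.ResidueField A) Bk₂] [Algebra Bk₂ Fk] [IsFractionRing Bk₂ Fk]
  [IsScalarTower (IsLocalRing.ResidueField A) Bk₂ Fk]
  {BA₂ : Subring B₂} {ρ₂ : BA₂ →+* Bk₂}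

/-- **(c) Equivariance of the reduction map**: for a semilinear automorphism `g` of `F` and a
semilinear automorphism `gk` of `Fk` such that `g` preserves the Gauss ring, fixes the
coordinate, preserves `A` on constants and `red ∘ g = gk ∘ red`:
`r0 (g • P) = gk • r0 P`. -/
theorem cg89_r0_smul [IsAlgClosed L] [IsAlgClosed (IsLocalRing.ResidueField A)]
    (h1 : cg89_Chart A O red x xbar BA₁ ρ₁) (h2 : cg89_Chart A O red x⁻¹ xbar⁻¹ BA₂ ρ₂)
    (g : SemilinearAut L F) (gk : SemilinearAut (IsLocalRing.ResidueField A) Fk)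
    (hgO : ∀ f : F, g • f ∈ O ↔ f ∈ O)
    (hgred : ∀ (f : O) (hf : g • (f : F) ∈ O), red ⟨g • (f : F), hf⟩ = gk • red f)
    (hgx : g • x = x) (hgA : ∀ a : L, SemilinearAut.baseAut g a ∈ A ↔ a ∈ A)
    (P : Place L F) : cg89_r0 h1 h2 (g • P) = gk • cg89_r0 h1 h2 P := by
  refine cg89_r0_eq h1 h2 ?_
  rcases cg89_r0_spec h1 h2 P with hR | ⟨hn, hR⟩
  · exact Or.inl (cg89_Rel_smul h1 g gk hgO hgred hgx hR)
  · refine Or.inr ⟨?_, cg89_Rel_smul h2 g gk hgO hgred (by rw [smul_inv'', hgx]) hR⟩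
    rintro ⟨a, ha⟩
    apply hn
    have ha' : (SemilinearAut.baseAut g).symm (a : L) ∈ A :=
      (hgA _).mp (by rw [RingEquiv.apply_symm_apply]; exact a.2)
    refine ⟨⟨_, ha'⟩, ?_⟩
    have e : x - algebraMap L F (a : L) =
        g • (x - algebraMap L F ((SemilinearAut.baseAut g).symm (a : L))) := by
      rw [smul_sub, hgx, SemilinearAut.smul_algebraMap, RingEquiv.apply_symm_apply]
    rw [e, SemilinearAut.ord_smul] at ha
    exact ha

end TwoChartsEquivariance

end Fermat.Agent.S37
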