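import Fermat.Agent.S37.ChartGlue89
import Fermat.Agent.S37.ChartCore48

/-!
# S37, row RC-GLUE (helper89): the glue on top of the chart core `ChartCore48`

Adapter between helper48's `ChartCore48` (theorems (T0)-(T4) of a chart, proved from
`h48_Chart`) and the two-chart gluing `ChartGlue89`:

* `cg89_core_of_chart` : `h48_Chart A BA ρ → cg89_Core A BA ρ`;
* `cg89_chart_mk` : the package `cg89_Chart` from the chart data and the place dictionary only
  (injectivity, integrality and the core are derived from the instances of `ChartCore48`);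
* `cg89_tube` : the tube toolkit (d) in place form, with (T4) discharged.
-/

set_option autoImplicit false

open Polynomial AlgebraicCurve IsDedekindDomain UniqueFactorizationMonoid

namespace Fermat.Agent.S37

section Adapter

variable {L : Type*} [Field L] [IsAlgClosed L] {A : ValuationSubring L}
  [IsAlgClosed (IsLocalRing.ResidueField A)]
variable {B : Type*} [CommRing B] [IsDedekindDomain B] [Algebra L[X] B]
  [Module.Finite L[X] B] [Module.IsTorsionFree L[X] B]
variable {Bk : Type*} [CommRing Bk] [IsDedekindDomain Bk]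
  [Algebra (IsLocalRing.ResidueField A)[X] Bk]
  [Module.Finite (IsLocalRing.ResidueField A)[X] Bk]
  [Module.IsTorsionFree (IsLocalRing.ResidueField A)[X] Bk]
variable {BA : Subring B} {ρ : BA →+* Bk}

/-- The core hypotheses of the glue from the chart core. -/
theorem cg89_core_of_chart (h : h48_Chart A BA ρ) : cg89_Core A BA ρ where
  exists_red P hP hxv := by
    obtain ⟨Q, hQ, hR⟩ := h48_exists_red h hP (α := ⟨h48_xv P, hxv⟩) rfl
    exact ⟨Q, ⟨hQ, hR⟩, fun Q' hQ' => h48_red_unique h hP hQ'.1 hQ hQ'.2 hR⟩
  red_tube P Q hP hQ hR := h48_red_tube h hP hQ.ne_top hR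
  conservation b hb Q hQ := h48_conservation h b hb hQ

variable {F : Type*} [Field F] [Algebra L F] {Fk : Type*} [Field Fk]
  [Algebra (IsLocalRing.ResidueField A) Fk]
  [Algebra L B] [Algebra B F] [IsFractionRing B F] [IsScalarTower L B F]
  [Algebra (IsLocalRing.ResidueField A) Bk] [Algebra Bk Fk] [IsFractionRing Bk Fk]
  [IsScalarTower (IsLocalRing.ResidueField A) Bk Fk]
  {O : Subring F} {red : O →+* Fk} {x : F} {xbar : Fk}

/-- The chart package of the glue from the chart data and the place dictionary. -/
theorem cg89_chart_mk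
    (hX : ∀ p : L[X], algebraMap B F (algebraMap L[X] B p) = aeval x p)
    (hXk : ∀ p : (IsLocalRing.ResidueField A)[X],
      algebraMap Bk Fk (algebraMap (IsLocalRing.ResidueField A)[X] Bk p) = aeval xbar p)
    (mem_BA : ∀ b : B, b ∈ BA ↔ algebraMap B F b ∈ O)
    (rho_red : ∀ (b : BA) (hb : algebraMap B F (b : B) ∈ O),
      algebraMap Bk Fk (ρ b) = red ⟨algebraMap B F (b : B), hb⟩)
    (cover : ∀ v : Place L F, x ∈ v.toValuationSubring →
      ∃ w : HeightOneSpectrum B, Place.ofHeightOneSpectrum (K := L) w = v)
    (coverk : ∀ v : Place (IsLocalRing.ResidueField A) Fk, xbar ∈ v.toValuationSubring →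
      ∃ w : HeightOneSpectrum Bk,
        Place.ofHeightOneSpectrum (K := IsLocalRing.ResidueField A) w = v)
    (chart : h48_Chart A BA ρ) : cg89_Chart A O red x xbar BA ρ where
  hX := hX
  hXk := hXk
  inj := h48_algebraMap_injective
  injk := h48_algebraMap_injective
  int := inferInstance
  intk := inferInstance
  mem_BA := mem_BA
  rho_red := rho_red
  cover := cover
  coverk := coverk
  chart := chart
  core := cg89_core_of_chart chart

/-- **(d) Tube toolkit in place form**, with (T4) of the chart core discharged. -/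
theorem cg89_tube (h : cg89_Chart A O red x xbar BA ρ)
    (G : Finset (IsLocalRing.ResidueField A)) (P : Place L F) (a : A)
    (ha : 0 < P.ord (x - algebraMap L F (a : L))) (haG : IsLocalRing.residue A a ∈ G) :
    ∃ f : O, red f ≠ 0 ∧ P.ord (f : F) = 1 ∧
      ∀ P' : Place L F, P' ≠ P → ∀ a' : A, 0 < P'.ord (x - algebraMap L F (a' : L)) →
        IsLocalRing.residue A a' ∈ G → P'.ord (f : F) = 0 :=
  cg89_toolkit h (fun G _ hP _ ha _ => h48_toolkit h.chart G hP ha) G P a ha haG

end Adapter

end Fermat.Agent.S37
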