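import Fermat.Agent.S37.ChartModInst31
import Fermat.Agent.S37.ChartFactsA93
import Fermat.Agent.S37.ChartGlueInst89

/-!
# S37, row RC-INST (helper31, second seat): the reduction map on places, hypothesis-free

The composition of the whole RC chain at a level `M` divisible by `p₀ ∈ {2, 3}` and prime to
`ℓ`, for a valuation subring `A` of `ℚ̄` over `ℓ`:

* chart normality `cf93_normalA_level2 / 3` (helper93, from the S18 smooth models),
* the four Hauptmodul charts `ci31_chart_ka` (`ChartModInst31`),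
* the two-chart gluing `cg89_exists_reduction` (helper89).

Result: `ci31_reduction_h2`, `ci31_reduction_h3` : a map `r0` on places of `F(M)` with
`cg89_Reduction A (ga41_V M A hM) (cm80_red M A hM) h r0` (conservation of number, coordinate of
the reduction, equivariance, tube functions), `h` the Hauptmodul of level `p₀`.
`ci31_reduction_ka` is the same statement for any pair of inverse integer chart coordinates with
chart normality as a hypothesis.
-/

set_option autoImplicit false
set_option linter.style.haveILetI false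

open ModularCurve IntermediateField Polynomial AlgebraicCurve

namespace Fermat.Agent.S37

open Fermat.Agent.S18 Fermat.Agent.S28

local notation "Qb" => AlgebraicClosure ℚ

section ci31_free

variable (M : ℕ) [NeZero M] (A : ValuationSubring Qb)
  (hM : (M : IsLocalRing.ResidueField A) ≠ 0)

/-- The coordinates `h₂` and `1/h₂` are inverse to each other in the Gauss ring. -/
theorem ci31_h2_mul_inv (h2 : 2 ∣ M) :
    cm80_xV M A (h70_h2 ℤ) hM (cm80_h2_memF M h2) *
      cm80_xV M A (h70_h2inv ℤ) hM (cm80_h2inv_memF M h2) = 1 := by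
  apply Subtype.ext
  show cm80_xF M (h70_h2 ℤ) (cm80_h2_memF M h2) *
    cm80_xF M (h70_h2inv ℤ) (cm80_h2inv_memF M h2) = 1
  rw [cm80_h2inv_eq_inv M h2]
  refine mul_inv_cancel₀ (fun h0 => ?_)
  have h1 : ka46_g Qb (h70_h2 ℤ) = 0 := congrArg Subtype.val h0
  rw [cm80_g_h2] at h1
  exact (h70_h2_isUnit Qb).ne_zero h1

/-- The coordinates `h₃` and `1/h₃` are inverse to each other in the Gauss ring. -/
theorem ci31_h3_mul_inv (h3 : 3 ∣ M) :
    cm80_xV M A (h34_h3R ℤ) hM (cm80_h3_memF M h3) *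
      cm80_xV M A (h34_h3Rinv ℤ) hM (cm80_h3inv_memF M h3) = 1 := by
  apply Subtype.ext
  show cm80_xF M (h34_h3R ℤ) (cm80_h3_memF M h3) *
    cm80_xF M (h34_h3Rinv ℤ) (cm80_h3inv_memF M h3) = 1
  rw [cm80_h3inv_eq_inv M h3]
  refine mul_inv_cancel₀ (fun h0 => ?_)
  have h1 : ka46_g Qb (h34_h3R ℤ) = 0 := congrArg Subtype.val h0
  rw [cm80_g_h3] at h1
  exact (h34_h3R_isUnit Qb).ne_zero h1

end ci31_free

section ci31_reduction

variable (M : ℕ) [NeZero M] (A : ValuationSubring Qb)
  (hM : (M : IsLocalRing.ResidueField A) ≠ 0)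

/-- **The reduction map on places of `F(M)`** from two inverse integer chart coordinates
`g`, `g'` (with `j ∈ ℚ̄(g)`) and chart normality for both. -/
theorem ci31_reduction_ka (g g' : LaurentSeries ℤ)
    (hgF : ka46_g Qb g ∈ modularFunctionFieldBar M)
    (hgk : ka46_g (IsLocalRing.ResidueField A) g ∈
      modularFunctionFieldFullC (IsLocalRing.ResidueField A) M)
    (htr : Transcendental (IsLocalRing.ResidueField A) (ka46_g (IsLocalRing.ResidueField A) g))
    (hjx : cm80_xF M (jqModC ℤ) (cm80_j_memF M) ∈ Qb⟮cm80_xF M g hgF⟯)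
    (hg'F : ka46_g Qb g' ∈ modularFunctionFieldBar M)
    (hg'k : ka46_g (IsLocalRing.ResidueField A) g' ∈
      modularFunctionFieldFullC (IsLocalRing.ResidueField A) M)
    (htr' : Transcendental (IsLocalRing.ResidueField A)
      (ka46_g (IsLocalRing.ResidueField A) g'))
    (hjx' : cm80_xF M (jqModC ℤ) (cm80_j_memF M) ∈ Qb⟮cm80_xF M g' hg'F⟯)
    (hmul : cm80_xV M A g hM hgF * cm80_xV M A g' hM hg'F = 1)
    (hnorm : ka46_NormalAt A.subtype (IsLocalRing.residue A) M g)
    (hnorm' : ka46_NormalAt A.subtype (IsLocalRing.residue A) M g') :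
    ∃ r0 : Place Qb ↥(modularFunctionFieldBar M) →
        Place (IsLocalRing.ResidueField A)
          ↥(modularFunctionFieldFullC (IsLocalRing.ResidueField A) M),
      cg89_Reduction A (ga41_V M A hM) (cm80_red M A hM) (cm80_xV M A g hM hgF) r0 := by
  haveI := rc5_isAlgClosed_residueField A
  have hx := cm80_red_xV_transcendental M A g hM hgF hgk htr
  have hy := cm80_red_xV_transcendental M A g' hM hg'F hg'k htr'
  haveI := cm80_isSeparable_k M A hM g hgF hgk htr hjx
  haveI := cm80_finiteDimensional_k M A hM g hgF hgk htr hjx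
  haveI := cm80_isSeparable_k M A hM g' hg'F hg'k htr' hjx'
  haveI := cm80_finiteDimensional_k M A hM g' hg'F hg'k htr' hjx'
  haveI : FiniteDimensional ↥(Qb⟮((cm80_xV M A g hM hgF : ↥(ga41_V M A hM)) :
      ↥(modularFunctionFieldBar M))⟯) ↥(modularFunctionFieldBar M) :=
    (ga41_chart_finite M A hM (cm80_xV M A g hM hgF) hx (by rw [ci31_jF_eq]; exact hjx)).1
  haveI : FiniteDimensional ↥(Qb⟮((cm80_xV M A g' hM hg'F : ↥(ga41_V M A hM)) :
      ↥(modularFunctionFieldBar M))⟯) ↥(modularFunctionFieldBar M) :=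
    (ga41_chart_finite M A hM (cm80_xV M A g' hM hg'F) hy (by rw [ci31_jF_eq]; exact hjx')).1
  obtain ⟨hintx, hchartx⟩ := ci31_chart_ka M A hM g hgF hgk htr hjx hnorm
  obtain ⟨hinty, hcharty⟩ := ci31_chart_ka M A hM g' hg'F hg'k htr' hjx' hnorm'
  exact cg89_exists_reduction (cm80_red M A hM) (cm80_xV M A g hM hgF)
    (cm80_xV M A g' hM hg'F) hmul
    (ci31_transcendental (cm80_red M A hM) (cm80_hAO M A hM) (cm80_hcompat M A hM) _ hx) hx
    hintx hinty hchartx hcharty

/-- **The reduction map at a level `M` divisible by `2`**, `ℓ ∤ M`: two-chart gluing along the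
Hauptmodul `h₂`, hypothesis-free. -/
theorem ci31_reduction_h2 (h2 : 2 ∣ M) {ℓ : ℕ} (hℓ : ℓ.Prime) (hA : A.LiesOverPrime ℓ)
    (hℓM : ¬ ℓ ∣ M) :
    ∃ r0 : Place Qb ↥(modularFunctionFieldBar M) →
        Place (IsLocalRing.ResidueField A)
          ↥(modularFunctionFieldFullC (IsLocalRing.ResidueField A) M),
      cg89_Reduction A (ga41_V M A hM) (cm80_red M A hM)
        (cm80_xV M A (h70_h2 ℤ) hM (cm80_h2_memF M h2)) r0 := by
  have hcop : Nat.Coprime M ℓ := ((Nat.Prime.coprime_iff_not_dvd hℓ).mpr hℓM).symm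
  have hnorm := cf93_normalA_level2 A hℓ.ne_zero hA M hcop h2
  have hk : (2 : IsLocalRing.ResidueField A) ≠ 0 := by
    exact_mod_cast ci31_ne_zero_of_dvd M A hM h2
  exact ci31_reduction_ka M A hM (h70_h2 ℤ) (h70_h2inv ℤ) (cm80_h2_memF M h2)
    (cm80_h2_memk M h2 _ hk) (cm80_h2_tr _) (cm80_h2_jmem M h2) (cm80_h2inv_memF M h2)
    (cm80_h2inv_memk M h2 _ hk) (cm80_h2inv_tr _) (cm80_h2inv_jmem M h2)
    (ci31_h2_mul_inv M A hM h2) hnorm.1 hnorm.2

/-- **The reduction map at a level `M` divisible by `3`**, `ℓ ∤ M`: two-chart gluing along the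
Hauptmodul `h₃`, hypothesis-free. -/
theorem ci31_reduction_h3 (h3 : 3 ∣ M) {ℓ : ℕ} (hℓ : ℓ.Prime) (hA : A.LiesOverPrime ℓ)
    (hℓM : ¬ ℓ ∣ M) :
    ∃ r0 : Place Qb ↥(modularFunctionFieldBar M) →
        Place (IsLocalRing.ResidueField A)
          ↥(modularFunctionFieldFullC (IsLocalRing.ResidueField A) M),
      cg89_Reduction A (ga41_V M A hM) (cm80_red M A hM)
        (cm80_xV M A (h34_h3R ℤ) hM (cm80_h3_memF M h3)) r0 := by
  have hcop : Nat.Coprime M ℓ := ((Nat.Prime.coprime_iff_not_dvd hℓ).mpr hℓM).symm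
  have hnorm := cf93_normalA_level3 A hℓ.ne_zero hA M hcop h3
  have hk : (3 : IsLocalRing.ResidueField A) ≠ 0 := by
    exact_mod_cast ci31_ne_zero_of_dvd M A hM h3
  exact ci31_reduction_ka M A hM (h34_h3R ℤ) (h34_h3Rinv ℤ) (cm80_h3_memF M h3)
    (cm80_h3_memk M h3 _ hk) (cm80_h3_tr _) (cm80_h3_jmem M h3) (cm80_h3inv_memF M h3)
    (cm80_h3inv_memk M h3 _ hk) (cm80_h3inv_tr _) (cm80_h3inv_jmem M h3)
    (ci31_h3_mul_inv M A hM h3) hnorm.1 hnorm.2

end ci31_reduction

end Fermat.Agent.S37
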