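import Fermat.Agent.S37.GaussBasis41
import Fermat.Agent.S37.ChartChange62

/-!
# S37, row GA (helper41), part 5: `(I1)` for an arbitrary chart coordinate of `F_N`

`N` a level, `A` a valuation subring of `ℚ̄` with residue field `k`, `(N : k) ≠ 0`,
`(V, red) = (ga41_V N A hN, ga41_redV N A hN)` the Gauss place of `F = F_{N,ℚ̄}`.  For every
`x ∈ V` whose reduction is transcendental over `k` and with `j ∈ ℚ̄(x)`
(e.g. a Hauptmodul `h` of level `2` or `3`, or `1/h`, or `j` itself):

* `ga41_chart_basis` : a family in `V` whose reductions form a `k(red x)`-basis of `F_k`, and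
  `[F_k : k(red x)] = [F : ℚ̄(x)]` — the hypotheses `(b, hcard, bκ, hbκ)` of `nm62_norm_red`;
* `ga41_chart_finite` : both extensions are finite;
* `ga41_chart_red` : the residue map `V ∩ ℚ̄(x) → k(red x)` (`= cc62_red`), surjective, killing
  the non-units;
* `ga41_chart_norm_red`, `ga41_chart_trace_red`, `ga41_chart_charpoly_red` : norm, trace and
  characteristic polynomial to the chart commute with reduction.

Everything is helper62's `ChartChange62` applied to `ga41_basisV`.
-/

set_option autoImplicit false
set_option synthInstance.maxHeartbeats 400000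

open ModularCurve IntermediateField

namespace Fermat.Agent.S37

open Fermat.Agent.S18 Fermat.Agent.S28

section Chart

variable (N : ℕ) [NeZero N] (A : ValuationSubring (AlgebraicClosure ℚ))
  (hN : (N : IsLocalRing.ResidueField A) ≠ 0)

/-- **`(I1)` for the chart `x`.** -/
theorem ga41_chart_basis (x : ↥(ga41_V N A hN))
    (hx : Transcendental (IsLocalRing.ResidueField A) (ga41_redV N A hN x))
    (hjx : ga41_jF N ∈
      IntermediateField.adjoin (AlgebraicClosure ℚ) {(x : ↥(modularFunctionFieldBar N))}) :
    ∃ (c : Fin (Module.finrank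
          (IntermediateField.adjoin (IsLocalRing.ResidueField A) {ga41_redV N A hN x})
          ↥(modularFunctionFieldFullC (IsLocalRing.ResidueField A) N)) → ↥(ga41_V N A hN))
      (bκ : Module.Basis (Fin (Module.finrank
          (IntermediateField.adjoin (IsLocalRing.ResidueField A) {ga41_redV N A hN x})
          ↥(modularFunctionFieldFullC (IsLocalRing.ResidueField A) N)))
        (IntermediateField.adjoin (IsLocalRing.ResidueField A) {ga41_redV N A hN x})
        ↥(modularFunctionFieldFullC (IsLocalRing.ResidueField A) N)),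
      (∀ i, bκ i = ga41_redV N A hN (c i)) ∧
        Module.finrank
          (IntermediateField.adjoin (IsLocalRing.ResidueField A) {ga41_redV N A hN x})
          ↥(modularFunctionFieldFullC (IsLocalRing.ResidueField A) N) =
        Module.finrank
          (IntermediateField.adjoin (AlgebraicClosure ℚ) {(x : ↥(modularFunctionFieldBar N))})
          ↥(modularFunctionFieldBar N) := by
  have H := ga41_basisV N A hN
  have h0 := @cc62_main (AlgebraicClosure ℚ) ↥(modularFunctionFieldBar N)
    (IsLocalRing.ResidueField A) ↥(modularFunctionFieldFullC (IsLocalRing.ResidueField A) N)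
    _ _ _ _ _ _ A (ga41_V N A hN) (IsLocalRing.residue A) (ga41_redV N A hN) (ga41_hAO N A hN)
    (ga41_hcompat N A hN) (ga41_hOA N A hN) (ga41_hunit N A hN) (ga41_hsurj A)
    (ga41_jV N A hN) x (ga41_transcendental_redV_jV N A hN) hx hjx (Fin (dedekindPsi N)) _
  exact Exists.elim H fun b H1 => Exists.elim H1 fun bκ H2 => h0 b H2.1 bκ H2.2

/-- Both sides are finite over the chart `x`. -/
theorem ga41_chart_finite (x : ↥(ga41_V N A hN))
    (hx : Transcendental (IsLocalRing.ResidueField A) (ga41_redV N A hN x))
    (hjx : ga41_jF N ∈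
      IntermediateField.adjoin (AlgebraicClosure ℚ) {(x : ↥(modularFunctionFieldBar N))}) :
    FiniteDimensional
        (IntermediateField.adjoin (AlgebraicClosure ℚ) {(x : ↥(modularFunctionFieldBar N))})
        ↥(modularFunctionFieldBar N) ∧
      FiniteDimensional
        (IntermediateField.adjoin (IsLocalRing.ResidueField A) {ga41_redV N A hN x})
        ↥(modularFunctionFieldFullC (IsLocalRing.ResidueField A) N) := by
  have H := ga41_basisV N A hN
  have h0 := @cc62_finite (AlgebraicClosure ℚ) ↥(modularFunctionFieldBar N)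
    (IsLocalRing.ResidueField A) ↥(modularFunctionFieldFullC (IsLocalRing.ResidueField A) N)
    _ _ _ _ _ _ A (ga41_V N A hN) (IsLocalRing.residue A) (ga41_redV N A hN) (ga41_hAO N A hN)
    (ga41_hcompat N A hN) (ga41_hOA N A hN) (ga41_hunit N A hN) (ga41_hsurj A)
    (ga41_jV N A hN) x (ga41_transcendental_redV_jV N A hN) hx hjx (Fin (dedekindPsi N)) _
  exact Exists.elim H fun b H1 => Exists.elim H1 fun bκ H2 => h0 b H2.1 bκ H2.2

/-- **The residue map of the chart `ℚ̄(x)`**: `V ∩ ℚ̄(x) → k(red x)`. -/
noncomputable def ga41_chart_red (x : ↥(ga41_V N A hN))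
    (hx : Transcendental (IsLocalRing.ResidueField A) (ga41_redV N A hN x)) :
    ↥((ga41_V N A hN).comap (algebraMap
        ↥(IntermediateField.adjoin (AlgebraicClosure ℚ) {(x : ↥(modularFunctionFieldBar N))})
        ↥(modularFunctionFieldBar N))) →+*
      ↥(IntermediateField.adjoin (IsLocalRing.ResidueField A) {ga41_redV N A hN x}) :=
  cc62_red (IsLocalRing.residue A) (ga41_redV N A hN) (ga41_hAO N A hN)
    (ga41_hcompat N A hN) (ga41_hOA N A hN) (ga41_hunit N A hN) x hx

theorem ga41_chart_red_coe (x : ↥(ga41_V N A hN))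
    (hx : Transcendental (IsLocalRing.ResidueField A) (ga41_redV N A hN x))
    (y : ↥(IntermediateField.adjoin (AlgebraicClosure ℚ) {(x : ↥(modularFunctionFieldBar N))}))
    (hy : y ∈ (ga41_V N A hN).comap (algebraMap
        ↥(IntermediateField.adjoin (AlgebraicClosure ℚ) {(x : ↥(modularFunctionFieldBar N))})
        ↥(modularFunctionFieldBar N))) :
    ((ga41_chart_red N A hN x hx ⟨y, hy⟩ :
        ↥(IntermediateField.adjoin (IsLocalRing.ResidueField A) {ga41_redV N A hN x})) :
      ↥(modularFunctionFieldFullC (IsLocalRing.ResidueField A) N)) =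
      ga41_redV N A hN ⟨(y : ↥(modularFunctionFieldBar N)), hy⟩ := rfl

theorem ga41_chart_red_surjective (x : ↥(ga41_V N A hN))
    (hx : Transcendental (IsLocalRing.ResidueField A) (ga41_redV N A hN x)) :
    Function.Surjective (ga41_chart_red N A hN x hx) :=
  cc62_red_surjective (IsLocalRing.residue A) (ga41_redV N A hN) (ga41_hAO N A hN)
    (ga41_hcompat N A hN) (ga41_hOA N A hN) (ga41_hunit N A hN) (ga41_hsurj A) x hx

/-- The chart residue map kills the non-units (`hm` of `nm62_norm_red`). -/
theorem ga41_chart_red_eq_zero (x : ↥(ga41_V N A hN))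
    (hx : Transcendental (IsLocalRing.ResidueField A) (ga41_redV N A hN x))
    (y : ↥((ga41_V N A hN).comap (algebraMap
        ↥(IntermediateField.adjoin (AlgebraicClosure ℚ) {(x : ↥(modularFunctionFieldBar N))})
        ↥(modularFunctionFieldBar N))))
    (hy : (y : ↥(IntermediateField.adjoin (AlgebraicClosure ℚ)
        {(x : ↥(modularFunctionFieldBar N))}))⁻¹ ∉ (ga41_V N A hN).comap (algebraMap
        ↥(IntermediateField.adjoin (AlgebraicClosure ℚ) {(x : ↥(modularFunctionFieldBar N))})
        ↥(modularFunctionFieldBar N))) :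
    ga41_chart_red N A hN x hx y = 0 :=
  cc62_red_eq_zero (IsLocalRing.residue A) (ga41_redV N A hN) (ga41_hAO N A hN)
    (ga41_hcompat N A hN) (ga41_hOA N A hN) (ga41_hunit N A hN) x hx y hy

/-- **Norm to the chart `ℚ̄(x)` commutes with reduction.** -/
theorem ga41_chart_norm_red (x : ↥(ga41_V N A hN))
    (hx : Transcendental (IsLocalRing.ResidueField A) (ga41_redV N A hN x))
    (hjx : ga41_jF N ∈
      IntermediateField.adjoin (AlgebraicClosure ℚ) {(x : ↥(modularFunctionFieldBar N))})
    (f : ↥(ga41_V N A hN)) :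
    ∃ n : ↥((ga41_V N A hN).comap (algebraMap
        ↥(IntermediateField.adjoin (AlgebraicClosure ℚ) {(x : ↥(modularFunctionFieldBar N))})
        ↥(modularFunctionFieldBar N))),
      (n : ↥(IntermediateField.adjoin (AlgebraicClosure ℚ)
          {(x : ↥(modularFunctionFieldBar N))})) =
        Algebra.norm ↥(IntermediateField.adjoin (AlgebraicClosure ℚ)
          {(x : ↥(modularFunctionFieldBar N))}) (f : ↥(modularFunctionFieldBar N)) ∧
      ga41_chart_red N A hN x hx n =
        Algebra.norm ↥(IntermediateField.adjoin (IsLocalRing.ResidueField A)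
          {ga41_redV N A hN x}) (ga41_redV N A hN f) := by
  have H := ga41_basisV N A hN
  have h0 := @cc62_norm_red (AlgebraicClosure ℚ) ↥(modularFunctionFieldBar N)
    (IsLocalRing.ResidueField A) ↥(modularFunctionFieldFullC (IsLocalRing.ResidueField A) N)
    _ _ _ _ _ _ A (ga41_V N A hN) (IsLocalRing.residue A) (ga41_redV N A hN) (ga41_hAO N A hN)
    (ga41_hcompat N A hN) (ga41_hOA N A hN) (ga41_hunit N A hN) (ga41_hsurj A)
    (ga41_jV N A hN) x (ga41_transcendental_redV_jV N A hN) hx hjx (Fin (dedekindPsi N)) _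
  exact Exists.elim H fun b H1 => Exists.elim H1 fun bκ H2 => h0 b H2.1 bκ H2.2 f

/-- **Trace to the chart `ℚ̄(x)` commutes with reduction.** -/
theorem ga41_chart_trace_red (x : ↥(ga41_V N A hN))
    (hx : Transcendental (IsLocalRing.ResidueField A) (ga41_redV N A hN x))
    (hjx : ga41_jF N ∈
      IntermediateField.adjoin (AlgebraicClosure ℚ) {(x : ↥(modularFunctionFieldBar N))})
    (f : ↥(ga41_V N A hN)) :
    ∃ t : ↥((ga41_V N A hN).comap (algebraMap
        ↥(IntermediateField.adjoin (AlgebraicClosure ℚ) {(x : ↥(modularFunctionFieldBar N))})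
        ↥(modularFunctionFieldBar N))),
      (t : ↥(IntermediateField.adjoin (AlgebraicClosure ℚ)
          {(x : ↥(modularFunctionFieldBar N))})) =
        Algebra.trace ↥(IntermediateField.adjoin (AlgebraicClosure ℚ)
          {(x : ↥(modularFunctionFieldBar N))}) ↥(modularFunctionFieldBar N)
          (f : ↥(modularFunctionFieldBar N)) ∧
      ga41_chart_red N A hN x hx t =
        Algebra.trace ↥(IntermediateField.adjoin (IsLocalRing.ResidueField A)
          {ga41_redV N A hN x}) ↥(modularFunctionFieldFullC (IsLocalRing.ResidueField A) N)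
          (ga41_redV N A hN f) := by
  have H := ga41_basisV N A hN
  have h0 := @cc62_trace_red (AlgebraicClosure ℚ) ↥(modularFunctionFieldBar N)
    (IsLocalRing.ResidueField A) ↥(modularFunctionFieldFullC (IsLocalRing.ResidueField A) N)
    _ _ _ _ _ _ A (ga41_V N A hN) (IsLocalRing.residue A) (ga41_redV N A hN) (ga41_hAO N A hN)
    (ga41_hcompat N A hN) (ga41_hOA N A hN) (ga41_hunit N A hN) (ga41_hsurj A)
    (ga41_jV N A hN) x (ga41_transcendental_redV_jV N A hN) hx hjx (Fin (dedekindPsi N)) _
  exact Exists.elim H fun b H1 => Exists.elim H1 fun bκ H2 => h0 b H2.1 bκ H2.2 f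

set_option maxHeartbeats 1600000 in
/-- **The characteristic polynomial over the chart `ℚ̄(x)` commutes with reduction.** -/
theorem ga41_chart_charpoly_red (x : ↥(ga41_V N A hN))
    (hx : Transcendental (IsLocalRing.ResidueField A) (ga41_redV N A hN x))
    (hjx : ga41_jF N ∈
      IntermediateField.adjoin (AlgebraicClosure ℚ) {(x : ↥(modularFunctionFieldBar N))})
    [FiniteDimensional
      (IntermediateField.adjoin (AlgebraicClosure ℚ) {(x : ↥(modularFunctionFieldBar N))})
      ↥(modularFunctionFieldBar N)]
    [FiniteDimensional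
      (IntermediateField.adjoin (IsLocalRing.ResidueField A) {ga41_redV N A hN x})
      ↥(modularFunctionFieldFullC (IsLocalRing.ResidueField A) N)]
    (f : ↥(ga41_V N A hN)) :
    ∃ p : Polynomial ↥((ga41_V N A hN).comap (algebraMap
        ↥(IntermediateField.adjoin (AlgebraicClosure ℚ) {(x : ↥(modularFunctionFieldBar N))})
        ↥(modularFunctionFieldBar N))), p.Monic ∧
      p.map ((ga41_V N A hN).comap (algebraMap
        ↥(IntermediateField.adjoin (AlgebraicClosure ℚ) {(x : ↥(modularFunctionFieldBar N))})
        ↥(modularFunctionFieldBar N))).subtype =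
        (Algebra.lmul ↥(IntermediateField.adjoin (AlgebraicClosure ℚ)
          {(x : ↥(modularFunctionFieldBar N))}) ↥(modularFunctionFieldBar N)
          (f : ↥(modularFunctionFieldBar N))).charpoly ∧
      p.map (ga41_chart_red N A hN x hx) =
        (Algebra.lmul ↥(IntermediateField.adjoin (IsLocalRing.ResidueField A)
          {ga41_redV N A hN x}) ↥(modularFunctionFieldFullC (IsLocalRing.ResidueField A) N)
          (ga41_redV N A hN f)).charpoly := by
  have H := ga41_basisV N A hN
  have h0 := @cc62_charpoly_red (AlgebraicClosure ℚ) ↥(modularFunctionFieldBar N)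
    (IsLocalRing.ResidueField A) ↥(modularFunctionFieldFullC (IsLocalRing.ResidueField A) N)
    _ _ _ _ _ _ A (ga41_V N A hN) (IsLocalRing.residue A) (ga41_redV N A hN) (ga41_hAO N A hN)
    (ga41_hcompat N A hN) (ga41_hOA N A hN) (ga41_hunit N A hN) (ga41_hsurj A)
    (ga41_jV N A hN) x (ga41_transcendental_redV_jV N A hN) hx hjx _ _ (Fin (dedekindPsi N)) _
  exact Exists.elim H fun b H1 => Exists.elim H1 fun bκ H2 => h0 b H2.1 bκ H2.2 f

end Chart

end Fermat.Agent.S37
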