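import Fermat.Agent.S37.ChartInst31
import Fermat.Agent.S37.GaussChart41
import Fermat.Agent.S37.ChartMod80

/-!
# S37, row RC-INST (helper31, second seat): the modular charts

`h48_Chart` (ChartDefs48) for the function field `F(M)` over `(ℚ̄, A)` with the Gauss place
`(ga41_V M A hM, ga41_redV M A hM)`:

* `ci31_chart_gauss` : for ANY coordinate `x` of the Gauss ring with transcendental reduction and
  `j ∈ ℚ̄(x)`, from chart normality (I2) in adjoin form ((I1) is `ga41_chart_basis`; the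
  separability of the special fibre over `k(x̄)` is derived from `rc5_isSeparable_full`);
* `ci31_chart_ka` : the same for an integer chart coordinate `g` (`ka46` / `cm80` vocabulary)
  from `ka46_NormalAt A.subtype (residue A) M g`;
* `ci31_chart_h2`, `ci31_chart_h2inv` (`2 ∣ M`), `ci31_chart_h3`, `ci31_chart_h3inv` (`3 ∣ M`):
  the four Hauptmodul charts.

Each conclusion is `∃ hint, h48_Chart A (ci31_BA ℚ̄ V x) (ci31_rho red x hint)` for the chart
rings `integralClosure ℚ̄[x] F`, `integralClosure k[red x] Fk` with the `ci31_alg` structures.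
-/

set_option autoImplicit false
set_option linter.style.haveILetI false

open ModularCurve IntermediateField Polynomial

namespace Fermat.Agent.S37

open Fermat.Agent.S18 Fermat.Agent.S28

local notation "Qb" => AlgebraicClosure ℚ

section ci31_gauss_chart

variable (N : ℕ) [NeZero N] (A : ValuationSubring Qb)
  (hN : (N : IsLocalRing.ResidueField A) ≠ 0)

/-- `j̄ ∈ k(x̄)` for a chart coordinate `x` of the Gauss ring with `j ∈ ℚ̄(x)`. -/
theorem ci31_rc5_j_mem (x : ↥(ga41_V N A hN))
    (hx : Transcendental (IsLocalRing.ResidueField A) (ga41_redV N A hN x))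
    (hjx : ga41_jF N ∈ Qb⟮(x : ↥(modularFunctionFieldBar N))⟯) :
    rc5_j (IsLocalRing.ResidueField A) N ∈
      (IsLocalRing.ResidueField A)⟮ga41_redV N A hN x⟯ := by
  have h := cc62_gauss_mem (IsLocalRing.residue A) (ga41_redV N A hN) (ga41_hAO N A hN)
    (ga41_hcompat N A hN) (ga41_hOA N A hN) (ga41_hunit N A hN) x hx (ga41_jV N A hN) hjx
  rw [ga41_redV_jV] at h
  exact h

/-- **The chart `x` of `F(N)`**, for any coordinate `x` of the Gauss ring with transcendental
reduction and `j ∈ ℚ̄(x)`: `h48_Chart` from chart normality (I2) alone ((I1) is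
`ga41_chart_basis`). -/
theorem ci31_chart_gauss (x : ↥(ga41_V N A hN))
    (hx : Transcendental (IsLocalRing.ResidueField A) (ga41_redV N A hN x))
    (hjx : ga41_jF N ∈ Qb⟮(x : ↥(modularFunctionFieldBar N))⟯)
    (hsurj : ∀ g : ↥(modularFunctionFieldFullC (IsLocalRing.ResidueField A) N),
      IsIntegral (Algebra.adjoin (IsLocalRing.ResidueField A) {ga41_redV N A hN x}) g →
      ∃ f : ↥(ga41_V N A hN),
        IsIntegral (Algebra.adjoin Qb {(x : ↥(modularFunctionFieldBar N))})
          (f : ↥(modularFunctionFieldBar N)) ∧ ga41_redV N A hN f = g) :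
    ∃ hint, @h48_Chart Qb _ A
      (integralClosure (Algebra.adjoin Qb {(x : ↥(modularFunctionFieldBar N))})
        ↥(modularFunctionFieldBar N)) _
      (ci31_alg Qb (x : ↥(modularFunctionFieldBar N)))
      (integralClosure (Algebra.adjoin (IsLocalRing.ResidueField A) {ga41_redV N A hN x})
        ↥(modularFunctionFieldFullC (IsLocalRing.ResidueField A) N)) _
      (ci31_alg (IsLocalRing.ResidueField A) (ga41_redV N A hN x))
      (ci31_BA Qb (ga41_V N A hN) (x : ↥(modularFunctionFieldBar N)))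
      (ci31_rho (ga41_redV N A hN) x hint) := by
  haveI := rc5_isAlgClosed_residueField A
  haveI : Algebra.IsSeparable ↥((IsLocalRing.ResidueField A)⟮ga41_redV N A hN x⟯)
      ↥(modularFunctionFieldFullC (IsLocalRing.ResidueField A) N) := by
    haveI := rc5_isSeparable_full (IsLocalRing.ResidueField A) N
    exact ps14_isSeparable_of_mem (ci31_rc5_j_mem N A hN x hx hjx)
  haveI hfL := (ga41_chart_finite N A hN x hx hjx).1
  have H := ga41_chart_basis N A hN x hx hjx
  exact Exists.elim H fun c H1 => Exists.elim H1 fun bκ H2 =>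
    ⟨_, ci31_chart (ga41_redV N A hN) (ga41_hAO N A hN) (ga41_hcompat N A hN)
      (ga41_hunit N A hN) x hx c (by rw [Fintype.card_fin]; exact H2.2) bκ H2.1 hsurj⟩

end ci31_gauss_chart

section ci31_ka_chart

variable (M : ℕ) [NeZero M] (A : ValuationSubring Qb)
  (hM : (M : IsLocalRing.ResidueField A) ≠ 0) (g : LaurentSeries ℤ)

omit [NeZero M] in
theorem ci31_jF_eq : ga41_jF M = cm80_xF M (jqModC ℤ) (cm80_j_memF M) :=
  Subtype.ext (cm80_g_j Qb).symm

/-- **The chart `g` of `F(M)`** for an integer chart coordinate `g` (`ka46` vocabulary) with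
`j ∈ ℚ̄(g)`: `h48_Chart` from chart normality in fraction form. -/
theorem ci31_chart_ka (hgF : ka46_g Qb g ∈ modularFunctionFieldBar M)
    (hgk : ka46_g (IsLocalRing.ResidueField A) g ∈
      modularFunctionFieldFullC (IsLocalRing.ResidueField A) M)
    (htr : Transcendental (IsLocalRing.ResidueField A) (ka46_g (IsLocalRing.ResidueField A) g))
    (hjx : cm80_xF M (jqModC ℤ) (cm80_j_memF M) ∈ Qb⟮cm80_xF M g hgF⟯)
    (hnorm : ka46_NormalAt A.subtype (IsLocalRing.residue A) M g) :
    ∃ hint, @h48_Chart Qb _ A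
      (integralClosure (Algebra.adjoin Qb
        {((cm80_xV M A g hM hgF : ↥(ga41_V M A hM)) : ↥(modularFunctionFieldBar M))})
        ↥(modularFunctionFieldBar M)) _
      (ci31_alg Qb ((cm80_xV M A g hM hgF : ↥(ga41_V M A hM)) : ↥(modularFunctionFieldBar M)))
      (integralClosure (Algebra.adjoin (IsLocalRing.ResidueField A)
        {cm80_red M A hM (cm80_xV M A g hM hgF)})
        ↥(modularFunctionFieldFullC (IsLocalRing.ResidueField A) M)) _
      (ci31_alg (IsLocalRing.ResidueField A) (cm80_red M A hM (cm80_xV M A g hM hgF)))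
      (ci31_BA Qb (ga41_V M A hM)
        ((cm80_xV M A g hM hgF : ↥(ga41_V M A hM)) : ↥(modularFunctionFieldBar M)))
      (ci31_rho (cm80_red M A hM) (cm80_xV M A g hM hgF) hint) :=
  ci31_chart_gauss M A hM (cm80_xV M A g hM hgF)
    (cm80_red_xV_transcendental M A g hM hgF hgk htr)
    (by rw [ci31_jF_eq]; exact hjx)
    (cm80_I2 M A g hM hgF hgk htr hnorm)

end ci31_ka_chart

section ci31_concrete

variable (M : ℕ) [NeZero M] (A : ValuationSubring Qb)
  (hM : (M : IsLocalRing.ResidueField A) ≠ 0)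

include hM in
omit [NeZero M] in
theorem ci31_ne_zero_of_dvd {p : ℕ} (hp : p ∣ M) : (p : IsLocalRing.ResidueField A) ≠ 0 := by
  obtain ⟨m, rfl⟩ := hp
  intro h0
  apply hM
  rw [Nat.cast_mul, h0, zero_mul]

/-- The chart `h₂` at a level `M` divisible by `2`. -/
theorem ci31_chart_h2 (h2 : 2 ∣ M)
    (hnorm : ka46_NormalAt A.subtype (IsLocalRing.residue A) M (h70_h2 ℤ)) :
    ∃ hint, @h48_Chart Qb _ A
      (integralClosure (Algebra.adjoin Qb
        {((cm80_xV M A (h70_h2 ℤ) hM (cm80_h2_memF M h2) : ↥(ga41_V M A hM)) :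
          ↥(modularFunctionFieldBar M))}) ↥(modularFunctionFieldBar M)) _
      (ci31_alg Qb ((cm80_xV M A (h70_h2 ℤ) hM (cm80_h2_memF M h2) : ↥(ga41_V M A hM)) :
        ↥(modularFunctionFieldBar M)))
      (integralClosure (Algebra.adjoin (IsLocalRing.ResidueField A)
        {cm80_red M A hM (cm80_xV M A (h70_h2 ℤ) hM (cm80_h2_memF M h2))})
        ↥(modularFunctionFieldFullC (IsLocalRing.ResidueField A) M)) _
      (ci31_alg (IsLocalRing.ResidueField A)
        (cm80_red M A hM (cm80_xV M A (h70_h2 ℤ) hM (cm80_h2_memF M h2))))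
      (ci31_BA Qb (ga41_V M A hM)
        ((cm80_xV M A (h70_h2 ℤ) hM (cm80_h2_memF M h2) : ↥(ga41_V M A hM)) :
          ↥(modularFunctionFieldBar M)))
      (ci31_rho (cm80_red M A hM) (cm80_xV M A (h70_h2 ℤ) hM (cm80_h2_memF M h2)) hint) :=
  ci31_chart_ka M A hM (h70_h2 ℤ) (cm80_h2_memF M h2)
    (cm80_h2_memk M h2 _ (by exact_mod_cast ci31_ne_zero_of_dvd M A hM h2))
    (cm80_h2_tr _) (cm80_h2_jmem M h2) hnorm

/-- The chart `1/h₂` at a level `M` divisible by `2`. -/
theorem ci31_chart_h2inv (h2 : 2 ∣ M)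
    (hnorm : ka46_NormalAt A.subtype (IsLocalRing.residue A) M (h70_h2inv ℤ)) :
    ∃ hint, @h48_Chart Qb _ A
      (integralClosure (Algebra.adjoin Qb
        {((cm80_xV M A (h70_h2inv ℤ) hM (cm80_h2inv_memF M h2) : ↥(ga41_V M A hM)) :
          ↥(modularFunctionFieldBar M))}) ↥(modularFunctionFieldBar M)) _
      (ci31_alg Qb ((cm80_xV M A (h70_h2inv ℤ) hM (cm80_h2inv_memF M h2) : ↥(ga41_V M A hM)) :
        ↥(modularFunctionFieldBar M)))
      (integralClosure (Algebra.adjoin (IsLocalRing.ResidueField A)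
        {cm80_red M A hM (cm80_xV M A (h70_h2inv ℤ) hM (cm80_h2inv_memF M h2))})
        ↥(modularFunctionFieldFullC (IsLocalRing.ResidueField A) M)) _
      (ci31_alg (IsLocalRing.ResidueField A)
        (cm80_red M A hM (cm80_xV M A (h70_h2inv ℤ) hM (cm80_h2inv_memF M h2))))
      (ci31_BA Qb (ga41_V M A hM)
        ((cm80_xV M A (h70_h2inv ℤ) hM (cm80_h2inv_memF M h2) : ↥(ga41_V M A hM)) :
          ↥(modularFunctionFieldBar M)))
      (ci31_rho (cm80_red M A hM) (cm80_xV M A (h70_h2inv ℤ) hM (cm80_h2inv_memF M h2))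
        hint) :=
  ci31_chart_ka M A hM (h70_h2inv ℤ) (cm80_h2inv_memF M h2)
    (cm80_h2inv_memk M h2 _ (by exact_mod_cast ci31_ne_zero_of_dvd M A hM h2))
    (cm80_h2inv_tr _) (cm80_h2inv_jmem M h2) hnorm

/-- The chart `h₃` at a level `M` divisible by `3`. -/
theorem ci31_chart_h3 (h3 : 3 ∣ M)
    (hnorm : ka46_NormalAt A.subtype (IsLocalRing.residue A) M (h34_h3R ℤ)) :
    ∃ hint, @h48_Chart Qb _ A
      (integralClosure (Algebra.adjoin Qb
        {((cm80_xV M A (h34_h3R ℤ) hM (cm80_h3_memF M h3) : ↥(ga41_V M A hM)) :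
          ↥(modularFunctionFieldBar M))}) ↥(modularFunctionFieldBar M)) _
      (ci31_alg Qb ((cm80_xV M A (h34_h3R ℤ) hM (cm80_h3_memF M h3) : ↥(ga41_V M A hM)) :
        ↥(modularFunctionFieldBar M)))
      (integralClosure (Algebra.adjoin (IsLocalRing.ResidueField A)
        {cm80_red M A hM (cm80_xV M A (h34_h3R ℤ) hM (cm80_h3_memF M h3))})
        ↥(modularFunctionFieldFullC (IsLocalRing.ResidueField A) M)) _
      (ci31_alg (IsLocalRing.ResidueField A)
        (cm80_red M A hM (cm80_xV M A (h34_h3R ℤ) hM (cm80_h3_memF M h3))))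
      (ci31_BA Qb (ga41_V M A hM)
        ((cm80_xV M A (h34_h3R ℤ) hM (cm80_h3_memF M h3) : ↥(ga41_V M A hM)) :
          ↥(modularFunctionFieldBar M)))
      (ci31_rho (cm80_red M A hM) (cm80_xV M A (h34_h3R ℤ) hM (cm80_h3_memF M h3)) hint) :=
  ci31_chart_ka M A hM (h34_h3R ℤ) (cm80_h3_memF M h3)
    (cm80_h3_memk M h3 _ (by exact_mod_cast ci31_ne_zero_of_dvd M A hM h3))
    (cm80_h3_tr _) (cm80_h3_jmem M h3) hnorm

/-- The chart `1/h₃` at a level `M` divisible by `3`. -/
theorem ci31_chart_h3inv (h3 : 3 ∣ M)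
    (hnorm : ka46_NormalAt A.subtype (IsLocalRing.residue A) M (h34_h3Rinv ℤ)) :
    ∃ hint, @h48_Chart Qb _ A
      (integralClosure (Algebra.adjoin Qb
        {((cm80_xV M A (h34_h3Rinv ℤ) hM (cm80_h3inv_memF M h3) : ↥(ga41_V M A hM)) :
          ↥(modularFunctionFieldBar M))}) ↥(modularFunctionFieldBar M)) _
      (ci31_alg Qb ((cm80_xV M A (h34_h3Rinv ℤ) hM (cm80_h3inv_memF M h3) : ↥(ga41_V M A hM)) :
        ↥(modularFunctionFieldBar M)))
      (integralClosure (Algebra.adjoin (IsLocalRing.ResidueField A)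
        {cm80_red M A hM (cm80_xV M A (h34_h3Rinv ℤ) hM (cm80_h3inv_memF M h3))})
        ↥(modularFunctionFieldFullC (IsLocalRing.ResidueField A) M)) _
      (ci31_alg (IsLocalRing.ResidueField A)
        (cm80_red M A hM (cm80_xV M A (h34_h3Rinv ℤ) hM (cm80_h3inv_memF M h3))))
      (ci31_BA Qb (ga41_V M A hM)
        ((cm80_xV M A (h34_h3Rinv ℤ) hM (cm80_h3inv_memF M h3) : ↥(ga41_V M A hM)) :
          ↥(modularFunctionFieldBar M)))
      (ci31_rho (cm80_red M A hM) (cm80_xV M A (h34_h3Rinv ℤ) hM (cm80_h3inv_memF M h3))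
        hint) :=
  ci31_chart_ka M A hM (h34_h3Rinv ℤ) (cm80_h3inv_memF M h3)
    (cm80_h3inv_memk M h3 _ (by exact_mod_cast ci31_ne_zero_of_dvd M A hM h3))
    (cm80_h3inv_tr _) (cm80_h3inv_jmem M h3) hnorm

end ci31_concrete

end Fermat.Agent.S37
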