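import Fermat.Agent.S37.ChartMod80
import Fermat.Agent.S37.ChartInst31
import Fermat.Agent.S37.GaussChart41

/-!
# S37, row RC-INST (helper80), part 2: the charts of the modular function field

`M` a level, `A` a valuation subring of `ℚ̄` with residue field `k`, `hM : (M : k) ≠ 0`,
`F = modularFunctionFieldBar M`, `F_k = modularFunctionFieldFullC k M`, Gauss place
`(ga41_V M A hM, cm80_red M A hM)` (`cm80_red = ga41_redV = ga41_red`, by `rfl`).  For a chart
coordinate `g : LaurentSeries ℤ` with `hc : cm80_Coord M A g` write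

* `x  = cm80_xF M g hc.memF : F`,  `xV = cm80_xV M A g hM hc.memF : ↥(ga41_V M A hM)` (`↑xV = x`
  by `rfl`),
* `x̄ = cm80_red M A hM xV : F_k` (`= cm80_xk M g k hc.memk`, i.e. the series `ka46_g k g`, by
  `cm80_red_xV`).

Main results.

* `cm80_coord_j`, `cm80_coord_h2`, `cm80_coord_h2inv`, `cm80_coord_h3`, `cm80_coord_h3inv`: the
  coordinates `j`, `h₂ = h70_h2`, `1/h₂`, `h₃ = h34_h3R`, `1/h₃` (levels `2 ∣ M`, `3 ∣ M`).
* `cm80_hasI1` : (I1) for every chart coordinate (helper41's `ga41_chart_basis`).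
* `cm80_chart` : **`h48_Chart A BA ρ`** for `B = integralClosure ℚ̄[x] F` (a `ℚ̄[X]`-algebra via
  `ci31_alg`), `Bk = integralClosure k[x̄] F_k`, `BA = ci31_BA ℚ̄ (ga41_V M A hM) x`,
  `ρ = cm80_rho hM hc = ci31_rho (cm80_red M A hM) xV _` (the restriction of the Gauss
  reduction, `cm80_rho_coe`), from chart normality `ka46_NormalAt A.subtype (residue A) M g`.
* The instances the conservation theorem and the gluing need for both chart rings:
  `cm80_xF_transcendental`, `cm80_finiteDimensional_F`, `cm80_isSeparable_F`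
  (`k`-side: `cm80_red_xV_transcendental`, `cm80_finiteDimensional_k`, `cm80_isSeparable_k` in
  `ChartMod80`), `cm80_isDedekind_F/_k`, `cm80_isFractionRing_F/_k`, `cm80_finite_F/_k`,
  `cm80_torsionFree_F/_k`.
* `cm80_h2_mul_h2inv`, `cm80_h3_mul_h3inv`: the two coordinates of a pair of charts are inverse
  to each other in the Gauss ring.

Lean note for consumers: instance search on `↥(integralClosure ↥K[y] ↥E)` with `E` an
intermediate field of `K((q))` (e.g. `Ideal _`, `normalizedFactors`) needs
`set_option maxSynthPendingDepth 3`.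
-/

set_option autoImplicit false
set_option synthInstance.maxHeartbeats 400000
set_option linter.style.haveILetI false
set_option linter.unusedSectionVars false
set_option maxSynthPendingDepth 3

open ModularCurve IntermediateField

namespace Fermat.Agent.S37

open Fermat.Agent.S18 Fermat.Agent.S28

local notation "Qb" => AlgebraicClosure ℚ

section Chart

open Module

variable (M : ℕ) [NeZero M] (A : ValuationSubring Qb)
  (hM : (M : IsLocalRing.ResidueField A) ≠ 0) (g : LaurentSeries ℤ)

/-- Chart coordinate data at level `M` over `(ℚ̄, A)`: the integer series `g` defines elements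
of `F(M)` and of `F_k(M)`, the latter transcendental over `k`, and `j ∈ ℚ̄(g)`. -/
structure cm80_Coord : Prop where
  memF : ka46_g Qb g ∈ modularFunctionFieldBar M
  memk : ka46_g (IsLocalRing.ResidueField A) g ∈
    modularFunctionFieldFullC (IsLocalRing.ResidueField A) M
  tr : Transcendental (IsLocalRing.ResidueField A) (ka46_g (IsLocalRing.ResidueField A) g)
  jmem : cm80_xF M (jqModC ℤ) (cm80_j_memF M) ∈ Qb⟮cm80_xF M g memF⟯

/-- **(I1) for the chart `g`**, existential form: a family of the Gauss ring, of cardinality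
`[F(M) : ℚ̄(x)]`, whose reductions are a `k(x̄)`-basis of `F_k(M)`. -/
def cm80_HasI1 (hgF : ka46_g Qb g ∈ modularFunctionFieldBar M) : Prop :=
  ∃ (n : ℕ) (b : Fin n → ↥(ga41_V M A hM))
    (bκ : Basis (Fin n)
      ↥((IsLocalRing.ResidueField A)⟮cm80_red M A hM (cm80_xV M A g hM hgF)⟯)
      ↥(modularFunctionFieldFullC (IsLocalRing.ResidueField A) M)),
    n = finrank ↥(Qb⟮((cm80_xV M A g hM hgF : ↥(ga41_V M A hM)) :
      ↥(modularFunctionFieldBar M))⟯) ↥(modularFunctionFieldBar M) ∧
    ∀ i, bκ i = cm80_red M A hM (b i)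

variable {M A g}

/-- The `j`-coordinate is helper41's `ga41_jF`. -/
theorem cm80_xF_j : cm80_xF M (jqModC ℤ) (cm80_j_memF M) = ga41_jF M :=
  Subtype.ext (cm80_g_j Qb)

/-- **(I1) holds for every chart coordinate** (helper41's `ga41_chart_basis`). -/
theorem cm80_hasI1 (hc : cm80_Coord M A g) : cm80_HasI1 M A hM g hc.memF := by
  have hjx : ga41_jF M ∈ Qb⟮((cm80_xV M A g hM hc.memF : ↥(ga41_V M A hM)) :
      ↥(modularFunctionFieldBar M))⟯ := by
    have h := hc.jmem
    rwa [cm80_xF_j] at h
  have H := ga41_chart_basis M A hM (cm80_xV M A g hM hc.memF)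
    (cm80_red_xV_transcendental M A g hM hc.memF hc.memk hc.tr) hjx
  exact Exists.elim H fun c H1 => Exists.elim H1 fun bκ H2 => ⟨_, c, bκ, H2.2, H2.1⟩

/-- The chart coordinate is transcendental over `ℚ̄`. -/
theorem cm80_xF_transcendental (hc : cm80_Coord M A g) :
    Transcendental Qb (cm80_xF M g hc.memF) := by
  refine ps14_transcendental_of_mem hc.jmem ?_
  intro halg
  exact cm80_j_tr Qb (halg.algebraMap (A := LaurentSeries Qb))

include hM in
theorem cm80_finiteDimensional_F (hc : cm80_Coord M A g) :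
    FiniteDimensional ↥(Qb⟮cm80_xF M g hc.memF⟯) ↥(modularFunctionFieldBar M) := by
  obtain ⟨n, b, bκ, hn, hbκ⟩ := cm80_hasI1 hM hc
  have hne : Nonempty (Fin n) := bκ.index_nonempty
  have hpos : 0 < n := Fin.pos_iff_nonempty.mpr hne
  exact Module.finite_of_finrank_pos
    (by rw [← cm80_xV_coe M A g hM hc.memF, ← hn]; exact hpos)

include hM in
theorem cm80_isSeparable_F (hc : cm80_Coord M A g) :
    Algebra.IsSeparable ↥(Qb⟮cm80_xF M g hc.memF⟯) ↥(modularFunctionFieldBar M) := by
  haveI := cm80_finiteDimensional_F hM hc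
  infer_instance

/-- The reduction of an element of the Gauss ring integral over `ℚ̄[x]` is integral over
`k[x̄]`. -/
theorem cm80_red_isIntegral (hc : cm80_Coord M A g) (f : ↥(ga41_V M A hM))
    (hf : IsIntegral (Algebra.adjoin Qb
      {((cm80_xV M A g hM hc.memF : ↥(ga41_V M A hM)) : ↥(modularFunctionFieldBar M))})
      (f : ↥(modularFunctionFieldBar M))) :
    IsIntegral (Algebra.adjoin (IsLocalRing.ResidueField A)
      {cm80_red M A hM (cm80_xV M A g hM hc.memF)}) (cm80_red M A hM f) := by
  haveI : Algebra.IsSeparable ↥(Qb⟮((cm80_xV M A g hM hc.memF : ↥(ga41_V M A hM)) :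
      ↥(modularFunctionFieldBar M))⟯) ↥(modularFunctionFieldBar M) :=
    cm80_isSeparable_F hM hc
  obtain ⟨n, b, bκ, hn, hbκ⟩ := cm80_hasI1 hM hc
  exact ci31_red_isIntegral (cm80_red M A hM) (cm80_hAO M A hM) (cm80_hcompat M A hM)
    (cm80_hunit M A hM) (cm80_xV M A g hM hc.memF)
    (cm80_red_xV_transcendental M A g hM hc.memF hc.memk hc.tr) b
    (by rw [Fintype.card_fin]; exact hn) bκ hbκ f hf

/-- The reduction map of the chart `g`: `ρ : BA → Bk`. -/
noncomputable def cm80_rho (hc : cm80_Coord M A g) :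
    ci31_BA Qb (ga41_V M A hM) (cm80_xF M g hc.memF) →+*
      integralClosure (Algebra.adjoin (IsLocalRing.ResidueField A)
        {cm80_red M A hM (cm80_xV M A g hM hc.memF)})
        ↥(modularFunctionFieldFullC (IsLocalRing.ResidueField A) M) :=
  ci31_rho (cm80_red M A hM) (cm80_xV M A g hM hc.memF) (cm80_red_isIntegral hM hc)

/-- `ρ` is the restriction of the Gauss reduction. -/
theorem cm80_rho_coe (hc : cm80_Coord M A g)
    (b : ci31_BA Qb (ga41_V M A hM) (cm80_xF M g hc.memF)) :
    ((cm80_rho hM hc b :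
        integralClosure (Algebra.adjoin (IsLocalRing.ResidueField A)
          {cm80_red M A hM (cm80_xV M A g hM hc.memF)})
          ↥(modularFunctionFieldFullC (IsLocalRing.ResidueField A) M)) :
      ↥(modularFunctionFieldFullC (IsLocalRing.ResidueField A) M)) =
      cm80_red M A hM (ci31_toV Qb (ga41_V M A hM) (cm80_xF M g hc.memF) b) := rfl

/-- **The chart `g` of the modular function field** is a chart in the sense of `h48_Chart`,
given chart normality (I2) for `g` in fraction form. -/
theorem cm80_chart (hc : cm80_Coord M A g)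
    (hnorm : ka46_NormalAt A.subtype (IsLocalRing.residue A) M g) :
    @h48_Chart Qb _ A
      (integralClosure (Algebra.adjoin Qb {cm80_xF M g hc.memF}) ↥(modularFunctionFieldBar M)) _
      (ci31_alg Qb (cm80_xF M g hc.memF))
      (integralClosure (Algebra.adjoin (IsLocalRing.ResidueField A)
        {cm80_red M A hM (cm80_xV M A g hM hc.memF)})
        ↥(modularFunctionFieldFullC (IsLocalRing.ResidueField A) M)) _
      (ci31_alg (IsLocalRing.ResidueField A) (cm80_red M A hM (cm80_xV M A g hM hc.memF)))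
      (ci31_BA Qb (ga41_V M A hM) (cm80_xF M g hc.memF))
      (cm80_rho hM hc) := by
  haveI := rc5_isAlgClosed_residueField A
  haveI : Algebra.IsSeparable ↥(Qb⟮((cm80_xV M A g hM hc.memF : ↥(ga41_V M A hM)) :
      ↥(modularFunctionFieldBar M))⟯) ↥(modularFunctionFieldBar M) :=
    cm80_isSeparable_F hM hc
  haveI := cm80_isSeparable_k M A hM g hc.memF hc.memk hc.tr hc.jmem
  obtain ⟨n, b, bκ, hn, hbκ⟩ := cm80_hasI1 hM hc
  exact ci31_chart (cm80_red M A hM) (cm80_hAO M A hM) (cm80_hcompat M A hM)
    (cm80_hunit M A hM) (cm80_xV M A g hM hc.memF)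
    (cm80_red_xV_transcendental M A g hM hc.memF hc.memk hc.tr) b
    (by rw [Fintype.card_fin]; exact hn) bκ hbκ
    (cm80_I2 M A g hM hc.memF hc.memk hc.tr hnorm)

/-! ### Instances for the two chart rings -/

include hM in
theorem cm80_isDedekind_F (hc : cm80_Coord M A g) :
    IsDedekindDomain (integralClosure (Algebra.adjoin Qb {cm80_xF M g hc.memF})
      ↥(modularFunctionFieldBar M)) := by
  haveI := cm80_finiteDimensional_F hM hc
  haveI := cm80_isSeparable_F hM hc
  exact ps14_isDedekindDomain _ (cm80_xF_transcendental hc)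

include hM in
theorem cm80_isFractionRing_F (hc : cm80_Coord M A g) :
    IsFractionRing (integralClosure (Algebra.adjoin Qb {cm80_xF M g hc.memF})
      ↥(modularFunctionFieldBar M)) ↥(modularFunctionFieldBar M) := by
  haveI := cm80_finiteDimensional_F hM hc
  exact ps14_isFractionRing _

include hM in
theorem cm80_finite_F (hc : cm80_Coord M A g) :
    @Module.Finite (Polynomial Qb) (integralClosure (Algebra.adjoin Qb {cm80_xF M g hc.memF})
      ↥(modularFunctionFieldBar M)) _ _ (ci31_alg Qb (cm80_xF M g hc.memF)).toModule := by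
  haveI := cm80_finiteDimensional_F hM hc
  haveI := cm80_isSeparable_F hM hc
  exact ci31_finite _ (cm80_xF_transcendental hc)

theorem cm80_torsionFree_F (hc : cm80_Coord M A g) :
    @Module.IsTorsionFree (Polynomial Qb)
      (integralClosure (Algebra.adjoin Qb {cm80_xF M g hc.memF})
      ↥(modularFunctionFieldBar M)) _ _ (ci31_alg Qb (cm80_xF M g hc.memF)).toModule :=
  ci31_isTorsionFree _ (cm80_xF_transcendental hc)

theorem cm80_isDedekind_k (hc : cm80_Coord M A g) :
    IsDedekindDomain (integralClosure (Algebra.adjoin (IsLocalRing.ResidueField A)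
      {cm80_red M A hM (cm80_xV M A g hM hc.memF)})
      ↥(modularFunctionFieldFullC (IsLocalRing.ResidueField A) M)) := by
  haveI := rc5_isAlgClosed_residueField A
  haveI := cm80_finiteDimensional_k M A hM g hc.memF hc.memk hc.tr hc.jmem
  haveI := cm80_isSeparable_k M A hM g hc.memF hc.memk hc.tr hc.jmem
  exact ps14_isDedekindDomain _ (cm80_red_xV_transcendental M A g hM hc.memF hc.memk hc.tr)

theorem cm80_isFractionRing_k (hc : cm80_Coord M A g) :
    IsFractionRing (integralClosure (Algebra.adjoin (IsLocalRing.ResidueField A)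
      {cm80_red M A hM (cm80_xV M A g hM hc.memF)})
      ↥(modularFunctionFieldFullC (IsLocalRing.ResidueField A) M))
      ↥(modularFunctionFieldFullC (IsLocalRing.ResidueField A) M) := by
  haveI := rc5_isAlgClosed_residueField A
  haveI := cm80_finiteDimensional_k M A hM g hc.memF hc.memk hc.tr hc.jmem
  exact ps14_isFractionRing _

theorem cm80_finite_k (hc : cm80_Coord M A g) :
    @Module.Finite (Polynomial (IsLocalRing.ResidueField A))
      (integralClosure (Algebra.adjoin (IsLocalRing.ResidueField A)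
        {cm80_red M A hM (cm80_xV M A g hM hc.memF)})
        ↥(modularFunctionFieldFullC (IsLocalRing.ResidueField A) M)) _ _
      (ci31_alg (IsLocalRing.ResidueField A)
        (cm80_red M A hM (cm80_xV M A g hM hc.memF))).toModule := by
  haveI := rc5_isAlgClosed_residueField A
  haveI := cm80_finiteDimensional_k M A hM g hc.memF hc.memk hc.tr hc.jmem
  haveI := cm80_isSeparable_k M A hM g hc.memF hc.memk hc.tr hc.jmem
  exact ci31_finite _ (cm80_red_xV_transcendental M A g hM hc.memF hc.memk hc.tr)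

theorem cm80_torsionFree_k (hc : cm80_Coord M A g) :
    @Module.IsTorsionFree (Polynomial (IsLocalRing.ResidueField A))
      (integralClosure (Algebra.adjoin (IsLocalRing.ResidueField A)
        {cm80_red M A hM (cm80_xV M A g hM hc.memF)})
        ↥(modularFunctionFieldFullC (IsLocalRing.ResidueField A) M)) _ _
      (ci31_alg (IsLocalRing.ResidueField A)
        (cm80_red M A hM (cm80_xV M A g hM hc.memF))).toModule :=
  ci31_isTorsionFree _ (cm80_red_xV_transcendental M A g hM hc.memF hc.memk hc.tr)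

end Chart

/-! ### The five coordinates -/

section Coords

variable {M : ℕ} [NeZero M] {A : ValuationSubring Qb}

/-- `(p : k) ≠ 0` for a divisor `p` of the level. -/
theorem cm80_natCast_ne_zero (hM : (M : IsLocalRing.ResidueField A) ≠ 0) {p : ℕ} (hp : p ∣ M) :
    (p : IsLocalRing.ResidueField A) ≠ 0 := by
  intro h0
  obtain ⟨c, rfl⟩ := hp
  apply hM
  rw [Nat.cast_mul, h0, zero_mul]

/-- The coordinate `j`. -/
theorem cm80_coord_j : cm80_Coord M A (jqModC ℤ) where
  memF := cm80_j_memF M
  memk := cm80_j_memk M _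
  tr := cm80_j_tr _
  jmem := mem_adjoin_simple_self Qb _

/-- The coordinate `h₂` (`2 ∣ M`). -/
theorem cm80_coord_h2 (hM : (M : IsLocalRing.ResidueField A) ≠ 0) (h2 : 2 ∣ M) :
    cm80_Coord M A (h70_h2 ℤ) where
  memF := cm80_h2_memF M h2
  memk := cm80_h2_memk M h2 _ (by exact_mod_cast cm80_natCast_ne_zero hM h2)
  tr := cm80_h2_tr _
  jmem := cm80_h2_jmem M h2

/-- The coordinate `1/h₂` (`2 ∣ M`). -/
theorem cm80_coord_h2inv (hM : (M : IsLocalRing.ResidueField A) ≠ 0) (h2 : 2 ∣ M) :
    cm80_Coord M A (h70_h2inv ℤ) where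
  memF := cm80_h2inv_memF M h2
  memk := cm80_h2inv_memk M h2 _ (by exact_mod_cast cm80_natCast_ne_zero hM h2)
  tr := cm80_h2inv_tr _
  jmem := cm80_h2inv_jmem M h2

/-- The coordinate `h₃` (`3 ∣ M`). -/
theorem cm80_coord_h3 (hM : (M : IsLocalRing.ResidueField A) ≠ 0) (h3 : 3 ∣ M) :
    cm80_Coord M A (h34_h3R ℤ) where
  memF := cm80_h3_memF M h3
  memk := cm80_h3_memk M h3 _ (by exact_mod_cast cm80_natCast_ne_zero hM h3)
  tr := cm80_h3_tr _
  jmem := cm80_h3_jmem M h3

/-- The coordinate `1/h₃` (`3 ∣ M`). -/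
theorem cm80_coord_h3inv (hM : (M : IsLocalRing.ResidueField A) ≠ 0) (h3 : 3 ∣ M) :
    cm80_Coord M A (h34_h3Rinv ℤ) where
  memF := cm80_h3inv_memF M h3
  memk := cm80_h3inv_memk M h3 _ (by exact_mod_cast cm80_natCast_ne_zero hM h3)
  tr := cm80_h3inv_tr _
  jmem := cm80_h3inv_jmem M h3

/-- The coordinates `h₂` and `1/h₂` are inverse to each other in the Gauss ring. -/
theorem cm80_h2_mul_h2inv (hM : (M : IsLocalRing.ResidueField A) ≠ 0) (h2 : 2 ∣ M) :
    cm80_xV M A (h70_h2 ℤ) hM (cm80_h2_memF M h2) *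
      cm80_xV M A (h70_h2inv ℤ) hM (cm80_h2inv_memF M h2) = 1 := by
  apply Subtype.ext
  apply Subtype.ext
  show ka46_g Qb (h70_h2 ℤ) * ka46_g Qb (h70_h2inv ℤ) = 1
  rw [cm80_g_h2, cm80_g_h2inv]
  exact h70_h2_mul_h2inv Qb

/-- The coordinates `h₃` and `1/h₃` are inverse to each other in the Gauss ring. -/
theorem cm80_h3_mul_h3inv (hM : (M : IsLocalRing.ResidueField A) ≠ 0) (h3 : 3 ∣ M) :
    cm80_xV M A (h34_h3R ℤ) hM (cm80_h3_memF M h3) *
      cm80_xV M A (h34_h3Rinv ℤ) hM (cm80_h3inv_memF M h3) = 1 := by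
  apply Subtype.ext
  apply Subtype.ext
  show ka46_g Qb (h34_h3R ℤ) * ka46_g Qb (h34_h3Rinv ℤ) = 1
  rw [cm80_g_h3, cm80_g_h3inv]
  exact h34_h3R_mul_inv Qb

end Coords

end Fermat.Agent.S37
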