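import Fermat.Agent.S37.ChartModFinal80
import Fermat.Agent.S37.ChartGlueInst89

/-!
# S37, rows RC-INST + RC-GLUE (helper80): the reduction map of `F(M)` on places

`M` a level, `A` a valuation subring of `ℚ̄` with residue field `k`, `hM : (M : k) ≠ 0`,
`F = modularFunctionFieldBar M`, `F_k = modularFunctionFieldFullC k M`.  helper89's two-chart
gluing `cg89_exists_reduction` applied to the charts of `ChartModInst80`:

* `cm80_exists_reduction` : for two chart coordinates `g`, `g'` whose elements of the Gauss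
  ring are inverse to each other, with chart normality for both:
  `∃ r0 : Place ℚ̄ F → Place k F_k, cg89_Reduction A (ga41_V M A hM) (cm80_red M A hM) x r0`
  (conservation of number, coordinate of the reduction, equivariance, tube functions).
* `cm80_exists_reduction_h2`, `cm80_exists_reduction_h3` : **hypothesis-free**, for
  `A` over a prime `ℓ`, `ℓ ∤ M`, and the Hauptmodul charts `(h₂, 1/h₂)` (`2 ∣ M`),
  `(h₃, 1/h₃)` (`3 ∣ M`).
-/

set_option autoImplicit false
set_option synthInstance.maxHeartbeats 400000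
set_option linter.style.haveILetI false
set_option linter.unusedSectionVars false
set_option maxSynthPendingDepth 3

open ModularCurve IntermediateField AlgebraicCurve

namespace Fermat.Agent.S37

open Fermat.Agent.S18 Fermat.Agent.S28

local notation "Qb" => AlgebraicClosure ℚ

section Red

variable {M : ℕ} [NeZero M] {A : ValuationSubring Qb}
  (hM : (M : IsLocalRing.ResidueField A) ≠ 0)

/-- **The reduction map on places from two charts of the modular function field.** -/
theorem cm80_exists_reduction {g g' : LaurentSeries ℤ} (hc : cm80_Coord M A g)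
    (hc' : cm80_Coord M A g')
    (hxy : cm80_xV M A g hM hc.memF * cm80_xV M A g' hM hc'.memF = 1)
    (hnorm : ka46_NormalAt A.subtype (IsLocalRing.residue A) M g)
    (hnorm' : ka46_NormalAt A.subtype (IsLocalRing.residue A) M g') :
    ∃ r0 : Place Qb ↥(modularFunctionFieldBar M) →
        Place (IsLocalRing.ResidueField A)
          ↥(modularFunctionFieldFullC (IsLocalRing.ResidueField A) M),
      cg89_Reduction A (ga41_V M A hM) (cm80_red M A hM) (cm80_xV M A g hM hc.memF) r0 := by
  haveI := rc5_isAlgClosed_residueField A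
  haveI : FiniteDimensional ↥(Qb⟮((cm80_xV M A g hM hc.memF : ↥(ga41_V M A hM)) :
      ↥(modularFunctionFieldBar M))⟯) ↥(modularFunctionFieldBar M) :=
    cm80_finiteDimensional_F hM hc
  haveI : Algebra.IsSeparable ↥(Qb⟮((cm80_xV M A g hM hc.memF : ↥(ga41_V M A hM)) :
      ↥(modularFunctionFieldBar M))⟯) ↥(modularFunctionFieldBar M) :=
    cm80_isSeparable_F hM hc
  haveI := cm80_finiteDimensional_k M A hM g hc.memF hc.memk hc.tr hc.jmem
  haveI := cm80_isSeparable_k M A hM g hc.memF hc.memk hc.tr hc.jmem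
  haveI : FiniteDimensional ↥(Qb⟮((cm80_xV M A g' hM hc'.memF : ↥(ga41_V M A hM)) :
      ↥(modularFunctionFieldBar M))⟯) ↥(modularFunctionFieldBar M) :=
    cm80_finiteDimensional_F hM hc'
  haveI : Algebra.IsSeparable ↥(Qb⟮((cm80_xV M A g' hM hc'.memF : ↥(ga41_V M A hM)) :
      ↥(modularFunctionFieldBar M))⟯) ↥(modularFunctionFieldBar M) :=
    cm80_isSeparable_F hM hc'
  haveI := cm80_finiteDimensional_k M A hM g' hc'.memF hc'.memk hc'.tr hc'.jmem
  haveI := cm80_isSeparable_k M A hM g' hc'.memF hc'.memk hc'.tr hc'.jmem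
  exact cg89_exists_reduction (cm80_red M A hM) (cm80_xV M A g hM hc.memF)
    (cm80_xV M A g' hM hc'.memF) hxy (cm80_xF_transcendental hc)
    (cm80_red_xV_transcendental M A g hM hc.memF hc.memk hc.tr)
    (cm80_red_isIntegral hM hc) (cm80_red_isIntegral hM hc')
    (cm80_chart hM hc hnorm) (cm80_chart hM hc' hnorm')

end Red

section Final

variable (A : ValuationSubring Qb) {ℓ : ℕ} (hℓ : ℓ.Prime) (hA : A.LiesOverPrime ℓ)
  (M : ℕ) [NeZero M] (hℓM : Nat.Coprime M ℓ) (hM : (M : IsLocalRing.ResidueField A) ≠ 0)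

include hℓ hA hℓM in
/-- **The reduction map on places of `F(M)`, `2 ∣ M`, `ℓ ∤ M`**, from the charts `h₂`, `1/h₂`. -/
theorem cm80_exists_reduction_h2 (h2 : 2 ∣ M) :
    ∃ r0 : Place Qb ↥(modularFunctionFieldBar M) →
        Place (IsLocalRing.ResidueField A)
          ↥(modularFunctionFieldFullC (IsLocalRing.ResidueField A) M),
      cg89_Reduction A (ga41_V M A hM) (cm80_red M A hM)
        (cm80_xV M A (h70_h2 ℤ) hM (cm80_h2_memF M h2)) r0 :=
  cm80_exists_reduction hM (cm80_coord_h2 hM h2) (cm80_coord_h2inv hM h2)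
    (cm80_h2_mul_h2inv hM h2) (cf93_normalA_level2 A hℓ.ne_zero hA M hℓM h2).1
    (cf93_normalA_level2 A hℓ.ne_zero hA M hℓM h2).2

include hℓ hA hℓM in
/-- **The reduction map on places of `F(M)`, `3 ∣ M`, `ℓ ∤ M`**, from the charts `h₃`, `1/h₃`. -/
theorem cm80_exists_reduction_h3 (h3 : 3 ∣ M) :
    ∃ r0 : Place Qb ↥(modularFunctionFieldBar M) →
        Place (IsLocalRing.ResidueField A)
          ↥(modularFunctionFieldFullC (IsLocalRing.ResidueField A) M),
      cg89_Reduction A (ga41_V M A hM) (cm80_red M A hM)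
        (cm80_xV M A (h34_h3R ℤ) hM (cm80_h3_memF M h3)) r0 :=
  cm80_exists_reduction hM (cm80_coord_h3 hM h3) (cm80_coord_h3inv hM h3)
    (cm80_h3_mul_h3inv hM h3) (cf93_normalA_level3 A hℓ.ne_zero hA M hℓM h3).1
    (cf93_normalA_level3 A hℓ.ne_zero hA M hℓM h3).2

end Final

end Fermat.Agent.S37
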