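import Mathlib
import Fermat.Agent.S37.ChartCore48
import Fermat.Agent.S24.Places

/-!
# S37, row RC (helper48): from prime factorisations in a chart ring to divisors on places

* `h48_ord_eq_count` : the order of `b` at the place of a height one prime `w` of a Dedekind
  chart ring is the multiplicity of `w` in the factorisation of `(b)`.
* `h48_mapDomain_eq` : for a map `r` on places whose fibre over `q` consists of chart places
  and is cut out by a predicate `p` on the primes of the chart ring, the push-forward of
  `div (b₁ / b₂)` at `q` is `countP p (fac b₁) - countP p (fac b₂)`.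
-/

set_option autoImplicit false
set_option linter.unusedSectionVars false

namespace Fermat.Agent.S37

open AlgebraicCurve IsDedekindDomain UniqueFactorizationMonoid Fermat.Agent.S24

section

variable {K F : Type*} [Field K] [Field F] [Algebra K F]
variable {B : Type*} [CommRing B] [IsDedekindDomain B] [Algebra B F] [IsFractionRing B F]
  [Algebra K B] [IsScalarTower K B F]

open Classical in
/-- The order at the place of a height one prime is the multiplicity in the factorisation. -/
theorem h48_ord_eq_count (w : HeightOneSpectrum B) (b : B) (hb : b ≠ 0) :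
    (Place.ofHeightOneSpectrum (K := K) w).ord (algebraMap B F b)
      = (Multiset.count w.asIdeal (normalizedFactors (Ideal.span {b})) : ℤ) := by
  have hspan : Ideal.span {b} ≠ (0 : Ideal B) := by
    rw [Ideal.zero_eq_bot, Ne, Ideal.span_singleton_eq_bot]
    exact hb
  rw [wp1a_ord_ofHeightOneSpectrum, HeightOneSpectrum.valuation_of_algebraMap,
    HeightOneSpectrum.intValuation_if_neg w hb,
    Ideal.count_associates_factors_eq hspan w.isPrime w.ne_bot, WithZero.log_exp, neg_neg]

open Classical in
/-- **Push-forward of a divisor through a chart.** -/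
theorem h48_mapDomain_eq {β : Type*} (r : Place K F → β) (q : β) (p : Ideal B → Prop)
    (hp : ∀ w : HeightOneSpectrum B,
      r (Place.ofHeightOneSpectrum (K := K) w) = q ↔ p w.asIdeal)
    (hcov : ∀ P : Place K F, r P = q →
      ∃ w : HeightOneSpectrum B, Place.ofHeightOneSpectrum (K := K) w = P)
    (b₁ b₂ : B) (hb₁ : b₁ ≠ 0) (hb₂ : b₂ ≠ 0) (D : Divisor K F)
    (hD : ∀ P, D P = P.ord (algebraMap B F b₁) - P.ord (algebraMap B F b₂)) :
    Finsupp.mapDomain r D q
      = (Multiset.countP p (normalizedFactors (Ideal.span {b₁})) : ℤ)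
        - (Multiset.countP p (normalizedFactors (Ideal.span {b₂})) : ℤ) := by
  set n₁ := normalizedFactors (Ideal.span {b₁}) with hn₁
  set n₂ := normalizedFactors (Ideal.span {b₂}) with hn₂
  set U : Finset (Ideal B) := (n₁.toFinset ∪ n₂.toFinset).filter p with hU
  have hc₁ : Multiset.countP p n₁ = ∑ I ∈ U, Multiset.count I n₁ :=
    h48_countP_eq_sum_count n₁ p U
      (fun x hx hpx => Finset.mem_filter.mpr
        ⟨Finset.mem_union_left _ (Multiset.mem_toFinset.mpr hx), hpx⟩)
      (fun x hx => (Finset.mem_filter.mp hx).2)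
  have hc₂ : Multiset.countP p n₂ = ∑ I ∈ U, Multiset.count I n₂ :=
    h48_countP_eq_sum_count n₂ p U
      (fun x hx hpx => Finset.mem_filter.mpr
        ⟨Finset.mem_union_right _ (Multiset.mem_toFinset.mpr hx), hpx⟩)
      (fun x hx => (Finset.mem_filter.mp hx).2)
  have hDw : ∀ w : HeightOneSpectrum B, D (Place.ofHeightOneSpectrum (K := K) w)
      = (Multiset.count w.asIdeal n₁ : ℤ) - (Multiset.count w.asIdeal n₂ : ℤ) := by
    intro w
    rw [hD, h48_ord_eq_count w b₁ hb₁, h48_ord_eq_count w b₂ hb₂]
  have hLHS : Finsupp.mapDomain r D q = ∑ P ∈ D.support, if r P = q then D P else 0 := by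
    rw [Finsupp.mapDomain, Finsupp.sum_apply, Finsupp.sum]
    refine Finset.sum_congr rfl (fun P _ => ?_)
    rw [Finsupp.single_apply]
  rw [hLHS, hc₁, hc₂, Nat.cast_sum, Nat.cast_sum, ← Finset.sum_sub_distrib]
  have hinj := wp1a_ofHeightOneSpectrum_injective (K := K) (F := F) (B := B)
  -- the chart prime of a place in the fibre
  have hrq : ∀ P ∈ D.support, (if r P = q then D P else 0) ≠ 0 → r P = q := by
    intro P _ hne
    by_contra h
    exact hne (if_neg h)
  refine Finset.sum_bij_ne_zero
    (fun P hP hne => (hcov P (hrq P hP hne)).choose.asIdeal) ?_ ?_ ?_ ?_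
  · intro P hP hne
    have hr := hrq P hP hne
    have hw := (hcov P hr).choose_spec
    set w := (hcov P hr).choose with hwdef
    have hpw : p w.asIdeal := (hp w).mp (hw ▸ hr)
    have hDP : D P ≠ 0 := by
      rw [if_pos hr] at hne
      exact hne
    rw [← hw, hDw w] at hDP
    refine Finset.mem_filter.mpr ⟨?_, hpw⟩
    rw [Finset.mem_union, Multiset.mem_toFinset, Multiset.mem_toFinset]
    by_contra hcon
    rw [not_or] at hcon
    rw [Multiset.count_eq_zero_of_notMem hcon.1, Multiset.count_eq_zero_of_notMem hcon.2] at hDP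
    exact hDP (by simp)
  · intro P₁ hP₁ hne₁ P₂ hP₂ hne₂ heq
    have hw₁ := (hcov P₁ (hrq P₁ hP₁ hne₁)).choose_spec
    have hw₂ := (hcov P₂ (hrq P₂ hP₂ hne₂)).choose_spec
    rw [← hw₁, ← hw₂, HeightOneSpectrum.ext heq]
  · intro I hI hne
    have hImem := (Finset.mem_filter.mp hI).1
    have hpI := (Finset.mem_filter.mp hI).2
    have hIprime : Prime I := by
      rcases Finset.mem_union.mp hImem with h | h
      · exact prime_of_normalized_factor I (Multiset.mem_toFinset.mp h)
      · exact prime_of_normalized_factor I (Multiset.mem_toFinset.mp h)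
    set w : HeightOneSpectrum B := ⟨I, Ideal.isPrime_of_prime hIprime, hIprime.ne_zero⟩ with hw
    have hr : r (Place.ofHeightOneSpectrum (K := K) w) = q := (hp w).mpr hpI
    have hDne : D (Place.ofHeightOneSpectrum (K := K) w) ≠ 0 := by
      rw [hDw w]
      exact hne
    have hsupp : Place.ofHeightOneSpectrum (K := K) w ∈ D.support := Finsupp.mem_support_iff.mpr hDne
    have hne' : (if r (Place.ofHeightOneSpectrum (K := K) w) = q
        then D (Place.ofHeightOneSpectrum (K := K) w) else 0) ≠ 0 := by
      rw [if_pos hr]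
      exact hDne
    refine ⟨Place.ofHeightOneSpectrum (K := K) w, hsupp, hne', ?_⟩
    have hch := (hcov _ (hrq _ hsupp hne')).choose_spec
    rw [hinj hch]
  · intro P hP hne
    have hr := hrq P hP hne
    have hw := (hcov P hr).choose_spec
    rw [if_pos hr]
    conv_lhs => rw [← hw]
    exact hDw _

end

end Fermat.Agent.S37
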