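import Mathlib
import Fermat.Prelude.Def_ModularCurve_ReductionModL
import Fermat.Agent.S37.FrobL66

/-!
# S37, row RC (helper91): Galois equivariance of a place reduction from uniqueness

`final13_Geo` (clause 3) asks for `r0 (σ • P) = σ̄ • r0 P` for `σ` in the decomposition group of
`A`.  This file derives it FORMALLY from

* the conservation property `IsPlaceReductionAlong A (IsLocalRing.residue A) N r0` (clause 1) and
  `PrincipalGeneratedByIntegral` (clause 2),
* a class function `cls` on the places of the special fibre, compatible with `σ` on both sides,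
* "tube functions" (the RC toolkit (iv), in the shape consumed by `pe17_core`, with `G` a
  single class): for every `P` a principal divisor `D` with `D P = 1` and `D P' = 0` for every
  other `P'` in the class of `P`.

No internals of the construction of `r0` are used:

* `eq91_unique_core`: two point maps which agree on "principal divisors", have the same classes
  and admit tube functions are equal (abstract).
* `eq91_transport`: `P ↦ σ̄⁻¹ • r0 (σ • P)` is again a place reduction (transport of structure
  on the Prelude definition: `σ` acts on `A`-integral series, compatibly with both coefficient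
  maps).
* `eq91_equivariant`: the equivariance.
-/

set_option autoImplicit false

namespace Fermat.Agent.S37

open ModularCurve AlgebraicCurve HahnSeries

section Abstract

variable {X Y C : Type*}

/-- Value of a pushed-forward divisor as a sum over the support. -/
theorem eq91_mapDomain_apply (r : X → Y) (D : X →₀ ℤ) (Q : Y) [DecidableEq Y] :
    Finsupp.mapDomain r D Q = ∑ P ∈ D.support, if r P = Q then D P else 0 := by
  classical
  rw [Finsupp.mapDomain, Finsupp.sum, Finsupp.finsetSum_apply]
  refine Finset.sum_congr rfl fun P _ => ?_
  rw [Finsupp.single_apply]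

/-- **Abstract uniqueness.** Two point maps `r₁ r₂ : X → Y` with the same push-forward on a set
`princ` of divisors, the same classes, and tube divisors for `r₁`, are equal. -/
theorem eq91_unique_core (r₁ r₂ : X → Y) (cls : Y → C) (princ : Set (X →₀ ℤ))
    (hcls : ∀ P, cls (r₂ P) = cls (r₁ P))
    (hagree : ∀ D ∈ princ, Finsupp.mapDomain r₁ D = Finsupp.mapDomain r₂ D)
    (htube : ∀ P, ∃ D ∈ princ, D P = 1 ∧
      ∀ P', P' ≠ P → cls (r₁ P') = cls (r₁ P) → D P' = 0)
    (P : X) : r₂ P = r₁ P := by
  classical
  obtain ⟨D, hD, hDP, hD0⟩ := htube P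
  have hPsupp : P ∈ D.support := by
    rw [Finsupp.mem_support_iff, hDP]; exact one_ne_zero
  have h := congrArg (fun E => E (r₁ P)) (hagree D hD)
  simp only [eq91_mapDomain_apply] at h
  have h1 : (∑ P' ∈ D.support, if r₁ P' = r₁ P then D P' else 0) = 1 := by
    rw [Finset.sum_eq_single P]
    · rw [if_pos rfl, hDP]
    · intro P' _ hne
      split_ifs with hP'
      · exact hD0 P' hne (by rw [hP'])
      · rfl
    · intro hP; exact absurd hPsupp hP
  have h2 : (∑ P' ∈ D.support, if r₂ P' = r₁ P then D P' else 0)
      = if r₂ P = r₁ P then 1 else 0 := by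
    rw [Finset.sum_eq_single P]
    · rw [hDP]
    · intro P' _ hne
      split_ifs with hP'
      · exact hD0 P' hne (by rw [← hcls P', hP'])
      · rfl
    · intro hP; exact absurd hPsupp hP
  rw [h1, h2] at h
  by_contra hne
  rw [if_neg hne] at h
  exact one_ne_zero h

end Abstract

section Transport

set_option synthInstance.maxHeartbeats 400000
set_option maxHeartbeats 1000000

variable {L : Type*} [Field L] [Algebra ℚ L] (A : ValuationSubring L) (N : ℕ)

/-- The coefficientwise action of an element of the decomposition group on `A`-integral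
series is compatible with the action on series over `L`. -/
theorem eq91_twist_subtype (τ : A.decompositionSubgroup ℚ) (y : LaurentSeries A) :
    coeffMap A.subtype
        (coeffMap (MulSemiringAction.toRingHom (A.decompositionSubgroup ℚ) A τ) y)
      = coeffMap (((τ : L ≃ₐ[ℚ] L) : L ≃ₐ[ℚ] L) : L →+* L) (coeffMap A.subtype y) := by
  rw [coeffMap_coeffMap, coeffMap_coeffMap]
  exact coeffMap_congr (RingHom.ext fun a => rfl) y

/-- ... and with the induced action on the residue field. -/
theorem eq91_twist_residue (τ : A.decompositionSubgroup ℚ) (y : LaurentSeries A) :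
    coeffMap (IsLocalRing.residue A)
        (coeffMap (MulSemiringAction.toRingHom (A.decompositionSubgroup ℚ) A τ) y)
      = coeffMap ((MulSemiringAction.toRingEquiv (A.decompositionSubgroup ℚ)
            (IsLocalRing.ResidueField A) τ : IsLocalRing.ResidueField A ≃+*
              IsLocalRing.ResidueField A) : IsLocalRing.ResidueField A →+*
              IsLocalRing.ResidueField A)
          (coeffMap (IsLocalRing.residue A) y) := by
  rw [coeffMap_coeffMap, coeffMap_coeffMap]
  exact coeffMap_congr (RingHom.ext fun a => rfl) y

/-- **Transport of structure.** If `r0` is a place reduction, so is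
`P ↦ σ̄⁻¹ • r0 (σ • P)` for every `σ` in the decomposition group of `A`. -/
theorem eq91_transport
    (r0 : Place L (laurentBaseChange L (modularFunctionFieldFull N)) →
      Place (IsLocalRing.ResidueField A)
        (modularFunctionFieldFullC (IsLocalRing.ResidueField A) N))
    (hr : IsPlaceReductionAlong A (IsLocalRing.residue A) N r0) (τ : A.decompositionSubgroup ℚ) :
    IsPlaceReductionAlong A (IsLocalRing.residue A) N (fun P =>
      (fr66_resGalois N (MulSemiringAction.toRingEquiv (A.decompositionSubgroup ℚ)
          (IsLocalRing.ResidueField A) τ))⁻¹ •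
        r0 (arithmeticGalois (modularFunctionFieldFull N) (τ : L ≃ₐ[ℚ] L) • P)) := by
  classical
  set g := arithmeticGalois (modularFunctionFieldFull N) (L := L) (τ : L ≃ₐ[ℚ] L) with hg
  set ρ := fr66_resGalois N (MulSemiringAction.toRingEquiv (A.decompositionSubgroup ℚ)
    (IsLocalRing.ResidueField A) τ) with hρ
  refine ⟨fun P => ?_, ?_⟩
  · show ((ρ⁻¹ • r0 (g • P)) : Place _ _).deg = P.deg
    rw [SemilinearAut.deg_smul, hr.1, SemilinearAut.deg_smul]
  · intro y hy hyk hne D hD Q
    set y' : LaurentSeries A :=
      coeffMap (MulSemiringAction.toRingHom (A.decompositionSubgroup ℚ) A τ) y with hy'def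
    have h1 := eq91_twist_subtype A τ y
    have h2 := eq91_twist_residue A τ y
    have hy' : coeffMap A.subtype y' ∈ laurentBaseChange L (modularFunctionFieldFull N) := by
      rw [hy'def, h1]
      exact coeffMap_mem_laurentBaseChange _ hy
    have hyk' : coeffMap (IsLocalRing.residue A) y' ∈
        modularFunctionFieldFullC (IsLocalRing.ResidueField A) N := by
      rw [hy'def, h2]
      exact fr66_coeffMap_mem N _ hyk
    have hne' : coeffMap (IsLocalRing.residue A) y' ≠ 0 := by
      rw [hy'def, h2]
      intro h0
      exact hne ((map_eq_zero_iff _ (RingHom.injective _)).mp h0)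
    -- the elements of the two function fields
    have hgy : g • (⟨coeffMap A.subtype y, hy⟩ :
        laurentBaseChange L (modularFunctionFieldFull N)) = ⟨coeffMap A.subtype y', hy'⟩ :=
      Subtype.ext h1.symm
    have hρy : ρ • (⟨coeffMap (IsLocalRing.residue A) y, hyk⟩ :
        modularFunctionFieldFullC (IsLocalRing.ResidueField A) N)
          = ⟨coeffMap (IsLocalRing.residue A) y', hyk'⟩ :=
      Subtype.ext h2.symm
    -- the transported divisor
    have hD' : ∀ P, (Finsupp.mapDomain (fun P => g • P) D) P
        = P.ord (⟨coeffMap A.subtype y', hy'⟩ :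
            laurentBaseChange L (modularFunctionFieldFull N)) := by
      intro P
      have hP : P = g • (g⁻¹ • P) := (smul_inv_smul g P).symm
      conv_lhs => rw [hP]
      rw [Finsupp.mapDomain_apply (MulAction.injective g), hD, ← hgy]
      conv_rhs => rw [hP]
      rw [SemilinearAut.ord_smul]
    have key := hr.2 y' hy' hyk' hne' _ hD' (ρ • Q)
    have hcomp : (fun P => ρ⁻¹ • r0 (g • P))
        = (fun Q' => ρ⁻¹ • Q') ∘ r0 ∘ (fun P => g • P) := rfl
    rw [hcomp, Finsupp.mapDomain_comp, Finsupp.mapDomain_comp]
    have hQ : Q = ρ⁻¹ • (ρ • Q) := (inv_smul_smul ρ Q).symm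
    conv_lhs => rw [hQ]
    rw [Finsupp.mapDomain_apply (MulAction.injective ρ⁻¹), key, ← hρy, SemilinearAut.ord_smul]

/-- **Galois equivariance of a place reduction** (clause 3 of `final13_Geo`) from conservation,
a class function compatible with `σ`, and tube divisors. -/
theorem eq91_equivariant
    (r0 : Place L (laurentBaseChange L (modularFunctionFieldFull N)) →
      Place (IsLocalRing.ResidueField A)
        (modularFunctionFieldFullC (IsLocalRing.ResidueField A) N))
    (hr : IsPlaceReductionAlong A (IsLocalRing.residue A) N r0)
    (hgen : PrincipalGeneratedByIntegral A (IsLocalRing.residue A) N)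
    {C : Type*}
    (cls : Place (IsLocalRing.ResidueField A)
      (modularFunctionFieldFullC (IsLocalRing.ResidueField A) N) → C)
    (htube : ∀ P, ∃ D ∈ Divisor.principal (K := L)
        (F := laurentBaseChange L (modularFunctionFieldFull N)), D P = 1 ∧
      ∀ P', P' ≠ P → cls (r0 P') = cls (r0 P) → D P' = 0)
    (σ : L ≃ₐ[ℚ] L) (hσ : σ ∈ A.decompositionSubgroup ℚ)
    (σC : C → C) (hinj : Function.Injective σC)
    (hclsσ : ∀ P, cls (r0 (arithmeticGalois (modularFunctionFieldFull N) σ • P))
      = σC (cls (r0 P)))
    (hclsρ : ∀ Q, cls (fr66_resGalois N (MulSemiringAction.toRingEquiv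
        (A.decompositionSubgroup ℚ) (IsLocalRing.ResidueField A) ⟨σ, hσ⟩) • Q) = σC (cls Q))
    (P : Place L (laurentBaseChange L (modularFunctionFieldFull N))) :
    r0 (arithmeticGalois (modularFunctionFieldFull N) σ • P)
      = fr66_resGalois N (MulSemiringAction.toRingEquiv (A.decompositionSubgroup ℚ)
          (IsLocalRing.ResidueField A) ⟨σ, hσ⟩) • r0 P := by
  classical
  set g := arithmeticGalois (modularFunctionFieldFull N) (L := L) σ with hg
  set ρ := fr66_resGalois N (MulSemiringAction.toRingEquiv (A.decompositionSubgroup ℚ)
    (IsLocalRing.ResidueField A) ⟨σ, hσ⟩) with hρ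
  set r₂ : Place L (laurentBaseChange L (modularFunctionFieldFull N)) →
      Place (IsLocalRing.ResidueField A)
        (modularFunctionFieldFullC (IsLocalRing.ResidueField A) N) :=
    fun P => ρ⁻¹ • r0 (g • P) with hr₂def
  have hr₂ : IsPlaceReductionAlong A (IsLocalRing.residue A) N r₂ := eq91_transport A N r0 hr ⟨σ, hσ⟩
  -- agreement on integral principal divisors, then on all principal divisors
  have hint : ∀ D ∈ integralPrincipalDivisors A (IsLocalRing.residue A) N,
      Finsupp.mapDomain r0 D = Finsupp.mapDomain r₂ D := by
    rintro D ⟨y, hy, hyk, hne, hD⟩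
    ext Q
    rw [hr.2 y hy hyk hne D hD Q, hr₂.2 y hy hyk hne D hD Q]
  have hagree : ∀ D ∈ ((Divisor.principal (K := L)
      (F := laurentBaseChange L (modularFunctionFieldFull N)) : AddSubgroup _) :
        Set (Place L (laurentBaseChange L (modularFunctionFieldFull N)) →₀ ℤ)),
      Finsupp.mapDomain r0 D = Finsupp.mapDomain r₂ D := by
    intro D hD
    have hD' := hgen hD
    clear hD
    induction hD' using AddSubgroup.closure_induction with
    | mem E hE => exact hint E hE
    | zero => rw [Finsupp.mapDomain_zero, Finsupp.mapDomain_zero]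
    | add E E' _ _ hE hE' => rw [Finsupp.mapDomain_add, Finsupp.mapDomain_add, hE, hE']
    | neg E _ hE =>
        have h1 : ∀ r : Place L (laurentBaseChange L (modularFunctionFieldFull N)) →
            Place (IsLocalRing.ResidueField A)
              (modularFunctionFieldFullC (IsLocalRing.ResidueField A) N),
            Finsupp.mapDomain r (-E) = - Finsupp.mapDomain r E := fun r =>
          map_neg (Finsupp.mapDomain.addMonoidHom r) E
        rw [h1, h1, hE]
  have hcls : ∀ P, cls (r₂ P) = cls (r0 P) := by
    intro P
    apply hinj
    rw [← hclsρ (r₂ P), ← hclsσ P, hr₂def]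
    simp only [smul_inv_smul]
  have huniq := eq91_unique_core r0 r₂ cls _ hcls hagree htube P
  rw [hr₂def] at huniq
  simp only at huniq
  rw [← huniq, smul_inv_smul]

end Transport

end Fermat.Agent.S37
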