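import Mathlib
import Fermat.Prelude.Def_ModularCurve_ReductionModL
import Fermat.Agent.S24.PlacesBasicCore
import Fermat.Agent.S18.CoeffGlue36
import Fermat.Agent.S37.FrobL66
import Fermat.Agent.S37.Equivar91

/-!
# S37, rows RC / ES2 / ES3 (helper91): the class calculus (`j`-value of a place)

* `cl91_J k N : F_k` — the function `j` on the special fibre (any field `k`), and
  `cl91_JL L N : F_L` — the function `j` on the generic fibre.
* `cl91_cls k N Q : Option k` — the CLASS of a place `Q` of `F_k`: `some c` iff `j ≡ c` at `Q`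
  (`0 < ord_Q (j - c)`), `none` otherwise (pole of `j`; for `k` algebraically closed these are
  the only cases).  `cl91_cls_smul`: `cls (σ • Q) = σ (cls Q)` for the coefficient action
  `fr66_resGalois`, in particular for the Frobenius `fr66_phi` (`cl91_cls_phi`,
  `cl91_cls_phi_inv`, with `Fr := cl91_Fr k ℓ : Option k ≃ Option k` — the shape of the
  hypotheses `hφ`, `hφ'` of `pe17_div`).
* `cl91_clsL A N P : Option (ResidueField A)` — the TUBE CLASS of a place `P` of `F_L`:
  `some (a mod m_A)` iff `j ≡ a` at `P` for some `a ∈ A`, `none` otherwise.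
  `cl91_clsL_smul`: `clsL (σ • P) = σ̄ (clsL P)` for `σ` in the decomposition group of `A`.
* `eq91_equivariant_j`: **Galois equivariance of a place reduction `r0`** (clause 3 of
  `final13_Geo`) from conservation + PGI, "`r0` respects classes" (`cls (r0 P) = clsL P`) and tube
  divisors for single classes.
-/

set_option autoImplicit false

namespace Fermat.Agent.S37

open ModularCurve AlgebraicCurve HahnSeries
open Fermat.Agent.S24 Fermat.Agent.S18

/-! ### the special fibre -/

section ClassK

variable (k : Type*) [Field k] (N : ℕ)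

/-- The function `j` on the special fibre. -/
noncomputable def cl91_J : modularFunctionFieldFullC k N := ⟨jqModC k, jqModC_mem_full k N⟩

theorem cl91_coe_J : ((cl91_J k N : modularFunctionFieldFullC k N) : LaurentSeries k) = jqModC k :=
  rfl

/-- `j` is fixed by every coefficient automorphism. -/
theorem cl91_resGalois_smul_J (σ : k ≃+* k) : fr66_resGalois N σ • cl91_J k N = cl91_J k N := by
  apply Subtype.ext
  rw [fr66_coe_resGalois_smul, cl91_coe_J, coeffMap_jqModC]

open Classical in
/-- The class (`j`-value) of a place of the special fibre. -/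
noncomputable def cl91_cls (Q : Place k (modularFunctionFieldFullC k N)) : Option k :=
  if h : ∃ c : k, 0 < Q.ord (cl91_J k N - algebraMap k (modularFunctionFieldFullC k N) c)
  then some h.choose else none

variable {k N}

/-- `j ≡ c` and `j ≡ c'` at the same place force `c = c'`. -/
theorem cl91_const_unique {F : Type*} [Field F] [Algebra k F] (Q : Place k F) (x : F) {c c' : k}
    (hc : 0 < Q.ord (x - algebraMap k F c)) (hc' : 0 < Q.ord (x - algebraMap k F c')) :
    c = c' := by
  by_contra hne
  have hcc : algebraMap k F (c' - c) ≠ 0 := by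
    rw [Ne, map_eq_zero_iff _ (algebraMap k F).injective, sub_eq_zero]
    exact fun h => hne h.symm
  have h1 : (x - algebraMap k F c) + -(x - algebraMap k F c') = algebraMap k F (c' - c) := by
    rw [map_sub]; ring
  have hx1 : x - algebraMap k F c ≠ 0 := by
    intro h0; rw [h0, Place.ord_zero] at hc; exact lt_irrefl _ hc
  have hx2 : -(x - algebraMap k F c') ≠ 0 := by
    intro h0
    rw [neg_eq_zero] at h0
    rw [h0, Place.ord_zero] at hc'; exact lt_irrefl _ hc'
  have hneg : Q.ord (-(x - algebraMap k F c')) = Q.ord (x - algebraMap k F c') := by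
    have h2 : -(x - algebraMap k F c') = algebraMap k F (-1) * (x - algebraMap k F c') := by
      rw [map_neg, map_one]; ring
    have hm1 : algebraMap k F (-1) ≠ 0 := by
      rw [map_neg, map_one]; exact neg_ne_zero.mpr one_ne_zero
    rw [h2, Q.ord_mul hm1 (neg_ne_zero.mp hx2), wp1_ord_algebraMap, zero_add]
  have h3 := wp1_ord_add Q _ _ (h1 ▸ hcc) hx1 hx2
  rw [h1, wp1_ord_algebraMap, hneg] at h3
  have := lt_min hc hc'
  omega

theorem cl91_cls_eq_some_iff (Q : Place k (modularFunctionFieldFullC k N)) (c : k) :
    cl91_cls k N Q = some c ↔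
      0 < Q.ord (cl91_J k N - algebraMap k (modularFunctionFieldFullC k N) c) := by
  classical
  unfold cl91_cls
  constructor
  · intro h
    split_ifs at h with hex
    · rw [← Option.some.inj h]; exact hex.choose_spec
  · intro h
    have hex : ∃ c : k,
        0 < Q.ord (cl91_J k N - algebraMap k (modularFunctionFieldFullC k N) c) := ⟨c, h⟩
    rw [dif_pos hex]
    exact congrArg some (cl91_const_unique Q _ hex.choose_spec h)

theorem cl91_cls_eq_none_iff (Q : Place k (modularFunctionFieldFullC k N)) :
    cl91_cls k N Q = none ↔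
      ∀ c : k, ¬ 0 < Q.ord (cl91_J k N - algebraMap k (modularFunctionFieldFullC k N) c) := by
  classical
  unfold cl91_cls
  constructor
  · intro h c hc
    rw [dif_pos ⟨c, hc⟩] at h
    exact absurd h (by simp)
  · intro h
    rw [dif_neg (fun ⟨c, hc⟩ => h c hc)]

/-- **Classes and coefficient automorphisms**: `cls (σ • Q) = σ (cls Q)`. -/
theorem cl91_cls_smul (σ : k ≃+* k) (Q : Place k (modularFunctionFieldFullC k N)) :
    cl91_cls k N (fr66_resGalois N σ • Q) = Option.map σ (cl91_cls k N Q) := by
  have key : ∀ (τ : k ≃+* k) (Q' : Place k (modularFunctionFieldFullC k N)) (c : k),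
      cl91_cls k N Q' = some c → cl91_cls k N (fr66_resGalois N τ • Q') = some (τ c) := by
    intro τ Q' c hc
    rw [cl91_cls_eq_some_iff] at hc ⊢
    rw [fr66_ord_sub_const_resGalois k N τ Q' (cl91_J k N) (cl91_resGalois_smul_J k N τ) c]
    exact hc
  cases hQ : cl91_cls k N Q with
  | some c => rw [key σ Q c hQ]; rfl
  | none =>
    cases hQ' : cl91_cls k N (fr66_resGalois N σ • Q) with
    | none => rfl
    | some c =>
      have h := key σ.symm _ c hQ'
      have h2 : fr66_resGalois N σ.symm • fr66_resGalois N σ • Q = Q := by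
        rw [← mul_smul, ← map_mul]
        have : σ.symm * σ = 1 := by
          ext x; exact σ.symm_apply_apply x
        rw [this, map_one, one_smul]
      rw [h2, hQ] at h
      exact absurd h (by simp)

end ClassK

/-! ### Frobenius (the hypotheses `hφ`, `hφ'` of `pe17_div`) -/

section Frob

variable (k : Type*) [Field k] (N : ℕ) (ℓ : ℕ) [ExpChar k ℓ] [PerfectRing k ℓ]

/-- The action of the Frobenius on classes. -/
noncomputable def cl91_Fr : Option k ≃ Option k := Equiv.optionCongr (frobeniusEquiv k ℓ).toEquiv

theorem cl91_Fr_some (c : k) : cl91_Fr k ℓ (some c) = some (c ^ ℓ) := by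
  simp [cl91_Fr, frobenius_def]

theorem cl91_Fr_none : cl91_Fr k ℓ none = none := rfl

theorem cl91_cls_phi (Q : Place k (modularFunctionFieldFullC k N)) :
    cl91_cls k N (fr66_phi k N ℓ • Q) = cl91_Fr k ℓ (cl91_cls k N Q) := by
  rw [fr66_phi, cl91_cls_smul]
  cases cl91_cls k N Q <;> rfl

theorem cl91_cls_phi_inv (Q : Place k (modularFunctionFieldFullC k N)) :
    cl91_cls k N ((fr66_phi k N ℓ)⁻¹ • Q) = (cl91_Fr k ℓ).symm (cl91_cls k N Q) := by
  rw [Equiv.eq_symm_apply, ← cl91_cls_phi, smul_inv_smul]

end Frob

/-! ### the generic fibre -/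

section ClassL

set_option synthInstance.maxHeartbeats 400000
set_option maxHeartbeats 1000000

variable {L : Type*} [Field L] [Algebra ℚ L] (A : ValuationSubring L) (N : ℕ)

/-- The function `j` on the generic fibre. -/
noncomputable def cl91_JL : laurentBaseChange L (modularFunctionFieldFull N) :=
  ⟨jqModC L, by rw [cg36_baseChange_eq_fullC]; exact jqModC_mem_full L N⟩

theorem cl91_coe_JL :
    ((cl91_JL (L := L) N : laurentBaseChange L (modularFunctionFieldFull N)) : LaurentSeries L)
      = jqModC L := rfl

/-- `j` is fixed by the arithmetic Galois action. -/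
theorem cl91_arithmeticGalois_smul_JL (σ : L ≃ₐ[ℚ] L) :
    arithmeticGalois (modularFunctionFieldFull N) σ • cl91_JL (L := L) N = cl91_JL N := by
  apply Subtype.ext
  rw [coe_arithmeticGalois_smul, cl91_coe_JL, coeffMap_jqModC]

open Classical in
/-- The tube class of a place of the generic fibre: the residue class of the value of `j`. -/
noncomputable def cl91_clsL (P : Place L (laurentBaseChange L (modularFunctionFieldFull N))) :
    Option (IsLocalRing.ResidueField A) :=
  if h : ∃ a : A, 0 < P.ord (cl91_JL N -
      algebraMap L (laurentBaseChange L (modularFunctionFieldFull N)) (a : L))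
  then some (IsLocalRing.residue A h.choose) else none

variable {A N}

theorem cl91_clsL_eq_some (P : Place L (laurentBaseChange L (modularFunctionFieldFull N)))
    (a : A) (ha : 0 < P.ord (cl91_JL N -
      algebraMap L (laurentBaseChange L (modularFunctionFieldFull N)) (a : L))) :
    cl91_clsL A N P = some (IsLocalRing.residue A a) := by
  classical
  unfold cl91_clsL
  have hex : ∃ a : A, 0 < P.ord (cl91_JL N -
      algebraMap L (laurentBaseChange L (modularFunctionFieldFull N)) (a : L)) := ⟨a, ha⟩
  rw [dif_pos hex]
  have h := cl91_const_unique P _ hex.choose_spec ha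
  rw [Subtype.ext h]

theorem cl91_clsL_eq_none_iff (P : Place L (laurentBaseChange L (modularFunctionFieldFull N))) :
    cl91_clsL A N P = none ↔ ∀ a : A, ¬ 0 < P.ord (cl91_JL N -
      algebraMap L (laurentBaseChange L (modularFunctionFieldFull N)) (a : L)) := by
  classical
  unfold cl91_clsL
  constructor
  · intro h a ha
    rw [dif_pos ⟨a, ha⟩] at h
    exact absurd h (by simp)
  · intro h
    rw [dif_neg (fun ⟨a, ha⟩ => h a ha)]

theorem cl91_clsL_eq_some_iff (P : Place L (laurentBaseChange L (modularFunctionFieldFull N)))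
    (c : IsLocalRing.ResidueField A) :
    cl91_clsL A N P = some c ↔ ∃ a : A, IsLocalRing.residue A a = c ∧ 0 < P.ord (cl91_JL N -
      algebraMap L (laurentBaseChange L (modularFunctionFieldFull N)) (a : L)) := by
  classical
  constructor
  · intro h
    unfold cl91_clsL at h
    split_ifs at h with hex
    · exact ⟨hex.choose, Option.some.inj h, hex.choose_spec⟩
  · rintro ⟨a, rfl, ha⟩
    exact cl91_clsL_eq_some P a ha

/-- **Tube classes and the decomposition group**: `clsL (σ • P) = σ̄ (clsL P)`. -/
theorem cl91_clsL_smul (τ : A.decompositionSubgroup ℚ)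
    (P : Place L (laurentBaseChange L (modularFunctionFieldFull N))) :
    cl91_clsL A N (arithmeticGalois (modularFunctionFieldFull N) (τ : L ≃ₐ[ℚ] L) • P)
      = Option.map (MulSemiringAction.toRingEquiv (A.decompositionSubgroup ℚ)
          (IsLocalRing.ResidueField A) τ) (cl91_clsL A N P) := by
  have key : ∀ (τ' : A.decompositionSubgroup ℚ)
      (P' : Place L (laurentBaseChange L (modularFunctionFieldFull N))) (a : A),
      0 < P'.ord (cl91_JL N -
        algebraMap L (laurentBaseChange L (modularFunctionFieldFull N)) (a : L)) →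
      cl91_clsL A N (arithmeticGalois (modularFunctionFieldFull N) (τ' : L ≃ₐ[ℚ] L) • P')
        = some (MulSemiringAction.toRingEquiv (A.decompositionSubgroup ℚ)
          (IsLocalRing.ResidueField A) τ' (IsLocalRing.residue A a)) := by
    intro τ' P' a ha
    have h1 := SemilinearAut.ord_smul
      (arithmeticGalois (modularFunctionFieldFull N) (L := L) (τ' : L ≃ₐ[ℚ] L)) P'
      (cl91_JL N - algebraMap L (laurentBaseChange L (modularFunctionFieldFull N)) (a : L))
    rw [smul_sub, cl91_arithmeticGalois_smul_JL, SemilinearAut.smul_algebraMap] at h1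
    have h2 : cl91_clsL A N (arithmeticGalois (modularFunctionFieldFull N) (τ' : L ≃ₐ[ℚ] L) • P')
        = some (IsLocalRing.residue A (τ' • a)) := by
      refine cl91_clsL_eq_some _ (τ' • a) ?_
      rw [← h1] at ha
      exact ha
    rw [h2]
    rfl
  cases hP : cl91_clsL A N P with
  | some c =>
    obtain ⟨a, rfl, ha⟩ := (cl91_clsL_eq_some_iff P c).mp hP
    rw [key τ P a ha]; rfl
  | none =>
    cases hP' : cl91_clsL A N
        (arithmeticGalois (modularFunctionFieldFull N) (τ : L ≃ₐ[ℚ] L) • P) with
    | none => rfl
    | some c =>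
      obtain ⟨a, rfl, ha⟩ := (cl91_clsL_eq_some_iff _ c).mp hP'
      have h := key τ⁻¹ _ a ha
      have h2 : arithmeticGalois (modularFunctionFieldFull N) (L := L)
            ((τ⁻¹ : A.decompositionSubgroup ℚ) : L ≃ₐ[ℚ] L) •
          arithmeticGalois (modularFunctionFieldFull N) (τ : L ≃ₐ[ℚ] L) • P = P := by
        rw [← mul_smul, ← map_mul]
        have : ((τ⁻¹ : A.decompositionSubgroup ℚ) : L ≃ₐ[ℚ] L) * (τ : L ≃ₐ[ℚ] L) = 1 := by
          rw [← Subgroup.coe_mul, inv_mul_cancel, Subgroup.coe_one]
        rw [this, map_one, one_smul]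
      rw [h2, hP] at h
      exact absurd h (by simp)

/-- **Galois equivariance of a place reduction** (clause 3 of `final13_Geo`), concrete form:
from conservation, PGI, "`r0` respects classes" and tube divisors for single classes. -/
theorem eq91_equivariant_j
    (r0 : Place L (laurentBaseChange L (modularFunctionFieldFull N)) →
      Place (IsLocalRing.ResidueField A)
        (modularFunctionFieldFullC (IsLocalRing.ResidueField A) N))
    (hr : IsPlaceReductionAlong A (IsLocalRing.residue A) N r0)
    (hgen : PrincipalGeneratedByIntegral A (IsLocalRing.residue A) N)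
    (hcls : ∀ P, cl91_cls (IsLocalRing.ResidueField A) N (r0 P) = cl91_clsL A N P)
    (htube : ∀ P, ∃ D ∈ Divisor.principal (K := L)
        (F := laurentBaseChange L (modularFunctionFieldFull N)), D P = 1 ∧
      ∀ P', P' ≠ P → cl91_clsL A N P' = cl91_clsL A N P → D P' = 0)
    (σ : L ≃ₐ[ℚ] L) (hσ : σ ∈ A.decompositionSubgroup ℚ)
    (P : Place L (laurentBaseChange L (modularFunctionFieldFull N))) :
    r0 (arithmeticGalois (modularFunctionFieldFull N) σ • P)
      = fr66_resGalois N (MulSemiringAction.toRingEquiv (A.decompositionSubgroup ℚ)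
          (IsLocalRing.ResidueField A) ⟨σ, hσ⟩) • r0 P := by
  refine eq91_equivariant A N r0 hr hgen (cl91_cls (IsLocalRing.ResidueField A) N) ?_ σ hσ
    (Option.map (MulSemiringAction.toRingEquiv (A.decompositionSubgroup ℚ)
      (IsLocalRing.ResidueField A) ⟨σ, hσ⟩))
    (Option.map_injective (RingEquiv.injective _)) ?_ ?_ P
  · intro P
    obtain ⟨D, hD, hDP, hD0⟩ := htube P
    exact ⟨D, hD, hDP, fun P' hne h => hD0 P' hne (by rw [← hcls P', ← hcls P, h])⟩
  · intro P
    rw [hcls, hcls]
    exact cl91_clsL_smul ⟨σ, hσ⟩ P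
  · intro Q
    exact cl91_cls_smul _ Q

end ClassL

end Fermat.Agent.S37
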