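import Fermat.Agent.S37.Support87
import Fermat.Agent.S37.FrobL66

/-!
# S37, class calculus for the support argument (helper87)

Classes of places by the value of `j`, in `Option k` (`k` the residue field of a valuation ring
`A` of `L`; `none` = "cusp or non-integral `j`-value"):

* `cc87_Z ℓ`, `cc87_W ℓ : Option k → Finset (Option k)` and `cc87_hW` (the finite-to-finite
  correspondence `g ↦ {g^ℓ, g^(1/ℓ)}` and its self-composition);
* `cc87_clsX N π P` for a place `P` of the generic fibre (`π : A →+* k` any reduction map with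
  `ℓ = 0` in `k`, e.g. `IsLocalRing.residue A`), `cc87_cls k N Q` for a place `Q` of the special
  fibre;
* `cc87_clsX_mem_Z`: the points of `T_ℓ P` have class in `Z (clsX P)` (Kronecker congruence);
* `cc87_cls_r0`: a centre map compatible with the values of `j` preserves classes;
* `cc87_cls_smul`: coefficient automorphisms act on classes; `cc87_cls_phi_mem_Z`,
  `cc87_cls_phi_inv_mem_Z` for the Frobenius.
-/

set_option autoImplicit false
set_option linter.style.haveILetI false

open ModularCurve AlgebraicCurve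

namespace Fermat.Agent.S37

open Fermat.Agent.S24

noncomputable section

/-! ### The correspondence on classes -/

section ZW

variable {k : Type*} [Field k]

open Classical in
/-- Classes allowed for the points of `T_ℓ P`, `P` of class `g`: `g^ℓ` and the `ℓ`-th roots of
`g` (the cusp class for the cusp class). -/
def cc87_Z (ℓ : ℕ) : Option k → Finset (Option k)
  | none => {none}
  | some g => insert (some (g ^ ℓ)) ((Polynomial.nthRootsFinset ℓ g).image some)

open Classical in
/-- Classes `g'` such that `Z g'` can meet `Z g`. -/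
def cc87_W (ℓ : ℕ) : Option k → Finset (Option k)
  | none => {none}
  | some g => insert (some g) (insert (some ((g ^ ℓ) ^ ℓ))
      ((Polynomial.nthRootsFinset ℓ (g ^ ℓ)).image some ∪
        (Polynomial.nthRootsFinset (ℓ * ℓ) g).image some))

theorem cc87_none_mem_Z (ℓ : ℕ) : (none : Option k) ∈ cc87_Z ℓ (none : Option k) := by
  simp [cc87_Z]

theorem cc87_some_pow_mem_Z (ℓ : ℕ) (g : k) : some (g ^ ℓ) ∈ cc87_Z ℓ (some g) := by
  simp [cc87_Z]

theorem cc87_some_root_mem_Z {ℓ : ℕ} (hℓ : 0 < ℓ) {g h : k} (hh : h ^ ℓ = g) :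
    some h ∈ cc87_Z ℓ (some g) := by
  classical
  rw [cc87_Z, Finset.mem_insert, Finset.mem_image]
  exact Or.inr ⟨h, (Polynomial.mem_nthRootsFinset hℓ g).mpr hh, rfl⟩

theorem cc87_mem_Z_none {ℓ : ℕ} {c : Option k} (h : c ∈ cc87_Z ℓ (none : Option k)) :
    c = none := by
  simpa [cc87_Z] using h

theorem cc87_mem_Z_some {ℓ : ℕ} (hℓ : 0 < ℓ) {c : Option k} {g : k}
    (h : c ∈ cc87_Z ℓ (some g)) : ∃ x : k, c = some x ∧ (x = g ^ ℓ ∨ x ^ ℓ = g) := by
  classical
  rw [cc87_Z, Finset.mem_insert, Finset.mem_image] at h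
  rcases h with rfl | ⟨x, hx, rfl⟩
  · exact ⟨g ^ ℓ, rfl, Or.inl rfl⟩
  · exact ⟨x, rfl, Or.inr ((Polynomial.mem_nthRootsFinset hℓ g).mp hx)⟩

/-- `W g` contains every class `g'` such that `Z g'` meets `Z g`. -/
theorem cc87_hW {ℓ : ℕ} (hℓ : 0 < ℓ) (g g' c : Option k) (hc : c ∈ cc87_Z ℓ g)
    (hc' : c ∈ cc87_Z ℓ g') : g' ∈ cc87_W ℓ g := by
  classical
  rcases g with _ | a
  · have h1 := cc87_mem_Z_none hc
    subst h1
    rcases g' with _ | b
    · simp [cc87_W]
    · obtain ⟨x, hx, -⟩ := cc87_mem_Z_some hℓ hc'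
      exact absurd hx (by simp)
  · obtain ⟨x, rfl, hx⟩ := cc87_mem_Z_some hℓ hc
    rcases g' with _ | b
    · exact absurd (cc87_mem_Z_none hc') (by simp)
    · obtain ⟨y, hy, hy'⟩ := cc87_mem_Z_some hℓ hc'
      have hxy : x = y := Option.some_injective _ hy
      subst hxy
      have hℓℓ : 0 < ℓ * ℓ := Nat.mul_pos hℓ hℓ
      rw [cc87_W, Finset.mem_insert, Finset.mem_insert, Finset.mem_union, Finset.mem_image,
        Finset.mem_image]
      rcases hx with hx | hx <;> rcases hy' with hy' | hy'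
      · -- `x = a^ℓ = b^ℓ`
        exact Or.inr (Or.inr (Or.inl ⟨b, (Polynomial.mem_nthRootsFinset hℓ _).mpr
          (by rw [← hy', hx]), rfl⟩))
      · -- `x = a^ℓ`, `x^ℓ = b`
        exact Or.inr (Or.inl (by rw [← hy', hx]))
      · -- `x^ℓ = a`, `x = b^ℓ`
        exact Or.inr (Or.inr (Or.inr ⟨b, (Polynomial.mem_nthRootsFinset hℓℓ _).mpr
          (by rw [pow_mul, ← hy', hx]), rfl⟩))
      · -- `x^ℓ = a = b`
        exact Or.inl (by rw [← hx, ← hy'])

end ZW

/-! ### Values at places -/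

section Values

variable {K F : Type*} [Field K] [Field F] [Algebra K F]

/-- The value of a function at a place is unique. -/
theorem cc87_value_unique (v : Place K F) (f : F) {c c' : K}
    (h : 0 < v.ord (f - algebraMap K F c)) (h' : 0 < v.ord (f - algebraMap K F c')) : c = c' := by
  by_contra hne
  have h1 := es87_mem_nonunits_of_ord_pos v h
  have h2 := es87_mem_nonunits_of_ord_pos v h'
  obtain ⟨m1, hm1⟩ := ValuationSubring.mem_nonunits_iff_exists_mem_maximalIdeal.mp h1
  obtain ⟨m2, hm2⟩ := ValuationSubring.mem_nonunits_iff_exists_mem_maximalIdeal.mp h2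
  have h3 := (IsLocalRing.maximalIdeal v.toValuationSubring).sub_mem hm2 hm1
  have h4 : (⟨f - algebraMap K F c', m2⟩ - ⟨f - algebraMap K F c, m1⟩ : v.toValuationSubring) =
      algebraMap K v.toValuationSubring (c - c') := by
    apply Subtype.ext
    rw [v.coe_algebraMap, map_sub]
    show (f - algebraMap K F c') - (f - algebraMap K F c) = _
    ring
  rw [h4, IsLocalRing.mem_maximalIdeal, mem_nonunits_iff] at h3
  exact h3 ((Ne.isUnit (sub_ne_zero.mpr hne)).map _)

/-- A function with a value at a place is regular there. -/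
theorem cc87_ord_nonneg_of_value (v : Place K F) (f : F) {c : K}
    (h : 0 < v.ord (f - algebraMap K F c)) : 0 ≤ v.ord f := by
  rw [← wp1_mem_iff_ord_nonneg]
  have h1 : f - algebraMap K F c ∈ v.toValuationSubring :=
    (wp1_mem_iff_ord_nonneg v _).mpr h.le
  have h2 := add_mem h1 (v.algebraMap_mem' c)
  rwa [sub_add_cancel] at h2

end Values

/-! ### Classes on the generic fibre -/

section Generic

variable {L : Type*} [Field L] [Algebra ℚ L] {A : ValuationSubring L} {k : Type*} [Field k]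

omit [Algebra ℚ L] in
/-- A valuation ring over `ℓ` has residue characteristic `ℓ`. -/
theorem cc87_natCast_residue_eq_zero {ℓ : ℕ} (hA : A.LiesOverPrime ℓ) :
    ((ℓ : ℕ) : IsLocalRing.ResidueField A) = 0 := by
  have h2 : ((ℓ : ℕ) : A) ∈ IsLocalRing.maximalIdeal A := by
    obtain ⟨h3, h4⟩ := ValuationSubring.mem_nonunits_iff_exists_mem_maximalIdeal.mp hA
    have h5 : ((ℓ : ℕ) : A) = ⟨(ℓ : L), h3⟩ := Subtype.ext (by simp)
    rw [h5]
    exact h4
  have h6 := (IsLocalRing.residue_eq_zero_iff _).mpr h2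
  rwa [map_natCast] at h6

omit [Algebra ℚ L] in
/-- Kronecker congruence under a ring homomorphism to a field of characteristic `ℓ`. -/
theorem cc87_kronecker_hom (π : A →+* k) (ℓ : ℕ) (hπ : ((ℓ : ℕ) : k) = 0)
    (Φ Ψ : Polynomial (Polynomial ℤ))
    (hΦ : Φ = (Polynomial.X - Polynomial.C (Polynomial.X ^ ℓ)) *
        (Polynomial.X ^ ℓ - Polynomial.C Polynomial.X) +
      Polynomial.C (Polynomial.C (ℓ : ℤ)) * Ψ) (c₁ c₂ : A)
    (h : es87_biEval Φ (c₁ : L) (c₂ : L) = 0) :
    π c₁ = π c₂ ^ ℓ ∨ π c₁ ^ ℓ = π c₂ := by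
  have h0 : es87_biEval Φ c₁ c₂ = 0 :=
    Subtype.val_injective ((es87_map_biEval A.subtype Φ c₁ c₂).trans h)
  have h1 := es87_map_biEval π Φ c₁ c₂
  rw [h0, map_zero, es87_biEval_kronecker ℓ Φ Ψ hΦ, hπ, zero_mul, add_zero] at h1
  rcases mul_eq_zero.mp h1.symm with h | h
  · exact Or.inl (sub_eq_zero.mp h)
  · exact Or.inr (sub_eq_zero.mp h)

variable {N ℓ : ℕ} [NeZero N] [NeZero ℓ]

/-- `es87_support` for an arbitrary reduction map `π : A → k` with `ℓ = 0` in `k`. -/
theorem cc87_support_hom (hℓ : ℓ.Prime) (π : A →+* k) (hπ : ((ℓ : ℕ) : k) = 0)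
    (hα : HeckeAlphaBarIntegral L N ℓ) (hβ : HeckeBetaBarIntegral L N ℓ)
    [HasPrincipalDivisors L (laurentBaseChange L (modularFunctionFieldFull (N * ℓ)))]
    (P u : Place L (laurentBaseChange L (modularFunctionFieldFull N)))
    (hu : u ∈ (heckeDivBar hα hβ (Finsupp.single P 1)).support) :
    (u.ord (es87_j L N) < 0 ↔ P.ord (es87_j L N) < 0) ∧
      ∀ c₁ c₂ : L, 0 < u.ord (es87_j L N - algebraMap L _ c₁) →
        0 < P.ord (es87_j L N - algebraMap L _ c₂) →
        (c₁ ∈ A ↔ c₂ ∈ A) ∧ ∀ (hc₁ : c₁ ∈ A) (hc₂ : c₂ ∈ A),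
          π ⟨c₁, hc₁⟩ = π ⟨c₂, hc₂⟩ ^ ℓ ∨ π ⟨c₁, hc₁⟩ ^ ℓ = π ⟨c₂, hc₂⟩ := by
  obtain ⟨Φ, hmon, -, h₁, h₂, Ψ, hΨ⟩ := kc87_exists ℓ hℓ
  obtain ⟨hpole, hval⟩ := es87_support_of_modEq Φ hmon h₁ h₂ hα hβ P u hu
  refine ⟨hpole, fun c₁ c₂ hc₁ hc₂ => ?_⟩
  obtain ⟨h12, h21⟩ := hval c₁ c₂ hc₁ hc₂
  refine ⟨⟨fun h => es87_mem_of_biEval A Φ hmon c₂ c₁ h h21,
    fun h => es87_mem_of_biEval A Φ hmon c₁ c₂ h h12⟩, fun hc₁A hc₂A => ?_⟩
  exact cc87_kronecker_hom π ℓ hπ Φ Ψ hΨ ⟨c₁, hc₁A⟩ ⟨c₂, hc₂A⟩ h12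

variable (N) in
open Classical in
/-- The class of a place of the generic fibre: the reduction `π c` of the value `c` of `j` if
this value is in `A`, and `none` otherwise (pole of `j`, or non-integral value). -/
def cc87_clsX (π : A →+* k) (P : Place L (laurentBaseChange L (modularFunctionFieldFull N))) :
    Option k :=
  if h : ∃ c : A, 0 < P.ord (es87_j L N - algebraMap L _ (c : L)) then some (π h.choose)
  else none

omit [NeZero N] in
theorem cc87_clsX_eq_some (π : A →+* k)
    {P : Place L (laurentBaseChange L (modularFunctionFieldFull N))}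
    (c : A) (h : 0 < P.ord (es87_j L N - algebraMap L _ (c : L))) :
    cc87_clsX N π P = some (π c) := by
  have hex : ∃ c : A, 0 < P.ord (es87_j L N - algebraMap L _ (c : L)) := ⟨c, h⟩
  rw [cc87_clsX, dif_pos hex]
  have h1 := cc87_value_unique P _ hex.choose_spec h
  rw [Subtype.ext h1]

omit [NeZero N] in
theorem cc87_clsX_eq_none_of_pole (π : A →+* k)
    {P : Place L (laurentBaseChange L (modularFunctionFieldFull N))}
    (h : P.ord (es87_j L N) < 0) : cc87_clsX N π P = none := by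
  rw [cc87_clsX, dif_neg]
  rintro ⟨c, hc⟩
  exact absurd (cc87_ord_nonneg_of_value P _ hc) (not_le.mpr h)

omit [NeZero N] in
theorem cc87_clsX_eq_none_of_notMem (π : A →+* k)
    {P : Place L (laurentBaseChange L (modularFunctionFieldFull N))} {c : L} (hc : c ∉ A)
    (h : 0 < P.ord (es87_j L N - algebraMap L _ c)) : cc87_clsX N π P = none := by
  rw [cc87_clsX, dif_neg]
  rintro ⟨c', hc'⟩
  have h1 := cc87_value_unique P _ h hc'
  exact hc (h1 ▸ c'.2)

/-- **The points of `T_ℓ P` have class in `Z (clsX P)`** (hypothesis `hES2` of the support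
argument, on the generic fibre). `hval`: every place where `j` is regular has a `j`-value
(true over an algebraically closed field). -/
theorem cc87_clsX_mem_Z (hℓ : ℓ.Prime) (π : A →+* k) (hπ : ((ℓ : ℕ) : k) = 0)
    (hα : HeckeAlphaBarIntegral L N ℓ) (hβ : HeckeBetaBarIntegral L N ℓ)
    [HasPrincipalDivisors L (laurentBaseChange L (modularFunctionFieldFull (N * ℓ)))]
    (hval : ∀ v : Place L (laurentBaseChange L (modularFunctionFieldFull N)),
      0 ≤ v.ord (es87_j L N) → ∃ c : L, 0 < v.ord (es87_j L N - algebraMap L _ c))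
    (P u : Place L (laurentBaseChange L (modularFunctionFieldFull N)))
    (hu : u ∈ (heckeDivBar hα hβ (Finsupp.single P 1)).support) :
    cc87_clsX N π u ∈ cc87_Z ℓ (cc87_clsX N π P) := by
  obtain ⟨hpole, hvals⟩ := cc87_support_hom hℓ π hπ hα hβ P u hu
  rcases lt_or_ge (P.ord (es87_j L N)) 0 with hP | hP
  · rw [cc87_clsX_eq_none_of_pole π hP, cc87_clsX_eq_none_of_pole π (hpole.mpr hP)]
    exact cc87_none_mem_Z ℓ
  · have hU : 0 ≤ u.ord (es87_j L N) := by
      by_contra hneg
      exact absurd (hpole.mp (not_le.mp hneg)) (not_lt.mpr hP)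
    obtain ⟨c₂, hc₂⟩ := hval P hP
    obtain ⟨c₁, hc₁⟩ := hval u hU
    obtain ⟨hiff, hres⟩ := hvals c₁ c₂ hc₁ hc₂
    by_cases h₂ : c₂ ∈ A
    · have h₁ : c₁ ∈ A := hiff.mpr h₂
      rw [cc87_clsX_eq_some π ⟨c₂, h₂⟩ hc₂, cc87_clsX_eq_some π ⟨c₁, h₁⟩ hc₁]
      rcases hres h₁ h₂ with h | h
      · rw [h]
        exact cc87_some_pow_mem_Z ℓ _
      · exact cc87_some_root_mem_Z hℓ.pos h
    · have h₁ : c₁ ∉ A := fun h => h₂ (hiff.mp h)
      rw [cc87_clsX_eq_none_of_notMem π h₂ hc₂, cc87_clsX_eq_none_of_notMem π h₁ hc₁]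
      exact cc87_none_mem_Z ℓ

end Generic

/-! ### Classes on the special fibre -/

section Special

variable (k : Type*) [Field k] (N : ℕ)

/-- The function `j` of the special fibre. -/
def cc87_jbar : modularFunctionFieldFullC k N := ⟨jqModC k, jqModC_mem_full k N⟩

@[simp]
theorem cc87_coe_jbar : (cc87_jbar k N : LaurentSeries k) = jqModC k := rfl

open Classical in
/-- The class of a place of the special fibre: the value of `j`, `none` at the poles of `j`. -/
def cc87_cls (Q : Place k (modularFunctionFieldFullC k N)) : Option k :=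
  if h : ∃ c : k, 0 < Q.ord (cc87_jbar k N - algebraMap k _ c) then some h.choose else none

variable {k N}

theorem cc87_cls_eq_some {Q : Place k (modularFunctionFieldFullC k N)} (c : k)
    (h : 0 < Q.ord (cc87_jbar k N - algebraMap k _ c)) : cc87_cls k N Q = some c := by
  have hex : ∃ c : k, 0 < Q.ord (cc87_jbar k N - algebraMap k _ c) := ⟨c, h⟩
  rw [cc87_cls, dif_pos hex]
  exact congrArg some (cc87_value_unique Q _ hex.choose_spec h)

theorem cc87_cls_eq_none_of_pole {Q : Place k (modularFunctionFieldFullC k N)}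
    (h : Q.ord (cc87_jbar k N) < 0) : cc87_cls k N Q = none := by
  rw [cc87_cls, dif_neg]
  rintro ⟨c, hc⟩
  exact absurd (cc87_ord_nonneg_of_value Q _ hc) (not_le.mpr h)

theorem cc87_cls_eq_some_iff {Q : Place k (modularFunctionFieldFullC k N)} (c : k) :
    cc87_cls k N Q = some c ↔ 0 < Q.ord (cc87_jbar k N - algebraMap k _ c) := by
  refine ⟨fun h => ?_, cc87_cls_eq_some c⟩
  by_cases hex : ∃ c : k, 0 < Q.ord (cc87_jbar k N - algebraMap k _ c)
  · rw [cc87_cls, dif_pos hex] at h
    have h1 := hex.choose_spec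
    rwa [Option.some_injective _ h] at h1
  · rw [cc87_cls, dif_neg hex] at h
    exact absurd h (by simp)

/-- `j` is fixed by every coefficient automorphism. -/
theorem cc87_resGalois_smul_jbar (σ : k ≃+* k) :
    fr66_resGalois N σ • cc87_jbar k N = cc87_jbar k N := by
  apply Subtype.ext
  rw [fr66_coe_resGalois_smul]
  exact coeffMap_jqModC (σ : k →+* k)

/-- Coefficient automorphisms act on classes through their action on `k`. -/
theorem cc87_cls_smul (σ : k ≃+* k) (Q : Place k (modularFunctionFieldFullC k N)) :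
    cc87_cls k N (fr66_resGalois N σ • Q) = (cc87_cls k N Q).map σ := by
  by_cases hex : ∃ c : k, 0 < Q.ord (cc87_jbar k N - algebraMap k _ c)
  · obtain ⟨c, hc⟩ := hex
    rw [cc87_cls_eq_some c hc, Option.map_some]
    apply cc87_cls_eq_some
    rw [fr66_ord_sub_const_resGalois k N σ Q _ (cc87_resGalois_smul_jbar σ) c]
    exact hc
  · have h1 : cc87_cls k N Q = none := by rw [cc87_cls, dif_neg hex]
    rw [h1, Option.map_none, cc87_cls, dif_neg]
    rintro ⟨c, hc⟩
    apply hex
    refine ⟨σ.symm c, ?_⟩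
    rw [← fr66_ord_sub_const_resGalois k N σ Q _ (cc87_resGalois_smul_jbar σ) (σ.symm c),
      RingEquiv.apply_symm_apply]
    exact hc

theorem cc87_cls_inv_smul (σ : k ≃+* k) (Q : Place k (modularFunctionFieldFullC k N)) :
    cc87_cls k N ((fr66_resGalois N σ)⁻¹ • Q) = (cc87_cls k N Q).map σ.symm := by
  rw [← map_inv]
  exact cc87_cls_smul σ⁻¹ Q

/-- The Frobenius image of a point of class `g` has class in `Z g`. -/
theorem cc87_cls_phi_mem_Z {ℓ : ℕ} (φk : k ≃+* k) (hφk : ∀ x : k, φk x = x ^ ℓ)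
    (Q : Place k (modularFunctionFieldFullC k N)) :
    cc87_cls k N (fr66_resGalois N φk • Q) ∈ cc87_Z ℓ (cc87_cls k N Q) := by
  rw [cc87_cls_smul]
  rcases cc87_cls k N Q with _ | g
  · exact cc87_none_mem_Z ℓ
  · rw [Option.map_some]
    show some (φk g) ∈ _
    rw [hφk]
    exact cc87_some_pow_mem_Z ℓ g

/-- The inverse Frobenius image of a point of class `g` has class in `Z g`. -/
theorem cc87_cls_phi_inv_mem_Z {ℓ : ℕ} (hℓ : 0 < ℓ) (φk : k ≃+* k) (hφk : ∀ x : k, φk x = x ^ ℓ)
    (Q : Place k (modularFunctionFieldFullC k N)) :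
    cc87_cls k N ((fr66_resGalois N φk)⁻¹ • Q) ∈ cc87_Z ℓ (cc87_cls k N Q) := by
  rw [cc87_cls_inv_smul]
  rcases cc87_cls k N Q with _ | g
  · exact cc87_none_mem_Z ℓ
  · rw [Option.map_some]
    apply cc87_some_root_mem_Z hℓ
    show (φk.symm g) ^ ℓ = g
    rw [← hφk, RingEquiv.apply_symm_apply]

end Special

/-! ### The centre map preserves classes -/

section Centre

variable {L : Type*} [Field L] [Algebra ℚ L] {A : ValuationSubring L} {k : Type*} [Field k]
  {N : ℕ}

/-- A centre map compatible with the values of `j` (RC (ii)) preserves classes. -/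
theorem cc87_cls_r0 (π : A →+* k)
    (r0 : Place L (laurentBaseChange L (modularFunctionFieldFull N)) →
      Place k (modularFunctionFieldFullC k N))
    (hval : ∀ v : Place L (laurentBaseChange L (modularFunctionFieldFull N)),
      0 ≤ v.ord (es87_j L N) → ∃ c : L, 0 < v.ord (es87_j L N - algebraMap L _ c))
    (ha : ∀ P, P.ord (es87_j L N) < 0 → (r0 P).ord (cc87_jbar k N) < 0)
    (hb : ∀ P (c : L), 0 < P.ord (es87_j L N - algebraMap L _ c) → c ∉ A →
      (r0 P).ord (cc87_jbar k N) < 0)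
    (hc : ∀ P (c : A), 0 < P.ord (es87_j L N - algebraMap L _ (c : L)) →
      0 < (r0 P).ord (cc87_jbar k N - algebraMap k _ (π c)))
    (P : Place L (laurentBaseChange L (modularFunctionFieldFull N))) :
    cc87_cls k N (r0 P) = cc87_clsX N π P := by
  rcases lt_or_ge (P.ord (es87_j L N)) 0 with hP | hP
  · rw [cc87_clsX_eq_none_of_pole π hP, cc87_cls_eq_none_of_pole (ha P hP)]
  · obtain ⟨c, hcP⟩ := hval P hP
    by_cases hcA : c ∈ A
    · rw [cc87_clsX_eq_some π ⟨c, hcA⟩ hcP, cc87_cls_eq_some _ (hc P ⟨c, hcA⟩ hcP)]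
    · rw [cc87_clsX_eq_none_of_notMem π hcA hcP, cc87_cls_eq_none_of_pole (hb P c hcP hcA)]

end Centre

end

end Fermat.Agent.S37
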