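import Mathlib
import Fermat.Prelude.Def_ModularCurve_ReductionModL
import Fermat.Agent.S24.PlacesBasicCore
import Fermat.Agent.S37.FrobL66
import Fermat.Agent.S37.Equivar91

/-!
# S37, rows RC-GLUE / RC-EQUIV / ES3 (helper91): class calculus for an ARBITRARY chart coordinate

Same as `Class91.lean` (where the coordinate is `j`), for an arbitrary coordinate, e.g. the
Hauptmodul `h` of `X₀(p₀)` at level `N' = lcm(N, p₀)` (Route V), or `1/h`:

* `Xk : F_k` any element fixed by the coefficient automorphisms, `XL : F_L` any element fixed by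
  the arithmetic Galois action (`cx91_fixed_k`, `cx91_fixed_L`: automatic for series with integer
  coefficients, `coeffMap (Int.castRingHom _) g`).
* `cx91_cls Xk Q : Option k` — `some c` iff `0 < ord_Q (Xk - c)`; `cx91_cls_smul`,
  `cx91_cls_phi`, `cx91_cls_phi_inv` (Frobenius, with `cl91_Fr`-shaped `cx91_Fr`).
* `cx91_clsL A XL P : Option (ResidueField A)` — `some (a mod m_A)` iff `0 < ord_P (XL - a)` for
  some `a ∈ A`; `cx91_clsL_smul` (decomposition group).
* `cx91_equivariant`: **Galois equivariance of a place reduction `r0`** at any level, from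
  conservation + PGI + "`r0` respects `X`-classes" + tube divisors for single `X`-classes.
-/

set_option autoImplicit false

namespace Fermat.Agent.S37

open ModularCurve AlgebraicCurve HahnSeries
open Fermat.Agent.S24

/-! ### the special fibre -/

section ClassK

set_option synthInstance.maxHeartbeats 400000
set_option maxHeartbeats 1000000

variable {k : Type*} [Field k] {N : ℕ}

/-- Series with integer coefficients are fixed by every coefficient automorphism. -/
theorem cx91_fixed_k (g : LaurentSeries ℤ)
    (hg : coeffMap (Int.castRingHom k) g ∈ modularFunctionFieldFullC k N) (σ : k ≃+* k) :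
    fr66_resGalois N σ • (⟨coeffMap (Int.castRingHom k) g, hg⟩ : modularFunctionFieldFullC k N)
      = ⟨coeffMap (Int.castRingHom k) g, hg⟩ := by
  apply Subtype.ext
  rw [fr66_coe_resGalois_smul]
  show coeffMap (σ : k →+* k) (coeffMap (Int.castRingHom k) g) = coeffMap (Int.castRingHom k) g
  rw [coeffMap_coeffMap]
  exact coeffMap_congr (RingHom.ext_int _ _) g

open Classical in
/-- The `X`-class (value of `X`) of a place of the special fibre. -/
noncomputable def cx91_cls (Xk : modularFunctionFieldFullC k N)
    (Q : Place k (modularFunctionFieldFullC k N)) : Option k :=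
  if h : ∃ c : k, 0 < Q.ord (Xk - algebraMap k (modularFunctionFieldFullC k N) c)
  then some h.choose else none

/-- `x ≡ c` and `x ≡ c'` at the same place force `c = c'`. -/
theorem cx91_const_unique {F : Type*} [Field F] [Algebra k F] (Q : Place k F) (x : F) {c c' : k}
    (hc : 0 < Q.ord (x - algebraMap k F c)) (hc' : 0 < Q.ord (x - algebraMap k F c')) :
    c = c' := by
  by_contra hne
  have hcc : algebraMap k F (c' - c) ≠ 0 := by
    rw [Ne, map_eq_zero_iff _ (algebraMap k F).injective, sub_eq_zero]
    exact fun h => hne h.symm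
  have h1 : (x - algebraMap k F c) + -(x - algebraMap k F c') = algebraMap k F (c' - c) := by
    rw [map_sub]; ring
  have hx1 : x - algebraMap k F c ≠ 0 := by
    intro h0; rw [h0, Place.ord_zero] at hc; exact lt_irrefl _ hc
  have hx2 : -(x - algebraMap k F c') ≠ 0 := by
    intro h0
    rw [neg_eq_zero] at h0
    rw [h0, Place.ord_zero] at hc'; exact lt_irrefl _ hc'
  have hneg : Q.ord (-(x - algebraMap k F c')) = Q.ord (x - algebraMap k F c') := by
    have h2 : -(x - algebraMap k F c') = algebraMap k F (-1) * (x - algebraMap k F c') := by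
      rw [map_neg, map_one]; ring
    have hm1 : algebraMap k F (-1) ≠ 0 := by
      rw [map_neg, map_one]; exact neg_ne_zero.mpr one_ne_zero
    rw [h2, Q.ord_mul hm1 (neg_ne_zero.mp hx2), wp1_ord_algebraMap, zero_add]
  have h3 := wp1_ord_add Q _ _ (h1 ▸ hcc) hx1 hx2
  rw [h1, wp1_ord_algebraMap, hneg] at h3
  have := lt_min hc hc'
  omega

theorem cx91_cls_eq_some_iff (Xk : modularFunctionFieldFullC k N)
    (Q : Place k (modularFunctionFieldFullC k N)) (c : k) :
    cx91_cls Xk Q = some c ↔
      0 < Q.ord (Xk - algebraMap k (modularFunctionFieldFullC k N) c) := by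
  classical
  unfold cx91_cls
  constructor
  · intro h
    split_ifs at h with hex
    · rw [← Option.some.inj h]; exact hex.choose_spec
  · intro h
    have hex : ∃ c : k,
        0 < Q.ord (Xk - algebraMap k (modularFunctionFieldFullC k N) c) := ⟨c, h⟩
    rw [dif_pos hex]
    exact congrArg some (cx91_const_unique Q _ hex.choose_spec h)

theorem cx91_cls_eq_none_iff (Xk : modularFunctionFieldFullC k N)
    (Q : Place k (modularFunctionFieldFullC k N)) :
    cx91_cls Xk Q = none ↔
      ∀ c : k, ¬ 0 < Q.ord (Xk - algebraMap k (modularFunctionFieldFullC k N) c) := by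
  classical
  unfold cx91_cls
  constructor
  · intro h c hc
    rw [dif_pos ⟨c, hc⟩] at h
    exact absurd h (by simp)
  · intro h
    rw [dif_neg (fun ⟨c, hc⟩ => h c hc)]

/-- **Classes and coefficient automorphisms**: `cls (σ • Q) = σ (cls Q)` for a coordinate fixed
by `σ` and `σ⁻¹`. -/
theorem cx91_cls_smul (Xk : modularFunctionFieldFullC k N) (σ : k ≃+* k)
    (hX : fr66_resGalois N σ • Xk = Xk)
    (Q : Place k (modularFunctionFieldFullC k N)) :
    cx91_cls Xk (fr66_resGalois N σ • Q) = Option.map σ (cx91_cls Xk Q) := by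
  have hX' : fr66_resGalois N σ.symm • Xk = Xk := by
    have h1 : fr66_resGalois N σ.symm • fr66_resGalois N σ • Xk = Xk := by
      rw [← mul_smul, ← map_mul]
      have : σ.symm * σ = 1 := by
        ext x; exact σ.symm_apply_apply x
      rw [this, map_one, one_smul]
    rw [hX] at h1
    exact h1
  have key : ∀ (τ : k ≃+* k), fr66_resGalois N τ • Xk = Xk →
      ∀ (Q' : Place k (modularFunctionFieldFullC k N)) (c : k),
      cx91_cls Xk Q' = some c → cx91_cls Xk (fr66_resGalois N τ • Q') = some (τ c) := by
    intro τ hτ Q' c hc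
    rw [cx91_cls_eq_some_iff] at hc ⊢
    rw [fr66_ord_sub_const_resGalois k N τ Q' Xk hτ c]
    exact hc
  cases hQ : cx91_cls Xk Q with
  | some c => rw [key σ hX Q c hQ]; rfl
  | none =>
    cases hQ' : cx91_cls Xk (fr66_resGalois N σ • Q) with
    | none => rfl
    | some c =>
      have h := key σ.symm hX' _ c hQ'
      have h2 : fr66_resGalois N σ.symm • fr66_resGalois N σ • Q = Q := by
        rw [← mul_smul, ← map_mul]
        have : σ.symm * σ = 1 := by
          ext x; exact σ.symm_apply_apply x
        rw [this, map_one, one_smul]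
      rw [h2, hQ] at h
      exact absurd h (by simp)

end ClassK

/-! ### Frobenius -/

section Frob

variable (k : Type*) [Field k] {N : ℕ} (ℓ : ℕ) [ExpChar k ℓ] [PerfectRing k ℓ]

/-- The action of the Frobenius on classes. -/
noncomputable def cx91_Fr : Option k ≃ Option k := Equiv.optionCongr (frobeniusEquiv k ℓ).toEquiv

theorem cx91_Fr_some (c : k) : cx91_Fr k ℓ (some c) = some (c ^ ℓ) := by
  simp [cx91_Fr, frobenius_def]

theorem cx91_Fr_none : cx91_Fr k ℓ none = none := rfl

variable {k}

theorem cx91_cls_phi (Xk : modularFunctionFieldFullC k N) (hX : fr66_phi k N ℓ • Xk = Xk)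
    (Q : Place k (modularFunctionFieldFullC k N)) :
    cx91_cls Xk (fr66_phi k N ℓ • Q) = cx91_Fr k ℓ (cx91_cls Xk Q) := by
  rw [fr66_phi, cx91_cls_smul Xk _ hX]
  cases cx91_cls Xk Q <;> rfl

theorem cx91_cls_phi_inv (Xk : modularFunctionFieldFullC k N) (hX : fr66_phi k N ℓ • Xk = Xk)
    (Q : Place k (modularFunctionFieldFullC k N)) :
    cx91_cls Xk ((fr66_phi k N ℓ)⁻¹ • Q) = (cx91_Fr k ℓ).symm (cx91_cls Xk Q) := by
  rw [Equiv.eq_symm_apply, ← cx91_cls_phi ℓ Xk hX, smul_inv_smul]

end Frob

/-! ### the generic fibre -/

section ClassL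

set_option synthInstance.maxHeartbeats 400000
set_option maxHeartbeats 1000000

variable {L : Type*} [Field L] [Algebra ℚ L] (A : ValuationSubring L) {N : ℕ}

/-- Series with integer coefficients are fixed by the arithmetic Galois action. -/
theorem cx91_fixed_L (g : LaurentSeries ℤ)
    (hg : coeffMap (Int.castRingHom L) g ∈ laurentBaseChange L (modularFunctionFieldFull N))
    (σ : L ≃ₐ[ℚ] L) :
    arithmeticGalois (modularFunctionFieldFull N) σ •
        (⟨coeffMap (Int.castRingHom L) g, hg⟩ : laurentBaseChange L (modularFunctionFieldFull N))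
      = ⟨coeffMap (Int.castRingHom L) g, hg⟩ := by
  apply Subtype.ext
  rw [coe_arithmeticGalois_smul]
  show coeffMap (σ : L →+* L) (coeffMap (Int.castRingHom L) g) = coeffMap (Int.castRingHom L) g
  rw [coeffMap_coeffMap]
  exact coeffMap_congr (RingHom.ext_int _ _) g

open Classical in
/-- The tube class of a place of the generic fibre: the residue class of the value of `X`. -/
noncomputable def cx91_clsL (XL : laurentBaseChange L (modularFunctionFieldFull N))
    (P : Place L (laurentBaseChange L (modularFunctionFieldFull N))) :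
    Option (IsLocalRing.ResidueField A) :=
  if h : ∃ a : A, 0 < P.ord (XL -
      algebraMap L (laurentBaseChange L (modularFunctionFieldFull N)) (a : L))
  then some (IsLocalRing.residue A h.choose) else none

variable {A}

theorem cx91_clsL_eq_some (XL : laurentBaseChange L (modularFunctionFieldFull N))
    (P : Place L (laurentBaseChange L (modularFunctionFieldFull N)))
    (a : A) (ha : 0 < P.ord (XL -
      algebraMap L (laurentBaseChange L (modularFunctionFieldFull N)) (a : L))) :
    cx91_clsL A XL P = some (IsLocalRing.residue A a) := by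
  classical
  unfold cx91_clsL
  have hex : ∃ a : A, 0 < P.ord (XL -
      algebraMap L (laurentBaseChange L (modularFunctionFieldFull N)) (a : L)) := ⟨a, ha⟩
  rw [dif_pos hex]
  have h := cx91_const_unique P _ hex.choose_spec ha
  rw [Subtype.ext h]

theorem cx91_clsL_eq_none_iff (XL : laurentBaseChange L (modularFunctionFieldFull N))
    (P : Place L (laurentBaseChange L (modularFunctionFieldFull N))) :
    cx91_clsL A XL P = none ↔ ∀ a : A, ¬ 0 < P.ord (XL -
      algebraMap L (laurentBaseChange L (modularFunctionFieldFull N)) (a : L)) := by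
  classical
  unfold cx91_clsL
  constructor
  · intro h a ha
    rw [dif_pos ⟨a, ha⟩] at h
    exact absurd h (by simp)
  · intro h
    rw [dif_neg (fun ⟨a, ha⟩ => h a ha)]

theorem cx91_clsL_eq_some_iff (XL : laurentBaseChange L (modularFunctionFieldFull N))
    (P : Place L (laurentBaseChange L (modularFunctionFieldFull N)))
    (c : IsLocalRing.ResidueField A) :
    cx91_clsL A XL P = some c ↔ ∃ a : A, IsLocalRing.residue A a = c ∧ 0 < P.ord (XL -
      algebraMap L (laurentBaseChange L (modularFunctionFieldFull N)) (a : L)) := by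
  classical
  constructor
  · intro h
    unfold cx91_clsL at h
    split_ifs at h with hex
    · exact ⟨hex.choose, Option.some.inj h, hex.choose_spec⟩
  · rintro ⟨a, rfl, ha⟩
    exact cx91_clsL_eq_some XL P a ha

/-- **Tube classes and the decomposition group**: `clsL (σ • P) = σ̄ (clsL P)` for a coordinate
fixed by the arithmetic Galois action of the decomposition group. -/
theorem cx91_clsL_smul (XL : laurentBaseChange L (modularFunctionFieldFull N))
    (hX : ∀ τ : A.decompositionSubgroup ℚ,
      arithmeticGalois (modularFunctionFieldFull N) (τ : L ≃ₐ[ℚ] L) • XL = XL)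
    (τ : A.decompositionSubgroup ℚ)
    (P : Place L (laurentBaseChange L (modularFunctionFieldFull N))) :
    cx91_clsL A XL (arithmeticGalois (modularFunctionFieldFull N) (τ : L ≃ₐ[ℚ] L) • P)
      = Option.map (MulSemiringAction.toRingEquiv (A.decompositionSubgroup ℚ)
          (IsLocalRing.ResidueField A) τ) (cx91_clsL A XL P) := by
  have key : ∀ (τ' : A.decompositionSubgroup ℚ)
      (P' : Place L (laurentBaseChange L (modularFunctionFieldFull N))) (a : A),
      0 < P'.ord (XL -
        algebraMap L (laurentBaseChange L (modularFunctionFieldFull N)) (a : L)) →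
      cx91_clsL A XL (arithmeticGalois (modularFunctionFieldFull N) (τ' : L ≃ₐ[ℚ] L) • P')
        = some (MulSemiringAction.toRingEquiv (A.decompositionSubgroup ℚ)
          (IsLocalRing.ResidueField A) τ' (IsLocalRing.residue A a)) := by
    intro τ' P' a ha
    have h1 := SemilinearAut.ord_smul
      (arithmeticGalois (modularFunctionFieldFull N) (L := L) (τ' : L ≃ₐ[ℚ] L)) P'
      (XL - algebraMap L (laurentBaseChange L (modularFunctionFieldFull N)) (a : L))
    rw [smul_sub, hX τ', SemilinearAut.smul_algebraMap] at h1
    have h2 : cx91_clsL A XL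
        (arithmeticGalois (modularFunctionFieldFull N) (τ' : L ≃ₐ[ℚ] L) • P')
        = some (IsLocalRing.residue A (τ' • a)) := by
      refine cx91_clsL_eq_some XL _ (τ' • a) ?_
      rw [← h1] at ha
      exact ha
    rw [h2]
    rfl
  cases hP : cx91_clsL A XL P with
  | some c =>
    obtain ⟨a, rfl, ha⟩ := (cx91_clsL_eq_some_iff XL P c).mp hP
    rw [key τ P a ha]; rfl
  | none =>
    cases hP' : cx91_clsL A XL
        (arithmeticGalois (modularFunctionFieldFull N) (τ : L ≃ₐ[ℚ] L) • P) with
    | none => rfl
    | some c =>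
      obtain ⟨a, rfl, ha⟩ := (cx91_clsL_eq_some_iff XL _ c).mp hP'
      have h := key τ⁻¹ _ a ha
      have h2 : arithmeticGalois (modularFunctionFieldFull N) (L := L)
            ((τ⁻¹ : A.decompositionSubgroup ℚ) : L ≃ₐ[ℚ] L) •
          arithmeticGalois (modularFunctionFieldFull N) (τ : L ≃ₐ[ℚ] L) • P = P := by
        rw [← mul_smul, ← map_mul]
        have : ((τ⁻¹ : A.decompositionSubgroup ℚ) : L ≃ₐ[ℚ] L) * (τ : L ≃ₐ[ℚ] L) = 1 := by
          rw [← Subgroup.coe_mul, inv_mul_cancel, Subgroup.coe_one]
        rw [this, map_one, one_smul]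
      rw [h2, hP] at h
      exact absurd h (by simp)

/-- **Galois equivariance of a place reduction** (clause 3 of `final13_Geo` / `tv1_Geo`), for an
arbitrary chart coordinate `X` (`XL` on the generic fibre, `Xk` on the special fibre, both fixed
by the Galois actions): from conservation, PGI, "`r0` respects `X`-classes" and tube divisors
for single `X`-classes. -/
theorem cx91_equivariant
    (XL : laurentBaseChange L (modularFunctionFieldFull N))
    (hXL : ∀ τ : A.decompositionSubgroup ℚ,
      arithmeticGalois (modularFunctionFieldFull N) (τ : L ≃ₐ[ℚ] L) • XL = XL)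
    (Xk : modularFunctionFieldFullC (IsLocalRing.ResidueField A) N)
    (hXk : ∀ σ : IsLocalRing.ResidueField A ≃+* IsLocalRing.ResidueField A,
      fr66_resGalois N σ • Xk = Xk)
    (r0 : Place L (laurentBaseChange L (modularFunctionFieldFull N)) →
      Place (IsLocalRing.ResidueField A)
        (modularFunctionFieldFullC (IsLocalRing.ResidueField A) N))
    (hr : IsPlaceReductionAlong A (IsLocalRing.residue A) N r0)
    (hgen : PrincipalGeneratedByIntegral A (IsLocalRing.residue A) N)
    (hcls : ∀ P, cx91_cls Xk (r0 P) = cx91_clsL A XL P)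
    (htube : ∀ P, ∃ D ∈ Divisor.principal (K := L)
        (F := laurentBaseChange L (modularFunctionFieldFull N)), D P = 1 ∧
      ∀ P', P' ≠ P → cx91_clsL A XL P' = cx91_clsL A XL P → D P' = 0)
    (σ : L ≃ₐ[ℚ] L) (hσ : σ ∈ A.decompositionSubgroup ℚ)
    (P : Place L (laurentBaseChange L (modularFunctionFieldFull N))) :
    r0 (arithmeticGalois (modularFunctionFieldFull N) σ • P)
      = fr66_resGalois N (MulSemiringAction.toRingEquiv (A.decompositionSubgroup ℚ)
          (IsLocalRing.ResidueField A) ⟨σ, hσ⟩) • r0 P := by
  refine eq91_equivariant A N r0 hr hgen (cx91_cls Xk) ?_ σ hσ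
    (Option.map (MulSemiringAction.toRingEquiv (A.decompositionSubgroup ℚ)
      (IsLocalRing.ResidueField A) ⟨σ, hσ⟩))
    (Option.map_injective (RingEquiv.injective _)) ?_ ?_ P
  · intro P
    obtain ⟨D, hD, hDP, hD0⟩ := htube P
    exact ⟨D, hD, hDP, fun P' hne h => hD0 P' hne (by rw [← hcls P', ← hcls P, h])⟩
  · intro P
    rw [hcls, hcls]
    exact cx91_clsL_smul XL hXL ⟨σ, hσ⟩ P
  · intro Q
    exact cx91_cls_smul Xk _ (hXk _) Q

end ClassL

end Fermat.Agent.S37
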