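import Fermat.Agent.S37.Final13
import Fermat.Agent.S37.HeckeInputs63

/-!
# S37 (helper13, lead): closed top for route L

`closed13_S18` is the frozen statement S18 as a proposition (the type of
`Fermat.Agent.S18.result`); `closed13_result` is the frozen statement S37 from it and the
level-`N` geometric package `final13_Geo` (Hecke inputs discharged by `hi63_heckeInputsAlong`).
-/

set_option autoImplicit false
set_option linter.style.haveILetI false

namespace Fermat.Agent.S37

open ModularCurve AlgebraicCurve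

local notation "Qb" => AlgebraicClosure ℚ
local notation "GQ" => AlgebraicClosure ℚ ≃ₐ[ℚ] AlgebraicClosure ℚ

/-- the frozen statement S18 as a proposition (the type of `Fermat.Agent.S18.result`) -/
def closed13_S18 : Prop :=
  ∀ (N : ℕ) [NeZero N] {ℓ : ℕ} [Fact ℓ.Prime] (_ : ¬ ℓ ∣ N) (A : ValuationSubring Qb)
    (_ : A.LiesOverPrime ℓ) (_ : ModularCurve.ReductionInputsModL A N) (m : ℕ) (_ : ¬ ℓ ∣ m)
    (z : ModularCurve.JZero N) (_ : m • z = 0) (_ : ModularCurve.reductionModL A N z = 0), z = 0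

theorem closed13_S18At (h : closed13_S18) (N : ℕ) [NeZero N] (ℓ : ℕ) (hℓ : ℓ.Prime)
    (hℓN : ¬ ℓ ∣ N) (A : ValuationSubring Qb) (hA : A.LiesOverPrime ℓ) : top13_S18At N A ℓ := by
  intro hin m hm z hmz hz
  haveI : Fact ℓ.Prime := ⟨hℓ⟩
  exact h N hℓN A hA hin m hm z hmz hz

/-- **S37 from statement S18 and the level-`N` geometric package** (route L). -/
theorem closed13_result (hS18 : closed13_S18) (N p : ℕ) [NeZero N]
    (hcomm : HeckeOperatorsCommuteBar N)
    (hgeo : ∀ (ℓ : ℕ) (hℓ : ℓ.Prime), ¬ ℓ ∣ N → ∀ A : ValuationSubring Qb,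
      A.LiesOverPrime ℓ →
      haveI : NeZero ℓ := ⟨hℓ.ne_zero⟩
      final13_Geo N ℓ A) :
    letI := ModularCurve.heckeModuleBar N
    ∀ (_ : SMulCommClass GQ ModularCurve.HeckeAlg (ModularCurve.JZero N)),
      ModularCurve.SpecializationExists (K := ℚ) (L := Qb) N p (ModularCurve.JZero N) :=
  final13_result N p hcomm (fun ℓ hℓ hℓN A hA => closed13_S18At hS18 N ℓ hℓ hℓN A hA)
    (fun ℓ hℓ _ => by
      haveI : NeZero ℓ := ⟨hℓ.ne_zero⟩
      exact hi63_heckeInputsAlong N ℓ)
    hgeo

end Fermat.Agent.S37
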