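import Fermat.Agent.S37.NormConj73
import Fermat.Agent.S37.AtkinLehner47
import Fermat.Agent.S37.KroneckerFrob50

/-!
# S37, rows AL + NC + KR assembled (helper73)

The Kronecker congruence for the Hecke norm with no remaining hypothesis: the norm-conjugates
identity `hNC` of `kr50_main_of`, `kr50_main_frob_of`, `kr50_main_alpha_frob_of` (helper50) is
discharged by `nc73_norm` (row NC) and the Atkin–Lehner involution `al47_al_exists`,
`al47_norm_symm` (helper47, row AL).

* `kr73_hNC_beta`, `kr73_hNC_alpha` : the norm-conjugates identity along `β` / along `α`.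
* `kr73_main` : row KR (`kr_main` of the blueprint).
* `kr73_main_frob`, `kr73_main_alpha_frob` : the Frobenius forms.
-/

set_option autoImplicit false

open ModularCurve AlgebraicCurve

namespace Fermat.Agent.S37

open Fermat.Agent.S24

theorem kr73_qTwist_eq {R : Type*} [CommRing R] (c : Rˣ) :
    nc73_qTwist c = kr50_qTwist c := by
  refine RingHom.ext fun x => ?_
  ext n
  rfl

/-- A primitive `l`-th root of unity in `ℚ̄ˣ`. -/
theorem kr73_exists_primitiveRoot (l : ℕ) [NeZero l] : ∃ ζ : Kbarˣ, IsPrimitiveRoot ζ l := by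
  obtain ⟨ζ, hζ⟩ := HasEnoughRootsOfUnity.exists_primitiveRoot Kbar l
  refine ⟨(hζ.isUnit (NeZero.ne l)).unit, ?_⟩
  rw [← IsPrimitiveRoot.coe_units_iff]
  exact hζ

variable (M l : ℕ) [NeZero M] [NeZero l]

/-- **Norm-conjugates identity along `β`** (the hypothesis `hNC` of `kr50_main_of` and
`kr50_main_frob_of`). -/
theorem kr73_hNC_beta (hl : l.Prime) (hM : ¬ l ∣ M) (f : modularFunctionFieldBar M) :
    letI := algebraAlong (heckeBetaBar Kbar M l)
    ∃ ζ : Kbarˣ, ζ ^ l = 1 ∧
      qExpand Kbar l ((Algebra.norm (modularFunctionFieldBar M) (heckeAlphaBar Kbar M l f) :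
          modularFunctionFieldBar M) : LaurentSeries Kbar)
        = qExpand Kbar (l * l) (f : LaurentSeries Kbar)
          * ∏ i ∈ Finset.range l, kr50_qTwist (ζ ^ i) (f : LaurentSeries Kbar) := by
  obtain ⟨ζ, hζ⟩ := kr73_exists_primitiveRoot l
  have hcop : Nat.Coprime l M := (Nat.Prime.coprime_iff_not_dvd hl).mpr hM
  refine ⟨ζ, hζ.pow_eq_one, ?_⟩
  have h := nc73_norm M l hl hM ζ hζ (al47_al_exists M l hcop) f
  simp only [kr73_qTwist_eq] at h
  exact h

/-- **Norm-conjugates identity along `α`** (the hypothesis `hNC` of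
`kr50_main_alpha_frob_of`). -/
theorem kr73_hNC_alpha (hl : l.Prime) (hM : ¬ l ∣ M) (f : modularFunctionFieldBar M) :
    letI := algebraAlong (heckeAlphaBar Kbar M l)
    ∃ ζ : Kbarˣ, ζ ^ l = 1 ∧
      qExpand Kbar l ((Algebra.norm (modularFunctionFieldBar M) (heckeBetaBar Kbar M l f) :
          modularFunctionFieldBar M) : LaurentSeries Kbar)
        = qExpand Kbar (l * l) (f : LaurentSeries Kbar)
          * ∏ i ∈ Finset.range l, kr50_qTwist (ζ ^ i) (f : LaurentSeries Kbar) := by
  have hcop : Nat.Coprime l M := (Nat.Prime.coprime_iff_not_dvd hl).mpr hM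
  obtain ⟨ζ, hζ, h⟩ := kr73_hNC_beta M l hl hM f
  refine ⟨ζ, hζ, ?_⟩
  rw [← al47_norm_symm M l hcop f]
  exact h

/-- **Row KR** (`kr_main` of the S37 blueprint): Kronecker congruence for the norm along `β`
of `α y`. -/
theorem kr73_main (hl : l.Prime) (hM : ¬ l ∣ M) (A : ValuationSubring Kbar)
    (hA : A.LiesOverPrime l) (y : LaurentSeries A)
    (hy : coeffMap A.subtype y ∈ modularFunctionFieldBar M) :
    letI := algebraAlong (heckeBetaBar Kbar M l)
    ∃ y' : LaurentSeries A,
      coeffMap A.subtype y' = ((Algebra.norm (modularFunctionFieldBar M)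
          (heckeAlphaBar Kbar M l ⟨coeffMap A.subtype y, hy⟩) : modularFunctionFieldBar M) :
            LaurentSeries Kbar) ∧
      qExpand (IsLocalRing.ResidueField A) l (coeffMap (IsLocalRing.residue A) y') =
        qExpand (IsLocalRing.ResidueField A) (l * l) (coeffMap (IsLocalRing.residue A) y) *
          (coeffMap (IsLocalRing.residue A) y) ^ l :=
  kr50_main_of M l hl A hA y hy (kr73_hNC_beta M l hl hM ⟨coeffMap A.subtype y, hy⟩)

/-- Row KR, Frobenius form, norm along `β` of `α y`. -/
theorem kr73_main_frob (hl : l.Prime) (hM : ¬ l ∣ M) (A : ValuationSubring Kbar)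
    (hA : A.LiesOverPrime l) (y : LaurentSeries A)
    (hy : coeffMap A.subtype y ∈ modularFunctionFieldBar M)
    (φ : IsLocalRing.ResidueField A →+* IsLocalRing.ResidueField A)
    (hφ : ∀ x, φ x = x ^ l) :
    letI := algebraAlong (heckeBetaBar Kbar M l)
    ∃ y' : LaurentSeries A,
      coeffMap A.subtype y' = ((Algebra.norm (modularFunctionFieldBar M)
          (heckeAlphaBar Kbar M l ⟨coeffMap A.subtype y, hy⟩) : modularFunctionFieldBar M) :
            LaurentSeries Kbar) ∧
      coeffMap (IsLocalRing.residue A) y' =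
        qExpand (IsLocalRing.ResidueField A) l (coeffMap (IsLocalRing.residue A) y) *
          coeffMap φ (coeffMap (IsLocalRing.residue A) y) :=
  kr50_main_frob_of M l hl A hA y hy (kr73_hNC_beta M l hl hM ⟨coeffMap A.subtype y, hy⟩) φ hφ

/-- Row KR, Frobenius form, norm along `α` of `β y` (the shape consumed by the
Eichler–Shimura relation on principal divisors). -/
theorem kr73_main_alpha_frob (hl : l.Prime) (hM : ¬ l ∣ M) (A : ValuationSubring Kbar)
    (hA : A.LiesOverPrime l) (y : LaurentSeries A)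
    (hy : coeffMap A.subtype y ∈ modularFunctionFieldBar M)
    (φ : IsLocalRing.ResidueField A →+* IsLocalRing.ResidueField A)
    (hφ : ∀ x, φ x = x ^ l) :
    letI := algebraAlong (heckeAlphaBar Kbar M l)
    ∃ y' : LaurentSeries A,
      coeffMap A.subtype y' = ((Algebra.norm (modularFunctionFieldBar M)
          (heckeBetaBar Kbar M l ⟨coeffMap A.subtype y, hy⟩) : modularFunctionFieldBar M) :
            LaurentSeries Kbar) ∧
      coeffMap (IsLocalRing.residue A) y' =
        qExpand (IsLocalRing.ResidueField A) l (coeffMap (IsLocalRing.residue A) y) *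
          coeffMap φ (coeffMap (IsLocalRing.residue A) y) :=
  kr50_main_alpha_frob_of M l hl A hA y hy
    (kr73_hNC_alpha M l hl hM ⟨coeffMap A.subtype y, hy⟩) φ hφ

end Fermat.Agent.S37
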