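import Fermat.Agent.S37.MixedES49
import Fermat.Agent.S37.KroneckerMain73
import Fermat.Agent.S37.GaussPGI41
import Fermat.Agent.S37.HeckeInputs63

/-!
# S37, row ES1 (helper49), part 4: the Eichler–Shimura relation on principal divisors, CLOSED

All inputs of ES1 which are on main are discharged here: Kronecker + norm conjugates +
Atkin–Lehner (`kr73_hNC_alpha`), Frobenius (`FrobL66`), the Hecke inputs (`hi63_*`) and
`PrincipalGeneratedByIntegral` (`ga41_pgi_of_liesOver`).  What remains is only the place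
reduction itself (row RC): `IsPlaceReductionModL A N r0` (level `N`) resp. a conserving divisor
map (mixed level, Route V).

* `es49_KR_closed` : `es49_KR A (residue A) N ℓ` for `ℓ` prime, `ℓ ∤ N`, `A` over `ℓ`.
* `es49_closed` : level `N` (Route L), the principal-divisor case of clause 4 of `final13_Geo`.
* `mx49_closed` : mixed level, any conserving `ρ`.
* `mx49_closed_pullback` : mixed level, `ρ = r0'_* ∘ π^*`.
* `mx49_iota_isIntegral`, `mx49_hasPrincipalDivisors` : the side conditions of `π^*`.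
-/

set_option autoImplicit false
set_option linter.style.haveILetI false
set_option linter.unusedSectionVars false
set_option synthInstance.maxHeartbeats 400000

namespace Fermat.Agent.S37

open ModularCurve AlgebraicCurve

local notation "Qbar" => AlgebraicClosure ℚ

section Closed

variable {N N' ℓ : ℕ} [NeZero N] [NeZero N'] [NeZero ℓ]

/-- **Rows KR + NC + AL in the shape of `es49_KR`**, no hypotheses left. -/
theorem es49_KR_closed (hl : ℓ.Prime) (hN : ¬ ℓ ∣ N) (A : ValuationSubring Qbar)
    (hA : A.LiesOverPrime ℓ) : es49_KR A (IsLocalRing.residue A) N ℓ :=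
  es49_KR_of_NC hl A hA (kr73_hNC_alpha N ℓ hl hN)

/-- `ExpChar` of the residue field of a valuation ring of `ℚ̄` over `ℓ`. -/
theorem es49_expChar (hl : ℓ.Prime) (A : ValuationSubring Qbar) (hA : A.LiesOverPrime ℓ) :
    ExpChar (IsLocalRing.ResidueField A) ℓ := by
  haveI : CharP (IsLocalRing.ResidueField A) ℓ := kr50_charP A hl hA
  exact ExpChar.prime hl

/-- The level-raising inclusion `F(N) → F(N')` is integral. -/
theorem mx49_iota_isIntegral (hNN' : N ∣ N') : (mx49_iota Qbar hNN').toRingHom.IsIntegral := by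
  haveI : HasPrincipalDivisors Qbar (modularFunctionFieldBar N') :=
    hi63_hasPrincipalDivisors_bar N'
  haveI := hi63_finite_x N
  haveI := hi63_finite_x N'
  obtain ⟨hint, -, -, -⟩ := hi63_along_all (mx49_iota Qbar hNN')
    (hi63_x N) (hi63_x_transcendental N) (hi63_x N') (hi63_x_transcendental N')
  exact hint

/-- The finiteness and norm-formula components of the Hecke inputs (row H). -/
theorem es49_hecke_fin_norm (N ℓ : ℕ) [NeZero N] [NeZero ℓ] :
    ∃ hfin : FiniteAlong Qbar (heckeAlphaBar Qbar N ℓ),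
      NormFormulaAlong Qbar (heckeAlphaBar Qbar N ℓ) hfin := by
  have h := hi63_heckeInputsAlong N ℓ
  unfold HeckeInputsAlong at h
  obtain ⟨_, _, _, hfin, _, hNF⟩ := h
  exact ⟨hfin, hNF⟩

set_option maxHeartbeats 1000000 in
/-- **Row ES1, level `N`, closed** (Route L): for a Prelude place reduction `r0` at level `N`,
`ℓ` prime, `ℓ ∤ N`, `A` over `ℓ`, and every principal divisor `D`:
`r0_* (T_ℓ D) = φ • r0_* D + ℓ • (φ⁻¹ • r0_* D)`, `φ = fr66_resGalois N φk`. -/
theorem es49_closed (hl : ℓ.Prime) (hN : ¬ ℓ ∣ N) (A : ValuationSubring Qbar)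
    (hA : A.LiesOverPrime ℓ)
    {r0 : Place Qbar (modularFunctionFieldBar N) →
      Place (IsLocalRing.ResidueField A)
        (modularFunctionFieldFullC (IsLocalRing.ResidueField A) N)}
    (hr : IsPlaceReductionModL A N r0)
    (hα : HeckeAlphaBarIntegral Qbar N ℓ) (hβ : HeckeBetaBarIntegral Qbar N ℓ)
    [HasPrincipalDivisors Qbar (modularFunctionFieldBar (N * ℓ))]
    (φk : IsLocalRing.ResidueField A ≃+* IsLocalRing.ResidueField A)
    (hφ : ∀ x, φk x = x ^ ℓ) :
    ∀ D ∈ Divisor.principal (K := Qbar) (F := modularFunctionFieldBar N),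
      Finsupp.mapDomain r0 (heckeDivBar hα hβ D) =
        fr66_resGalois N φk • Finsupp.mapDomain r0 D +
          ℓ • ((fr66_resGalois N φk)⁻¹ • Finsupp.mapDomain r0 D) := by
  intro D hD
  obtain ⟨hfin, hNF⟩ := es49_hecke_fin_norm N ℓ
  have hgen := ga41_pgi_of_liesOver N A hl hA hN
  have hNC := kr73_hNC_alpha N ℓ hl hN
  have h := es49_principal_modL hl A hA hr hgen hα hβ hfin hNF
  exact h hNC φk hφ hD

set_option maxHeartbeats 1000000 in
/-- **Row ES1, mixed level, closed** (Route V), for an arbitrary conserving divisor map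
`ρ : Div F(N) →+ Div F(N')_k`, `N ∣ N'`. -/
theorem mx49_closed (hl : ℓ.Prime) (hN : ¬ ℓ ∣ N) (A : ValuationSubring Qbar)
    (hA : A.LiesOverPrime ℓ) (hNN' : N ∣ N')
    {ρ : Divisor Qbar (modularFunctionFieldBar N) →+
      Divisor (IsLocalRing.ResidueField A)
        (modularFunctionFieldFullC (IsLocalRing.ResidueField A) N')}
    (hρ : mx49_Conserves A (IsLocalRing.residue A) N N' ρ)
    (hα : HeckeAlphaBarIntegral Qbar N ℓ) (hβ : HeckeBetaBarIntegral Qbar N ℓ)
    [HasPrincipalDivisors Qbar (modularFunctionFieldBar (N * ℓ))]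
    (φk : IsLocalRing.ResidueField A ≃+* IsLocalRing.ResidueField A)
    (hφ : ∀ x, φk x = x ^ ℓ) :
    ∀ D ∈ Divisor.principal (K := Qbar) (F := modularFunctionFieldBar N),
      ρ (heckeDivBar hα hβ D) =
        Finsupp.mapDomain (fun Q => fr66_resGalois N' φk • Q) (ρ D) +
          (ℓ : ℤ) • Finsupp.mapDomain (fun Q => (fr66_resGalois N' φk)⁻¹ • Q) (ρ D) := by
  haveI : ExpChar (IsLocalRing.ResidueField A) ℓ := es49_expChar hl A hA
  obtain ⟨hfin, hNF⟩ := es49_hecke_fin_norm N ℓ
  have hgen := ga41_pgi_of_liesOver N A hl hA hN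
  have hKR := es49_KR_closed hl hN A hA
  have hFR := es49_FR_resGalois N' φk hφ
  have hk := mx49_fullC_mono (IsLocalRing.ResidueField A) hNN'
  exact mx49_principal_int hρ hk hgen hα hβ hfin hNF hFR hKR

set_option maxHeartbeats 1000000 in
/-- **Row ES1, mixed level, closed, for `ρ = r0'_* ∘ π^*`** (Route V): `r0'` a Prelude place
reduction at level `N'`, `N ∣ N'`, `π^* = Divisor.pullbackAlong (mx49_iota Qbar hNN')`. -/
theorem mx49_closed_pullback (hl : ℓ.Prime) (hN : ¬ ℓ ∣ N) (A : ValuationSubring Qbar)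
    (hA : A.LiesOverPrime ℓ) (hNN' : N ∣ N')
    (hι : (mx49_iota Qbar hNN').toRingHom.IsIntegral)
    [HasPrincipalDivisors Qbar (modularFunctionFieldBar N')]
    {r0 : Place Qbar (modularFunctionFieldBar N') →
      Place (IsLocalRing.ResidueField A)
        (modularFunctionFieldFullC (IsLocalRing.ResidueField A) N')}
    (hr : IsPlaceReductionModL A N' r0)
    (hα : HeckeAlphaBarIntegral Qbar N ℓ) (hβ : HeckeBetaBarIntegral Qbar N ℓ)
    [HasPrincipalDivisors Qbar (modularFunctionFieldBar (N * ℓ))]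
    (φk : IsLocalRing.ResidueField A ≃+* IsLocalRing.ResidueField A)
    (hφ : ∀ x, φk x = x ^ ℓ) :
    ∀ D ∈ Divisor.principal (K := Qbar) (F := modularFunctionFieldBar N),
      Finsupp.mapDomain r0
          (Divisor.pullbackAlong (mx49_iota Qbar hNN') hι (heckeDivBar hα hβ D)) =
        fr66_resGalois N' φk •
            Finsupp.mapDomain r0 (Divisor.pullbackAlong (mx49_iota Qbar hNN') hι D) +
          ℓ • ((fr66_resGalois N' φk)⁻¹ •
            Finsupp.mapDomain r0 (Divisor.pullbackAlong (mx49_iota Qbar hNN') hι D)) := by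
  intro D hD
  obtain ⟨hfin, hNF⟩ := es49_hecke_fin_norm N ℓ
  have hgen := ga41_pgi_of_liesOver N A hl hA hN
  have hNC := kr73_hNC_alpha N ℓ hl hN
  have h := mx49_principal_pullback_modL hl A hA hNN' hι hr hgen hα hβ hfin hNF
  exact h hNC φk hφ hD

end Closed

end Fermat.Agent.S37
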