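import Fermat.Agent.S37.FrobES49

/-!
# S37, row ES1 (helper49), part 3: MIXED-LEVEL Eichler–Shimura on principal divisors

Route V (two-level): the place reduction `r0'` lives at a level `N'` with `N ∣ N'`, the Hecke
correspondence `T_ℓ` at level `N`.  The statement is made for an arbitrary additive map
`ρ : Div F(N)_L →+ Div F(N')_k` which is *conserving* (`mx49_Conserves`): on the divisor of an
`A`-integral series `y` of `F(N)_L` with nonzero reduction in `F(N')_k` it returns the divisor
of the reduction.  Examples: `ρ = r0_*` (level `N' = N`), `ρ = r0'_* ∘ π^*` (`mx49_conserves_pullback`).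

* `mx49_principal` : `ρ (T_ℓ D) = Φ_* (ρ D) + ℓ • Φ⁻¹_* (ρ D)` for every principal `D`.
* `mx49_principal_pullback`, `mx49_principal_pullback_resGalois`, `mx49_principal_pullback_modL` :
  the same for `ρ = r0'_* ∘ π^*`, with `Φ = fr66_resGalois N' φk`.
-/

set_option autoImplicit false
set_option linter.style.haveILetI false
set_option linter.unusedSectionVars false

namespace Fermat.Agent.S37

open ModularCurve AlgebraicCurve

section Mono

/-- `F(N)_k ⊆ F(N')_k` for `N ∣ N'`. -/
theorem mx49_fullC_mono (k : Type*) [Field k] {N N' : ℕ} (h : N ∣ N') :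
    modularFunctionFieldFullC k N ≤ modularFunctionFieldFullC k N' := by
  rw [modularFunctionFieldFullC, IntermediateField.adjoin_le_iff]
  rintro x ⟨d, hne, hdvd, rfl⟩
  haveI := hne
  exact jqModCd_mem_full k N' (hdvd.trans h)

/-- `F(N)_L ⊆ F(N')_L` for `N ∣ N'`. -/
theorem mx49_baseChange_mono (L : Type*) [Field L] [Algebra ℚ L] {N N' : ℕ} [NeZero N]
    [NeZero N'] (h : N ∣ N') :
    laurentBaseChange L (modularFunctionFieldFull N) ≤
      laurentBaseChange L (modularFunctionFieldFull N') := by
  rw [laurentBaseChange, IntermediateField.adjoin_le_iff]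
  rintro _ ⟨y, hy, rfl⟩
  exact coeffEmb_mem_laurentBaseChange L (full_degeneracy_le h hy)

/-- The inclusion `π^* : F(N)_L → F(N')_L` for `N ∣ N'`. -/
noncomputable def mx49_iota (L : Type*) [Field L] [Algebra ℚ L] {N N' : ℕ} [NeZero N]
    [NeZero N'] (h : N ∣ N') :
    laurentBaseChange L (modularFunctionFieldFull N) →ₐ[L]
      laurentBaseChange L (modularFunctionFieldFull N') :=
  IntermediateField.inclusion (mx49_baseChange_mono L h)

@[simp]
theorem mx49_coe_iota (L : Type*) [Field L] [Algebra ℚ L] {N N' : ℕ} [NeZero N]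
    [NeZero N'] (h : N ∣ N') (x : laurentBaseChange L (modularFunctionFieldFull N)) :
    ((mx49_iota L h x : laurentBaseChange L (modularFunctionFieldFull N')) : LaurentSeries L) =
      (x : LaurentSeries L) :=
  IntermediateField.coe_inclusion _ x

end Mono

section Abstract

variable {L : Type*} [Field L] [Algebra ℚ L] (A : ValuationSubring L)
variable {k : Type*} [Field k] (π : A →+* k)
variable (N N' ℓ : ℕ) [NeZero N] [NeZero N'] [NeZero ℓ]

/-- A *conserving* divisor map from level `N` (over `L`) to level `N'` (over `k`): on the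
divisor of an `A`-integral series of `F(N)_L` whose reduction is a nonzero element of `F(N')_k`
it returns the divisor of the reduction. -/
def mx49_Conserves
    (ρ : Divisor L (laurentBaseChange L (modularFunctionFieldFull N)) →+
      Divisor k (modularFunctionFieldFullC k N')) : Prop :=
  ∀ (y : LaurentSeries A)
    (hy : coeffMap A.subtype y ∈ laurentBaseChange L (modularFunctionFieldFull N))
    (hyk : coeffMap π y ∈ modularFunctionFieldFullC k N'),
    coeffMap π y ≠ 0 →
      ∀ D : Divisor L (laurentBaseChange L (modularFunctionFieldFull N)),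
        (∀ P, D P = P.ord (⟨coeffMap A.subtype y, hy⟩ :
          laurentBaseChange L (modularFunctionFieldFull N))) →
          ∀ Q, ρ D Q = Q.ord (⟨coeffMap π y, hyk⟩ : modularFunctionFieldFullC k N')

variable {A π N N' ℓ}

/-- Level `N' = N`: the push-forward along a Prelude place reduction is conserving. -/
theorem mx49_conserves_of_isPlaceReductionAlong
    {r0 : Place L (laurentBaseChange L (modularFunctionFieldFull N)) →
      Place k (modularFunctionFieldFullC k N)}
    (hr : IsPlaceReductionAlong A π N r0) :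
    mx49_Conserves A π N N (Finsupp.mapDomain.addMonoidHom r0) :=
  fun y hy hyk hne D hD Q => hr.2 y hy hyk hne D hD Q

/-- **Mixed-level ES on integral principal divisors.** -/
theorem mx49_integral
    {ρ : Divisor L (laurentBaseChange L (modularFunctionFieldFull N)) →+
      Divisor k (modularFunctionFieldFullC k N')}
    (hρ : mx49_Conserves A π N N' ρ)
    (hk : modularFunctionFieldFullC k N ≤ modularFunctionFieldFullC k N')
    (hα : HeckeAlphaBarIntegral L N ℓ) (hβ : HeckeBetaBarIntegral L N ℓ)
    [HasPrincipalDivisors L (laurentBaseChange L (modularFunctionFieldFull (N * ℓ)))]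
    (hfin : FiniteAlong L (heckeAlphaBar L N ℓ))
    (hNF : NormFormulaAlong L (heckeAlphaBar L N ℓ) hfin)
    {Φp Φm : Place k (modularFunctionFieldFullC k N') → Place k (modularFunctionFieldFullC k N')}
    (hFR : es49_FR k N' ℓ Φp Φm) (hKR : es49_KR A π N ℓ)
    {D : Divisor L (laurentBaseChange L (modularFunctionFieldFull N))}
    (hD : D ∈ integralPrincipalDivisors A π N) :
    ρ (heckeDivBar hα hβ D) =
      Finsupp.mapDomain Φp (ρ D) + ℓ • Finsupp.mapDomain Φm (ρ D) := by
  obtain ⟨hΦ1, hΦ2, hFR1, hFR2⟩ := hFR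
  obtain ⟨y, hy, hyk0, hne, hDy⟩ := hD
  have hyk : coeffMap π y ∈ modularFunctionFieldFullC k N' := hk hyk0
  -- the function `f` and its reduction `z`
  have hf : (⟨coeffMap A.subtype y, hy⟩ : laurentBaseChange L (modularFunctionFieldFull N)) ≠ 0 := by
    intro h0
    apply hne
    have h1 : coeffMap A.subtype y = 0 := congrArg Subtype.val h0
    have h2 : y = 0 := by
      ext n
      have h3 := congrArg (fun s : LaurentSeries L => s.coeff n) h1
      simpa [coeffMap_coeff] using h3
    rw [h2, map_zero]
  have hz : (⟨coeffMap π y, hyk⟩ : modularFunctionFieldFullC k N') ≠ 0 := fun h0 =>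
    hne (congrArg Subtype.val h0)
  -- Kronecker (level `N`)
  obtain ⟨y', hy'eq, hy'red⟩ := hKR y hy
  have hy' : coeffMap A.subtype y' ∈ laurentBaseChange L (modularFunctionFieldFull N) := by
    rw [hy'eq]
    exact Subtype.property _
  -- Frobenius (level `N'`)
  obtain ⟨w, hw, hword⟩ := hFR1 _ hz
  obtain ⟨z1, hz1, hz1ord⟩ := hFR2 _ hz
  have hprod : coeffMap π y' = ((w * z1 : modularFunctionFieldFullC k N') : LaurentSeries k) := by
    apply qExpand_injective (R := k) ℓ
    rw [hy'red]
    push_cast
    rw [map_mul, hz1, hw, qExpand_qExpand]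
  have hyk' : coeffMap π y' ∈ modularFunctionFieldFullC k N' := by
    rw [hprod]
    exact Subtype.property _
  have hw0 : w ≠ 0 := by
    intro h0
    apply hne
    have h1 : qExpand k ℓ (coeffMap π y) = 0 := by
      have := hw
      rw [h0] at this
      exact this.symm
    exact (map_eq_zero_iff _ (qExpand_injective (R := k) ℓ)).mp h1
  have hz10 : z1 ≠ 0 := by
    intro h0
    rw [h0] at hz1
    have h1 : (coeffMap π y) ^ ℓ = 0 := by
      rw [← hz1]
      simp
    exact hne (pow_eq_zero_iff (NeZero.ne ℓ) |>.mp h1)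
  have hne' : coeffMap π y' ≠ 0 := by
    rw [hprod]
    intro h0
    exact mul_ne_zero hw0 hz10 (Subtype.ext h0)
  -- divisor of the norm
  have hTD : ∀ P, heckeDivBar hα hβ D P =
      P.ord (⟨coeffMap A.subtype y', hy'⟩ : laurentBaseChange L (modularFunctionFieldFull N)) := by
    intro P
    rw [es49_heckeDivBar_principal hα hβ hfin hNF hf hDy P]
    congr 1
    exact Subtype.ext hy'eq.symm
  ext Q
  have e1 : ρ (heckeDivBar hα hβ D) Q =
      Q.ord (⟨coeffMap π y', hyk'⟩ : modularFunctionFieldFullC k N') :=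
    hρ y' hy' hyk' hne' _ hTD Q
  have e2 : (⟨coeffMap π y', hyk'⟩ : modularFunctionFieldFullC k N') = w * z1 := Subtype.ext hprod
  have e3 : ρ D (Φm Q) =
      (Φm Q).ord (⟨coeffMap π y, hyk⟩ : modularFunctionFieldFullC k N') :=
    hρ y hy hyk hne D hDy (Φm Q)
  have e4 : ρ D (Φp Q) =
      (Φp Q).ord (⟨coeffMap π y, hyk⟩ : modularFunctionFieldFullC k N') :=
    hρ y hy hyk hne D hDy (Φp Q)
  rw [e1, e2, Q.ord_mul hw0 hz10, hword Q, hz1ord Q, Finsupp.add_apply, Finsupp.smul_apply,
    es49_mapDomain_apply_of_inverse hΦ1 hΦ2, es49_mapDomain_apply_of_inverse hΦ2 hΦ1, e3, e4,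
    nsmul_eq_mul]
  ring

/-- **Mixed-level row ES1.** For a conserving `ρ` and every principal divisor `D` of `F(N)_L`:
`ρ (T_ℓ D) = Φ_* (ρ D) + ℓ • Φ⁻¹_* (ρ D)`. -/
theorem mx49_principal
    {ρ : Divisor L (laurentBaseChange L (modularFunctionFieldFull N)) →+
      Divisor k (modularFunctionFieldFullC k N')}
    (hρ : mx49_Conserves A π N N' ρ)
    (hk : modularFunctionFieldFullC k N ≤ modularFunctionFieldFullC k N')
    (hgen : PrincipalGeneratedByIntegral A π N)
    (hα : HeckeAlphaBarIntegral L N ℓ) (hβ : HeckeBetaBarIntegral L N ℓ)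
    [HasPrincipalDivisors L (laurentBaseChange L (modularFunctionFieldFull (N * ℓ)))]
    (hfin : FiniteAlong L (heckeAlphaBar L N ℓ))
    (hNF : NormFormulaAlong L (heckeAlphaBar L N ℓ) hfin)
    {Φp Φm : Place k (modularFunctionFieldFullC k N') → Place k (modularFunctionFieldFullC k N')}
    (hFR : es49_FR k N' ℓ Φp Φm) (hKR : es49_KR A π N ℓ)
    {D : Divisor L (laurentBaseChange L (modularFunctionFieldFull N))}
    (hD : D ∈ Divisor.principal (K := L) (F := laurentBaseChange L (modularFunctionFieldFull N))) :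
    ρ (heckeDivBar hα hβ D) =
      Finsupp.mapDomain Φp (ρ D) + ℓ • Finsupp.mapDomain Φm (ρ D) := by
  have key : ∀ E ∈ AddSubgroup.closure (integralPrincipalDivisors A π N),
      (ρ.comp (heckeDivBar hα hβ) -
        ((Finsupp.mapDomain.addMonoidHom Φp + ℓ • Finsupp.mapDomain.addMonoidHom Φm).comp ρ)) E
        = 0 := by
    intro E hE
    induction hE using AddSubgroup.closure_induction with
    | mem E hE =>
      show ρ (heckeDivBar hα hβ E) -
        (Finsupp.mapDomain Φp (ρ E) + ℓ • Finsupp.mapDomain Φm (ρ E)) = 0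
      rw [mx49_integral hρ hk hα hβ hfin hNF hFR hKR hE, sub_self]
    | zero => exact map_zero _
    | add E E' _ _ hE hE' => rw [map_add, hE, hE', add_zero]
    | neg E _ hE => rw [map_neg, hE, neg_zero]
  exact sub_eq_zero.mp (key D (hgen hD))

/-- `mx49_principal` with the integer scalar `(ℓ : ℤ)` (the shape of `pe17_weak`'s `hES1`). -/
theorem mx49_principal_int
    {ρ : Divisor L (laurentBaseChange L (modularFunctionFieldFull N)) →+
      Divisor k (modularFunctionFieldFullC k N')}
    (hρ : mx49_Conserves A π N N' ρ)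
    (hk : modularFunctionFieldFullC k N ≤ modularFunctionFieldFullC k N')
    (hgen : PrincipalGeneratedByIntegral A π N)
    (hα : HeckeAlphaBarIntegral L N ℓ) (hβ : HeckeBetaBarIntegral L N ℓ)
    [HasPrincipalDivisors L (laurentBaseChange L (modularFunctionFieldFull (N * ℓ)))]
    (hfin : FiniteAlong L (heckeAlphaBar L N ℓ))
    (hNF : NormFormulaAlong L (heckeAlphaBar L N ℓ) hfin)
    {Φp Φm : Place k (modularFunctionFieldFullC k N') → Place k (modularFunctionFieldFullC k N')}
    (hFR : es49_FR k N' ℓ Φp Φm) (hKR : es49_KR A π N ℓ) :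
    ∀ D ∈ Divisor.principal (K := L) (F := laurentBaseChange L (modularFunctionFieldFull N)),
      ρ (heckeDivBar hα hβ D) =
        Finsupp.mapDomain Φp (ρ D) + (ℓ : ℤ) • Finsupp.mapDomain Φm (ρ D) := by
  intro D hD
  rw [natCast_zsmul]
  exact mx49_principal hρ hk hgen hα hβ hfin hNF hFR hKR hD

end Abstract

section Pullback

variable {L : Type*} [Field L] [Algebra ℚ L] {A : ValuationSubring L}
variable {k : Type*} [Field k] {π : A →+* k}
variable {N N' ℓ : ℕ} [NeZero N] [NeZero N'] [NeZero ℓ]

/-- `r0'_* ∘ π^*` is conserving, for a Prelude place reduction `r0'` at level `N'` and any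
`L`-embedding `ι : F(N)_L → F(N')_L` which is the identity on `q`-expansions. -/
theorem mx49_conserves_pullback
    (ι : laurentBaseChange L (modularFunctionFieldFull N) →ₐ[L]
      laurentBaseChange L (modularFunctionFieldFull N'))
    (hι : ι.toRingHom.IsIntegral)
    (hιcoe : ∀ f, ((ι f : laurentBaseChange L (modularFunctionFieldFull N')) : LaurentSeries L) =
      (f : LaurentSeries L))
    [HasPrincipalDivisors L (laurentBaseChange L (modularFunctionFieldFull N'))]
    {r0 : Place L (laurentBaseChange L (modularFunctionFieldFull N')) →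
      Place k (modularFunctionFieldFullC k N')}
    (hr : IsPlaceReductionAlong A π N' r0) :
    mx49_Conserves A π N N'
      ((Finsupp.mapDomain.addMonoidHom r0).comp (Divisor.pullbackAlong ι hι)) := by
  intro y hy hyk hne D hD Q
  have hy' : coeffMap A.subtype y ∈ laurentBaseChange L (modularFunctionFieldFull N') := by
    have h := (ι ⟨coeffMap A.subtype y, hy⟩).2
    rwa [hιcoe] at h
  have hιf : ι ⟨coeffMap A.subtype y, hy⟩ =
      (⟨coeffMap A.subtype y, hy'⟩ : laurentBaseChange L (modularFunctionFieldFull N')) :=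
    Subtype.ext (hιcoe _)
  have hpull : ∀ w : Place L (laurentBaseChange L (modularFunctionFieldFull N')),
      Divisor.pullbackAlong ι hι D w =
        w.ord (⟨coeffMap A.subtype y, hy'⟩ :
          laurentBaseChange L (modularFunctionFieldFull N')) := by
    intro w
    have h1 := Divisor.pullbackAlong_apply ι hι D w
    have h2 := Place.ord_restrictAlong ι hι w ⟨coeffMap A.subtype y, hy⟩
    rw [hD] at h1
    rw [hιf] at h2
    exact h1.trans h2.symm
  exact hr.2 y hy' hyk hne _ hpull Q

/-- **Mixed-level row ES1 for `ρ = r0'_* ∘ π^*`.** -/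
theorem mx49_principal_pullback
    (ι : laurentBaseChange L (modularFunctionFieldFull N) →ₐ[L]
      laurentBaseChange L (modularFunctionFieldFull N'))
    (hι : ι.toRingHom.IsIntegral)
    (hιcoe : ∀ f, ((ι f : laurentBaseChange L (modularFunctionFieldFull N')) : LaurentSeries L) =
      (f : LaurentSeries L))
    [HasPrincipalDivisors L (laurentBaseChange L (modularFunctionFieldFull N'))]
    {r0 : Place L (laurentBaseChange L (modularFunctionFieldFull N')) →
      Place k (modularFunctionFieldFullC k N')}
    (hr : IsPlaceReductionAlong A π N' r0)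
    (hk : modularFunctionFieldFullC k N ≤ modularFunctionFieldFullC k N')
    (hgen : PrincipalGeneratedByIntegral A π N)
    (hα : HeckeAlphaBarIntegral L N ℓ) (hβ : HeckeBetaBarIntegral L N ℓ)
    [HasPrincipalDivisors L (laurentBaseChange L (modularFunctionFieldFull (N * ℓ)))]
    (hfin : FiniteAlong L (heckeAlphaBar L N ℓ))
    (hNF : NormFormulaAlong L (heckeAlphaBar L N ℓ) hfin)
    {Φp Φm : Place k (modularFunctionFieldFullC k N') → Place k (modularFunctionFieldFullC k N')}
    (hFR : es49_FR k N' ℓ Φp Φm) (hKR : es49_KR A π N ℓ)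
    {D : Divisor L (laurentBaseChange L (modularFunctionFieldFull N))}
    (hD : D ∈ Divisor.principal (K := L) (F := laurentBaseChange L (modularFunctionFieldFull N))) :
    Finsupp.mapDomain r0 (Divisor.pullbackAlong ι hι (heckeDivBar hα hβ D)) =
      Finsupp.mapDomain Φp (Finsupp.mapDomain r0 (Divisor.pullbackAlong ι hι D)) +
        ℓ • Finsupp.mapDomain Φm (Finsupp.mapDomain r0 (Divisor.pullbackAlong ι hι D)) :=
  mx49_principal (mx49_conserves_pullback ι hι hιcoe hr) hk hgen hα hβ hfin hNF hFR hKR hD

/-- Mixed-level row ES1 with the coefficient Frobenius `fr66_resGalois N' φk` at level `N'`. -/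
theorem mx49_principal_pullback_resGalois [ExpChar k ℓ]
    (ι : laurentBaseChange L (modularFunctionFieldFull N) →ₐ[L]
      laurentBaseChange L (modularFunctionFieldFull N'))
    (hι : ι.toRingHom.IsIntegral)
    (hιcoe : ∀ f, ((ι f : laurentBaseChange L (modularFunctionFieldFull N')) : LaurentSeries L) =
      (f : LaurentSeries L))
    [HasPrincipalDivisors L (laurentBaseChange L (modularFunctionFieldFull N'))]
    {r0 : Place L (laurentBaseChange L (modularFunctionFieldFull N')) →
      Place k (modularFunctionFieldFullC k N')}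
    (hr : IsPlaceReductionAlong A π N' r0)
    (hk : modularFunctionFieldFullC k N ≤ modularFunctionFieldFullC k N')
    (hgen : PrincipalGeneratedByIntegral A π N)
    (hα : HeckeAlphaBarIntegral L N ℓ) (hβ : HeckeBetaBarIntegral L N ℓ)
    [HasPrincipalDivisors L (laurentBaseChange L (modularFunctionFieldFull (N * ℓ)))]
    (hfin : FiniteAlong L (heckeAlphaBar L N ℓ))
    (hNF : NormFormulaAlong L (heckeAlphaBar L N ℓ) hfin)
    (hKR : es49_KR A π N ℓ)
    (φk : k ≃+* k) (hφ : ∀ x, φk x = x ^ ℓ)
    {D : Divisor L (laurentBaseChange L (modularFunctionFieldFull N))}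
    (hD : D ∈ Divisor.principal (K := L) (F := laurentBaseChange L (modularFunctionFieldFull N))) :
    Finsupp.mapDomain r0 (Divisor.pullbackAlong ι hι (heckeDivBar hα hβ D)) =
      fr66_resGalois N' φk • Finsupp.mapDomain r0 (Divisor.pullbackAlong ι hι D) +
        ℓ • ((fr66_resGalois N' φk)⁻¹ • Finsupp.mapDomain r0 (Divisor.pullbackAlong ι hι D)) :=
  mx49_principal_pullback ι hι hιcoe hr hk hgen hα hβ hfin hNF (es49_FR_resGalois N' φk hφ) hKR hD

end Pullback

section ModL

set_option synthInstance.maxHeartbeats 400000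

local notation "Qbar" => AlgebraicClosure ℚ

variable {N N' ℓ : ℕ} [NeZero N] [NeZero N'] [NeZero ℓ]

/-- **Mixed-level row ES1 over `(Qbar, A, ResidueField A)`** (Route V): `r0'` a Prelude place
reduction at level `N'`, `N ∣ N'`, `π^* = Divisor.pullbackAlong (mx49_iota Qbar hNN')`; the only
arithmetic input left is the norm-conjugates identity at level `N` (row NC, norm along `α` of
`β f`). -/
theorem mx49_principal_pullback_modL (hl : ℓ.Prime) (A : ValuationSubring Qbar)
    (hA : A.LiesOverPrime ℓ) (hNN' : N ∣ N')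
    (hι : (mx49_iota Qbar hNN').toRingHom.IsIntegral)
    [HasPrincipalDivisors Qbar (modularFunctionFieldBar N')]
    {r0 : Place Qbar (modularFunctionFieldBar N') →
      Place (IsLocalRing.ResidueField A)
        (modularFunctionFieldFullC (IsLocalRing.ResidueField A) N')}
    (hr : IsPlaceReductionModL A N' r0)
    (hgen : PrincipalGeneratedByIntegral A (IsLocalRing.residue A) N)
    (hα : HeckeAlphaBarIntegral Qbar N ℓ) (hβ : HeckeBetaBarIntegral Qbar N ℓ)
    [HasPrincipalDivisors Qbar (modularFunctionFieldBar (N * ℓ))]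
    (hfin : FiniteAlong Qbar (heckeAlphaBar Qbar N ℓ))
    (hNF : NormFormulaAlong Qbar (heckeAlphaBar Qbar N ℓ) hfin)
    (hNC : ∀ f : modularFunctionFieldBar N,
      letI := algebraAlong (heckeAlphaBar Qbar N ℓ);
      ∃ ζ : Qbarˣ, ζ ^ ℓ = 1 ∧
        qExpand Qbar ℓ ((Algebra.norm (modularFunctionFieldBar N)
            (heckeBetaBar Qbar N ℓ f) : modularFunctionFieldBar N) : LaurentSeries Qbar)
          = qExpand Qbar (ℓ * ℓ) (f : LaurentSeries Qbar) *
            ∏ i ∈ Finset.range ℓ, kr50_qTwist (ζ ^ i) (f : LaurentSeries Qbar))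
    (φk : IsLocalRing.ResidueField A ≃+* IsLocalRing.ResidueField A)
    (hφ : ∀ x, φk x = x ^ ℓ)
    {D : Divisor Qbar (modularFunctionFieldBar N)}
    (hD : D ∈ Divisor.principal (K := Qbar) (F := modularFunctionFieldBar N)) :
    Finsupp.mapDomain r0
        (Divisor.pullbackAlong (mx49_iota Qbar hNN') hι (heckeDivBar hα hβ D)) =
      fr66_resGalois N' φk •
          Finsupp.mapDomain r0 (Divisor.pullbackAlong (mx49_iota Qbar hNN') hι D) +
        ℓ • ((fr66_resGalois N' φk)⁻¹ •
          Finsupp.mapDomain r0 (Divisor.pullbackAlong (mx49_iota Qbar hNN') hι D)) := by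
  haveI : CharP (IsLocalRing.ResidueField A) ℓ := kr50_charP A hl hA
  haveI : Fact ℓ.Prime := ⟨hl⟩
  haveI : ExpChar (IsLocalRing.ResidueField A) ℓ := ExpChar.prime hl
  exact mx49_principal_pullback_resGalois (mx49_iota Qbar hNN') hι (mx49_coe_iota Qbar hNN') hr
    (mx49_fullC_mono _ hNN') hgen hα hβ hfin hNF (es49_KR_of_NC hl A hA hNC) φk hφ hD

end ModL

end Fermat.Agent.S37
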