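import Fermat.Agent.S37.GeoAsm17
import Fermat.Agent.S37.GeoV1
import Fermat.Agent.S37.MixedES49
import Fermat.Agent.S37.ClassCalc87
import Fermat.Agent.S37.HeckeExports63

/-!
# S37 (helper17): assembly of the two-level geometric package `tv1_Geo` (Route V)

`geo17_final_V` / `geo17_final_L`: the frozen statement S37 from S18 and the RC package
`geo17_RC` (at the levels `lcm N p₀`, resp. at level `N`) -- nothing else.

`geo17_mixed`: for `N ∣ N'`, `ℓ ∤ N'`, the RC package `geo17_RC N' A` AT THE AUXILIARY LEVEL `N'`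
(a place reduction `r0` of `F(N')`, equivariant, compatible with the values of `j`, with tube
functions for finite sets of `j`-classes) gives `tv1_Geo N N' h ℓ A`, i.e. the mixed-level
Eichler-Shimura relation on single places `P` of `F(N)`.

Ingredients: mixed-level ES1 (`mx49_principal_pullback`, helper49), ES2 on the generic fibre
(`cc87_clsX_mem_Z`, helper87), the abstract divisor argument `pe17_weak` with
`R = r0_* ∘ π^*`, and the tube divisors at level `N`: norms `N_{F(N')/F(N)} f'` of the tube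
functions `f'` at level `N'` (norm formula `hx63_sum_ord_fiberAlong_gen`, helper63).
-/

set_option autoImplicit false
set_option linter.style.haveILetI false

namespace Fermat.Agent.S37

open ModularCurve AlgebraicCurve Fermat.Agent.S24

local notation "Qb" => AlgebraicClosure ℚ
local notation "GQ" => AlgebraicClosure ℚ ≃ₐ[ℚ] AlgebraicClosure ℚ

section Mixed

set_option synthInstance.maxHeartbeats 400000

theorem geo17_cls_eq_cc87 (k : Type*) [Field k] (N : ℕ) : geo17_cls k N = cc87_cls k N := rfl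

theorem geo17_jbar_eq_cc87 (k : Type*) [Field k] (N : ℕ) : geo17_jbar k N = cc87_jbar k N := rfl

variable {N N' : ℕ} [NeZero N] [NeZero N'] (h : N ∣ N')

omit [NeZero N] [NeZero N'] in
/-- The inclusion `F(N) ⊆ F(N')` maps `j` to `j`. -/
theorem geo17_iota_j : tv1_iota h (es87_j Qb N) = es87_j Qb N' :=
  Subtype.ext (tv1_coe_iota h _)

/-- Existence of values of `j` on the generic fibre, in the shape used by `ClassCalc87`. -/
theorem geo17_hval (v : Place Qb (modularFunctionFieldBar N)) (hv : 0 ≤ v.ord (es87_j Qb N)) :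
    ∃ c : Qb, 0 < v.ord (es87_j Qb N - algebraMap Qb (modularFunctionFieldBar N) c) := by
  rcases geo17_dichotomy v with h1 | h1
  · exact absurd h1 (not_lt.mpr hv)
  · exact h1

/-- A place of `F(N')` has the `j`-class of its restriction to `F(N)`. -/
theorem geo17_clsX_restrict {A : ValuationSubring Qb} {k : Type*} [Field k] (π : A →+* k)
    (w : Place Qb (modularFunctionFieldBar N')) :
    cc87_clsX N π (w.restrictAlong (tv1_iota h) (tv1_iota_integral h)) = cc87_clsX N' π w := by
  have hpos : ∀ c : Qb,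
      0 < (w.restrictAlong (tv1_iota h) (tv1_iota_integral h)).ord
        (es87_j Qb N - algebraMap Qb (modularFunctionFieldBar N) c) ↔
      0 < w.ord (es87_j Qb N' - algebraMap Qb (modularFunctionFieldBar N') c) := by
    intro c
    rw [es87_ord_restrictAlong_pos_iff, map_sub, geo17_iota_j, AlgHom.commutes]
  have hneg : (w.restrictAlong (tv1_iota h) (tv1_iota_integral h)).ord (es87_j Qb N) < 0 ↔
      w.ord (es87_j Qb N') < 0 := by
    rw [es87_ord_restrictAlong_neg_iff, geo17_iota_j]
  rcases geo17_dichotomy w with hw | ⟨c, hc⟩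
  · rw [cc87_clsX_eq_none_of_pole π hw, cc87_clsX_eq_none_of_pole π (hneg.mpr hw)]
  · by_cases hcA : c ∈ A
    · rw [cc87_clsX_eq_some π ⟨c, hcA⟩ hc, cc87_clsX_eq_some π ⟨c, hcA⟩ ((hpos c).mpr hc)]
    · rw [cc87_clsX_eq_none_of_notMem π hcA hc,
        cc87_clsX_eq_none_of_notMem π hcA ((hpos c).mpr hc)]

/-- Every place of `F(N)` has a place of `F(N')` above it. -/
theorem geo17_fiber_nonempty (P : Place Qb (modularFunctionFieldBar N)) :
    ∃ w : Place Qb (modularFunctionFieldBar N'),
      w.restrictAlong (tv1_iota h) (tv1_iota_integral h) = P := by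
  haveI := hi63_hasPrincipalDivisors_bar N'
  have hsum := hx63_sum_ramificationIndexAlong_gen (tv1_iota_integral h) P
  have hpos : (0 : ℤ) < (finrankAlong Qb (tv1_iota h) : ℤ) := by
    letI := algebraAlong (tv1_iota h)
    haveI : Module.Finite (modularFunctionFieldBar N) (modularFunctionFieldBar N') :=
      tv1_iota_finite h
    have : 0 < Module.finrank (modularFunctionFieldBar N) (modularFunctionFieldBar N') :=
      Module.finrank_pos
    exact_mod_cast this
  by_contra hne
  push Not at hne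
  have hempty : Place.fiberAlong (tv1_iota h) (tv1_iota_integral h) P = ∅ := by
    apply Finset.eq_empty_of_forall_notMem
    intro w hw
    exact hne w (Place.mem_fiberAlong.mp hw)
  rw [hempty, Finset.sum_empty] at hsum
  rw [← hsum] at hpos
  exact lt_irrefl _ hpos

variable {ℓ : ℕ} [NeZero ℓ] {A : ValuationSubring Qb}

set_option maxHeartbeats 2000000 in
/-- **GEO, Route V**: the two-level geometric package `tv1_Geo N N' h ℓ A` from the RC package at
the auxiliary level `N'`. -/
theorem geo17_mixed (hℓ : ℓ.Prime) (hℓN' : ¬ ℓ ∣ N') (hA : A.LiesOverPrime ℓ)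
    (hRC : geo17_RC N' A) : tv1_Geo N N' h ℓ A := by
  classical
  intro hα hβ hP
  haveI := hP
  obtain ⟨r0, hr, hequiv, hpole, hbig, hval, htube⟩ := hRC
  have hℓN : ¬ ℓ ∣ N := fun hd => hℓN' (hd.trans h)
  have hgen' := ga41_pgi_of_liesOver N' A hℓ hA hℓN'
  have hgen := ga41_pgi_of_liesOver N A hℓ hA hℓN
  refine ⟨r0, hr, hgen', hequiv, fun φk hφ P => ?_⟩
  obtain ⟨-, -, -, hfin, -, hNF⟩ := hi63_heckeInputsAlong N ℓ
  haveI := hi63_hasPrincipalDivisors_bar N
  haveI := hi63_hasPrincipalDivisors_bar N'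
  have hπ : ((ℓ : ℕ) : IsLocalRing.ResidueField A) = 0 := cc87_natCast_residue_eq_zero hA
  -- classes are preserved by the centre map at level `N'`
  have hcls : ∀ w : Place Qb (modularFunctionFieldBar N'),
      cc87_cls (IsLocalRing.ResidueField A) N' (r0 w) =
        cc87_clsX N' (IsLocalRing.residue A) w :=
    cc87_cls_r0 (IsLocalRing.residue A) r0 (fun v hv => geo17_hval v hv) hpole hbig
      (fun P c hc => hval P c c.2 hc)
  -- the support of `r0_* (π^* D)`
  have hRsupp : ∀ (D : Divisor Qb (modularFunctionFieldBar N))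
      (Q : Place (IsLocalRing.ResidueField A)
        (modularFunctionFieldFullC (IsLocalRing.ResidueField A) N')),
      ((Finsupp.mapDomain.addMonoidHom r0).comp (tv1_pull h)) D Q ≠ 0 →
      ∃ w : Place Qb (modularFunctionFieldBar N'), r0 w = Q ∧
        D (w.restrictAlong (tv1_iota h) (tv1_iota_integral h)) ≠ 0 := by
    intro D Q hQ
    have hmem : Q ∈ (Finsupp.mapDomain r0 (tv1_pull h D)).support :=
      Finsupp.mem_support_iff.mpr hQ
    obtain ⟨w, hw, rfl⟩ := Finset.mem_image.mp (Finsupp.mapDomain_support hmem)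
    refine ⟨w, rfl, fun h0 => ?_⟩
    apply Finsupp.mem_support_iff.mp hw
    rw [tv1_pull_apply, h0, mul_zero]
  have key := pe17_weak (heckeDivBar hα hβ)
    ((Finsupp.mapDomain.addMonoidHom r0).comp (tv1_pull h))
    (fun Q => fr66_resGalois N' φk • Q) (fun Q => (fr66_resGalois N' φk)⁻¹ • Q) (ℓ : ℤ)
    (cc87_clsX N (IsLocalRing.residue A)) (cc87_cls (IsLocalRing.ResidueField A) N')
    (cc87_Z ℓ) (cc87_W ℓ) (cc87_hW hℓ.pos)
    (Divisor.principal (K := Qb) (F := modularFunctionFieldBar N))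
    (fun D hD => ?_) (fun P Q hQ => ?_) (fun P Q hQ => ?_) (fun P Q hQ => ?_)
    (fun P G hG => ?_) (Finsupp.single P 1)
  · rw [natCast_zsmul] at key
    exact key
  · -- ES1, mixed level
    have h1 := mx49_principal_pullback (tv1_iota h) (tv1_iota_integral h) (tv1_coe_iota h) hr
      (mx49_fullC_mono _ h) hgen hα hβ hfin hNF
      (fr66_es49_FR_residue A N' hℓ hA φk hφ)
      (es49_KR_of_NC hℓ A hA (fun f => kr73_hNC_alpha N ℓ hℓ hℓN f)) hD
    rw [natCast_zsmul]
    exact h1
  · -- ES2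
    obtain ⟨w, rfl, hw⟩ := hRsupp _ Q hQ
    rw [hcls w, ← geo17_clsX_restrict h (IsLocalRing.residue A) w]
    exact cc87_clsX_mem_Z hℓ (IsLocalRing.residue A) hπ hα hβ (fun v hv => geo17_hval v hv) P _
      (Finsupp.mem_support_iff.mpr hw)
  · -- Frobenius
    obtain ⟨w, rfl, hw⟩ := hRsupp _ Q hQ
    have hwP : w.restrictAlong (tv1_iota h) (tv1_iota_integral h) = P := by
      by_contra hne
      exact hw (Finsupp.single_eq_of_ne hne)
    have h2 := cc87_cls_phi_mem_Z (ℓ := ℓ) φk hφ (r0 w)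
    rwa [hcls w, ← geo17_clsX_restrict h (IsLocalRing.residue A) w, hwP] at h2
  · -- inverse Frobenius
    obtain ⟨w, rfl, hw⟩ := hRsupp _ Q hQ
    have hwP : w.restrictAlong (tv1_iota h) (tv1_iota_integral h) = P := by
      by_contra hne
      exact hw (Finsupp.single_eq_of_ne hne)
    have h2 := cc87_cls_phi_inv_mem_Z (ℓ := ℓ) hℓ.pos φk hφ (r0 w)
    rwa [hcls w, ← geo17_clsX_restrict h (IsLocalRing.residue A) w, hwP] at h2
  · -- tube divisors at level `N`: norms of tube functions at level `N'`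
    obtain ⟨w₀, hw₀⟩ := geo17_fiber_nonempty h P
    have hclsw : ∀ w : Place Qb (modularFunctionFieldBar N'),
        geo17_cls (IsLocalRing.ResidueField A) N' (r0 w) =
          cc87_clsX N (IsLocalRing.residue A)
            (w.restrictAlong (tv1_iota h) (tv1_iota_integral h)) := by
      intro w
      rw [geo17_cls_eq_cc87, hcls w, geo17_clsX_restrict h (IsLocalRing.residue A) w]
    have hG₀ : geo17_cls (IsLocalRing.ResidueField A) N' (r0 w₀) ∈ G := by
      rw [hclsw w₀, hw₀]
      exact hG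
    obtain ⟨f', hf'0, hf'w₀, hf'G⟩ := htube w₀ G hG₀
    have hnorm := fun P'' : Place Qb (modularFunctionFieldBar N) =>
      hx63_sum_ord_fiberAlong_gen (tv1_iota_integral h) P'' f' hf'0
    set f : modularFunctionFieldBar N :=
      (letI := algebraAlong (tv1_iota h); Algebra.norm (modularFunctionFieldBar N) f') with hf
    have hfP : P.ord f = 1 := by
      rw [← hnorm P, Finset.sum_eq_single w₀, hf'w₀]
      · intro w hw hne
        apply hf'G w hne
        rw [hclsw w, Place.mem_fiberAlong.mp hw]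
        exact hG
      · intro hnot
        exact absurd (Place.mem_fiberAlong.mpr hw₀) hnot
    have hf0 : f ≠ 0 := by
      intro h0
      rw [h0, Place.ord_zero] at hfP
      exact zero_ne_one hfP
    obtain ⟨D, hD, -⟩ := HasPrincipalDivisors.exists_divisor (K := Qb) f hf0
    refine ⟨D, ⟨f, hf0, hD⟩, ?_, ?_⟩
    · rw [hD P, hfP]
    · intro P' hne hG'
      rw [hD P', ← hnorm P']
      refine Finset.sum_eq_zero fun w hw => ?_
      have hwP' := Place.mem_fiberAlong.mp hw
      apply hf'G w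
      · rintro rfl
        exact hne (hwP'.symm.trans hw₀)
      · rw [hclsw w, hwP']
        exact hG'

end Mixed

section Final

set_option synthInstance.maxHeartbeats 400000

/-- **S37 (Route V) from S18 at all levels and the RC package at the auxiliary levels
`lcm N p₀`, `p₀ ∈ {2, 3}`.** -/
theorem geo17_final_V (N p : ℕ) [NeZero N] (hcomm : HeckeOperatorsCommuteBar N)
    (hS18 : ∀ (M : ℕ) [NeZero M] (ℓ : ℕ), ℓ.Prime → ¬ ℓ ∣ M → ∀ A : ValuationSubring Qb,
      A.LiesOverPrime ℓ → top13_S18At M A ℓ)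
    (hRC : ∀ p₀ : ℕ, p₀ = 2 ∨ p₀ = 3 → ∀ ℓ : ℕ, ℓ.Prime → ¬ ℓ ∣ N → ℓ ≠ p₀ →
      ∀ A : ValuationSubring Qb, A.LiesOverPrime ℓ → ∀ [NeZero (Nat.lcm N p₀)],
      geo17_RC (Nat.lcm N p₀) A) :
    letI := ModularCurve.heckeModuleBar N
    ∀ (_ : SMulCommClass GQ ModularCurve.HeckeAlg (ModularCurve.JZero N)),
      ModularCurve.SpecializationExists (K := ℚ) (L := Qb) N p (ModularCurve.JZero N) := by
  refine tv1_final N p hcomm hS18 (fun ℓ hℓ _ => ?_) (fun p₀ h23 ℓ hℓ hℓN hne A hA inst => ?_)
  · haveI : NeZero ℓ := ⟨hℓ.ne_zero⟩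
    exact hi63_heckeInputsAlong N ℓ
  · haveI : NeZero ℓ := ⟨hℓ.ne_zero⟩
    have hp₀ : p₀.Prime := by
      rcases h23 with rfl | rfl
      · exact Nat.prime_two
      · exact Nat.prime_three
    have hℓN' : ¬ ℓ ∣ Nat.lcm N p₀ := by
      intro hdvd
      have h1 : ℓ ∣ N * p₀ := hdvd.trans (Nat.lcm_dvd_mul N p₀)
      rcases (Nat.Prime.dvd_mul hℓ).mp h1 with h2 | h2
      · exact hℓN h2
      · exact hne ((Nat.prime_dvd_prime_iff_eq hℓ hp₀).mp h2)
    exact geo17_mixed (Nat.dvd_lcm_left N p₀) hℓ hℓN' hA (hRC p₀ h23 ℓ hℓ hℓN hne A hA)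

/-- **S37 (Route L) from S18 at level `N` and the RC package at level `N`.** -/
theorem geo17_final_L (N p : ℕ) [NeZero N] (hcomm : HeckeOperatorsCommuteBar N)
    (hS18 : ∀ (ℓ : ℕ), ℓ.Prime → ¬ ℓ ∣ N → ∀ A : ValuationSubring Qb, A.LiesOverPrime ℓ →
      top13_S18At N A ℓ)
    (hRC : ∀ ℓ : ℕ, ℓ.Prime → ¬ ℓ ∣ N → ∀ A : ValuationSubring Qb, A.LiesOverPrime ℓ →
      geo17_RC N A) :
    letI := ModularCurve.heckeModuleBar N
    ∀ (_ : SMulCommClass GQ ModularCurve.HeckeAlg (ModularCurve.JZero N)),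
      ModularCurve.SpecializationExists (K := ℚ) (L := Qb) N p (ModularCurve.JZero N) := by
  refine final13_result N p hcomm hS18 (fun ℓ hℓ _ => ?_) (fun ℓ hℓ hℓN A hA => ?_)
  · haveI : NeZero ℓ := ⟨hℓ.ne_zero⟩
    exact hi63_heckeInputsAlong N ℓ
  · haveI : NeZero ℓ := ⟨hℓ.ne_zero⟩
    exact geo17_geo hℓ hℓN hA (hRC ℓ hℓ hℓN A hA)

end Final

end Fermat.Agent.S37
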