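import Fermat.Agent.S37.Closed13
import Fermat.Agent.S37.GeoAsmV17

/-!
# S37 (helper13, lead): closed top for route V

`closedV13_RC` is the shape of the final RC theorem (one Prop per level `M` with `p₀ ∣ M`);
`closedV13_result` is the frozen statement S37 from it and the frozen statement S18.
-/

set_option autoImplicit false
set_option linter.style.haveILetI false

namespace Fermat.Agent.S37

open ModularCurve AlgebraicCurve

local notation "Qb" => AlgebraicClosure ℚ
local notation "GQ" => AlgebraicClosure ℚ ≃ₐ[ℚ] AlgebraicClosure ℚ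

/-- The final RC statement: at every level `M` divisible by `p₀ ∈ {2, 3}`, every prime
`ℓ ∤ M`, `ℓ ≠ p₀` and every valuation ring `A` of `ℚ̄` over `ℓ`, the RC package holds. -/
def closedV13_RC : Prop :=
  ∀ (M : ℕ) [NeZero M] (p₀ : ℕ), p₀ = 2 ∨ p₀ = 3 → p₀ ∣ M → ∀ ℓ : ℕ, ℓ.Prime → ¬ ℓ ∣ M →
    ℓ ≠ p₀ → ∀ A : ValuationSubring Qb, A.LiesOverPrime ℓ → geo17_RC M A

/-- **S37 from statement S18 and the RC package at the levels `lcm N p₀`** (route V). -/
theorem closedV13_result (hS18 : closed13_S18) (hRC : closedV13_RC) (N p : ℕ) [NeZero N]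
    (hcomm : HeckeOperatorsCommuteBar N) :
    letI := ModularCurve.heckeModuleBar N
    ∀ (_ : SMulCommClass GQ ModularCurve.HeckeAlg (ModularCurve.JZero N)),
      ModularCurve.SpecializationExists (K := ℚ) (L := Qb) N p (ModularCurve.JZero N) := by
  refine geo17_final_V N p hcomm
    (fun M _ ℓ hℓ hℓM A hA => closed13_S18At hS18 M ℓ hℓ hℓM A hA) ?_
  intro p₀ h23 ℓ hℓ hℓN hne A hA inst
  have hp₀ : p₀.Prime := by
    rcases h23 with rfl | rfl
    · exact Nat.prime_two
    · exact Nat.prime_three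
  have hℓN' : ¬ ℓ ∣ Nat.lcm N p₀ := by
    intro hdvd
    have h1 : ℓ ∣ N * p₀ := hdvd.trans (Nat.lcm_dvd_mul N p₀)
    rcases (Nat.Prime.dvd_mul hℓ).mp h1 with h2 | h2
    · exact hℓN h2
    · exact hne ((Nat.prime_dvd_prime_iff_eq hℓ hp₀).mp h2)
  exact hRC (Nat.lcm N p₀) p₀ h23 (Nat.dvd_lcm_right N p₀) ℓ hℓ hℓN' hne A hA

end Fermat.Agent.S37
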