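import Fermat.Agent.S37.TwoChartCons87
import Fermat.Agent.S37.ChartMod80
import Fermat.Agent.S37.GaussBasis41
import Fermat.Agent.S18.SepLaurent
import Fermat.Agent.S24.PlacesBasic

/-!
# S37, row RC (helper87): the two-chart conservation law at the modular function field

The `cv57_Base` package of `Conserve57` for the Gauss ring `ga41_V M A` of
`modularFunctionFieldBar M` with its reduction map `cm80_red`, and the passage from two
`cv57_Chart` instances (coordinates `x`, `x⁻¹`) to the Prelude statement
`IsPlaceReductionModL A M r0` for the centre map `r0 = cw87_r0`.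

* `cwm87_evK`, `cwm87_evk` : evaluations at the places of the two fibres.
* `cwm87_base` : `cv57_Base` for `(A, residue, ga41_V, cm80_red)`.
* `cwm87_isPlaceReduction` : `IsPlaceReductionModL A M (cw87_r0 …)` from two charts.
-/

set_option autoImplicit false
set_option linter.style.haveILetI false

namespace Fermat.Agent.S37

open ModularCurve AlgebraicCurve IntermediateField Fermat.Agent.S24 Fermat.Agent.S18

local notation "Qb" => AlgebraicClosure ℚ

section Mod

set_option synthInstance.maxHeartbeats 400000

variable (M : ℕ) [NeZero M] (A : ValuationSubring Qb)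
  (hM : (M : IsLocalRing.ResidueField A) ≠ 0)

theorem cwm87_deg_bar (P : Place Qb ↥(modularFunctionFieldBar M)) : P.deg = 1 := by
  haveI := (ga41_finrank_bar M).1
  exact wp1_deg_eq_one (ga41_jF M) (ga41_transcendental_jF M) P

include hM in
theorem cwm87_deg_res (Q : Place (IsLocalRing.ResidueField A)
    ↥(modularFunctionFieldFullC (IsLocalRing.ResidueField A) M)) : Q.deg = 1 := by
  haveI := rc5_isAlgClosed_residueField A
  haveI := (ga41_finrank_res M (IsLocalRing.ResidueField A) hM).1
  exact wp1_deg_eq_one (ga41_jk M (IsLocalRing.ResidueField A))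
    (ga41_transcendental_jk M (IsLocalRing.ResidueField A)) Q

/-- Evaluation at the places of the generic fibre. -/
noncomputable def cwm87_evK (P : Place Qb ↥(modularFunctionFieldBar M)) :
    P.toValuationSubring →+* Qb :=
  (cv57_exists_ev P (cwm87_deg_bar M P)).choose

/-- Evaluation at the places of the special fibre. -/
noncomputable def cwm87_evk (Q : Place (IsLocalRing.ResidueField A)
    ↥(modularFunctionFieldFullC (IsLocalRing.ResidueField A) M)) :
    Q.toValuationSubring →+* IsLocalRing.ResidueField A :=
  (cv57_exists_ev Q (cwm87_deg_res M A hM Q)).choose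

/-- The chart-independent hypotheses of `Conserve57` hold for the Gauss ring of the modular
function field. -/
theorem cwm87_base :
    cv57_Base A (IsLocalRing.residue A) (ga41_V M A hM) (cm80_red M A hM) (cwm87_evK M)
      (cwm87_evk M A hM) where
  res_ker a := by
    rw [IsLocalRing.residue_eq_zero_iff, IsLocalRing.mem_maximalIdeal, mem_nonunits_iff]
  red_ker f := by rw [cm80_hker, mem_nonunits_iff]
  algebraMap_mem a := cm80_hAO M A hM a a.2
  red_algebraMap a _ := cm80_hcompat M A hM a a.2
  evK_algebraMap P c := (cv57_exists_ev P (cwm87_deg_bar M P)).choose_spec.1 c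
  evK_ker P f := (cv57_exists_ev P (cwm87_deg_bar M P)).choose_spec.2 f
  evκ_algebraMap Q c := (cv57_exists_ev Q (cwm87_deg_res M A hM Q)).choose_spec.1 c
  evκ_ker Q f := (cv57_exists_ev Q (cwm87_deg_res M A hM Q)).choose_spec.2 f
  finite_ord f hf := by
    haveI := (ga41_finrank_bar M).1
    exact wp1_finite_ord_ne_zero (ga41_jF M) (ga41_transcendental_jF M) f hf

/-- **Clause (1) of the RC package from two `Conserve57` charts.** -/
theorem cwm87_isPlaceReduction (x : ↥(modularFunctionFieldBar M)) (hx : x ∈ ga41_V M A hM)
    (hx' : x⁻¹ ∈ ga41_V M A hM)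
    (hc1 : cv57_Chart A (IsLocalRing.residue A) (ga41_V M A hM) (cm80_red M A hM)
      (cwm87_evK M) x hx)
    (hc2 : cv57_Chart A (IsLocalRing.residue A) (ga41_V M A hM) (cm80_red M A hM)
      (cwm87_evK M) x⁻¹ hx') :
    IsPlaceReductionModL A M (cw87_r0 (cwm87_base M A hM) hc1 hc2) := by
  refine ⟨fun P => ?_, ?_⟩
  · rw [cwm87_deg_bar, cwm87_deg_res M A hM]
  · intro y hy hyk hne D hD Q
    have hyO : (⟨coeffMap A.subtype y, hy⟩ : ↥(modularFunctionFieldBar M)) ∈ ga41_V M A hM :=
      ga41_mem_O_of_integral y rfl
    have hred : cm80_red M A hM ⟨_, hyO⟩ = ⟨coeffMap (IsLocalRing.residue A) y, hyk⟩ := by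
      apply Subtype.ext
      exact ga41_redHom_integral _ y rfl
    have hu : IsUnit (⟨_, hyO⟩ : ↥(ga41_V M A hM)) := by
      by_contra hu
      have h0 := ((cwm87_base M A hM).red_ker _).mpr hu
      rw [hred] at h0
      exact hne (congrArg Subtype.val h0)
    have h1 := cw87_conservation (cwm87_base M A hM) hc1 hc2 ⟨_, hyO⟩ hu D hD Q
    rw [hred] at h1
    exact h1

end Mod

end Fermat.Agent.S37
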