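import Mathlib
import Fermat.Prelude.Def_AlgebraicCurve_DivisorClassGroup
import Fermat.Agent.S24.PlacesBasicCore

/-!
# S37, row RC (helper57): conservation of zeros on one chart, in `Place` language

A proof of the conservation law of the centre map without norms, root counts or disc
coordinates.  Setting: fields `K ⊆ F`, `κ ⊆ Fκ`; `A` a valuation subring of `K` with residue
map `res : A → κ`; `O` a valuation subring of `F` (the Gauss ring) with `red : O → Fκ`;
evaluations `evK P`, `evκ Q` at the places of `F/K` and `Fκ/κ`; a coordinate `x ∈ O`.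

* `cv57_B K O x` : the chart ring `O ∩ (integral closure of K[x])`.
* `cv57_Red … P Q` : the chart place `P` (`x(P) ∈ A`) reduces to `Q`.
* `cv57_Base`, `cv57_Chart` : the hypotheses (chart-independent / for the chart `x`).
* `cv57_exists_red`, `cv57_red_unique` : the reduction of a chart place exists and is unique.
* `cv57_reg` : an element of `O` without poles in the tube of `Q` reduces to an element regular
  at `Q`.
* `cv57_le_of_regular`, `cv57_local_degree`, `cv57_le` : the three steps of the proof.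
* `cv57_chart` : for every unit `y` of `O` and every `Q` with `x̄` regular at `Q`,
  `∑ᶠ P ∈ {P | Red P Q}, P.ord y = Q.ord (red y)`.
-/

set_option autoImplicit false

namespace Fermat.Agent.S37

open AlgebraicCurve Fermat.Agent.S24

section PlaceBasics

variable {K F : Type*} [Field K] [Field F] [Algebra K F]

/-- Membership in the maximal ideal of a place, in terms of the order. -/
theorem cv57_mem_nonunits_iff (v : Place K F) (f : F) :
    f ∈ v.toValuationSubring.nonunits ↔ f = 0 ∨ 0 < v.ord f := by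
  rcases eq_or_ne f 0 with rfl | hf
  · simp
  constructor
  · intro h
    right
    obtain ⟨hmem, hmax⟩ := ValuationSubring.mem_nonunits_iff_exists_mem_maximalIdeal.mp h
    rw [wp1b_ord_pos_iff v hf]
    have hle : v.adicValuation f ≤ 1 :=
      (wp1b_ord_nonneg_iff v hf).mp ((wp1_mem_iff_ord_nonneg v f).mp hmem)
    refine lt_of_le_of_ne hle ?_
    intro h1
    have hu := (v.adicValuation_coe_eq_one_iff ⟨f, hmem⟩).mp h1
    exact (IsLocalRing.mem_maximalIdeal _).mp hmax hu
  · rintro (h | h)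
    · exact absurd h hf
    · have hmem : f ∈ v.toValuationSubring := (wp1_mem_iff_ord_nonneg v f).mpr h.le
      refine ValuationSubring.mem_nonunits_iff_exists_mem_maximalIdeal.mpr ⟨hmem, ?_⟩
      rw [IsLocalRing.mem_maximalIdeal, mem_nonunits_iff]
      intro hu
      have h1 := v.ord_coe_unit hu.unit
      rw [IsUnit.unit_spec] at h1
      change v.ord f = 0 at h1
      omega

/-- A nonzero element of the valuation ring of a place which is not in the maximal ideal has
order `0`. -/
theorem cv57_ord_eq_zero_of_not_nonunits (v : Place K F) {f : F}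
    (hf : f ∈ v.toValuationSubring) (hf' : f ∉ v.toValuationSubring.nonunits) : v.ord f = 0 := by
  have h1 := (wp1_mem_iff_ord_nonneg v f).mp hf
  have h2 : ¬ (f = 0 ∨ 0 < v.ord f) := fun h => hf' ((cv57_mem_nonunits_iff v f).mpr h)
  have h3 : ¬ 0 < v.ord f := fun h => h2 (Or.inr h)
  omega

theorem cv57_inv_mem_of_not_nonunits (V : ValuationSubring F) {f : F}
    (hf' : f ∉ V.nonunits) : f⁻¹ ∈ V := by
  rw [ValuationSubring.mem_nonunits_iff_or] at hf'
  by_contra h
  exact hf' (Or.inr h)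

/-- Evaluation at a place of degree one. -/
theorem cv57_exists_ev (P : Place K F) (hP : P.deg = 1) :
    ∃ ev : P.toValuationSubring →+* K,
      (∀ c : K, ev (algebraMap K P.toValuationSubring c) = c) ∧
      ∀ f : P.toValuationSubring, ev f = 0 ↔ ¬ IsUnit f := by
  have hbot : (⊥ : Subalgebra K P.ResidueField) = ⊤ :=
    Subalgebra.bot_eq_top_of_finrank_eq_one hP
  have hsurj : Function.Surjective (algebraMap K P.ResidueField) := by
    intro z
    have hz : z ∈ (⊥ : Subalgebra K P.ResidueField) := by rw [hbot]; exact Algebra.mem_top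
    exact Algebra.mem_bot.mp hz
  let e : K ≃+* P.ResidueField :=
    RingEquiv.ofBijective (algebraMap K P.ResidueField)
      ⟨(algebraMap K P.ResidueField).injective, hsurj⟩
  refine ⟨(e.symm : P.ResidueField →+* K).comp (IsLocalRing.residue P.toValuationSubring), ?_, ?_⟩
  · intro c
    simp only [RingHom.coe_comp, RingHom.coe_coe, Function.comp_apply]
    rw [RingEquiv.symm_apply_eq]
    rfl
  · intro f
    simp only [RingHom.coe_comp, RingHom.coe_coe, Function.comp_apply]
    rw [map_eq_zero_iff _ e.symm.injective, IsLocalRing.residue_eq_zero_iff,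
      IsLocalRing.mem_maximalIdeal, mem_nonunits_iff]

/-- A valuation subring containing the constants and `x` contains everything integral over
`K[x]`. -/
theorem cv57_mem_of_isIntegral (V : ValuationSubring F) (hK : ∀ c : K, algebraMap K F c ∈ V)
    {x : F} (hxV : x ∈ V) {f : F} (hf : IsIntegral (Algebra.adjoin K {x}) f) : f ∈ V := by
  have hsub : ∀ s : F, s ∈ Algebra.adjoin K {x} → s ∈ V := by
    intro s hs
    induction hs using Algebra.adjoin_induction with
    | mem y hy =>
      rw [Set.mem_singleton_iff] at hy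
      rw [hy]; exact hxV
    | algebraMap r => exact hK r
    | add y z _ _ hy hz => exact V.add_mem _ _ hy hz
    | mul y z _ _ hy hz => exact V.mul_mem _ _ hy hz
  obtain ⟨p, hpm, hpx⟩ := hf
  let φ : Algebra.adjoin K {x} →+* V :=
    (algebraMap (Algebra.adjoin K {x}) F).codRestrict V (fun z => hsub _ z.2)
  have hφ : (algebraMap V F).comp φ = algebraMap (Algebra.adjoin K {x}) F := rfl
  have hint' : IsIntegral V f := by
    refine ⟨p.map φ, hpm.map φ, ?_⟩
    rw [Polynomial.eval₂_map, hφ]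
    exact hpx
  obtain ⟨a, ha⟩ := (IsIntegrallyClosed.isIntegral_iff (R := V) (K := F)).mp hint'
  rw [← ha]
  exact a.2

end PlaceBasics

section Core

variable {K F κ Fκ : Type*} [Field K] [Field F] [Algebra K F] [Field κ] [Field Fκ] [Algebra κ Fκ]

theorem cv57_coe_mem_nonunits_iff (V : ValuationSubring F) (f : V) :
    (f : F) ∈ V.nonunits ↔ ¬ IsUnit f := by
  rw [ValuationSubring.coe_mem_nonunits_iff, IsLocalRing.mem_maximalIdeal, mem_nonunits_iff]

theorem cv57_ord_pow (v : Place K F) (f : F) (n : ℕ) : v.ord (f ^ n) = n * v.ord f := by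
  have h := v.ord_zpow f (n : ℤ)
  rwa [zpow_natCast] at h

variable (K) in
/-- The chart ring `B = O ∩ (integral closure of K[x] in F)`. -/
def cv57_B (O : ValuationSubring F) (x : F) : Subring F :=
  O.toSubring ⊓ (integralClosure (Algebra.adjoin K {x}) F).toSubring

theorem cv57_mem_B {O : ValuationSubring F} {x f : F} :
    f ∈ cv57_B K O x ↔ f ∈ O ∧ IsIntegral (Algebra.adjoin K {x}) f := Iff.rfl

theorem cv57_B_mem_place {O : ValuationSubring F} {x : F} (P : Place K F)
    (hxP : x ∈ P.toValuationSubring) (b : cv57_B K O x) : (b : F) ∈ P.toValuationSubring :=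
  cv57_mem_of_isIntegral P.toValuationSubring P.algebraMap_mem' hxP b.2.2

/-- Reduction restricted to the chart ring. -/
def cv57_redB (O : ValuationSubring F) (red : O →+* Fκ) (x : F) : cv57_B K O x →+* Fκ :=
  red.comp ((cv57_B K O x).subtype.codRestrict O (fun b => b.2.1))

/-- Evaluation of the chart ring at a place where `x` is regular. -/
def cv57_evB (O : ValuationSubring F) (x : F)
    (evK : ∀ P : Place K F, P.toValuationSubring →+* K)
    (P : Place K F) (hxP : x ∈ P.toValuationSubring) : cv57_B K O x →+* K :=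
  (evK P).comp ((cv57_B K O x).subtype.codRestrict P.toValuationSubring
    (fun b => cv57_B_mem_place P hxP b))

/-- `P` (a place in the chart `x(P) ∈ A`) reduces to `Q`: the value of `red b` at `Q` is the
residue of the value of `b` at `P`, for every `b` in the chart ring. -/
def cv57_Red (A : ValuationSubring K) (res : A →+* κ) (O : ValuationSubring F) (red : O →+* Fκ)
    (evK : ∀ P : Place K F, P.toValuationSubring →+* K)
    (evκ : ∀ Q : Place κ Fκ, Q.toValuationSubring →+* κ) (x : F) (hx : x ∈ O)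
    (P : Place K F) (Q : Place κ Fκ) : Prop :=
  ∃ hxP : x ∈ P.toValuationSubring, evK P ⟨x, hxP⟩ ∈ A ∧ red ⟨x, hx⟩ ∈ Q.toValuationSubring ∧
    ∀ (b : cv57_B K O x) (h1 : cv57_evB O x evK P hxP b ∈ A)
      (h2 : cv57_redB O red x b ∈ Q.toValuationSubring),
      evκ Q ⟨cv57_redB O red x b, h2⟩ = res ⟨cv57_evB O x evK P hxP b, h1⟩

/-- Chart-independent hypotheses. -/
structure cv57_Base (A : ValuationSubring K) (res : A →+* κ) (O : ValuationSubring F)
    (red : O →+* Fκ) (evK : ∀ P : Place K F, P.toValuationSubring →+* K)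
    (evκ : ∀ Q : Place κ Fκ, Q.toValuationSubring →+* κ) : Prop where
  res_ker : ∀ a : A, res a = 0 ↔ ¬ IsUnit a
  red_ker : ∀ f : O, red f = 0 ↔ ¬ IsUnit f
  algebraMap_mem : ∀ a : A, algebraMap K F (a : K) ∈ O
  red_algebraMap : ∀ (a : A) (h : algebraMap K F (a : K) ∈ O),
    red ⟨algebraMap K F (a : K), h⟩ = algebraMap κ Fκ (res a)
  evK_algebraMap : ∀ (P : Place K F) (c : K), evK P (algebraMap K P.toValuationSubring c) = c
  evK_ker : ∀ (P : Place K F) (f : P.toValuationSubring), evK P f = 0 ↔ ¬ IsUnit f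
  evκ_algebraMap : ∀ (Q : Place κ Fκ) (c : κ), evκ Q (algebraMap κ Q.toValuationSubring c) = c
  evκ_ker : ∀ (Q : Place κ Fκ) (f : Q.toValuationSubring), evκ Q f = 0 ↔ ¬ IsUnit f
  finite_ord : ∀ f : F, f ≠ 0 → {P : Place K F | P.ord f ≠ 0}.Finite

/-- Hypotheses on one chart (coordinate `x`). -/
structure cv57_Chart (A : ValuationSubring K) (res : A →+* κ) (O : ValuationSubring F)
    (red : O →+* Fκ) (evK : ∀ P : Place K F, P.toValuationSubring →+* K)
    (x : F) (hx : x ∈ O) : Prop where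
  xbar_ne : ∀ c : κ, red ⟨x, hx⟩ ≠ algebraMap κ Fκ c
  integral_of_regular : ∀ f : F,
    (∀ P : Place K F, x ∈ P.toValuationSubring → f ∈ P.toValuationSubring) →
      IsIntegral (Algebra.adjoin K {x}) f
  red_integral : ∀ b : cv57_B K O x,
    IsIntegral (Algebra.adjoin κ {red ⟨x, hx⟩}) (cv57_redB O red x b)
  ev_mem : ∀ (P : Place K F) (hxP : x ∈ P.toValuationSubring), evK P ⟨x, hxP⟩ ∈ A →
    ∀ b : cv57_B K O x, cv57_evB O x evK P hxP b ∈ A
  ev_nonunit : ∀ (P : Place K F) (hxP : x ∈ P.toValuationSubring), evK P ⟨x, hxP⟩ ∈ A →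
    ∀ b : cv57_B K O x, cv57_redB O red x b = 0 → cv57_evB O x evK P hxP b ∈ A.nonunits
  lift : ∀ z : Fκ, IsIntegral (Algebra.adjoin κ {red ⟨x, hx⟩}) z →
    ∃ b : cv57_B K O x, cv57_redB O red x b = z
  exists_place : ∀ I : Ideal (integralClosure (Algebra.adjoin κ {red ⟨x, hx⟩}) Fκ), I ≠ ⊤ →
    ∃ Q : Place κ Fκ, red ⟨x, hx⟩ ∈ Q.toValuationSubring ∧
      ∀ z ∈ I, (z : Fκ) ∈ Q.toValuationSubring.nonunits
  separate : ∀ Q Q' : Place κ Fκ, red ⟨x, hx⟩ ∈ Q.toValuationSubring →
    red ⟨x, hx⟩ ∈ Q'.toValuationSubring → Q ≠ Q' →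
      ∃ v : Fκ, IsIntegral (Algebra.adjoin κ {red ⟨x, hx⟩}) v ∧
        v ∈ Q'.toValuationSubring.nonunits ∧ v ∉ Q.toValuationSubring.nonunits
  uniformizer : ∀ Q : Place κ Fκ, red ⟨x, hx⟩ ∈ Q.toValuationSubring →
    ∃ t : Fκ, IsIntegral (Algebra.adjoin κ {red ⟨x, hx⟩}) t ∧ Q.ord t = 1
  zeros_finite : ∀ a : A,
    {Q : Place κ Fκ | 0 < Q.ord (red ⟨x, hx⟩ - algebraMap κ Fκ (res a))}.Finite
  degree_eq : ∀ (a : A) (s : Finset (Place K F)) (s' : Finset (Place κ Fκ)),
    (∀ P, P ∈ s ↔ 0 < P.ord (x - algebraMap K F (a : K))) →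
    (∀ Q, Q ∈ s' ↔ 0 < Q.ord (red ⟨x, hx⟩ - algebraMap κ Fκ (res a))) →
      ∑ P ∈ s, P.ord (x - algebraMap K F (a : K)) =
        ∑ Q ∈ s', Q.ord (red ⟨x, hx⟩ - algebraMap κ Fκ (res a))


section Lemmas

variable {A : ValuationSubring K} {res : A →+* κ} {O : ValuationSubring F} {red : O →+* Fκ}
  {evK : ∀ P : Place K F, P.toValuationSubring →+* K}
  {evκ : ∀ Q : Place κ Fκ, Q.toValuationSubring →+* κ} {x : F} {hx : x ∈ O}

theorem cv57_isIntegral_of_mem_adjoin {x s : F} (hs : s ∈ Algebra.adjoin K {x}) :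
    IsIntegral (Algebra.adjoin K {x}) s :=
  isIntegral_algebraMap (R := Algebra.adjoin K {x}) (A := F) (x := ⟨s, hs⟩)

variable (K) in
/-- `x` as an element of the chart ring. -/
def cv57_xB (hx : x ∈ O) : cv57_B K O x :=
  ⟨x, hx, cv57_isIntegral_of_mem_adjoin (Algebra.self_mem_adjoin_singleton K x)⟩

/-- Constants of `A` as elements of the chart ring. -/
def cv57_cB (hb : cv57_Base A res O red evK evκ) (x : F) (a : A) : cv57_B K O x :=
  ⟨algebraMap K F (a : K), hb.algebraMap_mem a,
    cv57_isIntegral_of_mem_adjoin (Subalgebra.algebraMap_mem _ _)⟩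

theorem cv57_redB_xB : cv57_redB O red x (cv57_xB K hx) = red ⟨x, hx⟩ := rfl

theorem cv57_evB_xB (P : Place K F) (hxP : x ∈ P.toValuationSubring) :
    cv57_evB O x evK P hxP (cv57_xB K hx) = evK P ⟨x, hxP⟩ := rfl

theorem cv57_redB_cB (hb : cv57_Base A res O red evK evκ) (a : A) :
    cv57_redB O red x (cv57_cB hb x a) = algebraMap κ Fκ (res a) :=
  hb.red_algebraMap a _

theorem cv57_evB_cB (hb : cv57_Base A res O red evK evκ) (P : Place K F)
    (hxP : x ∈ P.toValuationSubring) (a : A) :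
    cv57_evB O x evK P hxP (cv57_cB hb x a) = (a : K) :=
  hb.evK_algebraMap P (a : K)

theorem cv57_redB_mem (hc : cv57_Chart A res O red evK x hx) (Q : Place κ Fκ)
    (hQ : red ⟨x, hx⟩ ∈ Q.toValuationSubring) (b : cv57_B K O x) :
    cv57_redB O red x b ∈ Q.toValuationSubring :=
  cv57_mem_of_isIntegral Q.toValuationSubring Q.algebraMap_mem' hQ (hc.red_integral b)

theorem cv57_res_eq_zero_iff (hb : cv57_Base A res O red evK evκ) {c : K} (hcA : c ∈ A) :
    res ⟨c, hcA⟩ = 0 ↔ c ∈ A.nonunits := by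
  rw [hb.res_ker, ← cv57_coe_mem_nonunits_iff]

theorem cv57_evκ_eq_zero_iff (hb : cv57_Base A res O red evK evκ) (Q : Place κ Fκ) {z : Fκ}
    (hz : z ∈ Q.toValuationSubring) :
    evκ Q ⟨z, hz⟩ = 0 ↔ z ∈ Q.toValuationSubring.nonunits := by
  rw [hb.evκ_ker, ← cv57_coe_mem_nonunits_iff]

theorem cv57_evK_eq_zero_iff (hb : cv57_Base A res O red evK evκ) (P : Place K F) {f : F}
    (hf : f ∈ P.toValuationSubring) :
    evK P ⟨f, hf⟩ = 0 ↔ f ∈ P.toValuationSubring.nonunits := by
  rw [hb.evK_ker, ← cv57_coe_mem_nonunits_iff]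

theorem cv57_evB_eq_zero_iff (hb : cv57_Base A res O red evK evκ) (P : Place K F)
    (hxP : x ∈ P.toValuationSubring) (b : cv57_B K O x) :
    cv57_evB O x evK P hxP b = 0 ↔ (b : F) ∈ P.toValuationSubring.nonunits :=
  cv57_evK_eq_zero_iff hb P (cv57_B_mem_place P hxP b)

/-- The two vanishing conditions agree along `Red`. -/
theorem cv57_red_nonunits_iff (hb : cv57_Base A res O red evK evκ)
    (hc : cv57_Chart A res O red evK x hx) {P : Place K F} {Q : Place κ Fκ}
    (h : cv57_Red A res O red evK evκ x hx P Q) (hxP : x ∈ P.toValuationSubring)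
    (b : cv57_B K O x) :
    cv57_redB O red x b ∈ Q.toValuationSubring.nonunits ↔
      cv57_evB O x evK P hxP b ∈ A.nonunits := by
  obtain ⟨hxP', hα, hQ, hR⟩ := h
  have h1 := hc.ev_mem P hxP hα b
  have h2 := cv57_redB_mem hc Q hQ b
  rw [← cv57_evκ_eq_zero_iff hb Q h2, ← cv57_res_eq_zero_iff hb h1, hR b h1 h2]

/-- Existence of the reduction of a chart place. -/
theorem cv57_exists_red (hb : cv57_Base A res O red evK evκ)
    (hc : cv57_Chart A res O red evK x hx) (P : Place K F) (hxP : x ∈ P.toValuationSubring)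
    (hα : evK P ⟨x, hxP⟩ ∈ A) : ∃ Q : Place κ Fκ, cv57_Red A res O red evK evκ x hx P Q := by
  classical
  -- the two ring homs out of `B`
  let ρ : cv57_B K O x →+* κ :=
    res.comp ((cv57_evB O x evK P hxP).codRestrict A (hc.ev_mem P hxP hα))
  let redC : cv57_B K O x →+* integralClosure (Algebra.adjoin κ {red ⟨x, hx⟩}) Fκ :=
    (cv57_redB O red x).codRestrict _ hc.red_integral
  have hsurj : Function.Surjective redC := by
    intro z
    obtain ⟨b, hbz⟩ := hc.lift z z.2
    exact ⟨b, Subtype.ext hbz⟩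
  have hker : ∀ b : cv57_B K O x, cv57_redB O red x b = 0 → ρ b = 0 := by
    intro b hb0
    exact (cv57_res_eq_zero_iff hb _).mpr (hc.ev_nonunit P hxP hα b hb0)
  let I : Ideal (integralClosure (Algebra.adjoin κ {red ⟨x, hx⟩}) Fκ) :=
    Ideal.map redC (RingHom.ker ρ)
  have hI : I ≠ ⊤ := by
    intro htop
    have h1 : (1 : integralClosure (Algebra.adjoin κ {red ⟨x, hx⟩}) Fκ) ∈ I := by
      rw [htop]; trivial
    obtain ⟨b, hbker, hb1⟩ := (Ideal.mem_map_iff_of_surjective redC hsurj).mp h1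
    have h2 : cv57_redB O red x (b - 1) = 0 := by
      have h3 : cv57_redB O red x b = 1 := by
        have := congrArg Subtype.val hb1
        exact this
      rw [map_sub, h3, map_one, sub_self]
    have h4 := hker _ h2
    rw [map_sub, map_one, RingHom.mem_ker.mp hbker] at h4
    simp at h4
  obtain ⟨Q, hQ, hQI⟩ := hc.exists_place I hI
  refine ⟨Q, hxP, hα, hQ, ?_⟩
  intro b h1 h2
  set β : A := ⟨cv57_evB O x evK P hxP b, h1⟩ with hβ
  have hρ : ρ (b - cv57_cB hb x β) = 0 := by
    have e1 : ρ b = res β := rfl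
    have e2 : ρ (cv57_cB hb x β) = res β := by
      change res ⟨cv57_evB O x evK P hxP (cv57_cB hb x β), _⟩ = res β
      congr 1
      exact Subtype.ext (cv57_evB_cB hb P hxP β)
    rw [map_sub, e1, e2, sub_self]
  have hmem : redC (b - cv57_cB hb x β) ∈ I :=
    Ideal.mem_map_of_mem redC (RingHom.mem_ker.mpr hρ)
  have hnon := hQI _ hmem
  have hval : ((redC (b - cv57_cB hb x β) :
      integralClosure (Algebra.adjoin κ {red ⟨x, hx⟩}) Fκ) : Fκ) =
      cv57_redB O red x b - algebraMap κ Fκ (res β) := by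
    change cv57_redB O red x (b - cv57_cB hb x β) = _
    rw [map_sub, cv57_redB_cB]
  rw [hval] at hnon
  have hmem2 : cv57_redB O red x b - algebraMap κ Fκ (res β) ∈ Q.toValuationSubring :=
    Q.toValuationSubring.sub_mem h2 (Q.algebraMap_mem' _)
  have h0 := (cv57_evκ_eq_zero_iff hb Q hmem2).mpr hnon
  have hsplit : (⟨cv57_redB O red x b - algebraMap κ Fκ (res β), hmem2⟩ : Q.toValuationSubring) =
      ⟨cv57_redB O red x b, h2⟩ - algebraMap κ Q.toValuationSubring (res β) := rfl
  rw [hsplit, map_sub, hb.evκ_algebraMap, sub_eq_zero] at h0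
  exact h0

/-- Uniqueness of the reduction of a chart place. -/
theorem cv57_red_unique (hb : cv57_Base A res O red evK evκ)
    (hc : cv57_Chart A res O red evK x hx) {P : Place K F} {Q Q' : Place κ Fκ}
    (h : cv57_Red A res O red evK evκ x hx P Q) (h' : cv57_Red A res O red evK evκ x hx P Q') :
    Q = Q' := by
  by_contra hne
  obtain ⟨hxP, hα, hQ, hR⟩ := h
  have hQ' := h'.2.2.1
  obtain ⟨v, hvint, hvQ', hvQ⟩ := hc.separate Q Q' hQ hQ' hne
  obtain ⟨b, rfl⟩ := hc.lift v hvint
  have e1 := (cv57_red_nonunits_iff hb hc h' hxP b).mp hvQ'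
  have e2 := (cv57_red_nonunits_iff hb hc ⟨hxP, hα, hQ, hR⟩ hxP b).mpr e1
  exact hvQ e2

theorem cv57_redB_apply (b : cv57_B K O x) : cv57_redB O red x b = red ⟨b, b.2.1⟩ := rfl

/-- An element of the chart ring vanishing at a finite place `P` that does not reduce to `Q`,
whose reduction is a unit at `Q`. -/
theorem cv57_exists_sep (hb : cv57_Base A res O red evK evκ)
    (hc : cv57_Chart A res O red evK x hx) (Q : Place κ Fκ)
    (hQ : red ⟨x, hx⟩ ∈ Q.toValuationSubring) (P : Place K F) (hxP : x ∈ P.toValuationSubring)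
    (hPQ : ¬ cv57_Red A res O red evK evκ x hx P Q) :
    ∃ u : cv57_B K O x, cv57_evB O x evK P hxP u = 0 ∧
      cv57_redB O red x u ∉ Q.toValuationSubring.nonunits := by
  by_cases hα : evK P ⟨x, hxP⟩ ∈ A
  · obtain ⟨Q', hRed'⟩ := cv57_exists_red hb hc P hxP hα
    have hne : Q ≠ Q' := by
      rintro rfl
      exact hPQ hRed'
    have hQ' := hRed'.2.2.1
    obtain ⟨v, hvint, hvQ', hvQ⟩ := hc.separate Q Q' hQ hQ' hne
    obtain ⟨b, rfl⟩ := hc.lift v hvint
    have hβA := hc.ev_mem P hxP hα b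
    have hβ : cv57_evB O x evK P hxP b ∈ A.nonunits :=
      (cv57_red_nonunits_iff hb hc hRed' hxP b).mp hvQ'
    refine ⟨b - cv57_cB hb x ⟨_, hβA⟩, ?_, ?_⟩
    · rw [map_sub, cv57_evB_cB, sub_self]
    · rw [map_sub, cv57_redB_cB, (cv57_res_eq_zero_iff hb hβA).mpr hβ, map_zero, sub_zero]
      exact hvQ
  · have hαinv : (evK P ⟨x, hxP⟩)⁻¹ ∈ A := (A.mem_or_inv_mem _).resolve_left hα
    have hα0 : evK P ⟨x, hxP⟩ ≠ 0 := by
      intro h0
      apply hα
      rw [h0]
      exact A.zero_mem
    have hnon : (evK P ⟨x, hxP⟩)⁻¹ ∈ A.nonunits := by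
      rw [ValuationSubring.mem_nonunits_iff_or]
      right
      rwa [inv_inv]
    refine ⟨1 - cv57_cB hb x ⟨_, hαinv⟩ * cv57_xB K hx, ?_, ?_⟩
    · rw [map_sub, map_one, map_mul, cv57_evB_cB, cv57_evB_xB]
      change 1 - (evK P ⟨x, hxP⟩)⁻¹ * evK P ⟨x, hxP⟩ = 0
      rw [inv_mul_cancel₀ hα0, sub_self]
    · rw [map_sub, map_one, map_mul, cv57_redB_cB, (cv57_res_eq_zero_iff hb hαinv).mpr hnon,
        map_zero, zero_mul, sub_zero]
      intro h1
      rw [ValuationSubring.mem_nonunits_iff, map_one] at h1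
      exact lt_irrefl _ h1

theorem cv57_reg_aux (hb : cv57_Base A res O red evK evκ)
    (hc : cv57_Chart A res O red evK x hx) (Q : Place κ Fκ)
    (hQ : red ⟨x, hx⟩ ∈ Q.toValuationSubring) :
    ∀ (s : Finset (Place K F)) (g : F) (hg : g ∈ O),
      (∀ P ∈ s, ¬ cv57_Red A res O red evK evκ x hx P Q) →
      (∀ P : Place K F, x ∈ P.toValuationSubring → P ∉ s → g ∈ P.toValuationSubring) →
      red ⟨g, hg⟩ ∈ Q.toValuationSubring := by
  classical
  intro s
  induction s using Finset.induction_on with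
  | empty =>
    intro g hg _ hreg
    have hint := hc.integral_of_regular g (fun P hxP => hreg P hxP (Finset.notMem_empty P))
    exact cv57_redB_mem hc Q hQ ⟨g, hg, hint⟩
  | insert P s hPs ih =>
    intro g hg hnot hreg
    by_cases hxP : x ∈ P.toValuationSubring
    · obtain ⟨u, hu0, huQ⟩ :=
        cv57_exists_sep hb hc Q hQ P hxP (hnot P (Finset.mem_insert_self P s))
      have hured_ne : cv57_redB O red x u ≠ 0 := by
        intro h0
        apply huQ
        rw [h0]
        exact zero_mem _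
      have hu_ne : (u : F) ≠ 0 := by
        intro h0
        apply hured_ne
        have : u = 0 := Subtype.ext h0
        rw [this, map_zero]
      have huP : 0 < P.ord (u : F) := by
        have h1 := (cv57_evB_eq_zero_iff hb P hxP u).mp hu0
        rcases (cv57_mem_nonunits_iff P _).mp h1 with h | h
        · exact absurd h hu_ne
        · exact h
      have hg' : g * (u : F) ^ (-(P.ord g)).toNat ∈ O := O.mul_mem _ _ hg (pow_mem u.2.1 _)
      have key := ih (g * (u : F) ^ (-(P.ord g)).toNat) hg'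
        (fun P' hP' => hnot P' (Finset.mem_insert_of_mem hP')) ?_
      · have hsplit : (⟨g * (u : F) ^ (-(P.ord g)).toNat, hg'⟩ : O) =
            ⟨g, hg⟩ * (⟨u, u.2.1⟩ : O) ^ (-(P.ord g)).toNat := Subtype.ext (by simp)
        have hinv : (cv57_redB O red x u)⁻¹ ∈ Q.toValuationSubring :=
          cv57_inv_mem_of_not_nonunits _ huQ
        have hfin : red ⟨g, hg⟩ = red ⟨g * (u : F) ^ (-(P.ord g)).toNat, hg'⟩ *
            ((cv57_redB O red x u)⁻¹) ^ (-(P.ord g)).toNat := by
          rw [hsplit, map_mul, map_pow, ← cv57_redB_apply, mul_assoc, ← mul_pow,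
            mul_inv_cancel₀ hured_ne, one_pow, mul_one]
        rw [hfin]
        exact Q.toValuationSubring.mul_mem _ _ key (pow_mem hinv _)
      · intro P' hxP' hP's
        by_cases hPP : P' = P
        · subst hPP
          rcases eq_or_ne g 0 with rfl | hg0
          · simp
          rw [wp1_mem_iff_ord_nonneg, P'.ord_mul hg0 (pow_ne_zero _ hu_ne), cv57_ord_pow]
          have h1 : -(P'.ord g) ≤ ((-(P'.ord g)).toNat : ℤ) := Int.self_le_toNat _
          have h2 : ((-(P'.ord g)).toNat : ℤ) ≤ ((-(P'.ord g)).toNat : ℤ) * P'.ord (u : F) :=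
            le_mul_of_one_le_right (Int.natCast_nonneg _) (by omega)
          omega
        · have h1 := hreg P' hxP' (by simp [hPP, hP's])
          exact P'.toValuationSubring.mul_mem _ _ h1
            (pow_mem (cv57_B_mem_place P' hxP' u) _)
    · exact ih g hg (fun P' hP' => hnot P' (Finset.mem_insert_of_mem hP'))
        (fun P' hxP' hP's => hreg P' hxP' (by
          intro h
          rcases Finset.mem_insert.mp h with rfl | h
          · exact hxP hxP'
          · exact hP's h))

/-- **(Reg)** an element of `O` without poles in the tube of `Q` has a reduction which is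
regular at `Q`. -/
theorem cv57_reg (hb : cv57_Base A res O red evK evκ)
    (hc : cv57_Chart A res O red evK x hx) (Q : Place κ Fκ)
    (hQ : red ⟨x, hx⟩ ∈ Q.toValuationSubring) (g : F) (hg : g ∈ O)
    (h : ∀ P : Place K F, cv57_Red A res O red evK evκ x hx P Q → g ∈ P.toValuationSubring) :
    red ⟨g, hg⟩ ∈ Q.toValuationSubring := by
  classical
  rcases eq_or_ne g 0 with rfl | hg0
  · have : (⟨0, hg⟩ : O) = 0 := rfl
    rw [this, map_zero]
    exact zero_mem _
  refine cv57_reg_aux hb hc Q hQ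
    ((hb.finite_ord g hg0).toFinset.filter (fun P => g ∉ P.toValuationSubring)) g hg ?_ ?_
  · intro P hP hRed
    exact (Finset.mem_filter.mp hP).2 (h P hRed)
  · intro P _ hP
    by_contra hgP
    apply hP
    rw [Finset.mem_filter, Set.Finite.mem_toFinset]
    refine ⟨?_, hgP⟩
    change P.ord g ≠ 0
    intro h0
    exact hgP ((wp1_mem_iff_ord_nonneg P g).mpr (by omega))

theorem cv57_B_coe_ne_zero {b : cv57_B K O x} (h : cv57_redB O red x b ≠ 0) : (b : F) ≠ 0 := by
  intro h0
  apply h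
  have : b = 0 := Subtype.ext h0
  rw [this, map_zero]

theorem cv57_B_ord_nonneg (P : Place K F) (hxP : x ∈ P.toValuationSubring) (b : cv57_B K O x) :
    0 ≤ P.ord (b : F) :=
  (wp1_mem_iff_ord_nonneg P _).mp (cv57_B_mem_place P hxP b)

/-- A product of translates of a lift of a uniformiser with prescribed zeros in the tube. -/
theorem cv57_prod_aux (hb : cv57_Base A res O red evK evκ)
    (hc : cv57_Chart A res O red evK x hx) (Q : Place κ Fκ)
    (t : cv57_B K O x) (htQ : cv57_redB O red x t ∈ Q.toValuationSubring.nonunits)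
    (ht0 : cv57_redB O red x t ≠ 0) (e : Place K F → ℕ) :
    ∀ Z : Finset (Place K F), (∀ P ∈ Z, cv57_Red A res O red evK evκ x hx P Q) →
      ∃ f : cv57_B K O x, cv57_redB O red x f = (cv57_redB O red x t) ^ (∑ P ∈ Z, e P) ∧
        ∀ P ∈ Z, (e P : ℤ) ≤ P.ord (f : F) := by
  classical
  intro Z
  induction Z using Finset.induction_on with
  | empty =>
    intro _
    exact ⟨1, by simp, by simp⟩
  | insert P Z hPZ ih =>
    intro hZ
    obtain ⟨f', hf'1, hf'2⟩ := ih (fun P' hP' => hZ P' (Finset.mem_insert_of_mem hP'))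
    have hRed := hZ P (Finset.mem_insert_self P Z)
    have hxP := hRed.1
    have hα := hRed.2.1
    have hτA := hc.ev_mem P hxP hα t
    have hτ : cv57_evB O x evK P hxP t ∈ A.nonunits :=
      (cv57_red_nonunits_iff hb hc hRed hxP t).mp htQ
    set u : cv57_B K O x := t - cv57_cB hb x ⟨_, hτA⟩ with hu
    have hu_red : cv57_redB O red x u = cv57_redB O red x t := by
      rw [hu, map_sub, cv57_redB_cB, (cv57_res_eq_zero_iff hb hτA).mpr hτ, map_zero, sub_zero]
    have hu_ev : cv57_evB O x evK P hxP u = 0 := by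
      rw [hu, map_sub, cv57_evB_cB, sub_self]
    have hu_ne : (u : F) ≠ 0 := cv57_B_coe_ne_zero (by rw [hu_red]; exact ht0)
    have huP : 0 < P.ord (u : F) := by
      have h1 := (cv57_evB_eq_zero_iff hb P hxP u).mp hu_ev
      rcases (cv57_mem_nonunits_iff P _).mp h1 with h | h
      · exact absurd h hu_ne
      · exact h
    have hf'_red_ne : cv57_redB O red x f' ≠ 0 := by
      rw [hf'1]
      exact pow_ne_zero _ ht0
    have hf'_ne : (f' : F) ≠ 0 := cv57_B_coe_ne_zero hf'_red_ne
    refine ⟨f' * u ^ e P, ?_, ?_⟩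
    · rw [map_mul, map_pow, hu_red, hf'1, Finset.sum_insert hPZ, ← pow_add, add_comm]
    · intro P' hP'
      have hcoe : ((f' * u ^ e P : cv57_B K O x) : F) = (f' : F) * (u : F) ^ e P := by simp
      rw [hcoe, P'.ord_mul hf'_ne (pow_ne_zero _ hu_ne), cv57_ord_pow]
      rcases Finset.mem_insert.mp hP' with rfl | hP'Z
      · have h1 := cv57_B_ord_nonneg P' hxP f'
        have h2 : (e P' : ℤ) ≤ (e P' : ℤ) * P'.ord (u : F) :=
          le_mul_of_one_le_right (Int.natCast_nonneg _) (by omega)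
        omega
      · have hxP' := (hZ P' hP').1
        have h1 := hf'2 P' hP'Z
        have h2 := cv57_B_ord_nonneg P' hxP' u
        have h3 : 0 ≤ (e P : ℤ) * P'.ord (u : F) := mul_nonneg (Int.natCast_nonneg _) h2
        omega

theorem cv57_unit_ne_zero {y : O} (hy : IsUnit y) : (y : F) ≠ 0 := by
  intro h0
  have : y = 0 := Subtype.ext h0
  rw [this] at hy
  exact not_isUnit_zero hy

theorem cv57_unit_inv_mem {y : O} (hy : IsUnit y) : (y : F)⁻¹ ∈ O := by
  obtain ⟨w, hw⟩ := hy.exists_right_inv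
  have h1 : (y : F) * (w : F) = 1 := congrArg Subtype.val hw
  rw [← eq_inv_of_mul_eq_one_right h1]
  exact w.2

theorem cv57_finsum_tube_eq (hb : cv57_Base A res O red evK evκ) (Q : Place κ Fκ) {y : F}
    (hy : y ≠ 0) [DecidablePred fun P : Place K F => cv57_Red A res O red evK evκ x hx P Q] :
    ∑ᶠ P ∈ {P : Place K F | cv57_Red A res O red evK evκ x hx P Q}, P.ord y =
      ∑ P ∈ (hb.finite_ord y hy).toFinset.filter
        (fun P => cv57_Red A res O red evK evκ x hx P Q), P.ord y := by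
  apply finsum_mem_eq_sum_of_inter_support_eq
  ext P
  simp only [Set.mem_inter_iff, Set.mem_ofPred_eq, Function.mem_support, Finset.coe_filter,
    Set.Finite.mem_toFinset]
  tauto

theorem cv57_tube_support_finite (hb : cv57_Base A res O red evK evκ) (Q : Place κ Fκ) {y : F}
    (hy : y ≠ 0) :
    ({P : Place K F | cv57_Red A res O red evK evκ x hx P Q} ∩
      Function.support fun P : Place K F => P.ord y).Finite :=
  (hb.finite_ord y hy).subset (fun _ hP => hP.2)

/-- **(a)** for a unit of `O` without poles in the tube of `Q`, the order of the reduction at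
`Q` is at most the number of zeros in the tube. -/
theorem cv57_le_of_regular (hb : cv57_Base A res O red evK evκ)
    (hc : cv57_Chart A res O red evK x hx) (Q : Place κ Fκ)
    (hQ : red ⟨x, hx⟩ ∈ Q.toValuationSubring) (y : O) (hy : IsUnit y)
    (hreg : ∀ P : Place K F, cv57_Red A res O red evK evκ x hx P Q →
      (y : F) ∈ P.toValuationSubring) :
    Q.ord (red y) ≤
      ∑ᶠ P ∈ {P : Place K F | cv57_Red A res O red evK evκ x hx P Q}, P.ord (y : F) := by
  classical
  obtain ⟨tb, htint, htord⟩ := hc.uniformizer Q hQ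
  obtain ⟨t, rfl⟩ := hc.lift tb htint
  have ht0 : cv57_redB O red x t ≠ 0 := by
    intro h0
    rw [h0, Place.ord_zero] at htord
    exact zero_ne_one htord
  have htQ : cv57_redB O red x t ∈ Q.toValuationSubring.nonunits :=
    (cv57_mem_nonunits_iff Q _).mpr (Or.inr (by omega))
  have hy0 : (y : F) ≠ 0 := cv57_unit_ne_zero hy
  have hyinv : (y : F)⁻¹ ∈ O := cv57_unit_inv_mem hy
  set Z := (hb.finite_ord (y : F) hy0).toFinset.filter
    (fun P => cv57_Red A res O red evK evκ x hx P Q) with hZ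
  obtain ⟨f, hf1, hf2⟩ := cv57_prod_aux hb hc Q t htQ ht0 (fun P => (P.ord (y : F)).toNat) Z
    (fun P hP => (Finset.mem_filter.mp hP).2)
  have hf_red_ne : cv57_redB O red x f ≠ 0 := by
    rw [hf1]
    exact pow_ne_zero _ ht0
  have hf_ne : (f : F) ≠ 0 := cv57_B_coe_ne_zero hf_red_ne
  have hg' : (f : F) * (y : F)⁻¹ ∈ O := O.mul_mem _ _ f.2.1 hyinv
  have hregQ : red ⟨(f : F) * (y : F)⁻¹, hg'⟩ ∈ Q.toValuationSubring := by
    refine cv57_reg hb hc Q hQ _ hg' ?_
    intro P hRed
    have hxP := hRed.1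
    rw [wp1_mem_iff_ord_nonneg, P.ord_mul hf_ne (inv_ne_zero hy0), P.ord_inv]
    have hyP := (wp1_mem_iff_ord_nonneg P _).mp (hreg P hRed)
    by_cases hPZ : P ∈ Z
    · have h1 := hf2 P hPZ
      have h2 : ((P.ord (y : F)).toNat : ℤ) = P.ord (y : F) := Int.toNat_of_nonneg hyP
      omega
    · have h1 : P.ord (y : F) = 0 := by
        by_contra hne
        apply hPZ
        rw [hZ, Finset.mem_filter, Set.Finite.mem_toFinset]
        exact ⟨hne, hRed⟩
      have h2 := cv57_B_ord_nonneg P hxP f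
      omega
  have hmul : red ⟨f, f.2.1⟩ = red y * red ⟨(f : F) * (y : F)⁻¹, hg'⟩ := by
    rw [← map_mul]
    congr 1
    apply Subtype.ext
    change (f : F) = (y : F) * ((f : F) * (y : F)⁻¹)
    field_simp
  rw [← cv57_redB_apply, hf1] at hmul
  have hy_red_ne : red y ≠ 0 := fun h0 => (hb.red_ker y).mp h0 hy
  have hg_red_ne : red ⟨(f : F) * (y : F)⁻¹, hg'⟩ ≠ 0 := by
    intro h0
    rw [h0, mul_zero] at hmul
    exact pow_ne_zero _ ht0 hmul
  have hord := congrArg Q.ord hmul
  rw [cv57_ord_pow, htord, mul_one, Q.ord_mul hy_red_ne hg_red_ne] at hord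
  have hnonneg := (wp1_mem_iff_ord_nonneg Q _).mp hregQ
  rw [cv57_finsum_tube_eq hb Q hy0]
  have hsum : ((∑ P ∈ Z, (P.ord (y : F)).toNat : ℕ) : ℤ) = ∑ P ∈ Z, P.ord (y : F) := by
    rw [Nat.cast_sum]
    refine Finset.sum_congr rfl fun P hP => ?_
    exact Int.toNat_of_nonneg ((wp1_mem_iff_ord_nonneg P _).mp
      (hreg P (Finset.mem_filter.mp hP).2))
  rw [← hZ, ← hsum]
  omega

/-- `x - a` is a unit of `O` for `a ∈ A`. -/
theorem cv57_sub_const_isUnit (hb : cv57_Base A res O red evK evκ)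
    (hc : cv57_Chart A res O red evK x hx) (a : A) :
    IsUnit (⟨(cv57_xB K hx - cv57_cB hb x a : cv57_B K O x),
      (cv57_xB K hx - cv57_cB hb x a : cv57_B K O x).2.1⟩ : O) := by
  by_contra hnu
  have h0 := (hb.red_ker _).mpr hnu
  rw [← cv57_redB_apply, map_sub, cv57_redB_xB, cv57_redB_cB] at h0
  exact hc.xbar_ne _ (sub_eq_zero.mp h0)

/-- **(b)** local degrees of `x - a` are conserved. -/
theorem cv57_local_degree (hb : cv57_Base A res O red evK evκ)
    (hc : cv57_Chart A res O red evK x hx) (a : A) (Q : Place κ Fκ)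
    (hQ : red ⟨x, hx⟩ ∈ Q.toValuationSubring) :
    ∑ᶠ P ∈ {P : Place K F | cv57_Red A res O red evK evκ x hx P Q},
        P.ord (x - algebraMap K F (a : K)) =
      Q.ord (red ⟨x, hx⟩ - algebraMap κ Fκ (res a)) := by
  classical
  set ya : cv57_B K O x := cv57_xB K hx - cv57_cB hb x a with hya
  have hya_coe : (ya : F) = x - algebraMap K F (a : K) := rfl
  have hya_red : cv57_redB O red x ya = red ⟨x, hx⟩ - algebraMap κ Fκ (res a) := by
    rw [hya, map_sub, cv57_redB_xB, cv57_redB_cB]
  have hred_ne : red ⟨x, hx⟩ - algebraMap κ Fκ (res a) ≠ 0 := sub_ne_zero.mpr (hc.xbar_ne _)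
  have hya_ne : (ya : F) ≠ 0 := cv57_B_coe_ne_zero (by rw [hya_red]; exact hred_ne)
  have hunit : IsUnit (⟨ya, ya.2.1⟩ : O) := cv57_sub_const_isUnit hb hc a
  rw [← hya_coe]
  -- inequality at every `Q'`
  have hle : ∀ Q' : Place κ Fκ, red ⟨x, hx⟩ ∈ Q'.toValuationSubring →
      Q'.ord (red ⟨x, hx⟩ - algebraMap κ Fκ (res a)) ≤
        ∑ᶠ P ∈ {P : Place K F | cv57_Red A res O red evK evκ x hx P Q'}, P.ord (ya : F) := by
    intro Q' hQ'
    have h1 := cv57_le_of_regular hb hc Q' hQ' ⟨ya, ya.2.1⟩ hunit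
      (fun P hRed => cv57_B_mem_place P hRed.1 ya)
    rwa [← cv57_redB_apply, hya_red] at h1
  set s' := (hc.zeros_finite a).toFinset with hs'
  set s := (hb.finite_ord (ya : F) hya_ne).toFinset.filter (fun P => 0 < P.ord (ya : F)) with hs
  have hs_mem : ∀ P, P ∈ s ↔ 0 < P.ord (ya : F) := by
    intro P
    rw [hs, Finset.mem_filter, Set.Finite.mem_toFinset]
    exact ⟨fun h => h.2, fun h => ⟨ne_of_gt h, h⟩⟩
  have hs'_mem : ∀ Q', Q' ∈ s' ↔ 0 < Q'.ord (red ⟨x, hx⟩ - algebraMap κ Fκ (res a)) := by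
    intro Q'
    rw [hs', Set.Finite.mem_toFinset]
    rfl
  have hdeg := hc.degree_eq a s s' hs_mem hs'_mem
  rw [← hya_coe] at hdeg
  -- every zero reduces into `s'`
  have hzero : ∀ P ∈ s, ∃ Q' ∈ s', cv57_Red A res O red evK evκ x hx P Q' := by
    intro P hP
    have hpos := (hs_mem P).mp hP
    have hnon : x - algebraMap K F (a : K) ∈ P.toValuationSubring.nonunits :=
      (cv57_mem_nonunits_iff P _).mpr (Or.inr hpos)
    have hmem : x - algebraMap K F (a : K) ∈ P.toValuationSubring :=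
      (wp1_mem_iff_ord_nonneg P _).mpr hpos.le
    have hxP : x ∈ P.toValuationSubring := by
      have h1 := P.toValuationSubring.add_mem _ _ hmem (P.algebraMap_mem' (a : K))
      simpa using h1
    have hev : evK P ⟨x, hxP⟩ = (a : K) := by
      have h0 := (cv57_evK_eq_zero_iff hb P hmem).mpr hnon
      have hsplit : (⟨x - algebraMap K F (a : K), hmem⟩ : P.toValuationSubring) =
          ⟨x, hxP⟩ - algebraMap K P.toValuationSubring (a : K) := rfl
      rw [hsplit, map_sub, hb.evK_algebraMap, sub_eq_zero] at h0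
      exact h0
    have hα : evK P ⟨x, hxP⟩ ∈ A := by
      rw [hev]
      exact a.2
    obtain ⟨Q', hRed⟩ := cv57_exists_red hb hc P hxP hα
    refine ⟨Q', ?_, hRed⟩
    rw [hs'_mem]
    have h1 : cv57_evB O x evK P hxP ya = 0 := by
      rw [hya, map_sub, cv57_evB_xB, cv57_evB_cB, hev, sub_self]
    have h2 := (cv57_red_nonunits_iff hb hc hRed hxP ya).mpr (by rw [h1]; exact zero_mem _)
    rw [hya_red] at h2
    rcases (cv57_mem_nonunits_iff Q' _).mp h2 with h | h
    · exact absurd h hred_ne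
    · exact h
  -- tube sums as finset sums over `s`
  have hN : ∀ Q' : Place κ Fκ,
      ∑ᶠ P ∈ {P : Place K F | cv57_Red A res O red evK evκ x hx P Q'}, P.ord (ya : F) =
        ∑ P ∈ s, if cv57_Red A res O red evK evκ x hx P Q' then P.ord (ya : F) else 0 := by
    intro Q'
    rw [← Finset.sum_filter]
    apply finsum_mem_eq_sum_of_inter_support_eq
    ext P
    simp only [Set.mem_inter_iff, Set.mem_ofPred_eq, Function.mem_support, Finset.coe_filter]
    constructor
    · rintro ⟨hRed, hne⟩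
      refine ⟨⟨?_, hRed⟩, hne⟩
      rw [hs_mem]
      have := cv57_B_ord_nonneg P hRed.1 ya
      omega
    · rintro ⟨⟨_, hRed⟩, hne⟩
      exact ⟨hRed, hne⟩
  have htot : ∑ Q' ∈ s',
      ∑ᶠ P ∈ {P : Place K F | cv57_Red A res O red evK evκ x hx P Q'}, P.ord (ya : F) =
        ∑ P ∈ s, P.ord (ya : F) := by
    simp_rw [hN]
    rw [Finset.sum_comm]
    refine Finset.sum_congr rfl fun P hP => ?_
    obtain ⟨Q', hQ's', hRed⟩ := hzero P hP
    rw [Finset.sum_eq_single_of_mem Q' hQ's'
      (fun Q'' _ hne => if_neg (fun hRed'' => hne (cv57_red_unique hb hc hRed'' hRed)))]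
    exact if_pos hRed
  have hterm : ∀ Q' ∈ s', Q'.ord (red ⟨x, hx⟩ - algebraMap κ Fκ (res a)) =
      ∑ᶠ P ∈ {P : Place K F | cv57_Red A res O red evK evκ x hx P Q'}, P.ord (ya : F) := by
    have hsum : ∑ Q' ∈ s', Q'.ord (red ⟨x, hx⟩ - algebraMap κ Fκ (res a)) =
        ∑ Q' ∈ s',
          ∑ᶠ P ∈ {P : Place K F | cv57_Red A res O red evK evκ x hx P Q'}, P.ord (ya : F) := by
      rw [htot, ← hdeg]
    have hle' : ∀ Q' ∈ s', Q'.ord (red ⟨x, hx⟩ - algebraMap κ Fκ (res a)) ≤
        ∑ᶠ P ∈ {P : Place K F | cv57_Red A res O red evK evκ x hx P Q'}, P.ord (ya : F) := by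
      intro Q' hQ'
      refine hle Q' ?_
      have h1 := (wp1_mem_iff_ord_nonneg Q' _).mpr ((hs'_mem Q').mp hQ').le
      have h2 := Q'.toValuationSubring.add_mem _ _ h1 (Q'.algebraMap_mem' (res a))
      simpa using h2
    exact (Finset.sum_eq_sum_iff_of_le hle').mp hsum
  by_cases hQs : Q ∈ s'
  · exact (hterm Q hQs).symm
  · have h0 : Q.ord (red ⟨x, hx⟩ - algebraMap κ Fκ (res a)) = 0 := by
      have hmem : red ⟨x, hx⟩ - algebraMap κ Fκ (res a) ∈ Q.toValuationSubring :=
        Q.toValuationSubring.sub_mem hQ (Q.algebraMap_mem' _)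
      have h1 := (wp1_mem_iff_ord_nonneg Q _).mp hmem
      have h2 : ¬ 0 < Q.ord (red ⟨x, hx⟩ - algebraMap κ Fκ (res a)) :=
        fun h => hQs ((hs'_mem Q).mpr h)
      omega
    rw [h0]
    apply finsum_mem_eq_zero_of_forall_eq_zero
    intro P hRed
    have h1 := cv57_B_ord_nonneg P hRed.1 ya
    by_contra hne
    have hP : P ∈ s := (hs_mem P).mpr (by omega)
    obtain ⟨Q', hQ's', hRed'⟩ := hzero P hP
    have hQQ : Q = Q' := cv57_red_unique hb hc hRed hRed'
    exact hQs (hQQ ▸ hQ's')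

theorem cv57_le_aux (hb : cv57_Base A res O red evK evκ)
    (hc : cv57_Chart A res O red evK x hx) (Q : Place κ Fκ)
    (hQ : red ⟨x, hx⟩ ∈ Q.toValuationSubring) :
    ∀ Zm : Finset (Place K F), (∀ P ∈ Zm, cv57_Red A res O red evK evκ x hx P Q) →
      ∀ y : O, IsUnit y →
        (∀ P : Place K F, cv57_Red A res O red evK evκ x hx P Q → P ∉ Zm →
          (y : F) ∈ P.toValuationSubring) →
        Q.ord (red y) ≤
          ∑ᶠ P ∈ {P : Place K F | cv57_Red A res O red evK evκ x hx P Q}, P.ord (y : F) := by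
  classical
  intro Zm
  induction Zm using Finset.induction_on with
  | empty =>
    intro _ y hy hreg
    exact cv57_le_of_regular hb hc Q hQ y hy (fun P hRed => hreg P hRed (Finset.notMem_empty P))
  | insert P Zm hPZ ih =>
    intro hZ y hy hreg
    have hRed := hZ P (Finset.mem_insert_self P Zm)
    have hxP := hRed.1
    have hα := hRed.2.1
    set a : A := ⟨evK P ⟨x, hxP⟩, hα⟩ with ha
    set ya : cv57_B K O x := cv57_xB K hx - cv57_cB hb x a with hya
    have hya_coe : (ya : F) = x - algebraMap K F (a : K) := rfl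
    have hya_red : cv57_redB O red x ya = red ⟨x, hx⟩ - algebraMap κ Fκ (res a) := by
      rw [hya, map_sub, cv57_redB_xB, cv57_redB_cB]
    have hred_ne : red ⟨x, hx⟩ - algebraMap κ Fκ (res a) ≠ 0 := sub_ne_zero.mpr (hc.xbar_ne _)
    have hya_ne : (ya : F) ≠ 0 := cv57_B_coe_ne_zero (by rw [hya_red]; exact hred_ne)
    have hunit : IsUnit (⟨ya, ya.2.1⟩ : O) := cv57_sub_const_isUnit hb hc a
    have hy0 : (y : F) ≠ 0 := cv57_unit_ne_zero hy
    have hyaP : 0 < P.ord (ya : F) := by
      have h1 : cv57_evB O x evK P hxP ya = 0 := by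
        rw [hya, map_sub, cv57_evB_xB, cv57_evB_cB, sub_self]
      have h2 := (cv57_evB_eq_zero_iff hb P hxP ya).mp h1
      rcases (cv57_mem_nonunits_iff P _).mp h2 with h | h
      · exact absurd h hya_ne
      · exact h
    have hy' : IsUnit (y * (⟨ya, ya.2.1⟩ : O) ^ (-(P.ord (y : F))).toNat) :=
      hy.mul (hunit.pow _)
    have hcoe : ((y * (⟨ya, ya.2.1⟩ : O) ^ (-(P.ord (y : F))).toNat : O) : F) =
        (y : F) * (ya : F) ^ (-(P.ord (y : F))).toNat := by simp
    have hord : ∀ P' : Place K F,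
        P'.ord ((y * (⟨ya, ya.2.1⟩ : O) ^ (-(P.ord (y : F))).toNat : O) : F) =
          P'.ord (y : F) + ((-(P.ord (y : F))).toNat : ℤ) * P'.ord (ya : F) := by
      intro P'
      rw [hcoe, P'.ord_mul hy0 (pow_ne_zero _ hya_ne), cv57_ord_pow]
    have key := ih (fun P' hP' => hZ P' (Finset.mem_insert_of_mem hP'))
      (y * (⟨ya, ya.2.1⟩ : O) ^ (-(P.ord (y : F))).toNat) hy' ?_
    · have hred_y' : red (y * (⟨ya, ya.2.1⟩ : O) ^ (-(P.ord (y : F))).toNat) =
          red y * (red ⟨x, hx⟩ - algebraMap κ Fκ (res a)) ^ (-(P.ord (y : F))).toNat := by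
        rw [map_mul, map_pow, ← cv57_redB_apply, hya_red]
      have hy_red_ne : red y ≠ 0 := fun h0 => (hb.red_ker y).mp h0 hy
      rw [hred_y', Q.ord_mul hy_red_ne (pow_ne_zero _ hred_ne), cv57_ord_pow] at key
      have hfs : ∑ᶠ P' ∈ {P : Place K F | cv57_Red A res O red evK evκ x hx P Q},
          P'.ord ((y * (⟨ya, ya.2.1⟩ : O) ^ (-(P.ord (y : F))).toNat : O) : F) =
          ∑ᶠ P' ∈ {P : Place K F | cv57_Red A res O red evK evκ x hx P Q}, P'.ord (y : F) +
            ((-(P.ord (y : F))).toNat : ℤ) *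
              ∑ᶠ P' ∈ {P : Place K F | cv57_Red A res O red evK evκ x hx P Q},
                P'.ord (ya : F) := by
        simp_rw [hord]
        rw [finsum_mem_add_distrib' (cv57_tube_support_finite hb Q hy0), mul_finsum_mem]
        refine (cv57_tube_support_finite (x := x) (hx := hx) hb Q hya_ne).subset ?_
        rintro P' ⟨h1, h2⟩
        refine ⟨h1, ?_⟩
        rw [Function.mem_support] at h2 ⊢
        exact fun h0 => h2 (by rw [h0, mul_zero])
      rw [hfs] at key
      have hloc := cv57_local_degree hb hc a Q hQ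
      rw [← hya_coe] at hloc
      rw [hloc] at key
      omega
    · intro P' hRed' hP'Zm
      rw [hcoe]
      by_cases hPP : P' = P
      · subst hPP
        rw [wp1_mem_iff_ord_nonneg, P'.ord_mul hy0 (pow_ne_zero _ hya_ne), cv57_ord_pow]
        have h1 : -(P'.ord (y : F)) ≤ ((-(P'.ord (y : F))).toNat : ℤ) := Int.self_le_toNat _
        have h2 : ((-(P'.ord (y : F))).toNat : ℤ) ≤
            ((-(P'.ord (y : F))).toNat : ℤ) * P'.ord (ya : F) :=
          le_mul_of_one_le_right (Int.natCast_nonneg _) (by omega)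
        omega
      · have h1 := hreg P' hRed' (by simp [hPP, hP'Zm])
        exact P'.toValuationSubring.mul_mem _ _ h1
          (pow_mem (cv57_B_mem_place P' hRed'.1 ya) _)

/-- One inequality of the conservation law, for every unit of `O`. -/
theorem cv57_le (hb : cv57_Base A res O red evK evκ)
    (hc : cv57_Chart A res O red evK x hx) (Q : Place κ Fκ)
    (hQ : red ⟨x, hx⟩ ∈ Q.toValuationSubring) (y : O) (hy : IsUnit y) :
    Q.ord (red y) ≤
      ∑ᶠ P ∈ {P : Place K F | cv57_Red A res O red evK evκ x hx P Q}, P.ord (y : F) := by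
  classical
  have hy0 : (y : F) ≠ 0 := cv57_unit_ne_zero hy
  refine cv57_le_aux hb hc Q hQ ((hb.finite_ord (y : F) hy0).toFinset.filter
    (fun P => cv57_Red A res O red evK evκ x hx P Q)) (fun P hP => (Finset.mem_filter.mp hP).2)
    y hy ?_
  intro P hRed hP
  rw [wp1_mem_iff_ord_nonneg]
  have h0 : P.ord (y : F) = 0 := by
    by_contra hne
    apply hP
    rw [Finset.mem_filter, Set.Finite.mem_toFinset]
    exact ⟨hne, hRed⟩
  omega

/-- **Conservation law on one chart.** For every unit `y` of the Gauss ring `O` and every place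
`Q` of the special fibre at which `x̄` is regular, the number of zeros minus poles of `y` in the
tube of `Q` is the order of `red y` at `Q`. -/
theorem cv57_chart (hb : cv57_Base A res O red evK evκ)
    (hc : cv57_Chart A res O red evK x hx) (Q : Place κ Fκ)
    (hQ : red ⟨x, hx⟩ ∈ Q.toValuationSubring) (y : O) (hy : IsUnit y) :
    ∑ᶠ P ∈ {P : Place K F | cv57_Red A res O red evK evκ x hx P Q}, P.ord (y : F) =
      Q.ord (red y) := by
  refine le_antisymm ?_ (cv57_le hb hc Q hQ y hy)
  obtain ⟨w, hw⟩ := hy.exists_right_inv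
  have hwu : IsUnit w := IsUnit.of_mul_eq_one y (by rw [mul_comm]; exact hw)
  have h1 := cv57_le hb hc Q hQ w hwu
  have hwF : (w : F) = (y : F)⁻¹ := by
    have h2 : (y : F) * (w : F) = 1 := congrArg Subtype.val hw
    exact eq_inv_of_mul_eq_one_right h2
  have hwred : red w = (red y)⁻¹ := by
    have h2 : red y * red w = 1 := by rw [← map_mul, hw, map_one]
    exact eq_inv_of_mul_eq_one_right h2
  rw [hwred, Q.ord_inv] at h1
  have h3 : ∑ᶠ P ∈ {P : Place K F | cv57_Red A res O red evK evκ x hx P Q}, P.ord (w : F) =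
      -1 * ∑ᶠ P ∈ {P : Place K F | cv57_Red A res O red evK evκ x hx P Q}, P.ord (y : F) := by
    rw [mul_finsum_mem]
    refine finsum_mem_congr rfl fun P _ => ?_
    rw [hwF, P.ord_inv]
    ring
  rw [h3] at h1
  omega

end Lemmas

end Core

end Fermat.Agent.S37
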