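import Mathlib
import Fermat.Prelude.Def_AlgebraicCurve_DivisorClassGroup

/-!
# S37, row XC (cross-chart separation at the cusp class) -- abstract core (helper25)

Setting: `F / L` and `Fk / k` function fields (only the Prelude `Place` structure is used),
`A` a valuation subring of `L` with a map `res : A →+* k`, a subring `O ⊆ F` (the Gauss ring)
with a reduction map `red : O →+* Fk`, and a map `r0` on places which is *conservative* on `O`
(the second clause of the Prelude `IsPlaceReductionAlong`).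

Given a coordinate `h` (a unit of `O`) and two chart rings `B0 ∋ h`, `Binf ∋ h⁻¹` which are
regular on the tubes over `hbar = 0`, resp. `hbar = ∞`, the theorem `xc25_core` produces, for a
place `P'` whose reduction lies over `hbar = 0`, a function with a simple zero at `P'` and no
other zero or pole at any place whose reduction lies over `hbar ∈ {0, ∞}`.
-/

set_option autoImplicit false

namespace Fermat.Agent.S37

open AlgebraicCurve

open scoped WithZero

/-! ### Dictionary `ord` / `adicValuation` for a place -/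

section Dict

variable {K F : Type*} [Field K] [Field F] [Algebra K F] (P : Place K F)

theorem xc25_val_eq_exp {f : F} (hf : f ≠ 0) :
    P.adicValuation f = WithZero.exp (-(P.ord f)) := by
  unfold Place.ord
  rw [neg_neg, WithZero.exp_log (P.adicValuation_ne_zero hf)]

theorem xc25_nonneg_iff (f : F) : 0 ≤ P.ord f ↔ P.adicValuation f ≤ 1 := by
  rcases eq_or_ne f 0 with rfl | hf
  · simp
  rw [xc25_val_eq_exp P hf, ← WithZero.exp_zero, WithZero.exp_le_exp]
  omega

theorem xc25_pos_iff (f : F) : 0 < P.ord f ↔ P.adicValuation f < 1 ∧ f ≠ 0 := by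
  rcases eq_or_ne f 0 with rfl | hf
  · simp
  rw [xc25_val_eq_exp P hf, ← WithZero.exp_zero, WithZero.exp_lt_exp]
  constructor
  · intro h
    exact ⟨by omega, hf⟩
  · rintro ⟨h, -⟩
    omega

theorem xc25_eq_zero_iff (f : F) : (P.ord f = 0 ∧ f ≠ 0) ↔ P.adicValuation f = 1 := by
  rcases eq_or_ne f 0 with rfl | hf
  · simp
  rw [xc25_val_eq_exp P hf, ← WithZero.exp_zero, WithZero.exp_inj]
  constructor
  · rintro ⟨h, -⟩
    omega
  · intro h
    exact ⟨by omega, hf⟩

theorem xc25_eq_one_iff (f : F) : P.ord f = 1 ↔ P.adicValuation f = WithZero.exp (-1 : ℤ) := by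
  rcases eq_or_ne f 0 with rfl | hf
  · simp only [Place.ord_zero, zero_ne_one, map_zero, false_iff]
    exact Ne.symm WithZero.exp_ne_zero
  rw [xc25_val_eq_exp P hf, WithZero.exp_inj]
  omega

theorem xc25_val_const {c : K} (hc : c ≠ 0) : P.adicValuation (algebraMap K F c) = 1 := by
  have hu : IsUnit (algebraMap K P.toValuationSubring c) := (Ne.isUnit hc).map _
  have := (P.adicValuation_coe_eq_one_iff _).mpr hu
  rwa [P.coe_algebraMap] at this

theorem xc25_val_const_le (c : K) : P.adicValuation (algebraMap K F c) ≤ 1 := by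
  rcases eq_or_ne c 0 with rfl | hc
  · simp
  · exact (xc25_val_const P hc).le

theorem xc25_mem_iff (f : F) : f ∈ P.toValuationSubring ↔ P.adicValuation f ≤ 1 := by
  constructor
  · intro h
    have := P.adicValuation_coe ⟨f, h⟩
    rw [this]
    exact IsDedekindDomain.HeightOneSpectrum.intValuation_le_one _ _
  · intro h
    obtain ⟨a, ha⟩ := IsDiscreteValuationRing.exists_lift_of_le_one (A := P.toValuationSubring)
      (K := F) (x := f) h
    rw [← ha]
    exact a.2

theorem xc25_ord_pow (f : F) (n : ℕ) : P.ord (f ^ n) = n * P.ord f := by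
  have := P.ord_zpow f (n : ℤ)
  rwa [zpow_natCast] at this

/-- A function which is small at `Q` cannot be congruent to a nonzero constant. -/
theorem xc25_const_zero (z : F) (c : K) (hz : P.adicValuation z < 1)
    (hzc : P.adicValuation (z - algebraMap K F c) < 1) : c = 0 := by
  by_contra hc
  have h1 := xc25_val_const P hc
  have h2 : P.adicValuation (algebraMap K F c) < 1 := by
    have h3 : algebraMap K F c = z - (z - algebraMap K F c) := by ring
    rw [h3]
    exact lt_of_le_of_lt (Valuation.map_sub _ _ _) (max_lt hz hzc)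
  rw [h1] at h2
  exact lt_irrefl _ h2

end Dict

/-! ### Two valuation lemmas -/

theorem xc25_val_pow_sub_pow {F Γ : Type*} [Field F] [LinearOrderedCommGroupWithZero Γ]
    (v : Valuation F Γ) {x y : F} (hx : v x ≤ 1) (hy : v y ≤ 1) (n : ℕ) :
    v (x ^ n - y ^ n) ≤ v (x - y) := by
  induction n with
  | zero => simp
  | succ n ih =>
    have e : x ^ (n + 1) - y ^ (n + 1) = x ^ n * (x - y) + (x ^ n - y ^ n) * y := by ring
    rw [e]
    refine le_trans (Valuation.map_add _ _ _) (max_le ?_ ?_)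
    · rw [map_mul, map_pow]
      exact mul_le_of_le_one_left' (pow_le_one' hx n)
    · rw [map_mul]
      exact le_trans (mul_le_of_le_one_right' hy) ih

theorem xc25_pow_lt {x : ℤᵐ⁰} (hx : x < 1) {n : ℕ} (hn : 2 ≤ n) :
    x ^ n < WithZero.exp (-1 : ℤ) := by
  rcases eq_or_ne x 0 with rfl | hx0
  · rw [zero_pow (by omega)]
    exact WithZero.exp_pos
  · rw [← WithZero.exp_log hx0] at hx ⊢
    rw [← WithZero.exp_zero, WithZero.exp_lt_exp] at hx
    rw [← WithZero.exp_nsmul, WithZero.exp_lt_exp, nsmul_eq_mul]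
    have h2 : (2 : ℤ) ≤ (n : ℤ) := by exact_mod_cast hn
    nlinarith

theorem xc25_exp_neg_one_lt_one : WithZero.exp (-1 : ℤ) < (1 : ℤᵐ⁰) := by
  rw [← WithZero.exp_zero, WithZero.exp_lt_exp]
  omega

/-! ### Integrality: valuation rings are integrally closed; the pole bound -/

section Integral

open Polynomial

theorem xc25_mem_of_isIntegralElem {F : Type*} [Field F] (V : ValuationSubring F) {R : Type*}
    [CommRing R] (ψ : R →+* F) (hψ : ∀ r, ψ r ∈ V) {f : F} (hf : ψ.IsIntegralElem f) : f ∈ V := by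
  obtain ⟨p, hpm, hp⟩ := hf
  set ψ' : R →+* V := ψ.codRestrict V.toSubring hψ with hψ'
  have hint : IsIntegral V f := by
    refine ⟨p.map ψ', hpm.map ψ', ?_⟩
    rw [Polynomial.eval₂_map]
    exact hp
  obtain ⟨y, hy⟩ := IsIntegrallyClosed.isIntegral_iff.mp hint
  rw [← hy]
  exact y.2

theorem xc25_pole {R F : Type*} [CommRing R] [Field F] (φ : R →+* F) {x y : F} (hxy : x * y = 1)
    {f : F} (hf : (Polynomial.eval₂RingHom φ x).IsIntegralElem f) :
    ∃ D : ℕ, ∀ n, D ≤ n → (Polynomial.eval₂RingHom φ y).IsIntegralElem (f * y ^ n) := by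
  classical
  obtain ⟨p, hpm, hp⟩ := hf
  set m := p.natDegree with hm
  set d := (Finset.range (m + 1)).sup (fun i => (p.coeff i).natDegree) with hd
  have hdle : ∀ i, i ≤ m → (p.coeff i).natDegree ≤ d := fun i hi =>
    Finset.le_sup (f := fun i => (p.coeff i).natDegree) (Finset.mem_range.mpr (by omega))
  have hyx : ∀ N : ℕ, x ^ N * y ^ N = 1 := fun N => by rw [← mul_pow, hxy, one_pow]
  have hrefl : ∀ (c : R[X]) (N : ℕ), c.natDegree ≤ N →
      eval₂ φ y (reflect N c) = eval₂ φ x c * y ^ N := by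
    intro c N hc
    have h1 := @eval₂_reflect_mul_pow _ _ _ _ φ x ⟨y, by rw [mul_comm]; exact hxy, hxy⟩ N c hc
    have h2 : eval₂ φ y (reflect N c) * x ^ N = eval₂ φ x c := h1
    rw [← h2, mul_assoc, hyx, mul_one]
  have hyint : ∀ j : ℕ, (Polynomial.eval₂RingHom φ y).IsIntegralElem (y ^ j) := by
    intro j
    have := RingHom.isIntegralElem_map (f := Polynomial.eval₂RingHom φ y) (x := (X : R[X]) ^ j)
    simpa using this
  -- the key case `n = d`
  have hkey : (Polynomial.eval₂RingHom φ y).IsIntegralElem (f * y ^ d) := by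
    set q : R[X][X] := X ^ m + ∑ i ∈ Finset.range m, C (reflect (d * (m - i)) (p.coeff i)) * X ^ i
      with hq
    have hqm : q.Monic := by
      refine Polynomial.monic_X_pow_add ?_
      refine lt_of_le_of_lt (Polynomial.degree_sum_le _ _) ?_
      refine (Finset.sup_lt_iff (WithBot.bot_lt_coe m)).mpr fun i hi => ?_
      refine lt_of_le_of_lt (Polynomial.degree_C_mul_X_pow_le _ _) ?_
      exact WithBot.coe_lt_coe.mpr (Finset.mem_range.mp hi)
    refine ⟨q, hqm, ?_⟩
    have hp' : ∑ i ∈ Finset.range (m + 1), eval₂ φ x (p.coeff i) * f ^ i = 0 := by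
      have := hp
      rw [Polynomial.eval₂_eq_sum_range] at this
      simpa using this
    rw [Finset.sum_range_succ] at hp'
    have hlead : p.coeff m = 1 := hpm.coeff_natDegree
    rw [hlead] at hp'
    rw [hq, eval₂_add, eval₂_X_pow, eval₂_finsetSum]
    have hterm : ∀ i ∈ Finset.range m,
        eval₂ (Polynomial.eval₂RingHom φ y) (f * y ^ d)
          (C (reflect (d * (m - i)) (p.coeff i)) * X ^ i)
          = (eval₂ φ x (p.coeff i) * f ^ i) * y ^ (d * m) := by
      intro i hi
      have him : i < m := Finset.mem_range.mp hi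
      rw [eval₂_mul, eval₂_C, eval₂_X_pow, Polynomial.coe_eval₂RingHom,
        hrefl _ _ (le_trans (hdle i him.le) (Nat.le_mul_of_pos_right _ (by omega)))]
      have e : d * m = d * (m - i) + d * i := by
        rw [← Nat.mul_add]
        congr 1
        omega
      rw [e, pow_add, mul_pow, ← pow_mul]
      ring
    rw [Finset.sum_congr rfl hterm, ← Finset.sum_mul]
    have e2 : (f * y ^ d) ^ m = f ^ m * y ^ (d * m) := by rw [mul_pow, ← pow_mul]
    rw [e2, ← add_mul]
    have e3 : f ^ m + ∑ i ∈ Finset.range m, eval₂ φ x (p.coeff i) * f ^ i = 0 := by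
      rw [← hp']
      simp [add_comm]
    rw [e3, zero_mul]
  refine ⟨d, fun n hn => ?_⟩
  have e : f * y ^ n = (f * y ^ d) * y ^ (n - d) := by
    rw [mul_assoc, ← pow_add]
    congr 2
    omega
  rw [e]
  exact RingHom.IsIntegralElem.mul _ hkey (hyint (n - d))

/-- The elements of `F` which are integral over `R[x]` (the image of `R[X]` under `X ↦ x`). -/
def xc25_intRing {R F : Type*} [CommRing R] [Field F] (φ : R →+* F) (x : F) : Subring F where
  carrier := {f | (Polynomial.eval₂RingHom φ x).IsIntegralElem f}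
  mul_mem' := fun ha hb => RingHom.IsIntegralElem.mul _ ha hb
  one_mem' := by
    have := RingHom.isIntegralElem_map (f := Polynomial.eval₂RingHom φ x) (x := (1 : R[X]))
    simpa using this
  add_mem' := fun ha hb => RingHom.IsIntegralElem.add _ ha hb
  zero_mem' := by
    have := RingHom.isIntegralElem_map (f := Polynomial.eval₂RingHom φ x) (x := (0 : R[X]))
    simpa using this
  neg_mem' := fun ha => (RingHom.IsIntegralElem.neg_iff _).mpr ha

theorem xc25_mem_intRing {R F : Type*} [CommRing R] [Field F] (φ : R →+* F) (x f : F) :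
    f ∈ xc25_intRing φ x ↔ (Polynomial.eval₂RingHom φ x).IsIntegralElem f := Iff.rfl

theorem xc25_map_mem_intRing {R F : Type*} [CommRing R] [Field F] (φ : R →+* F) (x : F) (r : R) :
    φ r ∈ xc25_intRing φ x := by
  have := RingHom.isIntegralElem_map (f := Polynomial.eval₂RingHom φ x) (x := C r)
  simpa [xc25_mem_intRing] using this

theorem xc25_self_mem_intRing {R F : Type*} [CommRing R] [Field F] (φ : R →+* F) (x : F) :
    x ∈ xc25_intRing φ x := by
  have := RingHom.isIntegralElem_map (f := Polynomial.eval₂RingHom φ x) (x := (X : R[X]))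
  simpa [xc25_mem_intRing] using this

end Integral

/-! ### Push-forward of a divisor along a map, evaluated on one fibre -/

section Tube

theorem xc25_mapDomain_apply {α β : Type*} (r : α → β) (D : α →₀ ℤ) (Q : β) :
    Finsupp.mapDomain r D Q = by
      classical
      exact ∑ x ∈ D.support, (if r x = Q then D x else 0) := by
  classical
  rw [Finsupp.mapDomain, Finsupp.sum_apply, Finsupp.sum]
  refine Finset.sum_congr rfl fun x _ => ?_
  rw [Finsupp.single_apply]

theorem xc25_mapDomain_bounds {α β : Type*} (r : α → β) (D : α →₀ ℤ) (Q : β)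
    (hnn : ∀ a, r a = Q → 0 ≤ D a) :
    0 ≤ Finsupp.mapDomain r D Q ∧ (∀ a, r a = Q → D a ≤ Finsupp.mapDomain r D Q) ∧
      ∀ a b, r a = Q → r b = Q → a ≠ b → D a + D b ≤ Finsupp.mapDomain r D Q := by
  classical
  have hterm : ∀ x, 0 ≤ (if r x = Q then D x else 0) := by
    intro x
    split_ifs with hx
    · exact hnn x hx
    · exact le_rfl
  have hext : ∀ T : Finset α, D.support ⊆ T →
      Finsupp.mapDomain r D Q = ∑ x ∈ T, (if r x = Q then D x else 0) := by
    intro T hT
    rw [xc25_mapDomain_apply]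
    refine Finset.sum_subset hT fun x _ hx => ?_
    rw [Finsupp.notMem_support_iff.mp hx]
    simp
  refine ⟨?_, ?_, ?_⟩
  · rw [xc25_mapDomain_apply]
    exact Finset.sum_nonneg fun x _ => hterm x
  · intro a ha
    rw [hext (D.support ∪ {a}) Finset.subset_union_left]
    have h1 := Finset.single_le_sum (f := fun x => if r x = Q then D x else 0)
      (s := D.support ∪ {a}) (fun x _ => hterm x)
      (Finset.mem_union_right _ (Finset.mem_singleton_self a))
    simpa [ha] using h1
  · intro a b ha hb hab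
    rw [hext (D.support ∪ {a, b}) Finset.subset_union_left]
    have h1 : ∑ x ∈ ({a, b} : Finset α), (if r x = Q then D x else 0)
        ≤ ∑ x ∈ D.support ∪ {a, b}, (if r x = Q then D x else 0) :=
      Finset.sum_le_sum_of_subset_of_nonneg Finset.subset_union_right fun x _ _ => hterm x
    rw [Finset.sum_pair hab, if_pos ha, if_pos hb] at h1
    exact h1

end Tube

/-! ### The abstract setting -/

section Core

variable {L F k Fk : Type*} [Field L] [Field F] [Algebra L F] [Field k] [Field Fk] [Algebra k Fk]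

/-- The reduction package: `O` is the Gauss ring, `red` the reduction map, `r0` the map on
places; `hcons` is conservation of orders along the fibres of `r0` (Prelude shape). -/
structure xc25_Setup (A : ValuationSubring L) (res : A →+* k) (O : Subring F) (red : O →+* Fk)
    (r0 : Place L F → Place k Fk) : Prop where
  hres : ∀ a : A, a ∈ IsLocalRing.maximalIdeal A → res a = 0
  hOA : ∀ a : A, algebraMap L F (a : L) ∈ O
  hredA : ∀ a : A, red ⟨algebraMap L F (a : L), hOA a⟩ = algebraMap k Fk (res a)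
  hcons : ∀ f : O, red f ≠ 0 → ∀ D : Divisor L F, (∀ P, D P = P.ord (f : F)) →
    ∀ Q, Finsupp.mapDomain r0 D Q = Q.ord (red f)

/-- A chart: a subring `B ⊆ O` containing the constants of `A` and the coordinate `x`, all of
whose elements are regular at the places whose reduction lies over `xbar = 0`. -/
structure xc25_Chart (A : ValuationSubring L) (O : Subring F) (red : O →+* Fk)
    (r0 : Place L F → Place k Fk) (x : O) (B : Subring F) : Prop where
  hBO : B ≤ O
  hA : ∀ a : A, algebraMap L F (a : L) ∈ B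
  hx : (x : F) ∈ B
  hreg : ∀ P : Place L F, 0 < (r0 P).ord (red x) → ∀ f ∈ B, 0 ≤ P.ord f

variable {A : ValuationSubring L} {res : A →+* k} {O : Subring F} {red : O →+* Fk}
  {r0 : Place L F → Place k Fk}

/-- Conservation on one fibre of `r0` on which `f` is regular. -/
theorem xc25_tube [HasPrincipalDivisors L F] (S : xc25_Setup A res O red r0) (f : O)
    (hf : red f ≠ 0) (Q : Place k Fk) (hreg : ∀ P, r0 P = Q → 0 ≤ P.ord (f : F)) :
    0 ≤ Q.ord (red f) ∧ (∀ P, r0 P = Q → P.ord (f : F) ≤ Q.ord (red f)) ∧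
      ∀ P P', r0 P = Q → r0 P' = Q → P ≠ P' →
        P.ord (f : F) + P'.ord (f : F) ≤ Q.ord (red f) := by
  have hf0 : (f : F) ≠ 0 := by
    intro h0
    apply hf
    have : f = 0 := Subtype.ext h0
    rw [this, map_zero]
  obtain ⟨D, hD, -⟩ := HasPrincipalDivisors.exists_divisor (K := L) (f : F) hf0
  have hc := S.hcons f hf D hD Q
  have hb := xc25_mapDomain_bounds r0 D Q (fun P hP => by rw [hD]; exact hreg P hP)
  rw [hc] at hb
  refine ⟨hb.1, fun P hP => ?_, fun P P' hP hP' hne => ?_⟩
  · have := hb.2.1 P hP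
    rwa [hD] at this
  · have := hb.2.2 P P' hP hP' hne
    rwa [hD, hD] at this

/-- Conservation on a fibre over `xbar = 0`, for an element of the chart ring. -/
theorem xc25_chart_tube [HasPrincipalDivisors L F] (S : xc25_Setup A res O red r0) {x : O}
    {B : Subring F} (C : xc25_Chart A O red r0 x B) (f : O) (hfB : (f : F) ∈ B)
    (hf : red f ≠ 0) (Q : Place k Fk) (hQ : 0 < Q.ord (red x)) :
    0 ≤ Q.ord (red f) ∧ (∀ P, r0 P = Q → P.ord (f : F) ≤ Q.ord (red f)) ∧
      ∀ P P', r0 P = Q → r0 P' = Q → P ≠ P' →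
        P.ord (f : F) + P'.ord (f : F) ≤ Q.ord (red f) :=
  xc25_tube S f hf Q fun P hP => C.hreg P (by rw [hP]; exact hQ) _ hfB

/-- Regularity of reductions: the reduction of an element of the chart ring is regular at the
places over `xbar = 0`. -/
theorem xc25_chart_red_le [HasPrincipalDivisors L F] (S : xc25_Setup A res O red r0) {x : O}
    {B : Subring F} (C : xc25_Chart A O red r0 x B) (f : O) (hfB : (f : F) ∈ B)
    (Q : Place k Fk) (hQ : 0 < Q.ord (red x)) : Q.adicValuation (red f) ≤ 1 := by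
  by_cases hf : red f = 0
  · rw [hf, map_zero]
    exact zero_le_one
  · exact (xc25_nonneg_iff Q _).mp (xc25_chart_tube S C f hfB hf Q hQ).1

/-- An element of the chart ring whose reduction is a unit at `Q` is a unit at every place of
the fibre of `Q`. -/
theorem xc25_chart_unit [HasPrincipalDivisors L F] (S : xc25_Setup A res O red r0) {x : O}
    {B : Subring F} (C : xc25_Chart A O red r0 x B) (f : O) (hfB : (f : F) ∈ B)
    (Q : Place k Fk) (hQ : 0 < Q.ord (red x)) (hu : Q.adicValuation (red f) = 1)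
    (P : Place L F) (hP : r0 P = Q) : P.ord (f : F) = 0 := by
  have hf : red f ≠ 0 := by
    intro h0
    rw [h0, map_zero] at hu
    exact zero_ne_one hu
  have h1 := (xc25_chart_tube S C f hfB hf Q hQ).2.1 P hP
  have h2 : Q.ord (red f) = 0 := ((xc25_eq_zero_iff Q _).mpr hu).1
  have h3 := C.hreg P (by rw [hP]; exact hQ) _ hfB
  omega

/-- **Values.**  An element `f` of the chart ring takes at a place `P'` over `xbar = 0` a value
in `A`, and the reduction of `f` takes at `r0 P'` the residue of this value.  (Derived from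
conservation: no separate "evaluation" input.) -/
theorem xc25_value [HasPrincipalDivisors L F] (S : xc25_Setup A res O red r0) {x : O}
    {B : Subring F} (C : xc25_Chart A O red r0 x B) (P' : Place L F)
    (hP' : 0 < (r0 P').ord (red x))
    (hF1 : ∀ f : F, f ∈ P'.toValuationSubring →
      ∃ c : L, f = algebraMap L F c ∨ 0 < P'.ord (f - algebraMap L F c))
    (f : O) (hfB : (f : F) ∈ B) :
    ∃ a : A, P'.adicValuation ((f : F) - algebraMap L F (a : L)) < 1 ∧
      (r0 P').adicValuation (red f - algebraMap k Fk (res a)) < 1 := by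
  have hfV : (f : F) ∈ P'.toValuationSubring :=
    (xc25_mem_iff P' _).mpr ((xc25_nonneg_iff P' _).mp (C.hreg P' hP' _ hfB))
  obtain ⟨c, hc⟩ := hF1 _ hfV
  have hv : P'.adicValuation ((f : F) - algebraMap L F c) < 1 := by
    rcases hc with hc | hc
    · rw [hc, sub_self, map_zero]
      exact zero_lt_one
    · exact ((xc25_pos_iff P' _).mp hc).1
  by_cases hcA : c ∈ A
  · refine ⟨⟨c, hcA⟩, hv, ?_⟩
    set f3 : O := f - ⟨algebraMap L F c, S.hOA ⟨c, hcA⟩⟩ with hf3
    have hred3 : red f3 = red f - algebraMap k Fk (res ⟨c, hcA⟩) := by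
      rw [hf3, map_sub, S.hredA ⟨c, hcA⟩]
    have hcoe3 : (f3 : F) = (f : F) - algebraMap L F c := rfl
    rw [← hred3]
    by_cases h3 : red f3 = 0
    · rw [h3, map_zero]
      exact zero_lt_one
    · have hB3 : (f3 : F) ∈ B := by
        rw [hcoe3]
        exact B.sub_mem hfB (C.hA ⟨c, hcA⟩)
      have h30 : (f3 : F) ≠ 0 := by
        intro h0
        apply h3
        have : f3 = 0 := Subtype.ext h0
        rw [this, map_zero]
      have h4 := (xc25_chart_tube S C f3 hB3 h3 (r0 P') hP').2.1 P' rfl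
      have h5 : 0 < P'.ord (f3 : F) := (xc25_pos_iff P' _).mpr ⟨by rw [hcoe3]; exact hv, h30⟩
      exact ((xc25_pos_iff (r0 P') _).mp (lt_of_lt_of_le h5 h4)).1
  · exfalso
    have hc0 : c ≠ 0 := by
      rintro rfl
      exact hcA A.zero_mem
    have hci : c⁻¹ ∈ A := (A.mem_or_inv_mem c).resolve_left hcA
    have hbm : (⟨c⁻¹, hci⟩ : A) ∈ IsLocalRing.maximalIdeal A := by
      rw [IsLocalRing.mem_maximalIdeal, mem_nonunits_iff]
      intro hu
      obtain ⟨b', hb'⟩ := hu.exists_right_inv
      apply hcA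
      have h1 : c⁻¹ * (b' : L) = 1 := by
        have := congrArg (Subtype.val) hb'
        simpa using this
      have h2 : (b' : L) = c := by
        field_simp at h1
        exact h1
      rw [← h2]
      exact b'.2
    have hrb : res ⟨c⁻¹, hci⟩ = 0 := S.hres _ hbm
    set f2 : O := 1 - ⟨algebraMap L F c⁻¹, S.hOA ⟨c⁻¹, hci⟩⟩ * f with hf2
    have hred2 : red f2 = 1 := by
      rw [hf2, map_sub, map_one, map_mul, S.hredA ⟨c⁻¹, hci⟩, hrb, map_zero, zero_mul, sub_zero]
    have hcoe2 : (f2 : F) = 1 - algebraMap L F c⁻¹ * (f : F) := rfl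
    have hB2 : (f2 : F) ∈ B := by
      rw [hcoe2]
      exact B.sub_mem B.one_mem (B.mul_mem (C.hA ⟨c⁻¹, hci⟩) hfB)
    have h2ne : red f2 ≠ 0 := by
      rw [hred2]
      exact one_ne_zero
    have h20 : (f2 : F) ≠ 0 := by
      intro h0
      apply h2ne
      have : f2 = 0 := Subtype.ext h0
      rw [this, map_zero]
    have h4 := (xc25_chart_tube S C f2 hB2 h2ne (r0 P') hP').2.1 P' rfl
    rw [hred2, Place.ord_one] at h4
    have h5 : 0 < P'.ord (f2 : F) := by
      refine (xc25_pos_iff P' _).mpr ⟨?_, h20⟩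
      have e : (f2 : F) = -(algebraMap L F c⁻¹) * ((f : F) - algebraMap L F c) := by
        rw [hcoe2, neg_mul, mul_sub, ← map_mul, inv_mul_cancel₀ hc0, map_one]
        ring
      rw [e, map_mul, Valuation.map_neg, xc25_val_const P' (inv_ne_zero hc0), one_mul]
      exact hv
    omega

/-- **Cross-chart separation (row XC).**  For a place `P'` whose reduction lies over
`hbar = 0` there is a function with a simple zero at `P'` and neither zero nor pole at any other
place whose reduction lies over `hbar = 0` or `hbar = ∞`. -/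
theorem xc25_core [HasPrincipalDivisors L F] (ℓ : ℕ) [Fact ℓ.Prime] [CharP k ℓ]
    (S : xc25_Setup A res O red r0) {h hinv : O} (hhinv : h * hinv = 1) {B0 Binf : Subring F}
    (C0 : xc25_Chart A O red r0 h B0) (Cinf : xc25_Chart A O red r0 hinv Binf)
    (hpole : ∀ f ∈ B0, ∃ D : ℕ, ∀ n, D ≤ n → f * (hinv : F) ^ n ∈ Binf)
    (P' : Place L F) (hP' : 0 < (r0 P').ord (red h))
    (hF1 : ∀ f : F, f ∈ P'.toValuationSubring →
      ∃ c : L, f = algebraMap L F c ∨ 0 < P'.ord (f - algebraMap L F c))
    (t : O) (ht : (t : F) ∈ B0) (ht1 : (r0 P').ord (red t) = 1)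
    (ht0 : ∀ Q : Place k Fk, Q ≠ r0 P' → 0 < Q.ord (red h) → Q.ord (red t) = 0) :
    ∃ f : F, f ≠ 0 ∧ P'.ord f = 1 ∧
      ∀ P : Place L F, P ≠ P' → (r0 P).ord (red h) ≠ 0 → P.ord f = 0 := by
  classical
  have hchar : CharP Fk ℓ := (Algebra.charP_iff k Fk ℓ).mp inferInstance
  have hℓ2 : 2 ≤ ℓ := (Fact.out : ℓ.Prime).two_le
  have hkk : red h * red hinv = 1 := by rw [← map_mul, hhinv, map_one]
  have hk0 : red h ≠ 0 := left_ne_zero_of_mul_eq_one hkk
  have hkinv0 : red hinv ≠ 0 := right_ne_zero_of_mul_eq_one hkk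
  have hkinv : red hinv = (red h)⁻¹ := eq_inv_of_mul_eq_one_right hkk
  have hFF : (h : F) * (hinv : F) = 1 := by
    have := congrArg Subtype.val hhinv
    simpa using this
  have hh0F : (h : F) ≠ 0 := left_ne_zero_of_mul_eq_one hFF
  have hhinv0F : (hinv : F) ≠ 0 := right_ne_zero_of_mul_eq_one hFF
  -- valuations on the special fibre at `Q' = r0 P'`
  have hwh : (r0 P').adicValuation (red h) < 1 := ((xc25_pos_iff (r0 P') _).mp hP').1
  have hwt : (r0 P').adicValuation (red t) = WithZero.exp (-1 : ℤ) :=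
    (xc25_eq_one_iff (r0 P') _).mp ht1
  have hredt0 : red t ≠ 0 := by
    intro h0
    rw [h0, map_zero] at hwt
    exact WithZero.exp_ne_zero hwt.symm
  -- the values of `h` and `t` at `P'`
  obtain ⟨a, hva, hwa⟩ := xc25_value S C0 P' hP' hF1 h C0.hx
  have hra : res a = 0 := xc25_const_zero (r0 P') (red h) (res a) hwh hwa
  obtain ⟨t0, hvt, hwt0⟩ := xc25_value S C0 P' hP' hF1 t ht
  have hrt0 : res t0 = 0 :=
    xc25_const_zero (r0 P') (red t) (res t0) (by rw [hwt]; exact xc25_exp_neg_one_lt_one) hwt0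
  -- `t1 = t - t(P')`
  set t1 : O := t - ⟨algebraMap L F (t0 : L), S.hOA t0⟩ with ht1def
  have ht1coe : (t1 : F) = (t : F) - algebraMap L F (t0 : L) := rfl
  have ht1B : (t1 : F) ∈ B0 := by
    rw [ht1coe]
    exact B0.sub_mem ht (C0.hA t0)
  have hredt1 : red t1 = red t := by
    rw [ht1def, map_sub, S.hredA t0, hrt0, map_zero, sub_zero]
  -- the pole bound and the exponent
  obtain ⟨D, hD⟩ := hpole (t1 : F) ht1B
  set n' : ℕ := D + 1 with hn'
  set n : ℕ := n' * ℓ with hn
  have hnD : D + 1 ≤ n := Nat.le_mul_of_pos_right _ (by omega)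
  -- the constant `1 + a`
  set c1 : O := ⟨algebraMap L F ((1 + a : A) : L), S.hOA (1 + a)⟩ with hc1
  have hc1coe : (c1 : F) = algebraMap L F ((1 + a : A) : L) := rfl
  have hredc1 : red c1 = 1 := by
    rw [hc1, S.hredA (1 + a), map_add, map_one, hra, add_zero, map_one]
  -- the numerator
  set g : O := (1 + h) ^ n - c1 ^ n + c1 ^ n * t1 with hg
  have hgcoe : (g : F) = (1 + (h : F)) ^ n - (c1 : F) ^ n + (c1 : F) ^ n * (t1 : F) := by
    rw [hg]
    push_cast
    ring
  have hc1B0 : (c1 : F) ∈ B0 := C0.hA (1 + a)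
  have hc1Binf : (c1 : F) ∈ Binf := Cinf.hA (1 + a)
  have hgB : (g : F) ∈ B0 := by
    rw [hgcoe]
    exact B0.add_mem (B0.sub_mem (B0.pow_mem (B0.add_mem B0.one_mem C0.hx) n)
      (B0.pow_mem hc1B0 n)) (B0.mul_mem (B0.pow_mem hc1B0 n) ht1B)
  have hredg : red g = ((1 + red h) ^ n' - 1) ^ ℓ + red t := by
    rw [hg, map_add, map_sub, map_mul, map_pow, map_pow, map_add, map_one, hredc1, one_pow,
      one_mul, hredt1, sub_pow_expChar, one_pow, ← pow_mul]
  -- valuations of the reduction of `g` over `hbar = 0`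
  have key0 : ∀ Q : Place k Fk, Q.adicValuation (red h) < 1 →
      Q.adicValuation (((1 + red h) ^ n' - 1) ^ ℓ) < WithZero.exp (-1 : ℤ) := by
    intro Q hQ
    have h1 : Q.adicValuation (1 + red h) ≤ 1 := (Valuation.map_one_add_of_lt _ hQ).le
    have h2 : Q.adicValuation ((1 + red h) ^ n' - 1) < 1 := by
      have h3 := xc25_val_pow_sub_pow Q.adicValuation h1
        (by rw [map_one] : Q.adicValuation (1 : Fk) ≤ 1) n'
      rw [one_pow, add_sub_cancel_left] at h3
      exact lt_of_le_of_lt h3 hQ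
    rw [map_pow]
    exact xc25_pow_lt h2 hℓ2
  have hwg' : (r0 P').adicValuation (red g) = WithZero.exp (-1 : ℤ) := by
    rw [hredg, Valuation.map_add_eq_of_lt_right _ (by rw [hwt]; exact key0 (r0 P') hwh), hwt]
  have hredg0 : red g ≠ 0 := by
    intro h0
    rw [h0, map_zero] at hwg'
    exact WithZero.exp_ne_zero hwg'.symm
  have hg0 : (g : F) ≠ 0 := by
    intro h0
    apply hredg0
    have : g = 0 := Subtype.ext h0
    rw [this, map_zero]
  have hwg : ∀ Q : Place k Fk, Q ≠ r0 P' → 0 < Q.ord (red h) →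
      Q.adicValuation (red g) = 1 := by
    intro Q hQ hQh
    have h1 : Q.adicValuation (red t) = 1 :=
      (xc25_eq_zero_iff Q _).mp ⟨ht0 Q hQ hQh, hredt0⟩
    have h2 := key0 Q ((xc25_pos_iff Q _).mp hQh).1
    rw [hredg, Valuation.map_add_eq_of_lt_right _
      (by rw [h1]; exact lt_trans h2 xc25_exp_neg_one_lt_one), h1]
  -- `g` vanishes at `P'`
  have hvh : P'.adicValuation (h : F) ≤ 1 := (xc25_nonneg_iff P' _).mp (C0.hreg P' hP' _ C0.hx)
  have hvg : P'.adicValuation (g : F) < 1 := by
    rw [hgcoe]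
    refine lt_of_le_of_lt (Valuation.map_add _ _ _) (max_lt ?_ ?_)
    · have h1 : P'.adicValuation (1 + (h : F)) ≤ 1 :=
        le_trans (Valuation.map_add _ _ _) (max_le (by rw [map_one]) hvh)
      have h2 : P'.adicValuation (c1 : F) ≤ 1 := by
        rw [hc1coe]
        exact xc25_val_const_le P' _
      refine lt_of_le_of_lt (xc25_val_pow_sub_pow P'.adicValuation h1 h2 n) ?_
      have e : 1 + (h : F) - (c1 : F) = (h : F) - algebraMap L F (a : L) := by
        have e0 : ((1 + a : A) : L) = 1 + (a : L) := rfl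
        rw [hc1coe, e0, map_add, map_one]
        ring
      rw [e]
      exact hva
    · rw [map_mul, map_pow, ht1coe]
      have h2 : P'.adicValuation (c1 : F) ≤ 1 := by
        rw [hc1coe]
        exact xc25_val_const_le P' _
      exact lt_of_le_of_lt (mul_le_of_le_one_left' (pow_le_one' h2 n)) hvt
  have hordg' : 0 < P'.ord (g : F) := (xc25_pos_iff P' _).mpr ⟨hvg, hg0⟩
  -- orders of `g` on the tubes over `hbar = 0`
  have hQ'g : (r0 P').ord (red g) = 1 := (xc25_eq_one_iff (r0 P') _).mpr hwg'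
  have htube' := xc25_chart_tube S C0 g hgB hredg0 (r0 P') hP'
  have hg1 : P'.ord (g : F) = 1 := by
    have := htube'.2.1 P' rfl
    omega
  have hgz : ∀ P : Place L F, P ≠ P' → 0 < (r0 P).ord (red h) → P.ord (g : F) = 0 := by
    intro P hP hPh
    have hPreg := C0.hreg P hPh _ hgB
    by_cases hQ : r0 P = r0 P'
    · have := htube'.2.2 P P' hQ rfl hP
      omega
    · have h1 := (xc25_chart_tube S C0 g hgB hredg0 (r0 P) hPh).2.1 P rfl
      have h2 : (r0 P).ord (red g) = 0 := ((xc25_eq_zero_iff (r0 P) _).mpr (hwg (r0 P) hQ hPh)).1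
      omega
  -- `1 + h` is a unit on the tubes over `hbar = 0`
  have h1h0 : (1 : F) + (h : F) ≠ 0 := by
    intro h0
    have h1 : (1 + h : O) = 0 := Subtype.ext (by push_cast; exact h0)
    have h2 : (1 : Fk) + red h = 0 := by rw [← map_one red, ← map_add, h1, map_zero]
    have h3 := Valuation.map_one_add_of_lt _ hwh
    rw [h2, map_zero] at h3
    exact zero_ne_one h3
  have hu0 : ∀ P : Place L F, 0 < (r0 P).ord (red h) → P.ord ((1 : F) + (h : F)) = 0 := by
    intro P hPh
    have h1 : (r0 P).adicValuation (red (1 + h)) = 1 := by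
      rw [map_add, map_one]
      exact Valuation.map_one_add_of_lt _ ((xc25_pos_iff (r0 P) _).mp hPh).1
    have h2 := xc25_chart_unit S C0 (1 + h) (B0.add_mem B0.one_mem C0.hx) (r0 P) hPh h1 P rfl
    simpa using h2
  -- the tubes over `hbar = ∞`
  have hordinv : ∀ Q : Place k Fk, Q.ord (red hinv) = - Q.ord (red h) := by
    intro Q
    rw [hkinv, Place.ord_inv]
  have hordinvF : ∀ P : Place L F, P.ord (hinv : F) = - P.ord (h : F) := by
    intro P
    rw [show (hinv : F) = (h : F)⁻¹ from eq_inv_of_mul_eq_one_right hFF, Place.ord_inv]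
  set E : O := t1 * hinv ^ D with hE
  have hEB : (E : F) ∈ Binf := by
    rw [hE]
    push_cast
    exact hD D le_rfl
  set G : O := g * hinv ^ n with hG
  have hGeq : G = (hinv + 1) ^ n - c1 ^ n * hinv ^ n + c1 ^ n * (E * hinv ^ (n - D)) := by
    have e1 : (1 + h) ^ n * hinv ^ n = (hinv + 1) ^ n := by
      rw [← mul_pow, add_mul, one_mul, hhinv]
    have e2 : hinv ^ n = hinv ^ D * hinv ^ (n - D) := by
      rw [← pow_add]
      congr 1
      omega
    rw [hG, hg, hE, add_mul, sub_mul, e1]
    rw [mul_assoc (c1 ^ n) t1 (hinv ^ n), e2]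
    ring
  have hGB : (G : F) ∈ Binf := by
    rw [hGeq]
    push_cast
    exact Binf.add_mem (Binf.sub_mem (Binf.pow_mem (Binf.add_mem Cinf.hx Binf.one_mem) n)
      (Binf.mul_mem (Binf.pow_mem hc1Binf n) (Binf.pow_mem Cinf.hx n)))
      (Binf.mul_mem (Binf.pow_mem hc1Binf n) (Binf.mul_mem hEB (Binf.pow_mem Cinf.hx (n - D))))
  have hwG : ∀ Q : Place k Fk, 0 < Q.ord (red hinv) → Q.adicValuation (red G) = 1 := by
    intro Q hQ
    have hw : Q.adicValuation (red hinv) < 1 := ((xc25_pos_iff Q _).mp hQ).1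
    have hwE : Q.adicValuation (red E) ≤ 1 := xc25_chart_red_le S Cinf E hEB Q hQ
    have e : red G = (red hinv + 1) ^ n
        + (- (red hinv) ^ n + red E * (red hinv) ^ (n - D)) := by
      rw [hGeq, map_add, map_sub, map_mul, map_mul, map_mul, map_pow, map_pow, map_pow, map_pow,
        map_add, map_one, hredc1]
      ring
    have h1 : Q.adicValuation ((red hinv + 1) ^ n) = 1 := by
      rw [map_pow, add_comm, Valuation.map_one_add_of_lt _ hw, one_pow]
    have h2 : Q.adicValuation (- (red hinv) ^ n + red E * (red hinv) ^ (n - D)) < 1 := by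
      refine lt_of_le_of_lt (Valuation.map_add _ _ _) (max_lt ?_ ?_)
      · rw [Valuation.map_neg, map_pow]
        exact pow_lt_one₀ zero_le hw (by omega)
      · rw [map_mul, map_pow]
        exact lt_of_le_of_lt (mul_le_of_le_one_left' hwE)
          (pow_lt_one₀ zero_le hw (by omega))
    rw [e, Valuation.map_add_eq_of_lt_left _ (by rw [h1]; exact h2), h1]
  have hGz : ∀ P : Place L F, 0 < (r0 P).ord (red hinv) → P.ord (G : F) = 0 := fun P hP =>
    xc25_chart_unit S Cinf G hGB (r0 P) hP (hwG (r0 P) hP) P rfl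
  have huinf : ∀ P : Place L F, 0 < (r0 P).ord (red hinv) →
      P.ord ((1 : F) + (hinv : F)) = 0 := by
    intro P hPh
    have h1 : (r0 P).adicValuation (red (1 + hinv)) = 1 := by
      rw [map_add, map_one]
      exact Valuation.map_one_add_of_lt _ ((xc25_pos_iff (r0 P) _).mp hPh).1
    have h2 := xc25_chart_unit S Cinf (1 + hinv) (Binf.add_mem Binf.one_mem Cinf.hx) (r0 P) hPh
      h1 P rfl
    simpa using h2
  -- the function
  have hford : ∀ P : Place L F, P.ord ((g : F) * ((1 + (h : F))⁻¹) ^ n)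
      = P.ord (g : F) - n * P.ord ((1 : F) + (h : F)) := by
    intro P
    rw [P.ord_mul hg0 (pow_ne_zero n (inv_ne_zero h1h0)), xc25_ord_pow, Place.ord_inv]
    ring
  refine ⟨(g : F) * ((1 + (h : F))⁻¹) ^ n, mul_ne_zero hg0 (pow_ne_zero n (inv_ne_zero h1h0)),
    ?_, ?_⟩
  · rw [hford, hu0 P' hP', hg1]
    ring
  · intro P hP hPh
    rcases lt_or_gt_of_ne hPh with hneg | hpos
    · -- the tube over `hbar = ∞`
      have hPinv : 0 < (r0 P).ord (red hinv) := by
        rw [hordinv]
        omega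
      have h1 : P.ord (G : F) = P.ord (g : F) + n * P.ord (hinv : F) := by
        rw [hG]
        push_cast
        rw [P.ord_mul hg0 (pow_ne_zero n hhinv0F), xc25_ord_pow]
      have h1hinv0 : (1 : F) + (hinv : F) ≠ 0 := by
        intro h0
        apply h1h0
        have e : (1 : F) + (h : F) = (h : F) * (1 + (hinv : F)) := by
          rw [mul_add, mul_one, hFF]
          ring
        rw [e, h0, mul_zero]
      have h2 : P.ord ((1 : F) + (h : F)) = P.ord (h : F) + P.ord ((1 : F) + (hinv : F)) := by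
        have e : (1 : F) + (h : F) = (h : F) * (1 + (hinv : F)) := by
          rw [mul_add, mul_one, hFF]
          ring
        rw [e, P.ord_mul hh0F h1hinv0]
      rw [hford, h2, huinf P hPinv]
      have h3 := hGz P hPinv
      have h4 := hordinvF P
      rw [h1, h4] at h3
      linarith
    · rw [hford, hu0 P hpos, hgz P hP hpos]
      ring

/-- **Row XC, both tubes.**  With charts at `hbar = 0` and at `hbar = ∞`, pole bounds in both
directions and a "disc coordinate" at every place of the special fibre over `hbar ∈ {0, ∞}`: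
every place `P'` whose reduction lies over `hbar ∈ {0, ∞}` is the only zero, a simple one, of a
function without other zeros or poles at the places whose reduction lies over
`hbar ∈ {0, ∞}`. -/
theorem xc25_cusp [HasPrincipalDivisors L F] (ℓ : ℕ) [Fact ℓ.Prime] [CharP k ℓ]
    (S : xc25_Setup A res O red r0) {h hinv : O} (hhinv : h * hinv = 1) {B0 Binf : Subring F}
    (C0 : xc25_Chart A O red r0 h B0) (Cinf : xc25_Chart A O red r0 hinv Binf)
    (hpole0 : ∀ f ∈ B0, ∃ D : ℕ, ∀ n, D ≤ n → f * (hinv : F) ^ n ∈ Binf)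
    (hpoleinf : ∀ f ∈ Binf, ∃ D : ℕ, ∀ n, D ≤ n → f * (h : F) ^ n ∈ B0)
    (hF1 : ∀ (P : Place L F) (f : F), f ∈ P.toValuationSubring →
      ∃ c : L, f = algebraMap L F c ∨ 0 < P.ord (f - algebraMap L F c))
    (hdisc0 : ∀ Q' : Place k Fk, 0 < Q'.ord (red h) → ∃ t : O, (t : F) ∈ B0 ∧
      Q'.ord (red t) = 1 ∧ ∀ Q : Place k Fk, Q ≠ Q' → 0 < Q.ord (red h) → Q.ord (red t) = 0)
    (hdiscinf : ∀ Q' : Place k Fk, 0 < Q'.ord (red hinv) → ∃ t : O, (t : F) ∈ Binf ∧
      Q'.ord (red t) = 1 ∧ ∀ Q : Place k Fk, Q ≠ Q' → 0 < Q.ord (red hinv) → Q.ord (red t) = 0)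
    (P' : Place L F) (hP' : (r0 P').ord (red h) ≠ 0) :
    ∃ f : F, f ≠ 0 ∧ P'.ord f = 1 ∧
      ∀ P : Place L F, P ≠ P' → (r0 P).ord (red h) ≠ 0 → P.ord f = 0 := by
  have hkk : red h * red hinv = 1 := by rw [← map_mul, hhinv, map_one]
  have hordinv : ∀ Q : Place k Fk, Q.ord (red hinv) = - Q.ord (red h) := by
    intro Q
    rw [eq_inv_of_mul_eq_one_right hkk, Place.ord_inv]
  rcases lt_or_gt_of_ne hP' with hneg | hpos
  · have hPinv : 0 < (r0 P').ord (red hinv) := by
      rw [hordinv]
      omega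
    obtain ⟨t, htB, ht1, ht0⟩ := hdiscinf (r0 P') hPinv
    obtain ⟨f, hf0, hf1, hfz⟩ := xc25_core ℓ S (by rw [mul_comm]; exact hhinv) Cinf C0 hpoleinf
      P' hPinv (hF1 P') t htB ht1 ht0
    refine ⟨f, hf0, hf1, fun P hP hPh => hfz P hP ?_⟩
    rw [hordinv]
    omega
  · obtain ⟨t, htB, ht1, ht0⟩ := hdisc0 (r0 P') hpos
    exact xc25_core ℓ S hhinv C0 Cinf hpole0 P' hpos (hF1 P') t htB ht1 ht0

/-! ### Integral-closure charts -/

/-- The chart of the elements of `O` integral over `R[x]`, where `R → F` has image between the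
constants of `A` and the constants of `L` (e.g. `R = A` or `R = L`).  The only geometric input is
sign compatibility: `x` is regular at the places whose reduction lies over `xbar = 0`. -/
theorem xc25_chart_int (S : xc25_Setup A res O red r0) {R : Type*} [CommRing R] (φ : R →+* F)
    (hφA : ∀ a : A, ∃ r : R, φ r = algebraMap L F (a : L))
    (hφL : ∀ r : R, ∃ c : L, φ r = algebraMap L F c) (x : O)
    (hsign : ∀ P : Place L F, 0 < (r0 P).ord (red x) → 0 ≤ P.ord (x : F)) :
    xc25_Chart A O red r0 x (O ⊓ xc25_intRing φ (x : F)) where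
  hBO := inf_le_left
  hA := fun a => ⟨S.hOA a, by
    obtain ⟨r, hr⟩ := hφA a
    rw [← hr]
    exact xc25_map_mem_intRing φ _ r⟩
  hx := ⟨x.2, xc25_self_mem_intRing φ _⟩
  hreg := by
    intro P hP f hf
    have hxV : (x : F) ∈ P.toValuationSubring :=
      (xc25_mem_iff P _).mpr ((xc25_nonneg_iff P _).mp (hsign P hP))
    have hrange : ∀ p : Polynomial R,
        Polynomial.eval₂RingHom φ (x : F) p ∈ P.toValuationSubring := by
      intro p
      rw [Polynomial.coe_eval₂RingHom, Polynomial.eval₂_eq_sum_range]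
      refine sum_mem fun i _ => ?_
      obtain ⟨c, hc⟩ := hφL (p.coeff i)
      rw [hc]
      exact mul_mem (P.algebraMap_mem' c) (pow_mem hxV i)
    exact (xc25_nonneg_iff P _).mpr
      ((xc25_mem_iff P _).mp (xc25_mem_of_isIntegralElem _ _ hrange hf.2))

/-- The pole bound for integral-closure charts. -/
theorem xc25_pole_int {R : Type*} [CommRing R] (φ : R →+* F) {O : Subring F} {h hinv : O}
    (hhinv : h * hinv = 1) :
    ∀ f ∈ O ⊓ xc25_intRing φ (h : F), ∃ D : ℕ, ∀ n, D ≤ n →
      f * (hinv : F) ^ n ∈ O ⊓ xc25_intRing φ (hinv : F) := by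
  intro f hf
  have hFF : (h : F) * (hinv : F) = 1 := by
    have := congrArg Subtype.val hhinv
    simpa using this
  obtain ⟨D, hD⟩ := xc25_pole φ hFF hf.2
  exact ⟨D, fun n hn => ⟨O.mul_mem hf.1 (O.pow_mem hinv.2 n), hD n hn⟩⟩

/-- **Row XC for integral-closure charts.**  Inputs: the reduction package `S`, sign
compatibility of `r0` with the coordinate `h` at `0` and at `∞`, residue fields `= L`, and a
disc coordinate (integral over `R[h]`, resp. `R[h⁻¹]`) at every place of the special fibre over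
`hbar = 0`, resp. `hbar = ∞`. -/
theorem xc25_cusp_int [HasPrincipalDivisors L F] (ℓ : ℕ) [Fact ℓ.Prime] [CharP k ℓ]
    (S : xc25_Setup A res O red r0) {R : Type*} [CommRing R] (φ : R →+* F)
    (hφA : ∀ a : A, ∃ r : R, φ r = algebraMap L F (a : L))
    (hφL : ∀ r : R, ∃ c : L, φ r = algebraMap L F c)
    {h hinv : O} (hhinv : h * hinv = 1)
    (hsign0 : ∀ P : Place L F, 0 < (r0 P).ord (red h) → 0 ≤ P.ord (h : F))
    (hsigninf : ∀ P : Place L F, 0 < (r0 P).ord (red hinv) → 0 ≤ P.ord (hinv : F))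
    (hF1 : ∀ (P : Place L F) (f : F), f ∈ P.toValuationSubring →
      ∃ c : L, f = algebraMap L F c ∨ 0 < P.ord (f - algebraMap L F c))
    (hdisc0 : ∀ Q' : Place k Fk, 0 < Q'.ord (red h) → ∃ t : O,
      (Polynomial.eval₂RingHom φ (h : F)).IsIntegralElem (t : F) ∧
      Q'.ord (red t) = 1 ∧ ∀ Q : Place k Fk, Q ≠ Q' → 0 < Q.ord (red h) → Q.ord (red t) = 0)
    (hdiscinf : ∀ Q' : Place k Fk, 0 < Q'.ord (red hinv) → ∃ t : O,
      (Polynomial.eval₂RingHom φ (hinv : F)).IsIntegralElem (t : F) ∧
      Q'.ord (red t) = 1 ∧ ∀ Q : Place k Fk, Q ≠ Q' → 0 < Q.ord (red hinv) → Q.ord (red t) = 0)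
    (P' : Place L F) (hP' : (r0 P').ord (red h) ≠ 0) :
    ∃ f : F, f ≠ 0 ∧ P'.ord f = 1 ∧
      ∀ P : Place L F, P ≠ P' → (r0 P).ord (red h) ≠ 0 → P.ord f = 0 := by
  refine xc25_cusp ℓ S hhinv (xc25_chart_int S φ hφA hφL h hsign0)
    (xc25_chart_int S φ hφA hφL hinv hsigninf) (xc25_pole_int φ hhinv)
    (xc25_pole_int φ (by rw [mul_comm]; exact hhinv)) hF1 ?_ ?_ P' hP'
  · intro Q' hQ'
    obtain ⟨t, ht, h1, h0⟩ := hdisc0 Q' hQ'
    exact ⟨t, ⟨t.2, ht⟩, h1, h0⟩
  · intro Q' hQ'
    obtain ⟨t, ht, h1, h0⟩ := hdiscinf Q' hQ'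
    exact ⟨t, ⟨t.2, ht⟩, h1, h0⟩

end Core

end Fermat.Agent.S37
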