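import Fermat.Agent.S37.GaussRed41
import Fermat.Agent.S37.CrossChart25

/-!
# S37, row XC: the reduction package `xc25_Setup` for the Gauss ring `ga41_O` (helper25)

For a place reduction `r0` in the Prelude sense (`IsPlaceReductionModL A N r0`), conservation
holds on the whole Gauss ring `ga41_O N A` (not only on integral series): this is the hypothesis
`xc25_Setup` of `xc25_core` / `xc25_cusp` / `xc25_cusp_int` for
`(O, red) = (ga41_O N A, ga41_red N A hN)`.
-/

set_option autoImplicit false
set_option synthInstance.maxHeartbeats 400000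

open ModularCurve IntermediateField AlgebraicCurve

namespace Fermat.Agent.S37

open Fermat.Agent.S18

/-- **Conservation on the Gauss ring.** -/
theorem xc25_ga41_cons (N : ℕ) [NeZero N] (A : ValuationSubring (AlgebraicClosure ℚ))
    (hN : (N : IsLocalRing.ResidueField A) ≠ 0)
    [HasPrincipalDivisors (AlgebraicClosure ℚ) ↥(modularFunctionFieldBar N)]
    (r0 : Place (AlgebraicClosure ℚ) (modularFunctionFieldBar N) →
      Place (IsLocalRing.ResidueField A)
        (modularFunctionFieldFullC (IsLocalRing.ResidueField A) N))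
    (hr : IsPlaceReductionModL A N r0) (f : ga41_O N A) (hf : ga41_red N A hN f ≠ 0)
    (D : Divisor (AlgebraicClosure ℚ) ↥(modularFunctionFieldBar N))
    (hD : ∀ P, D P = P.ord (f : ↥(modularFunctionFieldBar N)))
    (Q : Place (IsLocalRing.ResidueField A)
      (modularFunctionFieldFullC (IsLocalRing.ResidueField A) N)) :
    Finsupp.mapDomain r0 D Q = Q.ord (ga41_red N A hN f) := by
  have hf0 : (f : ↥(modularFunctionFieldBar N)) ≠ 0 := by
    intro h0
    apply hf
    have : f = 0 := Subtype.ext h0
    rw [this, map_zero]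
  obtain ⟨a, b, c, hc, haL, hbL, hak, hbk, hane, hbne, hab, hiff⟩ :=
    ga41_normal_form N A hN (f : ↥(modularFunctionFieldBar N)) hf0
  have hcA : c ∈ A := hiff.mp f.2
  -- the integral series `c a`
  set y : LaurentSeries A := HahnSeries.single 0 (⟨c, hcA⟩ : A) * a with hy
  have hyL : coeffMap A.subtype y =
      algebraMap (AlgebraicClosure ℚ) (LaurentSeries (AlgebraicClosure ℚ)) c *
        coeffMap A.subtype a := by
    rw [hy, map_mul, coeffMap_single, algebraMap_laurentSeries_eq_single]
    rfl
  have hyLmem : coeffMap A.subtype y ∈ modularFunctionFieldBar N := by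
    rw [hyL]
    exact mul_mem ((modularFunctionFieldBar N).algebraMap_mem c) haL
  have hyk : coeffMap (IsLocalRing.residue A) y =
      HahnSeries.single 0 (IsLocalRing.residue A ⟨c, hcA⟩) *
        coeffMap (IsLocalRing.residue A) a := by
    rw [hy, map_mul, coeffMap_single]
  have hykmem : coeffMap (IsLocalRing.residue A) y ∈
      modularFunctionFieldFullC (IsLocalRing.ResidueField A) N := by
    rw [hyk]
    exact mul_mem (ga41_single_mem_fullC N _ _) hak
  -- the reduction of `f`
  have hredf : ga41_redHom f =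
      coeffMap (IsLocalRing.residue A) y / coeffMap (IsLocalRing.residue A) b := by
    refine ga41_redHom_eq f (s := b) (t := y) hbne ?_
    rw [hyL, mul_comm]
    exact hab
  have hyk0 : coeffMap (IsLocalRing.residue A) y ≠ 0 := by
    intro h0
    apply hf
    apply Subtype.ext
    rw [ga41_red_coe, hredf, h0, zero_div]
    rfl
  have hbL0 : coeffMap A.subtype b ≠ 0 := re41_ne_zero_of_residue_ne_zero hbne
  have hyL0 : coeffMap A.subtype y ≠ 0 := re41_ne_zero_of_residue_ne_zero hyk0
  -- divisors of `c a` and `b`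
  have hyF0 : (⟨coeffMap A.subtype y, hyLmem⟩ : ↥(modularFunctionFieldBar N)) ≠ 0 :=
    fun h => hyL0 (congrArg Subtype.val h)
  have hbF0 : (⟨coeffMap A.subtype b, hbL⟩ : ↥(modularFunctionFieldBar N)) ≠ 0 :=
    fun h => hbL0 (congrArg Subtype.val h)
  obtain ⟨Da, hDa, -⟩ := HasPrincipalDivisors.exists_divisor (K := AlgebraicClosure ℚ)
    (⟨coeffMap A.subtype y, hyLmem⟩ : ↥(modularFunctionFieldBar N)) hyF0
  obtain ⟨Db, hDb, -⟩ := HasPrincipalDivisors.exists_divisor (K := AlgebraicClosure ℚ)
    (⟨coeffMap A.subtype b, hbL⟩ : ↥(modularFunctionFieldBar N)) hbF0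
  have hca := hr.2 y hyLmem hykmem hyk0 Da hDa Q
  have hcb := hr.2 b hbL hbk hbne Db hDb Q
  -- `f = (c a) / b`
  have hfeq : (f : ↥(modularFunctionFieldBar N)) =
      (⟨coeffMap A.subtype y, hyLmem⟩ : ↥(modularFunctionFieldBar N)) *
        (⟨coeffMap A.subtype b, hbL⟩ : ↥(modularFunctionFieldBar N))⁻¹ := by
    rw [eq_mul_inv_iff_mul_eq₀ hbF0]
    apply Subtype.ext
    show ((f : ↥(modularFunctionFieldBar N)) : LaurentSeries (AlgebraicClosure ℚ)) *
      coeffMap A.subtype b = coeffMap A.subtype y
    rw [hyL]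
    exact hab
  have hDeq : D = Da - Db := by
    ext P
    rw [Finsupp.sub_apply, hD, hDa, hDb, hfeq, P.ord_mul hyF0 (inv_ne_zero hbF0), Place.ord_inv]
    ring
  have hmap : Finsupp.mapDomain r0 D Q =
      Finsupp.mapDomain r0 Da Q - Finsupp.mapDomain r0 Db Q := by
    rw [hDeq, Finsupp.mapDomain_sub, Finsupp.sub_apply]
  rw [hmap, hca, hcb]
  -- the right-hand side
  have hbk0 : (⟨coeffMap (IsLocalRing.residue A) b, hbk⟩ :
      ↥(modularFunctionFieldFullC (IsLocalRing.ResidueField A) N)) ≠ 0 :=
    fun h => hbne (congrArg Subtype.val h)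
  have hyk0' : (⟨coeffMap (IsLocalRing.residue A) y, hykmem⟩ :
      ↥(modularFunctionFieldFullC (IsLocalRing.ResidueField A) N)) ≠ 0 :=
    fun h => hyk0 (congrArg Subtype.val h)
  have hredeq : ga41_red N A hN f =
      (⟨coeffMap (IsLocalRing.residue A) y, hykmem⟩ :
        ↥(modularFunctionFieldFullC (IsLocalRing.ResidueField A) N)) *
      (⟨coeffMap (IsLocalRing.residue A) b, hbk⟩ :
        ↥(modularFunctionFieldFullC (IsLocalRing.ResidueField A) N))⁻¹ := by
    rw [eq_mul_inv_iff_mul_eq₀ hbk0]
    apply Subtype.ext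
    show ga41_redHom f * coeffMap (IsLocalRing.residue A) b = coeffMap (IsLocalRing.residue A) y
    rw [hredf, div_mul_cancel₀ _ hbne]
  rw [hredeq, Q.ord_mul hyk0' (inv_ne_zero hbk0), Place.ord_inv]
  ring

/-- **The reduction package for the Gauss ring** `(ga41_O N A, ga41_red N A hN)` and any place
reduction `r0` in the Prelude sense. -/
theorem xc25_setup_ga41 (N : ℕ) [NeZero N] (A : ValuationSubring (AlgebraicClosure ℚ))
    (hN : (N : IsLocalRing.ResidueField A) ≠ 0)
    [HasPrincipalDivisors (AlgebraicClosure ℚ) ↥(modularFunctionFieldBar N)]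
    (r0 : Place (AlgebraicClosure ℚ) (modularFunctionFieldBar N) →
      Place (IsLocalRing.ResidueField A)
        (modularFunctionFieldFullC (IsLocalRing.ResidueField A) N))
    (hr : IsPlaceReductionModL A N r0) :
    xc25_Setup A (IsLocalRing.residue A) (ga41_O N A) (ga41_red N A hN) r0 where
  hres := fun a ha => (IsLocalRing.residue_eq_zero_iff a).mpr ha
  hOA := fun a => ga41_algebraMap_mem N A a
  hredA := fun a => by
    apply Subtype.ext
    rw [ga41_red_coe, ga41_redHom_algebraMap]
    rfl
  hcons := fun f hf D hD Q => xc25_ga41_cons N A hN r0 hr f hf D hD Q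

end Fermat.Agent.S37
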