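import Mathlib

/-!
# S37 (Route V), row I1h-DegH (helper75): the degree of a function field over `K(h)`

For the Hauptmodul lines used at the auxiliary levels `N' = lcm(N, p₀)` (`p₀ ∈ {2, 3}`) the
coordinate is `h` with `j * h ^ 2 = (h + 256) ^ 3` resp. `j * h ^ 3 = (h + 27) * (h + 243) ^ 3`.
Here we prove, over ANY field `K` in which `p₀ ≠ 0`, that `K(h)` has degree `p₀ + 1` over `K(j)`,
hence `(p₀ + 1) * [F : K(h)] = [F : K(j)]` for every extension `F` of `K(h)`.  Applied over
`Q̄` and over the residue field `k` this gives the degree equality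
`[F(N')_{Q̄} : Q̄(h)] = [F(N')_k : k(h̄)]`, i.e. input (I1) of the reduction theory relative to
the coordinate `h`.

The core is Mathlib's Lüroth degree formula `RatFunc.finrank_eq_max_natDegree`, transported
along the embedding `K(X) → F`, `X ↦ h`.
-/

set_option autoImplicit false

namespace Fermat.Agent.S37

open IntermediateField Polynomial

section Generic

variable {K F : Type*} [Field K] [Field F] [Algebra K F]

/-- The `K`-embedding `K(X) → F`, `X ↦ h`, for `h` transcendental over `K`. -/
noncomputable def dh75_emb (h : F) (hh : Transcendental K h) : RatFunc K →ₐ[K] F :=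
  RatFunc.liftAlgHom (Polynomial.aeval h)
    (nonZeroDivisors_le_comap_nonZeroDivisors_of_injective _
      (transcendental_iff_injective.mp hh))

theorem dh75_emb_div (h : F) (hh : Transcendental K h) (p q : K[X]) :
    dh75_emb h hh (algebraMap K[X] (RatFunc K) p / algebraMap K[X] (RatFunc K) q) =
      Polynomial.aeval h p / Polynomial.aeval h q :=
  RatFunc.liftAlgHom_apply_div _ _ p q

theorem dh75_emb_algebraMap (h : F) (hh : Transcendental K h) (p : K[X]) :
    dh75_emb h hh (algebraMap K[X] (RatFunc K) p) = Polynomial.aeval h p := by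
  have := dh75_emb_div h hh p 1
  simpa using this

theorem dh75_emb_X (h : F) (hh : Transcendental K h) :
    dh75_emb h hh (RatFunc.X : RatFunc K) = h := by
  rw [← RatFunc.algebraMap_X, dh75_emb_algebraMap, Polynomial.aeval_X]

theorem dh75_map_top (h : F) (hh : Transcendental K h) :
    (⊤ : IntermediateField K (RatFunc K)).map (dh75_emb h hh) = K⟮h⟯ := by
  rw [← RatFunc.adjoin_X, IntermediateField.adjoin_map, Set.image_singleton, dh75_emb_X]

/-- Degrees of numerator and denominator of a reduced fraction. -/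
theorem dh75_natDegree_num_denom (p q : K[X]) (hq : q ≠ 0) (hpq : IsCoprime p q) :
    (RatFunc.num (algebraMap K[X] (RatFunc K) p / algebraMap K[X] (RatFunc K) q)).natDegree =
        p.natDegree ∧
      (RatFunc.denom (algebraMap K[X] (RatFunc K) p / algebraMap K[X] (RatFunc K) q)).natDegree =
        q.natDegree := by
  set r : RatFunc K := algebraMap K[X] (RatFunc K) p / algebraMap K[X] (RatFunc K) q with hr
  have h1 : r.num * q = p * r.denom := (RatFunc.num_mul_eq_mul_denom_iff hq).mpr rfl
  have hn1 : r.num ∣ p := RatFunc.num_div_dvd p hq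
  have hd1 : r.denom ∣ q := RatFunc.denom_div_dvd p q
  have hn2 : p ∣ r.num := by
    have : p ∣ r.num * q := ⟨r.denom, h1⟩
    exact hpq.dvd_of_dvd_mul_right this
  have hd2 : q ∣ r.denom := by
    have : q ∣ p * r.denom := ⟨r.num, by rw [← h1, mul_comm]⟩
    exact hpq.symm.dvd_of_dvd_mul_left this
  exact ⟨Polynomial.natDegree_eq_of_degree_eq
      (Polynomial.degree_eq_degree_of_associated (associated_of_dvd_dvd hn1 hn2)),
    Polynomial.natDegree_eq_of_degree_eq
      (Polynomial.degree_eq_degree_of_associated (associated_of_dvd_dvd hd1 hd2))⟩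

/-- **Lüroth degree, transported**: for `h` transcendental and a reduced fraction `p / q`,
`[K(h) : K(p(h)/q(h))] = max (deg p) (deg q)`. -/
theorem dh75_relfinrank (h : F) (hh : Transcendental K h) (p q : K[X]) (hq : q ≠ 0)
    (hpq : IsCoprime p q) :
    IntermediateField.relfinrank K⟮Polynomial.aeval h p / Polynomial.aeval h q⟯ K⟮h⟯ =
      max p.natDegree q.natDegree := by
  set r : RatFunc K := algebraMap K[X] (RatFunc K) p / algebraMap K[X] (RatFunc K) q with hr
  have e1 : (K⟮r⟯).map (dh75_emb h hh) = K⟮Polynomial.aeval h p / Polynomial.aeval h q⟯ := by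
    rw [IntermediateField.adjoin_map, Set.image_singleton, hr, dh75_emb_div]
  rw [← e1, ← dh75_map_top h hh, IntermediateField.relfinrank_map_map,
    IntermediateField.relfinrank_top_right, RatFunc.finrank_eq_max_natDegree,
    (dh75_natDegree_num_denom p q hq hpq).1, (dh75_natDegree_num_denom p q hq hpq).2]

/-- **Degree over `K(h)` from the degree over `K(j)`**, for `j = p(h)/q(h)` a reduced fraction,
`j` transcendental over `K`. -/
theorem dh75_finrank_of_rel (j h : F) (hj : Transcendental K j) (p q : K[X])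
    (hpq : IsCoprime p q) (hqh : Polynomial.aeval h q ≠ 0)
    (hrel : j * Polynomial.aeval h q = Polynomial.aeval h p) :
    Transcendental K h ∧ K⟮j⟯ ≤ K⟮h⟯ ∧
      max p.natDegree q.natDegree * Module.finrank K⟮h⟯ F = Module.finrank K⟮j⟯ F := by
  have hq : q ≠ 0 := by
    rintro rfl
    exact hqh (map_zero _)
  have hjeq : j = Polynomial.aeval h p / Polynomial.aeval h q := by
    rw [eq_div_iff hqh, hrel]
  have hjmem : j ∈ K⟮h⟯ := by
    rw [hjeq]
    exact div_mem (Polynomial.aeval_mem_adjoin_singleton K h |> fun hm =>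
        (IntermediateField.algebra_adjoin_le_adjoin K _) hm)
      (Polynomial.aeval_mem_adjoin_singleton K h |> fun hm =>
        (IntermediateField.algebra_adjoin_le_adjoin K _) hm)
  have hle : K⟮j⟯ ≤ K⟮h⟯ := IntermediateField.adjoin_simple_le_iff.mpr hjmem
  have hh : Transcendental K h := by
    intro halg
    have hint : IsIntegral K h := halg.isIntegral
    have : Algebra.IsAlgebraic K K⟮h⟯ := IntermediateField.isAlgebraic_adjoin_simple hint
    have hjalg : IsAlgebraic K (⟨j, hjmem⟩ : K⟮h⟯) := Algebra.IsAlgebraic.isAlgebraic _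
    apply hj
    have := hjalg.algebraMap (A := F)
    simpa using this
  refine ⟨hh, hle, ?_⟩
  have h3 := IntermediateField.relfinrank_mul_finrank_top hle
  rw [← h3]
  congr 1
  rw [hjeq]
  exact (dh75_relfinrank h hh p q hq hpq).symm

/-- Finiteness over `K(h)` from finiteness over `K(j)`. -/
theorem dh75_finiteDimensional (j h : F) (hle : K⟮j⟯ ≤ K⟮h⟯) [FiniteDimensional K⟮j⟯ F] :
    FiniteDimensional K⟮h⟯ F := by
  let _ : Algebra K⟮j⟯ K⟮h⟯ := (IntermediateField.inclusion hle).toRingHom.toAlgebra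
  have : IsScalarTower K⟮j⟯ K⟮h⟯ F := IsScalarTower.of_algebraMap_eq (fun _ => rfl)
  exact Module.Finite.of_restrictScalars_finite K⟮j⟯ K⟮h⟯ F

/-- The inverse coordinate generates the same field. -/
theorem dh75_adjoin_inv (h : F) : K⟮h⁻¹⟯ = K⟮h⟯ := by
  apply le_antisymm
  · rw [IntermediateField.adjoin_simple_le_iff]
    exact inv_mem (IntermediateField.mem_adjoin_simple_self K h)
  · rw [IntermediateField.adjoin_simple_le_iff]
    have := inv_mem (IntermediateField.mem_adjoin_simple_self K h⁻¹)
    simpa using this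

/-- Relative form inside a bigger field: for an intermediate field `E ≥ K(h)`,
`max (deg p) (deg q) * [E : K(h)] = [E : K(j)]`. -/
theorem dh75_relfinrank_of_rel (j h : F) (hj : Transcendental K j) (p q : K[X])
    (hpq : IsCoprime p q) (hqh : Polynomial.aeval h q ≠ 0)
    (hrel : j * Polynomial.aeval h q = Polynomial.aeval h p)
    (E : IntermediateField K F) (hE : K⟮h⟯ ≤ E) :
    max p.natDegree q.natDegree * IntermediateField.relfinrank K⟮h⟯ E =
      IntermediateField.relfinrank K⟮j⟯ E := by
  obtain ⟨hh, hle, -⟩ := dh75_finrank_of_rel j h hj p q hpq hqh hrel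
  have hq : q ≠ 0 := by
    rintro rfl
    exact hqh (map_zero _)
  have hjeq : j = Polynomial.aeval h p / Polynomial.aeval h q := by
    rw [eq_div_iff hqh, hrel]
  rw [← IntermediateField.relfinrank_mul_relfinrank hle hE, ← dh75_relfinrank h hh p q hq hpq,
    ← hjeq]

end Generic

section Haupt

variable {K F : Type*} [Field K] [Field F] [Algebra K F]

/-- **Level 2**: `j * h ^ 2 = (h + 256) ^ 3`, `2 ≠ 0` in `K`:
`3 * [F : K(h)] = [F : K(j)]`. -/
theorem dh75_finrank_two (j h : F) (hrel : j * h ^ 2 = (h + 256) ^ 3)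
    (hj : Transcendental K j) (h2 : (2 : K) ≠ 0) :
    Transcendental K h ∧ K⟮j⟯ ≤ K⟮h⟯ ∧
      3 * Module.finrank K⟮h⟯ F = Module.finrank K⟮j⟯ F := by
  have h256 : (256 : K) ≠ 0 := by
    have : (256 : K) = 2 ^ 8 := by norm_num
    rw [this]
    exact pow_ne_zero _ h2
  have h256F : (256 : F) ≠ 0 := by
    rw [← map_ofNat (algebraMap K F) 256]
    exact (_root_.map_ne_zero _).mpr h256
  have hh0 : h ≠ 0 := by
    rintro rfl
    rw [zero_add, zero_pow (by norm_num), mul_zero] at hrel
    exact pow_ne_zero 3 h256F hrel.symm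
  have hcop : IsCoprime ((X + C (256 : K)) ^ 3) ((X : K[X]) ^ 2) := by
    apply IsCoprime.pow
    refine ⟨C (256 : K)⁻¹, -C (256 : K)⁻¹, ?_⟩
    have : C (256 : K)⁻¹ * C (256 : K) = 1 := by
      rw [← C_mul, inv_mul_cancel₀ h256, C_1]
    linear_combination this
  have hdeg1 : ((X + C (256 : K)) ^ 3).natDegree = 3 := by
    rw [natDegree_pow, natDegree_X_add_C]
  have hdeg2 : ((X : K[X]) ^ 2).natDegree = 2 := natDegree_X_pow 2
  have key := dh75_finrank_of_rel (K := K) j h hj ((X + C (256 : K)) ^ 3) (X ^ 2) hcop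
    (by simpa using pow_ne_zero 2 hh0)
    (by
      simp only [map_pow, aeval_X, map_add, map_ofNat]
      exact hrel)
  rw [hdeg1, hdeg2] at key
  simpa using key

/-- **Level 3**: `j * h ^ 3 = (h + 27) * (h + 243) ^ 3`, `3 ≠ 0` in `K`:
`4 * [F : K(h)] = [F : K(j)]`. -/
theorem dh75_finrank_three (j h : F) (hrel : j * h ^ 3 = (h + 27) * (h + 243) ^ 3)
    (hj : Transcendental K j) (h3 : (3 : K) ≠ 0) :
    Transcendental K h ∧ K⟮j⟯ ≤ K⟮h⟯ ∧
      4 * Module.finrank K⟮h⟯ F = Module.finrank K⟮j⟯ F := by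
  have h27 : (27 : K) ≠ 0 := by
    have : (27 : K) = 3 ^ 3 := by norm_num
    rw [this]
    exact pow_ne_zero _ h3
  have h243 : (243 : K) ≠ 0 := by
    have : (243 : K) = 3 ^ 5 := by norm_num
    rw [this]
    exact pow_ne_zero _ h3
  have h27F : (27 : F) ≠ 0 := by
    rw [← map_ofNat (algebraMap K F) 27]
    exact (_root_.map_ne_zero _).mpr h27
  have h243F : (243 : F) ≠ 0 := by
    rw [← map_ofNat (algebraMap K F) 243]
    exact (_root_.map_ne_zero _).mpr h243
  have hh0 : h ≠ 0 := by
    rintro rfl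
    rw [zero_add, zero_add, zero_pow (by norm_num), mul_zero] at hrel
    exact mul_ne_zero h27F (pow_ne_zero 3 h243F) hrel.symm
  have hc1 : IsCoprime (X + C (27 : K)) (X : K[X]) := by
    refine ⟨C (27 : K)⁻¹, -C (27 : K)⁻¹, ?_⟩
    have : C (27 : K)⁻¹ * C (27 : K) = 1 := by
      rw [← C_mul, inv_mul_cancel₀ h27, C_1]
    linear_combination this
  have hc2 : IsCoprime (X + C (243 : K)) (X : K[X]) := by
    refine ⟨C (243 : K)⁻¹, -C (243 : K)⁻¹, ?_⟩
    have : C (243 : K)⁻¹ * C (243 : K) = 1 := by
      rw [← C_mul, inv_mul_cancel₀ h243, C_1]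
    linear_combination this
  have hcop : IsCoprime ((X + C (27 : K)) * (X + C (243 : K)) ^ 3) ((X : K[X]) ^ 3) := by
    apply IsCoprime.pow_right
    exact IsCoprime.mul_left hc1 hc2.pow_left
  have hdeg1 : ((X + C (27 : K)) * (X + C (243 : K)) ^ 3).natDegree = 4 := by
    rw [natDegree_mul (X_add_C_ne_zero _) (pow_ne_zero _ (X_add_C_ne_zero _)), natDegree_pow,
      natDegree_X_add_C, natDegree_X_add_C]
  have hdeg2 : ((X : K[X]) ^ 3).natDegree = 3 := natDegree_X_pow 3
  have key := dh75_finrank_of_rel (K := K) j h hj ((X + C (27 : K)) * (X + C (243 : K)) ^ 3)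
    (X ^ 3) hcop (by simpa using pow_ne_zero 3 hh0)
    (by
      simp only [map_pow, aeval_X, map_add, map_mul, map_ofNat]
      exact hrel)
  rw [hdeg1, hdeg2] at key
  simpa using key

end Haupt

end Fermat.Agent.S37
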