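import Mathlib
import Fermat.Prelude.Def_AlgebraicCurve_DivisorClassGroup

/-!
# S37 (helper66): "bounded + kills principal divisors ⇒ kills degree zero"

`F/K` a function field all of whose places have degree `1`, with the *weak Riemann property*
`dz66_WR K F`: there is `B` such that for all places `P`, `P₀` and all `m` there is `f ≠ 0` with
`div f = m ([P₀] - [P]) + G₁ - G₂`, `G₁, G₂ ≥ 0` of degree `≤ B`.

* `dz66_const` : an additive `lam : Div F → ℤ` killing principal divisors and bounded on single
  places takes the same value on all single places.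
* `dz66_int_degZero` : such a `lam` kills every divisor of degree `0`.
* `dz66_degZero` / `dz66_degZero'` : the same for `θ : Div F →+ (Y →₀ ℤ)`.
-/

set_option autoImplicit false

open AlgebraicCurve

namespace Fermat.Agent.S37

section DZ

/-- The weak Riemann property: functions with divisor `m ([P₀] - [P])` up to a bounded error. -/
def dz66_WR (K F : Type*) [Field K] [Field F] [Algebra K F] : Prop :=
  ∃ B : ℕ, ∀ (P P0 : Place K F) (m : ℕ), ∃ f : F, f ≠ 0 ∧ ∃ G1 G2 : Divisor K F,
    0 ≤ G1 ∧ 0 ≤ G2 ∧ Divisor.degree G1 ≤ B ∧ Divisor.degree G2 ≤ B ∧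
    ∀ v : Place K F, v.ord f =
      (m : ℤ) * (Finsupp.single P0 (1 : ℤ) v - Finsupp.single P (1 : ℤ) v) + G1 v - G2 v

variable {K F : Type*} [Field K] [Field F] [Algebra K F]

/-- An additive integer-valued function on divisors is determined by its values on places. -/
theorem dz66_lam_eq_sum (lam : Divisor K F →+ ℤ) (D : Divisor K F) :
    lam D = D.sum (fun v n => n * lam (Finsupp.single v 1)) := by
  induction D using Finsupp.induction_linear with
  | zero => simp
  | add D E hD hE =>
    rw [map_add, hD, hE, Finsupp.sum_add_index']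
    · intro v; ring
    · intro v a b; ring
  | single v n =>
    rw [Finsupp.sum_single_index (by ring)]
    have h : (Finsupp.single v n : Divisor K F) = n • Finsupp.single v (1 : ℤ) := by
      rw [Finsupp.smul_single, smul_eq_mul, mul_one]
    rw [h, map_zsmul, smul_eq_mul]

/-- If all places have degree `1`, the degree is the sum of the coefficients. -/
theorem dz66_degree_eq_sum (hdeg : ∀ v : Place K F, v.deg = 1) (D : Divisor K F) :
    Divisor.degree D = D.sum (fun _ n => n) := by
  have h := dz66_lam_eq_sum (Divisor.degree (K := K) (F := F)) D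
  rw [h]
  refine Finsupp.sum_congr fun v _ => ?_
  rw [Divisor.degree_single, hdeg v]
  simp

/-- The bound on effective divisors. -/
theorem dz66_abs_le (hdeg : ∀ v : Place K F, v.deg = 1) (lam : Divisor K F →+ ℤ) (C : ℤ)
    (hC : ∀ P, |lam (Finsupp.single P 1)| ≤ C) (G : Divisor K F) (hG : 0 ≤ G) :
    |lam G| ≤ C * Divisor.degree G := by
  rw [dz66_lam_eq_sum lam G, dz66_degree_eq_sum hdeg G, Finsupp.sum, Finsupp.sum, Finset.mul_sum]
  refine (Finset.abs_sum_le_sum_abs _ _).trans (Finset.sum_le_sum fun v _ => ?_)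
  have hGv : 0 ≤ G v := hG v
  rw [abs_mul, abs_of_nonneg hGv, mul_comm]
  exact mul_le_mul_of_nonneg_right (hC v) hGv

/-- **Constancy.** A bounded additive function on places that kills principal divisors is
constant. -/
theorem dz66_const (hWR : dz66_WR K F) (hdeg : ∀ v : Place K F, v.deg = 1)
    (lam : Divisor K F →+ ℤ) (C : ℤ) (hC : ∀ P, |lam (Finsupp.single P 1)| ≤ C)
    (hprinc : ∀ D ∈ Divisor.principal (K := K) (F := F), lam D = 0) (P P0 : Place K F) :
    lam (Finsupp.single P 1) = lam (Finsupp.single P0 1) := by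
  obtain ⟨B, hB⟩ := hWR
  have hC0 : 0 ≤ C := (abs_nonneg _).trans (hC P)
  by_contra hne
  have hδ : 1 ≤ |lam (Finsupp.single P0 1) - lam (Finsupp.single P 1)| := by
    have : lam (Finsupp.single P0 1) - lam (Finsupp.single P 1) ≠ 0 := fun h =>
      hne (by linarith)
    exact Int.one_le_abs this
  set m : ℕ := (2 * (C * B) + 1).toNat with hm
  have hmval : (m : ℤ) = 2 * (C * B) + 1 := by
    rw [hm, Int.toNat_of_nonneg]
    positivity
  obtain ⟨f, hf, G1, G2, hG1, hG2, hd1, hd2, hord⟩ := hB P P0 m
  set Df : Divisor K F :=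
    (m : ℤ) • (Finsupp.single P0 (1 : ℤ) - Finsupp.single P (1 : ℤ)) + G1 - G2 with hDf
  have hDfp : Df ∈ Divisor.principal (K := K) (F := F) := by
    refine ⟨f, hf, fun v => ?_⟩
    rw [hord v, hDf]
    simp [Finsupp.sub_apply, Finsupp.add_apply, Finsupp.smul_apply]
  have h0 := hprinc Df hDfp
  rw [hDf, map_sub, map_add, map_zsmul, map_sub, smul_eq_mul] at h0
  have h1 := dz66_abs_le hdeg lam C hC G1 hG1
  have h2 := dz66_abs_le hdeg lam C hC G2 hG2
  have h1' : |lam G1| ≤ C * B := h1.trans (mul_le_mul_of_nonneg_left hd1 hC0)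
  have h2' : |lam G2| ≤ C * B := h2.trans (mul_le_mul_of_nonneg_left hd2 hC0)
  have hprod : (m : ℤ) * (lam (Finsupp.single P0 1) - lam (Finsupp.single P 1)) =
      lam G2 - lam G1 := by linarith
  have habs : (m : ℤ) * |lam (Finsupp.single P0 1) - lam (Finsupp.single P 1)| ≤
      2 * (C * B) := by
    have : |(m : ℤ) * (lam (Finsupp.single P0 1) - lam (Finsupp.single P 1))| =
        (m : ℤ) * |lam (Finsupp.single P0 1) - lam (Finsupp.single P 1)| := by
      rw [abs_mul, abs_of_nonneg (Int.natCast_nonneg m)]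
    rw [← this, hprod]
    have := abs_sub (lam G2) (lam G1)
    linarith
  have hm0 : (0 : ℤ) ≤ m := Int.natCast_nonneg m
  nlinarith

/-- A bounded additive integer-valued function on divisors that kills principal divisors kills
every divisor of degree `0`. -/
theorem dz66_int_degZero (hWR : dz66_WR K F) (hdeg : ∀ v : Place K F, v.deg = 1)
    (lam : Divisor K F →+ ℤ) (C : ℤ) (hC : ∀ P, |lam (Finsupp.single P 1)| ≤ C)
    (hprinc : ∀ D ∈ Divisor.principal (K := K) (F := F), lam D = 0)
    (D : Divisor K F) (hD : Divisor.degree D = 0) : lam D = 0 := by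
  rcases isEmpty_or_nonempty (Place K F) with hemp | ⟨⟨P0⟩⟩
  · have : D = 0 := Subsingleton.elim _ _
    rw [this, map_zero]
  · rw [dz66_lam_eq_sum lam D]
    have hconst : ∀ v, lam (Finsupp.single v 1) = lam (Finsupp.single P0 1) := fun v =>
      dz66_const hWR hdeg lam C hC hprinc v P0
    rw [dz66_degree_eq_sum hdeg D] at hD
    rw [Finsupp.sum] at hD ⊢
    calc ∑ v ∈ D.support, D v * lam (Finsupp.single v 1)
        = ∑ v ∈ D.support, D v * lam (Finsupp.single P0 1) :=
          Finset.sum_congr rfl fun v _ => by rw [hconst v]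
      _ = (∑ v ∈ D.support, D v) * lam (Finsupp.single P0 1) := by rw [Finset.sum_mul]
      _ = 0 := by rw [hD, zero_mul]

/-- **Bounded + kills principal ⇒ kills degree zero**, with values in a free abelian group. -/
theorem dz66_degZero (hWR : dz66_WR K F) (hdeg : ∀ v : Place K F, v.deg = 1)
    {Y : Type*} (θ : Divisor K F →+ (Y →₀ ℤ))
    (hb : ∀ Q : Y, ∃ C : ℤ, ∀ P, |θ (Finsupp.single P 1) Q| ≤ C)
    (hprinc : ∀ D ∈ Divisor.principal (K := K) (F := F), θ D = 0)
    (D : Divisor K F) (hD : Divisor.degree D = 0) : θ D = 0 := by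
  ext Q
  obtain ⟨C, hC⟩ := hb Q
  have h := dz66_int_degZero hWR hdeg ((Finsupp.applyAddHom Q).comp θ) C (fun P => hC P)
    (fun E hE => by
      rw [AddMonoidHom.comp_apply, hprinc E hE]
      rfl) D hD
  exact h

/-- `dz66_degZero` for members of `Divisor.degZero`. -/
theorem dz66_degZero' (hWR : dz66_WR K F) (hdeg : ∀ v : Place K F, v.deg = 1)
    {Y : Type*} (θ : Divisor K F →+ (Y →₀ ℤ))
    (hb : ∀ Q : Y, ∃ C : ℤ, ∀ P, |θ (Finsupp.single P 1) Q| ≤ C)
    (hprinc : ∀ D ∈ Divisor.principal (K := K) (F := F), θ D = 0) :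
    ∀ D ∈ Divisor.degZero (K := K) (F := F), θ D = 0 :=
  fun D hD => dz66_degZero hWR hdeg θ hb hprinc D (Divisor.mem_degZero.mp hD)

/-- Two additive maps into a free abelian group that agree on principal divisors and whose
difference is bounded on single places agree on all divisors of degree `0`. -/
theorem dz66_eq_on_degZero (hWR : dz66_WR K F) (hdeg : ∀ v : Place K F, v.deg = 1)
    {Y : Type*} (θ₁ θ₂ : Divisor K F →+ (Y →₀ ℤ))
    (hb : ∀ Q : Y, ∃ C : ℤ, ∀ P,
      |θ₁ (Finsupp.single P 1) Q - θ₂ (Finsupp.single P 1) Q| ≤ C)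
    (hprinc : ∀ D ∈ Divisor.principal (K := K) (F := F), θ₁ D = θ₂ D)
    (D : Divisor K F) (hD : Divisor.degree D = 0) : θ₁ D = θ₂ D := by
  have h := dz66_degZero hWR hdeg (θ₁ - θ₂)
    (fun Q => by
      obtain ⟨C, hC⟩ := hb Q
      exact ⟨C, fun P => by
        rw [AddMonoidHom.sub_apply, Finsupp.sub_apply]
        exact hC P⟩)
    (fun E hE => by rw [AddMonoidHom.sub_apply, hprinc E hE, sub_self]) D hD
  rw [AddMonoidHom.sub_apply, sub_eq_zero] at h
  exact h

end DZ

end Fermat.Agent.S37
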