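import Mathlib
import Fermat.Prelude.Def_AlgebraicCurve_Correspondence

/-!
# S37, row ESZ-TopEntry (helper64): "bounded + kills principal divisors ⇒ kills degree zero"

Abstract part of the weak-Riemann shortcut (helper66).  `K`, `F` a function field in the Prelude
sense, all places of degree one.

* `h64_degZero_of_bounded` : an additive map `θ : Div F → (Y →₀ ℤ)` that vanishes on principal
  divisors and is bounded on single places vanishes on every divisor of degree zero, provided `F`
  has the *weak Riemann property*: there is `B` such that for all places `P`, `P0` and all `m`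
  there is `f ≠ 0` with `div f = m (P0 - P) + G1 - G2`, `G1, G2 ≥ 0` of degree `≤ B`.
* `h64_mapDomain_nonneg`, `h64_mapDomain_le` : mass bounds for `Finsupp.mapDomain`.
* `h64_pullbackAlong_nonneg`, `h64_pushforwardAlong_nonneg`, `h64_correspondence_nonneg` :
  pull-back, push-forward and correspondences preserve effective divisors.
* `h64_degree_eq_sum` : the degree is the sum of the coefficients when all places have degree one.
-/

set_option autoImplicit false
set_option linter.style.haveILetI false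

namespace Fermat.Agent.S37

open AlgebraicCurve

section Mass

variable {X Y : Type*}

/-- Coefficients of the push-forward of an effective finitely supported function are `≥ 0`. -/
theorem h64_mapDomain_nonneg (g : X → Y) (E : X →₀ ℤ) (hE : ∀ x, 0 ≤ E x) (Q : Y) :
    0 ≤ Finsupp.mapDomain g E Q := by
  classical
  rw [Finsupp.mapDomain, Finsupp.sum_apply, Finsupp.sum]
  refine Finset.sum_nonneg fun a _ => ?_
  rw [Finsupp.single_apply]
  split_ifs
  · exact hE a
  · exact le_rfl

/-- Coefficients of the push-forward of an effective finitely supported function are bounded by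
the total mass. -/
theorem h64_mapDomain_le (g : X → Y) (E : X →₀ ℤ) (hE : ∀ x, 0 ≤ E x) (Q : Y) :
    Finsupp.mapDomain g E Q ≤ E.sum (fun _ n => n) := by
  classical
  rw [Finsupp.mapDomain, Finsupp.sum_apply, Finsupp.sum, Finsupp.sum]
  refine Finset.sum_le_sum fun a _ => ?_
  rw [Finsupp.single_apply]
  split_ifs
  · exact le_rfl
  · exact hE a

end Mass

section Degree

variable {K F : Type*} [Field K] [Field F] [Algebra K F]

/-- The degree is the sum of the coefficients when all places have degree one. -/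
theorem h64_degree_eq_sum (hdeg : ∀ v : Place K F, v.deg = 1) (E : Divisor K F) :
    Divisor.degree E = E.sum (fun _ n => n) := by
  unfold Divisor.degree
  rw [Finsupp.liftAddHom_apply]
  refine Finsupp.sum_congr fun v _ => ?_
  rw [AddMonoidHom.mulRight_apply, hdeg v, Nat.cast_one, mul_one]

end Degree

section Effective

variable {K F F' : Type*} [Field K] [Field F] [Field F'] [Algebra K F] [Algebra K F']

/-- Pull-backs of effective divisors are effective. -/
theorem h64_pullbackAlong_nonneg [HasPrincipalDivisors K F'] (φ : F →ₐ[K] F')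
    (hφ : φ.toRingHom.IsIntegral) (D : Divisor K F) (hD : ∀ v, 0 ≤ D v) (w : Place K F') :
    0 ≤ Divisor.pullbackAlong φ hφ D w := by
  rw [Divisor.pullbackAlong_apply]
  exact mul_nonneg (Nat.cast_nonneg _) (hD _)

/-- Push-forwards of effective divisors are effective. -/
theorem h64_pushforwardAlong_nonneg (φ : F →ₐ[K] F')
    (hφ : φ.toRingHom.IsIntegral) (D : Divisor K F') (hD : ∀ w, 0 ≤ D w) (v : Place K F) :
    0 ≤ Divisor.pushforwardAlong φ hφ D v := by
  classical
  letI := algebraAlong φ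
  haveI := isScalarTower_along φ
  haveI := isIntegral_along φ hφ
  show (0 : ℤ) ≤ Divisor.pushforward F D v
  rw [Divisor.pushforward_apply]
  refine Finset.sum_nonneg fun w _ => ?_
  split_ifs
  · exact mul_nonneg (hD w) (Nat.cast_nonneg _)
  · exact le_rfl

/-- Correspondences preserve effective divisors. -/
theorem h64_correspondence_nonneg [HasPrincipalDivisors K F'] (φ ψ : F →ₐ[K] F')
    (hφ : φ.toRingHom.IsIntegral) (hψ : ψ.toRingHom.IsIntegral) (D : Divisor K F)
    (hD : ∀ v, 0 ≤ D v) (v : Place K F) :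
    0 ≤ Divisor.correspondence φ ψ hφ hψ D v := by
  rw [Divisor.correspondence_apply]
  exact h64_pushforwardAlong_nonneg ψ hψ _ (h64_pullbackAlong_nonneg φ hφ D hD) v

end Effective

section Constancy

variable {K F : Type*} [Field K] [Field F] [Algebra K F] {Y : Type*}

/-- The linear form on divisors attached to a function on places. -/
noncomputable def h64_lin (lam : Place K F → ℤ) : Divisor K F →+ ℤ :=
  Finsupp.liftAddHom fun v => AddMonoidHom.mulRight (lam v)

theorem h64_lin_apply (lam : Place K F → ℤ) (E : Divisor K F) :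
    h64_lin lam E = E.sum (fun v n => n * lam v) := by
  unfold h64_lin
  rw [Finsupp.liftAddHom_apply]
  rfl

theorem h64_lin_single (lam : Place K F → ℤ) (v : Place K F) (n : ℤ) :
    h64_lin lam (Finsupp.single v n) = n * lam v := by
  unfold h64_lin
  rw [Finsupp.liftAddHom_apply_single, AddMonoidHom.mulRight_apply]

/-- A bounded function on places gives a linear form bounded by `C * degree` on effective
divisors. -/
theorem h64_lin_abs_le (hdeg : ∀ v : Place K F, v.deg = 1) (lam : Place K F → ℤ) (C : ℤ)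
    (hC : ∀ v, |lam v| ≤ C) (G : Divisor K F) (hG : ∀ v, 0 ≤ G v) :
    |h64_lin lam G| ≤ Divisor.degree G * C := by
  rw [h64_lin_apply, h64_degree_eq_sum hdeg, Finsupp.sum, Finsupp.sum, Finset.sum_mul]
  refine (Finset.abs_sum_le_sum_abs _ _).trans (Finset.sum_le_sum fun v _ => ?_)
  rw [abs_mul, abs_of_nonneg (hG v)]
  exact mul_le_mul_of_nonneg_left (hC v) (hG v)

/-- **Constancy.** A bounded integer-valued function on places whose linear form kills all
principal divisors is constant, if `F` has the weak Riemann property. -/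
theorem h64_const (hdeg : ∀ v : Place K F, v.deg = 1)
    (hWR : ∃ B : ℕ, ∀ (P P0 : Place K F) (m : ℕ), ∃ f : F, f ≠ 0 ∧ ∃ G1 G2 : Divisor K F,
      0 ≤ G1 ∧ 0 ≤ G2 ∧ Divisor.degree G1 ≤ B ∧ Divisor.degree G2 ≤ B ∧
      ∀ v : Place K F, v.ord f
        = (m : ℤ) * (Finsupp.single P0 (1 : ℤ) v - Finsupp.single P (1 : ℤ) v) + G1 v - G2 v)
    (lam : Place K F → ℤ) (C : ℤ) (hC : ∀ v, |lam v| ≤ C)
    (hprin : ∀ D ∈ Divisor.principal (K := K) (F := F), h64_lin lam D = 0)
    (P P0 : Place K F) : lam P0 = lam P := by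
  obtain ⟨B, hB⟩ := hWR
  have hC0 : 0 ≤ C := (abs_nonneg _).trans (hC P)
  have hBC : 0 ≤ (B : ℤ) * C := mul_nonneg (Nat.cast_nonneg _) hC0
  obtain ⟨f, hf, G1, G2, hG1, hG2, hd1, hd2, hord⟩ := hB P P0 (2 * B * C + 1).toNat
  have hm : (((2 * B * C + 1 : ℤ).toNat : ℕ) : ℤ) = 2 * B * C + 1 :=
    Int.toNat_of_nonneg (by nlinarith)
  rw [hm] at hord
  have hG1' : ∀ v, 0 ≤ G1 v := fun v => Finsupp.le_def.mp hG1 v
  have hG2' : ∀ v, 0 ≤ G2 v := fun v => Finsupp.le_def.mp hG2 v
  -- the divisor of `f`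
  set Df : Divisor K F :=
    (2 * B * C + 1 : ℤ) • (Finsupp.single P0 (1 : ℤ) - Finsupp.single P (1 : ℤ)) + G1 - G2
    with hDf
  have hDfp : Df ∈ Divisor.principal (K := K) (F := F) := by
    refine ⟨f, hf, fun v => ?_⟩
    rw [hord v, hDf]
    simp only [Finsupp.sub_apply, Finsupp.add_apply, Finsupp.smul_apply, smul_eq_mul]
  have h0 := hprin Df hDfp
  rw [hDf, map_sub, map_add, map_zsmul, map_sub, h64_lin_single, h64_lin_single, one_mul,
    one_mul, smul_eq_mul] at h0
  have h1 := h64_lin_abs_le hdeg lam C hC G1 hG1'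
  have h2 := h64_lin_abs_le hdeg lam C hC G2 hG2'
  have h1' : |h64_lin lam G1| ≤ B * C := h1.trans (mul_le_mul_of_nonneg_right hd1 hC0)
  have h2' : |h64_lin lam G2| ≤ B * C := h2.trans (mul_le_mul_of_nonneg_right hd2 hC0)
  rw [abs_le] at h1' h2'
  by_contra hne
  have hne' : lam P0 - lam P ≠ 0 := sub_ne_zero.mpr hne
  rcases lt_or_gt_of_ne hne' with hlt | hgt
  · have : lam P0 - lam P ≤ -1 := by omega
    nlinarith [h1'.1, h1'.2, h2'.1, h2'.2]
  · have : 1 ≤ lam P0 - lam P := by omega
    nlinarith [h1'.1, h1'.2, h2'.1, h2'.2]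

/-- **Bounded + kills principal divisors ⇒ kills degree zero.** -/
theorem h64_degZero_of_bounded (hdeg : ∀ v : Place K F, v.deg = 1)
    (hWR : ∃ B : ℕ, ∀ (P P0 : Place K F) (m : ℕ), ∃ f : F, f ≠ 0 ∧ ∃ G1 G2 : Divisor K F,
      0 ≤ G1 ∧ 0 ≤ G2 ∧ Divisor.degree G1 ≤ B ∧ Divisor.degree G2 ≤ B ∧
      ∀ v : Place K F, v.ord f
        = (m : ℤ) * (Finsupp.single P0 (1 : ℤ) v - Finsupp.single P (1 : ℤ) v) + G1 v - G2 v)
    (θ : Divisor K F →+ (Y →₀ ℤ)) (C : ℤ)
    (hbd : ∀ (P : Place K F) (Q : Y), |θ (Finsupp.single P 1) Q| ≤ C)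
    (hprin : ∀ D ∈ Divisor.principal (K := K) (F := F), θ D = 0)
    (D : Divisor K F) (hD : Divisor.degree D = 0) : θ D = 0 := by
  classical
  ext Q
  rw [Finsupp.zero_apply]
  set lam : Place K F → ℤ := fun P => θ (Finsupp.single P 1) Q with hlam
  have hsum : (Finsupp.applyAddHom Q).comp θ = h64_lin lam := by
    refine Finsupp.addHom_ext fun v n => ?_
    rw [h64_lin_single, AddMonoidHom.comp_apply, Finsupp.applyAddHom_apply]
    have h1 : (Finsupp.single v n : Divisor K F) = n • Finsupp.single v 1 := by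
      rw [Finsupp.smul_single, smul_eq_mul, mul_one]
    rw [h1, map_zsmul, Finsupp.smul_apply, smul_eq_mul]
  have hθ : ∀ E : Divisor K F, θ E Q = h64_lin lam E := fun E => by
    rw [← hsum]
    rfl
  have hprin' : ∀ E ∈ Divisor.principal (K := K) (F := F), h64_lin lam E = 0 := by
    intro E hE
    rw [← hθ, hprin E hE, Finsupp.zero_apply]
  have hconst := h64_const hdeg hWR lam C (fun v => hbd v Q) hprin'
  rw [hθ, h64_lin_apply]
  rcases D.support.eq_empty_or_nonempty with h0 | ⟨P, -⟩
  · rw [Finsupp.sum, h0, Finset.sum_empty]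
  · have h2 : D.sum (fun v n => n * lam v) = D.sum (fun _ n => n) * lam P := by
      rw [Finsupp.sum, Finsupp.sum, Finset.sum_mul]
      exact Finset.sum_congr rfl fun v _ => by rw [hconst P v]
    rw [h2, ← h64_degree_eq_sum hdeg, hD, zero_mul]

end Constancy

section ESAbstract

variable {K F F' : Type*} [Field K] [Field F] [Field F'] [Algebra K F] [Algebra K F']
  {Y : Type*}

/-- **Eichler-Shimura on principal divisors ⇒ Eichler-Shimura on divisors of degree zero**, for
a relation of the shape `r_* π^* T = a_* r_* π^* + ℓ • b_* r_* π^*` (`π^*`, `T` preserving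
effective divisors and multiplying degrees by constants). -/
theorem h64_es_mapDomain (hdeg : ∀ v : Place K F, v.deg = 1)
    (hdeg' : ∀ w : Place K F', w.deg = 1)
    (hWR : ∃ B : ℕ, ∀ (P P0 : Place K F) (m : ℕ), ∃ f : F, f ≠ 0 ∧ ∃ G1 G2 : Divisor K F,
      0 ≤ G1 ∧ 0 ≤ G2 ∧ Divisor.degree G1 ≤ B ∧ Divisor.degree G2 ≤ B ∧
      ∀ v : Place K F, v.ord f
        = (m : ℤ) * (Finsupp.single P0 (1 : ℤ) v - Finsupp.single P (1 : ℤ) v) + G1 v - G2 v)
    (pull : Divisor K F →+ Divisor K F') (n' : ℤ)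
    (hpull_nonneg : ∀ D : Divisor K F, (∀ v, 0 ≤ D v) → ∀ w, 0 ≤ pull D w)
    (hpull_deg : ∀ D : Divisor K F, Divisor.degree (pull D) = n' * Divisor.degree D)
    (T : Divisor K F →+ Divisor K F) (dT : ℤ)
    (hT_nonneg : ∀ D : Divisor K F, (∀ v, 0 ≤ D v) → ∀ v, 0 ≤ T D v)
    (hT_deg : ∀ D : Divisor K F, Divisor.degree (T D) = dT * Divisor.degree D)
    (r : Place K F' → Y) (a b : Y → Y) (ℓ : ℕ)
    (hprin : ∀ D ∈ Divisor.principal (K := K) (F := F),
      Finsupp.mapDomain r (pull (T D))
        = Finsupp.mapDomain a (Finsupp.mapDomain r (pull D))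
          + ℓ • Finsupp.mapDomain b (Finsupp.mapDomain r (pull D)))
    (D : Divisor K F) (hD : Divisor.degree D = 0) :
    Finsupp.mapDomain r (pull (T D))
      = Finsupp.mapDomain a (Finsupp.mapDomain r (pull D))
        + ℓ • Finsupp.mapDomain b (Finsupp.mapDomain r (pull D)) := by
  classical
  -- the defect homomorphism
  let c : Divisor K F →+ (Y →₀ ℤ) := (Finsupp.mapDomain.addMonoidHom r).comp pull
  let Fr : (Y →₀ ℤ) →+ (Y →₀ ℤ) := Finsupp.mapDomain.addMonoidHom a
  let V : (Y →₀ ℤ) →+ (Y →₀ ℤ) := Finsupp.mapDomain.addMonoidHom b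
  let θ : Divisor K F →+ (Y →₀ ℤ) := c.comp T - (Fr.comp c + ℓ • V.comp c)
  have hθapp : ∀ E, θ E = Finsupp.mapDomain r (pull (T E))
      - (Finsupp.mapDomain a (Finsupp.mapDomain r (pull E))
          + ℓ • Finsupp.mapDomain b (Finsupp.mapDomain r (pull E))) := fun E => rfl
  have hprin' : ∀ E ∈ Divisor.principal (K := K) (F := F), θ E = 0 := by
    intro E hE
    rw [hθapp, hprin E hE, sub_self]
  -- mass bounds
  have hmass : ∀ (g : Place K F' → Y) (E : Divisor K F), (∀ v, 0 ≤ E v) → ∀ Q : Y,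
      0 ≤ Finsupp.mapDomain g (pull E) Q ∧
        Finsupp.mapDomain g (pull E) Q ≤ n' * Divisor.degree E := by
    intro g E hE Q
    refine ⟨h64_mapDomain_nonneg g _ (hpull_nonneg E hE) Q, ?_⟩
    rw [← hpull_deg, h64_degree_eq_sum hdeg']
    exact h64_mapDomain_le g _ (hpull_nonneg E hE) Q
  have hbd : ∀ (P : Place K F) (Q : Y),
      |θ (Finsupp.single P 1) Q| ≤ |n' * dT| + |n'| + ℓ * |n'| := by
    intro P Q
    have hs : ∀ v, 0 ≤ (Finsupp.single P (1 : ℤ) : Divisor K F) v := by
      intro v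
      rw [Finsupp.single_apply]
      split_ifs <;> norm_num
    have hds : Divisor.degree (Finsupp.single P (1 : ℤ) : Divisor K F) = 1 := by
      rw [Divisor.degree_single, hdeg P, Nat.cast_one, mul_one]
    have ha := hmass r (T (Finsupp.single P (1 : ℤ))) (hT_nonneg _ hs) Q
    rw [hT_deg, hds, mul_one] at ha
    have hb := hmass (a ∘ r) (Finsupp.single P (1 : ℤ)) hs Q
    have hcc := hmass (b ∘ r) (Finsupp.single P (1 : ℤ)) hs Q
    rw [hds, mul_one] at hb hcc
    rw [hθapp, ← Finsupp.mapDomain_comp, ← Finsupp.mapDomain_comp, Finsupp.sub_apply,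
      Finsupp.add_apply, Finsupp.smul_apply, nsmul_eq_mul]
    have hℓ0 : (0 : ℤ) ≤ (ℓ : ℤ) := Nat.cast_nonneg _
    have h1 := le_abs_self (n' * dT)
    have h2 := le_abs_self n'
    have h3 := abs_nonneg n'
    rw [abs_le]
    constructor
    · nlinarith [ha.1, ha.2, hb.1, hb.2, hcc.1, hcc.2, mul_le_mul_of_nonneg_left hcc.2 hℓ0,
        mul_le_mul_of_nonneg_left h2 hℓ0, abs_nonneg (n' * dT)]
    · nlinarith [ha.1, ha.2, hb.1, hb.2, hcc.1, hcc.2, mul_nonneg hℓ0 hcc.1,
        mul_nonneg hℓ0 h3]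
  have key := h64_degZero_of_bounded hdeg hWR θ _ hbd hprin' D hD
  rw [hθapp, sub_eq_zero] at key
  exact key

end ESAbstract

end Fermat.Agent.S37
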