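import Fermat.Agent.S37.MassBound66
import Fermat.Agent.S37.DegZeroInst66
import Fermat.Agent.S37.MixedTV49

/-!
# S37 (helper66): Eichler–Shimura on ALL divisors of degree `0`, from a place reduction alone

For a Prelude place reduction `r0` (`IsPlaceReductionModL A N' r0`), `ℓ` prime, `ℓ ∤ N`, `A` over
`ℓ`, the Eichler–Shimura relation holds for every divisor of degree `0` of `F(N)`:

* `esz66_tv1_degZero` (Route V, mixed level `N ∣ N'`, the literal shape of clause 4 of `tv1_Geo`
  with a degree-`0` divisor `D` in place of `single P 1`);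
* `esz66_modL_degZero` (Route L, level `N`, the shape of clause 4 of `final13_Geo`).

Proof: the principal case (`mx49_tv1_principal_nat`, `es49_closed`, helper49) + the degree-zero
principle (`mb66_es_degZero`: both sides are additive, agree on principal divisors, and differ
by a bounded amount on single places) + weak Riemann (`wr15_main`, helper15).  No support
statement, no tube functions, no classes.
-/

set_option autoImplicit false
set_option linter.style.haveILetI false
set_option linter.unusedSectionVars false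
set_option synthInstance.maxHeartbeats 400000

namespace Fermat.Agent.S37

open ModularCurve AlgebraicCurve

local notation "Qb" => AlgebraicClosure ℚ

section Hecke

variable {N ℓ : ℕ} [NeZero N] [NeZero ℓ]

/-- `T_ℓ [P]` is effective. -/
theorem esz66_hecke_nonneg (hα : HeckeAlphaBarIntegral Qb N ℓ) (hβ : HeckeBetaBarIntegral Qb N ℓ)
    [HasPrincipalDivisors Qb (modularFunctionFieldBar (N * ℓ))]
    (P : Place Qb (modularFunctionFieldBar N)) :
    0 ≤ heckeDivBar hα hβ (Finsupp.single P 1) :=
  mb66_correspondence_nonneg (heckeBetaBar Qb N ℓ) (heckeAlphaBar Qb N ℓ) hβ hα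
    (mb66_single_nonneg P zero_le_one)

/-- `T_ℓ [P]` has degree `[F(Nℓ) : β F(N)]`. -/
theorem esz66_hecke_degree (hα : HeckeAlphaBarIntegral Qb N ℓ)
    (hβ : HeckeBetaBarIntegral Qb N ℓ)
    [HasPrincipalDivisors Qb (modularFunctionFieldBar (N * ℓ))]
    (P : Place Qb (modularFunctionFieldBar N)) :
    Divisor.degree (heckeDivBar hα hβ (Finsupp.single P 1)) =
      (finrankAlong Qb (heckeBetaBar Qb N ℓ) : ℤ) := by
  haveI : NeZero (N * ℓ) := ⟨mul_ne_zero (NeZero.ne N) (NeZero.ne ℓ)⟩
  haveI := hi63_finite_x N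
  haveI := hi63_finite_x (N * ℓ)
  obtain ⟨hβ', -, hFIβ, -⟩ := hi63_along_all (heckeBetaBar Qb N ℓ)
    (hi63_x N) (hi63_x_transcendental N) (hi63_x (N * ℓ)) (hi63_x_transcendental (N * ℓ))
  have h := Divisor.degree_correspondence (heckeBetaBar Qb N ℓ) (heckeAlphaBar Qb N ℓ) hβ hα
    hFIβ (Finsupp.single P 1)
  rw [Divisor.degree_single, dz66_deg_modular N P, Nat.cast_one, mul_one, mul_one] at h
  exact h

end Hecke

section RouteV

variable {N N' ℓ : ℕ} [NeZero N] [NeZero N'] [NeZero ℓ]

set_option maxHeartbeats 1000000 in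
/-- **Eichler–Shimura on all degree-zero divisors, mixed level (Route V).** -/
theorem esz66_tv1_degZero (hl : ℓ.Prime) (hN : ¬ ℓ ∣ N) (A : ValuationSubring Qb)
    (hA : A.LiesOverPrime ℓ) (h : N ∣ N')
    {r0 : Place Qb (modularFunctionFieldBar N') →
      Place (IsLocalRing.ResidueField A)
        (modularFunctionFieldFullC (IsLocalRing.ResidueField A) N')}
    (hr : IsPlaceReductionModL A N' r0)
    (hα : HeckeAlphaBarIntegral Qb N ℓ) (hβ : HeckeBetaBarIntegral Qb N ℓ)
    [HasPrincipalDivisors Qb (modularFunctionFieldBar (N * ℓ))]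
    (φk : IsLocalRing.ResidueField A ≃+* IsLocalRing.ResidueField A)
    (hφ : ∀ x, φk x = x ^ ℓ)
    (D : Divisor Qb (modularFunctionFieldBar N)) (hD : Divisor.degree D = 0) :
    Finsupp.mapDomain r0 (tv1_pull h (heckeDivBar hα hβ D)) =
      Finsupp.mapDomain (fun Q => fr66_resGalois N' φk • Q)
          (Finsupp.mapDomain r0 (tv1_pull h D)) +
        ℓ • Finsupp.mapDomain (fun Q => (fr66_resGalois N' φk)⁻¹ • Q)
          (Finsupp.mapDomain r0 (tv1_pull h D)) := by
  have hprinc := mx49_tv1_principal_nat hl hN A hA h hr hα hβ φk hφ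
  have hpull0 : ∀ P : Place Qb (modularFunctionFieldBar N),
      0 ≤ tv1_pull h (Finsupp.single P 1) := fun P => by
    haveI := hi63_hasPrincipalDivisors_bar N'
    exact mb66_pullbackAlong_nonneg (tv1_iota h) (tv1_iota_integral h)
      (mb66_single_nonneg P zero_le_one)
  exact mb66_es_degZero (dz66_WR_modular N) (dz66_deg_modular N) (heckeDivBar hα hβ)
    ((Finsupp.mapDomain.addMonoidHom r0).comp (tv1_pull h))
    (fun Q => fr66_resGalois N' φk • Q) (fun Q => (fr66_resGalois N' φk)⁻¹ • Q) ℓ
    (finrankAlong Qb (heckeBetaBar Qb N ℓ) : ℤ) (finrankAlong Qb (tv1_iota h) : ℤ)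
    (fun P => esz66_hecke_nonneg hα hβ P)
    (fun P => (esz66_hecke_degree hα hβ P).le)
    (fun P => mb66_mapDomain_nonneg r0 (hpull0 P))
    (fun P => by
      show mb66_mass (Finsupp.mapDomain r0 (tv1_pull h (Finsupp.single P 1))) ≤ _
      rw [mb66_mass_mapDomain, mb66_mass_eq_degree (dz66_deg_modular N'), tv1_degree_pull,
        Divisor.degree_single, dz66_deg_modular N P]
      simp)
    hprinc D hD

end RouteV

section RouteL

variable {N ℓ : ℕ} [NeZero N] [NeZero ℓ]

set_option maxHeartbeats 1000000 in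
/-- **Eichler–Shimura on all degree-zero divisors, level `N` (Route L).** -/
theorem esz66_modL_degZero (hl : ℓ.Prime) (hN : ¬ ℓ ∣ N) (A : ValuationSubring Qb)
    (hA : A.LiesOverPrime ℓ)
    {r0 : Place Qb (modularFunctionFieldBar N) →
      Place (IsLocalRing.ResidueField A)
        (modularFunctionFieldFullC (IsLocalRing.ResidueField A) N)}
    (hr : IsPlaceReductionModL A N r0)
    (hα : HeckeAlphaBarIntegral Qb N ℓ) (hβ : HeckeBetaBarIntegral Qb N ℓ)
    [HasPrincipalDivisors Qb (modularFunctionFieldBar (N * ℓ))]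
    (φk : IsLocalRing.ResidueField A ≃+* IsLocalRing.ResidueField A)
    (hφ : ∀ x, φk x = x ^ ℓ)
    (D : Divisor Qb (modularFunctionFieldBar N)) (hD : Divisor.degree D = 0) :
    Finsupp.mapDomain r0 (heckeDivBar hα hβ D) =
      fr66_resGalois N φk • Finsupp.mapDomain r0 D +
        ℓ • ((fr66_resGalois N φk)⁻¹ • Finsupp.mapDomain r0 D) := by
  have hprinc := es49_closed hl hN A hA hr hα hβ φk hφ
  exact mb66_es_degZero (dz66_WR_modular N) (dz66_deg_modular N) (heckeDivBar hα hβ)
    (Finsupp.mapDomain.addMonoidHom r0)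
    (fun Q => fr66_resGalois N φk • Q) (fun Q => (fr66_resGalois N φk)⁻¹ • Q) ℓ
    (finrankAlong Qb (heckeBetaBar Qb N ℓ) : ℤ) 1
    (fun P => esz66_hecke_nonneg hα hβ P)
    (fun P => (esz66_hecke_degree hα hβ P).le)
    (fun P => mb66_mapDomain_nonneg r0 (mb66_single_nonneg P zero_le_one))
    (fun P => by
      show mb66_mass (Finsupp.mapDomain r0 (Finsupp.single P 1)) ≤ _
      rw [mb66_mass_mapDomain, mb66_mass_single])
    hprinc D hD

end RouteL

end Fermat.Agent.S37
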