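import Fermat.Agent.S37.DegZeroAsm64
import Fermat.Agent.S37.DegZeroInst66
import Fermat.Agent.S37.GaussPGI41

/-!
# S37 (helper66): the closed end game of the degree-zero route (ESZ)

The frozen statement S37 from clauses (1) + (2) of the RC package ONLY: a Prelude place reduction
`r0` at the levels `lcm N p₀` (`p₀ ∈ {2, 3}`) which is equivariant under the decomposition group.
Everything else is discharged: weak Riemann (`wr15_main`, via `dz66_WR_modular`),
`PrincipalGeneratedByIntegral` (`ga41_pgi_of_liesOver`), the Hecke inputs, statement S18, and the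
degree-zero top of helper64 (`h64_final0`).

* `dz66_RC12 M A` : clauses (1) + (2) of `geo17_RC M A`, verbatim.
* `dz66_final_V` : the end shape asked for in Ruling 4 (S18 as a hypothesis).
* `dz66_S37_V` : the same with S18 discharged by `Fermat.Agent.S18.result`.
* `dz66_S37_levels` : the same with the RC hypothesis quantified over all levels `M` divisible
  by `2` or `3`.
-/

set_option autoImplicit false
set_option linter.style.haveILetI false
set_option linter.unusedSectionVars false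

namespace Fermat.Agent.S37

open ModularCurve AlgebraicCurve

local notation "Qb" => AlgebraicClosure ℚ
local notation "GQ" => AlgebraicClosure ℚ ≃ₐ[ℚ] AlgebraicClosure ℚ

/-- Clauses (1) + (2) of the RC package `geo17_RC M A`: a Prelude place reduction at level `M`
which is equivariant under the decomposition group. -/
def dz66_RC12 (M : ℕ) [NeZero M] (A : ValuationSubring Qb) : Prop :=
  ∃ r0 : Place Qb (modularFunctionFieldBar M) →
      Place (IsLocalRing.ResidueField A)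
        (modularFunctionFieldFullC (IsLocalRing.ResidueField A) M),
    IsPlaceReductionModL A M r0 ∧
    (∀ (σ : GQ) (hσ : σ ∈ A.decompositionSubgroup ℚ)
      (P : Place Qb (modularFunctionFieldBar M)),
      r0 (arithmeticGalois (modularFunctionFieldFull M) σ • P)
        = fr66_resGalois M (MulSemiringAction.toRingEquiv (A.decompositionSubgroup ℚ)
            (IsLocalRing.ResidueField A) ⟨σ, hσ⟩) • r0 P)

/-- `dz66_RC12` gives helper64's `h64_RC` (the missing clause is `ga41_pgi_of_liesOver`). -/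
theorem dz66_h64_rc {M : ℕ} [NeZero M] {ℓ : ℕ} (hℓ : ℓ.Prime) (hℓM : ¬ ℓ ∣ M)
    {A : ValuationSubring Qb} (hA : A.LiesOverPrime ℓ) (h : dz66_RC12 M A) : h64_RC M A := by
  obtain ⟨r0, hr, hequiv⟩ := h
  exact ⟨r0, hr, ga41_pgi_of_liesOver M A hℓ hA hℓM, hequiv⟩

/-- **S37 from clauses (1) + (2) of RC at the levels `lcm N p₀` and S18** (the end shape of the
degree-zero route; no Eichler–Shimura on places, no tube functions, no classes). -/
theorem dz66_final_V (N p : ℕ) [NeZero N] (hcomm : HeckeOperatorsCommuteBar N)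
    (hS18 : ∀ (M : ℕ) [NeZero M] (ℓ : ℕ), ℓ.Prime → ¬ ℓ ∣ M → ∀ A : ValuationSubring Qb,
      A.LiesOverPrime ℓ → top13_S18At M A ℓ)
    (hRC12 : ∀ p₀ : ℕ, p₀ = 2 ∨ p₀ = 3 → ∀ ℓ : ℕ, ℓ.Prime → ¬ ℓ ∣ N → ℓ ≠ p₀ →
      ∀ A : ValuationSubring Qb, A.LiesOverPrime ℓ → ∀ [NeZero (Nat.lcm N p₀)],
      dz66_RC12 (Nat.lcm N p₀) A) :
    letI := ModularCurve.heckeModuleBar N
    ∀ (_ : SMulCommClass GQ ModularCurve.HeckeAlg (ModularCurve.JZero N)),
      ModularCurve.SpecializationExists (K := ℚ) (L := Qb) N p (ModularCurve.JZero N) := by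
  refine h64_final0 N p hcomm hS18 (fun ℓ hℓ _ => ?_) (dz66_WR_modular N)
    (fun p₀ h23 ℓ hℓ hℓN hne A hA inst => ?_)
  · haveI : NeZero ℓ := ⟨hℓ.ne_zero⟩
    exact hi63_heckeInputsAlong N ℓ
  · have hp₀ : p₀.Prime := by
      rcases h23 with rfl | rfl
      · exact Nat.prime_two
      · exact Nat.prime_three
    have hℓN' : ¬ ℓ ∣ Nat.lcm N p₀ := by
      intro hdvd
      have h1 : ℓ ∣ N * p₀ := hdvd.trans (Nat.lcm_dvd_mul N p₀)
      rcases (Nat.Prime.dvd_mul hℓ).mp h1 with h2 | h2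
      · exact hℓN h2
      · exact hne ((Nat.prime_dvd_prime_iff_eq hℓ hp₀).mp h2)
    exact dz66_h64_rc hℓ hℓN' hA (hRC12 p₀ h23 ℓ hℓ hℓN hne A hA)

/-- **The frozen statement S37 from clauses (1) + (2) of RC at the levels `lcm N p₀`** (S18
discharged by `Fermat.Agent.S18.result`). -/
theorem dz66_S37_V (N p : ℕ) [NeZero N] (hcomm : HeckeOperatorsCommuteBar N)
    (hRC12 : ∀ p₀ : ℕ, p₀ = 2 ∨ p₀ = 3 → ∀ ℓ : ℕ, ℓ.Prime → ¬ ℓ ∣ N → ℓ ≠ p₀ →
      ∀ A : ValuationSubring Qb, A.LiesOverPrime ℓ → ∀ [NeZero (Nat.lcm N p₀)],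
      dz66_RC12 (Nat.lcm N p₀) A) :
    letI := ModularCurve.heckeModuleBar N
    ∀ (_ : SMulCommClass GQ ModularCurve.HeckeAlg (ModularCurve.JZero N)),
      ModularCurve.SpecializationExists (K := ℚ) (L := Qb) N p (ModularCurve.JZero N) := by
  refine dz66_final_V N p hcomm ?_ hRC12
  intro M _ ℓ hℓ hM A hA h m hm z hmz hz
  haveI : Fact ℓ.Prime := ⟨hℓ⟩
  exact Fermat.Agent.S18.result M hM A hA h m hm z hmz hz

/-- The RC target of the degree-zero route, one Prop: at every level `M` divisible by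
`p₀ ∈ {2, 3}`, every prime `ℓ ∤ M`, `ℓ ≠ p₀`, and every `A` over `ℓ`, clauses (1) + (2). -/
def dz66_RC : Prop :=
  ∀ (M : ℕ) [NeZero M] (p₀ : ℕ), p₀ = 2 ∨ p₀ = 3 → p₀ ∣ M → ∀ ℓ : ℕ, ℓ.Prime → ¬ ℓ ∣ M →
    ℓ ≠ p₀ → ∀ A : ValuationSubring Qb, A.LiesOverPrime ℓ → dz66_RC12 M A

/-- **The frozen statement S37 from `dz66_RC`** (same quantifier shape as `closedV13_RC`, with
`dz66_RC12` in place of `geo17_RC`). -/
theorem dz66_S37_levels (hRC : dz66_RC) (N p : ℕ) [NeZero N]
    (hcomm : HeckeOperatorsCommuteBar N) :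
    letI := ModularCurve.heckeModuleBar N
    ∀ (_ : SMulCommClass GQ ModularCurve.HeckeAlg (ModularCurve.JZero N)),
      ModularCurve.SpecializationExists (K := ℚ) (L := Qb) N p (ModularCurve.JZero N) := by
  refine dz66_S37_V N p hcomm ?_
  intro p₀ h23 ℓ hℓ hℓN hne A hA inst
  have hp₀ : p₀.Prime := by
    rcases h23 with rfl | rfl
    · exact Nat.prime_two
    · exact Nat.prime_three
  have hℓN' : ¬ ℓ ∣ Nat.lcm N p₀ := by
    intro hdvd
    have h1 : ℓ ∣ N * p₀ := hdvd.trans (Nat.lcm_dvd_mul N p₀)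
    rcases (Nat.Prime.dvd_mul hℓ).mp h1 with h2 | h2
    · exact hℓN h2
    · exact hne ((Nat.prime_dvd_prime_iff_eq hℓ hp₀).mp h2)
  exact hRC (Nat.lcm N p₀) p₀ h23 (Nat.dvd_lcm_right N p₀) ℓ hℓ hℓN' hne A hA

end Fermat.Agent.S37
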