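import Fermat.Agent.S24.Places
import Fermat.Agent.S37.CrossChart25

/-!
# S37, row XC: the disc coordinate on the special fibre (helper25)

`B` a Dedekind domain with fraction field `F` (a function field over `K`, Prelude `Place`).
* `dc25_crt` : CRT element with a simple zero at a prime `w'` and `≡ 1` at finitely many others.
* `dc25_disc` : Place form: for `x ∈ B`, `x ≠ 0`, and a place `Q'` with `0 < ord_Q' x`, an element
  `z ∈ B` with `ord_Q' z = 1` and `ord_Q z = 0` at every other place `Q` with `0 < ord_Q x`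
  (the places with `0 < ord x` are assumed to come from primes of `B`: coverage).
* `dc25_hdisc` : the hypothesis `hdisc0` of `xc25_cusp_int` from coverage + a lifting statement.
-/

set_option autoImplicit false

namespace Fermat.Agent.S37

open AlgebraicCurve IsDedekindDomain IsDedekindDomain.HeightOneSpectrum

open Fermat.Agent.S24

open scoped WithZero

section Dedekind

variable {B : Type*} [CommRing B] [IsDedekindDomain B]

/-- CRT in a Dedekind domain: an element which is a uniformiser at `w'` and `≡ 1` modulo every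
other prime of a finite set. -/
theorem dc25_crt (T : Finset (HeightOneSpectrum B)) (w' : HeightOneSpectrum B) :
    ∃ z : B, w'.intValuation z = WithZero.exp (-1 : ℤ) ∧
      ∀ w ∈ T, w ≠ w' → z - 1 ∈ w.asIdeal := by
  classical
  obtain ⟨π, hπ⟩ := w'.intValuation_exists_uniformizer
  obtain ⟨y, hy⟩ := IsDedekindDomain.exists_forall_sub_mem_ideal (s := insert w' T)
    (fun w : HeightOneSpectrum B => w.asIdeal) (fun w => if w = w' then 2 else 1)
    (fun w _ => w.prime) (fun w _ w'' _ hne h => hne (HeightOneSpectrum.ext h))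
    (fun i => if (i : HeightOneSpectrum B) = w' then π else 1)
  refine ⟨y, ?_, ?_⟩
  · have h1 := hy w' (Finset.mem_insert_self _ _)
    simp only [if_true] at h1
    have h2 : w'.intValuation (y - π) ≤ WithZero.exp (-(2 : ℕ) : ℤ) :=
      (w'.intValuation_le_pow_iff_mem _ 2).mpr h1
    have h3 : w'.intValuation (y - π) < w'.intValuation π := by
      rw [hπ]
      refine lt_of_le_of_lt h2 ?_
      rw [WithZero.exp_lt_exp]
      norm_num
    have h4 : y = π + (y - π) := by ring
    rw [h4, Valuation.map_add_eq_of_lt_left _ h3, hπ]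
  · intro w hw hne
    have h1 := hy w (Finset.mem_insert_of_mem hw)
    simp only [if_neg hne, pow_one] at h1
    exact h1

end Dedekind

section PlaceForm

variable {K F : Type*} [Field K] [Field F] [Algebra K F]
variable {B : Type*} [CommRing B] [IsDedekindDomain B] [Algebra B F] [IsFractionRing B F]
  [Algebra K B] [IsScalarTower K B F]

/-- **Disc coordinate.**  For `x ≠ 0` in `B` and a place `Q'` with `0 < ord_Q' x` there is
`z ∈ B` with a simple zero at `Q'` and which is a unit at every other place where `x` vanishes. -/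
theorem dc25_disc (x : B) (hx : x ≠ 0)
    (hcov : ∀ Q : Place K F, 0 < Q.ord (algebraMap B F x) →
      ∃ w : HeightOneSpectrum B, Place.ofHeightOneSpectrum (K := K) w = Q)
    (Q' : Place K F) (hQ' : 0 < Q'.ord (algebraMap B F x)) :
    ∃ z : B, Q'.ord (algebraMap B F z) = 1 ∧
      ∀ Q : Place K F, Q ≠ Q' → 0 < Q.ord (algebraMap B F x) → Q.ord (algebraMap B F z) = 0 := by
  classical
  have hI : Ideal.span {x} ≠ (0 : Ideal B) := by
    rw [Ne, Ideal.zero_eq_bot, Ideal.span_singleton_eq_bot]
    exact hx
  set T : Finset (HeightOneSpectrum B) := (Ideal.finite_factors hI).toFinset with hT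
  obtain ⟨w', rfl⟩ := hcov Q' hQ'
  obtain ⟨z, hz1, hz2⟩ := dc25_crt T w'
  refine ⟨z, ?_, ?_⟩
  · rw [wp1a_ord_ofHeightOneSpectrum, valuation_of_algebraMap, hz1, WithZero.log_exp]
    norm_num
  · intro Q hQ hQx
    obtain ⟨w, rfl⟩ := hcov Q hQx
    have hne : w ≠ w' := fun h => hQ (by rw [h])
    have hxw : x ∈ w.asIdeal := (wp1a_ord_pos_iff (K := K) w hx).mp hQx
    have hwT : w ∈ T := by
      rw [hT, Set.Finite.mem_toFinset]
      exact Ideal.dvd_span_singleton.mpr hxw
    have h1 := hz2 w hwT hne
    have hzw : z ∉ w.asIdeal := by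
      intro hzmem
      have h2 : (1 : B) ∈ w.asIdeal := by
        have := w.asIdeal.sub_mem hzmem h1
        simpa using this
      exact w.isPrime.ne_top ((Ideal.eq_top_iff_one _).mpr h2)
    exact wp1a_ord_eq_zero_of_notMem (K := K) w hzw

end PlaceForm

section Hdisc

variable {F k Fk : Type*} [Field F] [Field k] [Field Fk] [Algebra k Fk]

/-- The hypothesis `hdisc0` of `xc25_cusp_int` from: a Dedekind chart ring `Bk` of the special
fibre containing the coordinate, coverage of the places over `xbar = 0`, and lifting of the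
elements of `Bk` to integral elements of the Gauss ring. -/
theorem dc25_hdisc {O : Subring F} (red : O →+* Fk) (x : O)
    {Bk : Type*} [CommRing Bk] [IsDedekindDomain Bk] [Algebra Bk Fk] [IsFractionRing Bk Fk]
    [Algebra k Bk] [IsScalarTower k Bk Fk] (xk : Bk) (hxk : algebraMap Bk Fk xk = red x)
    (hcov : ∀ Q : Place k Fk, 0 < Q.ord (red x) →
      ∃ w : HeightOneSpectrum Bk, Place.ofHeightOneSpectrum (K := k) w = Q)
    {R : Type*} [CommRing R] (φ : R →+* F)
    (hlift : ∀ z : Bk, ∃ t : O, (Polynomial.eval₂RingHom φ (x : F)).IsIntegralElem (t : F) ∧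
      red t = algebraMap Bk Fk z) :
    ∀ Q' : Place k Fk, 0 < Q'.ord (red x) → ∃ t : O,
      (Polynomial.eval₂RingHom φ (x : F)).IsIntegralElem (t : F) ∧
      Q'.ord (red t) = 1 ∧ ∀ Q : Place k Fk, Q ≠ Q' → 0 < Q.ord (red x) → Q.ord (red t) = 0 := by
  intro Q' hQ'
  have hxk0 : xk ≠ 0 := by
    rintro rfl
    rw [map_zero] at hxk
    rw [← hxk, Place.ord_zero] at hQ'
    exact lt_irrefl _ hQ'
  obtain ⟨z, hz1, hz0⟩ := dc25_disc (K := k) xk hxk0 (by rw [hxk]; exact hcov) Q'
    (by rw [hxk]; exact hQ')
  obtain ⟨t, htint, htred⟩ := hlift z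
  refine ⟨t, htint, by rw [htred]; exact hz1, fun Q hQ hQx => ?_⟩
  rw [htred]
  exact hz0 Q hQ (by rw [hxk]; exact hQx)

end Hdisc

end Fermat.Agent.S37
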