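import Fermat.Agent.S37.CentreGlue14

/-!
# S37, row TOPV (helper1): the frozen statement from a homomorphism on divisors

`tv1_S37_of_divHom` generalises `h14_S37_of_centre` (helper14): instead of a map of places
`c : Place ℚ̄ F(N) → C` it takes a HOMOMORPHISM `c : Div F(N) → G` into an abelian group with
endomorphisms `Fr`, `V`, `V ∘ Fr = id` (for the two-level route: `G` = divisors of the special
fibre at a higher level `N'`, `c = r0'_* ∘ π^*`).  Hypotheses:
* `c (τ • D) = c D` for `τ` in the inertia group, `c (σ • D) = Fr (c D)` for Frobenius elements,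
* Eichler-Shimura on single places: `c (T_ℓ P) = Fr (c P) + ℓ • V (c P)`,
* a degree-zero divisor `D` with `c D = 0` and `p ^ n • D` principal is principal.
-/

set_option autoImplicit false
set_option linter.style.haveILetI false

namespace Fermat.Agent.S37

open ModularCurve AlgebraicCurve

section Abstract

variable {K F : Type} [Field K] [Field F] [Algebra K F] {G : Type} [AddCommGroup G]

/-- The images of the principal divisors of degree zero. -/
noncomputable def tv1_cprin (c : Divisor K F →+ G) : AddSubgroup G :=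
  ((Divisor.principal (K := K) (F := F)) ⊓ (Divisor.degZero (K := K) (F := F))).map c

/-- The reduction map `Pic⁰ → G / c (principal)`. -/
noncomputable def tv1_red (c : Divisor K F →+ G) : Pic0 K F →+ (G ⧸ tv1_cprin c) :=
  QuotientAddGroup.lift _
    ((QuotientAddGroup.mk' (tv1_cprin c)).comp
      (c.comp (Divisor.degZero (K := K) (F := F)).subtype))
    (by
      rintro ⟨D, hD0⟩ hD
      have hD' : D ∈ Divisor.principal (K := K) (F := F) := hD
      show (QuotientAddGroup.mk' (tv1_cprin c)) (c D) = 0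
      rw [QuotientAddGroup.mk'_apply, QuotientAddGroup.eq_zero_iff]
      exact ⟨D, ⟨hD', hD0⟩, rfl⟩)

theorem tv1_red_mk (c : Divisor K F →+ G) (D : Divisor.degZero (K := K) (F := F)) :
    tv1_red c (Pic0.mk D) = QuotientAddGroup.mk' (tv1_cprin c) (c (D : Divisor K F)) :=
  rfl

/-- The endomorphism of the target induced by `Fr`, when `Fr` is realised by a semilinear
automorphism. -/
noncomputable def tv1_frob (c : Divisor K F →+ G) (Fr : G →+ G) (g : SemilinearAut K F)
    (hg : ∀ D : Divisor K F, c (g • D) = Fr (c D)) :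
    (G ⧸ tv1_cprin c) →+ (G ⧸ tv1_cprin c) :=
  QuotientAddGroup.map _ _ Fr (by
    rintro _ ⟨E, ⟨hE, hE0⟩, rfl⟩
    rw [AddSubgroup.mem_comap, ← hg E]
    exact ⟨g • E, ⟨SemilinearAut.smul_mem_principal g hE, SemilinearAut.smul_mem_degZero g hE0⟩,
      rfl⟩)

theorem tv1_frob_mk (c : Divisor K F →+ G) (Fr : G →+ G) (g : SemilinearAut K F)
    (hg : ∀ D : Divisor K F, c (g • D) = Fr (c D)) (x : G) :
    tv1_frob c Fr g hg (QuotientAddGroup.mk' (tv1_cprin c) x)
      = QuotientAddGroup.mk' (tv1_cprin c) (Fr x) := rfl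

theorem tv1_red_smul_of_fix (c : Divisor K F →+ G) (g : SemilinearAut K F)
    (hg : ∀ D : Divisor K F, c (g • D) = c D) (x : Pic0 K F) :
    tv1_red c (g • x) = tv1_red c x := by
  obtain ⟨D, rfl⟩ := Pic0.mk_surjective x
  rw [SemilinearAut.pic0_smul_mk, tv1_red_mk, tv1_red_mk, SemilinearAut.coe_degZeroSMulHom, hg]

theorem tv1_red_smul_of_frob (c : Divisor K F →+ G) (Fr : G →+ G) (g : SemilinearAut K F)
    (hg : ∀ D : Divisor K F, c (g • D) = Fr (c D)) (h : SemilinearAut K F)
    (hh : ∀ D : Divisor K F, c (h • D) = Fr (c D)) (x : Pic0 K F) :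
    tv1_red c (h • x) = tv1_frob c Fr g hg (tv1_red c x) := by
  obtain ⟨D, rfl⟩ := Pic0.mk_surjective x
  rw [SemilinearAut.pic0_smul_mk, tv1_red_mk, tv1_red_mk, SemilinearAut.coe_degZeroSMulHom,
    hh, tv1_frob_mk]

/-- Injectivity of the reduction map on classes killed by `m`, from the divisor-level
statement. -/
theorem tv1_red_inj (c : Divisor K F →+ G) (m : ℕ)
    (hinj : ∀ D : Divisor K F, Divisor.degree D = 0 → c D = 0 →
      m • D ∈ Divisor.principal (K := K) (F := F) → D ∈ Divisor.principal (K := K) (F := F))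
    (x : Pic0 K F) (hx : tv1_red c x = 0) (hm : m • x = 0) : x = 0 := by
  obtain ⟨D, rfl⟩ := Pic0.mk_surjective x
  rw [tv1_red_mk, QuotientAddGroup.mk'_apply, QuotientAddGroup.eq_zero_iff] at hx
  obtain ⟨E, ⟨hE, hE0⟩, hED⟩ := hx
  have hmD : m • (D : Divisor K F) ∈ Divisor.principal (K := K) (F := F) := by
    have h1 : Pic0.mk (m • D) = 0 := hm
    have h2 : (m • D) ∈ (Divisor.principal (K := K) (F := F)).addSubgroupOf
        (Divisor.degZero (K := K) (F := F)) := (QuotientAddGroup.eq_zero_iff _).mp h1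
    exact h2
  have h3 : (D : Divisor K F) - E ∈ Divisor.principal (K := K) (F := F) := by
    refine hinj _ ?_ ?_ ?_
    · rw [map_sub, Divisor.mem_degZero.mp D.2, Divisor.mem_degZero.mp hE0, sub_zero]
    · rw [map_sub, hED, sub_self]
    · rw [smul_sub]
      exact AddSubgroup.sub_mem _ hmD (AddSubgroup.nsmul_mem _ hE m)
  have h4 : (D : Divisor K F) ∈ Divisor.principal (K := K) (F := F) := by
    have := AddSubgroup.add_mem _ h3 hE
    rwa [sub_add_cancel] at this
  exact (QuotientAddGroup.eq_zero_iff _).mpr h4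

/-- Additivity: a relation `c ∘ T = Fr ∘ c + ℓ • V ∘ c` on single places extends to all
divisors. -/
theorem tv1_hecke_of_single (c : Divisor K F →+ G) (Fr V : G →+ G) (ℓ : ℕ)
    (T : Divisor K F →+ Divisor K F)
    (hT : ∀ P : Place K F, c (T (Finsupp.single P 1))
      = Fr (c (Finsupp.single P 1)) + ℓ • V (c (Finsupp.single P 1)))
    (E : Divisor K F) : c (T E) = Fr (c E) + ℓ • V (c E) := by
  have key : c.comp T = Fr.comp c + ℓ • (V.comp c) := by
    refine Finsupp.addHom_ext ?_
    intro P n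
    have h1 : (Finsupp.single P n : Divisor K F) = n • Finsupp.single P 1 := by
      rw [Finsupp.smul_single, smul_eq_mul, mul_one]
    simp only [AddMonoidHom.comp_apply, AddMonoidHom.add_apply, AddMonoidHom.smul_apply]
    rw [h1, map_zsmul, map_zsmul, hT P, map_zsmul, map_zsmul, map_zsmul, smul_add,
      smul_comm n ℓ]
  exact DFunLike.congr_fun key E

end Abstract

section Modular

local notation "Qb" => AlgebraicClosure ℚ
local notation "GQ" => AlgebraicClosure ℚ ≃ₐ[ℚ] AlgebraicClosure ℚ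

set_option maxHeartbeats 1600000 in
/-- **S37 from a homomorphism on divisors** (divisor-level inputs). -/
theorem tv1_S37_of_divHom (N p : ℕ) [NeZero N] (hcomm : HeckeOperatorsCommuteBar N)
    (key : ∀ (ℓ : ℕ) (hℓ : ℓ.Prime), ¬ ℓ ∣ N → ¬ ℓ ∣ p → ∀ A : ValuationSubring Qb,
      A.LiesOverPrime ℓ → ∀ φ : GQ, A.IsFrobeniusAt φ ℓ →
      haveI : NeZero ℓ := ⟨hℓ.ne_zero⟩
      ∃ (hα : HeckeAlphaBarIntegral Qb N ℓ) (hβ : HeckeBetaBarIntegral Qb N ℓ)
        (_ : HasPrincipalDivisors Qb (modularFunctionFieldBar (N * ℓ)))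
        (hfin : FiniteAlong Qb (heckeAlphaBar Qb N ℓ))
        (_ : FundamentalIdentityAlong Qb (heckeBetaBar Qb N ℓ) hβ)
        (_ : NormFormulaAlong Qb (heckeAlphaBar Qb N ℓ) hfin)
        (G : Type) (_ : AddCommGroup G)
        (c : Divisor Qb (modularFunctionFieldBar N) →+ G) (Fr V : G →+ G),
        (∀ x : G, V (Fr x) = x) ∧
        (∀ τ ∈ A.inertiaSubgroupIn ℚ, ∀ D : Divisor Qb (modularFunctionFieldBar N),
          c (arithmeticGalois (modularFunctionFieldFull N) τ • D) = c D) ∧
        (∀ σ : GQ, A.IsFrobeniusAt σ ℓ → ∀ D : Divisor Qb (modularFunctionFieldBar N),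
          c (arithmeticGalois (modularFunctionFieldFull N) σ • D) = Fr (c D)) ∧
        (∀ P : Place Qb (modularFunctionFieldBar N),
          c (heckeDivBar hα hβ (Finsupp.single P 1))
            = Fr (c (Finsupp.single P 1)) + ℓ • V (c (Finsupp.single P 1))) ∧
        (∀ D : Divisor Qb (modularFunctionFieldBar N), Divisor.degree D = 0 →
          c D = 0 →
          (∃ n : ℕ, p ^ n • D ∈ Divisor.principal (K := Qb) (F := modularFunctionFieldBar N)) →
          D ∈ Divisor.principal (K := Qb) (F := modularFunctionFieldBar N))) :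
    letI := ModularCurve.heckeModuleBar N
    ∀ (_ : SMulCommClass GQ ModularCurve.HeckeAlg (ModularCurve.JZero N)),
      ModularCurve.SpecializationExists (K := ℚ) (L := Qb) N p (ModularCurve.JZero N) := by
  refine h14_S37_of_red N p hcomm ?_
  intro ℓ hℓ hN hp A hA φ hφ
  haveI : NeZero ℓ := ⟨hℓ.ne_zero⟩
  obtain ⟨hα, hβ, hP, hfin, hFI, hNF, G, instG, c, Fr, V, hVF, hin, hfr, hES, hinj⟩ :=
    key ℓ hℓ hN hp A hA φ hφ
  set g := arithmeticGalois (L := Qb) (modularFunctionFieldFull N) φ with hg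
  have hgc : ∀ D : Divisor Qb (modularFunctionFieldBar N), c (g • D) = Fr (c D) := hfr φ hφ
  refine ⟨G ⧸ tv1_cprin c, inferInstance, tv1_red c, tv1_frob c Fr g hgc, ?_, ?_, ?_, ?_⟩
  · intro τ hτ x
    rw [galois_smul_pic0_def]
    exact tv1_red_smul_of_fix c _ (hin τ hτ) x
  · intro σ hσ x
    rw [galois_smul_pic0_def]
    exact tv1_red_smul_of_frob c Fr g hgc _ (hfr σ hσ) x
  · intro x
    obtain ⟨D, rfl⟩ := Pic0.mk_surjective x
    have e1 : φ • Pic0.mk D = Pic0.mk (SemilinearAut.degZeroSMulHom g D) := by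
      rw [galois_smul_pic0_def]
      rfl
    have e2 : φ • Pic0.mk (SemilinearAut.degZeroSMulHom g D)
        = Pic0.mk (SemilinearAut.degZeroSMulHom g (SemilinearAut.degZeroSMulHom g D)) := by
      rw [galois_smul_pic0_def]
      rfl
    have e3 : heckeOperatorBar N ⟨ℓ, hℓ⟩ (Pic0.mk (SemilinearAut.degZeroSMulHom g D))
        = Pic0.mk (Pic0.degZeroCorrespondence (heckeBetaBar Qb N ℓ) (heckeAlphaBar Qb N ℓ) hβ hα
            hFI (SemilinearAut.degZeroSMulHom g D)) := by
      refine (heckeOperatorBar_apply N ⟨ℓ, hℓ⟩ _).trans ?_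
      rw [heckeOperatorAlong_eq hα hβ hFI hfin hNF]
      rfl
    rw [map_add, map_sub, map_nsmul, e1, e2, e3]
    rw [tv1_red_mk, tv1_red_mk, tv1_red_mk]
    rw [← map_nsmul, ← map_sub, ← map_add]
    have hz : c ((SemilinearAut.degZeroSMulHom g (SemilinearAut.degZeroSMulHom g D) :
          Divisor.degZero (K := Qb) (F := modularFunctionFieldBar N)) : Divisor Qb _)
        - c ((Pic0.degZeroCorrespondence (heckeBetaBar Qb N ℓ) (heckeAlphaBar Qb N ℓ)
            hβ hα hFI (SemilinearAut.degZeroSMulHom g D) :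
              Divisor.degZero (K := Qb) (F := modularFunctionFieldBar N)) : Divisor Qb _)
        + ℓ • c (D : Divisor Qb _) = 0 := by
      have h1 : c ((SemilinearAut.degZeroSMulHom g (SemilinearAut.degZeroSMulHom g D) :
          Divisor.degZero (K := Qb) (F := modularFunctionFieldBar N)) : Divisor Qb _)
          = Fr (Fr (c (D : Divisor Qb _))) := by
        rw [SemilinearAut.coe_degZeroSMulHom, SemilinearAut.coe_degZeroSMulHom, hgc, hgc]
      have h2 := tv1_hecke_of_single c Fr V ℓ (heckeDivBar hα hβ) hES (g • (D : Divisor Qb _))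
      have h3 : c ((Pic0.degZeroCorrespondence (heckeBetaBar Qb N ℓ)
          (heckeAlphaBar Qb N ℓ) hβ hα hFI (SemilinearAut.degZeroSMulHom g D) :
            Divisor.degZero (K := Qb) (F := modularFunctionFieldBar N)) : Divisor Qb _)
          = c (heckeDivBar hα hβ (g • (D : Divisor Qb _))) := rfl
      rw [h1, h3, h2, hgc, hVF]
      abel
    rw [hz, map_zero]
  · intro x hx htors
    obtain ⟨n, hn⟩ := htors
    exact tv1_red_inj c (p ^ n) (fun D hD hc hm => hinj D hD hc ⟨n, hm⟩) x hx hn

end Modular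

end Fermat.Agent.S37
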