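import Fermat.Agent.S37.Equiv73
import Fermat.Agent.S37.ChartGlue89

/-!
# S37, row RC-EQUIV (helper73), part b: clause (2) of `geo17_RC` for `cg89_r0`

The four hypotheses `hgO`, `hgred`, `hgx`, `hgA` of `cg89_r0_smul` (helper89, `ChartGlue89`) in
their literal shapes for `g = arithmeticGalois (modularFunctionFieldFull N) σ`,
`gk = fr66_resGalois N σ̄`, `σ` in the decomposition group of `A`, and the resulting
equivariance of the two-chart reduction map `cg89_r0`:

* `eq73_hgO`, `eq73_hgred`, `eq73_hgA` : the three hypotheses for `O = ga41_O N A`,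
  `red = ga41_red N A hN`.
* `eq73_smul_intCoeff` : a function whose `q`-expansion has integer coefficients is fixed
  (`hgx` for the chart coordinates `⟨ka46_g Qb g, _⟩`).
* `eq73_r0_smul` : clause (2) of `geo17_RC` for `r0 = cg89_r0 h1 h2`, for any pair `(O, red)`
  that agrees with `(ga41_O N A, ga41_red N A hN)` (both hypotheses are `Iff.rfl` / `rfl` for
  `O = ga41_O N A` and for `O = (ga41_V N A hN).toSubring`).
-/

set_option autoImplicit false

open ModularCurve AlgebraicCurve IntermediateField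

namespace Fermat.Agent.S37

local notation "Qb" => AlgebraicClosure ℚ

section Hyp

variable (N : ℕ) (A : ValuationSubring Qb)

/-- `arithmeticGalois σ⁻¹` also preserves the Gauss ring. -/
theorem eq73_inv_smul_mem_O (σ : Qb ≃ₐ[ℚ] Qb) (hσ : σ ∈ A.decompositionSubgroup ℚ)
    {x : ↥(modularFunctionFieldBar N)} (hx : x ∈ ga41_O N A) :
    (arithmeticGalois (modularFunctionFieldFull N) σ)⁻¹ • x ∈ ga41_O N A := by
  have h := eq73_smul_mem_O N A (⟨σ, hσ⟩⁻¹ : A.decompositionSubgroup ℚ) hx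
  rw [← map_inv]
  exact h

/-- **`hgO`** of `cg89_r0_smul`: the decomposition group preserves the Gauss ring (iff form). -/
theorem eq73_hgO (σ : Qb ≃ₐ[ℚ] Qb) (hσ : σ ∈ A.decompositionSubgroup ℚ)
    (f : ↥(modularFunctionFieldBar N)) :
    arithmeticGalois (modularFunctionFieldFull N) σ • f ∈ ga41_O N A ↔ f ∈ ga41_O N A := by
  constructor
  · intro h
    have h1 := eq73_inv_smul_mem_O N A σ hσ h
    rwa [inv_smul_smul] at h1
  · intro h
    exact eq73_smul_mem_O N A (⟨σ, hσ⟩ : A.decompositionSubgroup ℚ) h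

/-- **`hgA`** of `cg89_r0_smul`: the decomposition group preserves `A`. -/
theorem eq73_hgA (σ : Qb ≃ₐ[ℚ] Qb) (hσ : σ ∈ A.decompositionSubgroup ℚ) (a : Qb) :
    SemilinearAut.baseAut (arithmeticGalois (modularFunctionFieldFull N) σ) a ∈ A ↔ a ∈ A := by
  rw [baseAut_arithmeticGalois]
  constructor
  · intro h
    have h1 : ((⟨σ, hσ⟩⁻¹ : A.decompositionSubgroup ℚ) : Qb ≃ₐ[ℚ] Qb) (σ a) ∈ A :=
      (eq73_resA A (⟨σ, hσ⟩⁻¹ : A.decompositionSubgroup ℚ) ⟨_, h⟩).2
    have h2 : ((⟨σ, hσ⟩⁻¹ : A.decompositionSubgroup ℚ) : Qb ≃ₐ[ℚ] Qb) (σ a) = a :=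
      σ.symm_apply_apply a
    rwa [h2] at h1
  · intro h
    exact (eq73_resA A (⟨σ, hσ⟩ : A.decompositionSubgroup ℚ) ⟨a, h⟩).2

variable [NeZero N]

/-- **`hgred`** of `cg89_r0_smul`: the Gauss reduction is equivariant, for an arbitrary
membership proof. -/
theorem eq73_hgred (hN : (N : IsLocalRing.ResidueField A) ≠ 0)
    (σ : Qb ≃ₐ[ℚ] Qb) (hσ : σ ∈ A.decompositionSubgroup ℚ) (f : ga41_O N A)
    (hf : arithmeticGalois (modularFunctionFieldFull N) σ •
        (f : ↥(modularFunctionFieldBar N)) ∈ ga41_O N A) :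
    ga41_red N A hN ⟨arithmeticGalois (modularFunctionFieldFull N) σ •
        (f : ↥(modularFunctionFieldBar N)), hf⟩
      = fr66_resGalois N (MulSemiringAction.toRingEquiv (A.decompositionSubgroup ℚ)
          (IsLocalRing.ResidueField A) ⟨σ, hσ⟩) • ga41_red N A hN f :=
  eq73_red_smul N A hN (⟨σ, hσ⟩ : A.decompositionSubgroup ℚ) f

end Hyp

section Fixed

variable (N : ℕ)

/-- **`hgx`** for chart coordinates: a function whose `q`-expansion has integer coefficients
is fixed by `arithmeticGalois σ`. -/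
theorem eq73_smul_intCoeff (σ : Qb ≃ₐ[ℚ] Qb) (x : ↥(modularFunctionFieldBar N))
    (g : LaurentSeries ℤ)
    (hx : (x : LaurentSeries Qb) = coeffMap (Int.castRingHom Qb) g) :
    arithmeticGalois (modularFunctionFieldFull N) σ • x = x := by
  apply eq73_smul_eq_self
  intro n
  rw [hx, coeffMap_coeff]
  exact map_intCast σ _

/-- the inverse of a fixed function is fixed. -/
theorem eq73_smul_inv_eq (g : SemilinearAut Qb ↥(modularFunctionFieldBar N))
    (x : ↥(modularFunctionFieldBar N)) (hx : g • x = x) : g • x⁻¹ = x⁻¹ := by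
  rw [smul_inv'', hx]

end Fixed

section Main

variable (N : ℕ) [NeZero N] (A : ValuationSubring Qb)

variable {O : Subring ↥(modularFunctionFieldBar N)}
  {red : O →+* ↥(modularFunctionFieldFullC (IsLocalRing.ResidueField A) N)}
  {x : ↥(modularFunctionFieldBar N)}
  {xbar : ↥(modularFunctionFieldFullC (IsLocalRing.ResidueField A) N)}
  {B₁ : Type*} [CommRing B₁] [IsDedekindDomain B₁] [Algebra (Polynomial Qb) B₁] [Algebra Qb B₁]
  [Algebra B₁ ↥(modularFunctionFieldBar N)] [IsFractionRing B₁ ↥(modularFunctionFieldBar N)]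
  [IsScalarTower Qb B₁ ↥(modularFunctionFieldBar N)]
  {Bk₁ : Type*} [CommRing Bk₁] [IsDedekindDomain Bk₁]
  [Algebra (Polynomial (IsLocalRing.ResidueField A)) Bk₁]
  [Algebra (IsLocalRing.ResidueField A) Bk₁]
  [Algebra Bk₁ ↥(modularFunctionFieldFullC (IsLocalRing.ResidueField A) N)]
  [IsFractionRing Bk₁ ↥(modularFunctionFieldFullC (IsLocalRing.ResidueField A) N)]
  [IsScalarTower (IsLocalRing.ResidueField A) Bk₁
    ↥(modularFunctionFieldFullC (IsLocalRing.ResidueField A) N)]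
  {BA₁ : Subring B₁} {ρ₁ : BA₁ →+* Bk₁}
  {B₂ : Type*} [CommRing B₂] [IsDedekindDomain B₂] [Algebra (Polynomial Qb) B₂] [Algebra Qb B₂]
  [Algebra B₂ ↥(modularFunctionFieldBar N)] [IsFractionRing B₂ ↥(modularFunctionFieldBar N)]
  [IsScalarTower Qb B₂ ↥(modularFunctionFieldBar N)]
  {Bk₂ : Type*} [CommRing Bk₂] [IsDedekindDomain Bk₂]
  [Algebra (Polynomial (IsLocalRing.ResidueField A)) Bk₂]
  [Algebra (IsLocalRing.ResidueField A) Bk₂]
  [Algebra Bk₂ ↥(modularFunctionFieldFullC (IsLocalRing.ResidueField A) N)]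
  [IsFractionRing Bk₂ ↥(modularFunctionFieldFullC (IsLocalRing.ResidueField A) N)]
  [IsScalarTower (IsLocalRing.ResidueField A) Bk₂
    ↥(modularFunctionFieldFullC (IsLocalRing.ResidueField A) N)]
  {BA₂ : Subring B₂} {ρ₂ : BA₂ →+* Bk₂}

/-- **Clause (2) of `geo17_RC` for `cg89_r0`** (general form): for any pair `(O, red)` agreeing
with the Gauss pair `(ga41_O N A, ga41_red N A hN)` and any chart coordinate `x` fixed by the
decomposition group, the two-chart reduction map is equivariant. -/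
theorem eq73_r0_smul_of_fixed [IsAlgClosed (IsLocalRing.ResidueField A)]
    (hN : (N : IsLocalRing.ResidueField A) ≠ 0)
    (hO : ∀ f : ↥(modularFunctionFieldBar N), f ∈ O ↔ f ∈ ga41_O N A)
    (hred : ∀ (f : ↥(modularFunctionFieldBar N)) (hf : f ∈ O) (hf' : f ∈ ga41_O N A),
      red ⟨f, hf⟩ = ga41_red N A hN ⟨f, hf'⟩)
    (h1 : cg89_Chart A O red x xbar BA₁ ρ₁) (h2 : cg89_Chart A O red x⁻¹ xbar⁻¹ BA₂ ρ₂)
    (σ : Qb ≃ₐ[ℚ] Qb) (hσ : σ ∈ A.decompositionSubgroup ℚ)
    (hx : arithmeticGalois (modularFunctionFieldFull N) σ • x = x)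
    (P : Place Qb ↥(modularFunctionFieldBar N)) :
    cg89_r0 h1 h2 (arithmeticGalois (modularFunctionFieldFull N) σ • P)
      = fr66_resGalois N (MulSemiringAction.toRingEquiv (A.decompositionSubgroup ℚ)
          (IsLocalRing.ResidueField A) ⟨σ, hσ⟩) • cg89_r0 h1 h2 P := by
  refine cg89_r0_smul h1 h2 _ _ ?_ ?_ hx (eq73_hgA N A σ hσ) P
  · intro f
    rw [hO, hO]
    exact eq73_hgO N A σ hσ f
  · intro f hf
    rw [hred _ hf ((hO _).mp hf), hred _ f.2 ((hO _).mp f.2)]
    exact eq73_hgred N A hN σ hσ ⟨(f : ↥(modularFunctionFieldBar N)), (hO _).mp f.2⟩ _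

/-- **Clause (2) of `geo17_RC` for `cg89_r0`**: chart coordinate with integer `q`-expansion
coefficients (`x = ⟨ka46_g Qb g, _⟩`, `hx := rfl`). -/
theorem eq73_r0_smul [IsAlgClosed (IsLocalRing.ResidueField A)]
    (hN : (N : IsLocalRing.ResidueField A) ≠ 0)
    (hO : ∀ f : ↥(modularFunctionFieldBar N), f ∈ O ↔ f ∈ ga41_O N A)
    (hred : ∀ (f : ↥(modularFunctionFieldBar N)) (hf : f ∈ O) (hf' : f ∈ ga41_O N A),
      red ⟨f, hf⟩ = ga41_red N A hN ⟨f, hf'⟩)
    (h1 : cg89_Chart A O red x xbar BA₁ ρ₁) (h2 : cg89_Chart A O red x⁻¹ xbar⁻¹ BA₂ ρ₂)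
    (g : LaurentSeries ℤ)
    (hx : (x : LaurentSeries Qb) = coeffMap (Int.castRingHom Qb) g) :
    ∀ (σ : Qb ≃ₐ[ℚ] Qb) (hσ : σ ∈ A.decompositionSubgroup ℚ)
      (P : Place Qb ↥(modularFunctionFieldBar N)),
      cg89_r0 h1 h2 (arithmeticGalois (modularFunctionFieldFull N) σ • P)
        = fr66_resGalois N (MulSemiringAction.toRingEquiv (A.decompositionSubgroup ℚ)
            (IsLocalRing.ResidueField A) ⟨σ, hσ⟩) • cg89_r0 h1 h2 P :=
  fun σ hσ P => eq73_r0_smul_of_fixed N A hN hO hred h1 h2 σ hσ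
    (eq73_smul_intCoeff N σ x g hx) P

end Main

end Fermat.Agent.S37
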