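import Fermat.Agent.S37.CentreTop14
import Fermat.Agent.S37.FrobL66

/-!
# S37, FINAL SHAPE (helper13, S37 lead)

`final13_result`: the frozen statement S37 from

* `hS18` : statement S18 at every `(ℓ, A)` (= `Fermat.Agent.S18.result`),
* `hH`   : `HeckeInputsAlong ℚ̄ N ℓ` for every prime `ℓ ∤ N` (row H-HeckeInputs),
* `hgeo` : THE GEOMETRIC PACKAGE (rows RC + ES1-ES3 + NM): at every `(ℓ, A)` a place reduction
  `r0` (Prelude sense), equivariant under the decomposition group of `A` for the coefficientwise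
  action `fr66_resGalois` on the special fibre, and satisfying the Eichler-Shimura relation on
  single places: `r0_* (T_ℓ P) = φ • r0 P + ℓ (φ⁻¹ • r0 P)` for the automorphism `φ` of the residue
  field given by `x ↦ x ^ ℓ`.

Everything else (existence of Frobenius elements, inertia-invariance, injectivity on torsion,
passage to `Pic⁰`, the specialization datum) is done in `CentreTop14`, `Top13`, `Glue14`.
-/

set_option autoImplicit false
set_option linter.style.haveILetI false

namespace Fermat.Agent.S37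

open ModularCurve AlgebraicCurve

local notation "Qb" => AlgebraicClosure ℚ
local notation "GQ" => AlgebraicClosure ℚ ≃ₐ[ℚ] AlgebraicClosure ℚ

/-- The geometric package at `(N, ℓ, A)`: what rows RC / ES1-ES3 / NM have to prove. -/
def final13_Geo (N : ℕ) [NeZero N] (ℓ : ℕ) [NeZero ℓ] (A : ValuationSubring Qb) : Prop :=
  ∀ (hα : HeckeAlphaBarIntegral Qb N ℓ) (hβ : HeckeBetaBarIntegral Qb N ℓ)
    (_ : HasPrincipalDivisors Qb (modularFunctionFieldBar (N * ℓ))),
    ∃ r0 : Place Qb (modularFunctionFieldBar N) →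
        Place (IsLocalRing.ResidueField A)
          (modularFunctionFieldFullC (IsLocalRing.ResidueField A) N),
      IsPlaceReductionModL A N r0 ∧
      PrincipalGeneratedByIntegral A (IsLocalRing.residue A) N ∧
      (∀ (σ : GQ) (hσ : σ ∈ A.decompositionSubgroup ℚ)
        (P : Place Qb (modularFunctionFieldBar N)),
        r0 (arithmeticGalois (modularFunctionFieldFull N) σ • P)
          = fr66_resGalois N (MulSemiringAction.toRingEquiv (A.decompositionSubgroup ℚ)
              (IsLocalRing.ResidueField A) ⟨σ, hσ⟩) • r0 P) ∧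
      (∀ φk : IsLocalRing.ResidueField A ≃+* IsLocalRing.ResidueField A,
        (∀ x, φk x = x ^ ℓ) → ∀ P : Place Qb (modularFunctionFieldBar N),
        Finsupp.mapDomain r0 (heckeDivBar hα hβ (Finsupp.single P 1))
          = Finsupp.single (fr66_resGalois N φk • r0 P) 1
            + Finsupp.single ((fr66_resGalois N φk)⁻¹ • r0 P) (ℓ : ℤ))

/-- **S37 from S18, the Hecke inputs and the geometric package.** -/
theorem final13_result (N p : ℕ) [NeZero N] (hcomm : HeckeOperatorsCommuteBar N)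
    (hS18 : ∀ (ℓ : ℕ), ℓ.Prime → ¬ ℓ ∣ N → ∀ A : ValuationSubring Qb, A.LiesOverPrime ℓ →
      top13_S18At N A ℓ)
    (hH : ∀ (ℓ : ℕ) (hℓ : ℓ.Prime), ¬ ℓ ∣ N →
      haveI : NeZero ℓ := ⟨hℓ.ne_zero⟩
      HeckeInputsAlong Qb N ℓ)
    (hgeo : ∀ (ℓ : ℕ) (hℓ : ℓ.Prime), ¬ ℓ ∣ N → ∀ A : ValuationSubring Qb,
      A.LiesOverPrime ℓ →
      haveI : NeZero ℓ := ⟨hℓ.ne_zero⟩
      final13_Geo N ℓ A) :
    letI := ModularCurve.heckeModuleBar N
    ∀ (_ : SMulCommClass GQ ModularCurve.HeckeAlg (ModularCurve.JZero N)),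
      ModularCurve.SpecializationExists (K := ℚ) (L := Qb) N p (ModularCurve.JZero N) := by
  refine h14_S37_of_placeReduction N p hcomm hS18 ?_
  intro ℓ hℓ hℓN A hA
  haveI : NeZero ℓ := ⟨hℓ.ne_zero⟩
  obtain ⟨hα, hβ, hP, hfin, hFI, hN⟩ := hH ℓ hℓ hℓN
  obtain ⟨r0, hr, hgen, hequiv, hes⟩ := hgeo ℓ hℓ hℓN A hA hα hβ hP
  obtain ⟨σ₀, hσ₀D, hσ₀x⟩ := h14_exists_isFrobeniusAt ℓ hℓ A hA
  set φk : IsLocalRing.ResidueField A ≃+* IsLocalRing.ResidueField A :=
    MulSemiringAction.toRingEquiv (A.decompositionSubgroup ℚ) (IsLocalRing.ResidueField A)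
      ⟨σ₀, hσ₀D⟩ with hφk
  have hφkx : ∀ x : IsLocalRing.ResidueField A, φk x = x ^ ℓ := fun x => hσ₀x x
  refine ⟨hα, hβ, hP, hfin, hFI, hN, r0, fun Q => fr66_resGalois N φk • Q,
    fun Q => (fr66_resGalois N φk)⁻¹ • Q, hr, hgen, fun Q => inv_smul_smul _ Q, ?_, ?_,
    fun P => hes φk hφkx P⟩
  · intro τ hτ P
    obtain ⟨τ', hτ', rfl⟩ := Subgroup.mem_map.mp hτ
    have h1 : MulSemiringAction.toRingEquiv (A.decompositionSubgroup ℚ)
        (IsLocalRing.ResidueField A) τ' = 1 := by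
      have h2 : MulSemiringAction.toRingAut (A.decompositionSubgroup ℚ)
          (IsLocalRing.ResidueField A) τ' = 1 := MonoidHom.mem_ker.mp hτ'
      exact h2
    have h3 := hequiv ((A.decompositionSubgroup ℚ).subtype τ') τ'.2 P
    rw [h3]
    have h4 : (⟨(A.decompositionSubgroup ℚ).subtype τ', τ'.2⟩ : A.decompositionSubgroup ℚ)
        = τ' := rfl
    rw [h4, h1, map_one, one_smul]
  · rintro σ ⟨hσD, hσx⟩ P
    have h1 : MulSemiringAction.toRingEquiv (A.decompositionSubgroup ℚ)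
        (IsLocalRing.ResidueField A) ⟨σ, hσD⟩ = φk := by
      ext y
      show (⟨σ, hσD⟩ : A.decompositionSubgroup ℚ) • y = φk y
      rw [hσx y, hφkx y]
    rw [hequiv σ hσD P, h1]

end Fermat.Agent.S37
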