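import Fermat.Agent.S37.PrincipalES49
import Fermat.Agent.S37.FrobL66
import Fermat.Agent.S37.KroneckerFrob50

/-!
# S37, row ES1 (helper49), part 2: the Eichler–Shimura relation on principal divisors in the
shape of `final13_Geo` (coefficient Frobenius `fr66_resGalois N φk`, `φk x = x ^ ℓ`)

* `es49_FR_resGalois` : the Frobenius package `es49_FR` for `Φp Q = fr66_resGalois N φk • Q`,
  `Φm Q = (fr66_resGalois N φk)⁻¹ • Q`, for every ring automorphism `φk` of `k` which is the
  `ℓ`-th power map (`k` of exponential characteristic `ℓ`).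
* `es49_KR_of_NC` : the Kronecker package `es49_KR` over `(Qbar, A, ResidueField A)` from the
  norm-conjugates identity (row NC) for the norm along `α` of `β f`.
* `es49_principal_resGalois` : row ES1 for principal divisors, with the right-hand side written
  with the `SemilinearAut` action on divisors.
* `es49_principal_modL` : the same over `(Qbar, A, ResidueField A)`, with the norm-conjugates
  identity as the only arithmetic hypothesis.
-/

set_option autoImplicit false
set_option linter.style.haveILetI false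

namespace Fermat.Agent.S37

open ModularCurve AlgebraicCurve

section Ord

variable {K F : Type*} [Field K] [Field F] [Algebra K F]

/-- `ord_Q (g • y) = ord_{g⁻¹ Q} y` for a semilinear automorphism `g`. -/
theorem es49_ord_smul (g : SemilinearAut K F) (Q : Place K F) (y : F) :
    Q.ord (g • y) = (g⁻¹ • Q).ord y := by
  have h := SemilinearAut.ord_smul g (g⁻¹ • Q) y
  rwa [smul_inv_smul] at h

/-- `ord_Q (g⁻¹ • y) = ord_{g Q} y` for a semilinear automorphism `g`. -/
theorem es49_ord_inv_smul (g : SemilinearAut K F) (Q : Place K F) (y : F) :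
    Q.ord (g⁻¹ • y) = (g • Q).ord y := by
  have h := SemilinearAut.ord_smul g⁻¹ (g • Q) y
  rwa [inv_smul_smul] at h

end Ord

section FR

variable (k : Type*) [Field k] (N ℓ : ℕ) [NeZero ℓ] [ExpChar k ℓ]

/-- For the `ℓ`-th power automorphism `φk` of `k` (exponential characteristic `ℓ`):
`(φk y)(q^ℓ) = y^ℓ`. -/
theorem es49_qExpand_coeffMap_pow (φk : k ≃+* k) (hφ : ∀ x, φk x = x ^ ℓ)
    (y : LaurentSeries k) :
    qExpand k ℓ (coeffMap (φk : k →+* k) y) = y ^ ℓ := by
  have h : (φk : k →+* k) = frobenius k ℓ := by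
    ext x
    rw [RingHom.coe_coe, hφ, frobenius_def]
  rw [h, ← kr50_pow_char]

variable {k ℓ}

/-- **Row FR in the shape of `es49_FR`**: `Φp = fr66_resGalois N φk • ·`,
`Φm = (fr66_resGalois N φk)⁻¹ • ·`. -/
theorem es49_FR_resGalois (φk : k ≃+* k) (hφ : ∀ x, φk x = x ^ ℓ) :
    es49_FR k N ℓ (fun Q => fr66_resGalois N φk • Q)
      (fun Q => (fr66_resGalois N φk)⁻¹ • Q) := by
  refine ⟨fun Q => inv_smul_smul _ Q, fun Q => smul_inv_smul _ Q, ?_, ?_⟩
  · intro z _
    refine ⟨((fr66_resGalois N φk)⁻¹ • z) ^ ℓ, ?_, ?_⟩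
    · have h1 : ((((fr66_resGalois N φk)⁻¹ • z) ^ ℓ : modularFunctionFieldFullC k N) :
          LaurentSeries k) = (coeffMap (φk.symm : k →+* k) (z : LaurentSeries k)) ^ ℓ := rfl
      rw [h1, ← es49_qExpand_coeffMap_pow k ℓ φk hφ, coeffMap_coeffMap]
      congr 1
      have h2 : ((φk : k →+* k).comp (φk.symm : k →+* k)) = RingHom.id k := by
        ext x
        simp
      rw [h2, coeffMap_id]
    · intro Q
      rw [← zpow_natCast, Place.ord_zpow, es49_ord_inv_smul]
  · intro z _
    refine ⟨fr66_resGalois N φk • z, ?_, ?_⟩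
    · rw [fr66_coe_resGalois_smul]
      exact es49_qExpand_coeffMap_pow k ℓ φk hφ _
    · intro Q
      exact es49_ord_smul (fr66_resGalois N φk) Q z

end FR

section ES

variable {L : Type*} [Field L] [Algebra ℚ L] {A : ValuationSubring L}
variable {k : Type*} [Field k] {π : A →+* k}
variable {N ℓ : ℕ} [NeZero N] [NeZero ℓ] [ExpChar k ℓ]

/-- **Row ES1 with the coefficient Frobenius.** For every principal divisor `D` of `F(N)_L`:
`r0_* (T_ℓ D) = φ • r0_* D + ℓ • (φ⁻¹ • r0_* D)`, `φ = fr66_resGalois N φk`. -/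
theorem es49_principal_resGalois
    {r0 : Place L (laurentBaseChange L (modularFunctionFieldFull N)) →
      Place k (modularFunctionFieldFullC k N)}
    (hr : IsPlaceReductionAlong A π N r0) (hgen : PrincipalGeneratedByIntegral A π N)
    (hα : HeckeAlphaBarIntegral L N ℓ) (hβ : HeckeBetaBarIntegral L N ℓ)
    [HasPrincipalDivisors L (laurentBaseChange L (modularFunctionFieldFull (N * ℓ)))]
    (hfin : FiniteAlong L (heckeAlphaBar L N ℓ))
    (hNF : NormFormulaAlong L (heckeAlphaBar L N ℓ) hfin)
    (hKR : es49_KR A π N ℓ)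
    (φk : k ≃+* k) (hφ : ∀ x, φk x = x ^ ℓ)
    {D : Divisor L (laurentBaseChange L (modularFunctionFieldFull N))}
    (hD : D ∈ Divisor.principal (K := L) (F := laurentBaseChange L (modularFunctionFieldFull N))) :
    Finsupp.mapDomain r0 (heckeDivBar hα hβ D) =
      fr66_resGalois N φk • Finsupp.mapDomain r0 D +
        ℓ • ((fr66_resGalois N φk)⁻¹ • Finsupp.mapDomain r0 D) :=
  es49_principal hr hgen hα hβ hfin hNF (es49_FR_resGalois N φk hφ) hKR hD

end ES

section ModL

set_option synthInstance.maxHeartbeats 400000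

local notation "Qbar" => AlgebraicClosure ℚ

variable {N ℓ : ℕ} [NeZero N] [NeZero ℓ]

/-- **Row KR + NC in the shape of `es49_KR`**: over `(Qbar, A, ResidueField A)`, `A` over the
prime `ℓ`, from the norm-conjugates identity for the norm along `α` of `β f`. -/
theorem es49_KR_of_NC (hl : ℓ.Prime) (A : ValuationSubring Qbar) (hA : A.LiesOverPrime ℓ)
    (hNC : ∀ f : modularFunctionFieldBar N,
      letI := algebraAlong (heckeAlphaBar Qbar N ℓ);
      ∃ ζ : Qbarˣ, ζ ^ ℓ = 1 ∧
        qExpand Qbar ℓ ((Algebra.norm (modularFunctionFieldBar N)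
            (heckeBetaBar Qbar N ℓ f) : modularFunctionFieldBar N) : LaurentSeries Qbar)
          = qExpand Qbar (ℓ * ℓ) (f : LaurentSeries Qbar) *
            ∏ i ∈ Finset.range ℓ, kr50_qTwist (ζ ^ i) (f : LaurentSeries Qbar)) :
    es49_KR A (IsLocalRing.residue A) N ℓ := by
  intro y hy
  letI := algebraAlong (heckeAlphaBar Qbar N ℓ)
  obtain ⟨ζ, hζ, h⟩ := hNC ⟨coeffMap A.subtype y, hy⟩
  exact kr50_core A hl hA y _ ζ hζ h

/-- **Row ES1 over `(Qbar, A, ResidueField A)`**, in the shape consumed by `final13_Geo`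
(clause 4 on principal divisors): the only arithmetic input left is the norm-conjugates
identity (row NC, norm along `α` of `β f`). -/
theorem es49_principal_modL (hl : ℓ.Prime) (A : ValuationSubring Qbar)
    (hA : A.LiesOverPrime ℓ)
    {r0 : Place Qbar (modularFunctionFieldBar N) →
      Place (IsLocalRing.ResidueField A)
        (modularFunctionFieldFullC (IsLocalRing.ResidueField A) N)}
    (hr : IsPlaceReductionModL A N r0)
    (hgen : PrincipalGeneratedByIntegral A (IsLocalRing.residue A) N)
    (hα : HeckeAlphaBarIntegral Qbar N ℓ) (hβ : HeckeBetaBarIntegral Qbar N ℓ)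
    [HasPrincipalDivisors Qbar (modularFunctionFieldBar (N * ℓ))]
    (hfin : FiniteAlong Qbar (heckeAlphaBar Qbar N ℓ))
    (hNF : NormFormulaAlong Qbar (heckeAlphaBar Qbar N ℓ) hfin)
    (hNC : ∀ f : modularFunctionFieldBar N,
      letI := algebraAlong (heckeAlphaBar Qbar N ℓ);
      ∃ ζ : Qbarˣ, ζ ^ ℓ = 1 ∧
        qExpand Qbar ℓ ((Algebra.norm (modularFunctionFieldBar N)
            (heckeBetaBar Qbar N ℓ f) : modularFunctionFieldBar N) : LaurentSeries Qbar)
          = qExpand Qbar (ℓ * ℓ) (f : LaurentSeries Qbar) *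
            ∏ i ∈ Finset.range ℓ, kr50_qTwist (ζ ^ i) (f : LaurentSeries Qbar))
    (φk : IsLocalRing.ResidueField A ≃+* IsLocalRing.ResidueField A)
    (hφ : ∀ x, φk x = x ^ ℓ)
    {D : Divisor Qbar (modularFunctionFieldBar N)}
    (hD : D ∈ Divisor.principal (K := Qbar) (F := modularFunctionFieldBar N)) :
    Finsupp.mapDomain r0 (heckeDivBar hα hβ D) =
      fr66_resGalois N φk • Finsupp.mapDomain r0 D +
        ℓ • ((fr66_resGalois N φk)⁻¹ • Finsupp.mapDomain r0 D) := by
  haveI : CharP (IsLocalRing.ResidueField A) ℓ := kr50_charP A hl hA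
  haveI : Fact ℓ.Prime := ⟨hl⟩
  haveI : ExpChar (IsLocalRing.ResidueField A) ℓ := ExpChar.prime hl
  exact es49_principal_resGalois hr hgen hα hβ hfin hNF (es49_KR_of_NC hl A hA hNC) φk hφ hD

end ModL

end Fermat.Agent.S37
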