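import Mathlib
import Fermat.Prelude.Def_ModularCurve_ReductionModL
import Fermat.Prelude.Def_ModularCurve_HeckeOperatorTotal

/-!
# S37, row ES1 (helper49): Eichler–Shimura on PRINCIPAL divisors

Abstract over the packages of the rows RC (place reduction `r0` + conservation), KR (Kronecker
congruence for the norm), FR (coefficient Frobenius on the special fibre), H (norm formula).

* `es49_KR`   : the Kronecker input, in the shape "norm along `α` of `β f`" (what `T_ℓ` needs).
* `es49_FR`   : the Frobenius input on `F_k`: two mutually inverse maps `Φp`, `Φm` on places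
  (`Φp Q = φ • Q`, `Φm Q = φ⁻¹ • Q`) with `ord_Q (z(q^ℓ)) = ℓ * ord_{Φp Q} z` and, for the
  Frobenius twist `z1` of `z` (`z1(q^ℓ) = z^ℓ`), `ord_Q z1 = ord_{Φm Q} z`.
* `es49_delta` : `δ = r0_* ∘ T_ℓ - (Φ_* + ℓ • Φ⁻¹_*) ∘ r0_*` as an additive map on divisors.
* `es49_delta_integral`, `es49_delta_principal` : `δ` kills (integral) principal divisors.
-/

set_option autoImplicit false
set_option linter.style.haveILetI false

namespace Fermat.Agent.S37

open ModularCurve AlgebraicCurve

section ES1

variable {L : Type*} [Field L] [Algebra ℚ L] (A : ValuationSubring L)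
variable {k : Type*} [Field k] (π : A →+* k)
variable (N ℓ : ℕ) [NeZero N] [NeZero ℓ]

/-- **Kronecker input** (rows KR + AL): for every `A`-integral series `y` in `F(N)_L`, the norm
along `α` of `β y` is `A`-integral, with reduction `ḡ` satisfying
`ḡ(q^ℓ) = ȳ(q^(ℓ²)) * ȳ(q)^ℓ`. -/
def es49_KR : Prop :=
  ∀ (y : LaurentSeries A)
    (hy : coeffMap A.subtype y ∈ laurentBaseChange L (modularFunctionFieldFull N)),
    ∃ y' : LaurentSeries A,
      coeffMap A.subtype y' =
        (((letI := algebraAlong (heckeAlphaBar L N ℓ)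
           Algebra.norm (laurentBaseChange L (modularFunctionFieldFull N))
            (heckeBetaBar L N ℓ ⟨coeffMap A.subtype y, hy⟩)) :
            laurentBaseChange L (modularFunctionFieldFull N)) : LaurentSeries L) ∧
      qExpand k ℓ (coeffMap π y') = qExpand k (ℓ * ℓ) (coeffMap π y) * (coeffMap π y) ^ ℓ

variable (k) in
/-- **Frobenius input** (row FR) on the special fibre `F_k = modularFunctionFieldFullC k N`. -/
def es49_FR (Φp Φm : Place k (modularFunctionFieldFullC k N) →
    Place k (modularFunctionFieldFullC k N)) : Prop :=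
  Function.LeftInverse Φm Φp ∧ Function.RightInverse Φm Φp ∧
  (∀ z : modularFunctionFieldFullC k N, z ≠ 0 →
    ∃ w : modularFunctionFieldFullC k N,
      (w : LaurentSeries k) = qExpand k ℓ (z : LaurentSeries k) ∧
      ∀ Q : Place k (modularFunctionFieldFullC k N), Q.ord w = (ℓ : ℤ) * (Φp Q).ord z) ∧
  (∀ z : modularFunctionFieldFullC k N, z ≠ 0 →
    ∃ z1 : modularFunctionFieldFullC k N,
      qExpand k ℓ (z1 : LaurentSeries k) = (z : LaurentSeries k) ^ ℓ ∧
      ∀ Q : Place k (modularFunctionFieldFullC k N), Q.ord z1 = (Φm Q).ord z)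

/-- `mapDomain` along a bijection, evaluated through the inverse. -/
theorem es49_mapDomain_apply_of_inverse {α : Type*} {f g : α → α}
    (hgf : Function.LeftInverse g f) (hfg : Function.RightInverse g f) (E : α →₀ ℤ) (a : α) :
    Finsupp.mapDomain f E a = E (g a) := by
  have h : Finsupp.mapDomain f E (f (g a)) = E (g a) :=
    Finsupp.mapDomain_apply hgf.injective E (g a)
  rwa [hfg a] at h

variable {A π N ℓ}

/-- `T_ℓ (div f) = div (Norm_α (β f))`: the Hecke correspondence on a principal divisor. -/
theorem es49_heckeDivBar_principal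
    (hα : HeckeAlphaBarIntegral L N ℓ) (hβ : HeckeBetaBarIntegral L N ℓ)
    [HasPrincipalDivisors L (laurentBaseChange L (modularFunctionFieldFull (N * ℓ)))]
    (hfin : FiniteAlong L (heckeAlphaBar L N ℓ))
    (hNF : NormFormulaAlong L (heckeAlphaBar L N ℓ) hfin)
    {f : laurentBaseChange L (modularFunctionFieldFull N)} (hf : f ≠ 0)
    {D : Divisor L (laurentBaseChange L (modularFunctionFieldFull N))}
    (hD : ∀ P, D P = P.ord f) (P : Place L (laurentBaseChange L (modularFunctionFieldFull N))) :
    heckeDivBar hα hβ D P =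
      P.ord (letI := algebraAlong (heckeAlphaBar L N ℓ)
        Algebra.norm (laurentBaseChange L (modularFunctionFieldFull N))
          (heckeBetaBar L N ℓ f)) := by
  have hpull : ∀ w : Place L (laurentBaseChange L (modularFunctionFieldFull (N * ℓ))),
      Divisor.pullbackAlong (heckeBetaBar L N ℓ) hβ D w = w.ord (heckeBetaBar L N ℓ f) := by
    intro w
    have h1 := Divisor.pullbackAlong_apply (heckeBetaBar L N ℓ) hβ D w
    have h2 := Place.ord_restrictAlong (heckeBetaBar L N ℓ) hβ w f
    rw [hD] at h1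
    exact h1.trans h2.symm
  have hβf : heckeBetaBar L N ℓ f ≠ 0 := by
    intro h0
    exact hf ((map_eq_zero_iff _ (heckeBetaBar L N ℓ).toRingHom.injective).mp h0)
  letI := algebraAlong (heckeAlphaBar L N ℓ)
  haveI := isScalarTower_along (heckeAlphaBar L N ℓ)
  haveI := isIntegral_along (heckeAlphaBar L N ℓ) hα
  haveI : Module.Finite (laurentBaseChange L (modularFunctionFieldFull N))
      (laurentBaseChange L (modularFunctionFieldFull (N * ℓ))) := hfin
  exact hNF (heckeBetaBar L N ℓ f) hβf _ hpull P

/-- **ES on integral principal divisors, pointwise form.** -/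
theorem es49_integral
    {r0 : Place L (laurentBaseChange L (modularFunctionFieldFull N)) →
      Place k (modularFunctionFieldFullC k N)}
    (hr : IsPlaceReductionAlong A π N r0)
    (hα : HeckeAlphaBarIntegral L N ℓ) (hβ : HeckeBetaBarIntegral L N ℓ)
    [HasPrincipalDivisors L (laurentBaseChange L (modularFunctionFieldFull (N * ℓ)))]
    (hfin : FiniteAlong L (heckeAlphaBar L N ℓ))
    (hNF : NormFormulaAlong L (heckeAlphaBar L N ℓ) hfin)
    {Φp Φm : Place k (modularFunctionFieldFullC k N) → Place k (modularFunctionFieldFullC k N)}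
    (hFR : es49_FR k N ℓ Φp Φm) (hKR : es49_KR A π N ℓ)
    {D : Divisor L (laurentBaseChange L (modularFunctionFieldFull N))}
    (hD : D ∈ integralPrincipalDivisors A π N) :
    Finsupp.mapDomain r0 (heckeDivBar hα hβ D) =
      Finsupp.mapDomain Φp (Finsupp.mapDomain r0 D) +
        ℓ • Finsupp.mapDomain Φm (Finsupp.mapDomain r0 D) := by
  obtain ⟨hΦ1, hΦ2, hFR1, hFR2⟩ := hFR
  obtain ⟨y, hy, hyk, hne, hDy⟩ := hD
  -- the function `f` and its reduction `z`
  have hf : (⟨coeffMap A.subtype y, hy⟩ : laurentBaseChange L (modularFunctionFieldFull N)) ≠ 0 := by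
    intro h0
    apply hne
    have h1 : coeffMap A.subtype y = 0 := congrArg Subtype.val h0
    have h2 : y = 0 := by
      ext n
      have h3 := congrArg (fun s : LaurentSeries L => s.coeff n) h1
      simpa [coeffMap_coeff] using h3
    rw [h2, map_zero]
  have hz : (⟨coeffMap π y, hyk⟩ : modularFunctionFieldFullC k N) ≠ 0 := fun h0 =>
    hne (congrArg Subtype.val h0)
  -- Kronecker
  obtain ⟨y', hy'eq, hy'red⟩ := hKR y hy
  have hy' : coeffMap A.subtype y' ∈ laurentBaseChange L (modularFunctionFieldFull N) := by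
    rw [hy'eq]
    exact Subtype.property _
  -- Frobenius
  obtain ⟨w, hw, hword⟩ := hFR1 _ hz
  obtain ⟨z1, hz1, hz1ord⟩ := hFR2 _ hz
  have hprod : coeffMap π y' = ((w * z1 : modularFunctionFieldFullC k N) : LaurentSeries k) := by
    apply qExpand_injective (R := k) ℓ
    rw [hy'red]
    push_cast
    rw [map_mul, hz1, hw, qExpand_qExpand]
  have hyk' : coeffMap π y' ∈ modularFunctionFieldFullC k N := by
    rw [hprod]
    exact Subtype.property _
  have hw0 : w ≠ 0 := by
    intro h0
    apply hne
    have h1 : qExpand k ℓ (coeffMap π y) = 0 := by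
      have := hw
      rw [h0] at this
      exact this.symm
    exact (map_eq_zero_iff _ (qExpand_injective (R := k) ℓ)).mp h1
  have hz10 : z1 ≠ 0 := by
    intro h0
    rw [h0] at hz1
    have h1 : (coeffMap π y) ^ ℓ = 0 := by
      rw [← hz1]
      simp
    exact hne (pow_eq_zero_iff (NeZero.ne ℓ) |>.mp h1)
  have hne' : coeffMap π y' ≠ 0 := by
    rw [hprod]
    intro h0
    exact mul_ne_zero hw0 hz10 (Subtype.ext h0)
  -- divisor of the norm
  have hTD : ∀ P, heckeDivBar hα hβ D P =
      P.ord (⟨coeffMap A.subtype y', hy'⟩ : laurentBaseChange L (modularFunctionFieldFull N)) := by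
    intro P
    rw [es49_heckeDivBar_principal hα hβ hfin hNF hf hDy P]
    congr 1
    exact Subtype.ext hy'eq.symm
  ext Q
  have e1 : Finsupp.mapDomain r0 (heckeDivBar hα hβ D) Q =
      Q.ord (⟨coeffMap π y', hyk'⟩ : modularFunctionFieldFullC k N) :=
    hr.2 y' hy' hyk' hne' _ hTD Q
  have e2 : (⟨coeffMap π y', hyk'⟩ : modularFunctionFieldFullC k N) = w * z1 := Subtype.ext hprod
  have e3 : Finsupp.mapDomain r0 D (Φm Q) =
      (Φm Q).ord (⟨coeffMap π y, hyk⟩ : modularFunctionFieldFullC k N) :=
    hr.2 y hy hyk hne D hDy (Φm Q)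
  have e4 : Finsupp.mapDomain r0 D (Φp Q) =
      (Φp Q).ord (⟨coeffMap π y, hyk⟩ : modularFunctionFieldFullC k N) :=
    hr.2 y hy hyk hne D hDy (Φp Q)
  rw [e1, e2, Q.ord_mul hw0 hz10, hword Q, hz1ord Q, Finsupp.add_apply, Finsupp.smul_apply,
    es49_mapDomain_apply_of_inverse hΦ1 hΦ2, es49_mapDomain_apply_of_inverse hΦ2 hΦ1, e3, e4,
    nsmul_eq_mul]
  ring

variable (N ℓ) in
/-- The defect `δ = r0_* ∘ T_ℓ - (Φ_* + ℓ • Φ⁻¹_*) ∘ r0_*` of the Eichler–Shimura relation on
divisors (`Φ_* = mapDomain Φp`, `Φ⁻¹_* = mapDomain Φm`). -/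
noncomputable def es49_delta
    (r0 : Place L (laurentBaseChange L (modularFunctionFieldFull N)) →
      Place k (modularFunctionFieldFullC k N))
    (hα : HeckeAlphaBarIntegral L N ℓ) (hβ : HeckeBetaBarIntegral L N ℓ)
    [HasPrincipalDivisors L (laurentBaseChange L (modularFunctionFieldFull (N * ℓ)))]
    (Φp Φm : Place k (modularFunctionFieldFullC k N) → Place k (modularFunctionFieldFullC k N)) :
    Divisor L (laurentBaseChange L (modularFunctionFieldFull N)) →+
      Divisor k (modularFunctionFieldFullC k N) :=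
  (Finsupp.mapDomain.addMonoidHom r0).comp (heckeDivBar hα hβ) -
    ((Finsupp.mapDomain.addMonoidHom Φp + ℓ • Finsupp.mapDomain.addMonoidHom Φm).comp
      (Finsupp.mapDomain.addMonoidHom r0))

theorem es49_delta_apply
    (r0 : Place L (laurentBaseChange L (modularFunctionFieldFull N)) →
      Place k (modularFunctionFieldFullC k N))
    (hα : HeckeAlphaBarIntegral L N ℓ) (hβ : HeckeBetaBarIntegral L N ℓ)
    [HasPrincipalDivisors L (laurentBaseChange L (modularFunctionFieldFull (N * ℓ)))]
    (Φp Φm : Place k (modularFunctionFieldFullC k N) → Place k (modularFunctionFieldFullC k N))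
    (D : Divisor L (laurentBaseChange L (modularFunctionFieldFull N))) :
    es49_delta N ℓ r0 hα hβ Φp Φm D =
      Finsupp.mapDomain r0 (heckeDivBar hα hβ D) -
        (Finsupp.mapDomain Φp (Finsupp.mapDomain r0 D) +
          ℓ • Finsupp.mapDomain Φm (Finsupp.mapDomain r0 D)) :=
  rfl

theorem es49_delta_eq_zero_iff
    (r0 : Place L (laurentBaseChange L (modularFunctionFieldFull N)) →
      Place k (modularFunctionFieldFullC k N))
    (hα : HeckeAlphaBarIntegral L N ℓ) (hβ : HeckeBetaBarIntegral L N ℓ)
    [HasPrincipalDivisors L (laurentBaseChange L (modularFunctionFieldFull (N * ℓ)))]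
    (Φp Φm : Place k (modularFunctionFieldFullC k N) → Place k (modularFunctionFieldFullC k N))
    (D : Divisor L (laurentBaseChange L (modularFunctionFieldFull N))) :
    es49_delta N ℓ r0 hα hβ Φp Φm D = 0 ↔
      Finsupp.mapDomain r0 (heckeDivBar hα hβ D) =
        Finsupp.mapDomain Φp (Finsupp.mapDomain r0 D) +
          ℓ • Finsupp.mapDomain Φm (Finsupp.mapDomain r0 D) := by
  rw [es49_delta_apply, sub_eq_zero]

/-- `δ` kills integral principal divisors. -/
theorem es49_delta_integral
    {r0 : Place L (laurentBaseChange L (modularFunctionFieldFull N)) →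
      Place k (modularFunctionFieldFullC k N)}
    (hr : IsPlaceReductionAlong A π N r0)
    (hα : HeckeAlphaBarIntegral L N ℓ) (hβ : HeckeBetaBarIntegral L N ℓ)
    [HasPrincipalDivisors L (laurentBaseChange L (modularFunctionFieldFull (N * ℓ)))]
    (hfin : FiniteAlong L (heckeAlphaBar L N ℓ))
    (hNF : NormFormulaAlong L (heckeAlphaBar L N ℓ) hfin)
    {Φp Φm : Place k (modularFunctionFieldFullC k N) → Place k (modularFunctionFieldFullC k N)}
    (hFR : es49_FR k N ℓ Φp Φm) (hKR : es49_KR A π N ℓ)
    {D : Divisor L (laurentBaseChange L (modularFunctionFieldFull N))}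
    (hD : D ∈ integralPrincipalDivisors A π N) :
    es49_delta N ℓ r0 hα hβ Φp Φm D = 0 :=
  (es49_delta_eq_zero_iff r0 hα hβ Φp Φm D).mpr (es49_integral hr hα hβ hfin hNF hFR hKR hD)

/-- **Row ES1.** `δ` kills every principal divisor: for `f ≠ 0` in `F(N)_L`,
`r0_* (T_ℓ (div f)) = Φ_* (r0_* div f) + ℓ • Φ⁻¹_* (r0_* div f)`. -/
theorem es49_delta_principal
    {r0 : Place L (laurentBaseChange L (modularFunctionFieldFull N)) →
      Place k (modularFunctionFieldFullC k N)}
    (hr : IsPlaceReductionAlong A π N r0) (hgen : PrincipalGeneratedByIntegral A π N)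
    (hα : HeckeAlphaBarIntegral L N ℓ) (hβ : HeckeBetaBarIntegral L N ℓ)
    [HasPrincipalDivisors L (laurentBaseChange L (modularFunctionFieldFull (N * ℓ)))]
    (hfin : FiniteAlong L (heckeAlphaBar L N ℓ))
    (hNF : NormFormulaAlong L (heckeAlphaBar L N ℓ) hfin)
    {Φp Φm : Place k (modularFunctionFieldFullC k N) → Place k (modularFunctionFieldFullC k N)}
    (hFR : es49_FR k N ℓ Φp Φm) (hKR : es49_KR A π N ℓ)
    {D : Divisor L (laurentBaseChange L (modularFunctionFieldFull N))}
    (hD : D ∈ Divisor.principal (K := L) (F := laurentBaseChange L (modularFunctionFieldFull N))) :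
    es49_delta N ℓ r0 hα hβ Φp Φm D = 0 := by
  have hD' := hgen hD
  clear hD
  induction hD' using AddSubgroup.closure_induction with
  | mem E hE => exact es49_delta_integral hr hα hβ hfin hNF hFR hKR hE
  | zero => exact map_zero _
  | add E E' _ _ hE hE' => rw [map_add, hE, hE', add_zero]
  | neg E _ hE => rw [map_neg, hE, neg_zero]

/-- Row ES1 in equation form. -/
theorem es49_principal
    {r0 : Place L (laurentBaseChange L (modularFunctionFieldFull N)) →
      Place k (modularFunctionFieldFullC k N)}
    (hr : IsPlaceReductionAlong A π N r0) (hgen : PrincipalGeneratedByIntegral A π N)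
    (hα : HeckeAlphaBarIntegral L N ℓ) (hβ : HeckeBetaBarIntegral L N ℓ)
    [HasPrincipalDivisors L (laurentBaseChange L (modularFunctionFieldFull (N * ℓ)))]
    (hfin : FiniteAlong L (heckeAlphaBar L N ℓ))
    (hNF : NormFormulaAlong L (heckeAlphaBar L N ℓ) hfin)
    {Φp Φm : Place k (modularFunctionFieldFullC k N) → Place k (modularFunctionFieldFullC k N)}
    (hFR : es49_FR k N ℓ Φp Φm) (hKR : es49_KR A π N ℓ)
    {D : Divisor L (laurentBaseChange L (modularFunctionFieldFull N))}
    (hD : D ∈ Divisor.principal (K := L) (F := laurentBaseChange L (modularFunctionFieldFull N))) :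
    Finsupp.mapDomain r0 (heckeDivBar hα hβ D) =
      Finsupp.mapDomain Φp (Finsupp.mapDomain r0 D) +
        ℓ • Finsupp.mapDomain Φm (Finsupp.mapDomain r0 D) :=
  (es49_delta_eq_zero_iff r0 hα hβ Φp Φm D).mp
    (es49_delta_principal hr hgen hα hβ hfin hNF hFR hKR hD)

/-- The Kronecker input from row KR's shape (norm along `β` of `α y`) and the Atkin–Lehner
symmetry of the norm (row AL: `Norm_β (α f) = Norm_α (β f)`). -/
theorem es49_KR_of_symm
    (hsymm : ∀ f : laurentBaseChange L (modularFunctionFieldFull N),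
      (letI := algebraAlong (heckeBetaBar L N ℓ);
        Algebra.norm (laurentBaseChange L (modularFunctionFieldFull N))
          (heckeAlphaBar L N ℓ f)) =
      (letI := algebraAlong (heckeAlphaBar L N ℓ);
        Algebra.norm (laurentBaseChange L (modularFunctionFieldFull N))
          (heckeBetaBar L N ℓ f)))
    (hkr : ∀ (y : LaurentSeries A)
      (hy : coeffMap A.subtype y ∈ laurentBaseChange L (modularFunctionFieldFull N)),
      ∃ y' : LaurentSeries A,
        coeffMap A.subtype y' =
          (((letI := algebraAlong (heckeBetaBar L N ℓ);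
             Algebra.norm (laurentBaseChange L (modularFunctionFieldFull N))
              (heckeAlphaBar L N ℓ ⟨coeffMap A.subtype y, hy⟩)) :
              laurentBaseChange L (modularFunctionFieldFull N)) : LaurentSeries L) ∧
        qExpand k ℓ (coeffMap π y') = qExpand k (ℓ * ℓ) (coeffMap π y) * (coeffMap π y) ^ ℓ) :
    es49_KR A π N ℓ := by
  intro y hy
  obtain ⟨y', h1, h2⟩ := hkr y hy
  exact ⟨y', (by rw [h1, hsymm]), h2⟩

end ES1

end Fermat.Agent.S37
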