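import Fermat.Agent.S37.FrobL66
import Fermat.Agent.S37.PrincipalES49

/-!
# S37: adapter FR → ES1 (helper66)

`es49_FR` (the Frobenius input of helper49's `PrincipalES49`) for the coefficient Frobenius of
`FrobL66`, in two shapes:

* `fr66_es49_FR`        : for `fr66_phi k N ℓ` (`k` perfect of exponential characteristic `ℓ`);
* `fr66_es49_FR_of_pow` : for `fr66_resGalois N φk`, `φk : k ≃+* k` ANY ring automorphism with
  `φk x = x ^ ℓ` — literally the maps `Φp Q = fr66_resGalois N φk • Q`,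
  `Φm Q = (fr66_resGalois N φk)⁻¹ • Q` of `final13_Geo` (helper13's `Final13`).

Also `fr66_resGalois_eq_phi` (such a `φk` gives `fr66_phi`), `fr66_perfectRing_of_pow`, and the
residue-field instances at a valuation subring over `ℓ`.
-/

set_option autoImplicit false
set_option linter.style.haveILetI false

namespace Fermat.Agent.S37

open AlgebraicCurve ModularCurve

section Adapter

variable (k : Type*) [Field k] (N : ℕ) (ℓ : ℕ)

/-- **FR → ES1.** The coefficient Frobenius `φ = fr66_phi k N ℓ` satisfies `es49_FR` with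
`Φp Q = φ • Q`, `Φm Q = φ⁻¹ • Q`. -/
theorem fr66_es49_FR [NeZero ℓ] [ExpChar k ℓ] [PerfectRing k ℓ] :
    es49_FR k N ℓ (fun Q => fr66_phi k N ℓ • Q) (fun Q => (fr66_phi k N ℓ)⁻¹ • Q) := by
  refine ⟨fun Q => inv_smul_smul _ Q, fun Q => smul_inv_smul _ Q, ?_, ?_⟩
  · intro z _
    exact ⟨fr66_V k N ℓ z, rfl, fun Q => fr66_ord_V k N ℓ Q z⟩
  · intro z _
    exact ⟨fr66_phi k N ℓ • z, fr66_qExpand_phi_smul k N ℓ z,
      fun Q => fr66_ord_phi_smul k N ℓ Q z⟩

/-- A field with a ring automorphism `x ↦ x ^ ℓ` is perfect (for `ℓ`). -/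
theorem fr66_perfectRing_of_pow [ExpChar k ℓ] (φk : k ≃+* k) (hφ : ∀ x, φk x = x ^ ℓ) :
    PerfectRing k ℓ := by
  refine PerfectRing.ofSurjective k ℓ ?_
  intro y
  obtain ⟨x, hx⟩ := φk.surjective y
  exact ⟨x, by rw [frobenius_def, ← hφ, hx]⟩

/-- A ring automorphism `φk` with `φk x = x ^ ℓ` is the Frobenius equivalence. -/
theorem fr66_eq_frobeniusEquiv_of_pow [ExpChar k ℓ] [PerfectRing k ℓ] (φk : k ≃+* k)
    (hφ : ∀ x, φk x = x ^ ℓ) : φk = frobeniusEquiv k ℓ := by
  ext x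
  rw [hφ, frobeniusEquiv_apply, frobenius_def]

/-- For `φk x = x ^ ℓ`: `fr66_resGalois N φk = fr66_phi k N ℓ`. -/
theorem fr66_resGalois_eq_phi [ExpChar k ℓ] [PerfectRing k ℓ] (φk : k ≃+* k)
    (hφ : ∀ x, φk x = x ^ ℓ) : fr66_resGalois N φk = fr66_phi k N ℓ := by
  rw [fr66_eq_frobeniusEquiv_of_pow k ℓ φk hφ]
  rfl

/-- **FR → ES1, `Final13` shape.** For ANY ring automorphism `φk` of `k` with `φk x = x ^ ℓ`
(`k` of exponential characteristic `ℓ`), `φ = fr66_resGalois N φk` satisfies `es49_FR` with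
`Φp Q = φ • Q`, `Φm Q = φ⁻¹ • Q`. -/
theorem fr66_es49_FR_of_pow [NeZero ℓ] [ExpChar k ℓ] (φk : k ≃+* k) (hφ : ∀ x, φk x = x ^ ℓ) :
    es49_FR k N ℓ (fun Q => fr66_resGalois N φk • Q)
      (fun Q => (fr66_resGalois N φk)⁻¹ • Q) := by
  haveI : PerfectRing k ℓ := fr66_perfectRing_of_pow k ℓ φk hφ
  rw [fr66_resGalois_eq_phi k N ℓ φk hφ]
  exact fr66_es49_FR k N ℓ

end Adapter

section Residue

variable {L : Type*} [Field L]

/-- The residue field of a valuation subring lying over the prime `ℓ` has characteristic `ℓ`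
(`hA` is the unfolded `A.LiesOverPrime ℓ` of the Prelude, so that term can be passed as is). -/
theorem fr66_charP_residue (A : ValuationSubring L) {ℓ : ℕ} (hℓ : ℓ.Prime)
    (hA : (ℓ : L) ∈ A.nonunits) : CharP (IsLocalRing.ResidueField A) ℓ := by
  have hl0 : ((ℓ : ℕ) : IsLocalRing.ResidueField A) = 0 := by
    have h1 : ((ℓ : A) : L) ∈ A.nonunits := by simpa using hA
    have h2 : (ℓ : A) ∈ IsLocalRing.maximalIdeal A :=
      ValuationSubring.coe_mem_nonunits_iff.mp h1
    have h3 := (IsLocalRing.residue_eq_zero_iff (ℓ : A)).mpr h2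
    simpa using h3
  exact (CharP.charP_iff_prime_eq_zero hℓ).mpr hl0

/-- `ExpChar` form. -/
theorem fr66_expChar_residue (A : ValuationSubring L) {ℓ : ℕ} (hℓ : ℓ.Prime)
    (hA : (ℓ : L) ∈ A.nonunits) : ExpChar (IsLocalRing.ResidueField A) ℓ := by
  haveI := fr66_charP_residue A hℓ hA
  exact ExpChar.prime hℓ

/-- **The `es49_FR` input of ES1 in the exact setting of `final13_Geo`**: `A` a valuation subring
over the prime `ℓ`, `φk` an automorphism of its residue field with `φk x = x ^ ℓ`. -/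
theorem fr66_es49_FR_residue (A : ValuationSubring L) (N : ℕ) {ℓ : ℕ} [NeZero ℓ] (hℓ : ℓ.Prime)
    (hA : (ℓ : L) ∈ A.nonunits)
    (φk : IsLocalRing.ResidueField A ≃+* IsLocalRing.ResidueField A)
    (hφ : ∀ x, φk x = x ^ ℓ) :
    es49_FR (IsLocalRing.ResidueField A) N ℓ (fun Q => fr66_resGalois N φk • Q)
      (fun Q => (fr66_resGalois N φk)⁻¹ • Q) := by
  haveI := fr66_expChar_residue A hℓ hA
  exact fr66_es49_FR_of_pow (IsLocalRing.ResidueField A) N ℓ φk hφ

end Residue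

section SingleShape

/-- The right-hand side of ES1 (`es49_principal`) at a single place is the right-hand side of
`final13_Geo`: `Φp_* r0_* [P] + ℓ • Φm_* r0_* [P] = [Φp (r0 P)] + ℓ [Φm (r0 P)]`. -/
theorem fr66_single_shape {α β : Type*} (r0 : α → β) (Φp Φm : β → β) (ℓ : ℕ) (P : α) :
    Finsupp.mapDomain Φp (Finsupp.mapDomain r0 (Finsupp.single P (1 : ℤ)))
        + ℓ • Finsupp.mapDomain Φm (Finsupp.mapDomain r0 (Finsupp.single P (1 : ℤ)))
      = Finsupp.single (Φp (r0 P)) 1 + Finsupp.single (Φm (r0 P)) (ℓ : ℤ) := by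
  rw [Finsupp.mapDomain_single, Finsupp.mapDomain_single, Finsupp.mapDomain_single,
    Finsupp.smul_single, nsmul_eq_mul, mul_one]

end SingleShape

end Fermat.Agent.S37
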