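import Fermat.Agent.S18.RedMap90

/-!
# S37, row GA (helper41): the Gauss package over a (non-discrete) valuation ring, part 1

`A` a valuation subring of a field `L` with residue field `k`, `N` with `(N : k) ≠ 0`.
`F_L = L(j(q^d) : d ∣ N) ⊆ L((q))`, `F_k = k(j(q^d) : d ∣ N) ⊆ k((q))`.

Everything comes from helper90's `vs_exists_independent` (a family of `ψ(N)` integral polynomial
expressions in the `j(q^d)` independent over `k(j)`) and `vs_card_le` (degree bound over `L`), by
scaling FINITELY many polynomial coefficients; no discreteness of the valuation and no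
noetherian hypothesis is used.

* `ga41_scale`: scaling a finite family of polynomials over `L`.
* `ga41_indep_res`, `ga41_indep`: the family is independent over `k(j)` and over `L(j)`
  (polynomial form).
* `ga41_span`: it spans `F_L` over `L(j)` (polynomial form).
* `ga41_red_mem`: an `A`-integral series of `F_L` reduces into `F_k`.
* `ga41_HF`: every nonzero `f ∈ F_L` is `c · a / b` with `a, b` integral series of `F_L` whose
  reductions are nonzero elements of `F_k`.
-/

set_option autoImplicit false
set_option synthInstance.maxHeartbeats 400000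

open ModularCurve IntermediateField

namespace Fermat.Agent.S37

open Fermat.Agent.S18 Fermat.Agent.S28

/-- Scaling a finite family of polynomials over the fraction field of a valuation ring:
a nonzero family is `c` times a family over `A` one of whose members has nonzero reduction. -/
theorem ga41_scale {L : Type*} [Field L] (A : ValuationSubring L) {ι : Type*} [Fintype ι]
    (p : ι → Polynomial L) (hp : ∃ i, p i ≠ 0) :
    ∃ (c : L) (p' : ι → Polynomial A), c ≠ 0 ∧
      (∀ i, p i = Polynomial.C c * (p' i).map A.subtype) ∧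
      ∃ i, (p' i).map (IsLocalRing.residue A) ≠ 0 := by
  classical
  obtain ⟨i₀, hi₀⟩ := hp
  set T : Finset (Σ _ : ι, ℕ) := Finset.univ.sigma (fun i => (p i).support) with hT
  have hTne : T.Nonempty := by
    obtain ⟨m, hm⟩ := Polynomial.support_nonempty.mpr hi₀
    exact ⟨⟨i₀, m⟩, Finset.mem_sigma.mpr ⟨Finset.mem_univ _, hm⟩⟩
  obtain ⟨x₀, hx₀T, hx₀⟩ :=
    Finset.exists_max_image T (fun x => A.valuation ((p x.1).coeff x.2)) hTne
  set c := (p x₀.1).coeff x₀.2 with hc
  have hc0 : c ≠ 0 := Polynomial.mem_support_iff.mp (Finset.mem_sigma.mp hx₀T).2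
  have hvc : 0 < A.valuation c := zero_lt_iff.mpr ((Valuation.ne_zero_iff _).mpr hc0)
  have hmem : ∀ i m, (p i).coeff m / c ∈ A := by
    intro i m
    by_cases h0 : (p i).coeff m = 0
    · rw [h0, zero_div]; exact A.zero_mem
    · have hx : (⟨i, m⟩ : Σ _ : ι, ℕ) ∈ T :=
        Finset.mem_sigma.mpr ⟨Finset.mem_univ _, Polynomial.mem_support_iff.mpr h0⟩
      have hle := hx₀ ⟨i, m⟩ hx
      rw [← A.valuation_le_one_iff, map_div₀]
      exact (div_le_one₀ hvc).mpr hle
  have hlift : ∀ i, Polynomial.C c⁻¹ * p i ∈ Polynomial.lifts A.subtype := by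
    intro i
    rw [Polynomial.lifts_iff_coeff_lifts]
    intro m
    rw [Polynomial.coeff_C_mul]
    exact ⟨⟨(p i).coeff m / c, hmem i m⟩, by simp [div_eq_inv_mul]⟩
  choose p' hp' using fun i => (Polynomial.mem_lifts _).mp (hlift i)
  refine ⟨c, p', hc0, fun i => ?_, x₀.1, ?_⟩
  · rw [hp' i, ← mul_assoc, ← Polynomial.C_mul, mul_inv_cancel₀ hc0, Polynomial.C_1, one_mul]
  · intro h0
    have h1 := congrArg (fun q => q.coeff x₀.2) h0
    simp only [Polynomial.coeff_map, Polynomial.coeff_zero] at h1
    have h2 : ((p' x₀.1).coeff x₀.2 : L) = 1 := by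
      have h := congrArg (fun q => q.coeff x₀.2) (hp' x₀.1)
      simp only [Polynomial.coeff_map, Polynomial.coeff_C_mul] at h
      have h' : ((p' x₀.1).coeff x₀.2 : L) = c⁻¹ * c := h
      rw [h', inv_mul_cancel₀ hc0]
    have h3 : (p' x₀.1).coeff x₀.2 = 1 := Subtype.ext h2
    rw [h3, map_one] at h1
    exact one_ne_zero h1

/-- Clearing denominators of finitely many elements of a simple extension. -/
theorem ga41_clear {K E : Type*} [Field K] [Field E] [Algebra K E] (j : E) {ι : Type*}
    [Fintype ι] (g : ι → K⟮j⟯) :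
    ∃ (S : Polynomial K) (G : ι → Polynomial K), Polynomial.aeval j S ≠ 0 ∧
      ∀ i, (g i : E) * Polynomial.aeval j S = Polynomial.aeval j (G i) := by
  classical
  have h1 : ∀ i, ∃ r s : Polynomial K, Polynomial.aeval j s ≠ 0 ∧
      (g i : E) * Polynomial.aeval j s = Polynomial.aeval j r := by
    intro i
    obtain ⟨r, s, hrs⟩ := (IntermediateField.mem_adjoin_simple_iff K (g i : E)).mp (g i).2
    by_cases hs : Polynomial.aeval j s = 0
    · refine ⟨0, 1, by rw [map_one]; exact one_ne_zero, ?_⟩
      rw [hrs, hs, div_zero, zero_mul, map_zero]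
    · exact ⟨r, s, hs, by rw [hrs, div_mul_cancel₀ _ hs]⟩
  choose r s hs hrs using h1
  refine ⟨∏ i, s i, fun i => r i * ∏ k ∈ Finset.univ.erase i, s k, ?_, fun i => ?_⟩
  · rw [map_prod]
    exact Finset.prod_ne_zero_iff.mpr fun i _ => hs i
  · rw [← Finset.mul_prod_erase Finset.univ s (Finset.mem_univ i), map_mul, map_mul, ← mul_assoc,
      hrs i]

section Core

variable {L : Type} [Field L] (A : ValuationSubring L) (N : ℕ) [NeZero N]

/-- The value over `R` of a `R[j]`-combination of integral polynomial expressions in the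
`j(q^d)`, `d ∣ N`. -/
noncomputable def ga41_comb (R : Type*) [CommRing R] {n : ℕ}
    (b : Fin n → MvPolynomial N.divisors ℤ) (p : Fin n → Polynomial R) : LaurentSeries R :=
  ∑ i, Polynomial.aeval (jqModC R) (p i) *
    MvPolynomial.eval₂ (Int.castRingHom (LaurentSeries R)) (fun d : N.divisors => JdC R d.1) (b i)

omit [NeZero N] in
theorem ga41_coeffMap_comb {R S : Type*} [CommRing R] [CommRing S] (f : R →+* S) {n : ℕ}
    (b : Fin n → MvPolynomial N.divisors ℤ) (p : Fin n → Polynomial R) :
    coeffMap f (ga41_comb N R b p) = ga41_comb N S b (fun i => (p i).map f) := by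
  unfold ga41_comb
  rw [map_sum]
  refine Finset.sum_congr rfl fun i _ => ?_
  rw [map_mul, rm90_coeffMap_aeval, rm90_coeffMap_eval]

omit [NeZero N] in
theorem ga41_comb_C_mul {K : Type*} [Field K] {n : ℕ}
    (b : Fin n → MvPolynomial N.divisors ℤ) (c : K) (p : Fin n → Polynomial K) :
    ga41_comb N K b (fun i => Polynomial.C c * p i) =
      algebraMap K (LaurentSeries K) c * ga41_comb N K b p := by
  unfold ga41_comb
  rw [Finset.mul_sum]
  refine Finset.sum_congr rfl fun i _ => ?_
  rw [map_mul, Polynomial.aeval_C, mul_assoc]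

theorem ga41_comb_mem (K : Type) [Field K] {n : ℕ}
    (b : Fin n → MvPolynomial N.divisors ℤ) (p : Fin n → Polynomial K) :
    ga41_comb N K b p ∈ modularFunctionFieldFullC K N := by
  unfold ga41_comb
  refine sum_mem fun i _ => mul_mem (rm90_aeval_mem N K (p i)) ?_
  rw [← rm90_coe_bF]
  exact (rm90_bF K N (b i)).2

omit [NeZero N] in
/-- Polynomial form of the independence over `k(j)`. -/
theorem ga41_indep_res {k : Type} [Field k] {n : ℕ} (b : Fin n → MvPolynomial N.divisors ℤ)
    (hb : LinearIndependent (IntermediateField.adjoin k {jqModC k})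
      (fun i => MvPolynomial.eval₂ (Int.castRingHom (LaurentSeries k))
        (fun d : N.divisors => JdC k d.1) (b i)))
    (q : Fin n → Polynomial k) (hq : ga41_comb N k b q = 0) : ∀ i, q i = 0 := by
  intro i
  rw [linearIndependent_iff'] at hb
  have h := hb Finset.univ (fun i => ⟨_, partC_aeval_mem (jqModC k) (q i)⟩) (by
    rw [← hq]
    unfold ga41_comb
    refine Finset.sum_congr rfl fun i _ => ?_
    rw [IntermediateField.smul_def, smul_eq_mul]) i (Finset.mem_univ i)
  exact (transcendental_iff.mp (rm90_transcendental k)) _ (congrArg Subtype.val h)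

omit [NeZero N] in
/-- **Independence over `L(j)`** (polynomial form) of a family that is independent over
`k(j)`. -/
theorem ga41_indep {n : ℕ} (b : Fin n → MvPolynomial N.divisors ℤ)
    (hb : LinearIndependent
      (IntermediateField.adjoin (IsLocalRing.ResidueField A) {jqModC (IsLocalRing.ResidueField A)})
      (fun i => MvPolynomial.eval₂ (Int.castRingHom (LaurentSeries (IsLocalRing.ResidueField A)))
        (fun d : N.divisors => JdC (IsLocalRing.ResidueField A) d.1) (b i)))
    (p : Fin n → Polynomial L) (hp : ga41_comb N L b p = 0) : ∀ i, p i = 0 := by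
  by_contra hcon
  push Not at hcon
  obtain ⟨c, p', hc, hpp', i₁, hi₁⟩ := ga41_scale A p hcon
  have e : p = fun i => Polynomial.C c * (p' i).map A.subtype := funext hpp'
  rw [e, ga41_comb_C_mul] at hp
  have hcL : algebraMap L (LaurentSeries L) c ≠ 0 := by
    rw [algebraMap_laurentSeries_eq_single]
    exact HahnSeries.single_ne_zero hc
  have h1 : ga41_comb N L b (fun i => (p' i).map A.subtype) = 0 :=
    (mul_eq_zero.mp hp).resolve_left hcL
  rw [← ga41_coeffMap_comb N A.subtype b p'] at h1
  have h2 : ga41_comb N A b p' = 0 :=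
    rm90_coeffMap_injective A.subtype Subtype.val_injective (by rw [h1, map_zero])
  have h3 : ga41_comb N (IsLocalRing.ResidueField A) b
      (fun i => (p' i).map (IsLocalRing.residue A)) = 0 := by
    rw [← ga41_coeffMap_comb N (IsLocalRing.residue A) b p', h2, map_zero]
  exact hi₁ (ga41_indep_res N b hb _ h3 i₁)

/-- **Spanning over `L(j)`** (polynomial form): `ψ(N)` expressions independent over `k(j)` span
`F_L` over `L(j)`. -/
theorem ga41_span (b : Fin (dedekindPsi N) → MvPolynomial N.divisors ℤ)
    (hb : LinearIndependent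
      (IntermediateField.adjoin (IsLocalRing.ResidueField A) {jqModC (IsLocalRing.ResidueField A)})
      (fun i => MvPolynomial.eval₂ (Int.castRingHom (LaurentSeries (IsLocalRing.ResidueField A)))
        (fun d : N.divisors => JdC (IsLocalRing.ResidueField A) d.1) (b i)))
    (f : LaurentSeries L) (hf : f ∈ modularFunctionFieldFullC L N) :
    ∃ (s : Polynomial L) (p : Fin (dedekindPsi N) → Polynomial L), s ≠ 0 ∧
      Polynomial.aeval (jqModC L) s * f = ga41_comb N L b p := by
  classical
  set c' : Fin (dedekindPsi N + 1) → LaurentSeries L :=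
    Fin.cons f (fun i => MvPolynomial.eval₂ (Int.castRingHom (LaurentSeries L))
      (fun d : N.divisors => JdC L d.1) (b i)) with hc'
  have hc'mem : ∀ i, c' i ∈ modularFunctionFieldFullC L N := by
    intro i
    refine Fin.cases ?_ (fun i => ?_) i
    · exact hf
    · show MvPolynomial.eval₂ (Int.castRingHom (LaurentSeries L))
        (fun d : N.divisors => JdC L d.1) (b i) ∈ modularFunctionFieldFullC L N
      rw [← rm90_coe_bF]
      exact (rm90_bF L N (b i)).2
  have hnot : ¬ LinearIndependent (IntermediateField.adjoin L {jqModC L}) c' := by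
    intro hli
    have := vs_card_le N L _ c' hc'mem hli
    omega
  obtain ⟨g, hg, i₁, hi₁⟩ := Fintype.not_linearIndependent_iff.mp hnot
  obtain ⟨S, G, hS, hG⟩ := ga41_clear (jqModC L) g
  have hrel : ∑ i, Polynomial.aeval (jqModC L) (G i) * c' i = 0 := by
    have h1 : ∑ i, Polynomial.aeval (jqModC L) (G i) * c' i =
        Polynomial.aeval (jqModC L) S * ∑ i, g i • c' i := by
      rw [Finset.mul_sum]
      refine Finset.sum_congr rfl fun i _ => ?_
      rw [← hG i, IntermediateField.smul_def, smul_eq_mul]
      ring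
    rw [h1, hg, mul_zero]
  rw [Fin.sum_univ_succ] at hrel
  have hG0 : G 0 ≠ 0 := by
    intro h0
    rw [h0, map_zero, zero_mul, zero_add] at hrel
    have hall : ∀ i : Fin (dedekindPsi N), G i.succ = 0 :=
      ga41_indep A N b hb (fun i => G i.succ) hrel
    have hGi : G i₁ = 0 := by
      refine Fin.cases ?_ (fun i => ?_) i₁
      · exact h0
      · exact hall i
    have h2 := hG i₁
    rw [hGi, map_zero] at h2
    rcases mul_eq_zero.mp h2 with h3 | h3
    · exact hi₁ (Subtype.ext h3)
    · exact hS h3
  refine ⟨G 0, fun i => -G i.succ, hG0, ?_⟩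
  have h3 : ga41_comb N L b (fun i => -G i.succ) =
      -∑ i : Fin (dedekindPsi N), Polynomial.aeval (jqModC L) (G i.succ) * c' i.succ := by
    unfold ga41_comb
    rw [← Finset.sum_neg_distrib]
    refine Finset.sum_congr rfl fun i _ => ?_
    rw [map_neg, neg_mul]
    rfl
  rw [h3]
  have h4 : c' 0 = f := rfl
  rw [h4] at hrel
  exact eq_neg_of_add_eq_zero_left hrel

/-- **Integral series of `F_L` reduce into `F_k`.** -/
theorem ga41_red_mem_fullC (hN : (N : IsLocalRing.ResidueField A) ≠ 0) (y : LaurentSeries A)
    (hy : coeffMap A.subtype y ∈ modularFunctionFieldFullC L N) :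
    coeffMap (IsLocalRing.residue A) y ∈
      modularFunctionFieldFullC (IsLocalRing.ResidueField A) N := by
  obtain ⟨b, hb⟩ := vs_exists_independent (IsLocalRing.ResidueField A) N hN
  obtain ⟨s, p, hs, hsp⟩ := ga41_span A N b hb _ hy
  obtain ⟨c, P', hc, hP', i₁, hi₁⟩ := ga41_scale A
    (fun o : Option (Fin (dedekindPsi N)) => o.elim s p) ⟨none, hs⟩
  have hs' : s = Polynomial.C c * (P' none).map A.subtype := hP' none
  have hp' : p = fun i => Polynomial.C c * (P' (some i)).map A.subtype :=
    funext fun i => hP' (some i)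
  have hcL : algebraMap L (LaurentSeries L) c ≠ 0 := by
    rw [algebraMap_laurentSeries_eq_single]
    exact HahnSeries.single_ne_zero hc
  have h1 : Polynomial.aeval (jqModC L) ((P' none).map A.subtype) * coeffMap A.subtype y =
      ga41_comb N L b (fun i => (P' (some i)).map A.subtype) := by
    rw [hs', hp', ga41_comb_C_mul, map_mul, Polynomial.aeval_C, mul_assoc] at hsp
    exact mul_left_cancel₀ hcL hsp
  have h2 : Polynomial.aeval (jqModC A) (P' none) * y = ga41_comb N A b (fun i => P' (some i)) := by
    apply rm90_coeffMap_injective A.subtype Subtype.val_injective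
    rw [map_mul, rm90_coeffMap_aeval, ga41_coeffMap_comb]
    exact h1
  have h3 : Polynomial.aeval (jqModC (IsLocalRing.ResidueField A))
      ((P' none).map (IsLocalRing.residue A)) * coeffMap (IsLocalRing.residue A) y =
      ga41_comb N (IsLocalRing.ResidueField A) b
        (fun i => (P' (some i)).map (IsLocalRing.residue A)) := by
    have h := congrArg (coeffMap (IsLocalRing.residue A)) h2
    rwa [map_mul, rm90_coeffMap_aeval, ga41_coeffMap_comb] at h
  have hs'0 : (P' none).map (IsLocalRing.residue A) ≠ 0 := by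
    intro h0
    rw [h0, map_zero, zero_mul] at h3
    have hall := ga41_indep_res N b hb _ h3.symm
    cases i₁ with
    | none => exact hi₁ h0
    | some i => exact hi₁ (hall i)
  have hne : Polynomial.aeval (jqModC (IsLocalRing.ResidueField A))
      ((P' none).map (IsLocalRing.residue A)) ≠ 0 := fun h =>
    hs'0 (transcendental_iff.mp (rm90_transcendental (IsLocalRing.ResidueField A)) _ h)
  have h4 : coeffMap (IsLocalRing.residue A) y =
      ga41_comb N (IsLocalRing.ResidueField A) b
        (fun i => (P' (some i)).map (IsLocalRing.residue A)) /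
      Polynomial.aeval (jqModC (IsLocalRing.ResidueField A))
        ((P' none).map (IsLocalRing.residue A)) := by
    rw [← h3, mul_div_cancel_left₀ _ hne]
  rw [h4]
  exact div_mem (ga41_comb_mem N _ b _) (rm90_aeval_mem N _ _)

/-- **(HF)** Every nonzero `f ∈ F_L` is a constant times a quotient of two integral series of
`F_L` whose reductions are nonzero elements of `F_k`. -/
theorem ga41_HF_fullC (hN : (N : IsLocalRing.ResidueField A) ≠ 0) (f : LaurentSeries L)
    (hf : f ∈ modularFunctionFieldFullC L N) (hf0 : f ≠ 0) :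
    ∃ (a b : LaurentSeries A) (c : L), c ≠ 0 ∧
      coeffMap A.subtype a ∈ modularFunctionFieldFullC L N ∧
      coeffMap A.subtype b ∈ modularFunctionFieldFullC L N ∧
      coeffMap (IsLocalRing.residue A) a ∈
        modularFunctionFieldFullC (IsLocalRing.ResidueField A) N ∧
      coeffMap (IsLocalRing.residue A) b ∈
        modularFunctionFieldFullC (IsLocalRing.ResidueField A) N ∧
      coeffMap (IsLocalRing.residue A) a ≠ 0 ∧ coeffMap (IsLocalRing.residue A) b ≠ 0 ∧
      f * coeffMap A.subtype b = algebraMap L (LaurentSeries L) c * coeffMap A.subtype a := by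
  obtain ⟨bb, hb⟩ := vs_exists_independent (IsLocalRing.ResidueField A) N hN
  obtain ⟨s, p, hs, hsp⟩ := ga41_span A N bb hb f hf
  have hsne : Polynomial.aeval (jqModC L) s ≠ 0 := fun h =>
    hs (transcendental_iff.mp (rm90_transcendental L) _ h)
  have hp : ∃ i, p i ≠ 0 := by
    by_contra hcon
    push Not at hcon
    have h0 : ga41_comb N L bb p = 0 := by
      unfold ga41_comb
      refine Finset.sum_eq_zero fun i _ => ?_
      rw [hcon i, map_zero, zero_mul]
    rw [h0] at hsp
    exact (mul_ne_zero hsne hf0) hsp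
  obtain ⟨cs, s', hcs, hs', u, hs'res⟩ := ga41_scale A (fun _ : Unit => s) ⟨(), hs⟩
  obtain ⟨cp, p', hcp, hp', i₁, hi₁⟩ := ga41_scale A p hp
  refine ⟨ga41_comb N A bb p', Polynomial.aeval (jqModC A) (s' ()), cp / cs,
    div_ne_zero hcp hcs, ?_, ?_, ?_, ?_, ?_, ?_, ?_⟩
  · rw [ga41_coeffMap_comb]
    exact ga41_comb_mem N L bb _
  · rw [rm90_coeffMap_aeval]
    exact rm90_aeval_mem N L _
  · rw [ga41_coeffMap_comb]
    exact ga41_comb_mem N _ bb _
  · rw [rm90_coeffMap_aeval]
    exact rm90_aeval_mem N _ _
  · rw [ga41_coeffMap_comb]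
    intro h0
    exact hi₁ (ga41_indep_res N bb hb _ h0 i₁)
  · rw [rm90_coeffMap_aeval]
    intro h0
    exact hs'res (transcendental_iff.mp (rm90_transcendental (IsLocalRing.ResidueField A)) _ h0)
  · rw [rm90_coeffMap_aeval, ga41_coeffMap_comb]
    have e : p = fun i => Polynomial.C cp * (p' i).map A.subtype := funext hp'
    have hs'' : s = Polynomial.C cs * (s' ()).map A.subtype := hs' ()
    rw [hs'', e, ga41_comb_C_mul, map_mul, Polynomial.aeval_C] at hsp
    have hcsL : algebraMap L (LaurentSeries L) cs ≠ 0 := by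
      rw [algebraMap_laurentSeries_eq_single]
      exact HahnSeries.single_ne_zero hcs
    rw [map_div₀, div_mul_eq_mul_div, eq_div_iff hcsL]
    linear_combination hsp

end Core

end Fermat.Agent.S37
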