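import Mathlib
import Fermat.Agent.S18.RElim
import Fermat.Agent.S18.RedMap90
import Fermat.Agent.S18.GaussVal85
import Fermat.Agent.S18.FieldDef27
import Fermat.Agent.S18.RElimFull41

/-!
# S37 (helper84): the `A`-level Gauss normalisation and `PrincipalGeneratedByIntegral`

`A` a valuation subring of `ℚ̄` over a prime `ℓ ∤ M`, `k` its residue field.

* `ga84_red_mem_K` : over a UFD `R₀` with fraction field `K` and a prime `π` with residue map
  `red : R₀ → κ` (kernel `(π)`, `M` invertible in `κ`): an `R₀`-integral `q`-series of `F(M)_K`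
  reduces INTO `F(M)_κ`.
* `ga84_red_mem` : the same over `(ℚ̄, A)`: an `A`-integral `q`-series of `F(M)_{ℚ̄}` reduces into
  `F(M)_k`.
* `ga84_normalize` : every nonzero `x ∈ F(M)_{ℚ̄}` is `c · a / b` with `c ∈ ℚ̄ˣ` and `a, b`
  `A`-integral series of `F(M)_{ℚ̄}` with nonzero reductions in `F(M)_k`.
* `ga84_pgi` : `PrincipalGeneratedByIntegral A (residue A) M`.
-/

set_option autoImplicit false

open ModularCurve IntermediateField AlgebraicCurve

namespace Fermat.Agent.S37

open Fermat.Agent.S18 Fermat.Agent.S28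

set_option linter.style.haveILetI false

noncomputable section

section KLevel

variable (K : Type) [Field K] {R₀ : Type*} [CommRing R₀] [IsDomain R₀]
  [UniqueFactorizationMonoid R₀] [Algebra R₀ K] [IsFractionRing R₀ K] (M : ℕ) [NeZero M]

/-- Every series of `F(M)_K` is algebraic over `R₀[j]`. -/
theorem ga84_isAlgebraic_aux :
    letI : Algebra (Polynomial R₀) (LaurentSeries K) :=
      ((algebraMap ↥(modularFunctionFieldFullC K M) (LaurentSeries K)).comp
        (rm90_ev K R₀ M)).toAlgebra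
    ∀ z ∈ modularFunctionFieldFullC K M, IsAlgebraic (Polynomial R₀) z := by
  letI := (rm90_ev K R₀ M).toAlgebra
  letI : Algebra (Polynomial R₀) (LaurentSeries K) :=
    ((algebraMap ↥(modularFunctionFieldFullC K M) (LaurentSeries K)).comp
      (rm90_ev K R₀ M)).toAlgebra
  haveI : IsScalarTower (Polynomial R₀) ↥(modularFunctionFieldFullC K M) (LaurentSeries K) :=
    IsScalarTower.of_algebraMap_eq (fun _ => rfl)
  intro z hz
  unfold modularFunctionFieldFullC at hz
  induction hz using IntermediateField.adjoin_induction with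
  | mem z hz =>
    obtain ⟨d, hne, hd, rfl⟩ := hz
    have hdm : d ∈ M.divisors := Nat.mem_divisors.mpr ⟨hd, NeZero.ne M⟩
    have h1 : IsIntegral (Polynomial R₀) (rm90_Jd K M ⟨d, hdm⟩) :=
      rm90_isIntegral_Jd K R₀ M ⟨d, hdm⟩
    have h2 := (h1.isAlgebraic).algebraMap (A := LaurentSeries K)
    have h3 : algebraMap ↥(modularFunctionFieldFullC K M) (LaurentSeries K)
        (rm90_Jd K M ⟨d, hdm⟩) = qExpand K d (jqModC K) := by
      show JdC K d = _
      rw [JdC_of_neZero]
    rwa [h3] at h2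
  | algebraMap c =>
    obtain ⟨a, b, hb, rfl⟩ := IsFractionRing.div_surjective (A := R₀) c
    have hca : ∀ r : R₀, algebraMap (Polynomial R₀) (LaurentSeries K) (Polynomial.C r) =
        algebraMap K (LaurentSeries K) (algebraMap R₀ K r) := by
      intro r
      show ((rm90_ev K R₀ M (Polynomial.C r) : ↥(modularFunctionFieldFullC K M)) :
        LaurentSeries K) = _
      simp [rm90_ev, rm90_c]
    rw [map_div₀, ← hca, ← hca, div_eq_mul_inv]
    exact (isAlgebraic_algebraMap _).mul (isAlgebraic_algebraMap _).inv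
  | add x y _ _ hx hy => exact hx.add hy
  | inv x _ hx => exact hx.inv
  | mul x y _ _ hx hy => exact hx.mul hy

/-- Every element of `F(M)_K` has a nonzero multiple by `R₀[j]` which is integral over `R₀[j]`. -/
theorem ga84_exists_mul_mem (x : ↥(modularFunctionFieldFullC K M)) :
    ∃ t : Polynomial R₀, t ≠ 0 ∧ (rm90_ev K R₀ M).IsIntegralElem (rm90_ev K R₀ M t * x) := by
  letI := (rm90_ev K R₀ M).toAlgebra
  letI : Algebra (Polynomial R₀) (LaurentSeries K) :=
    ((algebraMap ↥(modularFunctionFieldFullC K M) (LaurentSeries K)).comp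
      (rm90_ev K R₀ M)).toAlgebra
  haveI : IsScalarTower (Polynomial R₀) ↥(modularFunctionFieldFullC K M) (LaurentSeries K) :=
    IsScalarTower.of_algebraMap_eq (fun _ => rfl)
  have h1 : IsAlgebraic (Polynomial R₀) x := by
    rw [← isAlgebraic_algebraMap_iff (A := LaurentSeries K)
      (algebraMap ↥(modularFunctionFieldFullC K M) (LaurentSeries K)).injective]
    exact ga84_isAlgebraic_aux K M _ x.2
  obtain ⟨t, ht0, ht⟩ := h1.exists_integral_multiple
  refine ⟨t, ht0, ?_⟩
  rw [Algebra.smul_def] at ht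
  exact ht

omit [UniqueFactorizationMonoid R₀] [IsDomain R₀] [IsFractionRing R₀ K] in
/-- The integral closure of `R₀[j]` in `F(M)_K` as a subring. -/
theorem ga84_exists_B : ∃ B : Subring ↥(modularFunctionFieldFullC K M),
    ∀ x, x ∈ B ↔ (rm90_ev K R₀ M).IsIntegralElem x := by
  letI := (rm90_ev K R₀ M).toAlgebra
  exact ⟨(integralClosure (Polynomial R₀) ↥(modularFunctionFieldFullC K M)).toSubring,
    fun x => Iff.rfl⟩

/-- **Integral series reduce into `F(M)_κ`** (`K`-level): `R₀` a UFD with fraction field `K`, `π` a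
prime with residue map `red : R₀ → κ` (kernel `(π)`), `M` invertible in `κ`. -/
theorem ga84_red_mem_K (π : R₀) (hπ : Prime π) (κ : Type) [Field κ] (red : R₀ →+* κ)
    (hred : ∀ a : R₀, red a = 0 ↔ π ∣ a) (hM : (M : κ) ≠ 0) (y : LaurentSeries R₀)
    (hy : coeffMap (algebraMap R₀ K) y ∈ modularFunctionFieldFullC K M) :
    coeffMap red y ∈ modularFunctionFieldFullC κ M := by
  classical
  obtain ⟨B, hB⟩ := ga84_exists_B K (R₀ := R₀) M
  obtain ⟨φ, hφ1, hφ2, hφ3⟩ := rm90_exists_red K M π hπ κ red hred hM B hB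
  have hinj : Function.Injective (algebraMap R₀ K) := IsFractionRing.injective R₀ K
  have hcoe : ((rm90_c K R₀ M π : ↥(modularFunctionFieldFullC K M)) : LaurentSeries K) =
      HahnSeries.C (algebraMap R₀ K π) :=
    gv85_coe_algebraMap (modularFunctionFieldFullC K M) (algebraMap R₀ K π)
  have hc0 : rm90_c K R₀ M π ≠ 0 := by
    intro h
    have h1 := hcoe
    rw [h] at h1
    have h2 : (HahnSeries.C (algebraMap R₀ K π) : LaurentSeries K) = 0 := h1.symm
    rw [map_eq_zero, map_eq_zero_iff _ hinj] at h2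
    exact hπ.ne_zero h2
  -- cancellation of one factor `π`
  have hcancel : ∀ (v : ↥(modularFunctionFieldFullC K M)) (yv : LaurentSeries R₀),
      coeffMap (algebraMap R₀ K) yv = (v : LaurentSeries K) →
      rm90_c K R₀ M π * v ∈ B → v ∈ B := by
    intro v yv hv hmem
    have h1 : φ ⟨_, hmem⟩ = coeffMap red (HahnSeries.C π * yv) := by
      apply hφ2
      rw [map_mul, gv85_coeffMap_C, hv]
      show _ = ((rm90_c K R₀ M π : ↥(modularFunctionFieldFullC K M)) : LaurentSeries K) *
        (v : LaurentSeries K)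
      rw [hcoe]
    rw [gv85_red_C_mul red π hred] at h1
    obtain ⟨v', hv'⟩ := (hφ1 _).mp h1
    have h2 : v = (v' : ↥(modularFunctionFieldFullC K M)) := mul_left_cancel₀ hc0 hv'
    rw [h2]
    exact v'.2
  have hpow : ∀ (m : ℕ) (v : ↥(modularFunctionFieldFullC K M)) (yv : LaurentSeries R₀),
      coeffMap (algebraMap R₀ K) yv = (v : LaurentSeries K) →
      rm90_c K R₀ M π ^ m * v ∈ B → v ∈ B := by
    intro m
    induction m with
    | zero =>
      intro v yv _ h
      simpa using h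
    | succ m ih =>
      intro v yv hv h
      have h2 : rm90_c K R₀ M π * (rm90_c K R₀ M π ^ m * v) ∈ B := by
        rwa [← mul_assoc, ← pow_succ']
      have h3 := hcancel (rm90_c K R₀ M π ^ m * v) (HahnSeries.C (π ^ m) * yv) (by
        rw [map_mul, gv85_coeffMap_C, hv, map_pow, map_pow]
        show _ = ((rm90_c K R₀ M π : ↥(modularFunctionFieldFullC K M)) : LaurentSeries K) ^ m *
          (v : LaurentSeries K)
        rw [hcoe]) h2
      exact ih v yv hv h3
  obtain ⟨x, hx⟩ : ∃ x : ↥(modularFunctionFieldFullC K M),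
      (x : LaurentSeries K) = coeffMap (algebraMap R₀ K) y := ⟨⟨_, hy⟩, rfl⟩
  obtain ⟨t, ht0, hint⟩ := ga84_exists_mul_mem K (R₀ := R₀) M x
  have hCπ : Irreducible (Polynomial.C π : Polynomial R₀) :=
    (Polynomial.prime_C_iff.mpr hπ).irreducible
  obtain ⟨m, t', ht', rfl⟩ := WfDvdMonoid.max_power_factor ht0 hCπ
  have hexp : coeffMap (algebraMap R₀ K) (Polynomial.aeval (jqModC R₀) t' * y) =
      ((rm90_ev K R₀ M t' * x : ↥(modularFunctionFieldFullC K M)) : LaurentSeries K) := by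
    rw [map_mul, ← rm90_coe_ev K R₀ M, ← hx]
    rfl
  have hz : rm90_ev K R₀ M t' * x ∈ B := by
    apply hpow m (rm90_ev K R₀ M t' * x) (Polynomial.aeval (jqModC R₀) t' * y) hexp
    have h1 : rm90_c K R₀ M π ^ m * (rm90_ev K R₀ M t' * x) =
        rm90_ev K R₀ M (Polynomial.C π ^ m * t') * x := by
      rw [map_mul, map_pow, mul_assoc]
      congr 2
      simp [rm90_ev]
    rw [h1]
    exact (hB _).mpr hint
  have h4 : φ ⟨_, hz⟩ = Polynomial.aeval (jqModC κ) (t'.map red) * coeffMap red y := by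
    rw [hφ2 _ (Polynomial.aeval (jqModC R₀) t' * y) hexp, map_mul, rm90_coeffMap_aeval]
  have ht'red : t'.map red ≠ 0 := by
    intro h0
    apply ht'
    rw [Polynomial.C_dvd_iff_dvd_coeff]
    intro i
    have h1 := congrArg (fun p => p.coeff i) h0
    simp only [Polynomial.coeff_map, Polynomial.coeff_zero] at h1
    exact (hred _).mp h1
  have h5 : Polynomial.aeval (jqModC κ) (t'.map red) ≠ 0 := fun h =>
    ht'red ((transcendental_iff.mp (rm90_transcendental κ)) _ h)
  have h6 : coeffMap red y = (Polynomial.aeval (jqModC κ) (t'.map red))⁻¹ * φ ⟨_, hz⟩ := by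
    rw [h4, ← mul_assoc, inv_mul_cancel₀ h5, one_mul]
  rw [h6]
  exact mul_mem (inv_mem (rm90_aeval_mem M κ _)) (hφ3 _)

omit [IsDomain R₀] [UniqueFactorizationMonoid R₀] [Algebra R₀ K] [IsFractionRing R₀ K]
  [NeZero M] in
theorem ga84_C_mem (c : K) : (HahnSeries.C c : LaurentSeries K) ∈ modularFunctionFieldFullC K M := by
  rw [HahnSeries.C_apply, ← algebraMap_laurentSeries_eq_single]
  exact IntermediateField.algebraMap_mem _ _

/-- **Normalisation, `K`-level**: every nonzero element of `F(M)_K` is a constant times a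
quotient of two `R₀`-integral series of `F(M)_K` whose reductions are nonzero and lie in
`F(M)_κ`. -/
theorem ga84_normalize_K (π : R₀) (hπ : Prime π) (κ : Type) [Field κ] (red : R₀ →+* κ)
    (hred : ∀ a : R₀, red a = 0 ↔ π ∣ a) (hM : (M : κ) ≠ 0)
    (x : LaurentSeries K) (hx : x ∈ modularFunctionFieldFullC K M) (hx0 : x ≠ 0) :
    ∃ (c : K) (a b : LaurentSeries R₀), c ≠ 0 ∧
      coeffMap (algebraMap R₀ K) a ∈ modularFunctionFieldFullC K M ∧
      coeffMap (algebraMap R₀ K) b ∈ modularFunctionFieldFullC K M ∧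
      coeffMap red a ∈ modularFunctionFieldFullC κ M ∧
      coeffMap red b ∈ modularFunctionFieldFullC κ M ∧
      coeffMap red a ≠ 0 ∧ coeffMap red b ≠ 0 ∧
      x * coeffMap (algebraMap R₀ K) b = HahnSeries.C c * coeffMap (algebraMap R₀ K) a := by
  have hπ0 := hπ.ne_zero
  have hfin : ∀ r : R₀, r ≠ 0 → ∃ n : ℕ, ¬ π ^ (n + 1) ∣ r := fun r hr =>
    FiniteMultiplicity.of_not_isUnit hπ.not_isUnit hr
  have hx' := hx
  unfold modularFunctionFieldFullC at hx'
  obtain ⟨r, hr, s, hs, hrs⟩ := IntermediateField.mem_adjoin_iff_div.mp hx'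
  have hle : Algebra.adjoin K (divisorExpansionsC K M) ≤ gv85_bdd (R := R₀) (K := K) := by
    apply Algebra.adjoin_le
    rintro z ⟨d, hne, hd, rfl⟩
    refine ⟨1, qExpand R₀ d (jqModC R₀), one_ne_zero, ?_⟩
    rw [map_one, map_one, one_mul, coeffMap_qExpand, coeffMap_jqModC]
  have hsub : ∀ z ∈ Algebra.adjoin K (divisorExpansionsC K M),
      z ∈ modularFunctionFieldFullC K M := fun z hz =>
    IntermediateField.algebra_adjoin_le_adjoin K _ hz
  have hs0 : s ≠ 0 := by
    rintro rfl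
    rw [div_zero] at hrs
    exact hx0 hrs
  have hr0 : r ≠ 0 := by
    rintro rfl
    rw [zero_div] at hrs
    exact hx0 hrs
  have key : ∀ z ∈ Algebra.adjoin K (divisorExpansionsC K M), z ≠ 0 →
      ∃ (c : K) (a : LaurentSeries R₀), c ≠ 0 ∧
        coeffMap (algebraMap R₀ K) a ∈ modularFunctionFieldFullC K M ∧
        coeffMap red a ∈ modularFunctionFieldFullC κ M ∧ coeffMap red a ≠ 0 ∧
        z = HahnSeries.C c * coeffMap (algebraMap R₀ K) a := by
    intro z hz hz0
    obtain ⟨c, a, hc, ha, hza⟩ := gv85_bdd_normal red π hred hπ0 hfin z (hle hz) hz0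
    have hC0 : (HahnSeries.C c : LaurentSeries K) ≠ 0 := HahnSeries.C_ne_zero hc
    have hmem : coeffMap (algebraMap R₀ K) a ∈ modularFunctionFieldFullC K M := by
      have h1 : coeffMap (algebraMap R₀ K) a = (HahnSeries.C c : LaurentSeries K)⁻¹ * z := by
        rw [hza, ← mul_assoc, inv_mul_cancel₀ hC0, one_mul]
      rw [h1]
      exact mul_mem (inv_mem (ga84_C_mem K M c)) (hsub z hz)
    exact ⟨c, a, hc, hmem, ga84_red_mem_K K M π hπ κ red hred hM a hmem, ha, hza⟩
  obtain ⟨c₁, a₁, hc₁, ha₁, ha₁', ha₁'', h₁⟩ := key r hr hr0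
  obtain ⟨c₂, a₂, hc₂, ha₂, ha₂', ha₂'', h₂⟩ := key s hs hs0
  refine ⟨c₁ / c₂, a₁, a₂, div_ne_zero hc₁ hc₂, ha₁, ha₂, ha₁', ha₂', ha₁'', ha₂'', ?_⟩
  have hC2 : (HahnSeries.C c₂ : LaurentSeries K) ≠ 0 := HahnSeries.C_ne_zero hc₂
  have ha20 : coeffMap (algebraMap R₀ K) a₂ ≠ 0 := by
    intro h
    rw [h, mul_zero] at h₂
    exact hs0 h₂
  rw [hrs, h₁, h₂, map_div₀]
  field_simp

end KLevel

section QbarLevel

local notation "Qbar" => AlgebraicClosure ℚ

variable (A : ValuationSubring Qbar) (M : ℕ)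

/-- The base data over a number field `K₀ ⊆ ℚ̄`: a prime element of the discrete valuation ring
`A ∩ K₀` generating the kernel of the reduction to the residue field of `A`. -/
theorem ga84_base (K0 : IntermediateField ℚ Qbar) [NumberField K0] {ℓ : ℕ} (hℓ : ℓ.Prime)
    (hA : A.LiesOverPrime ℓ) (hM : ¬ ℓ ∣ M) :
    ∃ π : A.comap (algebraMap K0 Qbar), Prime π ∧
      (∀ a : A.comap (algebraMap K0 Qbar),
        ((IsLocalRing.residue A).comp (nf23_comapHom (algebraMap K0 Qbar) A)) a = 0 ↔ π ∣ a) ∧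
      ((M : ℕ) : IsLocalRing.ResidueField A) ≠ 0 := by
  haveI := nf23_comap_isDVR_of_liesOverPrime (algebraMap K0 Qbar) A hℓ.ne_zero hA
  obtain ⟨π, hπ, hπA, hdiv⟩ := nf23_exists_uniformizer (algebraMap K0 Qbar) A
  have hres : ∀ a : A.comap (algebraMap K0 Qbar),
      ((IsLocalRing.residue A).comp (nf23_comapHom (algebraMap K0 Qbar) A)) a = 0 ↔
        algebraMap K0 Qbar (a : K0) ∈ A.nonunits := by
    intro a
    rw [RingHom.comp_apply, IsLocalRing.residue_eq_zero_iff,
      ← ValuationSubring.coe_mem_nonunits_iff, nf23_comapHom_coe]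
  refine ⟨π, hπ.prime, fun a => ⟨fun h => ?_, fun h => ?_⟩, ?_⟩
  · obtain ⟨y, hy⟩ := hdiv (a : K0) ((hres a).mp h)
    exact ⟨y, Subtype.ext hy⟩
  · obtain ⟨b, rfl⟩ := h
    rw [map_mul, (hres π).mpr hπA, zero_mul]
  · obtain ⟨hM0, hMinv⟩ := nf23_natCast_inv_mem A hA
      ((Nat.Prime.coprime_iff_not_dvd hℓ).mpr hM).symm
    intro h0
    have h1 : IsLocalRing.residue A ((M : ℕ) : A) = 0 := by
      rw [map_natCast]
      exact h0
    rw [IsLocalRing.residue_eq_zero_iff] at h1
    have h2 : IsUnit ((M : ℕ) : A) := by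
      refine IsUnit.of_mul_eq_one ⟨(M : Qbar)⁻¹, hMinv⟩ (Subtype.ext ?_)
      show ((M : A) : Qbar) * (M : Qbar)⁻¹ = 1
      rw [show ((M : A) : Qbar) = (M : Qbar) from rfl, mul_inv_cancel₀ hM0]
    exact h1 h2

variable [NeZero M]

/-- **Integral series of `F(M)_{ℚ̄}` reduce into `F(M)_k`.** -/
theorem ga84_red_mem {ℓ : ℕ} (hℓ : ℓ.Prime) (hA : A.LiesOverPrime ℓ) (hM : ¬ ℓ ∣ M)
    (y : LaurentSeries A) (hy : coeffMap A.subtype y ∈ modularFunctionFieldBar M) :
    coeffMap (IsLocalRing.residue A) y ∈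
      modularFunctionFieldFullC (IsLocalRing.ResidueField A) M := by
  classical
  obtain ⟨K0, hK0, -, hS⟩ := fd27_exists M {coeffMap A.subtype y}
    (fun z hz => by rw [Finset.mem_singleton.mp hz]; exact hy) ∅
  obtain ⟨y0, hy0, hy0'⟩ := hS _ (Finset.mem_singleton_self _)
  haveI : NumberField K0 := fd27_numberField K0 hK0
  obtain ⟨a1, ha1, ha1', -⟩ := fd27_integral (algebraMap K0 Qbar) A y y0 hy0'
  obtain ⟨π, hπ, hred, hMk⟩ := ga84_base A M K0 hℓ hA hM
  haveI := nf23_comap_isDVR_of_liesOverPrime (algebraMap K0 Qbar) A hℓ.ne_zero hA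
  have h := ga84_red_mem_K K0 M π hπ (IsLocalRing.ResidueField A) _ hred hMk a1
    (by rw [← fd27_subtype_eq_algebraMap, ha1]; exact hy0)
  rw [← ha1', coeffMap_coeffMap]
  exact h

/-- **Normalisation, `A`-level (N+)**: every nonzero `x ∈ F(M)_{ℚ̄}` is `c · a / b` with `c ∈ ℚ̄ˣ`
and `a, b ∈ relim_O A M` (`A`-integral series of `F(M)_{ℚ̄}` with reduction in `F(M)_k`) with
nonzero reductions. -/
theorem ga84_normalize {ℓ : ℕ} (hℓ : ℓ.Prime) (hA : A.LiesOverPrime ℓ) (hM : ¬ ℓ ∣ M)
    (x : modularFunctionFieldBar M) (hx : x ≠ 0) :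
    ∃ (c : Qbar) (a b : relim_O A M), c ≠ 0 ∧ relim_ik A M a ≠ 0 ∧ relim_ik A M b ≠ 0 ∧
      x * relim_iL A M b = algebraMap Qbar (modularFunctionFieldBar M) c * relim_iL A M a := by
  classical
  obtain ⟨K0, hK0, -, hS⟩ := fd27_exists M {(x : LaurentSeries Qbar)}
    (fun z hz => by rw [Finset.mem_singleton.mp hz]; exact x.2) ∅
  obtain ⟨y0, hy0, hy0'⟩ := hS _ (Finset.mem_singleton_self _)
  haveI : NumberField K0 := fd27_numberField K0 hK0
  obtain ⟨π, hπ, hred, hMk⟩ := ga84_base A M K0 hℓ hA hM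
  haveI := nf23_comap_isDVR_of_liesOverPrime (algebraMap K0 Qbar) A hℓ.ne_zero hA
  have hy00 : y0 ≠ 0 := by
    rintro rfl
    apply hx
    apply Subtype.ext
    rw [← hy0', map_zero]
    rfl
  obtain ⟨c, a, b, hc, haK, hbK, hak, hbk, ha0, hb0, heq⟩ :=
    ga84_normalize_K K0 M π hπ (IsLocalRing.ResidueField A) _ hred hMk y0 hy0 hy00
  have hL : ∀ a : LaurentSeries (A.comap (algebraMap K0 Qbar)),
      coeffMap A.subtype (coeffMap (nf23_comapHom (algebraMap K0 Qbar) A) a) =
        coeffMap (algebraMap K0 Qbar)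
          (coeffMap (algebraMap (A.comap (algebraMap K0 Qbar)) K0) a) := by
    intro a
    rw [coeffMap_coeffMap, coeffMap_coeffMap]
    exact coeffMap_congr (RingHom.ext fun _ => rfl) a
  have htr : ∀ a : LaurentSeries (A.comap (algebraMap K0 Qbar)),
      coeffMap (algebraMap (A.comap (algebraMap K0 Qbar)) K0) a ∈ modularFunctionFieldFullC K0 M →
      coeffMap ((IsLocalRing.residue A).comp (nf23_comapHom (algebraMap K0 Qbar) A)) a ∈
        modularFunctionFieldFullC (IsLocalRing.ResidueField A) M →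
      coeffMap (nf23_comapHom (algebraMap K0 Qbar) A) a ∈ relim_O A M := by
    intro a h1 h2
    refine relim_mem_O.mpr ⟨?_, ?_⟩
    · rw [hL, fd27_bar_eq]
      exact fd27_coeffMap_mem _ M h1
    · rw [coeffMap_coeffMap]
      exact h2
  refine ⟨algebraMap K0 Qbar c, ⟨_, htr a haK hak⟩, ⟨_, htr b hbK hbk⟩, ?_, ?_, ?_, ?_⟩
  · rwa [Ne, map_eq_zero]
  · intro h
    apply ha0
    have h1 := congrArg Subtype.val h
    rw [relim_ik_coe, coeffMap_coeffMap] at h1
    exact h1
  · intro h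
    apply hb0
    have h1 := congrArg Subtype.val h
    rw [relim_ik_coe, coeffMap_coeffMap] at h1
    exact h1
  · apply Subtype.ext
    show (x : LaurentSeries Qbar) *
        coeffMap A.subtype (coeffMap (nf23_comapHom (algebraMap K0 Qbar) A) b) =
      ((algebraMap Qbar (modularFunctionFieldBar M) (algebraMap K0 Qbar c) :
        modularFunctionFieldBar M) : LaurentSeries Qbar) *
        coeffMap A.subtype (coeffMap (nf23_comapHom (algebraMap K0 Qbar) A) a)
    rw [hL, hL, gv85_coe_algebraMap (modularFunctionFieldBar M), ← hy0', ← map_mul, heq, map_mul,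
      gv85_coeffMap_C]

/-- **`PrincipalGeneratedByIntegral`** for a valuation subring of `ℚ̄` over a prime `ℓ ∤ M`. -/
theorem ga84_pgi {ℓ : ℕ} (hℓ : ℓ.Prime) (hA : A.LiesOverPrime ℓ) (hM : ¬ ℓ ∣ M) :
    PrincipalGeneratedByIntegral A (IsLocalRing.residue A) M := by
  intro D hD
  obtain ⟨f, hf, hDf⟩ := hD
  obtain ⟨c, a, b, hc, ha, hb, heq⟩ := ga84_normalize A M hℓ hA hM f hf
  have haL : relim_iL A M a ≠ 0 := relim_iL_ne_zero ha
  have hbL : relim_iL A M b ≠ 0 := relim_iL_ne_zero hb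
  obtain ⟨Da, hDa, -⟩ := re41_exists_div M (relim_iL A M a) haL
  obtain ⟨Db, hDb, -⟩ := re41_exists_div M (relim_iL A M b) hbL
  have hmem : ∀ (u : relim_O A M) (Du : Divisor Qbar (modularFunctionFieldBar M)),
      relim_ik A M u ≠ 0 → (∀ P, Du P = P.ord (relim_iL A M u)) →
      Du ∈ integralPrincipalDivisors A (IsLocalRing.residue A) M := by
    intro u Du hu hDu
    refine ⟨u.1, u.2.1, u.2.2, fun h => hu (Subtype.ext h), fun P => ?_⟩
    rw [hDu P]
    rfl
  have hDeq : D = Da - Db := by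
    ext P
    rw [Finsupp.sub_apply, hDf P, hDa P, hDb P]
    have h1 := congrArg P.ord heq
    rw [P.ord_mul hf hbL, P.ord_mul (by rwa [Ne, map_eq_zero]) haL, relim_ord_algebraMap,
      zero_add] at h1
    omega
  rw [hDeq]
  exact AddSubgroup.sub_mem _ (AddSubgroup.subset_closure (hmem a Da ha hDa))
    (AddSubgroup.subset_closure (hmem b Db hb hDb))

end QbarLevel


end

end Fermat.Agent.S37
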