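import Mathlib
import Fermat.Agent.S37.ChartChange62

/-!
# S37 (helper62): `L[x] ∩ O' = A[x]` (Gauss lemma for polynomials)

Setting of `ChartChange62` (`A = O' ∩ L` with residue map `res`, `red' : O' → κ'` compatible,
`h ∈ O'` with reduction transcendental over `k`).  A polynomial `p ∈ L[X]` with `p(h) ∈ O'` has
all its coefficients in `A`, and `red' (p(h)) = p̄(h̄)`.
-/

set_option autoImplicit false

namespace Fermat.Agent.S37

open Polynomial

variable {L F' k κ' : Type*} [Field L] [Field F'] [Algebra L F'] [Field k] [Field κ']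
  [Algebra k κ']
variable {A : ValuationSubring L} {O' : ValuationSubring F'}
variable (res : A →+* k) (red' : O' →+* κ')

/-- **`L[h] ∩ O' = A[h]`**: a polynomial in `h` over `L` lying in the Gauss ring has coefficients
in `A`, and its reduction is the reduced polynomial evaluated at `h̄`. -/
theorem cc62_poly_mem (hAO : ∀ x : L, x ∈ A → algebraMap L F' x ∈ O')
    (hcompat : ∀ (x : L) (hx : x ∈ A),
      red' ⟨algebraMap L F' x, hAO x hx⟩ = algebraMap k κ' (res ⟨x, hx⟩))
    (hOA : ∀ x : L, algebraMap L F' x ∈ O' → x ∈ A)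
    (hunit : ∀ x : O', red' x ≠ 0 → (x : F')⁻¹ ∈ O')
    (h : O') (hh : Transcendental k (red' h)) (p : L[X]) (hp : aeval (h : F') p ∈ O') :
    ∃ p₀ : A[X], p₀.map A.subtype = p ∧
      red' ⟨aeval (h : F') p, hp⟩ = aeval (red' h) (p₀.map res) := by
  classical
  have hres1 : res 1 ≠ 0 := by
    intro h0
    have h1 := hcompat 1 A.one_mem
    rw [show (⟨1, A.one_mem⟩ : A) = 1 from rfl, h0, map_zero] at h1
    have h2 : (⟨algebraMap L F' 1, hAO 1 A.one_mem⟩ : O') = 1 := Subtype.ext (map_one _)
    rw [h2, map_one] at h1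
    exact one_ne_zero h1
  by_cases hp0 : p = 0
  · subst hp0
    refine ⟨0, Polynomial.map_zero _, ?_⟩
    have : (⟨aeval (h : F') (0 : L[X]), hp⟩ : O') = 0 := Subtype.ext (map_zero _)
    rw [this, map_zero, Polynomial.map_zero, map_zero]
  obtain ⟨a, p₁, ha, hp₁, hp₁'⟩ := cc62_scale res hres1 p hp0
  set R : O' := p₁.eval₂ (cc62_iota hAO) h with hR
  have hRred : red' R = aeval (red' h) (p₁.map res) := cc62_red_eval₂ res red' hAO hcompat h p₁
  have hRne : red' R ≠ 0 := by
    rw [hRred]
    exact fun h0 => hp₁' ((transcendental_iff.mp hh) _ h0)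
  have hRinv : (R : F')⁻¹ ∈ O' := hunit R hRne
  have hRF : (R : F') = aeval (h : F') (p₁.map A.subtype) := cc62_coe_eval₂ hAO h p₁
  have hpR : aeval (h : F') p = algebraMap L F' a * (R : F') := by
    rw [hp₁, map_mul, aeval_C, hRF]
  have hRF0 : (R : F') ≠ 0 := by
    intro h0
    apply hRne
    have : R = 0 := Subtype.ext h0
    rw [this, map_zero]
  have haA : a ∈ A := by
    apply hOA
    have : algebraMap L F' a = aeval (h : F') p * (R : F')⁻¹ := by
      rw [hpR, mul_assoc, mul_inv_cancel₀ hRF0, mul_one]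
    rw [this]
    exact O'.mul_mem _ _ hp hRinv
  refine ⟨C (⟨a, haA⟩ : A) * p₁, ?_, ?_⟩
  · rw [Polynomial.map_mul, Polynomial.map_C, hp₁]
    rfl
  · have h1 : (⟨aeval (h : F') p, hp⟩ : O') = ⟨algebraMap L F' a, hAO a haA⟩ * R :=
      Subtype.ext hpR
    rw [h1, map_mul, hcompat a haA, hRred, Polynomial.map_mul, Polynomial.map_C, map_mul,
      aeval_C]

/-- Uniqueness companion: two polynomials over `k` with the same value at the transcendental
`h̄` are equal. -/
theorem cc62_poly_unique (hbar : κ') (hh : Transcendental k hbar) (p q : k[X])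
    (hpq : aeval hbar p = aeval hbar q) : p = q := by
  have h0 : aeval hbar (p - q) = 0 := by rw [map_sub, hpq, sub_self]
  exact sub_eq_zero.mp ((transcendental_iff.mp hh) _ h0)

end Fermat.Agent.S37
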