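import Fermat.Agent.S37.Kronecker87
import Fermat.Agent.S24.PlacesBasicCore
import Fermat.Prelude.Def_ModularCurve_HeckeOperator
import Fermat.Prelude.Def_FLTPrelim_Ramification

/-!
# S37, row ES2 (helper87), part 2: the support of the Hecke correspondence

For a place `P` of `F(N)` over `L` and a place `u` in the support of `T_ℓ P`
(`T_ℓ = heckeDivBar`), there is a place `w` of `F(Nℓ)` with `w|β = P` and `w|α = u`; the modular
equation `Φ_ℓ(j(q), j(q^ℓ)) = 0` evaluated at `w` gives `Φ_ℓ(j(u), j(P)) = 0 = Φ_ℓ(j(P), j(u))`,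
and the Kronecker congruence gives, for a valuation ring `A` of `L` over `ℓ`:
`j(u)` is a pole iff `j(P)` is, `j(u) ∈ A` iff `j(P) ∈ A`, and then
`res j(u) = (res j(P))^ℓ` or `(res j(u))^ℓ = res j(P)`.
-/

set_option autoImplicit false
set_option linter.style.haveILetI false

open ModularCurve AlgebraicCurve

namespace Fermat.Agent.S37

open Fermat.Agent.S28 Fermat.Agent.S24

noncomputable section

/-! ### Two-variable evaluation -/

/-- Evaluation of `Φ ∈ ℤ[Y][X]` at `X = x`, `Y = y`. -/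
def es87_biEval {S : Type*} [CommRing S] (Φ : Polynomial (Polynomial ℤ)) (x y : S) : S :=
  Φ.eval₂ (Polynomial.eval₂RingHom (Int.castRingHom S) y) x

theorem es87_comp_eval₂RingHom {S T : Type*} [CommRing S] [CommRing T] (f : S →+* T) (y : S) :
    f.comp (Polynomial.eval₂RingHom (Int.castRingHom S) y) =
      Polynomial.eval₂RingHom (Int.castRingHom T) (f y) := by
  apply Polynomial.ringHom_ext
  · intro a
    simp
  · simp

theorem es87_map_biEval {S T : Type*} [CommRing S] [CommRing T] (f : S →+* T)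
    (Φ : Polynomial (Polynomial ℤ)) (x y : S) :
    f (es87_biEval Φ x y) = es87_biEval Φ (f x) (f y) := by
  unfold es87_biEval
  rw [Polynomial.hom_eval₂, es87_comp_eval₂RingHom]

theorem es87_biEval_kronecker {S : Type*} [CommRing S] (p : ℕ) (Φ Ψ : Polynomial (Polynomial ℤ))
    (h : Φ = (Polynomial.X - Polynomial.C (Polynomial.X ^ p)) *
        (Polynomial.X ^ p - Polynomial.C Polynomial.X) +
      Polynomial.C (Polynomial.C (p : ℤ)) * Ψ) (x y : S) :
    es87_biEval Φ x y = (x - y ^ p) * (x ^ p - y) + (p : S) * es87_biEval Ψ x y := by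
  subst h
  simp only [es87_biEval, Polynomial.eval₂_add, Polynomial.eval₂_mul, Polynomial.eval₂_sub,
    Polynomial.eval₂_pow, Polynomial.eval₂_X, Polynomial.eval₂_C, Polynomial.coe_eval₂RingHom,
    eq_intCast, Int.cast_natCast]
  simp

/-- A root of a monic `Φ(·, y)` with `y` in a subring is integral over the subring. -/
theorem es87_isIntegral_of_biEval {O F : Type*} [CommRing O] [CommRing F] [Algebra O F]
    (Φ : Polynomial (Polynomial ℤ)) (hΦ : Φ.Monic) (x : F) (y : O)
    (h : es87_biEval Φ x (algebraMap O F y) = 0) : IsIntegral O x := by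
  refine ⟨Φ.map (Polynomial.eval₂RingHom (Int.castRingHom O) y), hΦ.map _, ?_⟩
  rw [Polynomial.eval₂_map, es87_comp_eval₂RingHom]
  exact h

/-- Valuation rings are integrally closed: a root of a monic `Φ(·, y)` with `y` in a valuation
ring lies in the valuation ring. -/
theorem es87_mem_of_biEval {F : Type*} [Field F] (O : ValuationSubring F)
    (Φ : Polynomial (Polynomial ℤ)) (hΦ : Φ.Monic) (x y : F) (hy : y ∈ O)
    (h : es87_biEval Φ x y = 0) : x ∈ O := by
  have hx : IsIntegral O x := es87_isIntegral_of_biEval Φ hΦ x (⟨y, hy⟩ : O) h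
  obtain ⟨z, hz⟩ := IsIntegrallyClosed.isIntegral_iff.mp hx
  exact hz ▸ z.2

/-- Evaluation at a valuation ring: if `x ≡ a`, `y ≡ b` modulo the maximal ideal with `a`, `b` in
a subfield `K` of the valuation ring and `Φ(x, y) = 0`, then `Φ(a, b) = 0`. -/
theorem es87_biEval_values {K F : Type*} [Field K] [Field F] [Algebra K F]
    (O : ValuationSubring F) (hK : ∀ a : K, algebraMap K F a ∈ O)
    (Φ : Polynomial (Polynomial ℤ)) (x y : F) (a b : K)
    (hx : x - algebraMap K F a ∈ O.nonunits) (hy : y - algebraMap K F b ∈ O.nonunits)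
    (h : es87_biEval Φ x y = 0) : es87_biEval Φ a b = 0 := by
  obtain ⟨hx1, hx2⟩ := ValuationSubring.mem_nonunits_iff_exists_mem_maximalIdeal.mp hx
  obtain ⟨hy1, hy2⟩ := ValuationSubring.mem_nonunits_iff_exists_mem_maximalIdeal.mp hy
  have hxO : x ∈ O := by
    have := add_mem hx1 (hK a)
    rwa [sub_add_cancel] at this
  have hyO : y ∈ O := by
    have := add_mem hy1 (hK b)
    rwa [sub_add_cancel] at this
  let ι : K →+* O := (algebraMap K F).codRestrict O.toSubring hK
  let res : O →+* IsLocalRing.ResidueField O := IsLocalRing.residue O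
  have hrx : res ⟨x, hxO⟩ = res (ι a) := by
    rw [← sub_eq_zero, ← map_sub]
    exact (IsLocalRing.residue_eq_zero_iff _).mpr hx2
  have hry : res ⟨y, hyO⟩ = res (ι b) := by
    rw [← sub_eq_zero, ← map_sub]
    exact (IsLocalRing.residue_eq_zero_iff _).mpr hy2
  have h0 : es87_biEval Φ (⟨x, hxO⟩ : O) ⟨y, hyO⟩ = 0 := by
    apply Subtype.val_injective
    have := es87_map_biEval O.subtype Φ (⟨x, hxO⟩ : O) ⟨y, hyO⟩
    exact this.trans h
  have h1 : (res.comp ι) (es87_biEval Φ a b) = 0 := by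
    rw [es87_map_biEval, RingHom.comp_apply, RingHom.comp_apply, ← hrx, ← hry,
      ← es87_map_biEval, h0, map_zero]
  exact (map_eq_zero (res.comp ι)).mp h1

/-- Kronecker congruence at the residue field of a valuation ring over `ℓ`. -/
theorem es87_residue_kronecker {L : Type*} [Field L] (A : ValuationSubring L) (ℓ : ℕ)
    (hA : A.LiesOverPrime ℓ) (Φ Ψ : Polynomial (Polynomial ℤ))
    (hΦ : Φ = (Polynomial.X - Polynomial.C (Polynomial.X ^ ℓ)) *
        (Polynomial.X ^ ℓ - Polynomial.C Polynomial.X) +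
      Polynomial.C (Polynomial.C (ℓ : ℤ)) * Ψ) (c₁ c₂ : A)
    (h : es87_biEval Φ (c₁ : L) (c₂ : L) = 0) :
    IsLocalRing.residue A c₁ = IsLocalRing.residue A c₂ ^ ℓ ∨
      IsLocalRing.residue A c₁ ^ ℓ = IsLocalRing.residue A c₂ := by
  have h0 : es87_biEval Φ c₁ c₂ = 0 :=
    Subtype.val_injective ((es87_map_biEval A.subtype Φ c₁ c₂).trans h)
  have h1 := es87_map_biEval (IsLocalRing.residue A) Φ c₁ c₂
  rw [h0, map_zero, es87_biEval_kronecker ℓ Φ Ψ hΦ] at h1
  have hℓ0 : ((ℓ : ℕ) : IsLocalRing.ResidueField A) = 0 := by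
    have h2 : ((ℓ : ℕ) : A) ∈ IsLocalRing.maximalIdeal A := by
      obtain ⟨h3, h4⟩ := ValuationSubring.mem_nonunits_iff_exists_mem_maximalIdeal.mp hA
      have h5 : ((ℓ : ℕ) : A) = ⟨(ℓ : L), h3⟩ := Subtype.ext (by simp)
      rw [h5]
      exact h4
    have h6 := (IsLocalRing.residue_eq_zero_iff _).mpr h2
    rwa [map_natCast] at h6
  rw [hℓ0, zero_mul, add_zero] at h1
  rcases mul_eq_zero.mp h1.symm with h | h
  · exact Or.inl (sub_eq_zero.mp h)
  · exact Or.inr (sub_eq_zero.mp h)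

/-! ### Places -/

section Places

variable {K F : Type*} [Field K] [Field F] [Algebra K F]

theorem es87_mem_nonunits_of_ord_pos (v : Place K F) {f : F} (h : 0 < v.ord f) :
    f ∈ v.toValuationSubring.nonunits := by
  have hf : f ∈ v.toValuationSubring := (wp1_mem_iff_ord_nonneg v f).mpr h.le
  rw [ValuationSubring.mem_nonunits_iff_exists_mem_maximalIdeal]
  refine ⟨hf, ?_⟩
  rw [IsLocalRing.mem_maximalIdeal, mem_nonunits_iff]
  intro hu
  have h1 := v.ord_coe_unit hu.unit
  rw [IsUnit.unit_spec] at h1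
  exact h.ne' h1

theorem es87_ord_neg_iff (v : Place K F) (f : F) : v.ord f < 0 ↔ f ∉ v.toValuationSubring := by
  rw [wp1_mem_iff_ord_nonneg, not_le]

/-- Poles: if `Φ(x, y) = 0` with `Φ` monic in `X` and `x` has a pole at `w`, so has `y`. -/
theorem es87_pole_of_pole (w : Place K F) (Φ : Polynomial (Polynomial ℤ)) (hΦ : Φ.Monic)
    (x y : F) (h : es87_biEval Φ x y = 0) (hx : w.ord x < 0) : w.ord y < 0 := by
  rw [es87_ord_neg_iff] at hx ⊢
  exact fun hy => hx (es87_mem_of_biEval _ Φ hΦ x y hy h)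

/-- Values: if `Φ(x, y) = 0`, `x(w) = a` and `y(w) = b`, then `Φ(a, b) = 0`. -/
theorem es87_value_of_value (w : Place K F) (Φ : Polynomial (Polynomial ℤ)) (x y : F) (a b : K)
    (hx : 0 < w.ord (x - algebraMap K F a)) (hy : 0 < w.ord (y - algebraMap K F b))
    (h : es87_biEval Φ x y = 0) : es87_biEval Φ a b = 0 :=
  es87_biEval_values w.toValuationSubring w.algebraMap_mem' Φ x y a b
    (es87_mem_nonunits_of_ord_pos w hx) (es87_mem_nonunits_of_ord_pos w hy) h

end Places

section Along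

variable {K F F' : Type*} [Field K] [Field F] [Field F'] [Algebra K F] [Algebra K F']

theorem es87_ramificationIndexAlong_pos (φ : F →ₐ[K] F') (hφ : φ.toRingHom.IsIntegral)
    (w : Place K F') : 0 < Place.ramificationIndexAlong φ w := by
  letI := algebraAlong φ
  haveI := isScalarTower_along φ
  haveI := isIntegral_along φ hφ
  exact Place.ramificationIndex_pos (F := F) w

theorem es87_ord_restrictAlong_pos_iff (φ : F →ₐ[K] F') (hφ : φ.toRingHom.IsIntegral)
    (w : Place K F') (f : F) : 0 < (w.restrictAlong φ hφ).ord f ↔ 0 < w.ord (φ f) := by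
  rw [Place.ord_restrictAlong φ hφ w f]
  have he : (0 : ℤ) < Place.ramificationIndexAlong φ w := by
    exact_mod_cast es87_ramificationIndexAlong_pos φ hφ w
  constructor
  · intro h
    exact mul_pos he h
  · intro h
    by_contra hn
    have hn' := not_lt.mp hn
    nlinarith

theorem es87_ord_restrictAlong_neg_iff (φ : F →ₐ[K] F') (hφ : φ.toRingHom.IsIntegral)
    (w : Place K F') (f : F) : (w.restrictAlong φ hφ).ord f < 0 ↔ w.ord (φ f) < 0 := by
  rw [Place.ord_restrictAlong φ hφ w f]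
  have he : (0 : ℤ) < Place.ramificationIndexAlong φ w := by
    exact_mod_cast es87_ramificationIndexAlong_pos φ hφ w
  constructor
  · intro h
    nlinarith
  · intro h
    by_contra hn
    have hn' := not_lt.mp hn
    nlinarith

/-- Every place in the support of the correspondence applied to a point `P` comes from a place of
the upper field over `P`. -/
theorem es87_exists_place_of_mem_support [HasPrincipalDivisors K F'] (φ ψ : F →ₐ[K] F')
    (hφ : φ.toRingHom.IsIntegral) (hψ : ψ.toRingHom.IsIntegral) (P u : Place K F)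
    (hu : u ∈ (Divisor.correspondence φ ψ hφ hψ (Finsupp.single P 1)).support) :
    ∃ w : Place K F', w.restrictAlong φ hφ = P ∧ w.restrictAlong ψ hψ = u := by
  classical
  rw [Divisor.correspondence_apply, Divisor.pullbackAlong_single, map_sum] at hu
  have h1 := Finsupp.support_finsetSum hu
  rw [Finset.mem_biUnion] at h1
  obtain ⟨W, hW, hWu⟩ := h1
  rw [Divisor.pushforwardAlong_single] at hWu
  have h2 := Finsupp.support_single_subset hWu
  rw [Finset.mem_singleton] at h2
  exact ⟨W, Place.mem_fiberAlong.mp hW, h2.symm⟩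

/-- The support of the image of a divisor under an additive map is covered by the supports of
the images of its points. -/
theorem es87_mem_support_of_addMonoidHom {ι κ : Type*} (T : (ι →₀ ℤ) →+ (κ →₀ ℤ)) (D : ι →₀ ℤ)
    (u : κ) (hu : u ∈ (T D).support) :
    ∃ P ∈ D.support, u ∈ (T (Finsupp.single P 1)).support := by
  classical
  have h1 : T D = ∑ P ∈ D.support, D P • T (Finsupp.single P 1) := by
    conv_lhs => rw [← Finsupp.sum_single D, Finsupp.sum, map_sum]
    refine Finset.sum_congr rfl fun P _ => ?_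
    rw [← map_zsmul, Finsupp.smul_single, smul_eq_mul, mul_one]
  rw [h1] at hu
  have h2 := Finsupp.support_finsetSum hu
  rw [Finset.mem_biUnion] at h2
  obtain ⟨P, hP, hPu⟩ := h2
  exact ⟨P, hP, Finsupp.support_smul hPu⟩

end Along

/-! ### The modular correspondence -/

section Modular

variable (L : Type*) [Field L] [Algebra ℚ L] (N : ℕ)

theorem es87_jqModC_mem : jqModC L ∈ laurentBaseChange L (modularFunctionFieldFull N) := by
  have h1 : jq ∈ modularFunctionFieldFull N := by
    have h := jqd_mem_full N (one_dvd N)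
    rwa [qExpand_one_apply] at h
  have h2 := coeffEmb_mem_laurentBaseChange L h1
  rwa [coeffEmb, ← jqModC_rat, coeffMap_jqModC] at h2

/-- The function `j` in the function field of level `N` over `L`. -/
def es87_j : laurentBaseChange L (modularFunctionFieldFull N) :=
  ⟨jqModC L, es87_jqModC_mem L N⟩

@[simp]
theorem es87_coe_j : (es87_j L N : LaurentSeries L) = jqModC L := rfl

variable (ℓ : ℕ) [NeZero N] [NeZero ℓ]

/-- The modular equation in the function field of level `Nℓ`: `Φ(β j, α j) = 0`. -/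
theorem es87_biEval_beta_alpha (Φ : Polynomial (Polynomial ℤ))
    (h : Φ.eval₂ (evJ ℤ) (JdC ℤ ℓ) = 0) :
    es87_biEval Φ (heckeBetaBar L N ℓ (es87_j L N)) (heckeAlphaBar L N ℓ (es87_j L N)) = 0 := by
  have h2 : es87_biEval Φ (qExpand L ℓ (jqModC L)) (jqModC L) = 0 := by
    have h3 := es87_map_biEval (coeffMap (Int.castRingHom L)) Φ (JdC ℤ ℓ) (jqModC ℤ)
    rw [coeffMap_JdC, coeffMap_jqModC, JdC_of_neZero L ℓ] at h3
    rw [← h3]
    show coeffMap (Int.castRingHom L) (Φ.eval₂ (evJ ℤ) (JdC ℤ ℓ)) = 0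
    rw [h, map_zero]
  apply (algebraMap (laurentBaseChange L (modularFunctionFieldFull (N * ℓ)))
    (LaurentSeries L)).injective
  rw [es87_map_biEval, map_zero]
  exact h2

/-- The modular equation in the function field of level `Nℓ`: `Φ(α j, β j) = 0`. -/
theorem es87_biEval_alpha_beta (Φ : Polynomial (Polynomial ℤ))
    (h : Φ.eval₂ (evJd ℤ ℓ) (jqModC ℤ) = 0) :
    es87_biEval Φ (heckeAlphaBar L N ℓ (es87_j L N)) (heckeBetaBar L N ℓ (es87_j L N)) = 0 := by
  have h2 : es87_biEval Φ (jqModC L) (qExpand L ℓ (jqModC L)) = 0 := by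
    have h3 := es87_map_biEval (coeffMap (Int.castRingHom L)) Φ (jqModC ℤ) (JdC ℤ ℓ)
    rw [coeffMap_JdC, coeffMap_jqModC, JdC_of_neZero L ℓ] at h3
    rw [← h3]
    show coeffMap (Int.castRingHom L) (Φ.eval₂ (evJd ℤ ℓ) (jqModC ℤ)) = 0
    rw [h, map_zero]
  apply (algebraMap (laurentBaseChange L (modularFunctionFieldFull (N * ℓ)))
    (LaurentSeries L)).injective
  rw [es87_map_biEval, map_zero]
  exact h2

variable {L N ℓ}

/-- **Support of the Hecke correspondence, modular-equation form.** For `u` in the support of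
`T_ℓ P`: `j` has a pole at `u` iff it has one at `P`, and the values satisfy the modular
equation in both orders. -/
theorem es87_support_of_modEq (Φ : Polynomial (Polynomial ℤ)) (hmon : Φ.Monic)
    (h₁ : Φ.eval₂ (evJ ℤ) (JdC ℤ ℓ) = 0) (h₂ : Φ.eval₂ (evJd ℤ ℓ) (jqModC ℤ) = 0)
    (hα : HeckeAlphaBarIntegral L N ℓ) (hβ : HeckeBetaBarIntegral L N ℓ)
    [HasPrincipalDivisors L (laurentBaseChange L (modularFunctionFieldFull (N * ℓ)))]
    (P u : Place L (laurentBaseChange L (modularFunctionFieldFull N)))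
    (hu : u ∈ (heckeDivBar hα hβ (Finsupp.single P 1)).support) :
    (u.ord (es87_j L N) < 0 ↔ P.ord (es87_j L N) < 0) ∧
      ∀ c₁ c₂ : L, 0 < u.ord (es87_j L N - algebraMap L _ c₁) →
        0 < P.ord (es87_j L N - algebraMap L _ c₂) →
        es87_biEval Φ c₁ c₂ = 0 ∧ es87_biEval Φ c₂ c₁ = 0 := by
  have hαi : (heckeAlphaBar L N ℓ).toRingHom.IsIntegral := hα
  have hβi : (heckeBetaBar L N ℓ).toRingHom.IsIntegral := hβ
  obtain ⟨w, hwP, hwu⟩ := es87_exists_place_of_mem_support (heckeBetaBar L N ℓ)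
    (heckeAlphaBar L N ℓ) hβi hαi P u hu
  subst hwP
  subst hwu
  have hba := es87_biEval_beta_alpha L N ℓ Φ h₁
  have hab := es87_biEval_alpha_beta L N ℓ Φ h₂
  refine ⟨?_, ?_⟩
  · rw [es87_ord_restrictAlong_neg_iff, es87_ord_restrictAlong_neg_iff]
    exact ⟨fun h => es87_pole_of_pole w Φ hmon _ _ hab h,
      fun h => es87_pole_of_pole w Φ hmon _ _ hba h⟩
  · intro c₁ c₂ hc₁ hc₂
    rw [es87_ord_restrictAlong_pos_iff, map_sub, AlgHom.commutes] at hc₁ hc₂
    exact ⟨es87_value_of_value w Φ _ _ c₁ c₂ hc₁ hc₂ hab,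
      es87_value_of_value w Φ _ _ c₂ c₁ hc₂ hc₁ hba⟩

/-- **Support of the Hecke correspondence (row ES2).** Let `ℓ` be a prime and `A` a valuation
ring of `L` over `ℓ`. For `u` in the support of `T_ℓ P`: `j` has a pole at `u` iff it has one at
`P`; otherwise the values `c₁ = j(u)`, `c₂ = j(P)` satisfy `c₁ ∈ A ↔ c₂ ∈ A`, and if they are in
`A` then modulo the maximal ideal `c₁ = c₂ ^ ℓ` or `c₁ ^ ℓ = c₂`. -/
theorem es87_support (hℓ : ℓ.Prime) (A : ValuationSubring L) (hA : A.LiesOverPrime ℓ)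
    (hα : HeckeAlphaBarIntegral L N ℓ) (hβ : HeckeBetaBarIntegral L N ℓ)
    [HasPrincipalDivisors L (laurentBaseChange L (modularFunctionFieldFull (N * ℓ)))]
    (P u : Place L (laurentBaseChange L (modularFunctionFieldFull N)))
    (hu : u ∈ (heckeDivBar hα hβ (Finsupp.single P 1)).support) :
    (u.ord (es87_j L N) < 0 ↔ P.ord (es87_j L N) < 0) ∧
      ∀ c₁ c₂ : L, 0 < u.ord (es87_j L N - algebraMap L _ c₁) →
        0 < P.ord (es87_j L N - algebraMap L _ c₂) →
        (c₁ ∈ A ↔ c₂ ∈ A) ∧ ∀ (hc₁ : c₁ ∈ A) (hc₂ : c₂ ∈ A),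
          IsLocalRing.residue A ⟨c₁, hc₁⟩ = IsLocalRing.residue A ⟨c₂, hc₂⟩ ^ ℓ ∨
            IsLocalRing.residue A ⟨c₁, hc₁⟩ ^ ℓ = IsLocalRing.residue A ⟨c₂, hc₂⟩ := by
  obtain ⟨Φ, hmon, -, h₁, h₂, Ψ, hΨ⟩ := kc87_exists ℓ hℓ
  obtain ⟨hpole, hval⟩ := es87_support_of_modEq Φ hmon h₁ h₂ hα hβ P u hu
  refine ⟨hpole, fun c₁ c₂ hc₁ hc₂ => ?_⟩
  obtain ⟨h12, h21⟩ := hval c₁ c₂ hc₁ hc₂
  refine ⟨⟨fun h => es87_mem_of_biEval A Φ hmon c₂ c₁ h h21,
    fun h => es87_mem_of_biEval A Φ hmon c₁ c₂ h h12⟩, fun hc₁A hc₂A => ?_⟩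
  exact es87_residue_kronecker A ℓ hA Φ Ψ hΨ ⟨c₁, hc₁A⟩ ⟨c₂, hc₂A⟩ h12

end Modular

end

end Fermat.Agent.S37
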