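import Fermat.Agent.S37.PointES17
import Fermat.Agent.S37.FrobES49
import Fermat.Agent.S37.FrobES66
import Fermat.Agent.S37.KroneckerMain73
import Fermat.Agent.S37.Support87
import Fermat.Agent.S37.HeckeInputs63
import Fermat.Agent.S37.GaussPGI41
import Fermat.Agent.S37.Final13

/-!
# S37 (helper17): assembly of the geometric package `final13_Geo`

* `geo17_cls`: the class of a place `Q` of the special fibre `F(N)_k` = the value of `j̄` at `Q`
  (`none` when `j̄` has no value at `Q`, e.g. at a pole).
* `geo17_clause4`: clause 4 of `final13_Geo` (Eichler-Shimura on single places) from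
  ES1 (`es49_principal_modL` + `kr73_hNC_alpha`), ES2 (`es87_support`), FR (`fr66_*`), the abstract
  divisor argument (`pe17_div`), and the two facts on the centre map `r0` still to come from row
  RC: the evaluation characterisation for `j` (`hpole`, `hbig`, `hval`) and the tube functions.
* `geo17_geo`: `final13_Geo N ℓ A` from the RC package.
-/

set_option autoImplicit false
set_option linter.style.haveILetI false

namespace Fermat.Agent.S37

open ModularCurve AlgebraicCurve Fermat.Agent.S24

local notation "Qb" => AlgebraicClosure ℚ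
local notation "GQ" => AlgebraicClosure ℚ ≃ₐ[ℚ] AlgebraicClosure ℚ

section Cls

variable (k : Type*) [Field k] (N : ℕ)

/-- `j̄` as an element of the function field of the special fibre. -/
noncomputable def geo17_jbar : modularFunctionFieldFullC k N :=
  ⟨jqModC k, jqModC_mem_full k N⟩

theorem geo17_coe_jbar : (geo17_jbar k N : LaurentSeries k) = jqModC k := rfl

open Classical in
/-- The class of a place of the special fibre: the value of `j̄` there, `none` if there is no
value (e.g. at a pole of `j̄`). -/
noncomputable def geo17_cls (Q : Place k (modularFunctionFieldFullC k N)) : Option k :=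
  if h : ∃ c : k, 0 < Q.ord (geo17_jbar k N - algebraMap k (modularFunctionFieldFullC k N) c)
  then some h.choose else none

variable {k N}

/-- Two values of the same function at the same place coincide. -/
theorem geo17_value_unique {K F : Type*} [Field K] [Field F] [Algebra K F] (v : Place K F)
    (f : F) (c c' : K) (h : 0 < v.ord (f - algebraMap K F c))
    (h' : 0 < v.ord (f - algebraMap K F c')) : c = c' := by
  by_contra hne
  have h1 := es87_mem_nonunits_of_ord_pos v h
  have h2 := es87_mem_nonunits_of_ord_pos v h'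
  rw [ValuationSubring.mem_nonunits_iff_exists_mem_maximalIdeal] at h1 h2
  obtain ⟨m1, hm1⟩ := h1
  obtain ⟨m2, hm2⟩ := h2
  have h3 := (IsLocalRing.maximalIdeal v.toValuationSubring).sub_mem hm2 hm1
  have h4 : ((⟨f - algebraMap K F c', m2⟩ : v.toValuationSubring) -
      ⟨f - algebraMap K F c, m1⟩) = algebraMap K v.toValuationSubring (c - c') := by
    apply Subtype.ext
    simp
  rw [h4] at h3
  have hu : IsUnit (algebraMap K v.toValuationSubring (c - c')) :=
    (isUnit_iff_ne_zero.mpr (sub_ne_zero.mpr hne)).map _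
  exact (IsLocalRing.mem_maximalIdeal _).mp h3 hu

theorem geo17_cls_eq_some {Q : Place k (modularFunctionFieldFullC k N)} {c : k}
    (h : 0 < Q.ord (geo17_jbar k N - algebraMap k (modularFunctionFieldFullC k N) c)) :
    geo17_cls k N Q = some c := by
  have hex : ∃ c : k, 0 < Q.ord (geo17_jbar k N - algebraMap k (modularFunctionFieldFullC k N) c) :=
    ⟨c, h⟩
  rw [geo17_cls, dif_pos hex]
  exact congrArg some (geo17_value_unique Q _ _ _ hex.choose_spec h)

theorem geo17_cls_eq_none {Q : Place k (modularFunctionFieldFullC k N)}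
    (h : ¬ ∃ c : k, 0 < Q.ord (geo17_jbar k N - algebraMap k (modularFunctionFieldFullC k N) c)) :
    geo17_cls k N Q = none := by
  rw [geo17_cls, dif_neg h]

/-- A place with a value is not a pole. -/
theorem geo17_not_pole_of_value {K F : Type*} [Field K] [Field F] [Algebra K F] (v : Place K F)
    (f : F) (c : K) (h : 0 < v.ord (f - algebraMap K F c)) : ¬ v.ord f < 0 := by
  rw [es87_ord_neg_iff, not_not]
  have h1 : f - algebraMap K F c ∈ v.toValuationSubring :=
    (wp1_mem_iff_ord_nonneg v _).mpr h.le
  have h2 := v.toValuationSubring.add_mem _ _ h1 (v.algebraMap_mem' c)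
  rwa [sub_add_cancel] at h2

theorem geo17_cls_eq_none_of_pole {Q : Place k (modularFunctionFieldFullC k N)}
    (h : Q.ord (geo17_jbar k N) < 0) : geo17_cls k N Q = none :=
  geo17_cls_eq_none fun ⟨c, hc⟩ => geo17_not_pole_of_value Q _ c hc h

/-- `j̄` has coefficients in the prime field: it is fixed by every coefficient automorphism. -/
theorem geo17_resGalois_smul_jbar (σ : k ≃+* k) :
    fr66_resGalois N σ • geo17_jbar k N = geo17_jbar k N := by
  apply Subtype.ext
  rw [fr66_coe_resGalois_smul]
  exact coeffMap_jqModC (σ : k →+* k)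

/-- **FR (d) on classes**: the coefficient automorphism `σ` acts on classes through `σ`. -/
theorem geo17_cls_smul (σ : k ≃+* k) (Q : Place k (modularFunctionFieldFullC k N)) :
    geo17_cls k N (fr66_resGalois N σ • Q) = (geo17_cls k N Q).map σ := by
  by_cases hex : ∃ c : k,
      0 < Q.ord (geo17_jbar k N - algebraMap k (modularFunctionFieldFullC k N) c)
  · obtain ⟨c, hc⟩ := hex
    rw [geo17_cls_eq_some hc, Option.map_some]
    apply geo17_cls_eq_some
    rw [fr66_ord_sub_const_resGalois k N σ Q _ (geo17_resGalois_smul_jbar σ) c]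
    exact hc
  · rw [geo17_cls_eq_none hex, Option.map_none]
    apply geo17_cls_eq_none
    rintro ⟨c', hc'⟩
    apply hex
    refine ⟨σ.symm c', ?_⟩
    have h := fr66_ord_sub_const_resGalois k N σ Q _ (geo17_resGalois_smul_jbar σ) (σ.symm c')
    rw [RingEquiv.apply_symm_apply] at h
    rw [← h]
    exact hc'

theorem geo17_cls_inv_smul (σ : k ≃+* k) (Q : Place k (modularFunctionFieldFullC k N)) :
    geo17_cls k N ((fr66_resGalois N σ)⁻¹ • Q) = (geo17_cls k N Q).map σ.symm := by
  have h := geo17_cls_smul σ ((fr66_resGalois N σ)⁻¹ • Q)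
  rw [smul_inv_smul] at h
  rw [h, Option.map_map]
  have : (σ.symm : k → k) ∘ (σ : k → k) = id := by
    funext x
    simp
  rw [this, Option.map_id, id]

end Cls

section Geo

set_option synthInstance.maxHeartbeats 400000

variable {N : ℕ} [NeZero N]

/-- `hi63_x N` (the generator `JJ 1` used in S24) is the function `j` of `es87_j`. -/
theorem geo17_x_eq_j : hi63_x N = es87_j Qb N := by
  apply Subtype.ext
  show JJ 1 = jqModC Qb
  rw [asmAb_JJ_one, coeffEmb, ← jqModC_rat, coeffMap_jqModC]

/-- Every place of `F(N)` over `ℚ̄` is a pole of `j` or carries a value of `j`. -/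
theorem geo17_dichotomy (P : Place Qb (modularFunctionFieldBar N)) :
    P.ord (es87_j Qb N) < 0 ∨
      ∃ c : Qb, 0 < P.ord (es87_j Qb N - algebraMap Qb (modularFunctionFieldBar N) c) := by
  by_cases hp : P.ord (es87_j Qb N) < 0
  · exact Or.inl hp
  · right
    have hmem : es87_j Qb N ∈ P.toValuationSubring := by
      rw [es87_ord_neg_iff, not_not] at hp
      exact hp
    haveI := hi63_finite_x N
    obtain ⟨c, hc | hc⟩ := wp1_exists_const (hi63_x N) (hi63_x_transcendental N) P
      (es87_j Qb N) hmem
    · exfalso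
      have htr := hi63_x_transcendental N
      rw [geo17_x_eq_j, hc] at htr
      exact htr (isAlgebraic_algebraMap c)
    · exact ⟨c, hc⟩

variable {ℓ : ℕ} [NeZero ℓ] {A : ValuationSubring Qb}

set_option maxHeartbeats 1000000 in
/-- **Clause 4 of `final13_Geo`** (Eichler-Shimura on single places) from the rows ES1, ES2, FR,
ES3 and the two facts on the centre map `r0` to come from row RC: the evaluation characterisation
for `j` (`hpole`, `hbig`, `hval`: `j̄ (r0 P) = res (j P)`) and the tube functions (`htube`). -/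
theorem geo17_clause4 (hℓ : ℓ.Prime) (hℓN : ¬ ℓ ∣ N) (hA : A.LiesOverPrime ℓ)
    (hα : HeckeAlphaBarIntegral Qb N ℓ) (hβ : HeckeBetaBarIntegral Qb N ℓ)
    [HasPrincipalDivisors Qb (modularFunctionFieldBar (N * ℓ))]
    (r0 : Place Qb (modularFunctionFieldBar N) →
      Place (IsLocalRing.ResidueField A)
        (modularFunctionFieldFullC (IsLocalRing.ResidueField A) N))
    (hr : IsPlaceReductionModL A N r0)
    (hgen : PrincipalGeneratedByIntegral A (IsLocalRing.residue A) N)
    (hpole : ∀ P : Place Qb (modularFunctionFieldBar N), P.ord (es87_j Qb N) < 0 →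
      (r0 P).ord (geo17_jbar (IsLocalRing.ResidueField A) N) < 0)
    (hbig : ∀ (P : Place Qb (modularFunctionFieldBar N)) (c : Qb),
      0 < P.ord (es87_j Qb N - algebraMap Qb (modularFunctionFieldBar N) c) → c ∉ A →
      (r0 P).ord (geo17_jbar (IsLocalRing.ResidueField A) N) < 0)
    (hval : ∀ (P : Place Qb (modularFunctionFieldBar N)) (c : Qb) (hc : c ∈ A),
      0 < P.ord (es87_j Qb N - algebraMap Qb (modularFunctionFieldBar N) c) →
      0 < (r0 P).ord (geo17_jbar (IsLocalRing.ResidueField A) N -
        algebraMap (IsLocalRing.ResidueField A)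
          (modularFunctionFieldFullC (IsLocalRing.ResidueField A) N)
          (IsLocalRing.residue A ⟨c, hc⟩)))
    (htube : ∀ (P : Place Qb (modularFunctionFieldBar N))
      (G : Finset (Option (IsLocalRing.ResidueField A))),
      geo17_cls (IsLocalRing.ResidueField A) N (r0 P) ∈ G →
      ∃ f : modularFunctionFieldBar N, f ≠ 0 ∧ P.ord f = 1 ∧
        ∀ P', P' ≠ P → geo17_cls (IsLocalRing.ResidueField A) N (r0 P') ∈ G → P'.ord f = 0)
    (φk : IsLocalRing.ResidueField A ≃+* IsLocalRing.ResidueField A)
    (hφ : ∀ x, φk x = x ^ ℓ) (P : Place Qb (modularFunctionFieldBar N)) :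
    Finsupp.mapDomain r0 (heckeDivBar hα hβ (Finsupp.single P 1)) =
      Finsupp.single (fr66_resGalois N φk • r0 P) 1 +
        Finsupp.single ((fr66_resGalois N φk)⁻¹ • r0 P) (ℓ : ℤ) := by
  classical
  obtain ⟨-, -, -, hfin, -, hNF⟩ := hi63_heckeInputsAlong N ℓ
  haveI := hi63_hasPrincipalDivisors_bar N
  refine pe17_single_of_div hα hβ r0 (fr66_resGalois N φk) (fun D => ?_) P
  refine pe17_div hα hβ r0 (fr66_resGalois N φk)
    (geo17_cls (IsLocalRing.ResidueField A) N) (Equiv.optionCongr φk.toEquiv)
    (fun D hD => ?_) (fun P u hu => ?_) (fun Q => ?_) (fun Q => ?_)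
    (pe17_tube_of_fun r0 (geo17_cls (IsLocalRing.ResidueField A) N) htube) D
  · -- ES1
    have h := es49_principal_modL hℓ A hA hr hgen hα hβ hfin hNF
      (fun f => kr73_hNC_alpha N ℓ hℓ hℓN f) φk hφ hD
    rw [h, natCast_zsmul]
  · -- ES2
    obtain ⟨hpp, hvv⟩ := es87_support hℓ A hA hα hβ P u hu
    rcases geo17_dichotomy P with hP | ⟨c₂, hc₂⟩
    · left
      rw [geo17_cls_eq_none_of_pole (hpole P hP),
        geo17_cls_eq_none_of_pole (hpole u (hpp.mpr hP))]
      rfl
    · rcases geo17_dichotomy u with hu' | ⟨c₁, hc₁⟩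
      · exact absurd (hpp.mp hu') (geo17_not_pole_of_value P _ c₂ hc₂)
      · obtain ⟨hiff, hres⟩ := hvv c₁ c₂ hc₁ hc₂
        by_cases hA₂ : c₂ ∈ A
        · have hA₁ : c₁ ∈ A := hiff.mpr hA₂
          rw [geo17_cls_eq_some (hval P c₂ hA₂ hc₂), geo17_cls_eq_some (hval u c₁ hA₁ hc₁)]
          rcases hres hA₁ hA₂ with h | h
          · left
            show some _ = some (φk _)
            rw [hφ, h]
          · right
            show some _ = some (φk.symm _)
            rw [← h, ← hφ, RingEquiv.symm_apply_apply]
        · have hA₁ : c₁ ∉ A := fun h => hA₂ (hiff.mp h)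
          left
          rw [geo17_cls_eq_none_of_pole (hbig P c₂ hc₂ hA₂),
            geo17_cls_eq_none_of_pole (hbig u c₁ hc₁ hA₁)]
          rfl
  · left
    rw [geo17_cls_smul]
    cases geo17_cls (IsLocalRing.ResidueField A) N Q <;> rfl
  · right
    rw [geo17_cls_inv_smul]
    cases geo17_cls (IsLocalRing.ResidueField A) N Q <;> rfl

/-- **The RC package** at `(N, ℓ, A)`: what row RC has to deliver for `final13_Geo`
(the conservation law, the equivariance, the evaluation characterisation for `j` and the tube
functions). -/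
def geo17_RC (N : ℕ) [NeZero N] (A : ValuationSubring Qb) : Prop :=
  ∃ r0 : Place Qb (modularFunctionFieldBar N) →
      Place (IsLocalRing.ResidueField A)
        (modularFunctionFieldFullC (IsLocalRing.ResidueField A) N),
    IsPlaceReductionModL A N r0 ∧
    (∀ (σ : GQ) (hσ : σ ∈ A.decompositionSubgroup ℚ)
      (P : Place Qb (modularFunctionFieldBar N)),
      r0 (arithmeticGalois (modularFunctionFieldFull N) σ • P)
        = fr66_resGalois N (MulSemiringAction.toRingEquiv (A.decompositionSubgroup ℚ)
            (IsLocalRing.ResidueField A) ⟨σ, hσ⟩) • r0 P) ∧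
    (∀ P : Place Qb (modularFunctionFieldBar N), P.ord (es87_j Qb N) < 0 →
      (r0 P).ord (geo17_jbar (IsLocalRing.ResidueField A) N) < 0) ∧
    (∀ (P : Place Qb (modularFunctionFieldBar N)) (c : Qb),
      0 < P.ord (es87_j Qb N - algebraMap Qb (modularFunctionFieldBar N) c) → c ∉ A →
      (r0 P).ord (geo17_jbar (IsLocalRing.ResidueField A) N) < 0) ∧
    (∀ (P : Place Qb (modularFunctionFieldBar N)) (c : Qb) (hc : c ∈ A),
      0 < P.ord (es87_j Qb N - algebraMap Qb (modularFunctionFieldBar N) c) →
      0 < (r0 P).ord (geo17_jbar (IsLocalRing.ResidueField A) N -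
        algebraMap (IsLocalRing.ResidueField A)
          (modularFunctionFieldFullC (IsLocalRing.ResidueField A) N)
          (IsLocalRing.residue A ⟨c, hc⟩))) ∧
    (∀ (P : Place Qb (modularFunctionFieldBar N))
      (G : Finset (Option (IsLocalRing.ResidueField A))),
      geo17_cls (IsLocalRing.ResidueField A) N (r0 P) ∈ G →
      ∃ f : modularFunctionFieldBar N, f ≠ 0 ∧ P.ord f = 1 ∧
        ∀ P', P' ≠ P → geo17_cls (IsLocalRing.ResidueField A) N (r0 P') ∈ G → P'.ord f = 0)

/-- **GEO**: the geometric package `final13_Geo` from the RC package. -/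
theorem geo17_geo (hℓ : ℓ.Prime) (hℓN : ¬ ℓ ∣ N) (hA : A.LiesOverPrime ℓ)
    (hRC : geo17_RC N A) : final13_Geo N ℓ A := by
  intro hα hβ hP
  obtain ⟨r0, hr, hequiv, hpole, hbig, hval, htube⟩ := hRC
  have hgen := ga41_pgi_of_liesOver N A hℓ hA hℓN
  exact ⟨r0, hr, hgen, hequiv, fun φk hφ P =>
    geo17_clause4 hℓ hℓN hA hα hβ r0 hr hgen hpole hbig hval htube φk hφ P⟩

end Geo

end Fermat.Agent.S37
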