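import Fermat.Agent.S37.GeoAsm17
import Fermat.Agent.S37.ClassX91
import Fermat.Agent.S18.ResConst

/-!
# S37 (helper17): the RC package `geo17_RC` from a class-compatible place reduction

`geo17_RC_of_cls`: at level `M` (`ℓ ∤ M`, `A` over `ℓ`), a place reduction `r0` (Prelude sense)
which respects the `j`-classes (`cx91_cls j̄ (r0 P) = cx91_clsL A j P`, i.e.
`j̄ (r0 P) = res (j P)` in `k ∪ {∞}`) and admits tube divisors for finite sets of `j`-classes
gives the whole package `geo17_RC M A`:

* the Galois equivariance is `cx91_equivariant` (helper91),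
* the three evaluation clauses follow from the class compatibility and the fact that a place of
  the special fibre without a value of `j̄` is a pole of `j̄` (`geo17_dichotomy_k`).

So the frozen statement S37 follows from S18 and, at each auxiliary level, the three facts
`(r0, conservation)`, `hcls`, `htube` (see `geo17_final_V` / `geo17_final_L`).
-/

set_option autoImplicit false
set_option linter.style.haveILetI false

namespace Fermat.Agent.S37

open ModularCurve AlgebraicCurve Fermat.Agent.S24 Fermat.Agent.S18

local notation "Qb" => AlgebraicClosure ℚ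
local notation "GQ" => AlgebraicClosure ℚ ≃ₐ[ℚ] AlgebraicClosure ℚ

section RC

set_option synthInstance.maxHeartbeats 400000

theorem geo17_cls_eq_cx91 (k : Type*) [Field k] (N : ℕ) :
    geo17_cls k N = cx91_cls (geo17_jbar k N) := rfl

/-- Every place of the special fibre is a pole of `j̄` or carries a value of `j̄`
(`k` algebraically closed). -/
theorem geo17_dichotomy_k (k : Type*) [Field k] [IsAlgClosed k] (N : ℕ) [NeZero N]
    (Q : Place k (modularFunctionFieldFullC k N)) :
    Q.ord (geo17_jbar k N) < 0 ∨
      ∃ c : k, 0 < Q.ord (geo17_jbar k N - algebraMap k (modularFunctionFieldFullC k N) c) := by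
  by_cases hp : Q.ord (geo17_jbar k N) < 0
  · exact Or.inl hp
  · right
    have hmem : geo17_jbar k N ∈ Q.toValuationSubring := by
      rw [es87_ord_neg_iff, not_not] at hp
      exact hp
    haveI := rc5_finiteDimensional k N
    obtain ⟨c, hc | hc⟩ := wp1_exists_const (rc5_j k N) (rc5_j_transcendental k N) Q
      (geo17_jbar k N) hmem
    · exfalso
      have htr := rc5_j_transcendental k N
      have hj : rc5_j k N = geo17_jbar k N := rfl
      rw [hj, hc] at htr
      exact htr (isAlgebraic_algebraMap c)
    · exact ⟨c, hc⟩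

variable {M : ℕ} [NeZero M] {ℓ : ℕ} {A : ValuationSubring Qb}

omit [NeZero M] in
/-- `j` is fixed by the arithmetic Galois action. -/
theorem geo17_arith_smul_j (σ : GQ) :
    arithmeticGalois (modularFunctionFieldFull M) σ • es87_j Qb M = es87_j Qb M := by
  apply Subtype.ext
  rw [coe_arithmeticGalois_smul]
  exact coeffMap_jqModC (σ : Qb →+* Qb)

set_option maxHeartbeats 1000000 in
/-- **The RC package from a class-compatible place reduction with tube divisors.** -/
theorem geo17_RC_of_cls (hℓ : ℓ.Prime) (hℓM : ¬ ℓ ∣ M) (hA : A.LiesOverPrime ℓ)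
    (r0 : Place Qb (modularFunctionFieldBar M) →
      Place (IsLocalRing.ResidueField A)
        (modularFunctionFieldFullC (IsLocalRing.ResidueField A) M))
    (hr : IsPlaceReductionModL A M r0)
    (hcls : ∀ P : Place Qb (modularFunctionFieldBar M),
      cx91_cls (geo17_jbar (IsLocalRing.ResidueField A) M) (r0 P) =
        cx91_clsL A (es87_j Qb M) P)
    (htube : ∀ (P : Place Qb (modularFunctionFieldBar M))
      (G : Finset (Option (IsLocalRing.ResidueField A))), cx91_clsL A (es87_j Qb M) P ∈ G →
      ∃ D ∈ Divisor.principal (K := Qb) (F := modularFunctionFieldBar M), D P = 1 ∧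
        ∀ P', P' ≠ P → cx91_clsL A (es87_j Qb M) P' ∈ G → D P' = 0) :
    geo17_RC M A := by
  classical
  haveI := rc5_isAlgClosed_residueField A
  have hgen := ga41_pgi_of_liesOver M A hℓ hA hℓM
  -- a place whose tube class is `none` reduces to a pole of `j̄`
  have hnone : ∀ P : Place Qb (modularFunctionFieldBar M), cx91_clsL A (es87_j Qb M) P = none →
      (r0 P).ord (geo17_jbar (IsLocalRing.ResidueField A) M) < 0 := by
    intro P hP
    have h1 := hcls P
    rw [hP, cx91_cls_eq_none_iff] at h1
    rcases geo17_dichotomy_k (IsLocalRing.ResidueField A) M (r0 P) with h2 | ⟨c, hc⟩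
    · exact h2
    · exact absurd hc (h1 c)
  refine ⟨r0, hr, ?_, ?_, ?_, ?_, ?_⟩
  · -- equivariance
    intro σ hσ P
    refine cx91_equivariant (es87_j Qb M) (fun τ => geo17_arith_smul_j _)
      (geo17_jbar (IsLocalRing.ResidueField A) M) (fun σ' => geo17_resGalois_smul_jbar σ')
      r0 hr hgen hcls (fun P => ?_) σ hσ P
    obtain ⟨D, hD, hDP, hDG⟩ := htube P {cx91_clsL A (es87_j Qb M) P} (Finset.mem_singleton_self _)
    exact ⟨D, hD, hDP, fun P' hne hcl => hDG P' hne (Finset.mem_singleton.mpr hcl)⟩
  · -- poles
    intro P hP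
    apply hnone
    rw [cx91_clsL_eq_none_iff]
    intro a ha
    exact geo17_not_pole_of_value P _ (a : Qb) ha hP
  · -- non-integral values
    intro P c hc hcA
    apply hnone
    rw [cx91_clsL_eq_none_iff]
    intro a ha
    apply hcA
    rw [geo17_value_unique P _ c (a : Qb) hc ha]
    exact a.2
  · -- integral values
    intro P c hcA hc
    have h1 := hcls P
    rw [cx91_clsL_eq_some (es87_j Qb M) P ⟨c, hcA⟩ hc, cx91_cls_eq_some_iff] at h1
    exact h1
  · -- tube functions
    intro P G hG
    rw [geo17_cls_eq_cx91, hcls P] at hG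
    obtain ⟨D, ⟨f, hf0, hDf⟩, hDP, hDG⟩ := htube P G hG
    refine ⟨f, hf0, ?_, fun P' hne hG' => ?_⟩
    · rw [← hDf P, hDP]
    · rw [geo17_cls_eq_cx91, hcls P'] at hG'
      rw [← hDf P', hDG P' hne hG']

end RC

end Fermat.Agent.S37
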