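import Mathlib
import Fermat.Prelude.Def_ModularCurve_ReductionModL
import Fermat.Agent.S24.PlacesBasicCore
import Fermat.Agent.S37.ClassX91

/-!
# S37, Route V glue (helper91): classes of one coordinate from classes of another

Two coordinates `x`, `y` on a function field with `y * x ^ e = Nm(x)`, `Nm ∈ ℤ[X]` monic of
degree `> e`, `Nm(0)` a unit (`x = h` the Hauptmodul of `X₀(p₀)`, `y = j`:
`j h² = (h + 256)³`, `j h³ = (h + 27)(h + 243)³`).  Then the `y`-class of a place is
`Jmap (x-class)`, `Jmap (some c) = if c = 0 then none else some (Nm(c) / c ^ e)`,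
`Jmap none = none`, on the special fibre (`hj91_cls_k`) and for tube classes on the generic
fibre (`hj91_cls_L`).  `Jmap` has finite fibres (`hj91_Jmap_fibre_finite`), so tube divisors for
finite sets of `x`-classes give tube divisors for finite sets of `y`-classes (`hj91_tube_comp`).
-/

set_option autoImplicit false

namespace Fermat.Agent.S37

open ModularCurve AlgebraicCurve HahnSeries Polynomial
open Fermat.Agent.S24

/-! ### valuations of polynomial values -/

section Val

variable {E Γ₀ : Type*} [Field E] [LinearOrderedCommGroupWithZero Γ₀] (w : Valuation E Γ₀)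

theorem hj91_val_eval_le_one (p : E[X]) (hp : ∀ i, w (p.coeff i) ≤ 1) {x : E} (hx : w x ≤ 1) :
    w (p.eval x) ≤ 1 := by
  rw [Polynomial.eval_eq_sum_range]
  refine Valuation.map_sum_le w (fun i _ => ?_)
  rw [map_mul, map_pow]
  exact mul_le_one' (hp i) (pow_le_one' hx i)

theorem hj91_val_eval_eq_one (p : E[X]) (hp : ∀ i, w (p.coeff i) ≤ 1) (h0 : w (p.coeff 0) = 1)
    {x : E} (hx : w x < 1) : w (p.eval x) = 1 := by
  have hev : p.eval x = p.divX.eval x * x + p.coeff 0 := by
    conv_lhs => rw [← Polynomial.divX_mul_X_add p]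
    simp
  rw [hev]
  have h1 : w (p.divX.eval x * x) < w (p.coeff 0) := by
    rw [map_mul, h0]
    have h2 := hj91_val_eval_le_one w p.divX
      (fun i => by rw [Polynomial.coeff_divX]; exact hp _) hx.le
    calc w (p.divX.eval x) * w x ≤ 1 * w x := mul_le_mul_left h2 _
      _ = w x := one_mul _
      _ < 1 := hx
  rw [Valuation.map_add_eq_of_lt_right w h1, h0]

theorem hj91_val_eval_monic (p : E[X]) (hm : p.Monic) (hp : ∀ i, w (p.coeff i) ≤ 1)
    {x : E} (hx : 1 < w x) : w (p.eval x) = w x ^ p.natDegree := by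
  have hwx0 : w x ≠ 0 := (lt_trans zero_lt_one hx).ne'
  rw [Polynomial.eval_eq_sum_range, Finset.sum_range_succ, hm.coeff_natDegree, one_mul]
  have hlt : w (∑ i ∈ Finset.range p.natDegree, p.coeff i * x ^ i) < w (x ^ p.natDegree) := by
    rw [map_pow]
    refine Valuation.map_sum_lt w (pow_ne_zero _ hwx0) (fun i hi => ?_)
    rw [map_mul, map_pow]
    calc w (p.coeff i) * w x ^ i ≤ 1 * w x ^ i := mul_le_mul_left (hp i) _
      _ = w x ^ i := one_mul _
      _ < w x ^ p.natDegree := pow_lt_pow_right₀ hx (Finset.mem_range.mp hi)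
  rw [Valuation.map_add_eq_of_lt_right w hlt, map_pow]

end Val

/-! ### places: order versus valuation -/

section PlaceVal

variable {K F : Type*} [Field K] [Field F] [Algebra K F] (Q : Place K F)

theorem hj91_ord_pos_iff (f : F) : 0 < Q.ord f ↔ f ≠ 0 ∧ Q.adicValuation f < 1 := by
  constructor
  · intro h
    have hf : f ≠ 0 := by
      rintro rfl
      rw [Place.ord_zero] at h
      exact lt_irrefl _ h
    exact ⟨hf, (wp1b_ord_pos_iff Q hf).mp h⟩
  · rintro ⟨hf, h⟩
    exact (wp1b_ord_pos_iff Q hf).mpr h

theorem hj91_ord_neg_iff (f : F) : Q.ord f < 0 ↔ 1 < Q.adicValuation f := by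
  rcases eq_or_ne f 0 with rfl | hf
  · simp
  · rw [← not_le, wp1b_ord_nonneg_iff Q hf, not_le]

theorem hj91_val_algebraMap_le (c : K) : Q.adicValuation (algebraMap K F c) ≤ 1 := by
  rcases eq_or_ne c 0 with rfl | hc
  · simp
  · have hne : algebraMap K F c ≠ 0 := by
      rwa [Ne, map_eq_zero_iff _ (algebraMap K F).injective]
    rw [← wp1b_ord_nonneg_iff Q hne, wp1_ord_algebraMap]

theorem hj91_val_algebraMap {c : K} (hc : c ≠ 0) : Q.adicValuation (algebraMap K F c) = 1 := by
  refine le_antisymm (hj91_val_algebraMap_le Q c) ?_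
  have h1 := hj91_val_algebraMap_le Q c⁻¹
  have h2 : Q.adicValuation (algebraMap K F c) * Q.adicValuation (algebraMap K F c⁻¹) = 1 := by
    rw [← map_mul, ← map_mul, mul_inv_cancel₀ hc, map_one, map_one]
  by_contra hlt
  rw [not_le] at hlt
  have h3 : Q.adicValuation (algebraMap K F c) * Q.adicValuation (algebraMap K F c⁻¹) < 1 := by
    calc Q.adicValuation (algebraMap K F c) * Q.adicValuation (algebraMap K F c⁻¹)
        ≤ Q.adicValuation (algebraMap K F c) * 1 := mul_le_mul_right h1 _
      _ = Q.adicValuation (algebraMap K F c) := mul_one _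
      _ < 1 := hlt
  rw [h2] at h3
  exact lt_irrefl _ h3

end PlaceVal

/-! ### the relation `y * x ^ e = Nm(x)` at a place -/

section Rel

variable {K F : Type*} [Field K] [Field F] [Algebra K F] (Q : Place K F)
  {x y : F} {e : ℕ} {Nm : K[X]}

theorem hj91_val_aeval_le_one (p : K[X]) {x : F} (hx : Q.adicValuation x ≤ 1) :
    Q.adicValuation (Polynomial.aeval x p) ≤ 1 := by
  rw [Polynomial.aeval_def, Polynomial.eval₂_eq_eval_map]
  refine hj91_val_eval_le_one _ _ (fun i => ?_) hx
  rw [Polynomial.coeff_map]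
  exact hj91_val_algebraMap_le Q _

/-- **(D1)** `x ≡ c ≠ 0` at `Q` implies `y ≡ Nm(c) / c ^ e` at `Q` (valuation form). -/
theorem hj91_D1 (hrel : y * x ^ e = Polynomial.aeval x Nm) {c : K} (hc : c ≠ 0)
    (hxc : Q.adicValuation (x - algebraMap K F c) < 1) :
    Q.adicValuation (y - algebraMap K F (Nm.eval c / c ^ e)) < 1 := by
  have hvc : Q.adicValuation (algebraMap K F c) = 1 := hj91_val_algebraMap Q hc
  have hvx : Q.adicValuation x = 1 := by
    have h1 : x = algebraMap K F c + (x - algebraMap K F c) := by ring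
    rw [h1, Valuation.map_add_eq_of_lt_left _ (by rw [hvc]; exact hxc), hvc]
  -- the polynomial `R = Nm - b X^e` vanishes at `c`
  set b : K := Nm.eval c / c ^ e with hb
  set R : K[X] := Nm - Polynomial.C b * Polynomial.X ^ e with hR
  have hRc : R.IsRoot c := by
    rw [Polynomial.IsRoot, hR, Polynomial.eval_sub, Polynomial.eval_mul, Polynomial.eval_C,
      Polynomial.eval_pow, Polynomial.eval_X, hb, div_mul_cancel₀ _ (pow_ne_zero e hc), sub_self]
  obtain ⟨S, hS⟩ := Polynomial.dvd_iff_isRoot.mpr hRc
  have h2 : (y - algebraMap K F b) * x ^ e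
      = (x - algebraMap K F c) * Polynomial.aeval x S := by
    have h3 : Polynomial.aeval x R = (x - algebraMap K F c) * Polynomial.aeval x S := by
      rw [hS, map_mul, map_sub, Polynomial.aeval_X, Polynomial.aeval_C]
    rw [← h3, hR, map_sub, map_mul, Polynomial.aeval_C, map_pow, Polynomial.aeval_X, ← hrel]
    ring
  have h4 := congrArg Q.adicValuation h2
  rw [map_mul, map_pow, hvx, one_pow, mul_one, map_mul] at h4
  rw [h4]
  calc Q.adicValuation (x - algebraMap K F c) * Q.adicValuation (Polynomial.aeval x S)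
      ≤ Q.adicValuation (x - algebraMap K F c) * 1 :=
        mul_le_mul_right (hj91_val_aeval_le_one Q S hvx.le) _
    _ = Q.adicValuation (x - algebraMap K F c) := mul_one _
    _ < 1 := hxc

/-- **(D2)** a zero of `x` is a pole of `y` (if `Nm(0) ≠ 0`, `0 < e`). -/
theorem hj91_D2 (hrel : y * x ^ e = Polynomial.aeval x Nm) (he : 0 < e) (h0 : Nm.coeff 0 ≠ 0)
    (hx : Q.adicValuation x < 1) : 1 < Q.adicValuation y := by
  have h1 : Q.adicValuation (Polynomial.aeval x Nm) = 1 := by
    rw [Polynomial.aeval_def, Polynomial.eval₂_eq_eval_map]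
    refine hj91_val_eval_eq_one _ _ (fun i => ?_) ?_ hx
    · rw [Polynomial.coeff_map]; exact hj91_val_algebraMap_le Q _
    · rw [Polynomial.coeff_map]; exact hj91_val_algebraMap Q h0
  have h2 := congrArg Q.adicValuation hrel
  rw [map_mul, map_pow, h1] at h2
  by_contra hle
  rw [not_lt] at hle
  have h3 : Q.adicValuation y * Q.adicValuation x ^ e < 1 := by
    calc Q.adicValuation y * Q.adicValuation x ^ e ≤ 1 * Q.adicValuation x ^ e :=
          mul_le_mul_left hle _
      _ = Q.adicValuation x ^ e := one_mul _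
      _ < 1 := pow_lt_one' hx he.ne'
  rw [h2] at h3
  exact lt_irrefl _ h3

/-- **(D3)** a pole of `x` is a pole of `y` (if `Nm` is monic of degree `> e`). -/
theorem hj91_D3 (hrel : y * x ^ e = Polynomial.aeval x Nm) (hm : Nm.Monic)
    (hd : e < Nm.natDegree) (hx : 1 < Q.adicValuation x) : 1 < Q.adicValuation y := by
  have hwx0 : Q.adicValuation x ≠ 0 := (lt_trans zero_lt_one hx).ne'
  have h1 : Q.adicValuation (Polynomial.aeval x Nm) = Q.adicValuation x ^ Nm.natDegree := by
    rw [Polynomial.aeval_def, Polynomial.eval₂_eq_eval_map,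
      hj91_val_eval_monic _ _ (hm.map _) (fun i => ?_) hx, hm.natDegree_map]
    rw [Polynomial.coeff_map]; exact hj91_val_algebraMap_le Q _
  have h2 := congrArg Q.adicValuation hrel
  rw [map_mul, map_pow, h1] at h2
  obtain ⟨m, hm'⟩ := Nat.exists_eq_add_of_lt hd
  have h3 : Q.adicValuation y = Q.adicValuation x ^ (m + 1) := by
    have h4 : Q.adicValuation x ^ Nm.natDegree
        = Q.adicValuation x ^ (m + 1) * Q.adicValuation x ^ e := by
      rw [← _root_.pow_add]; congr 1; omega
    rw [h4] at h2
    exact mul_right_cancel₀ (pow_ne_zero e hwx0) h2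
  rw [h3]
  exact one_lt_pow' hx (Nat.succ_ne_zero m)

/-- At a pole of `y` no `y - b` has positive order. -/
theorem hj91_not_pos_of_pole (hy : 1 < Q.adicValuation y) (b : K) :
    ¬ 0 < Q.ord (y - algebraMap K F b) := by
  rw [hj91_ord_pos_iff]
  rintro ⟨-, h⟩
  have h1 : Q.adicValuation (algebraMap K F b) < Q.adicValuation y :=
    lt_of_le_of_lt (hj91_val_algebraMap_le Q b) hy
  rw [Valuation.map_sub_eq_of_lt_left _ h1] at h
  exact lt_irrefl _ (lt_trans hy h)

end Rel

/-! ### the class map -/

section Jmap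

open Classical in
/-- The map on classes induced by `y = Nm(x) / x ^ e`. -/
noncomputable def hj91_Jmap (k : Type*) [Field k] (e : ℕ) (Nm : ℤ[X]) : Option k → Option k
  | none => none
  | some c => if c = 0 then none else some ((Nm.map (Int.castRingHom k)).eval c / c ^ e)

variable {k : Type*} [Field k] (e : ℕ) (Nm : ℤ[X])

@[simp] theorem hj91_Jmap_none : hj91_Jmap k e Nm none = none := rfl

theorem hj91_Jmap_zero : hj91_Jmap k e Nm (some 0) = none := by
  simp [hj91_Jmap]

theorem hj91_Jmap_some {c : k} (hc : c ≠ 0) :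
    hj91_Jmap k e Nm (some c) = some ((Nm.map (Int.castRingHom k)).eval c / c ^ e) := by
  simp [hj91_Jmap, hc]

/-- `Jmap` has finite fibres (for `Nm` monic of degree `> e`). -/
theorem hj91_Jmap_fibre_finite (hm : Nm.Monic) (hd : e < Nm.natDegree)
    (G : Finset (Option k)) : {c : Option k | hj91_Jmap k e Nm c ∈ G}.Finite := by
  classical
  -- the fibre over `none` is `{none, some 0}`, the fibre over `some g` lies in the roots of
  -- `Nm - g X^e`
  have hsub : {c : Option k | hj91_Jmap k e Nm c ∈ G} ⊆
      {none, some 0} ∪ ⋃ g ∈ (G : Set (Option k)), ⋃ g' ∈ {g' : k | g = some g'},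
        some '' {c : k | ((Nm.map (Int.castRingHom k)) - Polynomial.C g' * Polynomial.X ^ e).IsRoot c} := by
    intro c hc
    rcases c with _ | c
    · left; simp
    by_cases hc0 : c = 0
    · left; simp [hc0]
    right
    simp only [Set.mem_ofPred_eq, hj91_Jmap_some e Nm hc0] at hc
    simp only [Set.mem_iUnion, Set.mem_image, Set.mem_ofPred_eq, Finset.mem_coe]
    refine ⟨_, hc, _, rfl, c, ?_, rfl⟩
    rw [Polynomial.IsRoot, Polynomial.eval_sub, Polynomial.eval_mul, Polynomial.eval_C,
      Polynomial.eval_pow, Polynomial.eval_X, div_mul_cancel₀ _ (pow_ne_zero e hc0), sub_self]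
  refine Set.Finite.subset ?_ hsub
  refine Set.Finite.union (by simp) ?_
  refine Set.Finite.biUnion G.finite_toSet (fun g _ => ?_)
  rcases g with _ | g'
  · simp
  · have h1 : {g'' : k | some g' = some g''} = {g'} := by
      ext z; simp [eq_comm]
    rw [h1]
    simp only [Set.mem_singleton_iff, Set.iUnion_iUnion_eq_left]
    refine Set.Finite.image _ ?_
    have hne : (Nm.map (Int.castRingHom k)) - Polynomial.C g' * Polynomial.X ^ e ≠ 0 := by
      intro h0
      have h2 := congrArg (fun q => q.coeff Nm.natDegree) h0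
      simp only [Polynomial.coeff_sub, Polynomial.coeff_map, Polynomial.coeff_C_mul,
        Polynomial.coeff_X_pow, Polynomial.coeff_zero] at h2
      rw [hm.coeff_natDegree, if_neg (by omega)] at h2
      simp at h2
    exact Polynomial.finite_setOfPred_isRoot hne

/-- Tube divisors for finite sets of `x`-classes give tube divisors for finite sets of
`J ∘ x`-classes, as soon as `J` has finite fibres (abstract). -/
theorem hj91_tube_comp {X C C' : Type*} (clsX : X → C) (J : C → C')
    (hJ : ∀ G : Finset C', {c : C | J c ∈ G}.Finite) (princ : Set (X →₀ ℤ))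
    (htube : ∀ (P : X) (G : Finset C), clsX P ∈ G →
      ∃ D ∈ princ, D P = 1 ∧ ∀ P', P' ≠ P → clsX P' ∈ G → D P' = 0)
    (P : X) (G : Finset C') (hP : J (clsX P) ∈ G) :
    ∃ D ∈ princ, D P = 1 ∧ ∀ P', P' ≠ P → J (clsX P') ∈ G → D P' = 0 := by
  obtain ⟨D, hD, hDP, hD0⟩ := htube P (hJ G).toFinset (by simpa using hP)
  exact ⟨D, hD, hDP, fun P' hne h => hD0 P' hne (by simpa using h)⟩

end Jmap

/-! ### the special fibre: `y`-class = `Jmap (x-class)` -/

section ClsK

set_option synthInstance.maxHeartbeats 400000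
set_option maxHeartbeats 1000000

variable {k : Type*} [Field k] {N : ℕ}

theorem hj91_aeval_int_eq {F : Type*} [Field F] [Algebra k F] (x : F) (Nm : ℤ[X]) :
    Polynomial.aeval x Nm = Polynomial.aeval x (Nm.map (Int.castRingHom k)) := by
  rw [Polynomial.aeval_def, Polynomial.aeval_def, Polynomial.eval₂_map]
  congr 1
  exact RingHom.ext_int _ _

/-- **Special fibre**: the `y`-class of a place is `Jmap` of its `x`-class. -/
theorem hj91_cls_k (Xk Yk : modularFunctionFieldFullC k N) (e : ℕ) (he : 0 < e) (Nm : ℤ[X])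
    (hm : Nm.Monic) (hd : e < Nm.natDegree) (h0 : ((Nm.eval 0 : ℤ) : k) ≠ 0)
    (hrel : Yk * Xk ^ e = Polynomial.aeval Xk Nm)
    (hY : ∀ c : k, Yk ≠ algebraMap k (modularFunctionFieldFullC k N) c)
    (htot : ∀ Q : Place k (modularFunctionFieldFullC k N), Xk ∈ Q.toValuationSubring →
      ∃ c : k, 0 < Q.ord (Xk - algebraMap k (modularFunctionFieldFullC k N) c))
    (Q : Place k (modularFunctionFieldFullC k N)) :
    cx91_cls Yk Q = hj91_Jmap k e Nm (cx91_cls Xk Q) := by
  have hrel' : Yk * Xk ^ e = Polynomial.aeval Xk (Nm.map (Int.castRingHom k)) := by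
    rw [hrel, hj91_aeval_int_eq (k := k)]
  have hm' : (Nm.map (Int.castRingHom k)).Monic := hm.map _
  have hd' : e < (Nm.map (Int.castRingHom k)).natDegree := by rwa [hm.natDegree_map]
  have h0' : (Nm.map (Int.castRingHom k)).coeff 0 ≠ 0 := by
    rw [Polynomial.coeff_map, Polynomial.coeff_zero_eq_eval_zero]
    exact h0
  cases hX : cx91_cls Xk Q with
  | some c =>
    rw [cx91_cls_eq_some_iff, hj91_ord_pos_iff] at hX
    by_cases hc : c = 0
    · subst hc
      rw [hj91_Jmap_zero, cx91_cls_eq_none_iff]
      have hx : Q.adicValuation Xk < 1 := by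
        have := hX.2
        rwa [map_zero, sub_zero] at this
      exact hj91_not_pos_of_pole Q (hj91_D2 Q hrel' he h0' hx)
    · rw [hj91_Jmap_some e Nm hc, cx91_cls_eq_some_iff, hj91_ord_pos_iff]
      exact ⟨sub_ne_zero.mpr (hY _), hj91_D1 Q hrel' hc hX.2⟩
  | none =>
    rw [hj91_Jmap_none, cx91_cls_eq_none_iff]
    rw [cx91_cls_eq_none_iff] at hX
    have hx : 1 < Q.adicValuation Xk := by
      rw [← hj91_ord_neg_iff]
      by_contra hge
      rw [not_lt, ← wp1_mem_iff_ord_nonneg] at hge
      obtain ⟨c, hc⟩ := htot Q hge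
      exact hX c hc
    exact hj91_not_pos_of_pole Q (hj91_D3 Q hrel' hm' hd' hx)

end ClsK

/-! ### the generic fibre: tube `y`-class = `Jmap (tube x-class)` -/

section ClsL

set_option synthInstance.maxHeartbeats 400000
set_option maxHeartbeats 1000000

variable {L : Type*} [Field L] [Algebra ℚ L] (A : ValuationSubring L) {N : ℕ}

omit [Algebra ℚ L] in
theorem hj91_intCast_val_le (n : ℤ) : A.valuation ((n : ℤ) : L) ≤ 1 := by
  rw [ValuationSubring.valuation_le_one_iff]
  exact intCast_mem A n

omit [Algebra ℚ L] in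
theorem hj91_coeff_val_le (Nm : ℤ[X]) (i : ℕ) :
    A.valuation ((Nm.map (Int.castRingHom L)).coeff i) ≤ 1 := by
  rw [Polynomial.coeff_map]
  exact hj91_intCast_val_le A _

variable {A}

/-- If `y ≡ b` at `P` with `b ∉ A`, the tube class of `P` is `none`. -/
theorem hj91_clsL_none_of_not_mem (YL : laurentBaseChange L (modularFunctionFieldFull N))
    (hY : ∀ c : L, YL ≠ algebraMap L (laurentBaseChange L (modularFunctionFieldFull N)) c)
    (P : Place L (laurentBaseChange L (modularFunctionFieldFull N))) {b : L} (hb : b ∉ A)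
    (hval : P.adicValuation
      (YL - algebraMap L (laurentBaseChange L (modularFunctionFieldFull N)) b) < 1) :
    cx91_clsL A YL P = none := by
  rw [cx91_clsL_eq_none_iff]
  intro a' ha'
  have h1 : 0 < P.ord (YL - algebraMap L (laurentBaseChange L (modularFunctionFieldFull N)) b) :=
    (hj91_ord_pos_iff P _).mpr ⟨sub_ne_zero.mpr (hY _), hval⟩
  have h2 := cx91_const_unique P YL h1 ha'
  exact hb (h2 ▸ a'.2)

/-- **Generic fibre**: the tube `y`-class of a place is `Jmap` of its tube `x`-class. -/
theorem hj91_cls_L (XL YL : laurentBaseChange L (modularFunctionFieldFull N)) (e : ℕ)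
    (he : 0 < e) (Nm : ℤ[X]) (hm : Nm.Monic) (hd : e < Nm.natDegree)
    (h0 : ((Nm.eval 0 : ℤ) : IsLocalRing.ResidueField A) ≠ 0)
    (hrel : YL * XL ^ e = Polynomial.aeval XL Nm)
    (hY : ∀ c : L, YL ≠ algebraMap L (laurentBaseChange L (modularFunctionFieldFull N)) c)
    (htot : ∀ P : Place L (laurentBaseChange L (modularFunctionFieldFull N)),
      XL ∈ P.toValuationSubring →
      ∃ c : L, 0 < P.ord (XL - algebraMap L (laurentBaseChange L (modularFunctionFieldFull N)) c))
    (P : Place L (laurentBaseChange L (modularFunctionFieldFull N))) :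
    cx91_clsL A YL P = hj91_Jmap (IsLocalRing.ResidueField A) e Nm (cx91_clsL A XL P) := by
  have : CharZero L := algebraRat.charZero L
  set NmL : L[X] := Nm.map (Int.castRingHom L) with hNmL
  have hrel' : YL * XL ^ e = Polynomial.aeval XL NmL := by
    rw [hrel, hj91_aeval_int_eq (k := L)]
  have hm' : NmL.Monic := hm.map _
  have hd' : e < NmL.natDegree := by rw [hNmL, hm.natDegree_map]; exact hd
  -- `Nm(0)` is a nonzero integer, a unit of `A`
  have h0Z : Nm.coeff 0 ≠ 0 := by
    intro h
    apply h0
    rw [← Polynomial.coeff_zero_eq_eval_zero, h, Int.cast_zero]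
  have h0' : NmL.coeff 0 ≠ 0 := by
    rw [hNmL, Polynomial.coeff_map]
    exact Int.cast_ne_zero.mpr h0Z
  have h0A : A.valuation (NmL.coeff 0) = 1 := by
    have hu : IsUnit ((Nm.coeff 0 : ℤ) : A) := by
      by_contra hnu
      apply h0
      have h1 : IsLocalRing.residue A ((Nm.coeff 0 : ℤ) : A) = 0 :=
        (IsLocalRing.residue_eq_zero_iff _).mpr ((IsLocalRing.mem_maximalIdeal _).mpr hnu)
      rw [← Polynomial.coeff_zero_eq_eval_zero, ← h1, map_intCast]
    have h2 := (A.valuation_eq_one_iff _).mp hu
    rw [hNmL, Polynomial.coeff_map]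
    simpa using h2
  cases hX : cx91_clsL A XL P with
  | some cbar =>
    obtain ⟨a, rfl, ha⟩ := (cx91_clsL_eq_some_iff XL P cbar).mp hX
    rw [hj91_ord_pos_iff] at ha
    by_cases hres : IsLocalRing.residue A a = 0
    · -- `a ∈ m_A`
      rw [hres, hj91_Jmap_zero]
      by_cases haL : (a : L) = 0
      · rw [cx91_clsL_eq_none_iff]
        have hx : P.adicValuation XL < 1 := by
          have := ha.2
          rwa [haL, map_zero, sub_zero] at this
        intro a'
        exact hj91_not_pos_of_pole P (hj91_D2 P hrel' he h0' hx) _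
      · have hD1 := hj91_D1 P hrel' haL ha.2
        refine hj91_clsL_none_of_not_mem YL hY P ?_ hD1
        rw [← ValuationSubring.valuation_le_one_iff, not_le]
        have hwa : A.valuation (a : L) < 1 :=
          (A.valuation_lt_one_iff a).mp ((IsLocalRing.residue_eq_zero_iff _).mp hres)
        have hwa0 : A.valuation (a : L) ≠ 0 := (Valuation.ne_zero_iff _).mpr haL
        have hwN : A.valuation (NmL.eval (a : L)) = 1 :=
          hj91_val_eval_eq_one _ _ (hj91_coeff_val_le A Nm) h0A hwa
        rw [map_div₀, hwN, map_pow, one_div, one_lt_inv₀ (pow_pos (zero_lt_iff.mpr hwa0) e)]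
        exact pow_lt_one' hwa he.ne'
    · -- `a` is a unit of `A`
      have hu : IsUnit a := by
        by_contra hnu
        exact hres ((IsLocalRing.residue_eq_zero_iff _).mpr
          ((IsLocalRing.mem_maximalIdeal _).mpr hnu))
      obtain ⟨u, hu⟩ := hu
      have haL : (a : L) ≠ 0 := by
        intro h
        apply hres
        have : a = 0 := Subtype.ext h
        rw [this, map_zero]
      rw [hj91_Jmap_some e Nm hres]
      have hD1 := hj91_D1 P hrel' haL ha.2
      -- the value `b = Nm(a) / a ^ e` as an element of `A`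
      set b' : A := (Nm.map (Int.castRingHom A)).eval a * ((↑(u⁻¹) : A)) ^ e with hb'
      have huinv : ((↑(u⁻¹) : A) : L) = (a : L)⁻¹ := by
        have h1 : (u : A) * (↑(u⁻¹) : A) = 1 := by simp
        have h2 : (a : L) * ((↑(u⁻¹) : A) : L) = 1 := by
          have := congrArg (Subtype.val) h1
          rw [hu] at this
          simpa using this
        exact eq_inv_of_mul_eq_one_right h2
      have hevalL : (((Nm.map (Int.castRingHom A)).eval a : A) : L) = NmL.eval (a : L) := by
        rw [hNmL, Polynomial.eval_map, Polynomial.eval_map]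
        have := Polynomial.hom_eval₂ Nm (Int.castRingHom A) A.subtype a
        rw [show A.subtype.comp (Int.castRingHom A) = Int.castRingHom L from
          RingHom.ext_int _ _] at this
        exact this
      have hb'L : (b' : L) = NmL.eval (a : L) / (a : L) ^ e := by
        rw [hb']
        push_cast
        rw [hevalL, huinv, inv_pow, div_eq_mul_inv]
      have hpos : 0 < P.ord (YL -
          algebraMap L (laurentBaseChange L (modularFunctionFieldFull N)) (b' : L)) := by
        rw [hj91_ord_pos_iff, hb'L]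
        exact ⟨sub_ne_zero.mpr (hY _), hD1⟩
      rw [cx91_clsL_eq_some YL P b' hpos]
      congr 1
      rw [hb', map_mul, map_pow]
      have hevalk : IsLocalRing.residue A ((Nm.map (Int.castRingHom A)).eval a)
          = (Nm.map (Int.castRingHom (IsLocalRing.ResidueField A))).eval
              (IsLocalRing.residue A a) := by
        rw [Polynomial.eval_map, Polynomial.eval_map]
        have := Polynomial.hom_eval₂ Nm (Int.castRingHom A) (IsLocalRing.residue A) a
        rw [show (IsLocalRing.residue A).comp (Int.castRingHom A)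
            = Int.castRingHom (IsLocalRing.ResidueField A) from RingHom.ext_int _ _] at this
        exact this
      have hinvk : IsLocalRing.residue A (↑(u⁻¹) : A) = (IsLocalRing.residue A a)⁻¹ := by
        have h1 : (u : A) * (↑(u⁻¹) : A) = 1 := by simp
        have h2 := congrArg (IsLocalRing.residue A) h1
        rw [map_mul, map_one, hu] at h2
        exact eq_inv_of_mul_eq_one_right h2
      rw [hevalk, hinvk, inv_pow, div_eq_mul_inv]
  | none =>
    rw [hj91_Jmap_none]
    rw [cx91_clsL_eq_none_iff] at hX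
    by_cases hmem : XL ∈ P.toValuationSubring
    · obtain ⟨c, hc⟩ := htot P hmem
      have hcA : c ∉ A := fun hcA => hX ⟨c, hcA⟩ hc
      have hc0 : c ≠ 0 := fun h => hcA (h ▸ A.zero_mem)
      rw [hj91_ord_pos_iff] at hc
      have hD1 := hj91_D1 P hrel' hc0 hc.2
      refine hj91_clsL_none_of_not_mem YL hY P ?_ hD1
      rw [← ValuationSubring.valuation_le_one_iff, not_le]
      have hwc : 1 < A.valuation c := by
        rw [← not_le, ValuationSubring.valuation_le_one_iff]; exact hcA
      have hwc0 : A.valuation c ≠ 0 := (lt_trans zero_lt_one hwc).ne'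
      have hwN : A.valuation (NmL.eval c) = A.valuation c ^ NmL.natDegree :=
        hj91_val_eval_monic _ _ hm' (hj91_coeff_val_le A Nm) hwc
      obtain ⟨m, hm''⟩ := Nat.exists_eq_add_of_lt hd'
      have hpow : A.valuation c ^ NmL.natDegree = A.valuation c ^ (m + 1) * A.valuation c ^ e := by
        rw [← _root_.pow_add]; congr 1; omega
      rw [map_div₀, hwN, map_pow, hpow, mul_div_assoc, div_self (pow_ne_zero e hwc0), mul_one]
      exact one_lt_pow' hwc (Nat.succ_ne_zero m)
    · rw [cx91_clsL_eq_none_iff]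
      have hx : 1 < P.adicValuation XL := by
        rw [← hj91_ord_neg_iff]
        by_contra hge
        rw [not_lt, ← wp1_mem_iff_ord_nonneg] at hge
        exact hmem hge
      intro a'
      exact hj91_not_pos_of_pole P (hj91_D3 P hrel' hm' hd' hx) _

/-- "`r0` respects `x`-classes" implies "`r0` respects `y`-classes". -/
theorem hj91_hcls
    (XL YL : laurentBaseChange L (modularFunctionFieldFull N))
    (Xk Yk : modularFunctionFieldFullC (IsLocalRing.ResidueField A) N)
    (e : ℕ) (Nm : ℤ[X])
    (hk : ∀ Q, cx91_cls Yk Q = hj91_Jmap (IsLocalRing.ResidueField A) e Nm (cx91_cls Xk Q))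
    (hL : ∀ P, cx91_clsL A YL P = hj91_Jmap (IsLocalRing.ResidueField A) e Nm (cx91_clsL A XL P))
    (r0 : Place L (laurentBaseChange L (modularFunctionFieldFull N)) →
      Place (IsLocalRing.ResidueField A)
        (modularFunctionFieldFullC (IsLocalRing.ResidueField A) N))
    (hcls : ∀ P, cx91_cls Xk (r0 P) = cx91_clsL A XL P) (P) :
    cx91_cls Yk (r0 P) = cx91_clsL A YL P := by
  rw [hk, hL, hcls]

end ClsL

end Fermat.Agent.S37
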