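import Mathlib
import Fermat.Agent.S37.HJClass91
import Fermat.Agent.S37.Class91
import Fermat.Agent.S18.Haupt2
import Fermat.Agent.S18.Haupt3R_34

/-!
# S37, Route V glue (helper91): `j`-classes from `h`-classes at levels divisible by 2 or 3

Instances of `HJClass91` for the Hauptmoduln `h₂ = h70_h2` (`j h² = (h + 256)³`) and
`h₃ = h34_h3R` (`j h³ = (h + 27)(h + 243)³`):

* `hj91_cls_k_level2 / _level3`: on the special fibre (any field `k` with `2 ≠ 0`, resp.
  `3 ≠ 0`), `cl91_cls k M Q = hj91_Jmap k e Nm (cx91_cls ⟨h, _⟩ Q)`;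
* `hj91_cls_L_level2 / _level3`: on the generic fibre, for tube classes over a valuation
  subring `A` with `2`, resp. `3`, invertible in the residue field,
  `cl91_clsL A M P = hj91_Jmap _ e Nm (cx91_clsL A ⟨h, _⟩ P)`.

The Hauptmodul enters as `⟨series, membership proof⟩`, so any definition of the element agrees
(proof irrelevance).  `htot` = "every place where `h` is regular has an `h`-value" (degree one;
`wp1_exists_const` + non-constancy, see `hj91_htot_of_hF1`).
-/

set_option autoImplicit false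

namespace Fermat.Agent.S37

open ModularCurve AlgebraicCurve HahnSeries Polynomial
open Fermat.Agent.S24 Fermat.Agent.S18

/-! ### bridges between the `j`-classes of `Class91` and the general classes of `ClassX91` -/

section Bridge

set_option synthInstance.maxHeartbeats 400000
set_option maxHeartbeats 1000000

theorem hj91_cl91_cls_eq {k : Type*} [Field k] (N : ℕ)
    (Q : Place k (modularFunctionFieldFullC k N)) :
    cl91_cls k N Q = cx91_cls (cl91_J k N) Q := rfl

theorem hj91_cl91_clsL_eq {L : Type*} [Field L] [Algebra ℚ L] (A : ValuationSubring L) (N : ℕ)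
    (P : Place L (laurentBaseChange L (modularFunctionFieldFull N))) :
    cl91_clsL A N P = cx91_clsL A (cl91_JL N) P := rfl

/-- `j` is not constant (special fibre). -/
theorem hj91_J_ne_const {k : Type*} [Field k] (N : ℕ) (c : k) :
    cl91_J k N ≠ algebraMap k (modularFunctionFieldFullC k N) c := by
  intro h
  have h1 := congrArg (fun z : modularFunctionFieldFullC k N =>
    ((z : LaurentSeries k)).coeff (-1)) h
  simp only [cl91_coe_J] at h1
  rw [coeff_jqModC_neg_one] at h1
  have h2 : ((algebraMap k (modularFunctionFieldFullC k N) c :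
      modularFunctionFieldFullC k N) : LaurentSeries k) = HahnSeries.single 0 c :=
    algebraMap_laurentSeries_eq_single k c
  rw [h2, HahnSeries.coeff_single_of_ne (by norm_num)] at h1
  exact one_ne_zero h1

/-- `j` is not constant (generic fibre). -/
theorem hj91_JL_ne_const {L : Type*} [Field L] [Algebra ℚ L] (N : ℕ) (c : L) :
    cl91_JL (L := L) N ≠ algebraMap L (laurentBaseChange L (modularFunctionFieldFull N)) c := by
  intro h
  have h1 := congrArg (fun z : laurentBaseChange L (modularFunctionFieldFull N) =>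
    ((z : LaurentSeries L)).coeff (-1)) h
  simp only [cl91_coe_JL] at h1
  rw [coeff_jqModC_neg_one] at h1
  have h2 : ((algebraMap L (laurentBaseChange L (modularFunctionFieldFull N)) c :
      laurentBaseChange L (modularFunctionFieldFull N)) : LaurentSeries L)
        = HahnSeries.single 0 c :=
    algebraMap_laurentSeries_eq_single L c
  rw [h2, HahnSeries.coeff_single_of_ne (by norm_num)] at h1
  exact one_ne_zero h1

/-- `htot` from the degree-one property in the `wp1_exists_const` shape. -/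
theorem hj91_htot_of_hF1 {K F : Type*} [Field K] [Field F] [Algebra K F] (X : F)
    (hX : ∀ c : K, X ≠ algebraMap K F c)
    (hF1 : ∀ (P : Place K F) (f : F), f ∈ P.toValuationSubring →
      ∃ c : K, f = algebraMap K F c ∨ 0 < P.ord (f - algebraMap K F c))
    (P : Place K F) (hmem : X ∈ P.toValuationSubring) :
    ∃ c : K, 0 < P.ord (X - algebraMap K F c) := by
  obtain ⟨c, hc | hc⟩ := hF1 P X hmem
  · exact absurd hc (hX c)
  · exact ⟨c, hc⟩

end Bridge

/-! ### the two modular equations as polynomial relations -/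

section Poly

/-- `Nm₂ = (X + 256)³`. -/
noncomputable def hj91_Nm2 : ℤ[X] := (X + Polynomial.C 256) ^ 3

/-- `Nm₃ = (X + 27)(X + 243)³`. -/
noncomputable def hj91_Nm3 : ℤ[X] := (X + Polynomial.C 27) * (X + Polynomial.C 243) ^ 3

theorem hj91_Nm2_monic : hj91_Nm2.Monic :=
  (Polynomial.monic_X_add_C (256 : ℤ)).pow 3

theorem hj91_Nm3_monic : hj91_Nm3.Monic :=
  (Polynomial.monic_X_add_C (27 : ℤ)).mul ((Polynomial.monic_X_add_C (243 : ℤ)).pow 3)

theorem hj91_Nm2_natDegree : hj91_Nm2.natDegree = 3 := by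
  unfold hj91_Nm2
  rw [(Polynomial.monic_X_add_C (256 : ℤ)).natDegree_pow, Polynomial.natDegree_X_add_C]

theorem hj91_Nm3_natDegree : hj91_Nm3.natDegree = 4 := by
  unfold hj91_Nm3
  rw [(Polynomial.monic_X_add_C (27 : ℤ)).natDegree_mul
      ((Polynomial.monic_X_add_C (243 : ℤ)).pow 3),
    (Polynomial.monic_X_add_C (243 : ℤ)).natDegree_pow, Polynomial.natDegree_X_add_C,
    Polynomial.natDegree_X_add_C]

theorem hj91_Nm2_eval_zero : hj91_Nm2.eval 0 = 2 ^ 24 := by
  unfold hj91_Nm2
  rw [Polynomial.eval_pow, Polynomial.eval_add, Polynomial.eval_X, Polynomial.eval_C]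
  norm_num

theorem hj91_Nm3_eval_zero : hj91_Nm3.eval 0 = 3 ^ 18 := by
  unfold hj91_Nm3
  rw [Polynomial.eval_mul, Polynomial.eval_pow, Polynomial.eval_add, Polynomial.eval_add,
    Polynomial.eval_X, Polynomial.eval_C, Polynomial.eval_C]
  norm_num

theorem hj91_aeval_Nm2 {F : Type*} [CommRing F] (x : F) :
    Polynomial.aeval x hj91_Nm2 = (x + 256) ^ 3 := by
  unfold hj91_Nm2
  rw [map_pow, map_add, Polynomial.aeval_X, Polynomial.aeval_C]
  simp

theorem hj91_aeval_Nm3 {F : Type*} [CommRing F] (x : F) :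
    Polynomial.aeval x hj91_Nm3 = (x + 27) * (x + 243) ^ 3 := by
  unfold hj91_Nm3
  rw [map_mul, map_pow, map_add, map_add, Polynomial.aeval_X, Polynomial.aeval_C,
    Polynomial.aeval_C]
  simp

end Poly

/-! ### level 2 and level 3 -/

section Levels

set_option synthInstance.maxHeartbeats 400000
set_option maxHeartbeats 1000000

/-- **Special fibre, `2 ∣ M`, `2 ≠ 0` in `k`**: `j`-class = `Jmap (h₂-class)`. -/
theorem hj91_cls_k_level2 {k : Type*} [Field k] {M : ℕ} (h2 : (2 : k) ≠ 0)
    (hmem : h70_h2 k ∈ modularFunctionFieldFullC k M)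
    (htot : ∀ Q : Place k (modularFunctionFieldFullC k M),
      (⟨h70_h2 k, hmem⟩ : modularFunctionFieldFullC k M) ∈ Q.toValuationSubring →
      ∃ c : k, 0 < Q.ord ((⟨h70_h2 k, hmem⟩ : modularFunctionFieldFullC k M) -
        algebraMap k (modularFunctionFieldFullC k M) c))
    (Q : Place k (modularFunctionFieldFullC k M)) :
    cl91_cls k M Q = hj91_Jmap k 2 hj91_Nm2 (cx91_cls ⟨h70_h2 k, hmem⟩ Q) := by
  rw [hj91_cl91_cls_eq]
  refine hj91_cls_k _ _ 2 (by norm_num) hj91_Nm2 hj91_Nm2_monic
    (by rw [hj91_Nm2_natDegree]; norm_num) ?_ ?_ (hj91_J_ne_const M) htot Q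
  · rw [hj91_Nm2_eval_zero, Int.cast_pow, Int.cast_ofNat]
    exact pow_ne_zero 24 h2
  · rw [hj91_aeval_Nm2]
    apply Subtype.ext
    push_cast
    exact h70_j_mul_h2_sq k

/-- **Special fibre, `3 ∣ M`, `3 ≠ 0` in `k`**: `j`-class = `Jmap (h₃-class)`. -/
theorem hj91_cls_k_level3 {k : Type*} [Field k] {M : ℕ} (h3 : (3 : k) ≠ 0)
    (hmem : h34_h3R k ∈ modularFunctionFieldFullC k M)
    (htot : ∀ Q : Place k (modularFunctionFieldFullC k M),
      (⟨h34_h3R k, hmem⟩ : modularFunctionFieldFullC k M) ∈ Q.toValuationSubring →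
      ∃ c : k, 0 < Q.ord ((⟨h34_h3R k, hmem⟩ : modularFunctionFieldFullC k M) -
        algebraMap k (modularFunctionFieldFullC k M) c))
    (Q : Place k (modularFunctionFieldFullC k M)) :
    cl91_cls k M Q = hj91_Jmap k 3 hj91_Nm3 (cx91_cls ⟨h34_h3R k, hmem⟩ Q) := by
  rw [hj91_cl91_cls_eq]
  refine hj91_cls_k _ _ 3 (by norm_num) hj91_Nm3 hj91_Nm3_monic
    (by rw [hj91_Nm3_natDegree]; norm_num) ?_ ?_ (hj91_J_ne_const M) htot Q
  · rw [hj91_Nm3_eval_zero, Int.cast_pow, Int.cast_ofNat]
    exact pow_ne_zero 18 h3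
  · rw [hj91_aeval_Nm3]
    apply Subtype.ext
    push_cast
    exact h34_h3R_j k

variable {L : Type*} [Field L] [Algebra ℚ L] (A : ValuationSubring L)

/-- **Generic fibre, `2 ∣ M`, `2` invertible in the residue field**: tube `j`-class =
`Jmap (tube h₂-class)`. -/
theorem hj91_cls_L_level2 {M : ℕ} (h2 : (2 : IsLocalRing.ResidueField A) ≠ 0)
    (hmem : h70_h2 L ∈ laurentBaseChange L (modularFunctionFieldFull M))
    (htot : ∀ P : Place L (laurentBaseChange L (modularFunctionFieldFull M)),
      (⟨h70_h2 L, hmem⟩ : laurentBaseChange L (modularFunctionFieldFull M)) ∈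
        P.toValuationSubring →
      ∃ c : L, 0 < P.ord ((⟨h70_h2 L, hmem⟩ : laurentBaseChange L (modularFunctionFieldFull M)) -
        algebraMap L (laurentBaseChange L (modularFunctionFieldFull M)) c))
    (P : Place L (laurentBaseChange L (modularFunctionFieldFull M))) :
    cl91_clsL A M P = hj91_Jmap (IsLocalRing.ResidueField A) 2 hj91_Nm2
      (cx91_clsL A ⟨h70_h2 L, hmem⟩ P) := by
  rw [hj91_cl91_clsL_eq]
  refine hj91_cls_L _ _ 2 (by norm_num) hj91_Nm2 hj91_Nm2_monic
    (by rw [hj91_Nm2_natDegree]; norm_num) ?_ ?_ (hj91_JL_ne_const M) htot P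
  · rw [hj91_Nm2_eval_zero, Int.cast_pow, Int.cast_ofNat]
    exact pow_ne_zero 24 h2
  · rw [hj91_aeval_Nm2]
    apply Subtype.ext
    push_cast
    exact h70_j_mul_h2_sq L

/-- **Generic fibre, `3 ∣ M`, `3` invertible in the residue field**: tube `j`-class =
`Jmap (tube h₃-class)`. -/
theorem hj91_cls_L_level3 {M : ℕ} (h3 : (3 : IsLocalRing.ResidueField A) ≠ 0)
    (hmem : h34_h3R L ∈ laurentBaseChange L (modularFunctionFieldFull M))
    (htot : ∀ P : Place L (laurentBaseChange L (modularFunctionFieldFull M)),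
      (⟨h34_h3R L, hmem⟩ : laurentBaseChange L (modularFunctionFieldFull M)) ∈
        P.toValuationSubring →
      ∃ c : L, 0 < P.ord ((⟨h34_h3R L, hmem⟩ : laurentBaseChange L (modularFunctionFieldFull M)) -
        algebraMap L (laurentBaseChange L (modularFunctionFieldFull M)) c))
    (P : Place L (laurentBaseChange L (modularFunctionFieldFull M))) :
    cl91_clsL A M P = hj91_Jmap (IsLocalRing.ResidueField A) 3 hj91_Nm3
      (cx91_clsL A ⟨h34_h3R L, hmem⟩ P) := by
  rw [hj91_cl91_clsL_eq]
  refine hj91_cls_L _ _ 3 (by norm_num) hj91_Nm3 hj91_Nm3_monic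
    (by rw [hj91_Nm3_natDegree]; norm_num) ?_ ?_ (hj91_JL_ne_const M) htot P
  · rw [hj91_Nm3_eval_zero, Int.cast_pow, Int.cast_ofNat]
    exact pow_ne_zero 18 h3
  · rw [hj91_aeval_Nm3]
    apply Subtype.ext
    push_cast
    exact h34_h3R_j L

end Levels

end Fermat.Agent.S37
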