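import Fermat.Agent.S24.Places

/-!
# S37, row PS (helper14): the Dedekind dictionary in ANY characteristic

`K` algebraically closed (any characteristic), `F/K` a field, `y : F` transcendental over `K`
with `F / K(y)` finite and SEPARABLE.  `R := Algebra.adjoin K {y}` is a PID,
`B := integralClosure R F` is a Dedekind domain, finite over `R`, with fraction field `F`.
The places `v` of `F/K` with `y ∈ O_v` are exactly the places attached to the height one primes of
`B`.  For every `a : K` the places with `0 < ord_v (y - a)` are those over the prime `(y - a)` of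
`R`, `∑ ord_v (y - a) = [F : K(y)]`, and the NORM FORMULA holds: for `f ∈ B`, `f ≠ 0`, the
multiplicity of `y - a` in `N_{B/R}(f)` is `∑_{v | y = a} ord_v f`.

This is the separable (characteristic-free) version of `S24/Places.lean` (which assumes
`CharZero K`), generalised from `y` to `y - a`, plus the norm formula.
-/

set_option autoImplicit false
set_option linter.style.haveILetI false
set_option linter.unusedSectionVars false
set_option linter.deprecated false

open AlgebraicCurve IntermediateField

namespace Fermat.Agent.S37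

open Fermat.Agent.S24

section ps14_concrete

open IsDedekindDomain IsDedekindDomain.HeightOneSpectrum WithZero
open scoped IntermediateField.algebraAdjoinAdjoin

variable {K F : Type*} [Field K] [IsAlgClosed K] [Field F] [Algebra K F]

/-- `K[X] ≃ K[y]` for transcendental `y`. -/
noncomputable def ps14_polyEquiv (y : F) (hy : Transcendental K y) :
    Polynomial K ≃ₐ[K] Algebra.adjoin K {y} :=
  (AlgEquiv.ofInjective (Polynomial.aeval y) (transcendental_iff_injective.mp hy)).trans
    (Subalgebra.equivOfEq _ _ (Algebra.adjoin_singleton_eq_range_aeval K y).symm)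

theorem ps14_polyEquiv_coe (y : F) (hy : Transcendental K y) (q : Polynomial K) :
    ((ps14_polyEquiv y hy q : Algebra.adjoin K {y}) : F) = Polynomial.aeval y q := rfl

theorem ps14_isPrincipalIdealRing (y : F) (hy : Transcendental K y) :
    IsPrincipalIdealRing (Algebra.adjoin K {y}) :=
  IsPrincipalIdealRing.of_surjective (ps14_polyEquiv y hy).toRingEquiv.toRingHom
    (ps14_polyEquiv y hy).surjective

/-- Elements of `K(y)` integral over `K[y]` lie in `K[y]`. -/
theorem ps14_mem_adjoin_of_isIntegral (y : F) (hy : Transcendental K y) (r : F) (hr : r ∈ K⟮y⟯)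
    (hint : IsIntegral (Algebra.adjoin K {y}) r) : r ∈ Algebra.adjoin K {y} := by
  haveI := ps14_isPrincipalIdealRing y hy
  have h1 : IsIntegral (Algebra.adjoin K {y}) (⟨r, hr⟩ : K⟮y⟯) := by
    rw [← isIntegral_algebraMap_iff (B := F) (algebraMap K⟮y⟯ F).injective]
    exact hint
  obtain ⟨a, ha⟩ := IsIntegrallyClosed.isIntegral_iff.mp h1
  have h2 : (a : F) = r := congrArg Subtype.val ha
  rw [← h2]
  exact a.2

/-- `K[y] ⊆ O_v` when `y ∈ O_v`. -/
theorem ps14_adjoin_le (y : F) (v : Place K F) (hv : y ∈ v.toValuationSubring)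
    (a : Algebra.adjoin K {y}) : (a : F) ∈ v.toValuationSubring := by
  let S : Subalgebra K F :=
    { v.toValuationSubring.toSubring.toSubsemiring with
      algebraMap_mem' := v.algebraMap_mem' }
  have hle : Algebra.adjoin K {y} ≤ S := Algebra.adjoin_le (by
    intro x hx
    rw [Set.mem_singleton_iff] at hx
    rw [hx]
    exact hv)
  exact hle a.2

/-- Valuation rings containing `y` contain the integral closure of `K[y]`. -/
theorem ps14_mem_of_isIntegral (y : F) (v : Place K F) (hv : y ∈ v.toValuationSubring) (f : F)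
    (hf : IsIntegral (Algebra.adjoin K {y}) f) : f ∈ v.toValuationSubring := by
  let ψ : Algebra.adjoin K {y} →+* v.toValuationSubring :=
    (algebraMap (Algebra.adjoin K {y}) F).codRestrict v.toValuationSubring.toSubring
      (ps14_adjoin_le y v hv)
  obtain ⟨p, hp, hpe⟩ := hf
  have hint : IsIntegral v.toValuationSubring f :=
    ⟨p.map ψ, hp.map ψ, by rw [Polynomial.eval₂_map]; exact hpe⟩
  obtain ⟨z, hz⟩ := IsIntegrallyClosed.isIntegral_iff.mp hint
  rw [← hz]
  exact z.2

theorem ps14_isScalarTower (y : F) :
    IsScalarTower K (integralClosure (Algebra.adjoin K {y}) F) F :=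
  IsScalarTower.of_algebraMap_eq (fun c => by
    rw [IsScalarTower.algebraMap_apply K (Algebra.adjoin K {y})
      (integralClosure (Algebra.adjoin K {y}) F)]
    rfl)

theorem ps14_isDedekindDomain (y : F) (hy : Transcendental K y) [FiniteDimensional K⟮y⟯ F]
    [Algebra.IsSeparable K⟮y⟯ F] :
    IsDedekindDomain (integralClosure (Algebra.adjoin K {y}) F) := by
  haveI := ps14_isPrincipalIdealRing y hy
  exact integralClosure.isDedekindDomain (Algebra.adjoin K {y}) K⟮y⟯ F

theorem ps14_isFractionRing (y : F) [FiniteDimensional K⟮y⟯ F] :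
    IsFractionRing (integralClosure (Algebra.adjoin K {y}) F) F :=
  integralClosure.isFractionRing_of_finite_extension K⟮y⟯ F

theorem ps14_finite_integralClosure (y : F) (hy : Transcendental K y) [FiniteDimensional K⟮y⟯ F]
    [Algebra.IsSeparable K⟮y⟯ F] :
    Module.Finite (Algebra.adjoin K {y}) (integralClosure (Algebra.adjoin K {y}) F) := by
  haveI := ps14_isPrincipalIdealRing y hy
  exact IsIntegralClosure.finite (Algebra.adjoin K {y}) K⟮y⟯ F _

/-- Every place whose valuation ring contains `y` comes from a height one prime of the integral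
closure of `K[y]`. -/
theorem ps14_exists_eq_ofHeightOneSpectrum (y : F) (hy : Transcendental K y)
    [FiniteDimensional K⟮y⟯ F] [Algebra.IsSeparable K⟮y⟯ F] (v : Place K F)
    (hv : y ∈ v.toValuationSubring) :
    haveI := ps14_isDedekindDomain y hy
    haveI := ps14_isFractionRing (K := K) y
    haveI := ps14_isScalarTower (K := K) y
    ∃ w : HeightOneSpectrum (integralClosure (Algebra.adjoin K {y}) F),
      Place.ofHeightOneSpectrum (K := K) w = v := by
  haveI := ps14_isDedekindDomain y hy
  haveI := ps14_isFractionRing (K := K) y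
  haveI := ps14_isScalarTower (K := K) y
  exact wp1a_exists_heightOneSpectrum v (fun b => ps14_mem_of_isIntegral y v hv _ b.2)

end ps14_concrete

section ps14_lin

open IsDedekindDomain IsDedekindDomain.HeightOneSpectrum WithZero
open scoped IntermediateField.algebraAdjoinAdjoin

variable {K F : Type*} [Field K] [IsAlgClosed K] [Field F] [Algebra K F]

/-- `y - a` as an element of `K[y]`. -/
def ps14_lin (y : F) (a : K) : Algebra.adjoin K {y} :=
  ⟨y - algebraMap K F a,
    sub_mem (Algebra.self_mem_adjoin_singleton K y) (Subalgebra.algebraMap_mem _ a)⟩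

/-- `y - a` as an element of the integral closure of `K[y]`. -/
def ps14_linB (y : F) (a : K) : integralClosure (Algebra.adjoin K {y}) F :=
  algebraMap (Algebra.adjoin K {y}) (integralClosure (Algebra.adjoin K {y}) F) (ps14_lin y a)

theorem ps14_linB_coe (y : F) (a : K) :
    algebraMap (integralClosure (Algebra.adjoin K {y}) F) F (ps14_linB (K := K) y a) =
      y - algebraMap K F a := rfl

theorem ps14_lin_sub_ne_zero (y : F) (hy : Transcendental K y) (a : K) :
    y - algebraMap K F a ≠ 0 := by
  intro h
  apply hy
  rw [sub_eq_zero] at h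
  rw [h]
  exact isAlgebraic_algebraMap a

theorem ps14_linB_ne_zero (y : F) (hy : Transcendental K y) (a : K) :
    ps14_linB (K := K) y a ≠ 0 := by
  intro h
  have h1 := congrArg (algebraMap (integralClosure (Algebra.adjoin K {y}) F) F) h
  rw [ps14_linB_coe, map_zero] at h1
  exact ps14_lin_sub_ne_zero y hy a h1

theorem ps14_polyEquiv_X_sub_C (y : F) (hy : Transcendental K y) (a : K) :
    ps14_polyEquiv y hy (Polynomial.X - Polynomial.C a) = ps14_lin y a := by
  ext
  simp [ps14_polyEquiv_coe, ps14_lin]

theorem ps14_lin_prime (y : F) (hy : Transcendental K y) (a : K) :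
    Prime (ps14_lin (K := K) y a) := by
  rw [← ps14_polyEquiv_X_sub_C y hy]
  exact (MulEquiv.prime_iff (ps14_polyEquiv y hy).toMulEquiv).mpr (Polynomial.prime_X_sub_C a)

theorem ps14_lin_isMaximal (y : F) (hy : Transcendental K y) (a : K) :
    (Ideal.span {ps14_lin (K := K) y a}).IsMaximal := by
  haveI := ps14_isPrincipalIdealRing y hy
  have hprime := ps14_lin_prime (K := K) y hy a
  exact ((Ideal.span_singleton_prime hprime.ne_zero).mpr hprime).isMaximal
    (by rw [Ne, Ideal.span_singleton_eq_bot]; exact hprime.ne_zero)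

theorem ps14_surjective_quot (y : F) (hy : Transcendental K y) (a : K) :
    Function.Surjective ((Ideal.Quotient.mk (Ideal.span {ps14_lin (K := K) y a})).comp
      (algebraMap K (Algebra.adjoin K {y}))) := by
  intro x
  obtain ⟨b, rfl⟩ := Ideal.Quotient.mk_surjective x
  obtain ⟨q, rfl⟩ := (ps14_polyEquiv y hy).surjective b
  refine ⟨q.eval a, ?_⟩
  rw [RingHom.comp_apply, Ideal.Quotient.eq, Ideal.mem_span_singleton]
  obtain ⟨r, hr⟩ : (Polynomial.X - Polynomial.C a) ∣ q - Polynomial.C (q.eval a) :=
    Polynomial.X_sub_C_dvd_sub_C_eval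
  refine ⟨- ps14_polyEquiv y hy r, ?_⟩
  have h1 := congrArg (ps14_polyEquiv y hy) hr
  rw [map_sub, map_mul, ps14_polyEquiv_X_sub_C] at h1
  have h2 : ps14_polyEquiv y hy (Polynomial.C (q.eval a)) =
      algebraMap K (Algebra.adjoin K {y}) (q.eval a) := (ps14_polyEquiv y hy).commutes _
  rw [h2] at h1
  linear_combination -h1

/-- The places where `y - a` vanishes are exactly the places attached to the primes containing
`y - a`. -/
theorem ps14_zeros_eq_image (y : F) (hy : Transcendental K y) [FiniteDimensional K⟮y⟯ F]
    [Algebra.IsSeparable K⟮y⟯ F] (a : K) :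
    haveI := ps14_isDedekindDomain y hy
    haveI := ps14_isFractionRing (K := K) y
    haveI := ps14_isScalarTower (K := K) y
    {v : Place K F | 0 < v.ord (y - algebraMap K F a)} =
      (fun w : HeightOneSpectrum (integralClosure (Algebra.adjoin K {y}) F) =>
        Place.ofHeightOneSpectrum (K := K) (F := F) w) ''
        {w | w.asIdeal ∣ Ideal.span {ps14_linB (K := K) y a}} := by
  haveI := ps14_isDedekindDomain y hy
  haveI := ps14_isFractionRing (K := K) y
  haveI := ps14_isScalarTower (K := K) y
  ext v
  simp only [Set.mem_setOf_eq, Set.mem_image, Ideal.dvd_iff_le, Ideal.span_singleton_le_iff_mem]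
  constructor
  · intro hv
    have hyv : y ∈ v.toValuationSubring := by
      have h1 := wp1a_mem_of_ord_pos v hv
      have h2 := v.toValuationSubring.add_mem _ _ h1 (v.algebraMap_mem' a)
      rwa [sub_add_cancel] at h2
    obtain ⟨w, rfl⟩ := ps14_exists_eq_ofHeightOneSpectrum y hy v hyv
    refine ⟨w, ?_, rfl⟩
    rw [← wp1a_ord_pos_iff (K := K) (F := F) w (ps14_linB_ne_zero y hy a), ps14_linB_coe]
    exact hv
  · rintro ⟨w, hw, rfl⟩
    rw [← wp1a_ord_pos_iff (K := K) (F := F) w (ps14_linB_ne_zero y hy a), ps14_linB_coe] at hw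
    exact hw

theorem ps14_finite_zeros (y : F) (hy : Transcendental K y) [FiniteDimensional K⟮y⟯ F]
    [Algebra.IsSeparable K⟮y⟯ F] (a : K) :
    {v : Place K F | 0 < v.ord (y - algebraMap K F a)}.Finite := by
  haveI := ps14_isDedekindDomain y hy
  haveI := ps14_isFractionRing (K := K) y
  haveI := ps14_isScalarTower (K := K) y
  rw [ps14_zeros_eq_image y hy a]
  refine Set.Finite.image _ (Ideal.finite_factors ?_)
  rw [Ne, Ideal.zero_eq_bot, Ideal.span_singleton_eq_bot]
  exact ps14_linB_ne_zero y hy a

set_option synthInstance.maxHeartbeats 200000 in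
theorem ps14_inertiaDeg_eq_one (y : F) (hy : Transcendental K y) [FiniteDimensional K⟮y⟯ F]
    (a : K) (P : Ideal (integralClosure (Algebra.adjoin K {y}) F)) [P.IsPrime]
    [P.LiesOver (Ideal.span {ps14_lin (K := K) y a})] :
    Ideal.inertiaDeg' (Ideal.span {ps14_lin (K := K) y a}) P = 1 := by
  haveI := ps14_lin_isMaximal (K := K) y hy a
  letI : Field (Algebra.adjoin K {y} ⧸ Ideal.span {ps14_lin (K := K) y a}) :=
    Ideal.Quotient.field _
  haveI : IsAlgClosed (Algebra.adjoin K {y} ⧸ Ideal.span {ps14_lin (K := K) y a}) :=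
    wp1a_isAlgClosed_of_ringEquiv
      (RingEquiv.ofBijective _ ⟨RingHom.injective _, ps14_surjective_quot y hy a⟩)
  rw [Ideal.inertiaDeg'_algebraMap]
  have hbij := IsAlgClosed.algebraMap_bijective_of_isIntegral
    (k := Algebra.adjoin K {y} ⧸ Ideal.span {ps14_lin (K := K) y a})
    (K := integralClosure (Algebra.adjoin K {y}) F ⧸ P)
  exact ((LinearEquiv.ofBijective
    (Algebra.linearMap (Algebra.adjoin K {y} ⧸ Ideal.span {ps14_lin (K := K) y a})
      (integralClosure (Algebra.adjoin K {y}) F ⧸ P)) hbij).finrank_eq.symm.trans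
    (Module.finrank_self _))

theorem ps14_liesOver_iff (y : F) (hy : Transcendental K y) (a : K)
    (P : Ideal (integralClosure (Algebra.adjoin K {y}) F)) (hP : P.IsPrime) :
    P.LiesOver (Ideal.span {ps14_lin (K := K) y a}) ↔ ps14_linB (K := K) y a ∈ P := by
  haveI := ps14_lin_isMaximal (K := K) y hy a
  constructor
  · intro h
    have h1 : ps14_lin (K := K) y a ∈ P.under (Algebra.adjoin K {y}) := by
      rw [← h.over]
      exact Ideal.subset_span rfl
    exact h1
  · intro h
    refine ⟨?_⟩
    refine Ideal.IsMaximal.eq_of_le inferInstance ?_ ?_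
    · exact (Ideal.IsPrime.under (Algebra.adjoin K {y}) P).ne_top
    · rw [Ideal.span_le, Set.singleton_subset_iff]
      exact h

end ps14_lin

end Fermat.Agent.S37
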