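import Fermat.Agent.S37.Tube21
import Fermat.Agent.S37.PlacesSep14
import Fermat.Agent.S37.DiscCoord25
import Fermat.Agent.S37.CrossChartGa25
import Fermat.Agent.S37.ChartMod80
import Fermat.Agent.S37.HJInst91
import Fermat.Agent.S37.GeoRC17

/-!
# S37, row XC (helper25): concrete tube functions at level `M` for ANY place reduction

For a place reduction `r0` at level `M` in the Prelude sense (`IsPlaceReductionModL A M r0`)
which respects the classes of a chart coordinate `x` (Hauptmodul `h` of level `2` or `3`), and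
chart normality for `x` and `1/x`, the general tube theorem `tb21_tube_fun` (helper21) gives tube
functions for every finite set of places of the special fibre; hence tube divisors for every
finite set of `j`-classes, which is the hypothesis `htube` of `geo17_RC_of_cls` (helper17).

* `tf25_lift_abs` : `tb21_Lift` from a Dedekind chart ring of the special fibre (coverage) and
  lifting of its elements.
* `tf25_gauss` : the Gauss package `tb21_Gauss` for `(ga41_O, ga41_red)` and any `r0`.
* `tf25_class` : `tb21_Class` from class compatibility in the `cx91` shape.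
* `tf25_lift` : `tb21_Lift` for a chart coordinate from `ka46_NormalAt`.
* `tf25_tube` : tube functions for finite sets of places of the special fibre.
* `tf25_htube` : tube divisors for finite sets of `j`-classes.
-/

set_option autoImplicit false
set_option synthInstance.maxHeartbeats 400000
set_option linter.style.haveILetI false

open ModularCurve IntermediateField AlgebraicCurve IsDedekindDomain
  IsDedekindDomain.HeightOneSpectrum

namespace Fermat.Agent.S37

open Fermat.Agent.S18 Fermat.Agent.S24 Fermat.Agent.S28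

open scoped WithZero

local notation "Qb" => AlgebraicClosure ℚ

/-! ### Chart lifting from a Dedekind chart ring -/

section LiftAbs

variable {L k F Fk : Type*} [Field L] [Field F] [Algebra L F] [Field k] [Field Fk] [Algebra k Fk]

/-- `tb21_Lift` from: a Dedekind ring `Bk` of the special fibre covering the places where `x̄` is
regular, and lifting of the elements of `Bk` to elements of the Gauss ring which are regular
wherever `x` is. -/
theorem tf25_lift_abs {V : Subring F} (red : V →+* Fk) (x : V)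
    {Bk : Type*} [CommRing Bk] [IsDedekindDomain Bk] [Algebra Bk Fk] [IsFractionRing Bk Fk]
    [Algebra k Bk] [IsScalarTower k Bk Fk]
    (hcov : ∀ Q : Place k Fk, 0 ≤ Q.ord (red x) →
      ∃ w : HeightOneSpectrum Bk, Place.ofHeightOneSpectrum (K := k) w = Q)
    (hlift : ∀ z : Bk, ∃ t : V, (∀ P : Place L F, 0 ≤ P.ord (x : F) → 0 ≤ P.ord (t : F)) ∧
      red t = algebraMap Bk Fk z) :
    tb21_Lift L k V red x := by
  classical
  intro Q₀ S hQ₀ hS
  obtain ⟨w₀, hw₀⟩ := hcov Q₀ hQ₀
  have hex : ∀ Q : Place k Fk, ∃ w : HeightOneSpectrum Bk,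
      Q ∈ S → Place.ofHeightOneSpectrum (K := k) w = Q := by
    intro Q
    by_cases hQ : Q ∈ S
    · obtain ⟨w, hw⟩ := hcov Q (hS Q hQ)
      exact ⟨w, fun _ => hw⟩
    · exact ⟨w₀, fun h => absurd h hQ⟩
  choose W hW using hex
  obtain ⟨z, hz1, hz2⟩ := dc25_crt (S.image W) w₀
  obtain ⟨t, htreg, htred⟩ := hlift z
  refine ⟨t, htreg, ?_, ?_⟩
  · rw [htred, ← hw₀, wp1a_ord_ofHeightOneSpectrum, valuation_of_algebraMap, hz1,
      WithZero.log_exp]
    norm_num
  · intro Q hQ hne
    have hWQ := hW Q hQ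
    have hWne : W Q ≠ w₀ := by
      intro h
      apply hne
      rw [← hWQ, h, hw₀]
    have h1 := hz2 (W Q) (Finset.mem_image_of_mem W hQ) hWne
    have hz10 : z - 1 ≠ 0 := by
      intro h0
      have hz : z = 1 := sub_eq_zero.mp h0
      rw [hz, map_one] at hz1
      exact absurd hz1.symm (ne_of_lt xc25_exp_neg_one_lt_one)
    have h2 := (wp1a_ord_pos_iff (K := k) (F := Fk) (W Q) hz10).mpr h1
    rw [hWQ, map_sub, map_one] at h2
    rw [htred]
    exact h2

end LiftAbs

/-! ### The special fibre -/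

section SpecialFibre

variable (M : ℕ) [NeZero M]

/-- Every place of the special fibre is a pole of a given non-constant function or carries a
value of it. -/
theorem tf25_dichotomy_k (k : Type*) [Field k] [IsAlgClosed k]
    (X : modularFunctionFieldFullC k M)
    (hX : ∀ c : k, X ≠ algebraMap k (modularFunctionFieldFullC k M) c)
    (Q : Place k (modularFunctionFieldFullC k M)) :
    Q.ord X < 0 ∨ ∃ c : k, 0 < Q.ord (X - algebraMap k (modularFunctionFieldFullC k M) c) := by
  by_cases hp : Q.ord X < 0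
  · exact Or.inl hp
  · right
    have hmem : X ∈ Q.toValuationSubring := by
      rw [es87_ord_neg_iff, not_not] at hp
      exact hp
    haveI := rc5_finiteDimensional k M
    obtain ⟨c, hc | hc⟩ := wp1_exists_const (rc5_j k M) (rc5_j_transcendental k M) Q X hmem
    · exact absurd hc (hX c)
    · exact ⟨c, hc⟩

/-- The places of the special fibre whose `j`-class lies in a finite set form a finite set. -/
theorem tf25_finite_cls (k : Type*) [Field k] [IsAlgClosed k] (G : Finset (Option k)) :
    {Q : Place k (modularFunctionFieldFullC k M) | cx91_cls (geo17_jbar k M) Q ∈ G}.Finite := by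
  haveI := rc5_finiteDimensional k M
  haveI := rc5_isSeparable_full k M
  have hnc : ∀ c : k, rc5_j k M ≠ algebraMap k (modularFunctionFieldFullC k M) c := by
    intro c hc
    exact rc5_j_transcendental k M (hc ▸ isAlgebraic_algebraMap c)
  have hsome : ∀ c : k, {Q : Place k (modularFunctionFieldFullC k M) |
      cx91_cls (geo17_jbar k M) Q = some c}.Finite := by
    intro c
    refine (ps14_finite_zeros (rc5_j k M) (rc5_j_transcendental k M) c).subset ?_
    intro Q hQ
    exact (cx91_cls_eq_some_iff _ Q c).mp hQ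
  have hnone : {Q : Place k (modularFunctionFieldFullC k M) |
      cx91_cls (geo17_jbar k M) Q = none}.Finite := by
    haveI := ps14_finiteDimensional_inv (K := k) (rc5_j k M)
    haveI := ps14_isSeparable_inv (K := k) (rc5_j k M)
    refine (ps14_finite_zeros (rc5_j k M)⁻¹
      (ps14_transcendental_inv (rc5_j_transcendental k M)) 0).subset ?_
    intro Q hQ
    have hpole : Q.ord (rc5_j k M) < 0 := by
      rcases tf25_dichotomy_k M k (rc5_j k M) hnc Q with h | ⟨c, hc⟩
      · exact h
      · exact absurd hc ((cx91_cls_eq_none_iff _ Q).mp hQ c)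
    show 0 < Q.ord ((rc5_j k M)⁻¹ - algebraMap k (modularFunctionFieldFullC k M) 0)
    rw [map_zero, sub_zero, Place.ord_inv]
    omega
  refine Set.Finite.subset (Set.Finite.biUnion G.finite_toSet
    (t := fun o => {Q : Place k (modularFunctionFieldFullC k M) |
      cx91_cls (geo17_jbar k M) Q = o}) ?_) ?_
  · intro o _
    cases o with
    | none => exact hnone
    | some c => exact hsome c
  · intro Q hQ
    simp only [Set.mem_iUnion, Set.mem_ofPred_eq]
    exact ⟨_, hQ, rfl⟩

end SpecialFibre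

/-! ### The modular instances -/

section Modular

variable (M : ℕ) [NeZero M] (A : ValuationSubring Qb)
  (hM : (M : IsLocalRing.ResidueField A) ≠ 0)

include hM

/-- **The Gauss package** for `(ga41_O, ga41_red)` and any place reduction `r0`. -/
theorem tf25_gauss
    (r0 : Place Qb (modularFunctionFieldBar M) →
      Place (IsLocalRing.ResidueField A)
        (modularFunctionFieldFullC (IsLocalRing.ResidueField A) M))
    (hr : IsPlaceReductionModL A M r0) :
    tb21_Gauss A (IsLocalRing.residue A) r0 (ga41_O M A) (ga41_red M A hM) := by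
  haveI := hi63_hasPrincipalDivisors_bar M
  refine ⟨?_, ?_, ?_, ?_, ?_⟩
  · intro a ha
    exact (IsLocalRing.residue_eq_zero_iff a).mpr ((IsLocalRing.mem_maximalIdeal a).mpr ha)
  · intro a
    refine ⟨ga41_algebraMap_mem M A a, ?_⟩
    apply Subtype.ext
    rw [ga41_red_coe, ga41_redHom_algebraMap]
    rfl
  · intro v hv
    have hu : IsUnit v := (ga41_isUnit_iff M A v).mpr (fun h0 => hv (Subtype.ext h0))
    obtain ⟨u, hu⟩ := hu.exists_right_inv
    exact ⟨u, hu⟩
  · exact fun v hv D hD Q => xc25_ga41_cons M A hM r0 hr v hv D hD Q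
  · intro P f hf
    haveI := hi63_finite_x M
    exact wp1_exists_const (hi63_x M) (hi63_x_transcendental M) P f
      ((wp1_mem_iff_ord_nonneg P f).mpr hf)

variable (g : LaurentSeries ℤ)

/-- **Class compatibility** in the `tb21` shape from the `cx91` shape. -/
theorem tf25_class (hgF : ka46_g Qb g ∈ modularFunctionFieldBar M)
    (hgk : ka46_g (IsLocalRing.ResidueField A) g ∈
      modularFunctionFieldFullC (IsLocalRing.ResidueField A) M)
    (htr : Transcendental (IsLocalRing.ResidueField A) (ka46_g (IsLocalRing.ResidueField A) g))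
    (r0 : Place Qb (modularFunctionFieldBar M) →
      Place (IsLocalRing.ResidueField A)
        (modularFunctionFieldFullC (IsLocalRing.ResidueField A) M))
    (hcls : ∀ P, cx91_cls (cm80_xk M g (IsLocalRing.ResidueField A) hgk) (r0 P) =
      cx91_clsL A (cm80_xF M g hgF) P) :
    tb21_Class A (IsLocalRing.residue A) r0 (ga41_O M A) (ga41_red M A hM)
      ⟨cm80_xF M g hgF, cm80_xF_mem_O M A g hgF⟩ := by
  haveI := rc5_isAlgClosed_residueField A
  have hred : ga41_red M A hM ⟨cm80_xF M g hgF, cm80_xF_mem_O M A g hgF⟩ =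
      cm80_xk M g (IsLocalRing.ResidueField A) hgk := cm80_red_xV M A g hM hgF hgk
  have hnc : ∀ c : IsLocalRing.ResidueField A, cm80_xk M g (IsLocalRing.ResidueField A) hgk ≠
      algebraMap (IsLocalRing.ResidueField A)
        (modularFunctionFieldFullC (IsLocalRing.ResidueField A) M) c := by
    intro c hc
    exact cm80_xk_transcendental M g hgk htr (hc ▸ isAlgebraic_algebraMap c)
  have hnone : ∀ P : Place Qb (modularFunctionFieldBar M),
      cx91_clsL A (cm80_xF M g hgF) P = none →
      (r0 P).ord (cm80_xk M g (IsLocalRing.ResidueField A) hgk) < 0 := by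
    intro P hP
    have h1 := hcls P
    rw [hP, cx91_cls_eq_none_iff] at h1
    rcases tf25_dichotomy_k M (IsLocalRing.ResidueField A) _ hnc (r0 P) with h3 | ⟨c, hc⟩
    · exact h3
    · exact absurd hc (h1 c)
  refine ⟨?_, ?_, ?_, ?_⟩
  · intro c
    rw [hred]
    exact hnc c
  · intro P a ha
    rw [hred]
    have h1 := hcls P
    rw [cx91_clsL_eq_some (cm80_xF M g hgF) P a ha, cx91_cls_eq_some_iff] at h1
    exact h1
  · intro P a haA ha
    rw [hred]
    apply hnone
    rw [cx91_clsL_eq_none_iff]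
    intro a' ha'
    apply haA
    rw [geo17_value_unique P _ a (a' : Qb) ha ha']
    exact a'.2
  · intro P hP
    rw [hred]
    apply hnone
    rw [cx91_clsL_eq_none_iff]
    intro a' ha'
    exact geo17_not_pole_of_value P _ (a' : Qb) ha' hP

set_option maxHeartbeats 2000000 in
/-- **Chart lifting** for a chart coordinate from chart normality. -/
theorem tf25_lift (hgF : ka46_g Qb g ∈ modularFunctionFieldBar M)
    (hgk : ka46_g (IsLocalRing.ResidueField A) g ∈
      modularFunctionFieldFullC (IsLocalRing.ResidueField A) M)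
    (htr : Transcendental (IsLocalRing.ResidueField A) (ka46_g (IsLocalRing.ResidueField A) g))
    (hjx : cm80_xF M (jqModC ℤ) (cm80_j_memF M) ∈ Qb⟮cm80_xF M g hgF⟯)
    (hnorm : ka46_NormalAt A.subtype (IsLocalRing.residue A) M g) :
    tb21_Lift Qb (IsLocalRing.ResidueField A) (ga41_O M A) (ga41_red M A hM)
      ⟨cm80_xF M g hgF, cm80_xF_mem_O M A g hgF⟩ := by
  haveI := rc5_isAlgClosed_residueField A
  have hytr : Transcendental (IsLocalRing.ResidueField A)
      (cm80_red M A hM (cm80_xV M A g hM hgF)) :=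
    cm80_red_xV_transcendental M A g hM hgF hgk htr
  haveI := cm80_finiteDimensional_k M A hM g hgF hgk htr hjx
  haveI := cm80_isSeparable_k M A hM g hgF hgk htr hjx
  haveI := ps14_isDedekindDomain _ hytr
  haveI := ps14_isFractionRing (K := IsLocalRing.ResidueField A)
    (cm80_red M A hM (cm80_xV M A g hM hgF))
  haveI := ps14_isScalarTower (K := IsLocalRing.ResidueField A)
    (cm80_red M A hM (cm80_xV M A g hM hgF))
  refine tf25_lift_abs (L := Qb) (k := IsLocalRing.ResidueField A)
    (Bk := integralClosure (Algebra.adjoin (IsLocalRing.ResidueField A)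
      {cm80_red M A hM (cm80_xV M A g hM hgF)})
      ↥(modularFunctionFieldFullC (IsLocalRing.ResidueField A) M))
    (ga41_red M A hM) _ ?_ ?_
  · intro Q hQ
    exact ps14_exists_eq_ofHeightOneSpectrum _ hytr Q ((wp1_mem_iff_ord_nonneg Q _).mpr hQ)
  · intro z
    obtain ⟨f, hfint, hfred⟩ := cm80_I2 M A g hM hgF hgk htr hnorm
      (z : ↥(modularFunctionFieldFullC (IsLocalRing.ResidueField A) M)) z.2
    refine ⟨⟨f.1, f.2⟩, ?_, hfred⟩
    intro P hP
    exact (wp1_mem_iff_ord_nonneg P _).mp
      (ps14_mem_of_isIntegral (K := Qb) (cm80_xF M g hgF) P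
        ((wp1_mem_iff_ord_nonneg P _).mpr hP) _ hfint)

variable (ginv : LaurentSeries ℤ)

/-- **Tube functions for finite sets of places of the special fibre**, for any place reduction
`r0` respecting the classes of the chart coordinate `g`, given chart normality for `g` and
`1/g`. -/
theorem tf25_tube (hgF : ka46_g Qb g ∈ modularFunctionFieldBar M)
    (hgk : ka46_g (IsLocalRing.ResidueField A) g ∈
      modularFunctionFieldFullC (IsLocalRing.ResidueField A) M)
    (htr : Transcendental (IsLocalRing.ResidueField A) (ka46_g (IsLocalRing.ResidueField A) g))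
    (hjx : cm80_xF M (jqModC ℤ) (cm80_j_memF M) ∈ Qb⟮cm80_xF M g hgF⟯)
    (hnorm : ka46_NormalAt A.subtype (IsLocalRing.residue A) M g)
    (hginvF : ka46_g Qb ginv ∈ modularFunctionFieldBar M)
    (hginvk : ka46_g (IsLocalRing.ResidueField A) ginv ∈
      modularFunctionFieldFullC (IsLocalRing.ResidueField A) M)
    (htrinv : Transcendental (IsLocalRing.ResidueField A)
      (ka46_g (IsLocalRing.ResidueField A) ginv))
    (hjxinv : cm80_xF M (jqModC ℤ) (cm80_j_memF M) ∈ Qb⟮cm80_xF M ginv hginvF⟯)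
    (hnorminv : ka46_NormalAt A.subtype (IsLocalRing.residue A) M ginv)
    (hmul : cm80_xF M g hgF * cm80_xF M ginv hginvF = 1)
    (r0 : Place Qb (modularFunctionFieldBar M) →
      Place (IsLocalRing.ResidueField A)
        (modularFunctionFieldFullC (IsLocalRing.ResidueField A) M))
    (hr : IsPlaceReductionModL A M r0)
    (hcls : ∀ P, cx91_cls (cm80_xk M g (IsLocalRing.ResidueField A) hgk) (r0 P) =
      cx91_clsL A (cm80_xF M g hgF) P)
    (S : Finset (Place (IsLocalRing.ResidueField A)
      (modularFunctionFieldFullC (IsLocalRing.ResidueField A) M)))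
    (P : Place Qb (modularFunctionFieldBar M)) (hP : r0 P ∈ S) :
    ∃ f : ↥(modularFunctionFieldBar M), f ≠ 0 ∧ P.ord f = 1 ∧
      ∀ P' : Place Qb (modularFunctionFieldBar M), P' ≠ P → r0 P' ∈ S → P'.ord f = 0 := by
  haveI := hi63_hasPrincipalDivisors_bar M
  haveI := rc5_isAlgClosed_residueField A
  haveI : Infinite (IsLocalRing.ResidueField A) := IsAlgClosed.instInfinite
  have hxy : (⟨cm80_xF M g hgF, cm80_xF_mem_O M A g hgF⟩ : ga41_O M A) *
      ⟨cm80_xF M ginv hginvF, cm80_xF_mem_O M A ginv hginvF⟩ = 1 := Subtype.ext hmul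
  exact tb21_tube_fun (tf25_gauss M A hM r0 hr) IsLocalRing.residue_surjective hxy
    (tf25_class M A hM g hgF hgk htr r0 hcls)
    (tf25_lift M A hM g hgF hgk htr hjx hnorm)
    (tf25_lift M A hM ginv hginvF hginvk htrinv hjxinv hnorminv) S P hP

/-- **Tube divisors for finite sets of `j`-classes** (the hypothesis `htube` of
`geo17_RC_of_cls`), for any place reduction `r0` respecting the classes of the chart coordinate
`g` and of `j`. -/
theorem tf25_htube (hgF : ka46_g Qb g ∈ modularFunctionFieldBar M)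
    (hgk : ka46_g (IsLocalRing.ResidueField A) g ∈
      modularFunctionFieldFullC (IsLocalRing.ResidueField A) M)
    (htr : Transcendental (IsLocalRing.ResidueField A) (ka46_g (IsLocalRing.ResidueField A) g))
    (hjx : cm80_xF M (jqModC ℤ) (cm80_j_memF M) ∈ Qb⟮cm80_xF M g hgF⟯)
    (hnorm : ka46_NormalAt A.subtype (IsLocalRing.residue A) M g)
    (hginvF : ka46_g Qb ginv ∈ modularFunctionFieldBar M)
    (hginvk : ka46_g (IsLocalRing.ResidueField A) ginv ∈
      modularFunctionFieldFullC (IsLocalRing.ResidueField A) M)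
    (htrinv : Transcendental (IsLocalRing.ResidueField A)
      (ka46_g (IsLocalRing.ResidueField A) ginv))
    (hjxinv : cm80_xF M (jqModC ℤ) (cm80_j_memF M) ∈ Qb⟮cm80_xF M ginv hginvF⟯)
    (hnorminv : ka46_NormalAt A.subtype (IsLocalRing.residue A) M ginv)
    (hmul : cm80_xF M g hgF * cm80_xF M ginv hginvF = 1)
    (r0 : Place Qb (modularFunctionFieldBar M) →
      Place (IsLocalRing.ResidueField A)
        (modularFunctionFieldFullC (IsLocalRing.ResidueField A) M))
    (hr : IsPlaceReductionModL A M r0)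
    (hcls : ∀ P, cx91_cls (cm80_xk M g (IsLocalRing.ResidueField A) hgk) (r0 P) =
      cx91_clsL A (cm80_xF M g hgF) P)
    (hclsj : ∀ P, cx91_cls (geo17_jbar (IsLocalRing.ResidueField A) M) (r0 P) =
      cx91_clsL A (es87_j Qb M) P)
    (P : Place Qb (modularFunctionFieldBar M))
    (G : Finset (Option (IsLocalRing.ResidueField A)))
    (hG : cx91_clsL A (es87_j Qb M) P ∈ G) :
    ∃ D ∈ Divisor.principal (K := Qb) (F := modularFunctionFieldBar M), D P = 1 ∧
      ∀ P', P' ≠ P → cx91_clsL A (es87_j Qb M) P' ∈ G → D P' = 0 := by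
  classical
  haveI := hi63_hasPrincipalDivisors_bar M
  haveI := rc5_isAlgClosed_residueField A
  have hfin := tf25_finite_cls M (IsLocalRing.ResidueField A) G
  have hmem : ∀ P' : Place Qb (modularFunctionFieldBar M),
      cx91_clsL A (es87_j Qb M) P' ∈ G → r0 P' ∈ hfin.toFinset := by
    intro P' h
    rw [Set.Finite.mem_toFinset]
    show cx91_cls (geo17_jbar (IsLocalRing.ResidueField A) M) (r0 P') ∈ G
    rw [hclsj P']
    exact h
  obtain ⟨f, hf0, hf1, hf2⟩ := tf25_tube M A hM g ginv hgF hgk htr hjx hnorm hginvF hginvk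
    htrinv hjxinv hnorminv hmul r0 hr hcls hfin.toFinset P (hmem P hG)
  obtain ⟨D, hD, -⟩ := HasPrincipalDivisors.exists_divisor (K := Qb) f hf0
  refine ⟨D, ⟨f, hf0, hD⟩, ?_, ?_⟩
  · rw [hD, hf1]
  · intro P' hne h
    rw [hD]
    exact hf2 P' hne (hmem P' h)

end Modular

/-! ### Levels divisible by `2` or `3`: the RC package from `(r0, hr, hcls)` -/

section Levels

variable (M : ℕ) [NeZero M] (A : ValuationSubring Qb) {ℓ : ℕ}

/-- A non-constant function of the special fibre has a value at every place where it is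
regular. -/
theorem tf25_htot_k (k : Type*) [Field k] [IsAlgClosed k]
    (X : modularFunctionFieldFullC k M)
    (hX : ∀ c : k, X ≠ algebraMap k (modularFunctionFieldFullC k M) c)
    (Q : Place k (modularFunctionFieldFullC k M)) (hmem : X ∈ Q.toValuationSubring) :
    ∃ c : k, 0 < Q.ord (X - algebraMap k (modularFunctionFieldFullC k M) c) := by
  rcases tf25_dichotomy_k M k X hX Q with h | h
  · exact absurd hmem ((es87_ord_neg_iff Q X).mp h)
  · exact h

/-- A non-constant function of the generic fibre has a value at every place where it is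
regular. -/
theorem tf25_htot_L (X : ↥(modularFunctionFieldBar M))
    (hX : ∀ c : Qb, X ≠ algebraMap Qb ↥(modularFunctionFieldBar M) c)
    (P : Place Qb (modularFunctionFieldBar M)) (hmem : X ∈ P.toValuationSubring) :
    ∃ c : Qb, 0 < P.ord (X - algebraMap Qb ↥(modularFunctionFieldBar M) c) := by
  haveI := hi63_finite_x M
  obtain ⟨c, hc | hc⟩ := wp1_exists_const (hi63_x M) (hi63_x_transcendental M) P X hmem
  · exact absurd hc (hX c)
  · exact ⟨c, hc⟩

/-- **Level `2 ∣ M`**: the RC package `geo17_RC M A` from a place reduction `r0` respecting the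
classes of the Hauptmodul `h₂`, given chart normality for `h₂` and `1/h₂`. -/
theorem tf25_RC_level2_of_normal (hℓ : ℓ.Prime) (hℓM : ¬ ℓ ∣ M) (hℓ2 : ℓ ≠ 2)
    (hA : A.LiesOverPrime ℓ) (h2 : 2 ∣ M)
    (hn : ka46_NormalAt A.subtype (IsLocalRing.residue A) M (h70_h2 ℤ))
    (hninv : ka46_NormalAt A.subtype (IsLocalRing.residue A) M (h70_h2inv ℤ))
    (r0 : Place Qb (modularFunctionFieldBar M) →
      Place (IsLocalRing.ResidueField A)
        (modularFunctionFieldFullC (IsLocalRing.ResidueField A) M))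
    (hr : IsPlaceReductionModL A M r0)
    (hmemL : h70_h2 Qb ∈ modularFunctionFieldBar M)
    (hmemk : h70_h2 (IsLocalRing.ResidueField A) ∈
      modularFunctionFieldFullC (IsLocalRing.ResidueField A) M)
    (hcls : ∀ P, cx91_cls (⟨h70_h2 (IsLocalRing.ResidueField A), hmemk⟩ :
        modularFunctionFieldFullC (IsLocalRing.ResidueField A) M) (r0 P) =
      cx91_clsL A (⟨h70_h2 Qb, hmemL⟩ : modularFunctionFieldBar M) P) :
    geo17_RC M A := by
  haveI := rc5_isAlgClosed_residueField A
  have hM : (M : IsLocalRing.ResidueField A) ≠ 0 := ga41_natCast_ne_zero M A hℓ hA hℓM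
  have h2k : (2 : IsLocalRing.ResidueField A) ≠ 0 := by
    have h := ga41_natCast_ne_zero 2 A hℓ hA
      (fun hd => hℓ2 ((Nat.prime_dvd_prime_iff_eq hℓ Nat.prime_two).mp hd))
    exact_mod_cast h
  have hgF := cm80_h2_memF M h2
  have hgk := cm80_h2_memk M h2 (IsLocalRing.ResidueField A) h2k
  have hginvF := cm80_h2inv_memF M h2
  have hginvk := cm80_h2inv_memk M h2 (IsLocalRing.ResidueField A) h2k
  have e1 : cm80_xk M (h70_h2 ℤ) (IsLocalRing.ResidueField A) hgk =
      ⟨h70_h2 (IsLocalRing.ResidueField A), hmemk⟩ := Subtype.ext (cm80_g_h2 _)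
  have e2 : cm80_xF M (h70_h2 ℤ) hgF = ⟨h70_h2 Qb, hmemL⟩ := Subtype.ext (cm80_g_h2 Qb)
  have hcls' : ∀ P, cx91_cls (cm80_xk M (h70_h2 ℤ) (IsLocalRing.ResidueField A) hgk) (r0 P) =
      cx91_clsL A (cm80_xF M (h70_h2 ℤ) hgF) P := by
    intro P
    rw [e1, e2]
    exact hcls P
  have hmul : cm80_xF M (h70_h2 ℤ) hgF * cm80_xF M (h70_h2inv ℤ) hginvF = 1 := by
    apply Subtype.ext
    show ka46_g Qb (h70_h2 ℤ) * ka46_g Qb (h70_h2inv ℤ) = 1
    rw [cm80_g_h2, cm80_g_h2inv]
    exact h70_h2_mul_h2inv Qb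
  have hXk : ∀ c : IsLocalRing.ResidueField A,
      (⟨h70_h2 (IsLocalRing.ResidueField A), hmemk⟩ :
        modularFunctionFieldFullC (IsLocalRing.ResidueField A) M) ≠
      algebraMap (IsLocalRing.ResidueField A)
        (modularFunctionFieldFullC (IsLocalRing.ResidueField A) M) c := by
    intro c hc
    have htr := cm80_xk_transcendental M (h70_h2 ℤ) hgk (cm80_h2_tr (IsLocalRing.ResidueField A))
    rw [e1, hc] at htr
    exact htr (isAlgebraic_algebraMap c)
  have hXL : ∀ c : Qb, (⟨h70_h2 Qb, hmemL⟩ : ↥(modularFunctionFieldBar M)) ≠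
      algebraMap Qb ↥(modularFunctionFieldBar M) c := by
    intro c hc
    have htr := (tf25_gauss M A hM r0 hr)
    have hC := tf25_class M A hM (h70_h2 ℤ) hgF hgk (cm80_h2_tr _) r0 hcls'
    have h3 := tb21_ne_const htr hC.nonconst c
    apply h3
    show cm80_xF M (h70_h2 ℤ) hgF = _
    rw [e2]
    exact hc
  have hclsj : ∀ P, cx91_cls (geo17_jbar (IsLocalRing.ResidueField A) M) (r0 P) =
      cx91_clsL A (es87_j Qb M) P := by
    intro P
    exact hj91_hcls (A := A) ⟨h70_h2 Qb, hmemL⟩ (cl91_JL M)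
      ⟨h70_h2 (IsLocalRing.ResidueField A), hmemk⟩ (cl91_J (IsLocalRing.ResidueField A) M)
      2 hj91_Nm2
      (fun Q => hj91_cls_k_level2 h2k hmemk
        (fun Q' hm => tf25_htot_k M (IsLocalRing.ResidueField A) _ hXk Q' hm) Q)
      (fun P' => hj91_cls_L_level2 A h2k hmemL (fun P'' hm => tf25_htot_L M _ hXL P'' hm) P')
      r0 hcls P
  exact geo17_RC_of_cls hℓ hℓM hA r0 hr hclsj (fun P G hG =>
    tf25_htube M A hM (h70_h2 ℤ) (h70_h2inv ℤ) hgF hgk (cm80_h2_tr _) (cm80_h2_jmem M h2) hn
      hginvF hginvk (cm80_h2inv_tr _) (cm80_h2inv_jmem M h2) hninv hmul r0 hr hcls' hclsj P G hG)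

/-- **Level `2 ∣ M`**, class compatibility in the `cm80` shape. -/
theorem tf25_RC_level2_of_normal' (hℓ : ℓ.Prime) (hℓM : ¬ ℓ ∣ M) (hℓ2 : ℓ ≠ 2)
    (hA : A.LiesOverPrime ℓ) (h2 : 2 ∣ M)
    (hn : ka46_NormalAt A.subtype (IsLocalRing.residue A) M (h70_h2 ℤ))
    (hninv : ka46_NormalAt A.subtype (IsLocalRing.residue A) M (h70_h2inv ℤ))
    (r0 : Place Qb (modularFunctionFieldBar M) →
      Place (IsLocalRing.ResidueField A)
        (modularFunctionFieldFullC (IsLocalRing.ResidueField A) M))
    (hr : IsPlaceReductionModL A M r0)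
    (hgF : ka46_g Qb (h70_h2 ℤ) ∈ modularFunctionFieldBar M)
    (hgk : ka46_g (IsLocalRing.ResidueField A) (h70_h2 ℤ) ∈
      modularFunctionFieldFullC (IsLocalRing.ResidueField A) M)
    (hcls : ∀ P, cx91_cls (cm80_xk M (h70_h2 ℤ) (IsLocalRing.ResidueField A) hgk) (r0 P) =
      cx91_clsL A (cm80_xF M (h70_h2 ℤ) hgF) P) :
    geo17_RC M A := by
  have hmemL : h70_h2 Qb ∈ modularFunctionFieldBar M := by
    rw [← cm80_g_h2]
    exact hgF
  have hmemk : h70_h2 (IsLocalRing.ResidueField A) ∈
      modularFunctionFieldFullC (IsLocalRing.ResidueField A) M := by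
    rw [← cm80_g_h2]
    exact hgk
  refine tf25_RC_level2_of_normal M A hℓ hℓM hℓ2 hA h2 hn hninv r0 hr hmemL hmemk (fun P => ?_)
  have e1 : cm80_xk M (h70_h2 ℤ) (IsLocalRing.ResidueField A) hgk =
      ⟨h70_h2 (IsLocalRing.ResidueField A), hmemk⟩ := Subtype.ext (cm80_g_h2 _)
  have e2 : cm80_xF M (h70_h2 ℤ) hgF = ⟨h70_h2 Qb, hmemL⟩ := Subtype.ext (cm80_g_h2 Qb)
  rw [← e1, ← e2]
  exact hcls P

/-- **Level `3 ∣ M`**: the RC package `geo17_RC M A` from a place reduction `r0` respecting the
classes of the Hauptmodul `h₃`, given chart normality for `h₃` and `1/h₃`. -/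
theorem tf25_RC_level3_of_normal (hℓ : ℓ.Prime) (hℓM : ¬ ℓ ∣ M) (hℓ3 : ℓ ≠ 3)
    (hA : A.LiesOverPrime ℓ) (h3 : 3 ∣ M)
    (hn : ka46_NormalAt A.subtype (IsLocalRing.residue A) M (h34_h3R ℤ))
    (hninv : ka46_NormalAt A.subtype (IsLocalRing.residue A) M (h34_h3Rinv ℤ))
    (r0 : Place Qb (modularFunctionFieldBar M) →
      Place (IsLocalRing.ResidueField A)
        (modularFunctionFieldFullC (IsLocalRing.ResidueField A) M))
    (hr : IsPlaceReductionModL A M r0)
    (hmemL : h34_h3R Qb ∈ modularFunctionFieldBar M)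
    (hmemk : h34_h3R (IsLocalRing.ResidueField A) ∈
      modularFunctionFieldFullC (IsLocalRing.ResidueField A) M)
    (hcls : ∀ P, cx91_cls (⟨h34_h3R (IsLocalRing.ResidueField A), hmemk⟩ :
        modularFunctionFieldFullC (IsLocalRing.ResidueField A) M) (r0 P) =
      cx91_clsL A (⟨h34_h3R Qb, hmemL⟩ : modularFunctionFieldBar M) P) :
    geo17_RC M A := by
  haveI := rc5_isAlgClosed_residueField A
  have hM : (M : IsLocalRing.ResidueField A) ≠ 0 := ga41_natCast_ne_zero M A hℓ hA hℓM
  have h3k : (3 : IsLocalRing.ResidueField A) ≠ 0 := by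
    have h := ga41_natCast_ne_zero 3 A hℓ hA
      (fun hd => hℓ3 ((Nat.prime_dvd_prime_iff_eq hℓ Nat.prime_three).mp hd))
    exact_mod_cast h
  have hgF := cm80_h3_memF M h3
  have hgk := cm80_h3_memk M h3 (IsLocalRing.ResidueField A) h3k
  have hginvF := cm80_h3inv_memF M h3
  have hginvk := cm80_h3inv_memk M h3 (IsLocalRing.ResidueField A) h3k
  have e1 : cm80_xk M (h34_h3R ℤ) (IsLocalRing.ResidueField A) hgk =
      ⟨h34_h3R (IsLocalRing.ResidueField A), hmemk⟩ := Subtype.ext (cm80_g_h3 _)
  have e2 : cm80_xF M (h34_h3R ℤ) hgF = ⟨h34_h3R Qb, hmemL⟩ := Subtype.ext (cm80_g_h3 Qb)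
  have hcls' : ∀ P, cx91_cls (cm80_xk M (h34_h3R ℤ) (IsLocalRing.ResidueField A) hgk) (r0 P) =
      cx91_clsL A (cm80_xF M (h34_h3R ℤ) hgF) P := by
    intro P
    rw [e1, e2]
    exact hcls P
  have hmul : cm80_xF M (h34_h3R ℤ) hgF * cm80_xF M (h34_h3Rinv ℤ) hginvF = 1 := by
    apply Subtype.ext
    show ka46_g Qb (h34_h3R ℤ) * ka46_g Qb (h34_h3Rinv ℤ) = 1
    rw [cm80_g_h3, cm80_g_h3inv]
    exact h34_h3R_mul_inv Qb
  have hXk : ∀ c : IsLocalRing.ResidueField A,
      (⟨h34_h3R (IsLocalRing.ResidueField A), hmemk⟩ :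
        modularFunctionFieldFullC (IsLocalRing.ResidueField A) M) ≠
      algebraMap (IsLocalRing.ResidueField A)
        (modularFunctionFieldFullC (IsLocalRing.ResidueField A) M) c := by
    intro c hc
    have htr := cm80_xk_transcendental M (h34_h3R ℤ) hgk (cm80_h3_tr (IsLocalRing.ResidueField A))
    rw [e1, hc] at htr
    exact htr (isAlgebraic_algebraMap c)
  have hXL : ∀ c : Qb, (⟨h34_h3R Qb, hmemL⟩ : ↥(modularFunctionFieldBar M)) ≠
      algebraMap Qb ↥(modularFunctionFieldBar M) c := by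
    intro c hc
    have htr := (tf25_gauss M A hM r0 hr)
    have hC := tf25_class M A hM (h34_h3R ℤ) hgF hgk (cm80_h3_tr _) r0 hcls'
    have h3 := tb21_ne_const htr hC.nonconst c
    apply h3
    show cm80_xF M (h34_h3R ℤ) hgF = _
    rw [e2]
    exact hc
  have hclsj : ∀ P, cx91_cls (geo17_jbar (IsLocalRing.ResidueField A) M) (r0 P) =
      cx91_clsL A (es87_j Qb M) P := by
    intro P
    exact hj91_hcls (A := A) ⟨h34_h3R Qb, hmemL⟩ (cl91_JL M)
      ⟨h34_h3R (IsLocalRing.ResidueField A), hmemk⟩ (cl91_J (IsLocalRing.ResidueField A) M)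
      3 hj91_Nm3
      (fun Q => hj91_cls_k_level3 h3k hmemk
        (fun Q' hm => tf25_htot_k M (IsLocalRing.ResidueField A) _ hXk Q' hm) Q)
      (fun P' => hj91_cls_L_level3 A h3k hmemL (fun P'' hm => tf25_htot_L M _ hXL P'' hm) P')
      r0 hcls P
  exact geo17_RC_of_cls hℓ hℓM hA r0 hr hclsj (fun P G hG =>
    tf25_htube M A hM (h34_h3R ℤ) (h34_h3Rinv ℤ) hgF hgk (cm80_h3_tr _) (cm80_h3_jmem M h3) hn
      hginvF hginvk (cm80_h3inv_tr _) (cm80_h3inv_jmem M h3) hninv hmul r0 hr hcls' hclsj P G hG)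

/-- **Level `3 ∣ M`**, class compatibility in the `cm80` shape. -/
theorem tf25_RC_level3_of_normal' (hℓ : ℓ.Prime) (hℓM : ¬ ℓ ∣ M) (hℓ3 : ℓ ≠ 3)
    (hA : A.LiesOverPrime ℓ) (h3 : 3 ∣ M)
    (hn : ka46_NormalAt A.subtype (IsLocalRing.residue A) M (h34_h3R ℤ))
    (hninv : ka46_NormalAt A.subtype (IsLocalRing.residue A) M (h34_h3Rinv ℤ))
    (r0 : Place Qb (modularFunctionFieldBar M) →
      Place (IsLocalRing.ResidueField A)
        (modularFunctionFieldFullC (IsLocalRing.ResidueField A) M))
    (hr : IsPlaceReductionModL A M r0)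
    (hgF : ka46_g Qb (h34_h3R ℤ) ∈ modularFunctionFieldBar M)
    (hgk : ka46_g (IsLocalRing.ResidueField A) (h34_h3R ℤ) ∈
      modularFunctionFieldFullC (IsLocalRing.ResidueField A) M)
    (hcls : ∀ P, cx91_cls (cm80_xk M (h34_h3R ℤ) (IsLocalRing.ResidueField A) hgk) (r0 P) =
      cx91_clsL A (cm80_xF M (h34_h3R ℤ) hgF) P) :
    geo17_RC M A := by
  have hmemL : h34_h3R Qb ∈ modularFunctionFieldBar M := by
    rw [← cm80_g_h3]
    exact hgF
  have hmemk : h34_h3R (IsLocalRing.ResidueField A) ∈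
      modularFunctionFieldFullC (IsLocalRing.ResidueField A) M := by
    rw [← cm80_g_h3]
    exact hgk
  refine tf25_RC_level3_of_normal M A hℓ hℓM hℓ3 hA h3 hn hninv r0 hr hmemL hmemk (fun P => ?_)
  have e1 : cm80_xk M (h34_h3R ℤ) (IsLocalRing.ResidueField A) hgk =
      ⟨h34_h3R (IsLocalRing.ResidueField A), hmemk⟩ := Subtype.ext (cm80_g_h3 _)
  have e2 : cm80_xF M (h34_h3R ℤ) hgF = ⟨h34_h3R Qb, hmemL⟩ := Subtype.ext (cm80_g_h3 Qb)
  rw [← e1, ← e2]
  exact hcls P

end Levels

end Fermat.Agent.S37
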