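import Fermat.Agent.S37.GeoGauss17
import Fermat.Agent.S37.ClosedV13
import Fermat.Agent.S37.ChartModRed80
import Fermat.Agent.S37.TubeFinal25

/-!
# S37 (helper17): the RC package at every level divisible by `2` or `3` (chain A, closed)

`geo17_closedV : closedV13_RC` — at every level `M` divisible by `p₀ ∈ {2, 3}`, every prime
`ℓ ∤ M`, `ℓ ≠ p₀` and every valuation ring `A` of `ℚ̄` over `ℓ`, the RC package `geo17_RC M A`
holds.  Composition of

* `cm80_exists_reduction_h2/_h3` (helper80, on helper89's two-chart gluing): the reduction map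
  `r0` on places with conservation and the coordinate of the reduction;
* `geo17_hr_of_cons`, `geo17_hcls_of_class` (GeoGauss17): clause (1) and "`r0` respects the
  classes of the Hauptmodul";
* `tf25_RC_level2_of_normal'`, `tf25_RC_level3_of_normal'` (helper25): tubes and the passage to
  `j`-classes, with chart normality `cf93_normalA_level2/3` (helper93, from S18-B5).
-/

set_option autoImplicit false
set_option linter.style.haveILetI false

namespace Fermat.Agent.S37

open ModularCurve AlgebraicCurve Polynomial IntermediateField Fermat.Agent.S24 Fermat.Agent.S18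

local notation "Qb" => AlgebraicClosure ℚ

section Closed

set_option synthInstance.maxHeartbeats 400000

variable (M : ℕ) [NeZero M] (A : ValuationSubring Qb)
  (hM : (M : IsLocalRing.ResidueField A) ≠ 0)

omit [NeZero M] in
/-- A chart coordinate with transcendental `q`-expansion is not a constant. -/
theorem geo17_xF_ne_const (g : LaurentSeries ℤ) (hgF : ka46_g Qb g ∈ modularFunctionFieldBar M)
    (htr : Transcendental Qb (ka46_g Qb g)) (c : Qb) :
    cm80_xF M g hgF ≠ algebraMap Qb (modularFunctionFieldBar M) c :=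
  geo17_ne_const_of_transcendental (cm80_xF M g hgF) htr c

set_option maxHeartbeats 1000000 in
/-- **The class-compatible place reduction from the glue output**, for an integer chart
coordinate `g`: clause (1) and "`r0` respects `g`-classes" in the `cm80` / `cx91` shape. -/
theorem geo17_core_of_reduction (g : LaurentSeries ℤ)
    (hgF : ka46_g Qb g ∈ modularFunctionFieldBar M)
    (hgk : ka46_g (IsLocalRing.ResidueField A) g ∈
      modularFunctionFieldFullC (IsLocalRing.ResidueField A) M)
    (htr : Transcendental Qb (ka46_g Qb g))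
    (r0 : Place Qb (modularFunctionFieldBar M) →
      Place (IsLocalRing.ResidueField A)
        (modularFunctionFieldFullC (IsLocalRing.ResidueField A) M))
    (H : cg89_Reduction A (ga41_V M A hM) (cm80_red M A hM) (cm80_xV M A g hM hgF) r0) :
    IsPlaceReductionModL A M r0 ∧
      ∀ P, cx91_cls (cm80_xk M g (IsLocalRing.ResidueField A) hgk) (r0 P) =
        cx91_clsL A (cm80_xF M g hgF) P := by
  refine ⟨geo17_hr_of_cons M A hM r0 (fun f hf D hD Q => H.cons ⟨f.1, f.2⟩ hf D hD Q),
    fun P => ?_⟩
  have h := geo17_hcls_of_class M A (cm80_xF M g hgF)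
    (cm80_red M A hM (cm80_xV M A g hM hgF)) (geo17_xF_ne_const M g hgF htr) r0
    (fun P a ha => H.coord P a ha) (fun P c hc hP => H.notMem P c hc hP)
    (fun P hP => H.pole P hP) P
  rw [cm80_red_xV M A g hM hgF hgk] at h
  exact h

end Closed

set_option maxHeartbeats 1000000 in
/-- **Chain A, closed**: the RC package at every level divisible by `2` or `3`. -/
theorem geo17_closedV : closedV13_RC := by
  intro M _ p₀ h23 hdvd ℓ hℓ hℓM hne A hA
  have hM : (M : IsLocalRing.ResidueField A) ≠ 0 := ga41_natCast_ne_zero M A hℓ hA hℓM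
  have hcop : Nat.Coprime M ℓ := Nat.coprime_comm.mp ((Nat.Prime.coprime_iff_not_dvd hℓ).mpr hℓM)
  rcases h23 with rfl | rfl
  · have h2k : (2 : IsLocalRing.ResidueField A) ≠ 0 := by
      have h := ga41_natCast_ne_zero 2 A hℓ hA
        (fun hd => hne ((Nat.prime_dvd_prime_iff_eq hℓ Nat.prime_two).mp hd))
      exact_mod_cast h
    obtain ⟨r0, H⟩ := cm80_exists_reduction_h2 A hℓ hA M hcop hM hdvd
    have hgk := cm80_h2_memk M hdvd (IsLocalRing.ResidueField A) h2k
    obtain ⟨hr, hcls⟩ := geo17_core_of_reduction M A hM (h70_h2 ℤ) (cm80_h2_memF M hdvd) hgk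
      (cm80_h2_tr Qb) r0 H
    exact tf25_RC_level2_of_normal' M A hℓ hℓM hne hA hdvd
      (cf93_normalA_level2 A hℓ.ne_zero hA M hcop hdvd).1
      (cf93_normalA_level2 A hℓ.ne_zero hA M hcop hdvd).2 r0 hr (cm80_h2_memF M hdvd) hgk hcls
  · have h3k : (3 : IsLocalRing.ResidueField A) ≠ 0 := by
      have h := ga41_natCast_ne_zero 3 A hℓ hA
        (fun hd => hne ((Nat.prime_dvd_prime_iff_eq hℓ Nat.prime_three).mp hd))
      exact_mod_cast h
    obtain ⟨r0, H⟩ := cm80_exists_reduction_h3 A hℓ hA M hcop hM hdvd
    have hgk := cm80_h3_memk M hdvd (IsLocalRing.ResidueField A) h3k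
    obtain ⟨hr, hcls⟩ := geo17_core_of_reduction M A hM (h34_h3R ℤ) (cm80_h3_memF M hdvd) hgk
      (cm80_h3_tr Qb) r0 H
    exact tf25_RC_level3_of_normal' M A hℓ hℓM hne hA hdvd
      (cf93_normalA_level3 A hℓ.ne_zero hA M hcop hdvd).1
      (cf93_normalA_level3 A hℓ.ne_zero hA M hcop hdvd).2 r0 hr (cm80_h3_memF M hdvd) hgk hcls

end Fermat.Agent.S37
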