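import Mathlib
import Fermat.Prelude.Def_AlgebraicCurve_DivisorClassGroup

/-!
# S37, row XC (helper21): the tube toolkit for an arbitrary finite set of points

Abstract setting (no modular curves here): `L` a field with a valuation subring `A`, residue
map `π : A →+* k`; function fields `F / L` (generic fibre) and `Fk / k` (special fibre);
a place reduction `r : Place L F → Place k Fk`; a "Gauss ring" `V ⊆ F` with its reduction map
`red : V →+* Fk`.

* `tb21_Gauss A π r V red` — the Gauss package: constants of `A` reduce through `π`, elements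
  of `V` with nonzero reduction are units of `V`, CONSERVATION for every `v ∈ V` with nonzero
  reduction (`mapDomain r (div v) = div (red v)`), and places of `F` have residue field `L`.
* `tb21_Class A π r V red x` — class compatibility for a chart coordinate `x ∈ V`: the value
  of `red x` at `r P` (in `k ∪ {∞}`) is the reduction of the value of `x` at `P`.
* `tb21_Lift L k V red x` — chart lifting + CRT: for a point `Q₀` where `red x` is regular and
  finitely many more such points there is `t ∈ V`, regular wherever `x` is regular, whose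
  reduction is a uniformizer at `Q₀` and `≡ 1` at the other points.

Main results:

* `tb21_tube_chart` — one chart: `Sreg` = points where `c̄ - x̄` is a unit, `Spol` = poles of
  `x̄`; for `r P ∈ Sreg` a function `f ∈ V` with `P.ord f = 1` and `P'.ord f = 0` for every
  other place `P'` with `r P' ∈ Sreg ∪ Spol` (the cross-chart statement: the tubes over the
  poles of `x̄` are controlled too).
* `tb21_class_inv` — class compatibility for `x` gives it for `y = x⁻¹`.
* `tb21_tube`, `tb21_tube_fun` — the toolkit for an ARBITRARY finite set `S` of points of the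
  special fibre (two charts `x`, `y = x⁻¹`, infinite residue field).

The function is `f = (1 - e) + (t - τ) e`, `e = wⁿ (2 - wⁿ)`, `w = (c - a) / (c - x)`,
`a = x(P)`, `τ = t(P)`: `w(P) = 1`, `w ≡ 0` mod high powers at the poles of `x`, and `w` is
regular wherever `c̄ - x̄` is a unit.  No characteristic assumption.
-/

set_option autoImplicit false

namespace Fermat.Agent.S37

open AlgebraicCurve

section Basic

variable {K F : Type*} [Field K] [Field F] [Algebra K F]

theorem tb21_ord_nonneg_iff (v : Place K F) (f : F) :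
    0 ≤ v.ord f ↔ v.adicValuation f ≤ 1 := by
  rcases eq_or_ne f 0 with rfl | hf
  · simp
  · unfold Place.ord
    rw [neg_nonneg, ← WithZero.log_one,
      WithZero.log_le_log (v.adicValuation_ne_zero hf) one_ne_zero]

theorem tb21_ord_pos_iff (v : Place K F) {f : F} (hf : f ≠ 0) :
    0 < v.ord f ↔ v.adicValuation f < 1 := by
  unfold Place.ord
  rw [neg_pos, ← WithZero.log_one,
    WithZero.log_lt_log (v.adicValuation_ne_zero hf) one_ne_zero]

theorem tb21_ord_neg_iff (v : Place K F) (f : F) :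
    v.ord f < 0 ↔ 1 < v.adicValuation f := by
  rw [← not_le, tb21_ord_nonneg_iff, not_le]

theorem tb21_ord_eq_zero_iff (v : Place K F) {f : F} (hf : f ≠ 0) :
    v.ord f = 0 ↔ v.adicValuation f = 1 := by
  constructor
  · intro h
    have h1 : v.adicValuation f ≤ 1 := (tb21_ord_nonneg_iff v f).mp h.ge
    have h2 : ¬ v.adicValuation f < 1 := fun h' => by
      have := (tb21_ord_pos_iff v hf).mpr h'
      omega
    exact le_antisymm h1 (not_lt.mp h2)
  · intro h
    have h1 : 0 ≤ v.ord f := (tb21_ord_nonneg_iff v f).mpr h.le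
    have h2 : ¬ 0 < v.ord f := fun h' => by
      have := (tb21_ord_pos_iff v hf).mp h'
      rw [h] at this
      exact lt_irrefl _ this
    omega

theorem tb21_ord_le_ord_iff (v : Place K F) {f g : F} (hf : f ≠ 0) (hg : g ≠ 0) :
    v.ord f ≤ v.ord g ↔ v.adicValuation g ≤ v.adicValuation f := by
  unfold Place.ord
  rw [neg_le_neg_iff,
    WithZero.log_le_log (v.adicValuation_ne_zero hg) (v.adicValuation_ne_zero hf)]

theorem tb21_ord_congr (v : Place K F) {f g : F}
    (h : v.adicValuation f = v.adicValuation g) : v.ord f = v.ord g := by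
  unfold Place.ord
  rw [h]

theorem tb21_val_algebraMap (v : Place K F) {c : K} (hc : c ≠ 0) :
    v.adicValuation (algebraMap K F c) = 1 := by
  have hu : IsUnit (algebraMap K v.toValuationSubring c) := (Ne.isUnit hc).map _
  exact (v.adicValuation_coe_eq_one_iff _).mpr hu

theorem tb21_val_algebraMap_le (v : Place K F) (c : K) :
    v.adicValuation (algebraMap K F c) ≤ 1 := by
  rcases eq_or_ne c 0 with rfl | hc
  · simp
  · exact (tb21_val_algebraMap v hc).le

theorem tb21_val_le_exp (v : Place K F) {f : F} (h : v.adicValuation f < 1) :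
    v.adicValuation f ≤ WithZero.exp (-1 : ℤ) := by
  rcases eq_or_ne f 0 with rfl | hf
  · simp
  · have h1 : 0 < v.ord f := (tb21_ord_pos_iff v hf).mpr h
    have h2 : WithZero.log (v.adicValuation f) ≤ -1 := by
      unfold Place.ord at h1
      omega
    exact (WithZero.log_le_iff_le_exp (v.adicValuation_ne_zero hf)).mp h2

theorem tb21_val_eq_exp (v : Place K F) {f : F} (h : v.ord f = 1) :
    v.adicValuation f = WithZero.exp (-1 : ℤ) := by
  have hf : f ≠ 0 := by
    rintro rfl
    simp at h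
  have h2 : WithZero.log (v.adicValuation f) = -1 := by
    unfold Place.ord at h
    omega
  rw [← h2, WithZero.exp_log (v.adicValuation_ne_zero hf)]

theorem tb21_val_two_le {Γ : Type*} [LinearOrderedCommGroupWithZero Γ] (w : Valuation F Γ) :
    w 2 ≤ 1 := by
  have h : (2 : F) = 1 + 1 := by norm_num
  rw [h]
  exact le_trans (w.map_add _ _) (by simp)

theorem tb21_val_one_sub_pow {Γ : Type*} [LinearOrderedCommGroupWithZero Γ] (w : Valuation F Γ)
    {z : F} (hz : w (1 - z) < 1) (n : ℕ) : w (1 - z ^ n) < 1 := by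
  induction n with
  | zero => simp
  | succ m ih =>
    have h : 1 - z ^ (m + 1) = (1 - z ^ m) + z ^ m * (1 - z) := by ring
    have hz1 : w z ≤ 1 := by
      have h2 : z = 1 - (1 - z) := by ring
      rw [h2]
      exact le_trans (w.map_sub _ _) (by simp [hz.le])
    rw [h]
    refine w.map_add_lt ih ?_
    rw [map_mul, map_pow]
    calc w z ^ m * w (1 - z) ≤ 1 * w (1 - z) := by
          gcongr
          exact pow_le_one₀ zero_le hz1
      _ < 1 := by rw [one_mul]; exact hz

end Basic


section Count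

variable {α β : Type*}

theorem tb21_mapDomain_apply [DecidableEq β] (r : α → β) (D : α →₀ ℤ) (b : β) :
    Finsupp.mapDomain r D b = ∑ a ∈ D.support.filter (fun a => r a = b), D a := by
  rw [Finsupp.mapDomain, Finsupp.sum_apply, Finsupp.sum, Finset.sum_filter]
  refine Finset.sum_congr rfl fun a _ => ?_
  rw [Finsupp.single_apply]

/-- If all coefficients over `b` are nonnegative and the push-forward vanishes at `b`, all
coefficients over `b` vanish. -/
theorem tb21_count_zero (r : α → β) (D : α →₀ ℤ) (b : β)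
    (hnn : ∀ a, r a = b → 0 ≤ D a) (hsum : Finsupp.mapDomain r D b = 0) :
    ∀ a, r a = b → D a = 0 := by
  classical
  rw [tb21_mapDomain_apply] at hsum
  intro a ha
  by_cases hmem : a ∈ D.support
  · have h := (Finset.sum_eq_zero_iff_of_nonneg
      (fun i hi => hnn i (Finset.mem_filter.mp hi).2)).mp hsum a
      (Finset.mem_filter.mpr ⟨hmem, ha⟩)
    exact h
  · exact Finsupp.notMem_support_iff.mp hmem

/-- If all coefficients over `b` are nonnegative, one of them is positive and the push-forward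
takes the value `1` at `b`, then this coefficient is `1` and all the others over `b` vanish. -/
theorem tb21_count_one (r : α → β) (D : α →₀ ℤ) (b : β) (a₀ : α) (hr : r a₀ = b)
    (hnn : ∀ a, r a = b → 0 ≤ D a) (h1 : 1 ≤ D a₀) (hsum : Finsupp.mapDomain r D b = 1) :
    D a₀ = 1 ∧ ∀ a, a ≠ a₀ → r a = b → D a = 0 := by
  classical
  rw [tb21_mapDomain_apply] at hsum
  have hmem₀ : a₀ ∈ D.support.filter (fun a => r a = b) := by
    refine Finset.mem_filter.mpr ⟨Finsupp.mem_support_iff.mpr ?_, hr⟩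
    omega
  rw [← Finset.add_sum_erase _ _ hmem₀] at hsum
  have hrest : 0 ≤ ∑ a ∈ (D.support.filter (fun a => r a = b)).erase a₀, D a :=
    Finset.sum_nonneg fun i hi => hnn i (Finset.mem_filter.mp (Finset.mem_of_mem_erase hi)).2
  have h0 : D a₀ = 1 := by omega
  have hrest0 : ∑ a ∈ (D.support.filter (fun a => r a = b)).erase a₀, D a = 0 := by omega
  refine ⟨h0, fun a hne ha => ?_⟩
  by_cases hmem : a ∈ D.support
  · exact (Finset.sum_eq_zero_iff_of_nonneg
      (fun i hi => hnn i (Finset.mem_filter.mp (Finset.mem_of_mem_erase hi)).2)).mp hrest0 a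
      (Finset.mem_erase.mpr ⟨hne, Finset.mem_filter.mpr ⟨hmem, ha⟩⟩)
  · exact Finsupp.notMem_support_iff.mp hmem

end Count

section Tube

variable {L : Type*} [Field L] (A : ValuationSubring L)
variable {k : Type*} [Field k] (π : A →+* k)
variable {F : Type*} [Field F] [Algebra L F] {Fk : Type*} [Field Fk] [Algebra k Fk]
variable (r : Place L F → Place k Fk)
variable (V : Subring F) (red : V →+* Fk)

/-- **The Gauss-ring package.** `V ⊆ F` is a subring ("Gauss ring") with a reduction map
`red : V → F_k`; constants of `A` lie in `V` and reduce through `π`; elements with nonzero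
reduction are units of `V`; `r` is a place reduction satisfying CONSERVATION for every element of
`V` with nonzero reduction; places of `F` have residue field `L`. -/
structure tb21_Gauss : Prop where
  ker : ∀ a : A, ¬ IsUnit a → π a = 0
  const : ∀ a : A, ∃ h : algebraMap L F (a : L) ∈ V,
    red ⟨algebraMap L F (a : L), h⟩ = algebraMap k Fk (π a)
  unit : ∀ v : V, red v ≠ 0 → ∃ u : V, v * u = 1
  cons : ∀ v : V, red v ≠ 0 → ∀ D : Divisor L F, (∀ P, D P = P.ord (v : F)) →
    ∀ Q, Finsupp.mapDomain r D Q = Q.ord (red v)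
  val : ∀ (P : Place L F) (f : F), 0 ≤ P.ord f →
    ∃ τ : L, f = algebraMap L F τ ∨ 0 < P.ord (f - algebraMap L F τ)

/-- **Class compatibility** of the place reduction `r` for the chart coordinate `x ∈ V`:
the class of `r P` (value of `x̄` in `k ∪ {∞}`) is the reduction of the class of `P`
(value of `x` in `L ∪ {∞}`). -/
structure tb21_Class (x : V) : Prop where
  nonconst : ∀ c : k, red x ≠ algebraMap k Fk c
  cl1 : ∀ (P : Place L F) (a : A), 0 < P.ord ((x : F) - algebraMap L F (a : L)) →
    0 < (r P).ord (red x - algebraMap k Fk (π a))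
  cl2 : ∀ (P : Place L F) (a : L), a ∉ A → 0 < P.ord ((x : F) - algebraMap L F a) →
    (r P).ord (red x) < 0
  cl3 : ∀ P : Place L F, P.ord (x : F) < 0 → (r P).ord (red x) < 0

/-- **Chart lifting + CRT** for the chart coordinate `x ∈ V`: for a point `Q₀` of the special
fibre where `x̄` is regular and finitely many further such points there is `t ∈ V`, regular
wherever `x` is regular, whose reduction has a simple zero at `Q₀` and is `≡ 1` at the other
points. -/
def tb21_Lift (L : Type*) [Field L] (k : Type*) [Field k] {F : Type*} [Field F] [Algebra L F]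
    {Fk : Type*} [Field Fk] [Algebra k Fk] (V : Subring F) (red : V →+* Fk) (x : V) : Prop :=
  ∀ (Q₀ : Place k Fk) (S : Finset (Place k Fk)), 0 ≤ Q₀.ord (red x) →
    (∀ Q ∈ S, 0 ≤ Q.ord (red x)) →
    ∃ t : V, (∀ P : Place L F, 0 ≤ P.ord (x : F) → 0 ≤ P.ord (t : F)) ∧
      Q₀.ord (red t) = 1 ∧ ∀ Q ∈ S, Q ≠ Q₀ → 0 < Q.ord (red t - 1)

variable {A π r V red}

theorem tb21_constV (hG : tb21_Gauss A π r V red) (a : A) :
    ∃ v : V, (v : F) = algebraMap L F (a : L) ∧ red v = algebraMap k Fk (π a) := by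
  obtain ⟨h, hr⟩ := hG.const a
  exact ⟨⟨_, h⟩, rfl, hr⟩

theorem tb21_inv_small (hG : tb21_Gauss A π r V red) {a : L} (ha : a ∉ A) :
    ∃ b : A, (b : L) = a⁻¹ ∧ π b = 0 := by
  have hinv : a⁻¹ ∈ A := (A.mem_or_inv_mem a).resolve_left ha
  have ha0 : a ≠ 0 := fun h => ha (h ▸ A.zero_mem)
  refine ⟨⟨a⁻¹, hinv⟩, rfl, hG.ker _ ?_⟩
  intro hu
  obtain ⟨b, hb⟩ := isUnit_iff_exists_inv.mp hu
  apply ha
  have hb' : a⁻¹ * (b : L) = 1 := congrArg Subtype.val hb
  have hba : (b : L) = a := by
    field_simp at hb'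
    exact hb'
  exact hba ▸ b.2

theorem tb21_ne_const (hG : tb21_Gauss A π r V red) {x : V}
    (hnc : ∀ c : k, red x ≠ algebraMap k Fk c) (a : L) : (x : F) ≠ algebraMap L F a := by
  intro h
  by_cases ha : a ∈ A
  · obtain ⟨v, hv, hvr⟩ := tb21_constV hG ⟨a, ha⟩
    have hxv : x = v := Subtype.ext (h.trans hv.symm)
    exact hnc _ (hxv ▸ hvr)
  · obtain ⟨b, hb, hπb⟩ := tb21_inv_small hG ha
    obtain ⟨v, hv, hvr⟩ := tb21_constV hG b
    have ha0 : a ≠ 0 := fun h0 => ha (h0 ▸ A.zero_mem)
    have hxv : x * v = 1 := by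
      apply Subtype.ext
      push_cast
      rw [h, hv, hb, ← map_mul, mul_inv_cancel₀ ha0, map_one]
    have h1 := congrArg red hxv
    rw [map_mul, hvr, hπb, map_zero, mul_zero, map_one] at h1
    exact zero_ne_one h1

/-- A point of the tube over a point `Q` where `c̄ - x̄` is a unit: `x` is regular there, with
value `a ∈ A`, `ā = x̄(Q) ≠ c̄`. -/
theorem tb21_class_reg (hG : tb21_Gauss A π r V red) {x : V} (hC : tb21_Class A π r V red x)
    (c : A) (P : Place L F) (h : (r P).ord (algebraMap k Fk (π c) - red x) = 0) :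
    ∃ a : A, P.adicValuation ((x : F) - algebraMap L F (a : L)) < 1 ∧
      (r P).adicValuation (red x - algebraMap k Fk (π a)) < 1 ∧ π c ≠ π a := by
  have hne : algebraMap k Fk (π c) - red x ≠ 0 :=
    sub_ne_zero.mpr fun h' => hC.nonconst (π c) h'.symm
  have hu : (r P).adicValuation (algebraMap k Fk (π c) - red x) = 1 :=
    (tb21_ord_eq_zero_iff _ hne).mp h
  have hxreg : (r P).adicValuation (red x) ≤ 1 := by
    have h2 : red x = algebraMap k Fk (π c) - (algebraMap k Fk (π c) - red x) := by ring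
    rw [h2]
    exact Valuation.map_sub_le _ (tb21_val_algebraMap_le _ _) hu.le
  have hxP : 0 ≤ P.ord (x : F) := by
    by_contra hcon
    have h3 := hC.cl3 P (not_le.mp hcon)
    rw [tb21_ord_neg_iff] at h3
    exact absurd hxreg (not_le.mpr h3)
  obtain ⟨a, ha | ha⟩ := hG.val P x hxP
  · exact absurd ha (tb21_ne_const hG hC.nonconst a)
  · have hne2 : (x : F) - algebraMap L F a ≠ 0 :=
      sub_ne_zero.mpr (tb21_ne_const hG hC.nonconst a)
    by_cases haA : a ∈ A
    · have h1 := hC.cl1 P ⟨a, haA⟩ ha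
      have hne1 : red x - algebraMap k Fk (π ⟨a, haA⟩) ≠ 0 := sub_ne_zero.mpr (hC.nonconst _)
      have h1' := (tb21_ord_pos_iff _ hne1).mp h1
      refine ⟨⟨a, haA⟩, (tb21_ord_pos_iff _ hne2).mp ha, h1', ?_⟩
      intro hcontra
      rw [hcontra, Valuation.map_sub_swap] at hu
      rw [hu] at h1'
      exact lt_irrefl _ h1'
    · have h3 := hC.cl2 P a haA ha
      rw [tb21_ord_neg_iff] at h3
      exact absurd hxreg (not_le.mpr h3)

/-- A point of the tube over a pole of `x̄`: `x` has a pole there or a value outside `A`. -/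
theorem tb21_class_pol (hG : tb21_Gauss A π r V red) {x : V} (hC : tb21_Class A π r V red x)
    (P : Place L F) (h : (r P).ord (red x) < 0) :
    1 < P.adicValuation (x : F) ∨
      ∃ a : L, a ∉ A ∧ P.adicValuation ((x : F) - algebraMap L F a) < 1 := by
  by_cases hx : 0 ≤ P.ord (x : F)
  · right
    obtain ⟨a, ha | ha⟩ := hG.val P x hx
    · exact absurd ha (tb21_ne_const hG hC.nonconst a)
    · have hne2 : (x : F) - algebraMap L F a ≠ 0 :=
        sub_ne_zero.mpr (tb21_ne_const hG hC.nonconst a)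
      refine ⟨a, fun haA => ?_, (tb21_ord_pos_iff _ hne2).mp ha⟩
      have h1 := hC.cl1 P ⟨a, haA⟩ ha
      have hne1 : red x - algebraMap k Fk (π ⟨a, haA⟩) ≠ 0 := sub_ne_zero.mpr (hC.nonconst _)
      have h1' := (tb21_ord_pos_iff _ hne1).mp h1
      rw [tb21_ord_neg_iff] at h
      have h2 : red x = (red x - algebraMap k Fk (π ⟨a, haA⟩)) + algebraMap k Fk (π ⟨a, haA⟩) := by
        ring
      have h3 : (r P).adicValuation (red x) ≤ 1 := by
        rw [h2]
        exact Valuation.map_add_le _ h1'.le (tb21_val_algebraMap_le _ _)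
      exact absurd h3 (not_le.mpr h)
  · left
    exact (tb21_ord_neg_iff _ _).mp (not_le.mp hx)

end Tube

section Calc

variable {R E Γ : Type*} [CommRing R] [Field E] [LinearOrderedCommGroupWithZero Γ]

/-- The test function `(1 - e) + (t - τ) e` with `e = wⁿ (2 - wⁿ)`. -/
def tb21_fn (w t τ : R) (n : ℕ) : R :=
  (1 - w ^ n * (2 - w ^ n)) + (t - τ) * (w ^ n * (2 - w ^ n))

theorem tb21_fn_eq1 (w t τ : R) (n : ℕ) :
    tb21_fn w t τ n = (1 - w ^ n) ^ 2 + (t - τ) * (w ^ n * (2 - w ^ n)) := by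
  unfold tb21_fn; ring

theorem tb21_fn_eq2 (w t τ : R) (n : ℕ) :
    tb21_fn w t τ n = 1 + (t - τ - 1) * (w ^ n * (2 - w ^ n)) := by
  unfold tb21_fn; ring

variable (ν : Valuation E Γ) (φ : R →+* E)

theorem tb21_val_e_le {w : R} (hw : ν (φ w) ≤ 1) (n : ℕ) :
    ν (φ (w ^ n * (2 - w ^ n))) ≤ ν (φ w) ^ n := by
  rw [map_mul, map_mul, map_pow, map_pow]
  have h2 : ν (φ (2 - w ^ n)) ≤ 1 := by
    rw [map_sub, map_pow, map_ofNat]
    refine Valuation.map_sub_le _ (tb21_val_two_le ν) ?_
    rw [map_pow]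
    exact pow_le_one₀ zero_le hw
  calc ν (φ w) ^ n * ν (φ (2 - w ^ n)) ≤ ν (φ w) ^ n * 1 := by gcongr
    _ = ν (φ w) ^ n := mul_one _

theorem tb21_fn_le_one {w t τ : R} (n : ℕ) (hw : ν (φ w) ≤ 1) (ht : ν (φ t) ≤ 1)
    (hτ : ν (φ τ) ≤ 1) : ν (φ (tb21_fn w t τ n)) ≤ 1 := by
  have he : ν (φ (w ^ n * (2 - w ^ n))) ≤ 1 :=
    (tb21_val_e_le ν φ hw n).trans (pow_le_one₀ zero_le hw)
  unfold tb21_fn
  rw [map_add, map_sub, map_one, map_mul (f := φ) (t - τ), map_sub]
  refine Valuation.map_add_le _ (Valuation.map_sub_le _ (by rw [map_one]) he) ?_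
  rw [map_mul]
  exact mul_le_one' (Valuation.map_sub_le _ ht hτ) he

theorem tb21_fn_lt_one {w t τ : R} (n : ℕ) (hw : ν (1 - φ w) < 1) (ht : ν (φ t - φ τ) < 1) :
    ν (φ (tb21_fn w t τ n)) < 1 := by
  have hw1 : ν (φ w) ≤ 1 := by
    have h2 : φ w = 1 - (1 - φ w) := by ring
    rw [h2]
    exact Valuation.map_sub_le _ (by rw [map_one]) hw.le
  have he : ν (φ (w ^ n * (2 - w ^ n))) ≤ 1 :=
    (tb21_val_e_le ν φ hw1 n).trans (pow_le_one₀ zero_le hw1)
  have h1 : ν (1 - φ w ^ n) < 1 := tb21_val_one_sub_pow ν hw n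
  rw [tb21_fn_eq1, map_add, map_pow, map_sub, map_one, map_pow, map_mul (f := φ) (t - τ), map_sub]
  refine Valuation.map_add_lt _ ?_ ?_
  · rw [map_pow]
    exact pow_lt_one₀ zero_le h1 two_ne_zero
  · rw [map_mul]
    calc ν (φ t - φ τ) * ν (φ (w ^ n * (2 - w ^ n))) ≤ ν (φ t - φ τ) * 1 := by gcongr
      _ < 1 := by rw [mul_one]; exact ht

theorem tb21_fn_eq_one {w t τ : R} (n : ℕ) (hw : ν (φ w) ≤ 1) (ht : ν (φ t - φ τ - 1) < 1) :
    ν (φ (tb21_fn w t τ n)) = 1 := by
  have he : ν (φ (w ^ n * (2 - w ^ n))) ≤ 1 :=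
    (tb21_val_e_le ν φ hw n).trans (pow_le_one₀ zero_le hw)
  rw [tb21_fn_eq2, map_add, map_one, map_mul (f := φ) (t - τ - 1), map_sub, map_sub, map_one]
  refine Valuation.map_one_add_of_lt _ ?_
  rw [map_mul]
  calc ν (φ t - φ τ - 1) * ν (φ (w ^ n * (2 - w ^ n))) ≤ ν (φ t - φ τ - 1) * 1 := by gcongr
    _ < 1 := by rw [mul_one]; exact ht

theorem tb21_fn_eq_one_pole {w t τ : R} {n D : ℕ} {g : Γ} (hg : 1 < g) (hw : ν (φ w) ≤ g⁻¹)
    (ht : ν (φ t) ≤ g ^ D) (hτ : ν (φ τ) ≤ 1) (hDn : D < n) :
    ν (φ (tb21_fn w t τ n)) = 1 := by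
  have hg0 : g ≠ 0 := (lt_trans zero_lt_one hg).ne'
  have hginv : g⁻¹ < 1 := inv_lt_one_of_one_lt₀ hg
  have hw1 : ν (φ w) ≤ 1 := hw.trans hginv.le
  have he : ν (φ (w ^ n * (2 - w ^ n))) ≤ g⁻¹ ^ n :=
    (tb21_val_e_le ν φ hw1 n).trans (pow_le_pow_left₀ zero_le hw n)
  have hgD : 1 ≤ g ^ D := one_le_pow₀ hg.le
  have ht1 : ν (φ t - φ τ - 1) ≤ g ^ D :=
    Valuation.map_sub_le _ (Valuation.map_sub_le _ ht (hτ.trans hgD)) (by rw [map_one]; exact hgD)
  rw [tb21_fn_eq2, map_add, map_one, map_mul (f := φ) (t - τ - 1), map_sub, map_sub, map_one]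
  refine Valuation.map_one_add_of_lt _ ?_
  rw [map_mul]
  obtain ⟨m, rfl⟩ : ∃ m, n = D + (m + 1) := ⟨n - D - 1, by omega⟩
  calc ν (φ t - φ τ - 1) * ν (φ (w ^ (D + (m + 1)) * (2 - w ^ (D + (m + 1)))))
      ≤ g ^ D * g⁻¹ ^ (D + (m + 1)) := mul_le_mul' ht1 he
    _ = g⁻¹ ^ (m + 1) := by
        rw [pow_add, ← mul_assoc, ← mul_pow, mul_inv_cancel₀ hg0, one_pow, one_mul]
    _ < 1 := pow_lt_one₀ zero_le hginv (Nat.succ_ne_zero m)

theorem tb21_fn_center (μ : Valuation E (WithZero (Multiplicative ℤ))) {w t τ : R} (n : ℕ)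
    (hw : μ (1 - φ w ^ n) ≤ WithZero.exp (-1 : ℤ))
    (ht : μ (φ t - φ τ) = WithZero.exp (-1 : ℤ)) :
    μ (φ (tb21_fn w t τ n)) = WithZero.exp (-1 : ℤ) := by
  have hexp : (WithZero.exp (-1 : ℤ) : WithZero (Multiplicative ℤ)) < 1 := by
    rw [← WithZero.exp_zero]
    exact WithZero.exp_lt_exp.mpr (by norm_num)
  have h1 : μ (1 - φ w ^ n) < 1 := lt_of_le_of_lt hw hexp
  have hwn : μ (φ w ^ n) = 1 := by
    have h2 : φ w ^ n = 1 - (1 - φ w ^ n) := by ring
    rw [h2]
    exact Valuation.map_one_sub_of_lt _ h1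
  have h2n : μ (2 - φ w ^ n) = 1 := by
    have h2 : (2 : E) - φ w ^ n = 1 + (1 - φ w ^ n) := by ring
    rw [h2]
    exact Valuation.map_one_add_of_lt _ h1
  have hB : μ ((φ t - φ τ) * (φ w ^ n * (2 - φ w ^ n))) = WithZero.exp (-1 : ℤ) := by
    rw [map_mul, map_mul, hwn, h2n, mul_one, mul_one, ht]
  have hA : μ ((1 - φ w ^ n) ^ 2) < WithZero.exp (-1 : ℤ) := by
    rw [map_pow, pow_two]
    calc μ (1 - φ w ^ n) * μ (1 - φ w ^ n)
        ≤ WithZero.exp (-1 : ℤ) * WithZero.exp (-1 : ℤ) := mul_le_mul' hw hw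
      _ = WithZero.exp (-2 : ℤ) := by rw [← WithZero.exp_add]; norm_num
      _ < WithZero.exp (-1 : ℤ) := WithZero.exp_lt_exp.mpr (by norm_num)
  rw [tb21_fn_eq1, map_add, map_pow, map_sub, map_one, map_pow, map_mul (f := φ) (t - τ),
    map_sub, map_mul, map_pow, map_sub, map_ofNat, map_pow]
  rw [Valuation.map_add_eq_of_lt_right _ (by rw [hB]; exact hA), hB]

/-- `1 - φ w` for `w = (c - a) d⁻¹`, `d = c - x`. -/
theorem tb21_one_sub_w {cV aV x dinv : R} (hd : (cV - x) * dinv = 1) :
    1 - φ ((cV - aV) * dinv) = (φ aV - φ x) * φ dinv := by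
  have h1 : φ (cV - x) * φ dinv = 1 := by rw [← map_mul, hd, map_one]
  rw [map_mul, map_sub]
  rw [map_sub] at h1
  linear_combination -h1

theorem tb21_val_dinv {d dinv : R} (hd : d * dinv = 1) : ν (φ dinv) = (ν (φ d))⁻¹ := by
  have h1 : φ d * φ dinv = 1 := by rw [← map_mul, hd, map_one]
  rw [eq_inv_of_mul_eq_one_right h1, map_inv₀]

theorem tb21_val_w {cV aV x dinv : R} (hd : (cV - x) * dinv = 1) :
    ν (φ ((cV - aV) * dinv)) = ν (φ (cV - aV)) * (ν (φ (cV - x)))⁻¹ := by
  rw [map_mul φ, Valuation.map_mul, tb21_val_dinv ν φ hd]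

theorem tb21_val_one_sub_w {cV aV x dinv : R} (hd : (cV - x) * dinv = 1) :
    ν (1 - φ ((cV - aV) * dinv)) = ν (φ aV - φ x) * (ν (φ (cV - x)))⁻¹ := by
  rw [tb21_one_sub_w φ hd, Valuation.map_mul, tb21_val_dinv ν φ hd]

end Calc

section PoleBound

variable {K F : Type*} [Field K] [Field F] [Algebra K F]

theorem tb21_pow_ge_of_ord (v : Place K F) {x t : F} (hx : 1 < v.adicValuation x) (ht : t ≠ 0)
    {D : ℕ} (hD : -(D : ℤ) ≤ v.ord t) : v.adicValuation t ≤ v.adicValuation x ^ D := by
  have hx0 : x ≠ 0 := by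
    rintro rfl
    rw [map_zero] at hx
    exact absurd hx (not_lt.mpr zero_le_one)
  have hordx : v.ord x ≤ -1 := by
    have := (tb21_ord_neg_iff v x).mpr hx
    omega
  rw [← map_pow]
  refine (tb21_ord_le_ord_iff v (pow_ne_zero D hx0) ht).mp ?_
  have h1 : v.ord (x ^ D) = (D : ℤ) * v.ord x := by
    rw [← zpow_natCast, v.ord_zpow]
  rw [h1]
  nlinarith [Int.natCast_nonneg D]

theorem tb21_exists_pow_ge (v : Place K F) (x t : F) (hx : 1 < v.adicValuation x) :
    ∃ D : ℕ, v.adicValuation t ≤ v.adicValuation x ^ D := by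
  rcases eq_or_ne t 0 with rfl | ht
  · exact ⟨0, by simp⟩
  · refine ⟨(-(v.ord t)).toNat, tb21_pow_ge_of_ord v hx ht ?_⟩
    have := Int.self_le_toNat (-(v.ord t))
    omega

theorem tb21_pole_bound [HasPrincipalDivisors K F] (x t : F) (ht : t ≠ 0) :
    ∃ D : ℕ, ∀ v : Place K F, 1 < v.adicValuation x →
      v.adicValuation t ≤ v.adicValuation x ^ D := by
  classical
  obtain ⟨Dt, hDt, -⟩ := HasPrincipalDivisors.exists_divisor (K := K) t ht
  refine ⟨∑ v ∈ Dt.support, (Dt v).natAbs, fun v hv => tb21_pow_ge_of_ord v hv ht ?_⟩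
  by_cases hmem : v ∈ Dt.support
  · have h1 : (Dt v).natAbs ≤ ∑ v ∈ Dt.support, (Dt v).natAbs :=
      Finset.single_le_sum (f := fun v => (Dt v).natAbs) (fun _ _ => Nat.zero_le _) hmem
    rw [← hDt v]
    have h2 : -((Dt v).natAbs : ℤ) ≤ Dt v := by omega
    have h3 : ((Dt v).natAbs : ℤ) ≤ ((∑ v ∈ Dt.support, (Dt v).natAbs : ℕ) : ℤ) := by
      exact_mod_cast h1
    omega
  · rw [← hDt v, Finsupp.notMem_support_iff.mp hmem]
    omega

theorem tb21_pole_bound_finset (S : Finset (Place K F)) (x t : F)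
    (hS : ∀ v ∈ S, 1 < v.adicValuation x) :
    ∃ D : ℕ, ∀ v ∈ S, v.adicValuation t ≤ v.adicValuation x ^ D := by
  classical
  induction S using Finset.induction_on with
  | empty => exact ⟨0, fun v hv => absurd hv (Finset.notMem_empty v)⟩
  | insert a S _ ih =>
    obtain ⟨D1, hD1⟩ := ih fun v hv => hS v (Finset.mem_insert_of_mem hv)
    obtain ⟨D2, hD2⟩ := tb21_exists_pow_ge a x t (hS a (Finset.mem_insert_self a S))
    refine ⟨max D1 D2, fun v hv => ?_⟩
    rcases Finset.mem_insert.mp hv with rfl | hv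
    · exact hD2.trans (pow_le_pow_right₀ (hS v (Finset.mem_insert_self v S)).le (le_max_right _ _))
    · exact (hD1 v hv).trans
        (pow_le_pow_right₀ (hS v (Finset.mem_insert_of_mem hv)).le (le_max_left _ _))

end PoleBound

section Main

variable {L : Type*} [Field L] {A : ValuationSubring L}
variable {k : Type*} [Field k] {π : A →+* k}
variable {F : Type*} [Field F] [Algebra L F] {Fk : Type*} [Field Fk] [Algebra k Fk]
variable {r : Place L F → Place k Fk}
variable {V : Subring F} {red : V →+* Fk}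

/-- Consequence of conservation: a function of `V` that is regular on the tube of `r P` and whose
reduction is a unit at `r P` has no zero at `P`. -/
theorem tb21_no_zero [HasPrincipalDivisors L F] (hG : tb21_Gauss A π r V red) (g : V)
    (P : Place L F) (hval : (r P).adicValuation (red g) = 1)
    (hreg : ∀ P' : Place L F, r P' = r P → P'.adicValuation (g : F) ≤ 1) :
    P.adicValuation (g : F) = 1 := by
  have hg0 : red g ≠ 0 := by
    intro h
    rw [h, map_zero] at hval
    exact zero_ne_one hval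
  have hgF : (g : F) ≠ 0 := fun h => hg0 (by rw [show g = 0 from Subtype.ext h, map_zero])
  obtain ⟨D, hD, -⟩ := HasPrincipalDivisors.exists_divisor (K := L) (g : F) hgF
  have hc := hG.cons g hg0 D hD (r P)
  rw [(tb21_ord_eq_zero_iff _ hg0).mpr hval] at hc
  have hz := tb21_count_zero r D (r P)
    (fun a ha => by rw [hD]; exact (tb21_ord_nonneg_iff _ _).mpr (hreg a ha)) hc P rfl
  rw [hD] at hz
  exact (tb21_ord_eq_zero_iff _ hgF).mp hz

/-- **Evaluation.** If `t ∈ V` is regular on the tube of `r P`, its reduction vanishes at `r P`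
and `t(P) = τ`, then `τ` lies in the maximal ideal of `A`. -/
theorem tb21_eval [HasPrincipalDivisors L F] (hG : tb21_Gauss A π r V red) (t : V)
    (P : Place L F) (τ : L) (hτ : P.adicValuation ((t : F) - algebraMap L F τ) < 1)
    (htube : ∀ P' : Place L F, r P' = r P → P'.adicValuation (t : F) ≤ 1)
    (hQ : (r P).adicValuation (red t) < 1) :
    ∃ τ' : A, (τ' : L) = τ ∧ π τ' = 0 := by
  have hτA : τ ∈ A := by
    by_contra hτA
    obtain ⟨b, hb, hπb⟩ := tb21_inv_small hG hτA
    obtain ⟨bV, hbV, hbred⟩ := tb21_constV hG b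
    have hτ0 : τ ≠ 0 := fun h => hτA (h ▸ A.zero_mem)
    have hredg : red (t * bV - 1) = -1 := by
      rw [map_sub, map_mul, hbred, hπb, map_zero, mul_zero, map_one, zero_sub]
    have hcoe : ((t * bV - 1 : V) : F) = (t : F) * algebraMap L F τ⁻¹ - 1 := by
      show (t : F) * (bV : F) - 1 = _
      rw [hbV, hb]
    have hcoe' : (t : F) * algebraMap L F τ⁻¹ - 1 =
        ((t : F) - algebraMap L F τ) * algebraMap L F τ⁻¹ := by
      rw [sub_mul, ← map_mul, mul_inv_cancel₀ hτ0, map_one]
    have h1 := tb21_no_zero hG (t * bV - 1) P (by rw [hredg, Valuation.map_neg, map_one]) (by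
      intro P' hP'
      rw [hcoe]
      refine Valuation.map_sub_le _ ?_ (by rw [map_one])
      rw [map_mul]
      exact mul_le_one' (htube P' hP') (tb21_val_algebraMap_le _ _))
    rw [hcoe, hcoe', map_mul, tb21_val_algebraMap _ (inv_ne_zero hτ0), mul_one] at h1
    rw [h1] at hτ
    exact lt_irrefl _ hτ
  refine ⟨⟨τ, hτA⟩, rfl, ?_⟩
  by_contra hπ
  obtain ⟨τV, hτV, hτred⟩ := tb21_constV hG ⟨τ, hτA⟩
  have hc1 : (r P).adicValuation (algebraMap k Fk (π ⟨τ, hτA⟩)) = 1 := tb21_val_algebraMap _ hπ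
  have hval : (r P).adicValuation (red (t - τV)) = 1 := by
    rw [map_sub, hτred, Valuation.map_sub_eq_of_lt_right _ (by rw [hc1]; exact hQ), hc1]
  have hcoe : ((t - τV : V) : F) = (t : F) - algebraMap L F τ := by
    show (t : F) - (τV : F) = _
    rw [hτV]
  have h1 := tb21_no_zero hG (t - τV) P hval (by
    intro P' hP'
    rw [hcoe]
    exact Valuation.map_sub_le _ (htube P' hP') (tb21_val_algebraMap_le _ _))
  rw [hcoe] at h1
  rw [h1] at hτ
  exact lt_irrefl _ hτ

end Main

section Chart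

variable {L : Type*} [Field L] {A : ValuationSubring L}
variable {k : Type*} [Field k] {π : A →+* k}
variable {F : Type*} [Field F] [Algebra L F] {Fk : Type*} [Field Fk] [Algebra k Fk]
variable {r : Place L F → Place k Fk}
variable {V : Subring F} {red : V →+* Fk}

/-- **Tube toolkit, one chart.** `Sreg`: finitely many points of the special fibre where
`c̄ - x̄` is a unit (so `x̄` is regular with value `≠ c̄`); `Spol`: finitely many poles of `x̄`.
For every place `P` of `F` with `r P ∈ Sreg` there is `f ∈ V` with a simple zero at `P` and no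
other zero or pole at any place whose reduction lies in `Sreg ∪ Spol`; its reduction has a simple
zero at `r P` and is a unit at the other points of `Sreg ∪ Spol`. -/
theorem tb21_tube_chart [HasPrincipalDivisors L F] (hG : tb21_Gauss A π r V red) {x : V}
    (hC : tb21_Class A π r V red x) (hL : tb21_Lift L k V red x)
    (Sreg Spol : Finset (Place k Fk)) (c : A)
    (hreg : ∀ Q ∈ Sreg, Q.ord (algebraMap k Fk (π c) - red x) = 0)
    (hpol : ∀ Q ∈ Spol, Q.ord (red x) < 0)
    (P : Place L F) (hP : r P ∈ Sreg) :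
    ∃ f : V, (r P).ord (red f) = 1 ∧
      (∀ Q : Place k Fk, Q ∈ Sreg ∨ Q ∈ Spol → Q ≠ r P → Q.ord (red f) = 0) ∧
      P.ord (f : F) = 1 ∧
      ∀ P' : Place L F, P' ≠ P → r P' ∈ Sreg ∨ r P' ∈ Spol → P'.ord (f : F) = 0 := by
  classical
  have hne : algebraMap k Fk (π c) - red x ≠ 0 :=
    sub_ne_zero.mpr fun h' => hC.nonconst (π c) h'.symm
  have hregu : ∀ Q ∈ Sreg, Q.adicValuation (algebraMap k Fk (π c) - red x) = 1 :=
    fun Q hQ => (tb21_ord_eq_zero_iff _ hne).mp (hreg Q hQ)
  have hxreg : ∀ Q ∈ Sreg, Q.adicValuation (red x) ≤ 1 := by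
    intro Q hQ
    have h2 : red x = algebraMap k Fk (π c) - (algebraMap k Fk (π c) - red x) := by ring
    rw [h2]
    exact Valuation.map_sub_le _ (tb21_val_algebraMap_le _ _) (hregu Q hQ).le
  -- the class of `P`
  obtain ⟨a, haP, haQ, hca⟩ := tb21_class_reg hG hC c P (hreg _ hP)
  -- the lift
  obtain ⟨t, htreg, htQ0, htS⟩ := hL (r P) Sreg ((tb21_ord_nonneg_iff _ _).mpr (hxreg _ hP))
    (fun Q hQ => (tb21_ord_nonneg_iff _ _).mpr (hxreg Q hQ))
  have htu : (r P).adicValuation (red t) = WithZero.exp (-1 : ℤ) := tb21_val_eq_exp _ htQ0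
  have hexp : (WithZero.exp (-1 : ℤ) : WithZero (Multiplicative ℤ)) < 1 := by
    rw [← WithZero.exp_zero]
    exact WithZero.exp_lt_exp.mpr (by norm_num)
  have ht0 : red t ≠ 0 := by
    intro h
    rw [h] at htQ0
    simp at htQ0
  have htF : (t : F) ≠ 0 := fun h => ht0 (by rw [show t = 0 from Subtype.ext h, map_zero])
  -- `x` is regular on the tubes over `Sreg`, and `c - x` is a unit there
  have htube_reg : ∀ P' : Place L F, r P' ∈ Sreg →
      P'.adicValuation (x : F) ≤ 1 ∧
        P'.adicValuation (algebraMap L F (c : L) - (x : F)) = 1 := by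
    intro P' hP'
    obtain ⟨a', ha'P, -, hca'⟩ := tb21_class_reg hG hC c P' (hreg _ hP')
    have hcne : (c : L) - (a' : L) ≠ 0 := by
      intro h
      apply hca'
      rw [show c = a' from Subtype.ext (sub_eq_zero.mp h)]
    constructor
    · have h2 : (x : F) = ((x : F) - algebraMap L F (a' : L)) + algebraMap L F (a' : L) := by
        ring
      rw [h2]
      exact Valuation.map_add_le _ ha'P.le (tb21_val_algebraMap_le _ _)
    · have h2 : algebraMap L F (c : L) - (x : F) =
          algebraMap L F ((c : L) - (a' : L)) - ((x : F) - algebraMap L F (a' : L)) := by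
        rw [map_sub]
        ring
      rw [h2, Valuation.map_sub_eq_of_lt_left _ (by rw [tb21_val_algebraMap _ hcne]; exact ha'P),
        tb21_val_algebraMap _ hcne]
  -- `τ = t(P)` lies in the maximal ideal
  have htP : 0 ≤ P.ord (t : F) := htreg P ((tb21_ord_nonneg_iff _ _).mpr (htube_reg P hP).1)
  obtain ⟨τ, hτ⟩ := hG.val P t htP
  have hτv : P.adicValuation ((t : F) - algebraMap L F τ) < 1 := by
    by_cases h0 : (t : F) - algebraMap L F τ = 0
    · rw [h0, map_zero]
      exact zero_lt_one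
    · rcases hτ with hτ | hτ
      · exact absurd (sub_eq_zero.mpr hτ) h0
      · exact (tb21_ord_pos_iff _ h0).mp hτ
  obtain ⟨τ', hτ', hπτ⟩ := tb21_eval hG t P τ hτv
    (fun P' hP' => (tb21_ord_nonneg_iff _ _).mp (htreg P' ((tb21_ord_nonneg_iff _ _).mpr
      (htube_reg P' (hP'.symm ▸ hP)).1))) (by rw [htu]; exact hexp)
  -- constants
  obtain ⟨cV, hcV, hcred⟩ := tb21_constV hG c
  obtain ⟨aV, haV, hared⟩ := tb21_constV hG a
  obtain ⟨τV, hτV, hτred⟩ := tb21_constV hG τ'
  rw [hπτ, map_zero] at hτred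
  have hdred : red (cV - x) ≠ 0 := by
    rw [map_sub, hcred]
    exact hne
  obtain ⟨dinv, hd⟩ := hG.unit (cV - x) hdred
  -- pole bounds
  obtain ⟨D1, hD1⟩ := tb21_pole_bound (K := L) (x : F) (t : F) htF
  obtain ⟨D2, hD2⟩ := tb21_pole_bound_finset Spol (red x) (red t)
    (fun Q hQ => (tb21_ord_neg_iff _ _).mp (hpol Q hQ))
  have hn1 : D1 < max D1 D2 + 1 := by omega
  have hn2 : D2 < max D1 D2 + 1 := by omega
  generalize max D1 D2 + 1 = n at hn1 hn2
  -- reduction side
  have hredd : red (cV - x) = algebraMap k Fk (π c) - red x := by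
    rw [map_sub, hcred]
  have hcared : ∀ Q : Place k Fk, Q.adicValuation (red (cV - aV)) ≤ 1 := by
    intro Q
    have h2 : red (cV - aV) = algebraMap k Fk (π c - π a) := by
      rw [map_sub, hcred, hared, map_sub]
    rw [h2]
    exact tb21_val_algebraMap_le _ _
  have hQreg : ∀ Q ∈ Sreg, Q.adicValuation (red ((cV - aV) * dinv)) ≤ 1 := by
    intro Q hQ
    rw [tb21_val_w _ red hd, hredd, hregu Q hQ, inv_one, mul_one]
    exact hcared Q
  have hQ0 : (r P).adicValuation (red (tb21_fn ((cV - aV) * dinv) t τV n)) =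
      WithZero.exp (-1 : ℤ) := by
    refine tb21_fn_center red _ n ?_ (by rw [hτred, sub_zero]; exact htu)
    refine tb21_val_le_exp _ (tb21_val_one_sub_pow _ ?_ n)
    rw [tb21_val_one_sub_w _ red hd, hredd, hregu _ hP, inv_one, mul_one, hared,
      Valuation.map_sub_swap]
    exact haQ
  have hQother : ∀ Q : Place k Fk, Q ∈ Sreg ∨ Q ∈ Spol → Q ≠ r P →
      Q.adicValuation (red (tb21_fn ((cV - aV) * dinv) t τV n)) = 1 := by
    intro Q hQ hQne
    rcases hQ with hQ | hQ
    · refine tb21_fn_eq_one _ red n (hQreg Q hQ) ?_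
      rw [hτred, sub_zero]
      have h1 := htS Q hQ hQne
      have h0 : red t - 1 ≠ 0 := by
        intro h
        rw [h] at h1
        simp at h1
      exact (tb21_ord_pos_iff _ h0).mp h1
    · have hg : 1 < Q.adicValuation (red x) := (tb21_ord_neg_iff _ _).mp (hpol Q hQ)
      have hcx : Q.adicValuation (red (cV - x)) = Q.adicValuation (red x) := by
        rw [hredd]
        exact Valuation.map_sub_eq_of_lt_right _
          (lt_of_le_of_lt (tb21_val_algebraMap_le _ _) hg)
      refine tb21_fn_eq_one_pole _ red hg ?_ (hD2 Q hQ)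
        (by rw [hτred, map_zero]; exact zero_le_one) hn2
      rw [tb21_val_w _ red hd, hcx]
      calc Q.adicValuation (red (cV - aV)) * (Q.adicValuation (red x))⁻¹
          ≤ 1 * (Q.adicValuation (red x))⁻¹ := by
            gcongr
            exact hcared Q
        _ = (Q.adicValuation (red x))⁻¹ := one_mul _
  -- the function
  refine ⟨tb21_fn ((cV - aV) * dinv) t τV n, ?_, ?_, ?_⟩
  · rw [tb21_ord_congr _ (hQ0.trans htu.symm), htQ0]
  · intro Q hQ hQne
    have h1 := hQother Q hQ hQne
    have h0 : red (tb21_fn ((cV - aV) * dinv) t τV n) ≠ 0 := by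
      intro h
      rw [h, map_zero] at h1
      exact zero_ne_one h1
    exact (tb21_ord_eq_zero_iff _ h0).mpr h1
  -- generic fibre side
  have hf0 : red (tb21_fn ((cV - aV) * dinv) t τV n) ≠ 0 := by
    intro h
    rw [h, map_zero] at hQ0
    exact WithZero.exp_ne_zero hQ0.symm
  have hfF : ((tb21_fn ((cV - aV) * dinv) t τV n : V) : F) ≠ 0 := fun h =>
    hf0 (by rw [show tb21_fn ((cV - aV) * dinv) t τV n = 0 from Subtype.ext h, map_zero])
  have hcaF : ∀ P' : Place L F, P'.adicValuation (V.subtype (cV - aV)) ≤ 1 := by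
    intro P'
    have h2 : V.subtype (cV - aV) = algebraMap L F ((c : L) - (a : L)) := by
      show (cV : F) - (aV : F) = _
      rw [hcV, haV, map_sub]
    rw [h2]
    exact tb21_val_algebraMap_le _ _
  have hsubx : V.subtype (cV - x) = algebraMap L F (c : L) - (x : F) := by
    show (cV : F) - (x : F) = _
    rw [hcV]
  have hτF : ∀ P' : Place L F, P'.adicValuation (V.subtype τV) ≤ 1 := by
    intro P'
    show P'.adicValuation (τV : F) ≤ 1
    rw [hτV]
    exact tb21_val_algebraMap_le _ _
  -- regularity on the tubes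
  have hregF : ∀ P' : Place L F, r P' ∈ Sreg ∨ r P' ∈ Spol →
      P'.adicValuation (V.subtype (tb21_fn ((cV - aV) * dinv) t τV n)) ≤ 1 := by
    intro P' hP'
    have hcase1 : P'.adicValuation (x : F) ≤ 1 →
        P'.adicValuation (algebraMap L F (c : L) - (x : F)) = 1 →
        P'.adicValuation (V.subtype (tb21_fn ((cV - aV) * dinv) t τV n)) ≤ 1 := by
      intro hx1 hcx1
      refine tb21_fn_le_one _ V.subtype n ?_
        ((tb21_ord_nonneg_iff _ _).mp (htreg P' ((tb21_ord_nonneg_iff _ _).mpr hx1))) (hτF P')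
      rw [tb21_val_w _ V.subtype hd, hsubx, hcx1, inv_one, mul_one]
      exact hcaF P'
    rcases hP' with hP' | hP'
    · exact hcase1 (htube_reg P' hP').1 (htube_reg P' hP').2
    · rcases tb21_class_pol hG hC P' (hpol _ hP') with hg | ⟨a'', ha''A, ha''⟩
      · have hcx : P'.adicValuation (V.subtype (cV - x)) = P'.adicValuation (x : F) := by
          rw [hsubx]
          exact Valuation.map_sub_eq_of_lt_right _
            (lt_of_le_of_lt (tb21_val_algebraMap_le _ _) hg)
        refine (tb21_fn_eq_one_pole _ V.subtype hg ?_ (hD1 P' hg) (hτF P') hn1).le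
        rw [tb21_val_w _ V.subtype hd, hcx]
        calc P'.adicValuation (V.subtype (cV - aV)) * (P'.adicValuation (x : F))⁻¹
            ≤ 1 * (P'.adicValuation (x : F))⁻¹ := by
              gcongr
              exact hcaF P'
          _ = (P'.adicValuation (x : F))⁻¹ := one_mul _
      · have hcne : (c : L) - a'' ≠ 0 := by
          intro h
          apply ha''A
          rw [← sub_eq_zero.mp h]
          exact c.2
        refine hcase1 ?_ ?_
        · have h2 : (x : F) = ((x : F) - algebraMap L F a'') + algebraMap L F a'' := by ring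
          rw [h2]
          exact Valuation.map_add_le _ ha''.le (tb21_val_algebraMap_le _ _)
        · have h2 : algebraMap L F (c : L) - (x : F) =
              algebraMap L F ((c : L) - a'') - ((x : F) - algebraMap L F a'') := by
            rw [map_sub]
            ring
          rw [h2, Valuation.map_sub_eq_of_lt_left _
            (by rw [tb21_val_algebraMap _ hcne]; exact ha''), tb21_val_algebraMap _ hcne]
  -- zero at `P`
  have hzeroP : P.adicValuation (V.subtype (tb21_fn ((cV - aV) * dinv) t τV n)) < 1 := by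
    refine tb21_fn_lt_one _ V.subtype n ?_ ?_
    · rw [tb21_val_one_sub_w _ V.subtype hd, hsubx, (htube_reg P hP).2, inv_one, mul_one]
      show P.adicValuation ((aV : F) - (x : F)) < 1
      rw [haV, Valuation.map_sub_swap]
      exact haP
    · show P.adicValuation ((t : F) - (τV : F)) < 1
      rw [hτV, hτ']
      exact hτv
  -- conservation
  obtain ⟨D, hD, -⟩ := HasPrincipalDivisors.exists_divisor (K := L)
    ((tb21_fn ((cV - aV) * dinv) t τV n : V) : F) hfF
  have hcons := hG.cons _ hf0 D hD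
  have hnn : ∀ P' : Place L F, r P' ∈ Sreg ∨ r P' ∈ Spol → 0 ≤ D P' := by
    intro P' hP'
    rw [hD]
    exact (tb21_ord_nonneg_iff _ _).mpr (hregF P' hP')
  have hPmem : r P ∈ Sreg ∨ r P ∈ Spol := Or.inl hP
  have hone := tb21_count_one r D (r P) P rfl (fun a ha => hnn a (ha.symm ▸ hPmem))
    (by
      rw [hD]
      have := (tb21_ord_pos_iff P hfF).mpr hzeroP
      omega)
    (by rw [hcons, tb21_ord_congr _ (hQ0.trans htu.symm), htQ0])
  refine ⟨by rw [← hD]; exact hone.1, fun P' hP'ne hP' => ?_⟩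
  rw [← hD]
  by_cases hQ : r P' = r P
  · exact hone.2 P' hP'ne hQ
  · have h1 := hQother (r P') hP' hQ
    refine tb21_count_zero r D (r P') (fun a ha => hnn a (ha.symm ▸ hP')) ?_ P' rfl
    rw [hcons]
    exact (tb21_ord_eq_zero_iff _ hf0).mpr h1

end Chart

section Final

variable {L : Type*} [Field L] {A : ValuationSubring L}
variable {k : Type*} [Field k] {π : A →+* k}
variable {F : Type*} [Field F] [Algebra L F] {Fk : Type*} [Field Fk] [Algebra k Fk]
variable {r : Place L F → Place k Fk}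
variable {V : Subring F} {red : V →+* Fk}

theorem tb21_cl1v (hG : tb21_Gauss A π r V red) {x : V} (hC : tb21_Class A π r V red x)
    (P : Place L F) (a : A) (h : P.adicValuation ((x : F) - algebraMap L F (a : L)) < 1) :
    (r P).adicValuation (red x - algebraMap k Fk (π a)) < 1 := by
  have hne2 : (x : F) - algebraMap L F (a : L) ≠ 0 :=
    sub_ne_zero.mpr (tb21_ne_const hG hC.nonconst a)
  have hne1 : red x - algebraMap k Fk (π a) ≠ 0 := sub_ne_zero.mpr (hC.nonconst _)
  exact (tb21_ord_pos_iff _ hne1).mp (hC.cl1 P a ((tb21_ord_pos_iff _ hne2).mpr h))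

theorem tb21_cl2v (hG : tb21_Gauss A π r V red) {x : V} (hC : tb21_Class A π r V red x)
    (P : Place L F) (a : L) (ha : a ∉ A)
    (h : P.adicValuation ((x : F) - algebraMap L F a) < 1) :
    1 < (r P).adicValuation (red x) := by
  have hne2 : (x : F) - algebraMap L F a ≠ 0 :=
    sub_ne_zero.mpr (tb21_ne_const hG hC.nonconst a)
  exact (tb21_ord_neg_iff _ _).mp (hC.cl2 P a ha ((tb21_ord_pos_iff _ hne2).mpr h))

theorem tb21_cl3v {x : V} (hC : tb21_Class A π r V red x)
    (P : Place L F) (h : 1 < P.adicValuation (x : F)) :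
    1 < (r P).adicValuation (red x) :=
  (tb21_ord_neg_iff _ _).mp (hC.cl3 P ((tb21_ord_neg_iff _ _).mpr h))

theorem tb21_inv_lt_one {Γ : Type*} [LinearOrderedCommGroupWithZero Γ] {g : Γ} (h : 1 < g) :
    g⁻¹ < 1 := inv_lt_one_of_one_lt₀ h

theorem tb21_one_lt_inv {Γ : Type*} [LinearOrderedCommGroupWithZero Γ] {g : Γ} (h0 : g ≠ 0)
    (h : g < 1) : 1 < g⁻¹ := (one_lt_inv₀ (zero_lt_iff.mpr h0)).mpr h

/-- **Class compatibility passes to the inverse chart** `y = x⁻¹`. -/
theorem tb21_class_inv (hG : tb21_Gauss A π r V red) {x y : V} (hxy : x * y = 1)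
    (hC : tb21_Class A π r V red x) : tb21_Class A π r V red y := by
  have hxyF : (x : F) * (y : F) = 1 := congrArg Subtype.val hxy
  have hxyk : red x * red y = 1 := by rw [← map_mul, hxy, map_one]
  have hx0 : (x : F) ≠ 0 := left_ne_zero_of_mul_eq_one hxyF
  have hy0 : (y : F) ≠ 0 := right_ne_zero_of_mul_eq_one hxyF
  have hxk0 : red x ≠ 0 := left_ne_zero_of_mul_eq_one hxyk
  have hyk0 : red y ≠ 0 := right_ne_zero_of_mul_eq_one hxyk
  have hvF : ∀ P : Place L F, P.adicValuation (y : F) = (P.adicValuation (x : F))⁻¹ := by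
    intro P
    rw [eq_inv_of_mul_eq_one_right hxyF, map_inv₀]
  have hvk : ∀ Q : Place k Fk, Q.adicValuation (red y) = (Q.adicValuation (red x))⁻¹ := by
    intro Q
    rw [eq_inv_of_mul_eq_one_right hxyk, map_inv₀]
  have hvF' : ∀ P : Place L F, P.adicValuation (x : F) = (P.adicValuation (y : F))⁻¹ := by
    intro P
    rw [hvF, inv_inv]
  have hvxk0 : ∀ Q : Place k Fk, Q.adicValuation (red x) ≠ 0 := fun Q =>
    Q.adicValuation_ne_zero hxk0
  have hvyF0 : ∀ P : Place L F, P.adicValuation (y : F) ≠ 0 := fun P =>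
    P.adicValuation_ne_zero hy0
  have hnc : ∀ c : k, red y ≠ algebraMap k Fk c := by
    intro c hc
    have hc0 : c ≠ 0 := by
      rintro rfl
      rw [map_zero] at hc
      exact hyk0 hc
    apply hC.nonconst c⁻¹
    rw [hc] at hxyk
    rw [eq_inv_of_mul_eq_one_left hxyk, map_inv₀]
  -- the key transfer: from `y` near `a ≠ 0` to `x` near `a⁻¹`
  have key : ∀ (P : Place L F) (a : L), a ≠ 0 →
      P.adicValuation ((y : F) - algebraMap L F a) < 1 →
      P.adicValuation ((x : F) - algebraMap L F a⁻¹) < 1 := by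
    intro P a ha h
    have hva : P.adicValuation (algebraMap L F a) = 1 := tb21_val_algebraMap _ ha
    have hvy : P.adicValuation (y : F) = 1 := by
      have h2 : (y : F) = algebraMap L F a + ((y : F) - algebraMap L F a) := by ring
      rw [h2, Valuation.map_add_eq_of_lt_left _ (by rw [hva]; exact h), hva]
    have hvx : P.adicValuation (x : F) = 1 := by rw [hvF', hvy, inv_one]
    have h3 : (x : F) - algebraMap L F a⁻¹ =
        -(algebraMap L F a⁻¹ * (x : F) * ((y : F) - algebraMap L F a)) := by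
      have h4 : algebraMap L F a⁻¹ * algebraMap L F a = 1 := by
        rw [← map_mul, inv_mul_cancel₀ ha, map_one]
      linear_combination (algebraMap L F a⁻¹) * hxyF - (x : F) * h4
    rw [h3, Valuation.map_neg, map_mul, map_mul, tb21_val_algebraMap _ (inv_ne_zero ha), hvx,
      one_mul, one_mul]
    exact h
  refine ⟨hnc, ?_, ?_, ?_⟩
  · -- cl1
    intro P a h
    have hne2 : (y : F) - algebraMap L F (a : L) ≠ 0 :=
      sub_ne_zero.mpr (tb21_ne_const hG hnc a)
    have hne1 : red y - algebraMap k Fk (π a) ≠ 0 := sub_ne_zero.mpr (hnc _)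
    have hv := (tb21_ord_pos_iff _ hne2).mp h
    refine (tb21_ord_pos_iff _ hne1).mpr ?_
    by_cases ha0 : (a : L) = 0
    · have ha0' : a = 0 := Subtype.ext ha0
      rw [ha0, map_zero, sub_zero] at hv
      have h1 : 1 < P.adicValuation (x : F) := by
        rw [hvF']
        exact tb21_one_lt_inv (hvyF0 P) hv
      have h2 := tb21_cl3v hC P h1
      rw [ha0', map_zero, map_zero, sub_zero, hvk]
      exact tb21_inv_lt_one h2
    · have hk := key P a ha0 hv
      by_cases hinv : (a : L)⁻¹ ∈ A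
      · have h1 := tb21_cl1v hG hC P ⟨(a : L)⁻¹, hinv⟩ hk
        have hmul : π ⟨(a : L)⁻¹, hinv⟩ * π a = 1 := by
          rw [← map_mul]
          have : (⟨(a : L)⁻¹, hinv⟩ : A) * a = 1 := Subtype.ext (inv_mul_cancel₀ ha0)
          rw [this, map_one]
        have hπa0 : π a ≠ 0 := right_ne_zero_of_mul_eq_one hmul
        have hπb0 : π ⟨(a : L)⁻¹, hinv⟩ ≠ 0 := left_ne_zero_of_mul_eq_one hmul
        have hvb : (r P).adicValuation (algebraMap k Fk (π ⟨(a : L)⁻¹, hinv⟩)) = 1 :=
          tb21_val_algebraMap _ hπb0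
        have hvxk : (r P).adicValuation (red x) = 1 := by
          have h2 : red x = algebraMap k Fk (π ⟨(a : L)⁻¹, hinv⟩) +
              (red x - algebraMap k Fk (π ⟨(a : L)⁻¹, hinv⟩)) := by ring
          rw [h2, Valuation.map_add_eq_of_lt_left _ (by rw [hvb]; exact h1), hvb]
        have h3 : red y - algebraMap k Fk (π a) =
            -(algebraMap k Fk (π a) * red y *
              (red x - algebraMap k Fk (π ⟨(a : L)⁻¹, hinv⟩))) := by
          have h4 : algebraMap k Fk (π ⟨(a : L)⁻¹, hinv⟩) * algebraMap k Fk (π a) = 1 := by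
            rw [← map_mul, hmul, map_one]
          linear_combination (algebraMap k Fk (π a)) * hxyk - red y * h4
        rw [h3, Valuation.map_neg, map_mul, map_mul, tb21_val_algebraMap _ hπa0, hvk, hvxk,
          inv_one, one_mul, one_mul]
        exact h1
      · have h1 := tb21_cl2v hG hC P (a : L)⁻¹ hinv hk
        have hπa : π a = 0 := by
          refine hG.ker a fun hu => hinv ?_
          obtain ⟨b, hb⟩ := isUnit_iff_exists_inv.mp hu
          have hb' : (a : L) * (b : L) = 1 := congrArg Subtype.val hb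
          rw [← eq_inv_of_mul_eq_one_right hb']
          exact b.2
        rw [hπa, map_zero, sub_zero, hvk]
        exact tb21_inv_lt_one h1
  · -- cl2
    intro P a ha h
    have hne2 : (y : F) - algebraMap L F a ≠ 0 := sub_ne_zero.mpr (tb21_ne_const hG hnc a)
    have hv := (tb21_ord_pos_iff _ hne2).mp h
    have ha0 : a ≠ 0 := fun h0 => ha (h0 ▸ A.zero_mem)
    have hk := key P a ha0 hv
    obtain ⟨b, hb, hπb⟩ := tb21_inv_small hG ha
    rw [← hb] at hk
    have h1 := tb21_cl1v hG hC P b hk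
    rw [hπb, map_zero, sub_zero] at h1
    refine (tb21_ord_neg_iff _ _).mpr ?_
    rw [hvk]
    exact tb21_one_lt_inv (hvxk0 _) h1
  · -- cl3
    intro P h
    have hv := (tb21_ord_neg_iff _ _).mp h
    have h1 : P.adicValuation ((x : F) - algebraMap L F ((0 : A) : L)) < 1 := by
      rw [ZeroMemClass.coe_zero, map_zero, sub_zero, hvF']
      exact tb21_inv_lt_one hv
    have h2 := tb21_cl1v hG hC P 0 h1
    rw [map_zero, map_zero, sub_zero] at h2
    refine (tb21_ord_neg_iff _ _).mpr ?_
    rw [hvk]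
    exact tb21_one_lt_inv (hvxk0 _) h2

omit [Algebra L F] in
/-- Choice of the auxiliary constant: if `k` is infinite, for finitely many points where `x̄` is
regular there is `c ∈ A` such that `c̄ - x̄` is a unit at all of them. -/
theorem tb21_exists_c [Infinite k] (hπ : Function.Surjective π) {x : V}
    (S : Finset (Place k Fk)) (hS : ∀ Q ∈ S, 0 ≤ Q.ord (red x)) :
    ∃ c : A, ∀ Q ∈ S, Q.ord (algebraMap k Fk (π c) - red x) = 0 := by
  classical
  have hsub : ∀ Q : Place k Fk,
      {c : k | Q.adicValuation (algebraMap k Fk c - red x) < 1}.Subsingleton := by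
    intro Q c1 h1 c2 h2
    by_contra hne
    have h3 : algebraMap k Fk (c1 - c2) =
        (algebraMap k Fk c1 - red x) - (algebraMap k Fk c2 - red x) := by
      rw [map_sub]
      ring
    have h4 : Q.adicValuation (algebraMap k Fk (c1 - c2)) < 1 := by
      rw [h3]
      exact Valuation.map_sub_lt _ h1 h2
    rw [tb21_val_algebraMap _ (sub_ne_zero.mpr hne)] at h4
    exact lt_irrefl _ h4
  have hfin : (⋃ Q ∈ S, {c : k | Q.adicValuation (algebraMap k Fk c - red x) < 1}).Finite :=
    Set.Finite.biUnion S.finite_toSet fun Q _ => (hsub Q).finite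
  obtain ⟨cbar, hcbar⟩ := hfin.exists_notMem
  obtain ⟨c, rfl⟩ := hπ cbar
  refine ⟨c, fun Q hQ => ?_⟩
  have hnot : ¬ Q.adicValuation (algebraMap k Fk (π c) - red x) < 1 := fun h =>
    hcbar (Set.mem_biUnion (Finset.mem_coe.mpr hQ) h)
  have hle : Q.adicValuation (algebraMap k Fk (π c) - red x) ≤ 1 :=
    Valuation.map_sub_le _ (tb21_val_algebraMap_le _ _) ((tb21_ord_nonneg_iff _ _).mp (hS Q hQ))
  have heq : Q.adicValuation (algebraMap k Fk (π c) - red x) = 1 :=
    le_antisymm hle (not_lt.mp hnot)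
  have hne : algebraMap k Fk (π c) - red x ≠ 0 := by
    intro h
    rw [h, map_zero] at heq
    exact zero_ne_one heq
  exact (tb21_ord_eq_zero_iff _ hne).mpr heq

/-- **THE TUBE TOOLKIT.** Given the Gauss package, a chart coordinate `x` with inverse `y`,
class compatibility for `x` and chart lifting for `x` and `y`: for every finite set `S` of points
of the special fibre and every place `P` of `F` with `r P ∈ S` there is `f ∈ V` with a simple zero
at `P` and neither zero nor pole at any other place whose reduction lies in `S`; moreover its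
reduction has a simple zero at `r P` and is a unit at the other points of `S`. -/
theorem tb21_tube [HasPrincipalDivisors L F] [Infinite k] (hG : tb21_Gauss A π r V red)
    (hπ : Function.Surjective π) {x y : V} (hxy : x * y = 1)
    (hC : tb21_Class A π r V red x) (hLx : tb21_Lift L k V red x)
    (hLy : tb21_Lift L k V red y) (S : Finset (Place k Fk)) (P : Place L F) (hP : r P ∈ S) :
    ∃ f : V, (r P).ord (red f) = 1 ∧ (∀ Q ∈ S, Q ≠ r P → Q.ord (red f) = 0) ∧
      P.ord (f : F) = 1 ∧ ∀ P' : Place L F, P' ≠ P → r P' ∈ S → P'.ord (f : F) = 0 := by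
  classical
  have hxyk : red x * red y = 1 := by rw [← map_mul, hxy, map_one]
  have hxk0 : red x ≠ 0 := left_ne_zero_of_mul_eq_one hxyk
  have hvk : ∀ Q : Place k Fk, Q.adicValuation (red y) = (Q.adicValuation (red x))⁻¹ := by
    intro Q
    rw [eq_inv_of_mul_eq_one_right hxyk, map_inv₀]
  -- one chart suffices
  have main : ∀ z : V, tb21_Class A π r V red z → tb21_Lift L k V red z →
      0 ≤ (r P).ord (red z) →
      ∃ f : V, (r P).ord (red f) = 1 ∧ (∀ Q ∈ S, Q ≠ r P → Q.ord (red f) = 0) ∧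
        P.ord (f : F) = 1 ∧ ∀ P' : Place L F, P' ≠ P → r P' ∈ S → P'.ord (f : F) = 0 := by
    intro z hCz hLz hz
    obtain ⟨c, hc⟩ := tb21_exists_c (π := π) (red := red) (x := z) hπ
      (S.filter fun Q => 0 ≤ Q.ord (red z)) (fun Q hQ => (Finset.mem_filter.mp hQ).2)
    have hsplit : ∀ Q ∈ S, Q ∈ S.filter (fun Q => 0 ≤ Q.ord (red z)) ∨
        Q ∈ S.filter (fun Q => Q.ord (red z) < 0) := by
      intro Q hQ
      by_cases h : 0 ≤ Q.ord (red z)
      · exact Or.inl (Finset.mem_filter.mpr ⟨hQ, h⟩)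
      · exact Or.inr (Finset.mem_filter.mpr ⟨hQ, not_le.mp h⟩)
    obtain ⟨f, h1, h2, h3, h4⟩ := tb21_tube_chart hG hCz hLz
      (S.filter fun Q => 0 ≤ Q.ord (red z)) (S.filter fun Q => Q.ord (red z) < 0) c hc
      (fun Q hQ => (Finset.mem_filter.mp hQ).2) P (Finset.mem_filter.mpr ⟨hP, hz⟩)
    exact ⟨f, h1, fun Q hQ hne => h2 Q (hsplit Q hQ) hne, h3,
      fun P' hne hP' => h4 P' hne (hsplit _ hP')⟩
  by_cases hx : 0 ≤ (r P).ord (red x)
  · exact main x hC hLx hx
  · refine main y (tb21_class_inv hG hxy hC) hLy ?_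
    have h1 : 1 < (r P).adicValuation (red x) := (tb21_ord_neg_iff _ _).mp (not_le.mp hx)
    refine (tb21_ord_nonneg_iff _ _).mpr ?_
    rw [hvk]
    exact (tb21_inv_lt_one h1).le

/-- The tube toolkit in the form consumed by the point form of Eichler–Shimura: a nonzero
function of `F` with a simple zero at `P` and no other zero or pole on the tubes over `S`. -/
theorem tb21_tube_fun [HasPrincipalDivisors L F] [Infinite k] (hG : tb21_Gauss A π r V red)
    (hπ : Function.Surjective π) {x y : V} (hxy : x * y = 1)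
    (hC : tb21_Class A π r V red x) (hLx : tb21_Lift L k V red x)
    (hLy : tb21_Lift L k V red y) (S : Finset (Place k Fk)) (P : Place L F) (hP : r P ∈ S) :
    ∃ f : F, f ≠ 0 ∧ P.ord f = 1 ∧ ∀ P' : Place L F, P' ≠ P → r P' ∈ S → P'.ord f = 0 := by
  obtain ⟨f, -, -, h3, h4⟩ := tb21_tube hG hπ hxy hC hLx hLy S P hP
  refine ⟨f, ?_, h3, h4⟩
  intro h0
  rw [h0] at h3
  simp at h3

end Final

end Fermat.Agent.S37
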