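import Fermat.Agent.S37.Tube21
import Fermat.Agent.S37.Chart44
import Fermat.Agent.S37.PlacesSep14
import Fermat.Agent.S37.SepTower14

/-!
# S37, row XC (helper21), part 2: `tb21_Lift` from chart normality + CRT

`tb21_Lift L k V red x` (the only hypothesis of the tube toolkit `tb21_tube` of `Tube21.lean`
that is not a statement about the place reduction) is derived from chart normality:

* `tb21_lift_of_dedekind` — abstract Dedekind form: `Ck` a Dedekind ring with fraction field
  `Fk` whose height one primes give all the places where `red x` is regular, and every element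
  of `Ck` is the reduction of an element of `V` regular wherever `x` is regular
  (this is `h48_Chart.surj` read through the place dictionary).
* `tb21_lift_of_integral` — `Ck` = integral closure of `k[x̄]` in `Fk` (`k` algebraically
  closed, `Fk / k(x̄)` finite separable: helper14's `ps14_*`), lifting in ring-hom integrality
  form.
* `tb21_lift_of_ch44` — from helper44's `ch44_Lifts A red x` (chart normality at the Gauss-ring
  level, the binding shape of row NM).
* `tb21_tube_of_ch44` — the tube toolkit for an arbitrary finite set of points of the special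
  fibre from `tb21_Gauss`, `tb21_Class` for `x`, and `ch44_Lifts` for `x` and `x⁻¹`.

CRT: `tb21_crt` (uniformizer at one prime, `≡ 1` at finitely many others).
-/

set_option autoImplicit false
set_option linter.style.haveILetI false

namespace Fermat.Agent.S37

open AlgebraicCurve IsDedekindDomain IntermediateField

section Abstract

variable {L : Type*} [Field L] {k : Type*} [Field k]
variable {F : Type*} [Field F] [Algebra L F] {Fk : Type*} [Field Fk] [Algebra k Fk]
variable {V : Subring F} {red : V →+* Fk}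
variable {Ck : Type*} [CommRing Ck] [IsDedekindDomain Ck] [Algebra Ck Fk] [IsFractionRing Ck Fk]
  [Algebra k Ck] [IsScalarTower k Ck Fk]

/-- An element of `w \ w²` has order `1` at the place of `w`. -/
theorem tb21_ord_eq_one_of_mem (w : HeightOneSpectrum Ck) {c : Ck} (h1 : c ∈ w.asIdeal)
    (h2 : c ∉ w.asIdeal ^ 2) :
    (Place.ofHeightOneSpectrum (K := k) w).ord (algebraMap Ck Fk c) = 1 := by
  have hc0 : c ≠ 0 := fun h => h2 (h ▸ Ideal.zero_mem _)
  have hv0 : w.intValuation c ≠ 0 := w.intValuation_ne_zero c hc0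
  have hle : w.intValuation c ≤ WithZero.exp (-((1 : ℕ) : ℤ)) := by
    rw [w.intValuation_le_pow_iff_mem, pow_one]
    exact h1
  have hnle : ¬ w.intValuation c ≤ WithZero.exp (-((2 : ℕ) : ℤ)) := by
    rw [w.intValuation_le_pow_iff_mem]
    exact h2
  rw [Fermat.Agent.S24.wp1a_ord_ofHeightOneSpectrum, HeightOneSpectrum.valuation_of_algebraMap]
  rw [← WithZero.exp_log hv0] at hle hnle
  rw [WithZero.exp_le_exp] at hle hnle
  push_cast at hle hnle
  omega

/-- CRT in a Dedekind domain: an element which is a uniformizer at `w₀` and `≡ 1` at finitely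
many other primes. -/
theorem tb21_crt (w₀ : HeightOneSpectrum Ck) (T : Finset (HeightOneSpectrum Ck)) :
    ∃ c : Ck, c ∈ w₀.asIdeal ∧ c ∉ w₀.asIdeal ^ 2 ∧ ∀ w ∈ T, w ≠ w₀ → c - 1 ∈ w.asIdeal := by
  classical
  obtain ⟨ϖ, hϖ⟩ := w₀.intValuation_exists_uniformizer
  have hϖ1 : ϖ ∈ w₀.asIdeal := by
    have h := (w₀.intValuation_le_pow_iff_mem ϖ 1).mp (by rw [hϖ]; simp)
    rwa [pow_one] at h
  have hϖ2 : ϖ ∉ w₀.asIdeal ^ 2 := by
    intro h
    have h' := (w₀.intValuation_le_pow_iff_mem ϖ 2).mpr h
    rw [hϖ, WithZero.exp_le_exp] at h'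
    norm_num at h'
  obtain ⟨y, hy⟩ := IsDedekindDomain.exists_forall_sub_mem_ideal
    (s := insert w₀ T) (fun w : HeightOneSpectrum Ck => w.asIdeal)
    (fun w => if w = w₀ then 2 else 1) (fun w _ => w.prime)
    (fun i _ j _ hij h => hij (HeightOneSpectrum.ext h))
    (fun w => if w = w₀ then ϖ else 1)
  have hy0 : y - ϖ ∈ w₀.asIdeal ^ 2 := by
    have h := hy w₀ (Finset.mem_insert_self _ _)
    simpa using h
  refine ⟨y, ?_, ?_, ?_⟩
  · have h : y = (y - ϖ) + ϖ := by ring
    rw [h]
    exact Ideal.add_mem _ (Ideal.pow_le_self two_ne_zero hy0) hϖ1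
  · intro h
    apply hϖ2
    have h' : ϖ = y - (y - ϖ) := by ring
    rw [h']
    exact Ideal.sub_mem _ h hy0
  · intro w hw hne
    have h := hy w (Finset.mem_insert_of_mem hw)
    simpa [hne] using h

/-- **Chart lifting in Dedekind form gives `tb21_Lift`.** `Ck` a Dedekind ring with fraction
field `Fk` whose primes give all the places where `red x` is regular, and every element of `Ck`
is the reduction of an element of `V` which is regular wherever `x` is regular. -/
theorem tb21_lift_of_dedekind (x : V)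
    (hcov : ∀ Q : Place k Fk, 0 ≤ Q.ord (red x) →
      ∃ w : HeightOneSpectrum Ck, Place.ofHeightOneSpectrum (K := k) w = Q)
    (hsurj : ∀ c : Ck, ∃ t : V, red t = algebraMap Ck Fk c ∧
      ∀ P : Place L F, 0 ≤ P.ord (x : F) → 0 ≤ P.ord (t : F)) :
    tb21_Lift L k V red x := by
  classical
  intro Q₀ S hQ₀ hS
  obtain ⟨w₀, rfl⟩ := hcov Q₀ hQ₀
  have : Nonempty (HeightOneSpectrum Ck) := ⟨w₀⟩
  have hw : ∀ Q ∈ S, ∃ w : HeightOneSpectrum Ck, Place.ofHeightOneSpectrum (K := k) w = Q :=
    fun Q hQ => hcov Q (hS Q hQ)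
  choose! g hg using hw
  obtain ⟨c, hc1, hc2, hc3⟩ := tb21_crt w₀ (S.image g)
  obtain ⟨t, ht, htreg⟩ := hsurj c
  refine ⟨t, htreg, ?_, ?_⟩
  · rw [ht]
    exact tb21_ord_eq_one_of_mem w₀ hc1 hc2
  · intro Q hQ hne
    have hgQ := hg Q hQ
    have hne' : g Q ≠ w₀ := fun h => hne (by rw [← hgQ, h])
    have h1 := hc3 (g Q) (Finset.mem_image_of_mem g hQ) hne'
    have hc0 : c - 1 ≠ 0 := by
      intro h
      have h' : c = 1 := sub_eq_zero.mp h
      rw [h'] at hc1
      exact w₀.isPrime.ne_top ((Ideal.eq_top_iff_one _).mpr hc1)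
    rw [ht, ← hgQ, ← map_one (algebraMap Ck Fk), ← map_sub]
    exact (Fermat.Agent.S24.wp1a_ord_pos_iff (g Q) hc0).mpr h1

end Abstract

section Integral

variable {L : Type*} [Field L] {k : Type*} [Field k]
variable {F : Type*} [Field F] [Algebra L F] {Fk : Type*} [Field Fk] [Algebra k Fk]
variable {V : Subring F} {red : V →+* Fk}

theorem tb21_mem_iff {K E : Type*} [Field K] [Field E] [Algebra K E] (v : Place K E) (f : E) :
    f ∈ v.toValuationSubring ↔ 0 ≤ v.ord f := by
  constructor
  · intro hf
    exact (tb21_ord_nonneg_iff v f).mpr ((v.adicValuation_coe ⟨f, hf⟩).trans_le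
      (v.heightOneSpectrum.intValuation_le_one ⟨f, hf⟩))
  · exact Fermat.Agent.S24.wp1a_mem_of_ord_nonneg v

/-- Valuation subrings are integrally closed (ring-hom form). -/
theorem tb21_mem_of_isIntegralElem {E : Type*} [Field E] (W : ValuationSubring E) {R : Type*}
    [CommRing R] (ψ : R →+* E) (hψ : ∀ r, ψ r ∈ W) {f : E} (hf : ψ.IsIntegralElem f) :
    f ∈ W := by
  obtain ⟨p, hpm, hp⟩ := hf
  have hint : IsIntegral W f := by
    refine ⟨p.map (ψ.codRestrict W.toSubring hψ), hpm.map _, ?_⟩
    rw [Polynomial.eval₂_map]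
    exact hp
  obtain ⟨y, hy⟩ := IsIntegrallyClosed.isIntegral_iff.mp hint
  rw [← hy]
  exact y.2

/-- **Chart lifting in integral-closure form gives `tb21_Lift`.** `k` algebraically closed,
`Fk / k(x̄)` finite separable; `φ : R → F` a ring homomorphism whose values are regular wherever
`x` is regular (e.g. `R = A[X]`, `X ↦ x`); every element of `Fk` integral over `k[x̄]` is the
reduction of an element of `V` integral over `φ`. -/
theorem tb21_lift_of_integral [IsAlgClosed k] (x : V) (hx : Transcendental k (red x))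
    [FiniteDimensional k⟮red x⟯ Fk] [Algebra.IsSeparable k⟮red x⟯ Fk]
    {R : Type*} [CommRing R] (φ : R →+* F)
    (hφ : ∀ (r : R) (P : Place L F), 0 ≤ P.ord (x : F) → 0 ≤ P.ord (φ r))
    (hlift : ∀ g : Fk, IsIntegral (Algebra.adjoin k {red x}) g →
      ∃ t : V, red t = g ∧ φ.IsIntegralElem (t : F)) :
    tb21_Lift L k V red x := by
  haveI := ps14_isDedekindDomain (red x) hx
  haveI := ps14_isFractionRing (K := k) (red x)
  haveI := ps14_isScalarTower (K := k) (red x)
  refine tb21_lift_of_dedekind (Ck := integralClosure (Algebra.adjoin k {red x}) Fk) x ?_ ?_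
  · intro Q hQ
    exact ps14_exists_eq_ofHeightOneSpectrum (red x) hx Q ((tb21_mem_iff Q _).mpr hQ)
  · intro c
    obtain ⟨t, ht, hint⟩ := hlift (c : Fk) c.2
    refine ⟨t, ht, fun P hP => ?_⟩
    exact (tb21_mem_iff P _).mp (tb21_mem_of_isIntegralElem P.toValuationSubring φ
      (fun r => (tb21_mem_iff P _).mpr (hφ r P hP)) hint)

/-- **`ch44_Lifts` (chart normality at the Gauss-ring level) gives `tb21_Lift`.** -/
theorem tb21_lift_of_ch44 {A : ValuationSubring L} [Algebra A V] [IsAlgClosed k]
    (π : A →+* k) (hπ : Function.Surjective π)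
    (hAV : ∀ a : A, ((algebraMap A V a : V) : F) = algebraMap L F (a : L))
    (hcompat : ∀ a : A, red (algebraMap A V a) = algebraMap k Fk (π a))
    (x : V) (hx : Transcendental k (red x))
    [FiniteDimensional k⟮red x⟯ Fk] [Algebra.IsSeparable k⟮red x⟯ Fk]
    (H : ch44_Lifts A red x) : tb21_Lift L k V red x := by
  refine tb21_lift_of_integral x hx
    (V.subtype.comp ((Polynomial.aeval x : Polynomial A →ₐ[A] V) : Polynomial A →+* V)) ?_ ?_
  · intro r P hP
    refine (tb21_mem_iff P _).mp ?_
    have hxP : (x : F) ∈ P.toValuationSubring := (tb21_mem_iff P _).mpr hP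
    induction r using Polynomial.induction_on' with
    | add p q hp hq =>
      rw [map_add]
      exact add_mem hp hq
    | monomial n a =>
      have h1 : (V.subtype.comp ((Polynomial.aeval x : Polynomial A →ₐ[A] V) :
          Polynomial A →+* V)) (Polynomial.monomial n a) =
          algebraMap L F (a : L) * (x : F) ^ n := by
        rw [RingHom.comp_apply, RingHom.coe_coe, Polynomial.aeval_monomial, map_mul, map_pow]
        show ((algebraMap A V a : V) : F) * (x : F) ^ n = _
        rw [hAV]
      rw [h1]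
      exact mul_mem (P.algebraMap_mem' _) (pow_mem hxP n)
  · intro g hg
    obtain ⟨f, hf, hfg⟩ := H g ((ch44_redInt_iff A red π hπ hcompat).mpr hg)
    refine ⟨f, hfg, ?_⟩
    obtain ⟨p, hpm, hp⟩ := hf
    refine ⟨p, hpm, ?_⟩
    have h2 := congrArg V.subtype hp
    rw [Polynomial.hom_eval₂, map_zero] at h2
    exact h2

end Integral

section TubeCh44

variable {L : Type*} [Field L] {A : ValuationSubring L}
variable {k : Type*} [Field k] {π : A →+* k}
variable {F : Type*} [Field F] [Algebra L F] {Fk : Type*} [Field Fk] [Algebra k Fk]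
variable {r : Place L F → Place k Fk}
variable {V : Subring F} {red : V →+* Fk}

/-- **The tube toolkit from chart normality for `x` and `x⁻¹`** (`ch44_Lifts` form). -/
theorem tb21_tube_of_ch44 [HasPrincipalDivisors L F] [IsAlgClosed k] [Algebra A V]
    (hG : tb21_Gauss A π r V red) (hπ : Function.Surjective π)
    (hAV : ∀ a : A, ((algebraMap A V a : V) : F) = algebraMap L F (a : L))
    {x y : V} (hxy : x * y = 1) (hC : tb21_Class A π r V red x)
    (hx : Transcendental k (red x))
    [FiniteDimensional k⟮red x⟯ Fk] [Algebra.IsSeparable k⟮red x⟯ Fk]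
    (Hx : ch44_Lifts A red x) (Hy : ch44_Lifts A red y)
    (S : Finset (Place k Fk)) (P : Place L F) (hP : r P ∈ S) :
    ∃ f : V, (r P).ord (red f) = 1 ∧ (∀ Q ∈ S, Q ≠ r P → Q.ord (red f) = 0) ∧
      P.ord (f : F) = 1 ∧ ∀ P' : Place L F, P' ≠ P → r P' ∈ S → P'.ord (f : F) = 0 := by
  have hcompat : ∀ a : A, red (algebraMap A V a) = algebraMap k Fk (π a) := by
    intro a
    obtain ⟨v, hv, hvr⟩ := tb21_constV hG a
    rw [show algebraMap A V a = v from Subtype.ext ((hAV a).trans hv.symm), hvr]
  have hxyk : red x * red y = 1 := by rw [← map_mul, hxy, map_one]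
  have hyinv : red y = (red x)⁻¹ := eq_inv_of_mul_eq_one_right hxyk
  have hy : Transcendental k (red y) := hyinv ▸ ps14_transcendental_inv hx
  haveI : FiniteDimensional k⟮red y⟯ Fk := by
    rw [hyinv]
    exact ps14_finiteDimensional_inv (red x)
  haveI : Algebra.IsSeparable k⟮red y⟯ Fk := by
    rw [hyinv]
    exact ps14_isSeparable_inv (red x)
  exact tb21_tube hG hπ hxy hC (tb21_lift_of_ch44 π hπ hAV hcompat x hx Hx)
    (tb21_lift_of_ch44 π hπ hAV hcompat y hy Hy) S P hP

end TubeCh44

end Fermat.Agent.S37
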