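import Fermat.Agent.S37.GeoHaupt17
import Fermat.Agent.S37.Tube21
import Fermat.Agent.S37.TubeLift21
import Fermat.Agent.S37.CrossChartGa25
import Fermat.Agent.S37.ChartMod80

/-!
# S37 (helper17): the adapters between the Gauss-ring reduction and the RC package

Level `M`, `A` a valuation ring of `ℚ̄`, `k` its residue field, `(M : k) ≠ 0`; Gauss ring
`ga41_O M A` with reduction map `ga41_red M A hM`.  For a chart coordinate `x` of the Gauss ring
with inverse `y` (`x * y = 1`):

* `geo17_hr_of_cons` : conservation on the Gauss ring gives clause (1) `IsPlaceReductionModL`;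
* `geo17_hcls_of_class` : class compatibility in pointwise form (coordinate / non-integral value /
  pole, the fields `coord`, `notMem`, `pole` of the glue) gives "`r0` respects `x`-classes";
* `geo17_gauss`, `geo17_class` : the packages `tb21_Gauss`, `tb21_Class` of the tube toolkit;
* `geo17_tube_of_lift` : tube divisors for finite sets of `x`-classes from chart lifting;
* `geo17_lift_of_normal` : chart lifting `tb21_Lift` from chart normality `ka46_NormalAt`.
-/

set_option autoImplicit false
set_option linter.style.haveILetI false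

namespace Fermat.Agent.S37

open ModularCurve AlgebraicCurve Polynomial IntermediateField Fermat.Agent.S24 Fermat.Agent.S18

local notation "Qb" => AlgebraicClosure ℚ

section Gauss

set_option synthInstance.maxHeartbeats 400000

variable (M : ℕ) [NeZero M] (A : ValuationSubring Qb)
  (hM : (M : IsLocalRing.ResidueField A) ≠ 0)

set_option maxHeartbeats 1000000 in
/-- **Clause (1) from conservation on the Gauss ring.** -/
theorem geo17_hr_of_cons
    (r0 : Place Qb (modularFunctionFieldBar M) →
      Place (IsLocalRing.ResidueField A)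
        (modularFunctionFieldFullC (IsLocalRing.ResidueField A) M))
    (hcons : ∀ f : ga41_O M A, ga41_red M A hM f ≠ 0 →
      ∀ D : Divisor Qb (modularFunctionFieldBar M),
        (∀ P, D P = P.ord (f : modularFunctionFieldBar M)) →
        ∀ Q, Finsupp.mapDomain r0 D Q = Q.ord (ga41_red M A hM f)) :
    IsPlaceReductionModL A M r0 := by
  haveI := rc5_isAlgClosed_residueField A
  refine ⟨fun P => ?_, fun y hy hyk hne D hD Q => ?_⟩
  · haveI := hi63_finite_x M
    haveI := rc5_finiteDimensional (IsLocalRing.ResidueField A) M
    rw [wp1_deg_eq_one (hi63_x M) (hi63_x_transcendental M) P,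
      wp1_deg_eq_one (rc5_j (IsLocalRing.ResidueField A) M)
        (rc5_j_transcendental (IsLocalRing.ResidueField A) M) (r0 P)]
  · have hmem : (⟨coeffMap A.subtype y, hy⟩ : modularFunctionFieldBar M) ∈ ga41_O M A :=
      ga41_mem_O_of_integral y rfl
    have hred : ga41_red M A hM ⟨_, hmem⟩ =
        (⟨coeffMap (IsLocalRing.residue A) y, hyk⟩ :
          modularFunctionFieldFullC (IsLocalRing.ResidueField A) M) :=
      Subtype.ext (ga41_redHom_integral _ y rfl)
    have h := hcons ⟨_, hmem⟩ (by rw [hred]; exact fun h0 => hne (congrArg Subtype.val h0)) D hD Q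
    rw [hred] at h
    exact h

omit hM in
set_option maxHeartbeats 1000000 in
/-- **"`r0` respects `X`-classes" from the pointwise class compatibility.** -/
theorem geo17_hcls_of_class (XL : modularFunctionFieldBar M)
    (Xk : modularFunctionFieldFullC (IsLocalRing.ResidueField A) M)
    (hXL : ∀ c : Qb, XL ≠ algebraMap Qb (modularFunctionFieldBar M) c)
    (r0 : Place Qb (modularFunctionFieldBar M) →
      Place (IsLocalRing.ResidueField A)
        (modularFunctionFieldFullC (IsLocalRing.ResidueField A) M))
    (h1 : ∀ (P : Place Qb (modularFunctionFieldBar M)) (a : A),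
      0 < P.ord (XL - algebraMap Qb (modularFunctionFieldBar M) (a : Qb)) →
      0 < (r0 P).ord (Xk - algebraMap (IsLocalRing.ResidueField A)
        (modularFunctionFieldFullC (IsLocalRing.ResidueField A) M) (IsLocalRing.residue A a)))
    (h2 : ∀ (P : Place Qb (modularFunctionFieldBar M)) (c : Qb), c ∉ A →
      0 < P.ord (XL - algebraMap Qb (modularFunctionFieldBar M) c) → (r0 P).ord Xk < 0)
    (h3 : ∀ P : Place Qb (modularFunctionFieldBar M), P.ord XL < 0 → (r0 P).ord Xk < 0)
    (P : Place Qb (modularFunctionFieldBar M)) :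
    cx91_cls Xk (r0 P) = cx91_clsL A XL P := by
  by_cases hex : ∃ a : A, 0 < P.ord (XL - algebraMap Qb (modularFunctionFieldBar M) (a : Qb))
  · obtain ⟨a, ha⟩ := hex
    rw [cx91_clsL_eq_some XL P a ha, cx91_cls_eq_some_iff]
    exact h1 P a ha
  · rw [(cx91_clsL_eq_none_iff XL P).mpr (fun a ha => hex ⟨a, ha⟩), cx91_cls_eq_none_iff]
    intro c hc
    have hpole : (r0 P).ord Xk < 0 := by
      by_cases hP : P.ord XL < 0
      · exact h3 P hP
      · have hmem : XL ∈ P.toValuationSubring :=
          (wp1_mem_iff_ord_nonneg P XL).mpr (not_lt.mp hP)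
        obtain ⟨τ, hτ | hτ⟩ := geo17_hF1_L P XL hmem
        · exact absurd hτ (hXL τ)
        · exact h2 P τ (fun hτA => hex ⟨⟨τ, hτA⟩, hτ⟩) hτ
    exact geo17_not_pole_of_value (r0 P) Xk c hc hpole

set_option maxHeartbeats 1000000 in
/-- **The Gauss package of the tube toolkit** from a place reduction in the Prelude sense. -/
theorem geo17_gauss
    (r0 : Place Qb (modularFunctionFieldBar M) →
      Place (IsLocalRing.ResidueField A)
        (modularFunctionFieldFullC (IsLocalRing.ResidueField A) M))
    (hr : IsPlaceReductionModL A M r0) :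
    tb21_Gauss A (IsLocalRing.residue A) r0 (ga41_O M A) (ga41_red M A hM) := by
  haveI := hi63_hasPrincipalDivisors_bar M
  refine ⟨fun a ha => ?_, fun a => ⟨ga41_algebraMap_mem M A a, ?_⟩, fun v hv => ?_,
    fun v hv D hD Q => xc25_ga41_cons M A hM r0 hr v hv D hD Q, fun P f hf => ?_⟩
  · rw [IsLocalRing.residue_eq_zero_iff]
    exact ha
  · apply Subtype.ext
    rw [ga41_red_coe, ga41_redHom_algebraMap]
    rfl
  · have hu : IsUnit v := (ga41_isUnit_iff M A v).mpr (fun h0 => hv (by
      apply Subtype.ext
      exact h0))
    exact hu.exists_right_inv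
  · exact geo17_hF1_L P f ((wp1_mem_iff_ord_nonneg P f).mpr hf)

set_option maxHeartbeats 1000000 in
/-- A place of the special fibre whose `X`-class is `none` is a pole of `X`. -/
theorem geo17_pole_of_cls_none
    (Xk : modularFunctionFieldFullC (IsLocalRing.ResidueField A) M)
    (hnc : ∀ c : IsLocalRing.ResidueField A, Xk ≠ algebraMap (IsLocalRing.ResidueField A)
      (modularFunctionFieldFullC (IsLocalRing.ResidueField A) M) c)
    (Q : Place (IsLocalRing.ResidueField A)
      (modularFunctionFieldFullC (IsLocalRing.ResidueField A) M))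
    (hQ : cx91_cls Xk Q = none) : Q.ord Xk < 0 := by
  haveI := rc5_isAlgClosed_residueField A
  rw [cx91_cls_eq_none_iff] at hQ
  by_contra hge
  have hmem : Xk ∈ Q.toValuationSubring := (wp1_mem_iff_ord_nonneg _ _).mpr (not_lt.mp hge)
  obtain ⟨c, hc | hc⟩ := geo17_hF1_k (IsLocalRing.ResidueField A) Q Xk hmem
  · exact hnc c hc
  · exact hQ c hc

set_option maxHeartbeats 1000000 in
/-- **Class compatibility of the tube toolkit** from "`r0` respects `x`-classes". -/
theorem geo17_class (x : ga41_O M A)
    (hnc : ∀ c : IsLocalRing.ResidueField A, ga41_red M A hM x ≠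
      algebraMap (IsLocalRing.ResidueField A)
        (modularFunctionFieldFullC (IsLocalRing.ResidueField A) M) c)
    (r0 : Place Qb (modularFunctionFieldBar M) →
      Place (IsLocalRing.ResidueField A)
        (modularFunctionFieldFullC (IsLocalRing.ResidueField A) M))
    (hcls : ∀ P : Place Qb (modularFunctionFieldBar M),
      cx91_cls (ga41_red M A hM x) (r0 P) = cx91_clsL A (x : modularFunctionFieldBar M) P) :
    tb21_Class A (IsLocalRing.residue A) r0 (ga41_O M A) (ga41_red M A hM) x := by
  have hnone : ∀ P : Place Qb (modularFunctionFieldBar M),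
      cx91_clsL A (x : modularFunctionFieldBar M) P = none →
      (r0 P).ord (ga41_red M A hM x) < 0 := by
    intro P hP
    exact geo17_pole_of_cls_none M A _ hnc (r0 P) (by rw [hcls P, hP])
  refine ⟨hnc, fun P a ha => ?_, fun P c hc hP => ?_, fun P hP => ?_⟩
  · have h1 := hcls P
    rw [cx91_clsL_eq_some _ P a ha, cx91_cls_eq_some_iff] at h1
    exact h1
  · apply hnone
    rw [cx91_clsL_eq_none_iff]
    intro a ha
    have h := cx91_const_unique P _ ha hP
    exact hc (h ▸ a.2)
  · apply hnone
    rw [cx91_clsL_eq_none_iff]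
    intro a ha
    exact geo17_not_pole_of_value P _ (a : Qb) ha hP

end Gauss

end Fermat.Agent.S37
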