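import Fermat.Agent.S37.GeoRC17
import Fermat.Agent.S37.HJInst91
import Fermat.Agent.S18.Haupt2R70
import Fermat.Agent.S18.Haupt3Mem_34

/-!
# S37 (helper17): the RC package `geo17_RC` from a Hauptmodul chart

At a level `M` divisible by `p₀ ∈ {2, 3}` the normal model is built with the Hauptmodul `h` of
`X₀(p₀)` (charts `h`, `1/h`), so row RC delivers a place reduction `r0` which respects
`h`-classes and has tube divisors for finite sets of `h`-classes.  The `j`-classes are functions
of the `h`-classes (`hj91_Jmap`, helper91), with finite fibres, hence: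

* `geo17_RC_of_chart`: abstract form (any coordinate `X` with `j`-class `= Jmap (X`-class`)`);
* `geo17_RC_level2`, `geo17_RC_level3`: the two Hauptmodul instances, with all side conditions
  (memberships, existence of values, `p₀ ≠ 0` in the residue field) discharged.
-/

set_option autoImplicit false
set_option linter.style.haveILetI false

namespace Fermat.Agent.S37

open ModularCurve AlgebraicCurve Polynomial Fermat.Agent.S24 Fermat.Agent.S18

local notation "Qb" => AlgebraicClosure ℚ

section Haupt

set_option synthInstance.maxHeartbeats 400000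

variable {M : ℕ} [NeZero M] {ℓ : ℕ} {A : ValuationSubring Qb}

set_option maxHeartbeats 1000000 in
/-- **The RC package from a chart coordinate `X`** whose classes determine the `j`-classes
through a map `Jmap` with finite fibres. -/
theorem geo17_RC_of_chart (hℓ : ℓ.Prime) (hℓM : ¬ ℓ ∣ M) (hA : A.LiesOverPrime ℓ)
    (XL : modularFunctionFieldBar M)
    (Xk : modularFunctionFieldFullC (IsLocalRing.ResidueField A) M)
    (e : ℕ) (Nm : ℤ[X])
    (hfin : ∀ G : Finset (Option (IsLocalRing.ResidueField A)),
      {c : Option (IsLocalRing.ResidueField A) |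
        hj91_Jmap (IsLocalRing.ResidueField A) e Nm c ∈ G}.Finite)
    (hk : ∀ Q : Place (IsLocalRing.ResidueField A)
        (modularFunctionFieldFullC (IsLocalRing.ResidueField A) M),
      cx91_cls (geo17_jbar (IsLocalRing.ResidueField A) M) Q =
        hj91_Jmap (IsLocalRing.ResidueField A) e Nm (cx91_cls Xk Q))
    (hL : ∀ P : Place Qb (modularFunctionFieldBar M),
      cx91_clsL A (es87_j Qb M) P =
        hj91_Jmap (IsLocalRing.ResidueField A) e Nm (cx91_clsL A XL P))
    (r0 : Place Qb (modularFunctionFieldBar M) →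
      Place (IsLocalRing.ResidueField A)
        (modularFunctionFieldFullC (IsLocalRing.ResidueField A) M))
    (hr : IsPlaceReductionModL A M r0)
    (hcls : ∀ P : Place Qb (modularFunctionFieldBar M), cx91_cls Xk (r0 P) = cx91_clsL A XL P)
    (htube : ∀ (P : Place Qb (modularFunctionFieldBar M))
      (G : Finset (Option (IsLocalRing.ResidueField A))), cx91_clsL A XL P ∈ G →
      ∃ D ∈ Divisor.principal (K := Qb) (F := modularFunctionFieldBar M), D P = 1 ∧
        ∀ P', P' ≠ P → cx91_clsL A XL P' ∈ G → D P' = 0) :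
    geo17_RC M A := by
  refine geo17_RC_of_cls hℓ hℓM hA r0 hr (fun P => ?_) (fun P G hG => ?_)
  · rw [hk, hL, hcls]
  · rw [hL] at hG
    obtain ⟨D, hD, hDP, hD0⟩ := hj91_tube_comp (cx91_clsL A XL)
      (hj91_Jmap (IsLocalRing.ResidueField A) e Nm) hfin
      (Divisor.principal (K := Qb) (F := modularFunctionFieldBar M) : Set _)
      (fun P G hG => htube P G hG) P G hG
    exact ⟨D, hD, hDP, fun P' hne hG' => hD0 P' hne (by rw [← hL]; exact hG')⟩

/-- Existence of values on the generic fibre (`wp1_exists_const` shape). -/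
theorem geo17_hF1_L (P : Place Qb (modularFunctionFieldBar M)) (f : modularFunctionFieldBar M)
    (hf : f ∈ P.toValuationSubring) :
    ∃ c : Qb, f = algebraMap Qb (modularFunctionFieldBar M) c ∨
      0 < P.ord (f - algebraMap Qb (modularFunctionFieldBar M) c) := by
  haveI := hi63_finite_x M
  exact wp1_exists_const (hi63_x M) (hi63_x_transcendental M) P f hf

/-- Existence of values on the special fibre (`wp1_exists_const` shape). -/
theorem geo17_hF1_k (k : Type*) [Field k] [IsAlgClosed k]
    (Q : Place k (modularFunctionFieldFullC k M)) (f : modularFunctionFieldFullC k M)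
    (hf : f ∈ Q.toValuationSubring) :
    ∃ c : k, f = algebraMap k (modularFunctionFieldFullC k M) c ∨
      0 < Q.ord (f - algebraMap k (modularFunctionFieldFullC k M) c) := by
  haveI := rc5_finiteDimensional k M
  exact wp1_exists_const (rc5_j k M) (rc5_j_transcendental k M) Q f hf

omit [NeZero M] in
/-- A series transcendental over the constants is not a constant of the function field. -/
theorem geo17_ne_const_of_transcendental {K : Type*} [Field K] {E : IntermediateField K (LaurentSeries K)}
    (x : E) (hx : Transcendental K (x : LaurentSeries K)) (c : K) :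
    x ≠ algebraMap K E c := by
  intro h
  apply hx
  rw [h]
  exact (isAlgebraic_algebraMap (R := K) (A := E) c).algebraMap (A := LaurentSeries K)

set_option maxHeartbeats 1000000 in
/-- **The RC package at a level divisible by `2`** from a place reduction respecting the classes
of the Hauptmodul `h₂` of `X₀(2)`, with tube divisors for finite sets of `h₂`-classes. -/
theorem geo17_RC_level2 (h2M : 2 ∣ M) (hℓ : ℓ.Prime) (hℓM : ¬ ℓ ∣ M) (hA : A.LiesOverPrime ℓ)
    (hmL : h70_h2 Qb ∈ modularFunctionFieldBar M)
    (hmk : h70_h2 (IsLocalRing.ResidueField A) ∈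
      modularFunctionFieldFullC (IsLocalRing.ResidueField A) M)
    (r0 : Place Qb (modularFunctionFieldBar M) →
      Place (IsLocalRing.ResidueField A)
        (modularFunctionFieldFullC (IsLocalRing.ResidueField A) M))
    (hr : IsPlaceReductionModL A M r0)
    (hcls : ∀ P : Place Qb (modularFunctionFieldBar M),
      cx91_cls (⟨h70_h2 (IsLocalRing.ResidueField A), hmk⟩ :
          modularFunctionFieldFullC (IsLocalRing.ResidueField A) M) (r0 P) =
        cx91_clsL A (⟨h70_h2 Qb, hmL⟩ : modularFunctionFieldBar M) P)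
    (htube : ∀ (P : Place Qb (modularFunctionFieldBar M))
      (G : Finset (Option (IsLocalRing.ResidueField A))),
      cx91_clsL A (⟨h70_h2 Qb, hmL⟩ : modularFunctionFieldBar M) P ∈ G →
      ∃ D ∈ Divisor.principal (K := Qb) (F := modularFunctionFieldBar M), D P = 1 ∧
        ∀ P', P' ≠ P → cx91_clsL A (⟨h70_h2 Qb, hmL⟩ : modularFunctionFieldBar M) P' ∈ G →
          D P' = 0) :
    geo17_RC M A := by
  haveI := rc5_isAlgClosed_residueField A
  have h2 : ¬ ℓ ∣ 2 := fun hd => hℓM (hd.trans h2M)
  have h2k : (2 : IsLocalRing.ResidueField A) ≠ 0 := by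
    have := ga41_natCast_ne_zero 2 A hℓ hA h2
    exact_mod_cast this
  have htotk : ∀ Q : Place (IsLocalRing.ResidueField A)
      (modularFunctionFieldFullC (IsLocalRing.ResidueField A) M),
      (⟨h70_h2 (IsLocalRing.ResidueField A), hmk⟩ :
        modularFunctionFieldFullC (IsLocalRing.ResidueField A) M) ∈ Q.toValuationSubring →
      ∃ c : IsLocalRing.ResidueField A,
        0 < Q.ord ((⟨h70_h2 (IsLocalRing.ResidueField A), hmk⟩ :
          modularFunctionFieldFullC (IsLocalRing.ResidueField A) M) -
          algebraMap (IsLocalRing.ResidueField A)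
            (modularFunctionFieldFullC (IsLocalRing.ResidueField A) M) c) :=
    fun Q hQ => hj91_htot_of_hF1 _
      (geo17_ne_const_of_transcendental _ (h70_h2_transcendental (IsLocalRing.ResidueField A)))
      (fun P f hf => geo17_hF1_k (IsLocalRing.ResidueField A) P f hf) Q hQ
  have htotL : ∀ P : Place Qb (modularFunctionFieldBar M),
      (⟨h70_h2 Qb, hmL⟩ : modularFunctionFieldBar M) ∈ P.toValuationSubring →
      ∃ c : Qb, 0 < P.ord ((⟨h70_h2 Qb, hmL⟩ : modularFunctionFieldBar M) -
        algebraMap Qb (modularFunctionFieldBar M) c) :=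
    fun P hP => hj91_htot_of_hF1 _
      (geo17_ne_const_of_transcendental _ (h70_h2_transcendental Qb))
      (fun P f hf => geo17_hF1_L P f hf) P hP
  exact geo17_RC_of_chart hℓ hℓM hA ⟨h70_h2 Qb, hmL⟩ ⟨h70_h2 (IsLocalRing.ResidueField A), hmk⟩
    2 hj91_Nm2
    (hj91_Jmap_fibre_finite (k := IsLocalRing.ResidueField A) 2 hj91_Nm2 hj91_Nm2_monic
      (by rw [hj91_Nm2_natDegree]; norm_num))
    (fun Q => hj91_cls_k_level2 h2k hmk htotk Q)
    (fun P => hj91_cls_L_level2 A h2k hmL htotL P) r0 hr hcls htube

set_option maxHeartbeats 1000000 in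
/-- **The RC package at a level divisible by `3`** from a place reduction respecting the classes
of the Hauptmodul `h₃` of `X₀(3)`, with tube divisors for finite sets of `h₃`-classes. -/
theorem geo17_RC_level3 (h3M : 3 ∣ M) (hℓ : ℓ.Prime) (hℓM : ¬ ℓ ∣ M) (hA : A.LiesOverPrime ℓ)
    (hmL : h34_h3R Qb ∈ modularFunctionFieldBar M)
    (hmk : h34_h3R (IsLocalRing.ResidueField A) ∈
      modularFunctionFieldFullC (IsLocalRing.ResidueField A) M)
    (r0 : Place Qb (modularFunctionFieldBar M) →
      Place (IsLocalRing.ResidueField A)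
        (modularFunctionFieldFullC (IsLocalRing.ResidueField A) M))
    (hr : IsPlaceReductionModL A M r0)
    (hcls : ∀ P : Place Qb (modularFunctionFieldBar M),
      cx91_cls (⟨h34_h3R (IsLocalRing.ResidueField A), hmk⟩ :
          modularFunctionFieldFullC (IsLocalRing.ResidueField A) M) (r0 P) =
        cx91_clsL A (⟨h34_h3R Qb, hmL⟩ : modularFunctionFieldBar M) P)
    (htube : ∀ (P : Place Qb (modularFunctionFieldBar M))
      (G : Finset (Option (IsLocalRing.ResidueField A))),
      cx91_clsL A (⟨h34_h3R Qb, hmL⟩ : modularFunctionFieldBar M) P ∈ G →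
      ∃ D ∈ Divisor.principal (K := Qb) (F := modularFunctionFieldBar M), D P = 1 ∧
        ∀ P', P' ≠ P → cx91_clsL A (⟨h34_h3R Qb, hmL⟩ : modularFunctionFieldBar M) P' ∈ G →
          D P' = 0) :
    geo17_RC M A := by
  haveI := rc5_isAlgClosed_residueField A
  have h3 : ¬ ℓ ∣ 3 := fun hd => hℓM (hd.trans h3M)
  have h3k : (3 : IsLocalRing.ResidueField A) ≠ 0 := by
    have := ga41_natCast_ne_zero 3 A hℓ hA h3
    exact_mod_cast this
  have htotk : ∀ Q : Place (IsLocalRing.ResidueField A)
      (modularFunctionFieldFullC (IsLocalRing.ResidueField A) M),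
      (⟨h34_h3R (IsLocalRing.ResidueField A), hmk⟩ :
        modularFunctionFieldFullC (IsLocalRing.ResidueField A) M) ∈ Q.toValuationSubring →
      ∃ c : IsLocalRing.ResidueField A,
        0 < Q.ord ((⟨h34_h3R (IsLocalRing.ResidueField A), hmk⟩ :
          modularFunctionFieldFullC (IsLocalRing.ResidueField A) M) -
          algebraMap (IsLocalRing.ResidueField A)
            (modularFunctionFieldFullC (IsLocalRing.ResidueField A) M) c) :=
    fun Q hQ => hj91_htot_of_hF1 _
      (geo17_ne_const_of_transcendental _ (h34_h3R_transcendental (IsLocalRing.ResidueField A)))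
      (fun P f hf => geo17_hF1_k (IsLocalRing.ResidueField A) P f hf) Q hQ
  have htotL : ∀ P : Place Qb (modularFunctionFieldBar M),
      (⟨h34_h3R Qb, hmL⟩ : modularFunctionFieldBar M) ∈ P.toValuationSubring →
      ∃ c : Qb, 0 < P.ord ((⟨h34_h3R Qb, hmL⟩ : modularFunctionFieldBar M) -
        algebraMap Qb (modularFunctionFieldBar M) c) :=
    fun P hP => hj91_htot_of_hF1 _
      (geo17_ne_const_of_transcendental _ (h34_h3R_transcendental Qb))
      (fun P f hf => geo17_hF1_L P f hf) P hP
  exact geo17_RC_of_chart hℓ hℓM hA ⟨h34_h3R Qb, hmL⟩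
    ⟨h34_h3R (IsLocalRing.ResidueField A), hmk⟩ 3 hj91_Nm3
    (hj91_Jmap_fibre_finite (k := IsLocalRing.ResidueField A) 3 hj91_Nm3 hj91_Nm3_monic
      (by rw [hj91_Nm3_natDegree]; norm_num))
    (fun Q => hj91_cls_k_level3 h3k hmk htotk Q)
    (fun P => hj91_cls_L_level3 A h3k hmL htotL P) r0 hr hcls htube

end Haupt

end Fermat.Agent.S37
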