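import Fermat.Agent.S37.Wrapper14
import Fermat.Agent.S37.FrobEvery14
import Fermat.Prelude.Def_ModularCurve_HeckeModule

/-!
# S37 glue: the frozen statement from a "reduction map" at every good prime

`h14_S37_of_red`: the statement of S37 follows if for every prime `ℓ ∤ N`, `ℓ ∤ p`, every valuation
subring `A ∣ ℓ` of `ℚ̄` and every Frobenius element `φ` at `A` there are an abelian group `P`
(think `Pic⁰` of the special fibre), a homomorphism `red : J₀(N) → P` and an endomorphism `Fr` of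
`P` with
* `red (σ • x) = red x` for `σ` in the inertia group,
* `red (σ • x) = Fr (red x)` for every Frobenius element `σ` at `A`,
* `red (φ • φ • x - T_ℓ (φ • x) + ℓ • x) = 0` (Eichler-Shimura on the special fibre),
* `red` is injective on `p`-power torsion.
-/

set_option autoImplicit false
set_option linter.style.haveILetI false

namespace Fermat.Agent.S37

open ModularCurve

local notation "Qb" => AlgebraicClosure ℚ
local notation "GQ" => AlgebraicClosure ℚ ≃ₐ[ℚ] AlgebraicClosure ℚ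

/-- S37 from a subgroup `Ks` ("kernel of reduction") at every good prime. -/
theorem h14_S37_of_key (N p : ℕ) [NeZero N] (hcomm : HeckeOperatorsCommuteBar N)
    (key : ∀ (ℓ : ℕ) (hℓ : ℓ.Prime), ¬ ℓ ∣ N → ¬ ℓ ∣ p → ∀ A : ValuationSubring Qb,
      A.LiesOverPrime ℓ → ∀ φ : GQ, A.IsFrobeniusAt φ ℓ →
      ∃ Ks : AddSubgroup (JZero N),
        (∀ σ ∈ A.inertiaSubgroupIn ℚ, ∀ x : JZero N, σ • x - x ∈ Ks) ∧
        (∀ x ∈ Ks, φ • x ∈ Ks) ∧
        (∀ σ : GQ, A.IsFrobeniusAt σ ℓ → ∀ x : JZero N, σ • x - φ • x ∈ Ks) ∧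
        (∀ x : JZero N, φ • φ • x - heckeOperatorBar N ⟨ℓ, hℓ⟩ (φ • x) + ℓ • x ∈ Ks) ∧
        (∀ x ∈ Ks, (∃ n : ℕ, p ^ n • x = 0) → x = 0)) :
    letI := ModularCurve.heckeModuleBar N
    ∀ (_ : SMulCommClass GQ ModularCurve.HeckeAlg (ModularCurve.JZero N)),
      ModularCurve.SpecializationExists (K := ℚ) (L := Qb) N p (ModularCurve.JZero N) := by
  letI := ModularCurve.heckeModuleBar N
  intro _
  refine specializationExists_of_key N p ?_
  intro ℓ hℓ hℓNp A hA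
  have hN : ¬ ℓ ∣ N := fun h => hℓNp (Dvd.dvd.mul_right h p)
  have hp : ¬ ℓ ∣ p := fun h => hℓNp (Dvd.dvd.mul_left h N)
  obtain ⟨φ, hφ⟩ := h14_exists_isFrobeniusAt ℓ hℓ A hA
  obtain ⟨Ks, h1, h2, h3, h4, h5⟩ := key ℓ hℓ hN hp A hA φ hφ
  refine ⟨Ks, φ, h1, h2, h3, ?_, h5⟩
  intro x
  have e : heckeGen ⟨ℓ, hℓ⟩ • (φ • x) = heckeOperatorBar N ⟨ℓ, hℓ⟩ (φ • x) :=
    heckeModuleBar_heckeGen_smul hcomm ⟨ℓ, hℓ⟩ (φ • x)
  have h4x := h4 x
  rw [← e] at h4x
  exact h4x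

/-- S37 from a reduction map at every good prime. -/
theorem h14_S37_of_red (N p : ℕ) [NeZero N] (hcomm : HeckeOperatorsCommuteBar N)
    (key : ∀ (ℓ : ℕ) (hℓ : ℓ.Prime), ¬ ℓ ∣ N → ¬ ℓ ∣ p → ∀ A : ValuationSubring Qb,
      A.LiesOverPrime ℓ → ∀ φ : GQ, A.IsFrobeniusAt φ ℓ →
      ∃ (P : Type) (_ : AddCommGroup P) (red : JZero N →+ P) (Fr : P →+ P),
        (∀ σ ∈ A.inertiaSubgroupIn ℚ, ∀ x : JZero N, red (σ • x) = red x) ∧
        (∀ σ : GQ, A.IsFrobeniusAt σ ℓ → ∀ x : JZero N, red (σ • x) = Fr (red x)) ∧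
        (∀ x : JZero N, red (φ • φ • x - heckeOperatorBar N ⟨ℓ, hℓ⟩ (φ • x) + ℓ • x) = 0) ∧
        (∀ x : JZero N, red x = 0 → (∃ n : ℕ, p ^ n • x = 0) → x = 0)) :
    letI := ModularCurve.heckeModuleBar N
    ∀ (_ : SMulCommClass GQ ModularCurve.HeckeAlg (ModularCurve.JZero N)),
      ModularCurve.SpecializationExists (K := ℚ) (L := Qb) N p (ModularCurve.JZero N) := by
  refine h14_S37_of_key N p hcomm ?_
  intro ℓ hℓ hN hp A hA φ hφ
  obtain ⟨P, _, red, Fr, h1, h2, h3, h4⟩ := key ℓ hℓ hN hp A hA φ hφ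
  refine ⟨red.ker, ?_, ?_, ?_, ?_, ?_⟩
  · intro σ hσ x
    rw [AddMonoidHom.mem_ker, map_sub, h1 σ hσ x, sub_self]
  · intro x hx
    rw [AddMonoidHom.mem_ker] at hx ⊢
    rw [h2 φ hφ x, hx, map_zero]
  · intro σ hσ x
    rw [AddMonoidHom.mem_ker, map_sub, h2 σ hσ x, h2 φ hφ x, sub_self]
  · intro x
    exact h3 x
  · intro x hx htors
    exact h4 x hx htors

end Fermat.Agent.S37
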