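import Mathlib
import Fermat.Agent.S18.RedMap90
import Fermat.Agent.S18.Pack15
import Fermat.Agent.S18.GaussVal85
import Fermat.Agent.S37.ALevel46
import Fermat.Agent.S37.GaussA84

/-!
# S37 (helper84): `K`-level chart normality for Hauptmodul charts from the Dedekind fibre (B5)

Bridge between the output of S18/B5 (`IsDedekindDomain (pk15_chart R {x} ⧸ (π))`, `x` the chart
coordinate `h` or `1/h` in `F = F(M)_K`) and the `K`-level hypothesis of
`ka46_normalA_of_normalK` (`ka46_NormalAt` in fraction form).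

`R` a UFD with fraction field `K`, `π` prime, `red : R → κ` onto a field with kernel `(π)`,
`M` invertible in `κ`; `g ∈ ℤ((q))` the `q`-expansion of the chart coordinate `x ∈ F(M)_K`, with
a relation `j · g^e = N(g)`, `N ∈ ℤ[X]` of degree `> e` with leading coefficient a unit of `R`.

* `nk84_normalAt` : if the special fibre `pk15_chart R {x} ⧸ (π)` of the chart is a Dedekind
  domain, then `ka46_NormalAt (algebraMap R K) red M g`.
-/

set_option autoImplicit false
set_option linter.style.haveILetI false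
set_option linter.unusedSectionVars false

open ModularCurve IntermediateField

namespace Fermat.Agent.S37

open Fermat.Agent.S18 Fermat.Agent.S28

noncomputable section

/-- An element of a field which is a fraction of, and integral over, the image of an integrally
closed domain lies in the image. -/
theorem nk84_mem_range {Q L : Type*} [CommRing Q] [IsDomain Q] [IsIntegrallyClosed Q] [Field L]
    (ι : Q →+* L) (hι : Function.Injective ι) (z : L) (a b : Q) (hb : b ≠ 0)
    (hz : z * ι b = ι a) (hint : ι.IsIntegralElem z) : ∃ y : Q, ι y = z := by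
  letI := ι.toAlgebra
  have hinj : Function.Injective (algebraMap Q L) := hι
  have hinj' : Function.Injective (Algebra.ofId Q L) := hι
  let f : FractionRing Q →ₐ[Q] L := IsFractionRing.liftAlgHom (K := FractionRing Q) hinj'
  have hb' : algebraMap Q (FractionRing Q) b ≠ 0 := fun h =>
    hb (IsFractionRing.injective Q (FractionRing Q) (by rw [h, map_zero]))
  have hιb : ι b ≠ 0 := fun h => hb (hι (by rw [h, map_zero]))
  have hw : f (algebraMap Q (FractionRing Q) a / algebraMap Q (FractionRing Q) b) = z := by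
    rw [map_div₀, AlgHom.commutes, AlgHom.commutes]
    show ι a / ι b = z
    rw [← hz, mul_div_cancel_right₀ _ hιb]
  have hint' : IsIntegral Q z := hint
  rw [← hw] at hint'
  have hwint := (isIntegral_algHom_iff f f.toRingHom.injective).mp hint'
  obtain ⟨y, hy⟩ := IsIntegrallyClosed.isIntegral_iff.mp hwint
  refine ⟨y, ?_⟩
  rw [← hw, ← hy, AlgHom.commutes]
  rfl

section Rel

variable (S : Type*) [CommRing S] (g : LaurentSeries ℤ) (e : ℕ) (N : Polynomial ℤ)

/-- The relation `j · g^e = N(g)` over any coefficient ring. -/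
theorem nk84_rel (hrel : jqModC ℤ * g ^ e = N.eval₂ (Int.castRingHom (LaurentSeries ℤ)) g) :
    jqModC S * ka46_g S g ^ e = N.eval₂ (Int.castRingHom (LaurentSeries S)) (ka46_g S g) := by
  have h := congrArg (coeffMap (Int.castRingHom S)) hrel
  rw [map_mul, map_pow, coeffMap_jqModC, Polynomial.hom_eval₂,
    show (coeffMap (Int.castRingHom S)).comp (Int.castRingHom (LaurentSeries ℤ)) =
      Int.castRingHom (LaurentSeries S) from RingHom.ext_int _ _] at h
  exact h

/-- Homogenisation of `s(j)` into a polynomial in the chart coordinate. -/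
def nk84_hom (s : Polynomial S) : Polynomial S :=
  ∑ i ∈ Finset.range (s.natDegree + 1),
    Polynomial.C (s.coeff i) * (N.map (Int.castRingHom S)) ^ i *
      Polynomial.X ^ (e * (s.natDegree - i))

theorem nk84_ev_hom (hrel : jqModC ℤ * g ^ e = N.eval₂ (Int.castRingHom (LaurentSeries ℤ)) g)
    (s : Polynomial S) :
    ka46_ev (RingHom.id S) g (nk84_hom S e N s) =
      ka46_g S g ^ (e * s.natDegree) * Polynomial.aeval (jqModC S) s := by
  have hr := nk84_rel S g e N hrel
  have hN : ka46_ev (RingHom.id S) g (N.map (Int.castRingHom S)) =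
      jqModC S * ka46_g S g ^ e := by
    rw [hr, ka46_ev_apply, Polynomial.eval₂_map]
    exact congrArg (fun f => N.eval₂ f (ka46_g S g)) (RingHom.ext_int _ _)
  have hC : ∀ a : S, ka46_ev (RingHom.id S) g (Polynomial.C a) = HahnSeries.C a := by
    intro a
    rw [ka46_ev_apply, Polynomial.eval₂_C]
    rfl
  have hX : ka46_ev (RingHom.id S) g Polynomial.X = ka46_g S g := by
    rw [ka46_ev_apply, Polynomial.eval₂_X]
  rw [nk84_hom, map_sum, Polynomial.aeval_eq_sum_range, Finset.mul_sum]
  refine Finset.sum_congr rfl fun i hi => ?_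
  have hi' : i ≤ s.natDegree := Nat.lt_succ_iff.mp (Finset.mem_range.mp hi)
  have hexp : e * s.natDegree = e * i + e * (s.natDegree - i) := by
    rw [← Nat.mul_add, Nat.add_sub_cancel' hi']
  rw [map_mul, map_mul, map_pow, map_pow, hC, hN, hX, hexp, Algebra.smul_def,
    h63_algebraMap_eq_C, mul_pow, ← pow_mul, pow_add]
  ring

end Rel

section Surj

/-- Abstract surjectivity: a fraction `a/b` of reductions of chart elements which is integral
over `κ[ḡ]` is itself the reduction of a chart element, when the special fibre `C' ⧸ I` of the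
chart is an integrally closed domain embedded by the reduction map. -/
theorem nk84_surj {R C' κ : Type*} [CommRing R] [CommRing C'] [Field κ] (red : R →+* κ)
    (hsurj : Function.Surjective red) (cst : R →+* C') (I : Ideal C') [IsDomain (C' ⧸ I)]
    [IsIntegrallyClosed (C' ⧸ I)] (ρ : C' →+* LaurentSeries κ) (hkill : ∀ a ∈ I, ρ a = 0)
    (hker : ∀ c, ρ c = 0 → c ∈ I) (g : LaurentSeries ℤ) (xC : C')
    (hρx : ρ xC = ka46_g κ g) (hρc : ∀ r, ρ (cst r) = HahnSeries.C (red r))
    (z : LaurentSeries κ) (a b : C') (hb : ρ b ≠ 0) (hab : z * ρ b = ρ a)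
    (hzint : (ka46_ev (RingHom.id κ) g).IsIntegralElem z) : ∃ c : C', ρ c = z := by
  have hinj : Function.Injective (Ideal.Quotient.lift I ρ hkill) :=
    RingHom.lift_injective_of_ker_le_ideal I hkill (fun c hc => hker c (RingHom.mem_ker.mp hc))
  have hint : (Ideal.Quotient.lift I ρ hkill).IsIntegralElem z := by
    obtain ⟨p, hp, hpz⟩ := hzint
    have hlift : p ∈ Polynomial.lifts (Polynomial.mapRingHom red) := by
      rw [Polynomial.lifts_iff_coeff_lifts]
      intro n
      exact Polynomial.map_surjective red hsurj (p.coeff n)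
    obtain ⟨P, hP, -, hPm⟩ := Polynomial.lifts_and_degree_eq_and_monic hlift hp
    have hψ : (Ideal.Quotient.lift I ρ hkill).comp
        ((Ideal.Quotient.mk I).comp (Polynomial.eval₂RingHom cst xC)) =
        (ka46_ev (RingHom.id κ) g).comp (Polynomial.mapRingHom red) := by
      refine Polynomial.ringHom_ext (fun r => ?_) ?_
      · have h2 : ka46_ev (RingHom.id κ) g (Polynomial.C (red r)) = HahnSeries.C (red r) := by
          rw [ka46_ev_apply, Polynomial.eval₂_C]
          rfl
        simp only [RingHom.comp_apply, Polynomial.coe_mapRingHom, Polynomial.map_C,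
          Polynomial.coe_eval₂RingHom, Polynomial.eval₂_C, Ideal.Quotient.lift_mk]
        rw [hρc, h2]
      · have h2 : ka46_ev (RingHom.id κ) g Polynomial.X = ka46_g κ g := by
          rw [ka46_ev_apply, Polynomial.eval₂_X]
        simp only [RingHom.comp_apply, Polynomial.coe_mapRingHom, Polynomial.map_X,
          Polynomial.coe_eval₂RingHom, Polynomial.eval₂_X, Ideal.Quotient.lift_mk]
        rw [hρx, h2]
    refine ⟨P.map ((Ideal.Quotient.mk I).comp (Polynomial.eval₂RingHom cst xC)), hPm.map _, ?_⟩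
    have hP' : P.map (Polynomial.mapRingHom red) = p := hP
    rw [Polynomial.eval₂_map, hψ, ← Polynomial.eval₂_map, hP']
    exact hpz
  have hb' : Ideal.Quotient.mk I b ≠ 0 := by
    intro h0
    apply hb
    have h1 : Ideal.Quotient.lift I ρ hkill (Ideal.Quotient.mk I b) = 0 := by rw [h0, map_zero]
    rwa [Ideal.Quotient.lift_mk] at h1
  have hab' : z * Ideal.Quotient.lift I ρ hkill (Ideal.Quotient.mk I b) =
      Ideal.Quotient.lift I ρ hkill (Ideal.Quotient.mk I a) := by
    rw [Ideal.Quotient.lift_mk, Ideal.Quotient.lift_mk]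
    exact hab
  obtain ⟨y, hy⟩ := nk84_mem_range (Ideal.Quotient.lift I ρ hkill) hinj z
    (Ideal.Quotient.mk I a) (Ideal.Quotient.mk I b) hb' hab' hint
  obtain ⟨c, rfl⟩ := Ideal.Quotient.mk_surjective y
  rw [Ideal.Quotient.lift_mk] at hy
  exact ⟨c, hy⟩

end Surj

section Chart

variable (K : Type) [Field K] {R : Type*} [CommRing R] [IsDomain R]
  [UniqueFactorizationMonoid R] [Algebra R K] [IsFractionRing R K] (M : ℕ) [NeZero M]
  [Algebra R ↥(modularFunctionFieldFullC K M)]
  [IsScalarTower R K ↥(modularFunctionFieldFullC K M)]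

/-- The constants of `R` in `F(M)_K`, two ways. -/
theorem nk84_algebraMap_eq (r : R) :
    algebraMap R ↥(modularFunctionFieldFullC K M) r = rm90_c K R M r :=
  IsScalarTower.algebraMap_apply R K ↥(modularFunctionFieldFullC K M) r

/-- The relation `j · x^e = N(x)` in `F(M)_K`. -/
theorem nk84_relF (g : LaurentSeries ℤ) (e : ℕ) (N : Polynomial ℤ)
    (hrel : jqModC ℤ * g ^ e = N.eval₂ (Int.castRingHom (LaurentSeries ℤ)) g)
    (x : ↥(modularFunctionFieldFullC K M)) (hx : (x : LaurentSeries K) = ka46_g K g) :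
    rm90_j K M * x ^ e = N.eval₂ (Int.castRingHom ↥(modularFunctionFieldFullC K M)) x := by
  apply Subtype.ext
  have h1 := Polynomial.hom_eval₂ N (Int.castRingHom ↥(modularFunctionFieldFullC K M))
    (algebraMap ↥(modularFunctionFieldFullC K M) (LaurentSeries K)) x
  have h2 : (algebraMap ↥(modularFunctionFieldFullC K M) (LaurentSeries K)).comp
      (Int.castRingHom ↥(modularFunctionFieldFullC K M)) = Int.castRingHom (LaurentSeries K) :=
    RingHom.ext_int _ _
  rw [h2] at h1
  show jqModC K * (x : LaurentSeries K) ^ e = _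
  refine Eq.trans ?_ h1.symm
  show _ = N.eval₂ (Int.castRingHom (LaurentSeries K)) (x : LaurentSeries K)
  rw [hx]
  exact nk84_rel K g e N hrel

/-- The chart coordinate is integral over `R[j]`. -/
theorem nk84_x_integral (e : ℕ) (N : Polynomial ℤ) (he : e < N.natDegree) (u : R)
    (hu : u * (N.leadingCoeff : R) = 1) (x : ↥(modularFunctionFieldFullC K M))
    (hrelF : rm90_j K M * x ^ e =
      N.eval₂ (Int.castRingHom ↥(modularFunctionFieldFullC K M)) x) :
    (rm90_ev K R M).IsIntegralElem x := by
  have hlead : (Int.castRingHom (Polynomial R)) N.leadingCoeff ≠ 0 := by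
    intro h
    have h1 : ((N.leadingCoeff : ℤ) : R) = 0 := by
      have h2 := congrArg (fun p : Polynomial R => p.coeff 0) h
      simpa using h2
    rw [h1, mul_zero] at hu
    exact zero_ne_one hu
  have hdegN : (N.map (Int.castRingHom (Polynomial R))).natDegree = N.natDegree :=
    Polynomial.natDegree_map_of_leadingCoeff_ne_zero _ hlead
  have hmon1 : (Polynomial.C (Polynomial.C u) * N.map (Int.castRingHom (Polynomial R))).Monic := by
    apply Polynomial.monic_C_mul_of_mul_leadingCoeff_eq_one
    rw [Polynomial.leadingCoeff_map_of_leadingCoeff_ne_zero _ hlead, eq_intCast,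
      ← Polynomial.C_eq_intCast, ← Polynomial.C_mul, hu, Polynomial.C_1]
  have hdeg1 : (Polynomial.C (Polynomial.C u) *
      N.map (Int.castRingHom (Polynomial R))).natDegree = N.natDegree := by
    rw [← hdegN]
    apply Polynomial.natDegree_C_mul_of_mul_ne_zero
    rw [Polynomial.leadingCoeff_map_of_leadingCoeff_ne_zero _ hlead, eq_intCast,
      ← Polynomial.C_eq_intCast, ← Polynomial.C_mul, hu, Polynomial.C_1]
    exact one_ne_zero
  have hdeg2 : (Polynomial.C (Polynomial.C u * Polynomial.X) *
      (Polynomial.X : Polynomial (Polynomial R)) ^ e).degree <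
      (Polynomial.C (Polynomial.C u) * N.map (Int.castRingHom (Polynomial R))).degree := by
    rw [Polynomial.degree_eq_natDegree hmon1.ne_zero, hdeg1]
    refine lt_of_le_of_lt (Polynomial.degree_C_mul_X_pow_le e _) ?_
    exact_mod_cast he
  refine ⟨_, hmon1.sub_of_left hdeg2, ?_⟩
  rw [Polynomial.eval₂_sub, Polynomial.eval₂_mul, Polynomial.eval₂_mul, Polynomial.eval₂_C,
    Polynomial.eval₂_C, Polynomial.eval₂_pow, Polynomial.eval₂_X, Polynomial.eval₂_map,
    show (rm90_ev K R M).comp (Int.castRingHom (Polynomial R)) =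
      Int.castRingHom ↥(modularFunctionFieldFullC K M) from RingHom.ext_int _ _, ← hrelF, map_mul]
  have hX : rm90_ev K R M Polynomial.X = rm90_j K M := by
    simp [rm90_ev]
  rw [hX]
  ring

/-- The chart `pk15_chart R {x}` lies in the integral closure of `R[j]`. -/
theorem nk84_chart_le (x : ↥(modularFunctionFieldFullC K M))
    (hxint : (rm90_ev K R M).IsIntegralElem x) (c : ↥(modularFunctionFieldFullC K M))
    (hc : c ∈ pk15_chart R ({x} : Set ↥(modularFunctionFieldFullC K M))) :
    (rm90_ev K R M).IsIntegralElem c := by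
  letI := (rm90_ev K R M).toAlgebra
  have h1 : ∀ y ∈ Algebra.adjoin R ({x} : Set ↥(modularFunctionFieldFullC K M)),
      IsIntegral (Polynomial R) y := by
    intro y hy
    induction hy using Algebra.adjoin_induction with
    | mem y hy =>
      rw [Set.mem_singleton_iff.mp hy]
      exact hxint
    | algebraMap r =>
      have h2 : algebraMap R ↥(modularFunctionFieldFullC K M) r =
          algebraMap (Polynomial R) ↥(modularFunctionFieldFullC K M) (Polynomial.C r) := by
        rw [nk84_algebraMap_eq]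
        show _ = rm90_ev K R M (Polynomial.C r)
        simp [rm90_ev]
      rw [h2]
      exact isIntegral_algebraMap
    | add a b _ _ ha hb => exact ha.add hb
    | mul a b _ _ ha hb => exact ha.mul hb
  rw [pk15_mem_chart] at hc
  obtain ⟨p, hp, hpc⟩ := hc
  let incl : ↥(Algebra.adjoin R ({x} : Set ↥(modularFunctionFieldFullC K M))) →+*
      ↥(integralClosure (Polynomial R) ↥(modularFunctionFieldFullC K M)) :=
    { toFun := fun y => ⟨y.1, h1 y.1 y.2⟩
      map_one' := rfl
      map_mul' := fun _ _ => rfl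
      map_zero' := rfl
      map_add' := fun _ _ => rfl }
  have h2 : IsIntegral (integralClosure (Polynomial R) ↥(modularFunctionFieldFullC K M)) c := by
    refine ⟨p.map incl, hp.map _, ?_⟩
    rw [Polynomial.eval₂_map]
    exact hpc
  exact isIntegral_trans c h2

/-- Every element integral over `R[j]` becomes integral over `R[x]` after multiplication by a
power of the chart coordinate. -/
theorem nk84_loc (e : ℕ) (N : Polynomial ℤ) (x : ↥(modularFunctionFieldFullC K M))
    (hrelF : rm90_j K M * x ^ e =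
      N.eval₂ (Int.castRingHom ↥(modularFunctionFieldFullC K M)) x) (hx0 : x ≠ 0)
    (b : ↥(modularFunctionFieldFullC K M)) (hb : (rm90_ev K R M).IsIntegralElem b) :
    ∃ k : ℕ, x ^ k * b ∈ pk15_chart R ({x} : Set ↥(modularFunctionFieldFullC K M)) := by
  apply pk15_chart_loc x hx0
  rw [pk15_mem_chart]
  have hj : rm90_j K M ∈
      Algebra.adjoin R ({x, x⁻¹} : Set ↥(modularFunctionFieldFullC K M)) := by
    have h1 : rm90_j K M =
        N.eval₂ (Int.castRingHom ↥(modularFunctionFieldFullC K M)) x * x⁻¹ ^ e := by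
      rw [← hrelF, mul_assoc, ← mul_pow, mul_inv_cancel₀ hx0, one_pow, mul_one]
    rw [h1]
    refine Subalgebra.mul_mem _ ?_ (Subalgebra.pow_mem _ (Algebra.subset_adjoin (by simp)) e)
    rw [Polynomial.eval₂_eq_sum_range]
    refine Subalgebra.sum_mem _ fun i _ => Subalgebra.mul_mem _ ?_
      (Subalgebra.pow_mem _ (Algebra.subset_adjoin (by simp)) i)
    rw [eq_intCast]
    exact intCast_mem _ _
  let θ : Polynomial R →+*
      ↥(Algebra.adjoin R ({x, x⁻¹} : Set ↥(modularFunctionFieldFullC K M))) :=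
    Polynomial.eval₂RingHom (algebraMap R _) ⟨rm90_j K M, hj⟩
  have hθ : (algebraMap ↥(Algebra.adjoin R ({x, x⁻¹} : Set ↥(modularFunctionFieldFullC K M)))
      ↥(modularFunctionFieldFullC K M)).comp θ = rm90_ev K R M := by
    refine Polynomial.ringHom_ext (fun r => ?_) ?_
    · have h1 : rm90_ev K R M (Polynomial.C r) = rm90_c K R M r := by simp [rm90_ev]
      rw [h1, ← nk84_algebraMap_eq]
      simp [θ]
    · have h1 : rm90_ev K R M Polynomial.X = rm90_j K M := by simp [rm90_ev]
      rw [h1]
      simp [θ]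
  obtain ⟨p, hp, hpb⟩ := hb
  refine ⟨p.map θ, hp.map _, ?_⟩
  rw [Polynomial.eval₂_map, hθ]
  exact hpb

/-- The reduction map on the chart `pk15_chart R {x}`: coefficientwise on integral expansions,
with denominators `s(g)`, `s̄ ≠ 0`, and with kernel `(π)` as soon as the special fibre of the
chart is a domain. -/
theorem nk84_package (π : R) (hπ : Prime π) (κ : Type) [Field κ] (red : R →+* κ)
    (hred : ∀ a : R, red a = 0 ↔ π ∣ a) (hM : (M : κ) ≠ 0)
    (g : LaurentSeries ℤ) (e : ℕ) (N : Polynomial ℤ)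
    (hrel : jqModC ℤ * g ^ e = N.eval₂ (Int.castRingHom (LaurentSeries ℤ)) g)
    (he : e < N.natDegree) (u : R) (hu : u * (N.leadingCoeff : R) = 1)
    (hgκ : ka46_g κ g ≠ 0)
    (x : ↥(modularFunctionFieldFullC K M)) (hx : (x : LaurentSeries K) = ka46_g K g) :
    x ≠ 0 ∧ (∀ b : ↥(modularFunctionFieldFullC K M), (rm90_ev K R M).IsIntegralElem b →
      ∃ k : ℕ, x ^ k * b ∈ pk15_chart R ({x} : Set ↥(modularFunctionFieldFullC K M))) ∧
    ∃ ρ : ↥(pk15_chart R ({x} : Set ↥(modularFunctionFieldFullC K M))) →+* LaurentSeries κ,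
      (∀ (c : ↥(pk15_chart R ({x} : Set ↥(modularFunctionFieldFullC K M)))) (y : LaurentSeries R),
        coeffMap (algebraMap R K) y = ((c : ↥(modularFunctionFieldFullC K M)) : LaurentSeries K) → ρ c = coeffMap red y) ∧
      (∀ c : ↥(pk15_chart R ({x} : Set ↥(modularFunctionFieldFullC K M))), ∃ (s : Polynomial R) (y : LaurentSeries R), s.map red ≠ 0 ∧
        coeffMap (algebraMap R K) y =
          ka46_ev (algebraMap R K) g s * ((c : ↥(modularFunctionFieldFullC K M)) : LaurentSeries K)) ∧
      (IsDomain (↥(pk15_chart R ({x} : Set ↥(modularFunctionFieldFullC K M))) ⧸ Ideal.span {algebraMap R ↥(pk15_chart R ({x} : Set ↥(modularFunctionFieldFullC K M))) π}) →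
        ∀ c : ↥(pk15_chart R ({x} : Set ↥(modularFunctionFieldFullC K M))), ρ c = 0 → c ∈ Ideal.span {algebraMap R ↥(pk15_chart R ({x} : Set ↥(modularFunctionFieldFullC K M))) π}) := by
  classical
  obtain ⟨B, hB⟩ := ga84_exists_B K (R₀ := R) M
  obtain ⟨m, φ, -, hφ1, hφ2, hφ3, hφ4⟩ := rm90_package K M π hπ κ red hred hM B hB
  have hgK : coeffMap (algebraMap R K) (ka46_g R g) = ka46_g K g := ka46_coeffMap_g _ g
  have hgκ' : coeffMap red (ka46_g R g) = ka46_g κ g := ka46_coeffMap_g _ g
  have hx0 : x ≠ 0 := by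
    rintro rfl
    have h1 : ka46_g K g = 0 := hx.symm
    apply hgκ
    rw [← hgκ']
    have h2 : ka46_g R g = 0 := by
      apply rm90_coeffMap_injective (algebraMap R K) (IsFractionRing.injective R K)
      rw [hgK, h1, map_zero]
    rw [h2, map_zero]
  have hrelF := nk84_relF K M g e N hrel x hx
  have hxint : (rm90_ev K R M).IsIntegralElem x := nk84_x_integral K M e N he u hu x hrelF
  have hCB : ∀ c ∈ pk15_chart R ({x} : Set ↥(modularFunctionFieldFullC K M)), c ∈ B :=
    fun c hc => (hB c).mpr (nk84_chart_le K M x hxint c hc)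
  have hloc := nk84_loc K (R := R) M e N x hrelF hx0
  have hxC : x ∈ pk15_chart R ({x} : Set ↥(modularFunctionFieldFullC K M)) :=
    pk15_subset_chart _ (Set.mem_singleton x)
  obtain ⟨ρ, hρdef⟩ : ∃ ρ : ↥(pk15_chart R ({x} : Set ↥(modularFunctionFieldFullC K M))) →+* LaurentSeries κ, ∀ c : ↥(pk15_chart R ({x} : Set ↥(modularFunctionFieldFullC K M))), ρ c = φ ⟨c.1, hCB c.1 c.2⟩ :=
    ⟨φ.comp
      { toFun := fun c => ⟨c.1, hCB c.1 c.2⟩
        map_one' := rfl
        map_mul' := fun _ _ => rfl
        map_zero' := rfl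
        map_add' := fun _ _ => rfl }, fun c => rfl⟩
  have hρ : ∀ (c : ↥(pk15_chart R ({x} : Set ↥(modularFunctionFieldFullC K M)))) (y : LaurentSeries R),
      coeffMap (algebraMap R K) y = ((c : ↥(modularFunctionFieldFullC K M)) : LaurentSeries K) →
      ρ c = coeffMap red y := fun c y h => by
    rw [hρdef]
    exact hφ2 _ y h
  refine ⟨hx0, hloc, ρ, hρ, ?_, ?_⟩
  · intro b
    obtain ⟨s, a, hs, hsa⟩ := hφ4 b.1 ((hB _).mp (hCB b.1 b.2))
    refine ⟨nk84_hom R e N s, ka46_g R g ^ (e * s.natDegree) *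
      ∑ i, (Polynomial.aeval (jqModC R) (a i) *
        MvPolynomial.eval₂ (Int.castRingHom (LaurentSeries R))
          (fun d : M.divisors => JdC R d.1) (m i)), ?_, ?_⟩
    · intro h0
      have h1 : ka46_ev (RingHom.id κ) g ((nk84_hom R e N s).map red) = 0 := by
        rw [h0, map_zero]
      have h2 : ka46_ev red g (nk84_hom R e N s) =
          coeffMap red (ka46_ev (RingHom.id R) g (nk84_hom R e N s)) := by
        rw [ka46_coeffMap_ev, RingHom.comp_id]
      rw [ka46_ev_id_map, h2, nk84_ev_hom R g e N hrel, map_mul, map_pow, hgκ',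
        rm90_coeffMap_aeval] at h1
      have hsred : s.map red ≠ 0 := by
        intro h0
        apply hs
        rw [Polynomial.C_dvd_iff_dvd_coeff]
        intro i
        have h3 := congrArg (fun p => p.coeff i) h0
        simp only [Polynomial.coeff_map, Polynomial.coeff_zero] at h3
        exact (hred _).mp h3
      have h3 : Polynomial.aeval (jqModC κ) (s.map red) ≠ 0 := fun h =>
        hsred ((transcendental_iff.mp (rm90_transcendental κ)) _ h)
      exact mul_ne_zero (pow_ne_zero _ hgκ) h3 h1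
    · have h1 : ka46_ev (algebraMap R K) g (nk84_hom R e N s) =
          coeffMap (algebraMap R K) (ka46_ev (RingHom.id R) g (nk84_hom R e N s)) := by
        rw [ka46_coeffMap_ev, RingHom.comp_id]
      rw [h1, nk84_ev_hom R g e N hrel, map_mul, map_mul, map_pow, hgK, rm90_coeffMap_aeval,
        mul_assoc]
      congr 1
      have h2 := congrArg (fun z : ↥(modularFunctionFieldFullC K M) => (z : LaurentSeries K)) hsa
      have h3 : ((rm90_ev K R M s * (b : ↥(modularFunctionFieldFullC K M)) : ↥(modularFunctionFieldFullC K M)) : LaurentSeries K) =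
          Polynomial.aeval (jqModC K) (s.map (algebraMap R K)) *
            ((b : ↥(modularFunctionFieldFullC K M)) : LaurentSeries K) := by
        rw [← rm90_coe_ev' K R M s]
        rfl
      rw [← h3]
      refine Eq.trans ?_ h2.symm
      rw [map_sum]
      have h4 : ((∑ i, rm90_ev K R M (a i) * rm90_bF K M (m i) : ↥(modularFunctionFieldFullC K M)) : LaurentSeries K) =
          ∑ i, ((rm90_ev K R M (a i) : ↥(modularFunctionFieldFullC K M)) : LaurentSeries K) *
            ((rm90_bF K M (m i) : ↥(modularFunctionFieldFullC K M)) : LaurentSeries K) := by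
        simp
      refine Eq.trans ?_ h4.symm
      refine Finset.sum_congr rfl fun i _ => ?_
      rw [map_mul, rm90_coe_ev K R M, rm90_coeffMap_eval, rm90_coe_bF]
  · intro hdom c hc
    have hρx : ρ ⟨x, hxC⟩ = ka46_g κ g := by
      rw [hρ ⟨x, hxC⟩ (ka46_g R g) (by rw [hgK]; exact hx.symm), hgκ']
    have hρπ : ∀ c' : ↥(pk15_chart R ({x} : Set ↥(modularFunctionFieldFullC K M))), ρ (algebraMap R ↥(pk15_chart R ({x} : Set ↥(modularFunctionFieldFullC K M))) π * c') = 0 := by
      intro c'
      have h1 : ρ (algebraMap R ↥(pk15_chart R ({x} : Set ↥(modularFunctionFieldFullC K M))) π) = 0 := by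
        rw [hρ (algebraMap R ↥(pk15_chart R ({x} : Set ↥(modularFunctionFieldFullC K M))) π) (HahnSeries.C π) (by
          rw [gv85_coeffMap_C]
          show _ = ((algebraMap R ↥(modularFunctionFieldFullC K M) π : ↥(modularFunctionFieldFullC K M)) : LaurentSeries K)
          rw [nk84_algebraMap_eq]
          exact (gv85_coe_algebraMap (modularFunctionFieldFullC K M) (algebraMap R K π)).symm),
          gv85_coeffMap_C, (hred π).mpr dvd_rfl, map_zero]
      rw [map_mul, h1, zero_mul]
    rw [hρdef] at hc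
    obtain ⟨b, hb⟩ := (hφ1 _).mp hc
    obtain ⟨k, hk⟩ := hloc b.1 ((hB _).mp b.2)
    have h1 : (⟨x, hxC⟩ : ↥(pk15_chart R ({x} : Set ↥(modularFunctionFieldFullC K M)))) ^ k * c = algebraMap R ↥(pk15_chart R ({x} : Set ↥(modularFunctionFieldFullC K M))) π * ⟨x ^ k * b.1, hk⟩ := by
      apply Subtype.ext
      show x ^ k * (c : ↥(modularFunctionFieldFullC K M)) = algebraMap R ↥(modularFunctionFieldFullC K M) π * (x ^ k * b.1)
      have hb' : (c : ↥(modularFunctionFieldFullC K M)) = rm90_c K R M π * b.1 := hb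
      rw [hb', nk84_algebraMap_eq]
      ring
    have h2 : Ideal.Quotient.mk (Ideal.span {algebraMap R ↥(pk15_chart R ({x} : Set ↥(modularFunctionFieldFullC K M))) π}) (⟨x, hxC⟩ ^ k * c) = 0 := by
      rw [h1]
      exact Ideal.Quotient.eq_zero_iff_mem.mpr
        (Ideal.mul_mem_right _ _ (Ideal.mem_span_singleton_self _))
    rw [map_mul, map_pow] at h2
    rcases mul_eq_zero.mp h2 with h3 | h3
    · exfalso
      have h4 := Ideal.Quotient.eq_zero_iff_mem.mp (eq_zero_of_pow_eq_zero h3)
      obtain ⟨c', hc'⟩ := Ideal.mem_span_singleton.mp h4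
      apply hgκ
      rw [← hρx, hc']
      exact hρπ c'
    · exact Ideal.Quotient.eq_zero_iff_mem.mp h3

/-- `F(M)_κ` consists of fractions of reductions of chart elements. -/
theorem nk84_frac (κ : Type) [Field κ] (red : R →+* κ) (hsurj : Function.Surjective red)
    (g : LaurentSeries ℤ) (hgκ : ka46_g κ g ≠ 0)
    (x : ↥(modularFunctionFieldFullC K M)) (hx : (x : LaurentSeries K) = ka46_g K g)
    (hloc : ∀ b : ↥(modularFunctionFieldFullC K M), (rm90_ev K R M).IsIntegralElem b →
      ∃ k : ℕ, x ^ k * b ∈ pk15_chart R ({x} : Set ↥(modularFunctionFieldFullC K M)))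
    (ρ : ↥(pk15_chart R ({x} : Set ↥(modularFunctionFieldFullC K M))) →+* LaurentSeries κ)
    (hρ : ∀ (c : ↥(pk15_chart R ({x} : Set ↥(modularFunctionFieldFullC K M)))) (y : LaurentSeries R),
        coeffMap (algebraMap R K) y = ((c : ↥(modularFunctionFieldFullC K M)) : LaurentSeries K) → ρ c = coeffMap red y)
    (z : LaurentSeries κ) (hz : z ∈ modularFunctionFieldFullC κ M) :
    ∃ a b : ↥(pk15_chart R ({x} : Set ↥(modularFunctionFieldFullC K M))), ρ b ≠ 0 ∧ z * ρ b = ρ a := by
  have hgK : coeffMap (algebraMap R K) (ka46_g R g) = ka46_g K g := ka46_coeffMap_g _ g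
  have hgκ' : coeffMap red (ka46_g R g) = ka46_g κ g := ka46_coeffMap_g _ g
  have hxC : x ∈ pk15_chart R ({x} : Set ↥(modularFunctionFieldFullC K M)) :=
    pk15_subset_chart _ (Set.mem_singleton x)
  have hρx : ρ ⟨x, hxC⟩ = ka46_g κ g := by
    rw [hρ ⟨x, hxC⟩ (ka46_g R g) (by rw [hgK]; exact hx.symm), hgκ']
  have hρc : ∀ r : R, ρ (algebraMap R ↥(pk15_chart R ({x} : Set ↥(modularFunctionFieldFullC K M))) r) = HahnSeries.C (red r) := by
    intro r
    rw [hρ (algebraMap R ↥(pk15_chart R ({x} : Set ↥(modularFunctionFieldFullC K M))) r) (HahnSeries.C r) (by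
      rw [gv85_coeffMap_C]
      show _ = ((algebraMap R ↥(modularFunctionFieldFullC K M) r : ↥(modularFunctionFieldFullC K M)) : LaurentSeries K)
      rw [nk84_algebraMap_eq]
      exact (gv85_coe_algebraMap (modularFunctionFieldFullC K M) (algebraMap R K r)).symm),
      gv85_coeffMap_C]
  unfold modularFunctionFieldFullC at hz
  induction hz using IntermediateField.adjoin_induction with
  | mem z hz =>
    obtain ⟨d, hne, hd, rfl⟩ := hz
    have hdm : d ∈ M.divisors := Nat.mem_divisors.mpr ⟨hd, NeZero.ne M⟩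
    obtain ⟨k, hk⟩ := hloc (rm90_Jd K M ⟨d, hdm⟩) (rm90_isIntegral_Jd K R M ⟨d, hdm⟩)
    refine ⟨⟨_, hk⟩, ⟨x, hxC⟩ ^ k, ?_, ?_⟩
    · rw [map_pow, hρx]
      exact pow_ne_zero _ hgκ
    · rw [map_pow, hρx, hρ ⟨_, hk⟩ (ka46_g R g ^ k * JdC R d) (by
        rw [map_mul, map_pow, hgK, coeffMap_JdC]
        show _ = (x : LaurentSeries K) ^ k * JdC K d
        rw [hx]), map_mul, map_pow, hgκ', coeffMap_JdC, JdC_of_neZero]
      ring
  | algebraMap c =>
    obtain ⟨r, rfl⟩ := hsurj c
    refine ⟨algebraMap R ↥(pk15_chart R ({x} : Set ↥(modularFunctionFieldFullC K M))) r, 1, ?_, ?_⟩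
    · rw [map_one]
      exact one_ne_zero
    · rw [map_one, mul_one, hρc, h63_algebraMap_eq_C]
  | add z w _ _ hz hw =>
    obtain ⟨a, b, hb, hab⟩ := hz
    obtain ⟨a', b', hb', hab'⟩ := hw
    refine ⟨a * b' + a' * b, b * b', ?_, ?_⟩
    · rw [map_mul]
      exact mul_ne_zero hb hb'
    · rw [map_mul, map_add, map_mul, map_mul, ← hab, ← hab']
      ring
  | inv z _ hz =>
    obtain ⟨a, b, hb, hab⟩ := hz
    by_cases ha : ρ a = 0
    · have hz0 : z = 0 := by
        rw [ha] at hab
        exact (mul_eq_zero.mp hab).resolve_right hb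
      exact ⟨0, 1, by rw [map_one]; exact one_ne_zero, by rw [hz0, inv_zero, zero_mul, map_zero]⟩
    · refine ⟨b, a, ha, ?_⟩
      have hz0 : z ≠ 0 := by
        rintro rfl
        rw [zero_mul] at hab
        exact ha hab.symm
      rw [← hab]
      field_simp
  | mul z w _ _ hz hw =>
    obtain ⟨a, b, hb, hab⟩ := hz
    obtain ⟨a', b', hb', hab'⟩ := hw
    refine ⟨a * a', b * b', ?_, ?_⟩
    · rw [map_mul]
      exact mul_ne_zero hb hb'
    · rw [map_mul, map_mul, ← hab, ← hab']
      ring

/-- **`K`-level chart normality from the Dedekind special fibre.** -/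
theorem nk84_normalAt (π : R) (hπ : Prime π) (κ : Type) [Field κ] (red : R →+* κ)
    (hred : ∀ a : R, red a = 0 ↔ π ∣ a) (hsurj : Function.Surjective red) (hM : (M : κ) ≠ 0)
    (g : LaurentSeries ℤ) (e : ℕ) (N : Polynomial ℤ)
    (hrel : jqModC ℤ * g ^ e = N.eval₂ (Int.castRingHom (LaurentSeries ℤ)) g)
    (he : e < N.natDegree) (u : R) (hu : u * (N.leadingCoeff : R) = 1)
    (hgκ : ka46_g κ g ≠ 0)
    (x : ↥(modularFunctionFieldFullC K M)) (hx : (x : LaurentSeries K) = ka46_g K g)
    (hDed : IsDedekindDomain (↥(pk15_chart R ({x} : Set ↥(modularFunctionFieldFullC K M))) ⧸ Ideal.span {algebraMap R ↥(pk15_chart R ({x} : Set ↥(modularFunctionFieldFullC K M))) π})) :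
    ka46_NormalAt (algebraMap R K) red M g := by
  classical
  haveI := hDed
  obtain ⟨hx0, hloc, ρ, hρ, hden, hker⟩ :=
    nk84_package K M π hπ κ red hred hM g e N hrel he u hu hgκ x hx
  have hker' := hker inferInstance
  have hgK : coeffMap (algebraMap R K) (ka46_g R g) = ka46_g K g := ka46_coeffMap_g _ g
  have hgκ' : coeffMap red (ka46_g R g) = ka46_g κ g := ka46_coeffMap_g _ g
  have hxC : x ∈ pk15_chart R ({x} : Set ↥(modularFunctionFieldFullC K M)) :=
    pk15_subset_chart _ (Set.mem_singleton x)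
  have hρx : ρ ⟨x, hxC⟩ = ka46_g κ g := by
    rw [hρ ⟨x, hxC⟩ (ka46_g R g) (by rw [hgK]; exact hx.symm), hgκ']
  have hcoe : ∀ r : R, ((algebraMap R ↥(modularFunctionFieldFullC K M) r : ↥(modularFunctionFieldFullC K M)) : LaurentSeries K) =
      HahnSeries.C (algebraMap R K r) := by
    intro r
    rw [nk84_algebraMap_eq]
    exact gv85_coe_algebraMap (modularFunctionFieldFullC K M) (algebraMap R K r)
  have hρc : ∀ r : R, ρ (algebraMap R ↥(pk15_chart R ({x} : Set ↥(modularFunctionFieldFullC K M))) r) = HahnSeries.C (red r) := by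
    intro r
    rw [hρ (algebraMap R ↥(pk15_chart R ({x} : Set ↥(modularFunctionFieldFullC K M))) r) (HahnSeries.C r) (by rw [gv85_coeffMap_C]; exact (hcoe r).symm),
      gv85_coeffMap_C]
  have hkill : ∀ a ∈ Ideal.span {algebraMap R ↥(pk15_chart R ({x} : Set ↥(modularFunctionFieldFullC K M))) π}, ρ a = 0 := by
    intro a ha
    obtain ⟨c', rfl⟩ := Ideal.mem_span_singleton.mp ha
    rw [map_mul, hρc, (hred π).mpr dvd_rfl, map_zero, zero_mul]
  have hevx : (algebraMap ↥(modularFunctionFieldFullC K M) (LaurentSeries K)).comp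
      (Polynomial.aeval x : Polynomial R →ₐ[R] ↥(modularFunctionFieldFullC K M)).toRingHom =
      ka46_ev (algebraMap R K) g := by
    refine Polynomial.ringHom_ext (fun r => ?_) ?_
    · have h1 : ka46_ev (algebraMap R K) g (Polynomial.C r) = HahnSeries.C (algebraMap R K r) := by
        rw [ka46_ev_apply, Polynomial.eval₂_C]
        rfl
      rw [h1, ← hcoe r]
      simp
    · have h1 : ka46_ev (algebraMap R K) g Polynomial.X = ka46_g K g := by
        rw [ka46_ev_apply, Polynomial.eval₂_X]
      rw [h1, ← hx]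
      simp
  refine ka46_normalAt_of_red (algebraMap R K) red M g
    ((algebraMap ↥(modularFunctionFieldFullC K M) (LaurentSeries K)).comp (pk15_chart R ({x} : Set ↥(modularFunctionFieldFullC K M))).val.toRingHom) ρ
    ?_ ?_ ?_ ?_ ?_ ?_
  · intro b
    exact b.1.2
  · intro b
    have hb : IsIntegral (Algebra.adjoin R ({x} : Set ↥(modularFunctionFieldFullC K M))) (b : ↥(modularFunctionFieldFullC K M)) := b.2
    obtain ⟨p, hp, hpb⟩ := hb
    obtain ⟨σ, hσ'⟩ : ∃ σ : Polynomial R →+* ↥(Algebra.adjoin R ({x} : Set ↥(modularFunctionFieldFullC K M))),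
        (algebraMap ↥(Algebra.adjoin R ({x} : Set ↥(modularFunctionFieldFullC K M))) ↥(modularFunctionFieldFullC K M)).comp σ =
        (Polynomial.aeval x : Polynomial R →ₐ[R] ↥(modularFunctionFieldFullC K M)).toRingHom := by
      refine ⟨((Polynomial.aeval (⟨x, Algebra.subset_adjoin (Set.mem_singleton x)⟩ :
        ↥(Algebra.adjoin R ({x} : Set ↥(modularFunctionFieldFullC K M)))) : Polynomial R →ₐ[R] _)).toRingHom, ?_⟩
      refine Polynomial.ringHom_ext (fun r => ?_) ?_
      · simp
      · simp
    have hσ : Function.Surjective σ := by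
      rintro ⟨y, hy⟩
      have hy' := hy
      rw [Algebra.adjoin_singleton_eq_range_aeval] at hy'
      obtain ⟨q, hq⟩ := hy'
      refine ⟨q, Subtype.ext ?_⟩
      have h1 := congrFun (congrArg DFunLike.coe hσ') q
      exact h1.trans hq
    have hlift : p ∈ Polynomial.lifts σ := by
      rw [Polynomial.lifts_iff_coeff_lifts]
      intro n
      exact hσ _
    obtain ⟨P, hP, -, hPm⟩ := Polynomial.lifts_and_degree_eq_and_monic hlift hp
    refine ⟨P, hPm, ?_⟩
    have h1 := Polynomial.hom_eval₂ p
      (algebraMap ↥(Algebra.adjoin R ({x} : Set ↥(modularFunctionFieldFullC K M))) ↥(modularFunctionFieldFullC K M))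
      (algebraMap ↥(modularFunctionFieldFullC K M) (LaurentSeries K)) (b : ↥(modularFunctionFieldFullC K M))
    rw [hpb, map_zero, ← hP, Polynomial.eval₂_map, RingHom.comp_assoc, hσ', hevx] at h1
    exact h1.symm
  · intro s
    have h1 : Polynomial.aeval x s ∈ Algebra.adjoin R ({x} : Set ↥(modularFunctionFieldFullC K M)) :=
      Polynomial.aeval_mem_adjoin_singleton R x
    refine ⟨⟨Polynomial.aeval x s, ?_⟩, congrFun (congrArg DFunLike.coe hevx) s⟩
    rw [pk15_mem_chart]
    exact isIntegral_algebraMap (R := Algebra.adjoin R ({x} : Set ↥(modularFunctionFieldFullC K M))) (x := ⟨_, h1⟩)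
  · intro b
    exact hden b
  · intro b y h
    exact hρ b y h
  · intro z hz hzint
    obtain ⟨a, b, hb, hab⟩ := nk84_frac K M κ red hsurj g hgκ x hx hloc ρ hρ z hz
    exact nk84_surj red hsurj (algebraMap R ↥(pk15_chart R ({x} : Set ↥(modularFunctionFieldFullC K M)))) (Ideal.span {algebraMap R ↥(pk15_chart R ({x} : Set ↥(modularFunctionFieldFullC K M))) π}) ρ hkill hker' g
      ⟨x, hxC⟩ hρx hρc z a b hb hab hzint

end Chart

section DVR

/-- A series with a coefficient `1` stays nonzero over every nontrivial ring. -/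
theorem nk84_g_ne_zero (S : Type*) [CommRing S] [Nontrivial S] (g : LaurentSeries ℤ)
    (hg : ∃ n : ℤ, g.coeff n = 1) : ka46_g S g ≠ 0 := by
  obtain ⟨n, hn⟩ := hg
  intro h
  have h1 := congrArg (fun z : LaurentSeries S => z.coeff n) h
  simp only [ka46_g, coeffMap_coeff, hn, HahnSeries.coeff_zero] at h1
  have h2 : (1 : S) = 0 := by simp at h1
  exact one_ne_zero h2

variable (K : Type) [Field K] {R : Type} [CommRing R] [IsDomain R]
  [IsDiscreteValuationRing R] [Algebra R K] [IsFractionRing R K] (M : ℕ) [NeZero M]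
  [Algebra R ↥(modularFunctionFieldFullC K M)]
  [IsScalarTower R K ↥(modularFunctionFieldFullC K M)]

/-- **`K`-level chart normality over a discrete valuation ring** (`κ` its residue field), in
the exact shape of the hypothesis of `ka46_normalA_of_normalK`. -/
theorem nk84_normalAt_dvr (π : R) (hπ : Irreducible π) (hM : IsUnit ((M : ℕ) : R))
    (g : LaurentSeries ℤ) (hg : ∃ n : ℤ, g.coeff n = 1) (e : ℕ) (N : Polynomial ℤ)
    (hrel : jqModC ℤ * g ^ e = N.eval₂ (Int.castRingHom (LaurentSeries ℤ)) g)
    (he : e < N.natDegree) (hu : IsUnit ((N.leadingCoeff : ℤ) : R))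
    (x : ↥(modularFunctionFieldFullC K M)) (hx : (x : LaurentSeries K) = ka46_g K g)
    (hDed : IsDedekindDomain (↥(pk15_chart R ({x} : Set ↥(modularFunctionFieldFullC K M))) ⧸ Ideal.span {algebraMap R ↥(pk15_chart R ({x} : Set ↥(modularFunctionFieldFullC K M))) π})) :
    ka46_NormalAt (algebraMap R K) (IsLocalRing.residue R) M g := by
  have hred : ∀ a : R, IsLocalRing.residue R a = 0 ↔ π ∣ a := by
    intro a
    rw [IsLocalRing.residue_eq_zero_iff, hπ.maximalIdeal_eq, Ideal.mem_span_singleton]
  have hMκ : ((M : ℕ) : IsLocalRing.ResidueField R) ≠ 0 := by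
    intro h0
    have h1 : IsLocalRing.residue R ((M : ℕ) : R) = 0 := by
      rw [map_natCast]
      exact h0
    rw [IsLocalRing.residue_eq_zero_iff] at h1
    exact h1 hM
  obtain ⟨u, hu'⟩ := hu.exists_left_inv
  exact nk84_normalAt K M π hπ.prime (IsLocalRing.ResidueField R) (IsLocalRing.residue R) hred
    IsLocalRing.residue_surjective hMκ g e N hrel he u hu'
    (nk84_g_ne_zero _ g hg) x hx hDed

end DVR

end

end Fermat.Agent.S37
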