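import Mathlib
import Fermat.Agent.S37.NormalK84
import Fermat.Agent.S18.SmoothAsm79
import Fermat.Agent.S18.Haupt2R70
import Fermat.Agent.S18.Haupt3R_34

/-!
# S37 (helper84): chart normality over `(ℚ̄, A)` for the Hauptmodul charts

`A` a valuation subring of `ℚ̄` over a prime `ℓ ∤ M`, `k` its residue field.  For `2 ∣ M`
(resp. `3 ∣ M`) and the chart coordinates `g = h, 1/h` (`h` the Hauptmodul of `X₀(2)`, resp.
`X₀(3)`, with integer `q`-expansion `h70_h2 ℤ`, `h70_h2inv ℤ`, resp. `h34_h3R ℤ`, `h34_h3Rinv ℤ`):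

`ka46_NormalAt A.subtype (residue A) M g` — every element of `F(M)_k` integral over `k[ḡ]` is the
reduction of an element of `F(M)_{ℚ̄}` integral over `A[g]` (fraction form of helper46).

Inputs: S18/B5 (`sm79_level2`, `sm79_level3`: Dedekind special fibres of the charts over the
discrete valuation rings `A ∩ K₀`), the bridge `nk84_normalAt` and the transfer
`ka46_normalA_of_normalK`.
-/

set_option autoImplicit false
set_option linter.style.haveILetI false
set_option linter.unusedSectionVars false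

open ModularCurve IntermediateField

namespace Fermat.Agent.S37

open Fermat.Agent.S18 Fermat.Agent.S28

noncomputable section

local notation "Qbar" => AlgebraicClosure ℚ

section Generic

/-- The `K`-level statement over an abstract number field `K` mapping to `ℚ̄`, `R = A ∩ K`. -/
theorem na84_normalK_aux {K : Type} [Field K] [NumberField K] [Algebra K Qbar]
    (A : ValuationSubring Qbar) (M : ℕ) [NeZero M]
    {ℓ : ℕ} (hℓ : ℓ.Prime) (hA : A.LiesOverPrime ℓ) (hM : ¬ ℓ ∣ M)
    (g : LaurentSeries ℤ) (e : ℕ) (N : Polynomial ℤ)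
    (hrel : jqModC ℤ * g ^ e = N.eval₂ (Int.castRingHom (LaurentSeries ℤ)) g)
    (he : e < N.natDegree)
    (hgκ : ∀ (κ : Type) [Field κ], ka46_g κ g ≠ 0)
    (hlead : ∀ (R : Type) [CommRing R], IsUnit ((M : ℕ) : R) →
      IsUnit ((N.leadingCoeff : ℤ) : R))
    (hchart : ∀ [IsDiscreteValuationRing ↥(A.comap (algebraMap K Qbar))]
      [Algebra ↥(A.comap (algebraMap K Qbar)) ↥(modularFunctionFieldFullC K M)]
      [IsScalarTower ↥(A.comap (algebraMap K Qbar)) K ↥(modularFunctionFieldFullC K M)]
      (π : ↥(A.comap (algebraMap K Qbar))), Irreducible π →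
      IsUnit ((M : ℕ) : ↥(A.comap (algebraMap K Qbar))) →
      ∃ x : ↥(modularFunctionFieldFullC K M), (x : LaurentSeries K) = ka46_g K g ∧
        IsDedekindDomain (↥(pk15_chart ↥(A.comap (algebraMap K Qbar))
            ({x} : Set ↥(modularFunctionFieldFullC K M))) ⧸
          Ideal.span {algebraMap ↥(A.comap (algebraMap K Qbar))
            ↥(pk15_chart ↥(A.comap (algebraMap K Qbar))
              ({x} : Set ↥(modularFunctionFieldFullC K M))) π})) :
    ka46_NormalAt (A.comap (algebraMap K Qbar)).subtype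
      (IsLocalRing.residue ↥(A.comap (algebraMap K Qbar))) M g := by
  have hdvr : IsDiscreteValuationRing ↥(A.comap (algebraMap K Qbar)) :=
    nf23_comap_isDVR_of_liesOverPrime (algebraMap K Qbar) A hℓ.ne_zero hA
  letI alg : Algebra ↥(A.comap (algebraMap K Qbar)) ↥(modularFunctionFieldFullC K M) :=
    ((algebraMap K ↥(modularFunctionFieldFullC K M)).comp
      (algebraMap ↥(A.comap (algebraMap K Qbar)) K)).toAlgebra
  have htower : IsScalarTower ↥(A.comap (algebraMap K Qbar)) K
      ↥(modularFunctionFieldFullC K M) := IsScalarTower.of_algebraMap_eq (fun _ => rfl)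
  obtain ⟨π, hπ⟩ := IsDiscreteValuationRing.exists_irreducible ↥(A.comap (algebraMap K Qbar))
  have hMu : IsUnit ((M : ℕ) : ↥(A.comap (algebraMap K Qbar))) := by
    obtain ⟨μ, hμ⟩ := nf23_exists_natCast_mul_eq_one (algebraMap K Qbar) A hA
      ((Nat.Prime.coprime_iff_not_dvd hℓ).mpr hM).symm
    exact IsUnit.of_mul_eq_one _ hμ
  obtain ⟨x, hx, hDed⟩ := hchart π hπ hMu
  have hred : ∀ a : ↥(A.comap (algebraMap K Qbar)),
      IsLocalRing.residue ↥(A.comap (algebraMap K Qbar)) a = 0 ↔ π ∣ a := by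
    intro a
    rw [IsLocalRing.residue_eq_zero_iff, hπ.maximalIdeal_eq, Ideal.mem_span_singleton]
  have hMκ : ((M : ℕ) : IsLocalRing.ResidueField ↥(A.comap (algebraMap K Qbar))) ≠ 0 := by
    intro h0
    have h1 : IsLocalRing.residue ↥(A.comap (algebraMap K Qbar))
        ((M : ℕ) : ↥(A.comap (algebraMap K Qbar))) = 0 := by
      rw [map_natCast]
      exact h0
    rw [IsLocalRing.residue_eq_zero_iff] at h1
    exact h1 hMu
  obtain ⟨u, hu⟩ := (hlead ↥(A.comap (algebraMap K Qbar)) hMu).exists_left_inv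
  exact nk84_normalAt K M π hπ.prime
    (IsLocalRing.ResidueField ↥(A.comap (algebraMap K Qbar)))
    (IsLocalRing.residue ↥(A.comap (algebraMap K Qbar))) hred
    IsLocalRing.residue_surjective hMκ g e N hrel he u hu (hgκ _) x hx hDed

variable (A : ValuationSubring Qbar) (M : ℕ) [NeZero M]

/-- **Generic `A`-level chart normality** from chart data over all discrete valuation rings
`A ∩ K₀`: the chart coordinate `x` with `q`-expansion `g` and the Dedekind special fibre of its
chart. -/
theorem na84_normalA_of {ℓ : ℕ} (hℓ : ℓ.Prime) (hA : A.LiesOverPrime ℓ) (hM : ¬ ℓ ∣ M)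
    (g : LaurentSeries ℤ) (e : ℕ) (N : Polynomial ℤ)
    (hrel : jqModC ℤ * g ^ e = N.eval₂ (Int.castRingHom (LaurentSeries ℤ)) g)
    (he : e < N.natDegree)
    (hgκ : ∀ (κ : Type) [Field κ], ka46_g κ g ≠ 0)
    (hlead : ∀ (R : Type) [CommRing R], IsUnit ((M : ℕ) : R) →
      IsUnit ((N.leadingCoeff : ℤ) : R))
    (hchart : ∀ (R K0 : Type) [CommRing R] [IsDomain R] [IsDiscreteValuationRing R] [Field K0]
      [CharZero K0] [Algebra R K0] [IsFractionRing R K0] [Algebra K0 Qbar]
      [Algebra.IsAlgebraic K0 Qbar] [Algebra R ↥(modularFunctionFieldFullC K0 M)]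
      [IsScalarTower R K0 ↥(modularFunctionFieldFullC K0 M)] (π : R), Irreducible π →
      IsUnit ((M : ℕ) : R) →
      ∃ x : ↥(modularFunctionFieldFullC K0 M), (x : LaurentSeries K0) = ka46_g K0 g ∧
        IsDedekindDomain (↥(pk15_chart R ({x} : Set ↥(modularFunctionFieldFullC K0 M))) ⧸
          Ideal.span
            {algebraMap R ↥(pk15_chart R ({x} : Set ↥(modularFunctionFieldFullC K0 M))) π})) :
    ka46_NormalAt A.subtype (IsLocalRing.residue A) M g := by
  refine ka46_normalA_of_normalK A M g ∅ (fun K0 hNF _ => ?_)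
  haveI := hNF
  have hQ : Algebra.IsAlgebraic ℚ Qbar := AlgebraicClosure.isAlgebraic ℚ
  have halg : Algebra.IsAlgebraic K0 Qbar :=
    Algebra.IsAlgebraic.tower_top (K := ℚ) (L := K0) (A := Qbar)
  exact na84_normalK_aux (K := K0) A M hℓ hA hM g e N hrel he hgκ hlead
    (fun π hπ hMu => hchart ↥(A.comap (algebraMap K0 Qbar)) K0 π hπ hMu)

end Generic

end

end Fermat.Agent.S37
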