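import Mathlib
import Fermat.Agent.S37.NormalA84
import Fermat.Agent.S18.SmoothAsm79
import Fermat.Agent.S18.Haupt2R70
import Fermat.Agent.S18.Haupt3R_34

/-!
# S37 (helper84): chart normality over `(ℚ̄, A)` for the four Hauptmodul charts

`A` a valuation subring of `ℚ̄` over a prime `ℓ ∤ M`.  For `2 ∣ M` (resp. `3 ∣ M`) and the chart
coordinates `g = h, 1/h` (`h` the Hauptmodul of `X₀(2)`, resp. `X₀(3)`, with integer
`q`-expansions `h70_h2 ℤ`, `h70_h2inv ℤ`, resp. `h34_h3R ℤ`, `h34_h3Rinv ℤ`):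

`ka46_NormalAt A.subtype (residue A) M g`.

Inputs: S18/B5 (`sm79_level2`, `sm79_level3`) and the generic `na84_normalA_of`.
-/

set_option autoImplicit false
set_option linter.style.haveILetI false
set_option linter.unusedSectionVars false

open ModularCurve IntermediateField

namespace Fermat.Agent.S37

open Fermat.Agent.S18 Fermat.Agent.S28

noncomputable section

local notation "Qbar" => AlgebraicClosure ℚ

/-! ### The four relation polynomials -/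

/-- `j·h² = (h + 256)³`. -/
def nh84_N2 : Polynomial ℤ := (Polynomial.X + Polynomial.C 256) ^ 3

/-- `j·v = (256 v + 1)³`, `v = 1/h`. -/
def nh84_N2i : Polynomial ℤ := (Polynomial.C 256 * Polynomial.X + Polynomial.C 1) ^ 3

/-- `j·h³ = (h + 27)(h + 243)³`. -/
def nh84_N3 : Polynomial ℤ :=
  (Polynomial.X + Polynomial.C 27) * (Polynomial.X + Polynomial.C 243) ^ 3

/-- `j·v = (27 v + 1)(243 v + 1)³`, `v = 1/h`. -/
def nh84_N3i : Polynomial ℤ :=
  (Polynomial.C 27 * Polynomial.X + Polynomial.C 1) *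
    (Polynomial.C 243 * Polynomial.X + Polynomial.C 1) ^ 3

theorem nh84_castC (n : ℕ) [n.AtLeastTwo] :
    (Int.castRingHom (LaurentSeries ℤ)) (OfNat.ofNat n : ℤ) = (OfNat.ofNat n : LaurentSeries ℤ) := by
  rw [eq_intCast, Int.cast_ofNat]

theorem nh84_N2_eval (g : LaurentSeries ℤ) :
    nh84_N2.eval₂ (Int.castRingHom (LaurentSeries ℤ)) g = (g + 256) ^ 3 := by
  rw [nh84_N2, Polynomial.eval₂_pow, Polynomial.eval₂_add, Polynomial.eval₂_X,
    Polynomial.eval₂_C, nh84_castC]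

theorem nh84_N2i_eval (g : LaurentSeries ℤ) :
    nh84_N2i.eval₂ (Int.castRingHom (LaurentSeries ℤ)) g = (256 * g + 1) ^ 3 := by
  rw [nh84_N2i, Polynomial.eval₂_pow, Polynomial.eval₂_add, Polynomial.eval₂_mul,
    Polynomial.eval₂_X, Polynomial.eval₂_C, Polynomial.eval₂_C, map_one, nh84_castC]

theorem nh84_N3_eval (g : LaurentSeries ℤ) :
    nh84_N3.eval₂ (Int.castRingHom (LaurentSeries ℤ)) g = (g + 27) * (g + 243) ^ 3 := by
  rw [nh84_N3, Polynomial.eval₂_mul, Polynomial.eval₂_pow, Polynomial.eval₂_add,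
    Polynomial.eval₂_add, Polynomial.eval₂_X, Polynomial.eval₂_C, Polynomial.eval₂_C,
    nh84_castC, nh84_castC]

theorem nh84_N3i_eval (g : LaurentSeries ℤ) :
    nh84_N3i.eval₂ (Int.castRingHom (LaurentSeries ℤ)) g =
      (27 * g + 1) * (243 * g + 1) ^ 3 := by
  rw [nh84_N3i, Polynomial.eval₂_mul, Polynomial.eval₂_pow, Polynomial.eval₂_add,
    Polynomial.eval₂_add, Polynomial.eval₂_mul, Polynomial.eval₂_mul, Polynomial.eval₂_X,
    Polynomial.eval₂_C, Polynomial.eval₂_C, Polynomial.eval₂_C, map_one, nh84_castC, nh84_castC]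

/-! ### Degrees and leading coefficients -/

theorem nh84_N2_natDegree : nh84_N2.natDegree = 3 := by
  rw [nh84_N2, Polynomial.natDegree_pow, Polynomial.natDegree_X_add_C]

theorem nh84_N2_leadingCoeff : nh84_N2.leadingCoeff = 1 :=
  ((Polynomial.monic_X_add_C (256 : ℤ)).pow 3).leadingCoeff

theorem nh84_N2i_natDegree : nh84_N2i.natDegree = 3 := by
  rw [nh84_N2i, Polynomial.natDegree_pow, Polynomial.natDegree_linear (by norm_num)]

theorem nh84_N2i_leadingCoeff : nh84_N2i.leadingCoeff = 256 ^ 3 := by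
  rw [nh84_N2i, Polynomial.leadingCoeff_pow, Polynomial.leadingCoeff_linear (by norm_num)]

theorem nh84_N3_leadingCoeff : nh84_N3.leadingCoeff = 1 :=
  ((Polynomial.monic_X_add_C (27 : ℤ)).mul ((Polynomial.monic_X_add_C (243 : ℤ)).pow 3)).leadingCoeff

theorem nh84_N3_natDegree : nh84_N3.natDegree = 4 := by
  rw [nh84_N3, ((Polynomial.monic_X_add_C (27 : ℤ)).natDegree_mul
    ((Polynomial.monic_X_add_C (243 : ℤ)).pow 3)), Polynomial.natDegree_pow,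
    Polynomial.natDegree_X_add_C, Polynomial.natDegree_X_add_C]

theorem nh84_linear_ne_zero (a : ℤ) (ha : a ≠ 0) :
    (Polynomial.C a * Polynomial.X + Polynomial.C 1 : Polynomial ℤ) ≠ 0 := by
  intro h
  have h1 := Polynomial.natDegree_linear (b := (1 : ℤ)) ha
  rw [h, Polynomial.natDegree_zero] at h1
  exact zero_ne_one h1

theorem nh84_N3i_natDegree : nh84_N3i.natDegree = 4 := by
  rw [nh84_N3i, Polynomial.natDegree_mul (nh84_linear_ne_zero 27 (by norm_num))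
    (pow_ne_zero 3 (nh84_linear_ne_zero 243 (by norm_num))), Polynomial.natDegree_pow,
    Polynomial.natDegree_linear (by norm_num), Polynomial.natDegree_linear (by norm_num)]

theorem nh84_N3i_leadingCoeff : nh84_N3i.leadingCoeff = 27 * 243 ^ 3 := by
  rw [nh84_N3i, Polynomial.leadingCoeff_mul, Polynomial.leadingCoeff_pow,
    Polynomial.leadingCoeff_linear (by norm_num), Polynomial.leadingCoeff_linear (by norm_num)]

/-! ### The relations over `ℤ` -/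

theorem nh84_rel2 :
    jqModC ℤ * h70_h2 ℤ ^ 2 = nh84_N2.eval₂ (Int.castRingHom (LaurentSeries ℤ)) (h70_h2 ℤ) := by
  rw [nh84_N2_eval]
  exact h70_j_mul_h2_sq ℤ

theorem nh84_inv_rel2 {S : Type*} [CommRing S] (j g v : S) (hgv : g * v = 1)
    (hrel : j * g ^ 2 = (g + 256) ^ 3) : j * v ^ 1 = (256 * v + 1) ^ 3 := by
  have h2 : g ^ 2 * v ^ 2 = 1 := by rw [← mul_pow, hgv, one_pow]
  calc j * v ^ 1 = j * v * (g ^ 2 * v ^ 2) := by rw [h2, mul_one, pow_one]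
    _ = (j * g ^ 2) * v ^ 3 := by ring
    _ = (g * v + 256 * v) ^ 3 := by rw [hrel]; ring
    _ = (256 * v + 1) ^ 3 := by rw [hgv]; ring

theorem nh84_inv_rel3 {S : Type*} [CommRing S] (j g v : S) (hgv : g * v = 1)
    (hrel : j * g ^ 3 = (g + 27) * (g + 243) ^ 3) :
    j * v ^ 1 = (27 * v + 1) * (243 * v + 1) ^ 3 := by
  have h3 : g ^ 3 * v ^ 3 = 1 := by rw [← mul_pow, hgv, one_pow]
  calc j * v ^ 1 = j * v * (g ^ 3 * v ^ 3) := by rw [h3, mul_one, pow_one]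
    _ = (j * g ^ 3) * v ^ 4 := by ring
    _ = (g * v + 27 * v) * (g * v + 243 * v) ^ 3 := by rw [hrel]; ring
    _ = (27 * v + 1) * (243 * v + 1) ^ 3 := by rw [hgv]; ring

theorem nh84_rel2i :
    jqModC ℤ * h70_h2inv ℤ ^ 1 =
      nh84_N2i.eval₂ (Int.castRingHom (LaurentSeries ℤ)) (h70_h2inv ℤ) := by
  rw [nh84_N2i_eval]
  exact nh84_inv_rel2 _ _ _ (h70_h2_mul_h2inv ℤ) (h70_j_mul_h2_sq ℤ)

theorem nh84_rel3 :
    jqModC ℤ * h34_h3R ℤ ^ 3 =
      nh84_N3.eval₂ (Int.castRingHom (LaurentSeries ℤ)) (h34_h3R ℤ) := by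
  rw [nh84_N3_eval]
  exact h34_h3R_j ℤ

theorem nh84_rel3i :
    jqModC ℤ * h34_h3Rinv ℤ ^ 1 =
      nh84_N3i.eval₂ (Int.castRingHom (LaurentSeries ℤ)) (h34_h3Rinv ℤ) := by
  rw [nh84_N3i_eval]
  exact nh84_inv_rel3 _ _ _ (h34_h3R_mul_inv ℤ) (h34_h3R_j ℤ)

/-! ### Non-vanishing over every field -/

theorem nh84_g2 (κ : Type*) [CommRing κ] : ka46_g κ (h70_h2 ℤ) = h70_h2 κ :=
  h70_coeffMap_h2 (Int.castRingHom κ)

theorem nh84_g2i (κ : Type*) [CommRing κ] : ka46_g κ (h70_h2inv ℤ) = h70_h2inv κ :=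
  h70_coeffMap_h2inv (Int.castRingHom κ)

theorem nh84_g3 (κ : Type*) [CommRing κ] : ka46_g κ (h34_h3R ℤ) = h34_h3R κ :=
  h34_coeffMap_h3R (Int.castRingHom κ)

theorem nh84_g3i (κ : Type*) [CommRing κ] : ka46_g κ (h34_h3Rinv ℤ) = h34_h3Rinv κ :=
  h34_coeffMap_h3Rinv (Int.castRingHom κ)

theorem nh84_g2_ne (κ : Type) [Field κ] : ka46_g κ (h70_h2 ℤ) ≠ 0 := by
  rw [nh84_g2]
  exact left_ne_zero_of_mul_eq_one (h70_h2_mul_h2inv κ)

theorem nh84_g2i_ne (κ : Type) [Field κ] : ka46_g κ (h70_h2inv ℤ) ≠ 0 := by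
  rw [nh84_g2i]
  exact right_ne_zero_of_mul_eq_one (h70_h2_mul_h2inv κ)

theorem nh84_g3_ne (κ : Type) [Field κ] : ka46_g κ (h34_h3R ℤ) ≠ 0 := by
  rw [nh84_g3]
  exact left_ne_zero_of_mul_eq_one (h34_h3R_mul_inv κ)

theorem nh84_g3i_ne (κ : Type) [Field κ] : ka46_g κ (h34_h3Rinv ℤ) ≠ 0 := by
  rw [nh84_g3i]
  exact right_ne_zero_of_mul_eq_one (h34_h3R_mul_inv κ)

/-! ### Units -/

theorem nh84_isUnit_of_dvd (M : ℕ) {R : Type*} [CommRing R] {p : ℕ} (hp : p ∣ M)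
    (hM : IsUnit ((M : ℕ) : R)) : IsUnit ((p : ℕ) : R) := by
  obtain ⟨k, hk⟩ := hp
  have hM' : IsUnit (((p : ℕ) : R) * (k : R)) := by
    have h1 : ((M : ℕ) : R) = ((p : ℕ) : R) * (k : R) := by rw [hk]; push_cast; ring
    rw [← h1]
    exact hM
  exact isUnit_of_mul_isUnit_left hM'

theorem nh84_lead2 (M : ℕ) (R : Type) [CommRing R] (_hM : IsUnit ((M : ℕ) : R)) :
    IsUnit ((nh84_N2.leadingCoeff : ℤ) : R) := by
  rw [nh84_N2_leadingCoeff, Int.cast_one]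
  exact isUnit_one

theorem nh84_lead2i (M : ℕ) (h2M : 2 ∣ M) (R : Type) [CommRing R] (hM : IsUnit ((M : ℕ) : R)) :
    IsUnit ((nh84_N2i.leadingCoeff : ℤ) : R) := by
  have h2 : IsUnit ((2 : ℕ) : R) := nh84_isUnit_of_dvd M h2M hM
  have h3 : (((256 : ℤ) ^ 3 : ℤ) : R) = ((2 : ℕ) : R) ^ 24 := by
    push_cast
    norm_num
  rw [nh84_N2i_leadingCoeff, h3]
  exact h2.pow 24

theorem nh84_lead3 (M : ℕ) (R : Type) [CommRing R] (_hM : IsUnit ((M : ℕ) : R)) :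
    IsUnit ((nh84_N3.leadingCoeff : ℤ) : R) := by
  rw [nh84_N3_leadingCoeff, Int.cast_one]
  exact isUnit_one

theorem nh84_lead3i (M : ℕ) (h3M : 3 ∣ M) (R : Type) [CommRing R] (hM : IsUnit ((M : ℕ) : R)) :
    IsUnit ((nh84_N3i.leadingCoeff : ℤ) : R) := by
  have h2 : IsUnit ((3 : ℕ) : R) := nh84_isUnit_of_dvd M h3M hM
  have h3 : (((27 : ℤ) * 243 ^ 3 : ℤ) : R) = ((3 : ℕ) : R) ^ 18 := by
    push_cast
    norm_num
  rw [nh84_N3i_leadingCoeff, h3]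
  exact h2.pow 18

/-! ### The chart data from S18/B5 -/

section Charts

variable (M : ℕ) [NeZero M] (R K0 : Type) [CommRing R] [IsDomain R] [IsDiscreteValuationRing R]
  [Field K0] [CharZero K0] [Algebra R K0] [IsFractionRing R K0] [Algebra K0 Qbar]
  [Algebra.IsAlgebraic K0 Qbar] [Algebra R ↥(modularFunctionFieldFullC K0 M)]
  [IsScalarTower R K0 ↥(modularFunctionFieldFullC K0 M)]

theorem nh84_chart2 (h2M : 2 ∣ M) (π : R) (hπ : Irreducible π) (hMu : IsUnit ((M : ℕ) : R)) :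
    ∃ x : ↥(modularFunctionFieldFullC K0 M), (x : LaurentSeries K0) = ka46_g K0 (h70_h2 ℤ) ∧
      IsDedekindDomain (↥(pk15_chart R ({x} : Set ↥(modularFunctionFieldFullC K0 M))) ⧸
        Ideal.span
          {algebraMap R ↥(pk15_chart R ({x} : Set ↥(modularFunctionFieldFullC K0 M))) π}) := by
  obtain ⟨h1, -⟩ := sm79_level2 K0 M hπ hMu h2M
  exact ⟨sm79_h2 K0 M h2M, (nh84_g2 K0).symm, h1.1⟩

theorem nh84_chart2i (h2M : 2 ∣ M) (π : R) (hπ : Irreducible π) (hMu : IsUnit ((M : ℕ) : R)) :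
    ∃ x : ↥(modularFunctionFieldFullC K0 M), (x : LaurentSeries K0) = ka46_g K0 (h70_h2inv ℤ) ∧
      IsDedekindDomain (↥(pk15_chart R ({x} : Set ↥(modularFunctionFieldFullC K0 M))) ⧸
        Ideal.span
          {algebraMap R ↥(pk15_chart R ({x} : Set ↥(modularFunctionFieldFullC K0 M))) π}) := by
  obtain ⟨-, h1⟩ := sm79_level2 K0 M hπ hMu h2M
  refine ⟨(sm79_h2 K0 M h2M)⁻¹, ?_, h1.1⟩
  rw [nh84_g2i, IntermediateField.coe_inv, sm79_h2_coe]
  exact inv_eq_of_mul_eq_one_right (h70_h2_mul_h2inv K0)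

theorem nh84_chart3 (h3M : 3 ∣ M) (π : R) (hπ : Irreducible π) (hMu : IsUnit ((M : ℕ) : R)) :
    ∃ x : ↥(modularFunctionFieldFullC K0 M), (x : LaurentSeries K0) = ka46_g K0 (h34_h3R ℤ) ∧
      IsDedekindDomain (↥(pk15_chart R ({x} : Set ↥(modularFunctionFieldFullC K0 M))) ⧸
        Ideal.span
          {algebraMap R ↥(pk15_chart R ({x} : Set ↥(modularFunctionFieldFullC K0 M))) π}) := by
  obtain ⟨h1, -⟩ := sm79_level3 K0 M hπ hMu h3M
  exact ⟨sm79_h3 K0 M h3M, (nh84_g3 K0).symm, h1.1⟩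

theorem nh84_chart3i (h3M : 3 ∣ M) (π : R) (hπ : Irreducible π) (hMu : IsUnit ((M : ℕ) : R)) :
    ∃ x : ↥(modularFunctionFieldFullC K0 M), (x : LaurentSeries K0) = ka46_g K0 (h34_h3Rinv ℤ) ∧
      IsDedekindDomain (↥(pk15_chart R ({x} : Set ↥(modularFunctionFieldFullC K0 M))) ⧸
        Ideal.span
          {algebraMap R ↥(pk15_chart R ({x} : Set ↥(modularFunctionFieldFullC K0 M))) π}) := by
  obtain ⟨-, h1⟩ := sm79_level3 K0 M hπ hMu h3M
  refine ⟨(sm79_h3 K0 M h3M)⁻¹, ?_, h1.1⟩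
  rw [nh84_g3i, IntermediateField.coe_inv, sm79_h3_coe]
  exact inv_eq_of_mul_eq_one_right (h34_h3R_mul_inv K0)

end Charts

/-! ### The four `A`-level statements -/

section Main

variable (A : ValuationSubring Qbar) (M : ℕ) [NeZero M]

/-- **Level 2, chart `h`** (`h = Δ(q)/Δ(q²)`): chart normality over `(ℚ̄, A)`. -/
theorem nh84_level2 {ℓ : ℕ} (hℓ : ℓ.Prime) (hA : A.LiesOverPrime ℓ) (hM : ¬ ℓ ∣ M)
    (h2M : 2 ∣ M) : ka46_NormalAt A.subtype (IsLocalRing.residue A) M (h70_h2 ℤ) :=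
  na84_normalA_of A M hℓ hA hM (h70_h2 ℤ) 2 nh84_N2 nh84_rel2
    (by rw [nh84_N2_natDegree]; norm_num) nh84_g2_ne (nh84_lead2 M)
    (fun R K0 _ _ _ _ _ _ _ _ _ _ _ π hπ hMu => nh84_chart2 M R K0 h2M π hπ hMu)

/-- **Level 2, chart `1/h`**: chart normality over `(ℚ̄, A)`. -/
theorem nh84_level2_inv {ℓ : ℕ} (hℓ : ℓ.Prime) (hA : A.LiesOverPrime ℓ) (hM : ¬ ℓ ∣ M)
    (h2M : 2 ∣ M) : ka46_NormalAt A.subtype (IsLocalRing.residue A) M (h70_h2inv ℤ) :=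
  na84_normalA_of A M hℓ hA hM (h70_h2inv ℤ) 1 nh84_N2i nh84_rel2i
    (by rw [nh84_N2i_natDegree]; norm_num) nh84_g2i_ne (nh84_lead2i M h2M)
    (fun R K0 _ _ _ _ _ _ _ _ _ _ _ π hπ hMu => nh84_chart2i M R K0 h2M π hπ hMu)

/-- **Level 3, chart `h`** (`h = (η(q)/η(q³))¹²`): chart normality over `(ℚ̄, A)`. -/
theorem nh84_level3 {ℓ : ℕ} (hℓ : ℓ.Prime) (hA : A.LiesOverPrime ℓ) (hM : ¬ ℓ ∣ M)
    (h3M : 3 ∣ M) : ka46_NormalAt A.subtype (IsLocalRing.residue A) M (h34_h3R ℤ) :=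
  na84_normalA_of A M hℓ hA hM (h34_h3R ℤ) 3 nh84_N3 nh84_rel3
    (by rw [nh84_N3_natDegree]; norm_num) nh84_g3_ne (nh84_lead3 M)
    (fun R K0 _ _ _ _ _ _ _ _ _ _ _ π hπ hMu => nh84_chart3 M R K0 h3M π hπ hMu)

/-- **Level 3, chart `1/h`**: chart normality over `(ℚ̄, A)`. -/
theorem nh84_level3_inv {ℓ : ℕ} (hℓ : ℓ.Prime) (hA : A.LiesOverPrime ℓ) (hM : ¬ ℓ ∣ M)
    (h3M : 3 ∣ M) : ka46_NormalAt A.subtype (IsLocalRing.residue A) M (h34_h3Rinv ℤ) :=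
  na84_normalA_of A M hℓ hA hM (h34_h3Rinv ℤ) 1 nh84_N3i nh84_rel3i
    (by rw [nh84_N3i_natDegree]; norm_num) nh84_g3i_ne (nh84_lead3i M h3M)
    (fun R K0 _ _ _ _ _ _ _ _ _ _ _ π hπ hMu => nh84_chart3i M R K0 h3M π hπ hMu)

end Main

end

end Fermat.Agent.S37
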