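import Fermat.Agent.S37.NormInstFinal22
import Fermat.Agent.S37.NormalHaupt84

/-!
# S37, row NM (helper22): chart normality for `j` and `1/j` at every level prime to `ℓ`

`A` a valuation subring of `ℚ̄` over a prime `ℓ`, `N` a level with `ℓ ∤ N`.  Then every element
of `F_k(N)` integral over `k[j̄]` (resp. `k[1/j̄]`) is the reduction of an element of `F(N)`
integral over `A[j]` (resp. `A[1/j]`), in helper46's `ka46_NormalAt` form — with no further
hypothesis:

* Hauptmodul charts at the auxiliary level `N' = N * p₀`, `p₀ ∈ {2, 3} \ {ℓ}` (helper84,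
  `nh84_level2/3(_inv)`, from the S18 chart package);
* `h`-charts to `j`-charts at level `N'` (helper44 / helper47, `cci47_level2/3_j(inv)`);
* norm descent `N' → N` (`ni22_normalAt_j`, `ni22_normalAt_jinv`).
-/

set_option autoImplicit false
set_option synthInstance.maxHeartbeats 400000

open ModularCurve

namespace Fermat.Agent.S37

open Fermat.Agent.S18 Fermat.Agent.S28

local notation "Qb" => AlgebraicClosure ℚ

/-- **Chart normality for `j` and `1/j` at every level `N` prime to `ℓ`.** -/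
theorem jn22_normalAt (A : ValuationSubring Qb) {ℓ : ℕ} (hℓ : ℓ.Prime) (hA : A.LiesOverPrime ℓ)
    (N : ℕ) [NeZero N] (hℓN : ¬ ℓ ∣ N) :
    ka46_NormalAt A.subtype (IsLocalRing.residue A) N (jqModC ℤ) ∧
      ka46_NormalAt A.subtype (IsLocalRing.residue A) N (h63_jInv ℤ) := by
  by_cases h2 : ℓ = 2
  · have : NeZero (N * 3) := ⟨Nat.mul_ne_zero (NeZero.ne N) (by norm_num)⟩
    have hℓN' : ¬ ℓ ∣ N * 3 := by
      intro hd
      rcases (Nat.Prime.dvd_mul hℓ).mp hd with h | h
      · exact hℓN h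
      · rw [h2] at h
        omega
    have hN' : ((N * 3 : ℕ) : IsLocalRing.ResidueField A) ≠ 0 :=
      ga41_natCast_ne_zero (N * 3) A hℓ hA hℓN'
    have h3 : 3 ∣ N * 3 := dvd_mul_left 3 N
    have Hh := nh84_level3 A (N * 3) hℓ hA hℓN' h3
    have Hs := nh84_level3_inv A (N * 3) hℓ hA hℓN' h3
    exact ⟨ni22_normalAt_j A hN' (dvd_mul_right N 3) (cci47_level3_j (N * 3) A h3 hN' Hh),
      ni22_normalAt_jinv A hN' (dvd_mul_right N 3) (cci47_level3_jinv (N * 3) A h3 hN' Hh Hs)⟩
  · have : NeZero (N * 2) := ⟨Nat.mul_ne_zero (NeZero.ne N) (by norm_num)⟩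
    have hℓN' : ¬ ℓ ∣ N * 2 := by
      intro hd
      rcases (Nat.Prime.dvd_mul hℓ).mp hd with h | h
      · exact hℓN h
      · exact h2 ((Nat.prime_dvd_prime_iff_eq hℓ Nat.prime_two).mp h)
    have hN' : ((N * 2 : ℕ) : IsLocalRing.ResidueField A) ≠ 0 :=
      ga41_natCast_ne_zero (N * 2) A hℓ hA hℓN'
    have h2' : 2 ∣ N * 2 := dvd_mul_left 2 N
    have Hh := nh84_level2 A (N * 2) hℓ hA hℓN' h2'
    have Hs := nh84_level2_inv A (N * 2) hℓ hA hℓN' h2'
    exact ⟨ni22_normalAt_j A hN' (dvd_mul_right N 2) (cci47_level2_j (N * 2) A h2' hN' Hh),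
      ni22_normalAt_jinv A hN' (dvd_mul_right N 2) (cci47_level2_jinv (N * 2) A h2' hN' Hh Hs)⟩

end Fermat.Agent.S37
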