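import Mathlib
import Fermat.Prelude.Def_ModularCurve_HeckeOperator
import Fermat.Prelude.Def_FLTPrelim_Ramification

/-!
# S37, row KR (helper50): the Kronecker congruence for the Hecke norm

* `kr50_qTwist c` : the substitution `q ↦ c q` on Laurent series (`c` a unit), a ring
  homomorphism with `(kr50_qTwist c f).coeff n = c ^ n * f.coeff n`.
* `kr50_core` : if `g(q^l) = y(q^(l^2)) * ∏_{i<l} y(ζ^i q)` with `ζ^l = 1` and `y` integral for a
  valuation ring `A` of residue characteristic `l`, then `g` is `A`-integral and its reduction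
  satisfies `gbar(q^l) = ybar(q^(l^2)) * ybar^l`.
* `kr50_main_of` : the statement of row KR with the norm-conjugates identity (row NC) as an
  explicit hypothesis.
-/

set_option autoImplicit false

open ModularCurve AlgebraicCurve

namespace Fermat.Agent.S37

section Twist

variable {R : Type*} [CommRing R]

/-- Auxiliary: the underlying function of `kr50_qTwist`. -/
noncomputable def kr50_twistFun (c : Rˣ) (x : LaurentSeries R) : LaurentSeries R :=
  { coeff := fun n => ((c ^ n : Rˣ) : R) * x.coeff n
    isPWO_support' := x.isPWO_support.mono (by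
      intro n hn
      simp only [Function.mem_support, ne_eq] at hn
      simp only [HahnSeries.mem_support, ne_eq]
      intro h
      exact hn (by rw [h, mul_zero])) }

theorem kr50_twistFun_coeff (c : Rˣ) (x : LaurentSeries R) (n : ℤ) :
    (kr50_twistFun c x).coeff n = ((c ^ n : Rˣ) : R) * x.coeff n :=
  rfl

theorem kr50_twistFun_support (c : Rˣ) (x : LaurentSeries R) :
    (kr50_twistFun c x).support = x.support := by
  ext n
  simp only [HahnSeries.mem_support, ne_eq, kr50_twistFun_coeff, Units.mul_right_eq_zero]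

theorem kr50_twistFun_mul (c : Rˣ) (x y : LaurentSeries R) :
    kr50_twistFun c (x * y) = kr50_twistFun c x * kr50_twistFun c y := by
  ext n
  have hset : Finset.antidiagonal (kr50_twistFun c x).isPWO_support
      (kr50_twistFun c y).isPWO_support n
      = Finset.antidiagonal x.isPWO_support y.isPWO_support n := by
    ext ij
    simp only [Finset.mem_antidiagonal, kr50_twistFun_support]
  rw [HahnSeries.coeff_mul, hset, kr50_twistFun_coeff, HahnSeries.coeff_mul, Finset.mul_sum]
  refine Finset.sum_congr rfl fun ij hij => ?_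
  have hsum : ij.1 + ij.2 = n := (Finset.mem_antidiagonal.mp hij).2.2
  rw [kr50_twistFun_coeff, kr50_twistFun_coeff, ← hsum, zpow_add, Units.val_mul]
  ring

/-- The substitution `q ↦ c q` on Laurent series, for a unit `c`. -/
noncomputable def kr50_qTwist (c : Rˣ) : LaurentSeries R →+* LaurentSeries R where
  toFun x := kr50_twistFun c x
  map_zero' := by
    ext n
    simp [kr50_twistFun_coeff]
  map_one' := by
    ext n
    by_cases hn : n = 0
    · subst hn
      simp [kr50_twistFun_coeff]
    · simp [kr50_twistFun_coeff, HahnSeries.coeff_one, hn]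
  map_add' x y := by
    ext n
    simp [kr50_twistFun_coeff, mul_add]
  map_mul' x y := kr50_twistFun_mul c x y

@[simp]
theorem kr50_qTwist_coeff (c : Rˣ) (f : LaurentSeries R) (n : ℤ) :
    (kr50_qTwist c f).coeff n = ((c ^ n : Rˣ) : R) * f.coeff n :=
  rfl

theorem kr50_qTwist_one (f : LaurentSeries R) : kr50_qTwist (1 : Rˣ) f = f := by
  ext n
  simp

variable {S : Type*} [CommRing S]

theorem kr50_coeffMap_qTwist (φ : R →+* S) (c : Rˣ) (f : LaurentSeries R) :
    coeffMap φ (kr50_qTwist c f) = kr50_qTwist (Units.map (φ : R →* S) c) (coeffMap φ f) := by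
  ext n
  simp only [coeffMap_coeff, kr50_qTwist_coeff, map_mul]
  congr 1
  rw [← map_zpow]
  rfl

/-- `coeffMap` commutes with `qExpand` (public copy of a private Prelude lemma). -/
theorem kr50_coeffMap_qExpand (φ : R →+* S) (n : ℕ) [NeZero n] (x : LaurentSeries R) :
    coeffMap φ (qExpand R n x) = qExpand S n (coeffMap φ x) := by
  ext k
  by_cases hk : (n : ℤ) ∣ k
  · obtain ⟨m, rfl⟩ := hk
    rw [coeffMap_coeff, qExpand_coeff_mul, qExpand_coeff_mul, coeffMap_coeff]
  · rw [coeffMap_coeff, qExpand_coeff_of_not_dvd n _ hk, qExpand_coeff_of_not_dvd n _ hk,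
      map_zero]

theorem kr50_coeffMap_injective (φ : R →+* S) (hφ : Function.Injective φ) :
    Function.Injective (coeffMap φ) := by
  intro x y hxy
  ext k
  apply hφ
  have := congrArg (fun z : LaurentSeries S => z.coeff k) hxy
  simpa using this

end Twist

section Core

variable {L : Type*} [Field L]

theorem kr50_mem_of_pow_eq_one (A : ValuationSubring L) {ζ : L} {l : ℕ} (hl : 0 < l)
    (hζ : ζ ^ l = 1) : ζ ∈ A := by
  rcases A.mem_or_inv_mem ζ with h | h
  · exact h
  · have h1 : ζ ^ (l - 1) * ζ = 1 := by
      rw [← pow_succ, Nat.sub_add_cancel hl, hζ]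
    have h2 : ζ ^ (l - 1) = ζ⁻¹ := eq_inv_of_mul_eq_one_left h1
    have h3 : ζ = (ζ⁻¹) ^ (l - 1) := by
      rw [inv_pow, h2, inv_inv]
    rw [h3]
    exact pow_mem h _

theorem kr50_exists_unit (A : ValuationSubring L) (ζ : Lˣ) {l : ℕ} (hl : 0 < l)
    (hζ : ζ ^ l = 1) : ∃ u : Aˣ, Units.map (A.subtype : A →* L) u = ζ := by
  have h1 : (ζ : L) ^ l = 1 := by
    have := congrArg Units.val hζ
    simpa using this
  have h2 : ((ζ⁻¹ : Lˣ) : L) ^ l = 1 := by
    have := congrArg Units.val (show (ζ⁻¹) ^ l = 1 by rw [inv_pow, hζ, inv_one])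
    simpa using this
  refine ⟨⟨⟨(ζ : L), kr50_mem_of_pow_eq_one A hl h1⟩,
    ⟨((ζ⁻¹ : Lˣ) : L), kr50_mem_of_pow_eq_one A hl h2⟩, ?_, ?_⟩, ?_⟩
  · apply Subtype.ext
    simp
  · apply Subtype.ext
    simp
  · apply Units.ext
    rfl

theorem kr50_residue_eq_one (A : ValuationSubring L) {l : ℕ} (hl : l.Prime)
    (hA : (l : L) ∈ A.nonunits) (u : Aˣ) (hu : u ^ l = 1) :
    Units.map (IsLocalRing.residue A : A →* IsLocalRing.ResidueField A) u = 1 := by
  have hl0 : ((l : ℕ) : IsLocalRing.ResidueField A) = 0 := by
    have h1 : ((l : A) : L) ∈ A.nonunits := by simpa using hA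
    have h2 : (l : A) ∈ IsLocalRing.maximalIdeal A := ValuationSubring.coe_mem_nonunits_iff.mp h1
    have h3 := (IsLocalRing.residue_eq_zero_iff (l : A)).mpr h2
    simpa using h3
  have : CharP (IsLocalRing.ResidueField A) l := (CharP.charP_iff_prime_eq_zero hl).mpr hl0
  have : Fact l.Prime := ⟨hl⟩
  apply Units.ext
  rw [Units.coe_map, Units.val_one]
  set z : IsLocalRing.ResidueField A := (IsLocalRing.residue A : A →* _) (u : A) with hz
  have hzl : z ^ l = 1 := by
    rw [hz, ← map_pow]
    have : ((u : A)) ^ l = 1 := by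
      have := congrArg Units.val hu
      simpa using this
    rw [this, map_one]
  have h4 : (z - 1) ^ l = 0 := by
    rw [sub_pow_char, hzl, one_pow, sub_self]
  have h5 : z - 1 = 0 := by
    exact pow_eq_zero_iff (hl.ne_zero) |>.mp h4
  exact sub_eq_zero.mp h5

/-- **Kronecker congruence, abstract core.**  `A` a valuation ring of residue characteristic `l`,
`y` an `A`-integral Laurent series, `g` a Laurent series over the fraction field with
`g(q^l) = y(q^(l^2)) * ∏_{i<l} y(ζ^i q)` for some `ζ` with `ζ^l = 1`.  Then `g` is `A`-integral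
and its reduction satisfies `gbar(q^l) = ybar(q^(l^2)) * ybar^l`. -/
theorem kr50_core (A : ValuationSubring L) {l : ℕ} [NeZero l] (hl : l.Prime)
    (hA : (l : L) ∈ A.nonunits) (y : LaurentSeries A) (g : LaurentSeries L)
    (ζ : Lˣ) (hζ : ζ ^ l = 1)
    (hNC : qExpand L l g = qExpand L (l * l) (coeffMap A.subtype y) *
      ∏ i ∈ Finset.range l, kr50_qTwist (ζ ^ i) (coeffMap A.subtype y)) :
    ∃ y' : LaurentSeries A, coeffMap A.subtype y' = g ∧
      qExpand (IsLocalRing.ResidueField A) l (coeffMap (IsLocalRing.residue A) y') =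
        qExpand (IsLocalRing.ResidueField A) (l * l) (coeffMap (IsLocalRing.residue A) y) *
          (coeffMap (IsLocalRing.residue A) y) ^ l := by
  obtain ⟨u, hu⟩ := kr50_exists_unit A ζ hl.pos hζ
  have hul : u ^ l = 1 := by
    apply Units.map_injective (f := (A.subtype : A →* L)) (fun a b h => Subtype.ext h)
    rw [map_pow, hu, hζ, map_one]
  have hinj : Function.Injective (coeffMap A.subtype) :=
    kr50_coeffMap_injective _ (fun a b h => Subtype.ext h)
  -- the integral product
  set P : LaurentSeries A :=
    qExpand A (l * l) y * ∏ i ∈ Finset.range l, kr50_qTwist (u ^ i) y with hP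
  have hPL : coeffMap A.subtype P = qExpand L l g := by
    rw [hNC, hP, map_mul, map_prod, kr50_coeffMap_qExpand]
    congr 1
    refine Finset.prod_congr rfl fun i _ => ?_
    rw [kr50_coeffMap_qTwist, map_pow, hu]
  -- coefficients of `g` lie in `A`
  have hmem : ∀ n : ℤ, g.coeff n ∈ A := by
    intro n
    have h1 : (qExpand L l g).coeff ((l : ℤ) * n) = g.coeff n := qExpand_coeff_mul l g n
    rw [← h1, ← hPL, coeffMap_coeff]
    exact (P.coeff _).2
  let y' : LaurentSeries A :=
    { coeff := fun n => ⟨g.coeff n, hmem n⟩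
      isPWO_support' := g.isPWO_support.mono (by
        intro n hn
        simp only [Function.mem_support, ne_eq] at hn
        simp only [HahnSeries.mem_support, ne_eq]
        intro h
        exact hn (Subtype.ext h)) }
  have hy' : coeffMap A.subtype y' = g := by
    ext n
    rfl
  have hqy' : qExpand A l y' = P := by
    apply hinj
    rw [kr50_coeffMap_qExpand, hy', hPL]
  refine ⟨y', hy', ?_⟩
  rw [← kr50_coeffMap_qExpand, hqy', hP, map_mul, map_prod, kr50_coeffMap_qExpand]
  congr 1
  have hres : Units.map (IsLocalRing.residue A : A →* IsLocalRing.ResidueField A) u = 1 :=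
    kr50_residue_eq_one A hl hA u hul
  have hfac : ∀ i ∈ Finset.range l,
      coeffMap (IsLocalRing.residue A) (kr50_qTwist (u ^ i) y)
        = coeffMap (IsLocalRing.residue A) y := by
    intro i _
    rw [kr50_coeffMap_qTwist, map_pow, hres, one_pow, kr50_qTwist_one]
  rw [Finset.prod_congr rfl hfac, Finset.prod_const, Finset.card_range]

end Core

section Main

local notation "Qbar" => AlgebraicClosure ℚ

/-- **Row KR with the norm-conjugates identity (row NC) as an explicit hypothesis.** -/
theorem kr50_main_of (M l : ℕ) [NeZero M] [NeZero l] (hl : l.Prime)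
    (A : ValuationSubring Qbar) (hA : A.LiesOverPrime l) (y : LaurentSeries A)
    (hy : coeffMap A.subtype y ∈ modularFunctionFieldBar M)
    (hNC : letI := algebraAlong (heckeBetaBar Qbar M l);
      ∃ ζ : Qbarˣ, ζ ^ l = 1 ∧
        qExpand Qbar l ((Algebra.norm (modularFunctionFieldBar M)
            (heckeAlphaBar Qbar M l ⟨coeffMap A.subtype y, hy⟩) : modularFunctionFieldBar M) :
              LaurentSeries Qbar)
          = qExpand Qbar (l * l) (coeffMap A.subtype y) *
            ∏ i ∈ Finset.range l, kr50_qTwist (ζ ^ i) (coeffMap A.subtype y)) :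
    letI := algebraAlong (heckeBetaBar Qbar M l);
    ∃ y' : LaurentSeries A,
      coeffMap A.subtype y' = ((Algebra.norm (modularFunctionFieldBar M)
          (heckeAlphaBar Qbar M l ⟨coeffMap A.subtype y, hy⟩) : modularFunctionFieldBar M) :
            LaurentSeries Qbar) ∧
      qExpand (IsLocalRing.ResidueField A) l (coeffMap (IsLocalRing.residue A) y') =
        qExpand (IsLocalRing.ResidueField A) (l * l) (coeffMap (IsLocalRing.residue A) y) *
          (coeffMap (IsLocalRing.residue A) y) ^ l := by
  letI := algebraAlong (heckeBetaBar Qbar M l)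
  obtain ⟨ζ, hζ, h⟩ := hNC
  exact kr50_core A hl hA y _ ζ hζ h

end Main

end Fermat.Agent.S37
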