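import Fermat.Prelude.Def_AlgebraicCurve_Correspondence

/-!
# S37, row LU (helper1): passing to a higher level

Generic facts about the pull-back `π^* : Pic⁰(F) → Pic⁰(F')` along a finite extension `F ⊆ F'` of
function fields over `K` (Prelude `Pic0.pullbackHom`):

* `lu1_pushforward_pullback` : `π_* π^* D = [F' : F] • D` on divisors;
* `lu1_pushforwardHom_pullbackHom`, `lu1_torsion_kernel` : `π^* x = 0 → [F' : F] • x = 0`;
* `lu1_restrict_smul`, `lu1_ramificationIndex_smul`, `lu1_pullback_smul`,
  `lu1_pullbackHom_smul` : `π^*` commutes with semilinear automorphisms that are intertwined by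
  the inclusion;
* `lu1_primary` : a subgroup that contains no element of prime order `r ∣ p` contains no nonzero
  `p`-power torsion element.
-/

set_option autoImplicit false

namespace Fermat.Agent.S37

open AlgebraicCurve

section PushPull

variable {K F F' : Type*} [Field K] [Field F] [Field F']
  [Algebra K F] [Algebra K F'] [Algebra F F'] [IsScalarTower K F F']
  [Algebra.IsIntegral F F'] [HasPrincipalDivisors K F']

/-- `π_* π^* = [F' : F]` on divisors. -/
theorem lu1_pushforward_pullback [SumRamificationInertia K F F'] (D : Divisor K F) :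
    Divisor.pushforward F (Divisor.pullback F' D) = (Module.finrank F F') • D := by
  induction D using Finsupp.induction with
  | zero => simp
  | single_add v n D _ _ ih =>
    rw [map_add, map_add, ih, smul_add]
    congr 1
    rw [Divisor.pullback_single, map_sum]
    have h1 : ∀ w ∈ v.fiber F',
        Divisor.pushforward F (Finsupp.single w (n * (w.ramificationIndex F : ℤ)))
          = Finsupp.single v (n * ((w.ramificationIndex F : ℤ) * (w.inertiaDeg F : ℤ))) := by
      intro w hw
      rw [Divisor.pushforward_single, Place.mem_fiber.mp hw, mul_assoc]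
    rw [Finset.sum_congr rfl h1, ← Finsupp.single_finsetSum, ← Finset.mul_sum,
      SumRamificationInertia.sum_ramificationIndex_mul_inertiaDeg (K := K) (F := F) (F' := F') v,
      ← Finsupp.smul_single_one v, ← Finsupp.smul_single_one v n, ← Nat.cast_smul_eq_nsmul ℤ,
      smul_smul, mul_comm]

/-- `π_* π^* = [F' : F]` on `Pic⁰`. -/
theorem lu1_pushforwardHom_pullbackHom [SumRamificationInertia K F F'] [Module.Finite F F']
    (H : Divisor.PushforwardNormFormula K F F') (x : Pic0 K F) :
    Pic0.pushforwardHom K F F' H (Pic0.pullbackHom F' x) = (Module.finrank F F') • x := by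
  obtain ⟨D, rfl⟩ := Pic0.mk_surjective x
  rw [Pic0.pullbackHom_mk, Pic0.pushforwardHom_mk]
  have h : Pic0.pushforwardDegZeroHom F (Pic0.pullbackDegZeroHom F' D)
      = (Module.finrank F F') • D := by
    apply Subtype.ext
    rw [Pic0.coe_pushforwardDegZeroHom, Pic0.coe_pullbackDegZeroHom, lu1_pushforward_pullback,
      AddSubgroupClass.coe_nsmul]
  rw [h]
  rfl

/-- The kernel of `π^*` on `Pic⁰` is killed by the degree. -/
theorem lu1_torsion_kernel [SumRamificationInertia K F F'] [Module.Finite F F']
    (H : Divisor.PushforwardNormFormula K F F') (x : Pic0 K F)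
    (hx : Pic0.pullbackHom F' x = 0) : (Module.finrank F F') • x = 0 := by
  rw [← lu1_pushforwardHom_pullbackHom H x, hx, map_zero]

end PushPull

section Equivariant

variable {K F F' : Type*} [Field K] [Field F] [Field F']
  [Algebra K F] [Algebra K F'] [Algebra F F'] [IsScalarTower K F F']
  [Algebra.IsIntegral F F']

/-- Restriction of places commutes with intertwined semilinear automorphisms. -/
theorem lu1_restrict_smul {g : SemilinearAut K F} {g' : SemilinearAut K F'}
    (h : SemilinearAut.IntertwinesAlong (algebraMap F F') g g') (w : Place K F') :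
    (g' • w).restrict F = g • (w.restrict F) := by
  have hinv := h.inv
  apply Place.ext
  ext x
  rw [Place.restrict_toValuationSubring, SemilinearAut.smul_toValuationSubring,
    SemilinearAut.smul_toValuationSubring, Place.restrict_toValuationSubring,
    ValuationSubring.mem_comap, ValuationSubring.mem_pointwise_smul_iff_inv_smul_mem,
    ValuationSubring.mem_pointwise_smul_iff_inv_smul_mem, ValuationSubring.mem_comap, hinv x]

omit [IsScalarTower K F F'] [Algebra.IsIntegral F F'] in
/-- The order at `g' • w` of an element of `F`. -/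
theorem lu1_ord_smul_algebraMap {g : SemilinearAut K F} {g' : SemilinearAut K F'}
    (h : SemilinearAut.IntertwinesAlong (algebraMap F F') g g') (w : Place K F') (f : F) :
    (g' • w).ord (algebraMap F F' (g • f)) = w.ord (algebraMap F F' f) := by
  rw [← h f, SemilinearAut.ord_smul]

omit [IsScalarTower K F F'] [Algebra.IsIntegral F F'] in
/-- The ramification index is invariant under intertwined semilinear automorphisms. -/
theorem lu1_ramificationIndex_smul {g : SemilinearAut K F} {g' : SemilinearAut K F'}
    (h : SemilinearAut.IntertwinesAlong (algebraMap F F') g g') (w : Place K F') :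
    (g' • w).ramificationIndex F = w.ramificationIndex F := by
  unfold Place.ramificationIndex
  congr 1
  ext n
  constructor
  · rintro ⟨hn, f, hf, hord⟩
    refine ⟨hn, g⁻¹ • f, ?_, ?_⟩
    · simpa using hf
    · rw [← lu1_ord_smul_algebraMap h w (g⁻¹ • f), smul_inv_smul]
      exact hord
  · rintro ⟨hn, f, hf, hord⟩
    refine ⟨hn, g • f, ?_, ?_⟩
    · simpa using hf
    · rw [lu1_ord_smul_algebraMap h w f]
      exact hord

variable [HasPrincipalDivisors K F']

/-- Pull-back of divisors commutes with intertwined semilinear automorphisms. -/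
theorem lu1_pullback_smul {g : SemilinearAut K F} {g' : SemilinearAut K F'}
    (h : SemilinearAut.IntertwinesAlong (algebraMap F F') g g') (D : Divisor K F) :
    Divisor.pullback F' (g • D) = g' • Divisor.pullback F' D := by
  ext w
  rw [Divisor.pullback_apply, SemilinearAut.divisor_smul_apply, SemilinearAut.divisor_smul_apply,
    Divisor.pullback_apply, lu1_restrict_smul h.inv, lu1_ramificationIndex_smul h.inv]

variable [FundamentalIdentity K F F']

/-- Pull-back on `Pic⁰` commutes with intertwined semilinear automorphisms. -/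
theorem lu1_pullbackHom_smul {g : SemilinearAut K F} {g' : SemilinearAut K F'}
    (h : SemilinearAut.IntertwinesAlong (algebraMap F F') g g') (x : Pic0 K F) :
    Pic0.pullbackHom F' (g • x) = g' • Pic0.pullbackHom F' x := by
  obtain ⟨D, rfl⟩ := Pic0.mk_surjective x
  rw [SemilinearAut.pic0_smul_mk, Pic0.pullbackHom_mk, Pic0.pullbackHom_mk,
    SemilinearAut.pic0_smul_mk]
  congr 1
  apply Subtype.ext
  rw [Pic0.coe_pullbackDegZeroHom, SemilinearAut.coe_degZeroSMulHom,
    SemilinearAut.coe_degZeroSMulHom, Pic0.coe_pullbackDegZeroHom, lu1_pullback_smul h]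

end Equivariant

section Primary

/-- A subgroup without elements of prime order `r ∣ p` has no nonzero `p`-power torsion. -/
theorem lu1_primary {J : Type*} [AddCommGroup J] (Ks : AddSubgroup J) {p : ℕ} (hp : p ≠ 0)
    (h : ∀ r : ℕ, r.Prime → r ∣ p → ∀ y ∈ Ks, r • y = 0 → y = 0)
    {x : J} (hx : x ∈ Ks) (htors : ∃ n : ℕ, p ^ n • x = 0) : x = 0 := by
  obtain ⟨n, hn⟩ := htors
  by_contra hx0
  have hdvd : addOrderOf x ∣ p ^ n := addOrderOf_dvd_of_nsmul_eq_zero hn
  have hpos : 0 < addOrderOf x :=
    Nat.pos_of_dvd_of_pos hdvd (pow_pos (Nat.pos_of_ne_zero hp) n)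
  have hne1 : addOrderOf x ≠ 1 := fun h1 => hx0 (AddMonoid.addOrderOf_eq_one_iff.mp h1)
  obtain ⟨r, hr, hrd⟩ := Nat.exists_prime_and_dvd hne1
  have hrp : r ∣ p := hr.dvd_of_dvd_pow (hrd.trans hdvd)
  obtain ⟨m, hm⟩ := hrd
  have hy : r • (m • x) = 0 := by
    rw [smul_smul, ← hm]
    exact addOrderOf_nsmul_eq_zero x
  have h0 : m • x = 0 := h r hr hrp (m • x) (Ks.nsmul_mem hx m) hy
  have hdvd2 : addOrderOf x ∣ m := addOrderOf_dvd_of_nsmul_eq_zero h0
  have hmpos : 0 < m := by
    rcases Nat.eq_zero_or_pos m with h | h
    · rw [h, mul_zero] at hm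
      omega
    · exact h
  have hle : addOrderOf x ≤ m := Nat.le_of_dvd hmpos hdvd2
  have : r * m ≤ m := by rw [← hm]; exact hle
  have hr2 := hr.two_le
  nlinarith

end Primary

end Fermat.Agent.S37
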