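import Fermat.Agent.S37.LevelUpConc1
import Fermat.Agent.S37.HeckeExports63
import Fermat.Agent.S37.ClassCalc87

/-!
# S37, row LU (helper1): tools for the mixed-level rows (Route V)

`h : N ∣ N'`, `F(N) = modularFunctionFieldBar N`, `ι = tv1_iota h`, `π^* = tv1_pull h`.

* `tv1_iota_unique`, `tv1_pull_eq_pullbackAlong` : every algebra map `F(N) → F(N')` that is the
  identity on `q`-expansions is `tv1_iota h`, and its divisor pull-back is `tv1_pull h`
  (bridge to `mx49_iota` of `MixedES49`);
* `tv1_pull_div` : `π^* (div f) = div (ι f)`;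
* `tv1_exists_restrict` : every place of `F(N)` is the restriction of a place of `F(N')`;
* `tv1_ord_norm` : `ord_P (Norm f') = ∑_{P' ∣ P} ord_{P'} f'`;
* `tv1_tube_down` : NORM-DOWN of a tube function from level `N'` to level `N`;
* `tv1_clsX_restrict` : a place of `F(N')` has the `j`-class of its restriction to `F(N)`.
-/

set_option autoImplicit false
set_option linter.style.haveILetI false

namespace Fermat.Agent.S37

open ModularCurve AlgebraicCurve

local notation "Qb" => AlgebraicClosure ℚ

section Tools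

variable {N N' : ℕ} [NeZero N] [NeZero N'] (h : N ∣ N')

omit [NeZero N] [NeZero N'] in
/-- An algebra map `F(N) → F(N')` which is the identity on `q`-expansions is the inclusion. -/
theorem tv1_iota_unique
    (ι : ↥(modularFunctionFieldBar N) →ₐ[Qb] ↥(modularFunctionFieldBar N'))
    (hcoe : ∀ f : ↥(modularFunctionFieldBar N),
      ((ι f : ↥(modularFunctionFieldBar N')) : LaurentSeries Qb) = (f : LaurentSeries Qb)) :
    ι = tv1_iota h := by
  apply AlgHom.ext
  intro f
  apply Subtype.ext
  rw [hcoe, tv1_coe_iota]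

/-- The pull-back along any such map is `tv1_pull`. -/
theorem tv1_pull_eq_pullbackAlong [HasPrincipalDivisors Qb ↥(modularFunctionFieldBar N')]
    (ι : ↥(modularFunctionFieldBar N) →ₐ[Qb] ↥(modularFunctionFieldBar N'))
    (hι : ι.toRingHom.IsIntegral)
    (hcoe : ∀ f : ↥(modularFunctionFieldBar N),
      ((ι f : ↥(modularFunctionFieldBar N')) : LaurentSeries Qb) = (f : LaurentSeries Qb)) :
    Divisor.pullbackAlong ι hι = tv1_pull h := by
  obtain rfl := tv1_iota_unique h ι hcoe
  rfl

/-- `π^* (div f) = div (ι f)`. -/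
theorem tv1_pull_div (f : ↥(modularFunctionFieldBar N))
    (D : Divisor Qb ↥(modularFunctionFieldBar N)) (hD : ∀ P, D P = P.ord f)
    (P' : Place Qb ↥(modularFunctionFieldBar N')) :
    tv1_pull h D P' = P'.ord (tv1_iota h f) := by
  rw [tv1_pull_apply, hD, Place.ord_restrictAlong (tv1_iota h) (tv1_iota_integral h) P' f]

/-- Every place of `F(N)` is the restriction of a place of `F(N')`. -/
theorem tv1_exists_restrict (P : Place Qb ↥(modularFunctionFieldBar N)) :
    ∃ P' : Place Qb ↥(modularFunctionFieldBar N'),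
      P'.restrictAlong (tv1_iota h) (tv1_iota_integral h) = P := by
  haveI := hi63_hasPrincipalDivisors_bar N'
  have h1 := hx63_sum_ramificationIndexAlong_gen (tv1_iota_integral h) P
  have hpos : 0 < finrankAlong Qb (tv1_iota h) := by
    rw [tv1_finrank h, ← Fermat.Agent.S18.nd38_relfinrank_eq h]
    exact Fermat.Agent.S18.nd38_relfinrank_pos h
  by_contra hne
  push Not at hne
  have hempty : Place.fiberAlong (tv1_iota h) (tv1_iota_integral h) P = ∅ :=
    Finset.eq_empty_of_forall_notMem fun w hw => hne w (Place.mem_fiberAlong.mp hw)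
  rw [hempty, Finset.sum_empty] at h1
  have h2 : (finrankAlong Qb (tv1_iota h) : ℤ) = 0 := h1.symm
  have h3 : finrankAlong Qb (tv1_iota h) = 0 := by exact_mod_cast h2
  omega

/-- The order of a norm from `F(N')` at a place of `F(N)`. -/
theorem tv1_ord_norm (P : Place Qb ↥(modularFunctionFieldBar N))
    (f' : ↥(modularFunctionFieldBar N')) (hf' : f' ≠ 0) :
    haveI := hi63_hasPrincipalDivisors_bar N'
    P.ord (letI := algebraAlong (tv1_iota h); Algebra.norm ↥(modularFunctionFieldBar N) f')
      = ∑ w ∈ Place.fiberAlong (tv1_iota h) (tv1_iota_integral h) P, w.ord f' := by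
  haveI := hi63_hasPrincipalDivisors_bar N'
  exact (hx63_sum_ord_fiberAlong_gen (tv1_iota_integral h) P f' hf').symm

/-- **Norm-down of a tube function.** Let `P'` be a place of `F(N')` over the place `P` of
`F(N)`, `cls P ∈ G`, and `f' ∈ F(N')` with `ord_{P'} f' = 1` and `ord_{P''} f' = 0` at every other
place `P''` of `F(N')` whose restriction to `F(N)` has class in `G`. Then `f := Norm f' ∈ F(N)`
has `ord_P f = 1` and `ord_{P₂} f = 0` at every other place `P₂` of `F(N)` with class in `G`. -/
theorem tv1_tube_down {C : Type*} (cls : Place Qb ↥(modularFunctionFieldBar N) → C) (G : Set C)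
    (P : Place Qb ↥(modularFunctionFieldBar N)) (hP : cls P ∈ G)
    (P' : Place Qb ↥(modularFunctionFieldBar N'))
    (hP' : P'.restrictAlong (tv1_iota h) (tv1_iota_integral h) = P)
    (f' : ↥(modularFunctionFieldBar N')) (hf' : f' ≠ 0) (h1 : P'.ord f' = 1)
    (h0 : ∀ P'' : Place Qb ↥(modularFunctionFieldBar N'), P'' ≠ P' →
      cls (P''.restrictAlong (tv1_iota h) (tv1_iota_integral h)) ∈ G → P''.ord f' = 0) :
    ∃ f : ↥(modularFunctionFieldBar N), f ≠ 0 ∧ P.ord f = 1 ∧
      ∀ P₂ : Place Qb ↥(modularFunctionFieldBar N), P₂ ≠ P → cls P₂ ∈ G → P₂.ord f = 0 := by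
  classical
  haveI := hi63_hasPrincipalDivisors_bar N'
  letI := algebraAlong (tv1_iota h)
  haveI : Module.Finite ↥(modularFunctionFieldBar N) ↥(modularFunctionFieldBar N') :=
    tv1_iota_finite h
  haveI : Module.Free ↥(modularFunctionFieldBar N) ↥(modularFunctionFieldBar N') :=
    Module.Free.of_divisionRing _ _
  refine ⟨Algebra.norm ↥(modularFunctionFieldBar N) f', ?_, ?_, ?_⟩
  · exact Algebra.norm_ne_zero_iff.mpr hf'
  · have h2 := tv1_ord_norm h P f' hf'
    refine h2.trans ?_
    have hmem : P' ∈ Place.fiberAlong (tv1_iota h) (tv1_iota_integral h) P :=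
      Place.mem_fiberAlong.mpr hP'
    rw [Finset.sum_eq_single_of_mem P' hmem, h1]
    intro w hw hne
    refine h0 w hne ?_
    rw [Place.mem_fiberAlong.mp hw]
    exact hP
  · intro P₂ hne hG
    have h2 := tv1_ord_norm h P₂ f' hf'
    refine h2.trans ?_
    refine Finset.sum_eq_zero fun w hw => ?_
    have hw' := Place.mem_fiberAlong.mp hw
    refine h0 w ?_ ?_
    · rintro rfl
      exact hne (hw'.symm.trans hP')
    · rw [hw']
      exact hG

end Tools

section Classes

variable {N N' : ℕ} [NeZero N] [NeZero N'] (h : N ∣ N')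
variable {A : ValuationSubring Qb} {k : Type*} [Field k]

omit [NeZero N] [NeZero N'] in
theorem tv1_iota_j_sub (c : Qb) :
    tv1_iota h (es87_j Qb N - algebraMap Qb ↥(modularFunctionFieldBar N) c)
      = es87_j Qb N' - algebraMap Qb ↥(modularFunctionFieldBar N') c := by
  rw [map_sub, AlgHom.commutes]
  congr 1

/-- A place of `F(N')` has the `j`-class of its restriction to `F(N)`. -/
theorem tv1_clsX_restrict (π : A →+* k) (P' : Place Qb ↥(modularFunctionFieldBar N')) :
    cc87_clsX N π (P'.restrictAlong (tv1_iota h) (tv1_iota_integral h)) = cc87_clsX N' π P' := by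
  classical
  have key : ∀ c : Qb,
      0 < (P'.restrictAlong (tv1_iota h) (tv1_iota_integral h)).ord
        (es87_j Qb N - algebraMap Qb ↥(modularFunctionFieldBar N) c)
      ↔ 0 < P'.ord (es87_j Qb N' - algebraMap Qb ↥(modularFunctionFieldBar N') c) := by
    intro c
    rw [es87_ord_restrictAlong_pos_iff, tv1_iota_j_sub]
  by_cases hex : ∃ c : A, 0 < P'.ord (es87_j Qb N' - algebraMap Qb _ (c : Qb))
  · obtain ⟨c, hc⟩ := hex
    rw [cc87_clsX_eq_some π c hc, cc87_clsX_eq_some π c ((key c).mpr hc)]
  · have hex' : ¬ ∃ c : A, 0 < (P'.restrictAlong (tv1_iota h) (tv1_iota_integral h)).ord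
        (es87_j Qb N - algebraMap Qb _ (c : Qb)) := by
      rintro ⟨c, hc⟩
      exact hex ⟨c, (key c).mp hc⟩
    rw [cc87_clsX, dif_neg hex', cc87_clsX, dif_neg hex]

end Classes

end Fermat.Agent.S37
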