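import Mathlib
import Fermat.Prelude.Def_AlgebraicCurve_DivisorPushPull
import Fermat.Agent.S24.Places
import Fermat.Agent.S24.PlacesBasicCore

/-!
# S37, row H (generic part, local route; helper22)

`K` any field, `F'/F` a finite separable extension of fields over `K`.  For a place `v` of `F/K`
put `A := O_v` (a DVR) and `B :=` integral closure of `A` in `F'` (a semilocal Dedekind domain,
finite over `A`).  The places of `F'` above `v` are exactly the places attached to the height one
primes of `B`.
-/

set_option autoImplicit false
set_option linter.unusedSectionVars false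
set_option linter.style.haveILetI false

open AlgebraicCurve IsDedekindDomain IsDedekindDomain.HeightOneSpectrum WithZero

namespace Fermat.Agent.S37

section LocalDict

variable {K F F' : Type*} [Field K] [Field F] [Field F'] [Algebra K F] [Algebra K F']
  [Algebra F F'] [IsScalarTower K F F']

/-- The valuation ring of a place acts on the top field through `F`. -/
@[reducible] noncomputable def ld22_algebraTop (F' : Type*) [Field F'] [Algebra F F']
    (v : Place K F) : Algebra v.toValuationSubring F' :=
  ((algebraMap F F').comp (algebraMap v.toValuationSubring F)).toAlgebra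

theorem ld22_isScalarTower_top (F' : Type*) [Field F'] [Algebra F F'] (v : Place K F) :
    letI := ld22_algebraTop F' v
    IsScalarTower v.toValuationSubring F F' :=
  letI := ld22_algebraTop F' v
  IsScalarTower.of_algebraMap_eq fun _ => rfl

variable (v : Place K F) [Algebra v.toValuationSubring F'] [IsScalarTower v.toValuationSubring F F']

instance ld22_faithfulSMul : FaithfulSMul v.toValuationSubring F' := by
  rw [faithfulSMul_iff_algebraMap_injective,
    IsScalarTower.algebraMap_eq v.toValuationSubring F F']
  exact (algebraMap F F').injective.comp (FaithfulSMul.algebraMap_injective _ _)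

/-- The semilocal Dedekind domain above a place. -/
abbrev ld22_B (F' : Type*) [Field F'] [Algebra F F'] (v : Place K F)
    [Algebra v.toValuationSubring F'] :
    Subalgebra v.toValuationSubring F' :=
  integralClosure v.toValuationSubring F'

variable [FiniteDimensional F F'] [Algebra.IsSeparable F F']

instance ld22_isDedekindDomain : IsDedekindDomain (ld22_B F' v) :=
  IsIntegralClosure.isDedekindDomain v.toValuationSubring F F' (ld22_B F' v)

instance ld22_isFractionRing : IsFractionRing (ld22_B F' v) F' :=
  IsIntegralClosure.isFractionRing_of_finite_extension v.toValuationSubring F F' (ld22_B F' v)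

instance ld22_finite : Module.Finite v.toValuationSubring (ld22_B F' v) :=
  IsIntegralClosure.finite v.toValuationSubring F F' (ld22_B F' v)

/-- `K` acts on `B` through `A`. -/
@[reducible] noncomputable def ld22_algebraKB : Algebra K (ld22_B F' v) :=
  ((algebraMap v.toValuationSubring (ld22_B F' v)).comp (algebraMap K v.toValuationSubring)).toAlgebra

attribute [local instance] ld22_algebraKB

instance ld22_isScalarTower_KB : IsScalarTower K (ld22_B F' v) F' :=
  IsScalarTower.of_algebraMap_eq fun a => by
    show algebraMap K F' a = algebraMap v.toValuationSubring F' (algebraMap K v.toValuationSubring a)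
    rw [IsScalarTower.algebraMap_apply v.toValuationSubring F F', IsScalarTower.algebraMap_apply K F F']
    rfl

/-- The place of `F'` attached to a height one prime of `B`. -/
noncomputable def ld22_place (P : HeightOneSpectrum (ld22_B F' v)) : Place K F' :=
  Place.ofHeightOneSpectrum (K := K) (F := F') P

theorem ld22_place_toValuationSubring (P : HeightOneSpectrum (ld22_B F' v)) :
    (ld22_place v P).toValuationSubring = (P.valuation F').valuationSubring := rfl

theorem ld22_ord_place (P : HeightOneSpectrum (ld22_B F' v)) (f : F') :
    (ld22_place v P).ord f = -(WithZero.log (P.valuation F' f)) :=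
  Fermat.Agent.S24.wp1a_ord_ofHeightOneSpectrum (K := K) P f

theorem ld22_place_injective :
    Function.Injective (ld22_place (K := K) (F' := F') v) :=
  Fermat.Agent.S24.wp1a_ofHeightOneSpectrum_injective (K := K)

/-- Every place above `v` contains `B`. -/
theorem ld22_mem_of_restrict (w : Place K F') (hw : w.restrict F = v) (b : ld22_B F' v) :
    algebraMap (ld22_B F' v) F' b ∈ w.toValuationSubring := by
  have hb : IsIntegral v.toValuationSubring (b : F') := b.2
  obtain ⟨p, hmonic, hp⟩ := hb
  have hA : ∀ a : v.toValuationSubring, algebraMap F F' (a : F) ∈ w.toValuationSubring := by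
    intro a
    have ha : (a : F) ∈ (w.restrict F).toValuationSubring := hw ▸ a.2
    exact ha
  let φ : v.toValuationSubring →+* w.toValuationSubring :=
    ((algebraMap F F').comp (algebraMap v.toValuationSubring F)).codRestrict
      w.toValuationSubring.toSubring hA
  have hφ : (algebraMap w.toValuationSubring F').comp φ = algebraMap v.toValuationSubring F' := by
    ext a
    show algebraMap F F' (a : F) = _
    rw [IsScalarTower.algebraMap_apply v.toValuationSubring F F']
    rfl
  have hint : IsIntegral w.toValuationSubring (b : F') := by
    refine ⟨p.map φ, hmonic.map _, ?_⟩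
    rw [Polynomial.eval₂_map, hφ]
    exact hp
  obtain ⟨y, hy⟩ := IsIntegrallyClosed.isIntegral_iff.mp hint
  show (b : F') ∈ w.toValuationSubring
  rw [← hy]
  exact y.2

/-- Every place above `v` comes from a height one prime of `B`. -/
theorem ld22_exists_prime (w : Place K F') (hw : w.restrict F = v) :
    ∃ P : HeightOneSpectrum (ld22_B F' v), ld22_place v P = w :=
  Fermat.Agent.S24.wp1a_exists_heightOneSpectrum w (ld22_mem_of_restrict v w hw)

/-- The place attached to a height one prime of `B` lies above `v`. -/
theorem ld22_restrict_place (P : HeightOneSpectrum (ld22_B F' v)) :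
    (ld22_place v P).restrict F = v := by
  apply Place.ext
  refine (ValuationSubring.eq_of_le_of_ne_top _ ?_ ((ld22_place v P).restrict F).ne_top').symm
  intro x hx
  show algebraMap F F' x ∈ (P.valuation F').valuationSubring
  rw [Valuation.mem_valuationSubring_iff]
  have h1 : algebraMap F F' x
      = algebraMap (ld22_B F' v) F' (algebraMap v.toValuationSubring (ld22_B F' v) ⟨x, hx⟩) := by
    rw [← IsScalarTower.algebraMap_apply v.toValuationSubring (ld22_B F' v) F',
      IsScalarTower.algebraMap_apply v.toValuationSubring F F']
    rfl
  rw [h1]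
  exact P.valuation_le_one _

/-- The fibre over `v` is the set of places attached to the height one primes of `B`. -/
theorem ld22_restrict_eq_iff (w : Place K F') :
    w.restrict F = v ↔ ∃ P : HeightOneSpectrum (ld22_B F' v), ld22_place v P = w :=
  ⟨ld22_exists_prime v w, by rintro ⟨P, rfl⟩; exact ld22_restrict_place v P⟩

/-- Height one primes of `B` lie over the maximal ideal of `A`. -/
instance ld22_liesOver (P : HeightOneSpectrum (ld22_B F' v)) :
    P.asIdeal.LiesOver (IsLocalRing.maximalIdeal v.toValuationSubring) := by
  haveI : P.asIdeal.IsMaximal := P.isMaximal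
  haveI : Algebra.IsIntegral v.toValuationSubring (ld22_B F' v) :=
    IsIntegralClosure.isIntegral_algebra v.toValuationSubring F'
  have hmax : (P.asIdeal.comap (algebraMap v.toValuationSubring (ld22_B F' v))).IsMaximal :=
    Ideal.isMaximal_comap_of_isIntegral_of_isMaximal P.asIdeal
  exact ⟨(IsLocalRing.eq_maximalIdeal hmax).symm⟩

/-- Membership in the maximal ideal of the valuation ring of a place, via `ord`. -/
theorem ld22_mem_maximalIdeal_iff {F₀ : Type*} [Field F₀] [Algebra K F₀] (w : Place K F₀)
    (x : w.toValuationSubring) (hx : (x : F₀) ≠ 0) :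
    x ∈ IsLocalRing.maximalIdeal w.toValuationSubring ↔ 0 < w.ord (x : F₀) := by
  rw [Fermat.Agent.S24.wp1b_ord_pos_iff w hx, IsLocalRing.mem_maximalIdeal, mem_nonunits_iff,
    ← w.adicValuation_coe_eq_one_iff]
  have hle : w.adicValuation (x : F₀) ≤ 1 := by
    rw [w.adicValuation_coe]
    exact IsDedekindDomain.HeightOneSpectrum.intValuation_le_one _ _
  exact ⟨fun h => lt_of_le_of_ne hle h, fun h => ne_of_lt h⟩

/-- The inertia degree of the Prelude is the residue degree of the corresponding prime of `B`
(auxiliary form, with the base place a free variable). -/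
theorem ld22_inertiaDeg_aux (w : Place K F') (hw : w.restrict F = v)
    (P : HeightOneSpectrum (ld22_B F' v)) (hP : ld22_place v P = w) :
    w.inertiaDeg F = Module.finrank
      (v.toValuationSubring ⧸ IsLocalRing.maximalIdeal v.toValuationSubring)
      (ld22_B F' v ⧸ P.asIdeal) := by
  subst hw
  -- the inclusion `B → O_w`
  have hmem : ∀ b : ld22_B F' (w.restrict F), (b : F') ∈ w.toValuationSubring :=
    fun b => ld22_mem_of_restrict (w.restrict F) w rfl b
  let ι : ld22_B F' (w.restrict F) →+* w.toValuationSubring :=
    (algebraMap (ld22_B F' (w.restrict F)) F').codRestrict w.toValuationSubring.toSubring hmem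
  have hι : ∀ b, ((ι b : w.toValuationSubring) : F') = (b : F') := fun b => rfl
  let ψ : ld22_B F' (w.restrict F) →+* w.ResidueField :=
    (IsLocalRing.residue w.toValuationSubring).comp ι
  have hord : ∀ f : F', w.ord f = (ld22_place (w.restrict F) P).ord f := fun f =>
    (congrArg (fun w' : Place K F' => w'.ord f) hP).symm
  -- kernel
  have hker : ∀ b : ld22_B F' (w.restrict F), ψ b = 0 ↔ b ∈ P.asIdeal := by
    intro b
    rcases eq_or_ne b 0 with rfl | hb
    · simp
    have hb' : ((ι b : w.toValuationSubring) : F') ≠ 0 := by
      rw [hι]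
      exact fun h => hb (Subtype.ext h)
    show IsLocalRing.residue w.toValuationSubring (ι b) = 0 ↔ _
    rw [IsLocalRing.residue_eq_zero_iff, ld22_mem_maximalIdeal_iff w (ι b) hb', hι, hord]
    exact Fermat.Agent.S24.wp1a_ord_pos_iff (K := K) (F := F') P hb
  -- surjectivity
  have hsurj : Function.Surjective ψ := by
    intro y
    obtain ⟨x, rfl⟩ := IsLocalRing.residue_surjective y
    have hx' : (x : F') ∈ valuationSubringAtPrime F' P := by
      rw [valuationSubringAtPrime_eq_valuationSubring]
      have h := congrArg Place.toValuationSubring hP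
      rw [ld22_place_toValuationSubring] at h
      rw [h]
      exact x.2
    obtain ⟨a, s, hs, hxas⟩ := hx'
    haveI : P.asIdeal.IsMaximal := P.isMaximal
    obtain ⟨t, ht⟩ := Ideal.Quotient.exists_inv (I := P.asIdeal) (a := Ideal.Quotient.mk _ s)
      (by rwa [ne_eq, Ideal.Quotient.eq_zero_iff_mem])
    obtain ⟨t, rfl⟩ := Ideal.Quotient.mk_surjective t
    have hst : ψ s * ψ t = 1 := by
      have h1 : s * t - 1 ∈ P.asIdeal := by
        rw [← Ideal.Quotient.eq_zero_iff_mem, map_sub, map_mul, ht, map_one, sub_self]
      have h2 := (hker _).mpr h1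
      rw [map_sub, map_mul, map_one, sub_eq_zero] at h2
      exact h2
    have hs0 : (algebraMap (ld22_B F' (w.restrict F)) F') s ≠ 0 := by
      intro h0
      have : s = 0 := (IsFractionRing.injective (ld22_B F' (w.restrict F)) F') (by rw [h0, map_zero])
      exact hs (this ▸ P.asIdeal.zero_mem)
    have hxs : x * ι s = ι a := by
      apply Subtype.ext
      show (x : F') * (algebraMap (ld22_B F' (w.restrict F)) F') s
        = (algebraMap (ld22_B F' (w.restrict F)) F') a
      rw [hxas, mul_assoc, inv_mul_cancel₀ hs0, mul_one]
    refine ⟨a * t, ?_⟩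
    have h3 : IsLocalRing.residue w.toValuationSubring x * ψ s = ψ a := by
      show IsLocalRing.residue w.toValuationSubring x * IsLocalRing.residue w.toValuationSubring (ι s)
        = IsLocalRing.residue w.toValuationSubring (ι a)
      rw [← map_mul, hxs]
    rw [map_mul, ← h3, mul_assoc, hst, mul_one]
  -- the residue field isomorphism
  let j₀ : (ld22_B F' (w.restrict F) ⧸ P.asIdeal) →+* w.ResidueField :=
    Ideal.Quotient.lift P.asIdeal ψ (fun b hb => (hker b).mpr hb)
  have hj₀ : Function.Bijective j₀ := by
    constructor
    · rw [injective_iff_map_eq_zero]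
      intro y hy
      obtain ⟨b, rfl⟩ := Ideal.Quotient.mk_surjective y
      rw [Ideal.Quotient.eq_zero_iff_mem]
      exact (hker b).mp hy
    · intro y
      obtain ⟨b, hb⟩ := hsurj y
      exact ⟨Ideal.Quotient.mk _ b, hb⟩
  let j : (ld22_B F' (w.restrict F) ⧸ P.asIdeal) ≃+* w.ResidueField := RingEquiv.ofBijective j₀ hj₀
  refine (Algebra.finrank_eq_of_equiv_equiv
    (R₀ := (w.restrict F).toValuationSubring ⧸
      IsLocalRing.maximalIdeal (w.restrict F).toValuationSubring)
    (R₁ := (w.restrict F).ResidueField) (RingEquiv.refl _) j ?_).symm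
  apply Ideal.Quotient.ringHom_ext
  ext a
  show algebraMap (w.restrict F).ResidueField w.ResidueField
      (IsLocalRing.residue (w.restrict F).toValuationSubring a)
    = j₀ (algebraMap ((w.restrict F).toValuationSubring ⧸
        IsLocalRing.maximalIdeal (w.restrict F).toValuationSubring)
        (ld22_B F' (w.restrict F) ⧸ P.asIdeal) (Ideal.Quotient.mk _ a))
  rw [Place.algebraMap_residueField_eq, Place.restrictResidueMap_residue]
  have h4 : algebraMap ((w.restrict F).toValuationSubring ⧸
        IsLocalRing.maximalIdeal (w.restrict F).toValuationSubring)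
        (ld22_B F' (w.restrict F) ⧸ P.asIdeal) (Ideal.Quotient.mk _ a)
      = Ideal.Quotient.mk _ (algebraMap (w.restrict F).toValuationSubring
          (ld22_B F' (w.restrict F)) a) := rfl
  rw [h4]
  show _ = IsLocalRing.residue w.toValuationSubring
    (ι (algebraMap (w.restrict F).toValuationSubring (ld22_B F' (w.restrict F)) a))
  congr 1
  apply Subtype.ext
  rw [Place.coe_restrictInclusion, hι]
  show _ = algebraMap (w.restrict F).toValuationSubring F' a
  rw [IsScalarTower.algebraMap_apply (w.restrict F).toValuationSubring F F']
  rfl

/-- The inertia degree of the Prelude is the residue degree of the corresponding prime. -/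
theorem ld22_inertiaDeg_place (P : HeightOneSpectrum (ld22_B F' v)) :
    (ld22_place v P).inertiaDeg F = Module.finrank
      (v.toValuationSubring ⧸ IsLocalRing.maximalIdeal v.toValuationSubring)
      (ld22_B F' v ⧸ P.asIdeal) :=
  ld22_inertiaDeg_aux v _ (ld22_restrict_place v P) P rfl

/-- `ord` of an element of `F` at the place of `P`, via the `P`-adic valuation on `B`. -/
theorem ld22_ord_place_algebraMap (P : HeightOneSpectrum (ld22_B F' v)) (b : ld22_B F' v)
    (hb : b ≠ 0) : P.intValuation b = exp (-(ld22_place v P).ord (b : F')) := by
  have h1 := ld22_ord_place v P (b : F')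
  have h2 : P.valuation F' (b : F') = P.intValuation b := P.valuation_of_algebraMap b
  rw [h2] at h1
  have hne : P.intValuation b ≠ 0 := P.intValuation_ne_zero b hb
  rw [h1, neg_neg, WithZero.exp_log hne]

/-- The ramification index of the Prelude is the ramification index of the corresponding prime. -/
theorem ld22_ramificationIdx_place (P : HeightOneSpectrum (ld22_B F' v)) :
    Ideal.ramificationIdx' (IsLocalRing.maximalIdeal v.toValuationSubring) P.asIdeal
      = (ld22_place v P).ramificationIndex F := by
  obtain ⟨π, hπ⟩ := IsDiscreteValuationRing.exists_irreducible v.toValuationSubring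
  set w := ld22_place v P with hw
  set πB : ld22_B F' v := algebraMap v.toValuationSubring (ld22_B F' v) π with hπB
  have hcoe : (πB : F') = algebraMap F F' (π : F) := by
    show algebraMap v.toValuationSubring F' π = _
    rw [IsScalarTower.algebraMap_apply v.toValuationSubring F F']
    rfl
  have hπB0 : πB ≠ 0 := by
    intro h0
    have h1 : algebraMap F F' (π : F) = 0 := by rw [← hcoe, h0]; rfl
    rw [map_eq_zero] at h1
    exact hπ.ne_zero (Subtype.ext h1)
  have hord : w.ord (πB : F') = (w.ramificationIndex F : ℤ) := by
    rw [hcoe, w.ord_restrict (F := F), hw, ld22_restrict_place, v.ord_coe_irreducible hπ, mul_one]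
  have hval : P.intValuation πB = exp (-(w.ramificationIndex F : ℤ)) := by
    rw [ld22_ord_place_algebraMap v P πB hπB0, ← hw, hord]
  have hmap : Ideal.map (algebraMap v.toValuationSubring (ld22_B F' v))
      (IsLocalRing.maximalIdeal v.toValuationSubring) = Ideal.span {πB} := by
    rw [hπ.maximalIdeal_eq, Ideal.map_span, Set.image_singleton]
  apply Ideal.ramificationIdx'_spec
  · rw [hmap]
    exact Ideal.le_of_dvd ((P.intValuation_le_pow_iff_dvd πB _).mp hval.le)
  · rw [hmap]
    intro hle
    have h1 := (P.intValuation_le_pow_iff_dvd πB _).mpr (Ideal.dvd_iff_le.mpr hle)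
    rw [hval, WithZero.exp_le_exp] at h1
    push_cast at h1
    omega

/-- `B` is semilocal. -/
theorem ld22_finite_heightOneSpectrum : Finite (HeightOneSpectrum (ld22_B F' v)) := by
  obtain ⟨π, hπ⟩ := IsDiscreteValuationRing.exists_irreducible v.toValuationSubring
  set πB : ld22_B F' v := algebraMap v.toValuationSubring (ld22_B F' v) π with hπB
  have hcoe : (πB : F') = algebraMap F F' (π : F) := by
    show algebraMap v.toValuationSubring F' π = _
    rw [IsScalarTower.algebraMap_apply v.toValuationSubring F F']
    rfl
  have hπB0 : πB ≠ 0 := by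
    intro h0
    have h1 : algebraMap F F' (π : F) = 0 := by rw [← hcoe, h0]; rfl
    rw [map_eq_zero] at h1
    exact hπ.ne_zero (Subtype.ext h1)
  have hfin := Ideal.finite_factors (I := Ideal.span {πB})
    (by rwa [ne_eq, Ideal.zero_eq_bot, Ideal.span_singleton_eq_bot])
  rw [← Set.finite_univ_iff]
  refine hfin.subset fun P _ => ?_
  show P.asIdeal ∣ Ideal.span {πB}
  rw [Ideal.dvd_span_singleton]
  have hmem : π ∈ IsLocalRing.maximalIdeal v.toValuationSubring := by
    rw [IsLocalRing.mem_maximalIdeal]
    exact hπ.not_isUnit
  have hover := (ld22_liesOver v P).over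
  rw [hover] at hmem
  exact hmem

set_option linter.deprecated false in
/-- The fundamental identity over the semilocal ring `B`, in the Prelude's terms. -/
theorem ld22_sum_place [Fintype (HeightOneSpectrum (ld22_B F' v))] :
    ∑ P : HeightOneSpectrum (ld22_B F' v),
      (ld22_place v P).ramificationIndex F * (ld22_place v P).inertiaDeg F
      = Module.finrank F F' := by
  classical
  have hp0 : IsLocalRing.maximalIdeal v.toValuationSubring ≠ ⊥ :=
    IsDiscreteValuationRing.not_a_field v.toValuationSubring
  have hsum := Ideal.sum_ramification_inertia (ld22_B F' v) F F'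
    (p := IsLocalRing.maximalIdeal v.toValuationSubring) hp0
  rw [← hsum]
  refine Finset.sum_bij (fun P _ => P.asIdeal) ?_ ?_ ?_ ?_
  · intro P _
    rw [IsDedekindDomain.mem_primesOverFinset_iff hp0]
    exact ⟨P.isPrime, ld22_liesOver v P⟩
  · intro P _ Q _ h
    exact HeightOneSpectrum.ext h
  · intro Q hQ
    rw [IsDedekindDomain.mem_primesOverFinset_iff hp0] at hQ
    have hQ0 : Q ≠ ⊥ := by
      rintro rfl
      have h1 := hQ.2.over
      rw [Ideal.under_bot] at h1
      exact hp0 h1
    exact ⟨⟨Q, hQ.1, hQ0⟩, Finset.mem_univ _, rfl⟩
  · intro P _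
    rw [ld22_ramificationIdx_place, Ideal.inertiaDeg'_algebraMap, ld22_inertiaDeg_place]

/-- Sums over the fibre of `v` are sums over the height one primes of `B`. -/
theorem ld22_sum_fiber [HasPrincipalDivisors K F'] [Fintype (HeightOneSpectrum (ld22_B F' v))]
    {M : Type*} [AddCommMonoid M] (g : Place K F' → M) :
    ∑ w ∈ v.fiber F', g w = ∑ P : HeightOneSpectrum (ld22_B F' v), g (ld22_place v P) := by
  symm
  refine Finset.sum_bij (fun P _ => ld22_place v P) ?_ ?_ ?_ ?_
  · intro P _
    exact Place.mem_fiber.mpr (ld22_restrict_place v P)
  · intro P _ Q _ h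
    exact ld22_place_injective v h
  · intro w hw
    obtain ⟨P, hP⟩ := ld22_exists_prime v w (Place.mem_fiber.mp hw)
    exact ⟨P, Finset.mem_univ _, hP⟩
  · intro P _
    rfl

end LocalDict

section Global

variable {K F F' : Type*} [Field K] [Field F] [Field F'] [Algebra K F] [Algebra K F']
  [Algebra F F'] [IsScalarTower K F F'] [FiniteDimensional F F'] [Algebra.IsSeparable F F']

/-- **Fundamental identity** `∑_{w ∣ v} e(w|v) f(w|v) = [F' : F]` for a finite separable
extension of fields over an arbitrary field `K`, in the Prelude's form. -/
theorem ld22_sumRamificationInertia [HasPrincipalDivisors K F'] :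
    SumRamificationInertia K F F' := by
  constructor
  intro v
  letI := ld22_algebraTop F' v
  haveI := ld22_isScalarTower_top F' v
  haveI := ld22_finite_heightOneSpectrum (F' := F') v
  letI := Fintype.ofFinite (HeightOneSpectrum (ld22_B F' v))
  rw [ld22_sum_fiber v]
  exact_mod_cast ld22_sum_place (F' := F') v

/-- The fundamental identity in the `deg` form used by the Prelude's pull-back of divisors. -/
theorem ld22_fundamentalIdentity [HasPrincipalDivisors K F'] : FundamentalIdentity K F F' :=
  haveI := ld22_sumRamificationInertia (K := K) (F := F) (F' := F')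
  inferInstance

end Global

end Fermat.Agent.S37
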