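import Fermat.Agent.S37.DegZero66
import Fermat.Prelude.Def_AlgebraicCurve_Correspondence

/-!
# S37 (helper66): the mass bound and the abstract degree-zero Eichler–Shimura principle

* `mb66_mass` : the sum of the coefficients of a finitely supported integer function, with
  `mb66_mass_mapDomain`, `mb66_apply_le_mass`, `mb66_mapDomain_nonneg`, `mb66_mapDomain_apply_le`.
* `mb66_pullbackAlong_nonneg`, `mb66_pushforwardAlong_nonneg`, `mb66_correspondence_nonneg` :
  pull-back, push-forward and correspondences preserve effective divisors.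
* `mb66_es_degZero` : **abstract degree-zero Eichler–Shimura**.  If `T` (a correspondence) and
  `R` (a reduction map on divisors) send places to effective divisors of bounded degree/mass and
  `R (T D) = a_* (R D) + ℓ • b_* (R D)` holds for all principal divisors `D`, then it holds for
  all divisors of degree `0` (given weak Riemann and `deg = 1`).
-/

set_option autoImplicit false

open AlgebraicCurve

namespace Fermat.Agent.S37

section Mass

variable {X Y : Type*}

/-- The sum of the coefficients. -/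
noncomputable def mb66_mass : (X →₀ ℤ) →+ ℤ := Finsupp.liftAddHom (fun _ => AddMonoidHom.id ℤ)

theorem mb66_mass_apply (E : X →₀ ℤ) : mb66_mass E = E.sum (fun _ n => n) := rfl

@[simp]
theorem mb66_mass_single (x : X) (n : ℤ) : mb66_mass (Finsupp.single x n) = n := by
  simp [mb66_mass]

theorem mb66_mass_mapDomain (f : X → Y) (E : X →₀ ℤ) :
    mb66_mass (Finsupp.mapDomain f E) = mb66_mass E := by
  induction E using Finsupp.induction_linear with
  | zero => simp
  | add D E hD hE => rw [Finsupp.mapDomain_add, map_add, map_add, hD, hE]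
  | single x n => rw [Finsupp.mapDomain_single, mb66_mass_single, mb66_mass_single]

theorem mb66_mass_nonneg {E : X →₀ ℤ} (hE : 0 ≤ E) : 0 ≤ mb66_mass E := by
  rw [mb66_mass_apply, Finsupp.sum]
  exact Finset.sum_nonneg fun i _ => hE i

theorem mb66_apply_le_mass {E : X →₀ ℤ} (hE : 0 ≤ E) (x : X) : E x ≤ mb66_mass E := by
  classical
  rw [mb66_mass_apply, Finsupp.sum]
  by_cases hx : x ∈ E.support
  · exact Finset.single_le_sum (f := fun i => E i) (fun i _ => hE i) hx
  · rw [Finsupp.notMem_support_iff.mp hx]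
    exact Finset.sum_nonneg fun i _ => hE i

theorem mb66_single_nonneg (x : X) {n : ℤ} (hn : 0 ≤ n) : (0 : X →₀ ℤ) ≤ Finsupp.single x n := by
  classical
  intro y
  rw [Finsupp.single_apply]
  split_ifs
  · exact hn
  · exact le_rfl

theorem mb66_mapDomain_nonneg (f : X → Y) {E : X →₀ ℤ} (hE : 0 ≤ E) :
    0 ≤ Finsupp.mapDomain f E := by
  classical
  intro Q
  rw [Finsupp.mapDomain, Finsupp.sum, Finsupp.finsetSum_apply]
  refine Finset.sum_nonneg fun x _ => ?_
  exact mb66_single_nonneg (f x) (hE x) Q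

theorem mb66_mapDomain_apply_le (f : X → Y) {E : X →₀ ℤ} (hE : 0 ≤ E) (Q : Y) :
    Finsupp.mapDomain f E Q ≤ mb66_mass E := by
  rw [← mb66_mass_mapDomain f E]
  exact mb66_apply_le_mass (mb66_mapDomain_nonneg f hE) Q

end Mass

section Divisors

variable {K F : Type*} [Field K] [Field F] [Algebra K F]

theorem mb66_mass_eq_degree (hdeg : ∀ v : Place K F, v.deg = 1) (D : Divisor K F) :
    mb66_mass D = Divisor.degree D :=
  (dz66_degree_eq_sum hdeg D).symm

/-- An additive integer function which is `≥ 0` on places is `≥ 0` on effective divisors. -/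
theorem mb66_nonneg_of_single (lam : Divisor K F →+ ℤ)
    (h : ∀ P, 0 ≤ lam (Finsupp.single P 1)) {E : Divisor K F} (hE : 0 ≤ E) : 0 ≤ lam E := by
  rw [dz66_lam_eq_sum lam E, Finsupp.sum]
  exact Finset.sum_nonneg fun v _ => mul_nonneg (hE v) (h v)

/-- An additive integer function which is `≤ c` on places is `≤ c * deg` on effective
divisors. -/
theorem mb66_le_of_single (hdeg : ∀ v : Place K F, v.deg = 1) (lam : Divisor K F →+ ℤ) (c : ℤ)
    (h : ∀ P, lam (Finsupp.single P 1) ≤ c) {E : Divisor K F} (hE : 0 ≤ E) :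
    lam E ≤ c * Divisor.degree E := by
  rw [dz66_lam_eq_sum lam E, dz66_degree_eq_sum hdeg E, Finsupp.sum, Finsupp.sum,
    Finset.mul_sum]
  refine Finset.sum_le_sum fun v _ => ?_
  have hv : 0 ≤ E v := hE v
  rw [mul_comm]
  exact mul_le_mul_of_nonneg_right (h v) hv

variable {Y : Type*}

/-- An additive map which sends places to effective elements sends effective divisors to
effective elements. -/
theorem mb66_map_nonneg (R : Divisor K F →+ (Y →₀ ℤ))
    (hR0 : ∀ P, 0 ≤ R (Finsupp.single P 1)) {E : Divisor K F} (hE : 0 ≤ E) : 0 ≤ R E := by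
  intro Q
  exact mb66_nonneg_of_single ((Finsupp.applyAddHom Q).comp R) (fun P => hR0 P Q) hE

/-- Mass bound for the image of an effective divisor. -/
theorem mb66_mass_map_le (hdeg : ∀ v : Place K F, v.deg = 1) (R : Divisor K F →+ (Y →₀ ℤ))
    (c : ℤ) (hR1 : ∀ P, mb66_mass (R (Finsupp.single P 1)) ≤ c) {E : Divisor K F}
    (hE : 0 ≤ E) : mb66_mass (R E) ≤ c * Divisor.degree E :=
  mb66_le_of_single hdeg (mb66_mass.comp R) c hR1 hE

end Divisors

section Effective

variable {K F F' : Type*} [Field K] [Field F] [Field F'] [Algebra K F] [Algebra K F']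

theorem mb66_pullbackAlong_nonneg [HasPrincipalDivisors K F'] (φ : F →ₐ[K] F')
    (hφ : φ.toRingHom.IsIntegral) {D : Divisor K F} (hD : 0 ≤ D) :
    0 ≤ Divisor.pullbackAlong φ hφ D := by
  intro w
  rw [Divisor.pullbackAlong_apply]
  exact mul_nonneg (Int.natCast_nonneg _) (hD _)

theorem mb66_pushforwardAlong_nonneg (φ : F →ₐ[K] F') (hφ : φ.toRingHom.IsIntegral)
    {D : Divisor K F'} (hD : 0 ≤ D) : 0 ≤ Divisor.pushforwardAlong φ hφ D := by
  classical
  have hsum : D = ∑ w ∈ D.support, Finsupp.single w (D w) := (Finsupp.sum_single D).symm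
  rw [hsum, map_sum]
  refine Finset.sum_nonneg fun w _ => ?_
  rw [Divisor.pushforwardAlong_single]
  exact mb66_single_nonneg _ (mul_nonneg (hD w) (Int.natCast_nonneg _))

theorem mb66_correspondence_nonneg [HasPrincipalDivisors K F'] (φ ψ : F →ₐ[K] F')
    (hφ : φ.toRingHom.IsIntegral) (hψ : ψ.toRingHom.IsIntegral) {D : Divisor K F}
    (hD : 0 ≤ D) : 0 ≤ Divisor.correspondence φ ψ hφ hψ D := by
  rw [Divisor.correspondence_apply]
  exact mb66_pushforwardAlong_nonneg ψ hψ (mb66_pullbackAlong_nonneg φ hφ hD)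

end Effective

section Abstract

variable {K F : Type*} [Field K] [Field F] [Algebra K F] {Y : Type*}

/-- **Abstract degree-zero Eichler–Shimura.**  `T` a correspondence on divisors, `R` a reduction
map; both send places to effective elements of bounded degree resp. mass.  If the relation
`R (T D) = a_* (R D) + ℓ • b_* (R D)` holds on principal divisors, it holds on all divisors of
degree `0`. -/
theorem mb66_es_degZero (hWR : dz66_WR K F) (hdeg : ∀ v : Place K F, v.deg = 1)
    (T : Divisor K F →+ Divisor K F) (R : Divisor K F →+ (Y →₀ ℤ)) (a b : Y → Y) (ℓ : ℕ)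
    (c₁ c₂ : ℤ)
    (hT0 : ∀ P, 0 ≤ T (Finsupp.single P 1))
    (hT1 : ∀ P, Divisor.degree (T (Finsupp.single P 1)) ≤ c₁)
    (hR0 : ∀ P, 0 ≤ R (Finsupp.single P 1))
    (hR1 : ∀ P, mb66_mass (R (Finsupp.single P 1)) ≤ c₂)
    (hprinc : ∀ D ∈ Divisor.principal (K := K) (F := F),
      R (T D) = Finsupp.mapDomain a (R D) + ℓ • Finsupp.mapDomain b (R D))
    (D : Divisor K F) (hD : Divisor.degree D = 0) :
    R (T D) = Finsupp.mapDomain a (R D) + ℓ • Finsupp.mapDomain b (R D) := by
  set θ₁ : Divisor K F →+ (Y →₀ ℤ) := R.comp T with hθ₁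
  set θ₂ : Divisor K F →+ (Y →₀ ℤ) :=
    (Finsupp.mapDomain.addMonoidHom a).comp R + ℓ • (Finsupp.mapDomain.addMonoidHom b).comp R
    with hθ₂
  have key : θ₁ D = θ₂ D := by
    refine dz66_eq_on_degZero hWR hdeg θ₁ θ₂ (fun Q => ?_) (fun E hE => ?_) D hD
    · refine ⟨c₂ * c₁ + (1 + ℓ) * c₂, fun P => ?_⟩
      have hc₂ : 0 ≤ c₂ := (mb66_mass_nonneg (hR0 P)).trans (hR1 P)
      have hRT0 : 0 ≤ R (T (Finsupp.single P 1)) := mb66_map_nonneg R hR0 (hT0 P)
      have hRTm : mb66_mass (R (T (Finsupp.single P 1))) ≤ c₂ * c₁ :=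
        (mb66_mass_map_le hdeg R c₂ hR1 (hT0 P)).trans
          (mul_le_mul_of_nonneg_left (hT1 P) hc₂)
      have h1 : 0 ≤ θ₁ (Finsupp.single P 1) Q := hRT0 Q
      have h1' : θ₁ (Finsupp.single P 1) Q ≤ c₂ * c₁ :=
        (mb66_apply_le_mass hRT0 Q).trans hRTm
      have ha0 : 0 ≤ Finsupp.mapDomain a (R (Finsupp.single P 1)) Q :=
        mb66_mapDomain_nonneg a (hR0 P) Q
      have ha1 : Finsupp.mapDomain a (R (Finsupp.single P 1)) Q ≤ c₂ :=
        (mb66_mapDomain_apply_le a (hR0 P) Q).trans (hR1 P)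
      have hb0 : 0 ≤ Finsupp.mapDomain b (R (Finsupp.single P 1)) Q :=
        mb66_mapDomain_nonneg b (hR0 P) Q
      have hb1 : Finsupp.mapDomain b (R (Finsupp.single P 1)) Q ≤ c₂ :=
        (mb66_mapDomain_apply_le b (hR0 P) Q).trans (hR1 P)
      have h2 : θ₂ (Finsupp.single P 1) Q =
          Finsupp.mapDomain a (R (Finsupp.single P 1)) Q +
            (ℓ : ℤ) * Finsupp.mapDomain b (R (Finsupp.single P 1)) Q := by
        simp [hθ₂]
      rw [h2, abs_le]
      have hℓ : (0 : ℤ) ≤ ℓ := Int.natCast_nonneg ℓ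
      have hℓb : (ℓ : ℤ) * Finsupp.mapDomain b (R (Finsupp.single P 1)) Q ≤ (ℓ : ℤ) * c₂ :=
        mul_le_mul_of_nonneg_left hb1 hℓ
      have hℓb0 : 0 ≤ (ℓ : ℤ) * Finsupp.mapDomain b (R (Finsupp.single P 1)) Q :=
        mul_nonneg hℓ hb0
      have hc₁ : 0 ≤ c₂ * c₁ := h1.trans h1'
      constructor
      · nlinarith
      · nlinarith
    · have := hprinc E hE
      simp only [hθ₁, hθ₂, AddMonoidHom.comp_apply, AddMonoidHom.add_apply,
        AddMonoidHom.smul_apply, Finsupp.mapDomain.addMonoidHom_apply]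
      exact this
  simp only [hθ₁, hθ₂, AddMonoidHom.comp_apply, AddMonoidHom.add_apply,
    AddMonoidHom.smul_apply, Finsupp.mapDomain.addMonoidHom_apply] at key
  exact key

end Abstract

end Fermat.Agent.S37
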