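import Mathlib
import Fermat.Agent.S37.PlacesSep14
import Fermat.Agent.S37.NormDescent62
import Fermat.Agent.S37.Chart44

/-!
# S37, row NM-d-inst, generic side (helper44): norm descent for function fields

* `nd44_descent_abs`: abstract form (Dedekind domains `C ⊆ C'` with fraction fields `κ ⊆ κ'`,
  `C'` of finite type over an algebraically closed field): a finite `B → C` whose image contains
  the constants and all norms from `C'` is surjective.  (On top of `nm62_surjective_of_norm`:
  `Algebra.intNorm` is the field norm, residue fields are `k`.)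
* `nd44_descent`: concrete form for `κ ⊆ κ'` function fields over `k`, `x : κ` transcendental,
  both fields finite separable over `k(x)`: a subring `B ⊆ κ` of elements integral over `k[x]`
  containing `k`, `x` and the norms of all elements of `κ'` integral over `k[x]` is the whole
  integral closure of `k[x]` in `κ`.
-/

set_option autoImplicit false
set_option linter.style.haveILetI false
set_option linter.unusedVariables false

open IntermediateField

namespace Fermat.Agent.S37

/-- **Norm descent, abstract function-field form.**  `C ⊆ C'` Dedekind domains with fraction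
fields `κ ⊆ κ'`, `C'` of finite type over an algebraically closed field `k`; `B → C` a finite ring
map whose image contains the constants and the norms of all elements of `C'`.  Then `B → C` is
surjective. -/
theorem nd44_descent_abs {k B C C' κ κ' : Type*} [Field k] [IsAlgClosed k]
    [CommRing C] [IsDedekindDomain C] [CommRing C'] [IsDedekindDomain C']
    [Algebra C C'] [Module.Finite C C'] [FaithfulSMul C C']
    [Field κ] [Field κ'] [Algebra C κ] [IsFractionRing C κ] [Algebra C' κ'] [IsFractionRing C' κ']
    [Algebra κ κ'] [Algebra C κ'] [IsScalarTower C κ κ'] [IsScalarTower C C' κ']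
    [FiniteDimensional κ κ']
    [Algebra k C'] [Algebra.FiniteType k C']
    [CommRing B] [Algebra B C] [Module.Finite B C]
    (hBk : ∀ a : k, ∃ b : B, algebraMap C C' (algebraMap B C b) = algebraMap k C' a)
    (hnorm : ∀ y : C', ∃ b : B,
      algebraMap C κ (algebraMap B C b) = Algebra.norm κ (algebraMap C' κ' y)) :
    Function.Surjective (algebraMap B C) := by
  have hint : Algebra.IsIntegral C C' := Algebra.IsIntegral.of_finite C C'
  have hic : IsIntegralClosure C' C κ' := IsIntegralClosure.of_isIntegrallyClosed C' C κ'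
  apply nm62_surjective_of_norm (C' := C')
  · intro y
    obtain ⟨b, hb⟩ := hnorm y
    refine ⟨b, ?_⟩
    apply IsFractionRing.injective C κ
    rw [hb, Algebra.algebraMap_intNorm (L := κ')]
  · intro P' hP' c'
    let _ := Ideal.Quotient.field P'
    have h1 : Algebra.FiniteType k (C' ⧸ P') :=
      Algebra.FiniteType.of_surjective (Ideal.Quotient.mkₐ k P')
        (Ideal.Quotient.mkₐ_surjective k P')
    have h2 : Module.Finite k (C' ⧸ P') := finite_of_finite_type_of_isJacobsonRing k (C' ⧸ P')
    have h3 : Algebra.IsIntegral k (C' ⧸ P') := Algebra.IsIntegral.of_finite k _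
    obtain ⟨a, ha⟩ := (IsAlgClosed.algebraMap_bijective_of_isIntegral (k := k)
      (K := C' ⧸ P')).2 (Ideal.Quotient.mk P' c')
    obtain ⟨b, hb⟩ := hBk a
    refine ⟨b, ?_⟩
    rw [hb, ← Ideal.Quotient.eq, ← ha]
    rfl

section nd44

variable {k κ κ' : Type*} [Field k] [Field κ] [Field κ'] [Algebra k κ]
  [Algebra k κ'] [Algebra κ κ'] [IsScalarTower k κ κ']

/-- The image of `k[x]` in `κ'` lies in `k[x']`. -/
theorem nd44_map_mem (x : κ) (r : κ) (hr : r ∈ Algebra.adjoin k {x}) :
    algebraMap κ κ' r ∈ Algebra.adjoin k {algebraMap κ κ' x} := by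
  induction hr using Algebra.adjoin_induction with
  | mem y hy =>
    rw [Set.mem_singleton_iff] at hy
    rw [hy]
    exact Algebra.self_mem_adjoin_singleton k _
  | algebraMap c =>
    rw [← IsScalarTower.algebraMap_apply k κ κ']
    exact Subalgebra.algebraMap_mem _ c
  | add a b _ _ ha hb => rw [map_add]; exact add_mem ha hb
  | mul a b _ _ ha hb => rw [map_mul]; exact mul_mem ha hb

/-- Every element of `k[x']` is the image of an element of `k[x]`. -/
theorem nd44_exists_preimage (x : κ) (r' : κ')
    (hr' : r' ∈ Algebra.adjoin k {algebraMap κ κ' x}) :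
    ∃ r ∈ Algebra.adjoin k {x}, algebraMap κ κ' r = r' := by
  induction hr' using Algebra.adjoin_induction with
  | mem y hy =>
    rw [Set.mem_singleton_iff] at hy
    exact ⟨x, Algebra.self_mem_adjoin_singleton k x, hy.symm⟩
  | algebraMap c =>
    exact ⟨algebraMap k κ c, Subalgebra.algebraMap_mem _ c,
      (IsScalarTower.algebraMap_apply k κ κ' c).symm⟩
  | add a b _ _ ha hb =>
    obtain ⟨ra, hra, rfl⟩ := ha
    obtain ⟨rb, hrb, rfl⟩ := hb
    exact ⟨ra + rb, add_mem hra hrb, map_add _ _ _⟩
  | mul a b _ _ ha hb =>
    obtain ⟨ra, hra, rfl⟩ := ha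
    obtain ⟨rb, hrb, rfl⟩ := hb
    exact ⟨ra * rb, mul_mem hra hrb, map_mul _ _ _⟩

/-- Elements integral over `k[x]` map to elements integral over `k[x']`. -/
theorem nd44_isIntegral_map (x : κ) (c : κ) (hc : IsIntegral (Algebra.adjoin k {x}) c) :
    IsIntegral (Algebra.adjoin k {algebraMap κ κ' x}) (algebraMap κ κ' c) := by
  have h1 := RingHom.IsIntegralElem.map hc (algebraMap κ κ')
  exact ch44_isIntegralElem_of_range_le _ _
    (fun r => ⟨⟨algebraMap κ κ' r, nd44_map_mem x r r.2⟩, rfl⟩) h1

/-- The inclusion of the integral closures. -/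
noncomputable def nd44_iota (x : κ) :
    integralClosure (Algebra.adjoin k {x}) κ →+*
      integralClosure (Algebra.adjoin k {algebraMap κ κ' x}) κ' where
  toFun c := ⟨algebraMap κ κ' c, nd44_isIntegral_map x c c.2⟩
  map_one' := Subtype.ext (map_one _)
  map_mul' a b := Subtype.ext (map_mul _ _ _)
  map_zero' := Subtype.ext (map_zero _)
  map_add' a b := Subtype.ext (map_add _ _ _)

theorem nd44_iota_coe (x : κ) (c : integralClosure (Algebra.adjoin k {x}) κ) :
    ((nd44_iota (k := k) (κ' := κ') x c : integralClosure (Algebra.adjoin k {algebraMap κ κ' x}) κ') : κ') =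
      algebraMap κ κ' (c : κ) := rfl

theorem nd44_iota_injective (x : κ) : Function.Injective (nd44_iota (k := k) (κ' := κ') x) := by
  intro a b hab
  apply Subtype.ext
  exact (algebraMap κ κ').injective (congrArg Subtype.val hab)

variable [IsAlgClosed k] [FiniteDimensional κ κ']

omit [FiniteDimensional κ κ'] in
theorem nd44_finite (x : κ) (hx : Transcendental k x)
    [FiniteDimensional k⟮algebraMap κ κ' x⟯ κ'] [Algebra.IsSeparable k⟮algebraMap κ κ' x⟯ κ'] :
    letI : Algebra (integralClosure (Algebra.adjoin k {x}) κ)
      (integralClosure (Algebra.adjoin k {algebraMap κ κ' x}) κ') := (nd44_iota (k := k) (κ' := κ') x).toAlgebra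
    Module.Finite (integralClosure (Algebra.adjoin k {x}) κ)
      (integralClosure (Algebra.adjoin k {algebraMap κ κ' x}) κ') := by
  letI : Algebra (integralClosure (Algebra.adjoin k {x}) κ)
      (integralClosure (Algebra.adjoin k {algebraMap κ κ' x}) κ') := (nd44_iota (k := k) (κ' := κ') x).toAlgebra
  have hx' : Transcendental k (algebraMap κ κ' x) :=
    (transcendental_algebraMap_iff (algebraMap κ κ').injective).mpr hx
  obtain ⟨S, hS⟩ := Module.finite_def.mp (ps14_finite_integralClosure (algebraMap κ κ' x) hx')
  refine ⟨⟨S, ?_⟩⟩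
  rw [eq_top_iff]
  intro c' hc0
  clear hc0
  have hc' : c' ∈ Submodule.span (Algebra.adjoin k {algebraMap κ κ' x})
      (S : Set (integralClosure (Algebra.adjoin k {algebraMap κ κ' x}) κ')) := by
    rw [hS]; trivial
  induction hc' using Submodule.span_induction with
  | mem y hy => exact Submodule.subset_span hy
  | zero => exact zero_mem _
  | add a b _ _ ha hb => exact add_mem ha hb
  | smul r' y _ hy =>
    obtain ⟨r, hr, h⟩ := nd44_exists_preimage x (r' : κ') r'.2
    have hsm : r' • y = (algebraMap (Algebra.adjoin k {x})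
        (integralClosure (Algebra.adjoin k {x}) κ) ⟨r, hr⟩) • y := by
      apply Subtype.ext
      rw [Algebra.smul_def, Algebra.smul_def]
      show (r' : κ') * (y : κ') = algebraMap κ κ' r * (y : κ')
      rw [h]
    rw [hsm]
    exact Submodule.smul_mem _ _ hy

set_option synthInstance.maxHeartbeats 400000 in
set_option maxHeartbeats 1000000 in
/-- **Norm descent for function fields (NM (d), generic side).**  `k` algebraically closed,
`κ ⊆ κ'` function fields over `k`, finite separable over `k(x)`; `B ⊆ κ` a subring containing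
`k` and `x`, consisting of elements integral over `k[x]`, and containing the norms of all
elements of `κ'` integral over `k[x]`.  Then `B` is the whole integral closure of `k[x]` in `κ`. -/
theorem nd44_descent (x : κ) (hx : Transcendental k x)
    [FiniteDimensional k⟮x⟯ κ] [Algebra.IsSeparable k⟮x⟯ κ]
    [FiniteDimensional k⟮algebraMap κ κ' x⟯ κ'] [Algebra.IsSeparable k⟮algebraMap κ κ' x⟯ κ']
    (B : Subring κ) (hBk : ∀ c : k, algebraMap k κ c ∈ B) (hBx : x ∈ B)
    (hBint : ∀ b ∈ B, IsIntegral (Algebra.adjoin k {x}) b)
    (hnorm : ∀ y : κ', IsIntegral (Algebra.adjoin k {algebraMap κ κ' x}) y →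
      Algebra.norm κ y ∈ B) :
    ∀ z : κ, IsIntegral (Algebra.adjoin k {x}) z → z ∈ B := by
  classical
  have hx' : Transcendental k (algebraMap κ κ' x) :=
    (transcendental_algebraMap_iff (algebraMap κ κ').injective).mpr hx
  haveI : IsDedekindDomain (integralClosure (Algebra.adjoin k {x}) κ) :=
    ps14_isDedekindDomain x hx
  haveI : IsDedekindDomain (integralClosure (Algebra.adjoin k {algebraMap κ κ' x}) κ') :=
    ps14_isDedekindDomain _ hx'
  haveI : IsFractionRing (integralClosure (Algebra.adjoin k {x}) κ) κ :=
    ps14_isFractionRing (K := k) x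
  haveI : IsFractionRing (integralClosure (Algebra.adjoin k {algebraMap κ κ' x}) κ') κ' :=
    ps14_isFractionRing (K := k) _
  haveI : Module.Finite (Algebra.adjoin k {x}) (integralClosure (Algebra.adjoin k {x}) κ) :=
    ps14_finite_integralClosure x hx
  haveI : Module.Finite (Algebra.adjoin k {algebraMap κ κ' x})
      (integralClosure (Algebra.adjoin k {algebraMap κ κ' x}) κ') :=
    ps14_finite_integralClosure _ hx'
  letI : Algebra (integralClosure (Algebra.adjoin k {x}) κ)
      (integralClosure (Algebra.adjoin k {algebraMap κ κ' x}) κ') :=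
    (nd44_iota (k := k) (κ' := κ') x).toAlgebra
  haveI : Module.Finite (integralClosure (Algebra.adjoin k {x}) κ)
      (integralClosure (Algebra.adjoin k {algebraMap κ κ' x}) κ') := nd44_finite x hx
  haveI : FaithfulSMul (integralClosure (Algebra.adjoin k {x}) κ)
      (integralClosure (Algebra.adjoin k {algebraMap κ κ' x}) κ') :=
    (faithfulSMul_iff_algebraMap_injective _ _).mpr (nd44_iota_injective (k := k) (κ' := κ') x)
  haveI : IsScalarTower (integralClosure (Algebra.adjoin k {x}) κ)
      (integralClosure (Algebra.adjoin k {algebraMap κ κ' x}) κ') κ' :=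
    IsScalarTower.of_algebraMap_eq (fun c => rfl)
  haveI : Algebra.FiniteType k (integralClosure (Algebra.adjoin k {algebraMap κ κ' x}) κ') := by
    have h1 : Algebra.FiniteType k (Algebra.adjoin k {algebraMap κ κ' x}) :=
      Algebra.FiniteType.equiv (inferInstance : Algebra.FiniteType k (Polynomial k))
        (ps14_polyEquiv _ hx')
    have h2 : Algebra.FiniteType (Algebra.adjoin k {algebraMap κ κ' x})
        (integralClosure (Algebra.adjoin k {algebraMap κ κ' x}) κ') := inferInstance
    exact Algebra.FiniteType.trans h1 h2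
  -- `k[x] ⊆ B`
  have hRB : ∀ r ∈ Algebra.adjoin k {x}, r ∈ B := by
    intro r hr
    induction hr using Algebra.adjoin_induction with
    | mem y hy =>
      rw [Set.mem_singleton_iff] at hy
      rw [hy]
      exact hBx
    | algebraMap c => exact hBk c
    | add a b _ _ ha hb => exact B.add_mem ha hb
    | mul a b _ _ ha hb => exact B.mul_mem ha hb
  -- `B` as a subalgebra of `C`
  obtain ⟨B1, hB1⟩ : ∃ B1 : Subalgebra (Algebra.adjoin k {x})
      (integralClosure (Algebra.adjoin k {x}) κ), ∀ c, c ∈ B1 ↔ (c : κ) ∈ B :=
    ⟨{ carrier := {c | (c : κ) ∈ B}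
       mul_mem' := fun ha hb => B.mul_mem ha hb
       one_mem' := B.one_mem
       add_mem' := fun ha hb => B.add_mem ha hb
       zero_mem' := B.zero_mem
       algebraMap_mem' := fun r => hRB r r.2 }, fun c => Iff.rfl⟩
  haveI : Module.Finite B1 (integralClosure (Algebra.adjoin k {x}) κ) :=
    Module.Finite.of_restrictScalars_finite (Algebra.adjoin k {x}) B1 _
  have hsurj : Function.Surjective
      (algebraMap B1 (integralClosure (Algebra.adjoin k {x}) κ)) := by
    refine nd44_descent_abs (k := k) (B := B1) (C := integralClosure (Algebra.adjoin k {x}) κ)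
      (C' := integralClosure (Algebra.adjoin k {algebraMap κ κ' x}) κ') (κ := κ) (κ' := κ')
      ?_ ?_
    · intro a
      refine ⟨⟨algebraMap k (integralClosure (Algebra.adjoin k {x}) κ) a, (hB1 _).mpr (hBk a)⟩,
        Subtype.ext ?_⟩
      exact (IsScalarTower.algebraMap_apply k κ κ' a).symm
    · intro y
      exact ⟨⟨⟨Algebra.norm κ (y : κ'), hBint _ (hnorm y y.2)⟩, (hB1 _).mpr (hnorm y y.2)⟩, rfl⟩
  intro z hz
  obtain ⟨b, hb⟩ := hsurj ⟨z, hz⟩
  have h := (hB1 _).mp b.2
  have h2 : ((b : integralClosure (Algebra.adjoin k {x}) κ) : κ) = z := congrArg Subtype.val hb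
  rw [← h2]
  exact h

end nd44

end Fermat.Agent.S37
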