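import Fermat.Agent.S37.NormInst22
import Fermat.Agent.S37.ChartChangeInst47
import Fermat.Agent.S37.NormDescInst44

/-!
# S37, row NM (d)-inst (helper22 + helper44): level descent of chart normality

`A` a valuation subring of `ℚ̄` with residue field `k`, `N ∣ N'`, `(N' : k) ≠ 0`.

* `ni22_normalAt_of_dvd` : `ka46_NormalAt A.subtype (residue A) N' g →
  ka46_NormalAt A.subtype (residue A) N g` for every chart coordinate `g` of level `N` with
  `j̄ ∈ k(ḡ)` (the modular side `NormInst22` + helper44's generic norm descent).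
* `ni22_normalAt_j`, `ni22_normalAt_jinv` : the charts `j` (`jqModC ℤ`) and `1/j`
  (`h63_jInv ℤ`).
-/

set_option autoImplicit false
set_option synthInstance.maxHeartbeats 400000
set_option linter.style.haveILetI false

open ModularCurve IntermediateField

namespace Fermat.Agent.S37

open Fermat.Agent.S18 Fermat.Agent.S28

local notation "Qb" => AlgebraicClosure ℚ

section Coord

variable (k : Type) [Field k] (M : ℕ) [NeZero M] (g : LaurentSeries ℤ)

/-- `F_k(M)` is finite over `k(ḡ)` when `j̄ ∈ k(ḡ)`. -/
theorem ni22_coord_finite (hgk : ka46_g k g ∈ modularFunctionFieldFullC k M)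
    (hj : rc5_j k M ∈ k⟮cm80_xk M g k hgk⟯) :
    FiniteDimensional ↥(k⟮cm80_xk M g k hgk⟯) ↥(modularFunctionFieldFullC k M) := by
  haveI := rc5_finiteDimensional k M
  exact ps14_finiteDimensional_of_mem hj

/-- `F_k(M)` is separable over `k(ḡ)` when `j̄ ∈ k(ḡ)`. -/
theorem ni22_coord_separable [IsAlgClosed k] (hgk : ka46_g k g ∈ modularFunctionFieldFullC k M)
    (hj : rc5_j k M ∈ k⟮cm80_xk M g k hgk⟯) :
    Algebra.IsSeparable ↥(k⟮cm80_xk M g k hgk⟯) ↥(modularFunctionFieldFullC k M) := by
  haveI := rc5_isSeparable_full k M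
  exact ps14_isSeparable_of_mem hj

end Coord

section Final

variable (A : ValuationSubring Qb) {N N' : ℕ} [NeZero N] [NeZero N'] (g : LaurentSeries ℤ)

set_option maxHeartbeats 1000000 in
/-- **Level descent of chart normality** `N' → N` for a chart coordinate `g` with
`j̄ ∈ k(ḡ)`. -/
theorem ni22_normalAt_of_dvd (hN' : (N' : IsLocalRing.ResidueField A) ≠ 0) (h : N ∣ N')
    (hgF : ka46_g Qb g ∈ modularFunctionFieldBar N)
    (hgk : ka46_g (IsLocalRing.ResidueField A) g ∈
      modularFunctionFieldFullC (IsLocalRing.ResidueField A) N)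
    (htr : Transcendental (IsLocalRing.ResidueField A) (ka46_g (IsLocalRing.ResidueField A) g))
    (hjN : rc5_j (IsLocalRing.ResidueField A) N ∈
      (IsLocalRing.ResidueField A)⟮cm80_xk N g (IsLocalRing.ResidueField A) hgk⟯)
    (hjN' : rc5_j (IsLocalRing.ResidueField A) N' ∈
      (IsLocalRing.ResidueField A)⟮cm80_xk N' g (IsLocalRing.ResidueField A)
        (full_degeneracyC_le (IsLocalRing.ResidueField A) h hgk)⟯)
    (H : ka46_NormalAt A.subtype (IsLocalRing.residue A) N' g) :
    ka46_NormalAt A.subtype (IsLocalRing.residue A) N g := by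
  haveI := rc5_isAlgClosed_residueField A
  refine ni22_normalAt_of_descent A g hN' h hgF hgk htr ?_ H
  intro B hBk hBx hBint hnorm
  exact @nd44_descent (IsLocalRing.ResidueField A)
    ↥(modularFunctionFieldFullC (IsLocalRing.ResidueField A) N)
    ↥(modularFunctionFieldFullC (IsLocalRing.ResidueField A) N') _ _ _ _ _
    (ni22_algebra (full_degeneracyC_le (IsLocalRing.ResidueField A) h))
    (ni22_isScalarTower (full_degeneracyC_le (IsLocalRing.ResidueField A) h)) _
    (ni22_finiteDimensional_fullC (IsLocalRing.ResidueField A) h hN')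
    (cm80_xk N g (IsLocalRing.ResidueField A) hgk) (cm80_xk_transcendental N g hgk htr)
    (ni22_coord_finite (IsLocalRing.ResidueField A) N g hgk hjN)
    (ni22_coord_separable (IsLocalRing.ResidueField A) N g hgk hjN)
    (ni22_coord_finite (IsLocalRing.ResidueField A) N' g
      (full_degeneracyC_le (IsLocalRing.ResidueField A) h hgk) hjN')
    (ni22_coord_separable (IsLocalRing.ResidueField A) N' g
      (full_degeneracyC_le (IsLocalRing.ResidueField A) h hgk) hjN')
    B hBk hBx hBint hnorm

/-- **Level descent for the chart `j`.** -/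
theorem ni22_normalAt_j (hN' : (N' : IsLocalRing.ResidueField A) ≠ 0) (h : N ∣ N')
    (H : ka46_NormalAt A.subtype (IsLocalRing.residue A) N' (jqModC ℤ)) :
    ka46_NormalAt A.subtype (IsLocalRing.residue A) N (jqModC ℤ) := by
  refine ni22_normalAt_of_dvd A (jqModC ℤ) hN' h (cm80_j_memF N)
    (cm80_j_memk N (IsLocalRing.ResidueField A)) (cm80_j_tr (IsLocalRing.ResidueField A)) ?_ ?_ H
  · have e : cm80_xk N (jqModC ℤ) (IsLocalRing.ResidueField A)
        (cm80_j_memk N (IsLocalRing.ResidueField A)) = rc5_j (IsLocalRing.ResidueField A) N :=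
      Subtype.ext (cm80_g_j (IsLocalRing.ResidueField A))
    rw [e]
    exact mem_adjoin_simple_self _ _
  · have e : cm80_xk N' (jqModC ℤ) (IsLocalRing.ResidueField A)
        (full_degeneracyC_le (IsLocalRing.ResidueField A) h
          (cm80_j_memk N (IsLocalRing.ResidueField A))) =
        rc5_j (IsLocalRing.ResidueField A) N' :=
      Subtype.ext (cm80_g_j (IsLocalRing.ResidueField A))
    rw [e]
    exact mem_adjoin_simple_self _ _

/-- `1/j` as a chart coordinate of the special fibre: membership. -/
theorem ni22_jinv_memk (k : Type*) [Field k] (M : ℕ) :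
    ka46_g k (h63_jInv ℤ) ∈ modularFunctionFieldFullC k M := by
  rw [cci47_g_jinv, h63_jInv_eq_inv]
  exact inv_mem (jqModC_mem_full k M)

/-- **Level descent for the chart `1/j`.** -/
theorem ni22_normalAt_jinv (hN' : (N' : IsLocalRing.ResidueField A) ≠ 0) (h : N ∣ N')
    (H : ka46_NormalAt A.subtype (IsLocalRing.residue A) N' (h63_jInv ℤ)) :
    ka46_NormalAt A.subtype (IsLocalRing.residue A) N (h63_jInv ℤ) := by
  have htr : Transcendental (IsLocalRing.ResidueField A)
      (ka46_g (IsLocalRing.ResidueField A) (h63_jInv ℤ)) := by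
    rw [cci47_g_jinv, h63_jInv_eq_inv]
    exact cap87_transcendental_inv _ (h63_transcendental_jqModC (IsLocalRing.ResidueField A))
  refine ni22_normalAt_of_dvd A (h63_jInv ℤ) hN' h (cci47_jinv_mem N)
    (ni22_jinv_memk (IsLocalRing.ResidueField A) N) htr ?_ ?_ H
  · have e : cm80_xk N (h63_jInv ℤ) (IsLocalRing.ResidueField A)
        (ni22_jinv_memk (IsLocalRing.ResidueField A) N) =
        (rc5_j (IsLocalRing.ResidueField A) N)⁻¹ :=
      Subtype.ext (by
        show ka46_g (IsLocalRing.ResidueField A) (h63_jInv ℤ) = _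
        rw [cci47_g_jinv, h63_jInv_eq_inv]
        rfl)
    rw [e]
    exact ps14_mem_adjoin_inv _
  · have e : cm80_xk N' (h63_jInv ℤ) (IsLocalRing.ResidueField A)
        (full_degeneracyC_le (IsLocalRing.ResidueField A) h
          (ni22_jinv_memk (IsLocalRing.ResidueField A) N)) =
        (rc5_j (IsLocalRing.ResidueField A) N')⁻¹ :=
      Subtype.ext (by
        show ka46_g (IsLocalRing.ResidueField A) (h63_jInv ℤ) = _
        rw [cci47_g_jinv, h63_jInv_eq_inv]
        rfl)
    rw [e]
    exact ps14_mem_adjoin_inv _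

end Final

end Fermat.Agent.S37
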