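import Mathlib
import Fermat.Prelude.Def_ModularCurve_X0ModL
import Fermat.Agent.S18.NumFieldDVR23
import Fermat.Agent.S37.ALevel46

/-!
# S37, row NM-B5bridge (helper46): from the number-field DVRs to `(ℚ̄, A)`

`ni46_normalA`: chart normality over `(ℚ̄, A)` (`A` a valuation subring of `ℚ̄` over a prime `ℓ`,
`ℓ ∤ M`) for a chart coordinate `g`, from chart normality over **every** discrete valuation ring
`R` with number-field fraction field `K ⊆ ℚ̄` in which `M` is a unit -- the hypothesis is stated
in the same "for all `(R, K)` with instances" shape as the chart-package hypothesis of the S18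
assembly (`c1t55b_main`), so the concrete `K`-level statements (`nb46_normalAt` fed with the
S18-B5 Dedekind fibres `sm79_level2` / `sm79_level3`) plug in directly.

The proof is plumbing: `R := A ∩ K₀` is a discrete valuation ring (`nf23_comap_isDVR`), `M` is a
unit of it, and `ka46_normalA_of_normalK` passes to the union over all number fields `K₀`.
-/

set_option autoImplicit false

open ModularCurve

namespace Fermat.Agent.S37

open Fermat.Agent.S18

local notation "Qb" => AlgebraicClosure ℚ

/-- The data of the number-field DVR `A ∩ K₀` needed to call a `K`-level chart statement. -/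
theorem ni46_comap_data (A : ValuationSubring Qb) {ℓ : ℕ} (hℓ0 : ℓ ≠ 0) (hA : A.LiesOverPrime ℓ)
    (K0 : IntermediateField ℚ Qb) [NumberField K0] :
    IsDiscreteValuationRing (A.comap (algebraMap K0 Qb)) ∧
      (∀ n : ℕ, Nat.Coprime n ℓ → IsUnit ((n : ℕ) : A.comap (algebraMap K0 Qb))) ∧
      ¬ IsUnit ((ℓ : ℕ) : A.comap (algebraMap K0 Qb)) := by
  have hdvr : IsDiscreteValuationRing (A.comap (algebraMap K0 Qb)) :=
    nf23_comap_isDVR_of_liesOverPrime (algebraMap K0 Qb) A hℓ0 hA
  refine ⟨hdvr, ?_, ?_⟩
  · intro n hn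
    obtain ⟨μ, hμ⟩ := nf23_exists_natCast_mul_eq_one (algebraMap K0 Qb) A hA hn
    exact IsUnit.of_mul_eq_one _ hμ
  · intro hu
    have h1 : ((ℓ : K0)) ∈ (A.comap (algebraMap K0 Qb)).nonunits := by
      rw [nf23_mem_nonunits_comap, map_natCast]
      exact hA
    have h2 : ((ℓ : ℕ) : A.comap (algebraMap K0 Qb)) ∈
        IsLocalRing.maximalIdeal (A.comap (algebraMap K0 Qb)) := by
      rw [← ValuationSubring.coe_mem_nonunits_iff]
      exact h1
    exact h2 hu

/-- **Chart normality over `(ℚ̄, A)` from the number-field discrete valuation rings.**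
`hK` is the `K`-level statement for every discrete valuation ring `R` of residue characteristic
`ℓ` with number-field fraction field `K ⊆ ℚ̄` (and any compatible `R`-algebra structure on
`F(M)_K`). -/
theorem ni46_normalA (A : ValuationSubring Qb) {ℓ : ℕ} (hℓ0 : ℓ ≠ 0) (hA : A.LiesOverPrime ℓ)
    (M : ℕ) [NeZero M] (g : LaurentSeries ℤ)
    (hK : ∀ (R K : Type) [CommRing R] [IsDomain R] [IsDiscreteValuationRing R] [Field K]
      [NumberField K] [Algebra K Qb] [Algebra R K] [IsFractionRing R K]
      [Algebra R ↥(modularFunctionFieldFullC K M)]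
      [IsScalarTower R K ↥(modularFunctionFieldFullC K M)] (π : R), Irreducible π →
      (∀ n : ℕ, Nat.Coprime n ℓ → IsUnit (n : R)) → ¬ IsUnit (ℓ : R) →
      ka46_NormalAt (algebraMap R K) (IsLocalRing.residue R) M g) :
    ka46_NormalAt A.subtype (IsLocalRing.residue A) M g := by
  refine ka46_normalA_of_normalK A M g ∅ (fun K0 hK0 _ => ?_)
  haveI : NumberField K0 := hK0
  obtain ⟨hdvr, hunit, hℓnu⟩ := ni46_comap_data A hℓ0 hA K0
  haveI := hdvr
  obtain ⟨π, hπ⟩ := IsDiscreteValuationRing.exists_irreducible (A.comap (algebraMap K0 Qb))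
  letI alg : Algebra (A.comap (algebraMap K0 Qb)) ↥(modularFunctionFieldFullC K0 M) :=
    ((algebraMap K0 ↥(modularFunctionFieldFullC K0 M)).comp
      (algebraMap (A.comap (algebraMap K0 Qb)) K0)).toAlgebra
  have htower : IsScalarTower (A.comap (algebraMap K0 Qb)) K0 ↥(modularFunctionFieldFullC K0 M) :=
    IsScalarTower.of_algebraMap_eq (fun _ => rfl)
  exact hK (A.comap (algebraMap K0 Qb)) K0 π hπ hunit hℓnu

end Fermat.Agent.S37
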