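import Mathlib
import Fermat.Agent.S18.ConstExtModular25
import Fermat.Agent.S37.NormalInst46
import Fermat.Agent.S37.ChartFacts93

/-!
# S37, row NM-B5bridge (helper46): chart normality over `(ℚ̄, A)` for the Hauptmodul charts

`A` a valuation subring of `ℚ̄` over the prime `ℓ`, `M` a level prime to `ℓ`, `k` the residue
field of `A`.

* `nf46_level2` (`2 ∣ M`): `ka46_NormalAt A.subtype (residue A) M g` for the two charts
  `g = h70_h2 ℤ` (the level-2 Hauptmodul `h = Δ(q)/Δ(q²)`) and `g = h70_h2inv ℤ` (`1/h`);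
* `nf46_level3` (`3 ∣ M`): the same for `g = h34_h3R ℤ` and `g = h34_h3Rinv ℤ`;
* `nf46_level` : both, for `p₀ ∈ {2, 3}`, `p₀ ∣ M`.

I.e. every element of `F(M)_k` integral over `k[ḡ]` is the coefficientwise reduction of an
element of `F(M)_ℚ̄` integral over `A[g]` (in the fraction form of `ka46_NormalAt`; use
`qx46_lift_of_normalAt` for the lift form).

Proof: `ni46_normalA` (number-field discrete valuation rings `A ∩ K₀` ⟹ `(ℚ̄, A)`,
NormalInst46) applied to the `K`-level statements `cf93_normalAt_level2/3` (helper93,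
ChartFacts93: `nb46_normalAt` fed with the S18-B5 Dedekind fibres `sm79_level2/3`).
-/

set_option autoImplicit false

open ModularCurve

namespace Fermat.Agent.S37

open Fermat.Agent.S18

local notation "Qb" => AlgebraicClosure ℚ

/-- **Level 2**: chart normality over `(ℚ̄, A)` for the charts `h` and `1/h` of the level-2
Hauptmodul, at every level `M` with `2 ∣ M`, `ℓ ∤ M`. -/
theorem nf46_level2 (A : ValuationSubring Qb) {ℓ : ℕ} (hℓ : ℓ.Prime) (hA : A.LiesOverPrime ℓ)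
    (M : ℕ) [NeZero M] (hℓM : ¬ ℓ ∣ M) (h2M : 2 ∣ M) :
    ka46_NormalAt A.subtype (IsLocalRing.residue A) M (h70_h2 ℤ) ∧
      ka46_NormalAt A.subtype (IsLocalRing.residue A) M (h70_h2inv ℤ) := by
  have hcop : Nat.Coprime M ℓ := Nat.coprime_comm.mp ((Nat.Prime.coprime_iff_not_dvd hℓ).mpr hℓM)
  constructor
  · refine ni46_normalA A hℓ.ne_zero hA M _ (fun R K _ _ _ _ _ _ _ _ _ _ π _ hunit _ => ?_)
    haveI : Algebra.IsAlgebraic K Qb := cx_isAlgebraic_closure K
    exact (cf93_normalAt_level2 K M (hunit M hcop) h2M).1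
  · refine ni46_normalA A hℓ.ne_zero hA M _ (fun R K _ _ _ _ _ _ _ _ _ _ π _ hunit _ => ?_)
    haveI : Algebra.IsAlgebraic K Qb := cx_isAlgebraic_closure K
    exact (cf93_normalAt_level2 K M (hunit M hcop) h2M).2

/-- **Level 3**: chart normality over `(ℚ̄, A)` for the charts `h` and `1/h` of the level-3
Hauptmodul, at every level `M` with `3 ∣ M`, `ℓ ∤ M`. -/
theorem nf46_level3 (A : ValuationSubring Qb) {ℓ : ℕ} (hℓ : ℓ.Prime) (hA : A.LiesOverPrime ℓ)
    (M : ℕ) [NeZero M] (hℓM : ¬ ℓ ∣ M) (h3M : 3 ∣ M) :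
    ka46_NormalAt A.subtype (IsLocalRing.residue A) M (h34_h3R ℤ) ∧
      ka46_NormalAt A.subtype (IsLocalRing.residue A) M (h34_h3Rinv ℤ) := by
  have hcop : Nat.Coprime M ℓ := Nat.coprime_comm.mp ((Nat.Prime.coprime_iff_not_dvd hℓ).mpr hℓM)
  constructor
  · refine ni46_normalA A hℓ.ne_zero hA M _ (fun R K _ _ _ _ _ _ _ _ _ _ π _ hunit _ => ?_)
    haveI : Algebra.IsAlgebraic K Qb := cx_isAlgebraic_closure K
    exact (cf93_normalAt_level3 K M (hunit M hcop) h3M).1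
  · refine ni46_normalA A hℓ.ne_zero hA M _ (fun R K _ _ _ _ _ _ _ _ _ _ π _ hunit _ => ?_)
    haveI : Algebra.IsAlgebraic K Qb := cx_isAlgebraic_closure K
    exact (cf93_normalAt_level3 K M (hunit M hcop) h3M).2

/-- The chart coordinate (`h`) at the auxiliary prime `p₀ ∈ {2, 3}`. -/
noncomputable def nf46_h (p₀ : ℕ) : LaurentSeries ℤ := if p₀ = 2 then h70_h2 ℤ else h34_h3R ℤ

/-- The chart coordinate (`1/h`) at the auxiliary prime `p₀ ∈ {2, 3}`. -/
noncomputable def nf46_hinv (p₀ : ℕ) : LaurentSeries ℤ :=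
  if p₀ = 2 then h70_h2inv ℤ else h34_h3Rinv ℤ

/-- **Both auxiliary levels**: for `p₀ ∈ {2, 3}`, `p₀ ∣ M`, `ℓ ∤ M`, chart normality over
`(ℚ̄, A)` for the two Hauptmodul charts `h`, `1/h` at `p₀`. -/
theorem nf46_level (A : ValuationSubring Qb) {ℓ : ℕ} (hℓ : ℓ.Prime) (hA : A.LiesOverPrime ℓ)
    (M : ℕ) [NeZero M] (hℓM : ¬ ℓ ∣ M) (p₀ : ℕ) (hp₀ : p₀ = 2 ∨ p₀ = 3) (hp₀M : p₀ ∣ M) :
    ka46_NormalAt A.subtype (IsLocalRing.residue A) M (nf46_h p₀) ∧
      ka46_NormalAt A.subtype (IsLocalRing.residue A) M (nf46_hinv p₀) := by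
  rcases hp₀ with rfl | rfl
  · simpa only [nf46_h, nf46_hinv, if_true] using nf46_level2 A hℓ hA M hℓM hp₀M
  · have h32 : ¬ (3 = 2) := by norm_num
    simpa only [nf46_h, nf46_hinv, h32, if_false] using nf46_level3 A hℓ hA M hℓM hp₀M

end Fermat.Agent.S37
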