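import Mathlib
import Fermat.Agent.S37.PerPlace72

/-!
# S37, row RC (endgame): per-place refinement — corrected hypotheses

Same statements as `PerPlace72`, with the evaluation hypothesis weakened to functions regular
on the whole tube (`pp72w_Hyp.heval`); the hypothesis `pp72_Hyp.heval` of `PerPlace72` is not
satisfied by the Gauss ring (counterexample of helper18: `f = π / (x - π)`).

* `pp72w_disc` : disc coordinate at every place of the tube;
* `pp72w_conservation` : per-place count from the class-level count;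
* `pp72w_conservation_quot` : the same for quotients;
* `pp72w_of_hyp` : the old hypotheses imply the new ones.
-/

set_option autoImplicit false

open AlgebraicCurve IsDedekindDomain

namespace Fermat.Agent.S37

section PerPlace

variable {L F k Fk : Type*} [Field L] [Field F] [Algebra L F] [Field k] [Field Fk]
  [Algebra k Fk]

/-- The hypotheses of the per-place refinement, with the evaluation characterisation `heval`
required only for functions REGULAR ON THE WHOLE TUBE (the form that holds for the Gauss ring;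
`pp72_Hyp.heval` of `PerPlace72`, asking regularity at the single place only, is too strong). -/
structure pp72w_Hyp (A : ValuationSubring L) (res : A →+* k) (O : ValuationSubring F)
    (red : O →+* Fk) (r0 : Place L F → Place k Fk) (𝒬 : Finset (Place k Fk)) : Prop where
  hunit : ∀ d : O, red d ≠ 0 → (d : F)⁻¹ ∈ O
  hconst : ∀ c : A, ∃ h : algebraMap L F (c : L) ∈ O, red ⟨_, h⟩ = algebraMap k Fk (res c)
  hval : ∀ P : Place L F, r0 P ∈ 𝒬 → ∀ f ∈ P.toValuationSubring,
    ∃ c : L, f - algebraMap L F c ∈ P.toValuationSubring.nonunits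
  hdiv : ∀ f : F, f ≠ 0 → ∃ D : Divisor L F, ∀ P, D P = P.ord f
  hreg : ∀ f : O, pp72_Reg r0 𝒬 (f : F) → ∀ Q ∈ 𝒬, red f ∈ Q.toValuationSubring
  heval : ∀ f : O, pp72_Reg r0 𝒬 (f : F) → ∀ P : Place L F, r0 P ∈ 𝒬 → ∀ c : L,
    (f : F) - algebraMap L F c ∈ P.toValuationSubring.nonunits →
    ∃ hc : c ∈ A, red f - algebraMap k Fk (res ⟨c, hc⟩) ∈ (r0 P).toValuationSubring.nonunits
  hclass : ∀ f : O, red f ≠ 0 → pp72_Reg r0 𝒬 (f : F) → ∀ D : Divisor L F,
    (∀ P, D P = P.ord (f : F)) →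
    ∑ Q ∈ 𝒬, Finsupp.mapDomain r0 D Q = ∑ Q ∈ 𝒬, Q.ord (red f)
  hunif : ∀ Q ∈ 𝒬, ∃ t : O, pp72_Reg r0 𝒬 (t : F) ∧ Q.ord (red t) = 1 ∧
    ∀ Q' ∈ 𝒬, Q' ≠ Q → Q'.ord (red t) = 0

variable {A : ValuationSubring L} {res : A →+* k} {O : ValuationSubring F} {red : O →+* Fk}
  {r0 : Place L F → Place k Fk} {𝒬 : Finset (Place k Fk)}

/-- **Disc coordinate.**  For every place `P` of the tube there is `d ∈ O`, regular on the
tube, with a simple zero at `P` and no other zero on the tube, whose reduction is a uniformiser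
at `r0 P` and a unit at the other places of `𝒬`. -/
theorem pp72w_disc (H : pp72w_Hyp A res O red r0 𝒬) (P : Place L F) (hP : r0 P ∈ 𝒬) :
    ∃ d : O, red d ≠ 0 ∧ pp72_Reg r0 𝒬 (d : F) ∧ P.ord (d : F) = 1 ∧
      (∀ P' : Place L F, r0 P' ∈ 𝒬 → P' ≠ P → P'.ord (d : F) = 0) ∧
      (r0 P).ord (red d) = 1 ∧ ∀ Q' ∈ 𝒬, Q' ≠ r0 P → Q'.ord (red d) = 0 := by
  classical
  obtain ⟨t, htreg, htQ, htQ'⟩ := H.hunif (r0 P) hP
  have htP : (t : F) ∈ P.toValuationSubring := htreg P hP
  obtain ⟨c, hc⟩ := H.hval P hP _ htP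
  obtain ⟨hcA, hred⟩ := H.heval t htreg P hP c hc
  have hredt0 : red t ≠ 0 := by
    intro h0
    rw [h0, Place.ord_zero] at htQ
    exact zero_ne_one htQ
  have htn : red t ∈ (r0 P).toValuationSubring.nonunits :=
    (pp72_mem_nonunits_iff _ hredt0).mpr (by rw [htQ]; exact one_pos)
  have hresc : res ⟨c, hcA⟩ = 0 := by
    by_contra hne
    have h1 : algebraMap k Fk (res ⟨c, hcA⟩) ∈ (r0 P).toValuationSubring.nonunits := by
      have h2 := pp72_sub_mem_nonunits _ htn hred
      rwa [sub_sub_cancel] at h2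
    exact pp72_algebraMap_notMem_nonunits _ hne h1
  obtain ⟨hcO, hredc⟩ := H.hconst ⟨c, hcA⟩
  obtain ⟨d, hd⟩ : ∃ d : O, d = t - ⟨algebraMap L F c, hcO⟩ := ⟨_, rfl⟩
  have hdred : red d = red t := by
    rw [hd, map_sub, hredc, hresc, map_zero, sub_zero]
  have hdcoe : (d : F) = (t : F) - algebraMap L F c := by rw [hd]; rfl
  have hdred0 : red d ≠ 0 := by rw [hdred]; exact hredt0
  have hd0 : (d : F) ≠ 0 := by
    intro h0
    apply hdred0
    have h1 : d = 0 := Subtype.ext h0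
    rw [h1, map_zero]
  have hdreg : pp72_Reg r0 𝒬 (d : F) := by
    intro P' hP'
    rw [hdcoe]
    exact (P'.toValuationSubring).sub_mem (htreg P' hP') (P'.algebraMap_mem' c)
  obtain ⟨D, hD⟩ := H.hdiv (d : F) hd0
  have hnn : ∀ P' : Place L F, r0 P' ∈ 𝒬 → 0 ≤ D P' := fun P' hP' => by
    rw [hD]
    exact (pp72_mem_iff_ord_nonneg P' _).mp (hdreg P' hP')
  have hsum := H.hclass d hdred0 hdreg D hD
  have hrhs : ∑ Q ∈ 𝒬, Q.ord (red d) = 1 := by
    rw [hdred, Finset.sum_eq_single (r0 P) (fun Q' hQ' hne => htQ' Q' hQ' hne)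
      (fun h => absurd hP h), htQ]
  rw [hrhs] at hsum
  have hPpos : 1 ≤ D P := by
    rw [hD]
    have h1 : 0 < P.ord (d : F) := (pp72_mem_nonunits_iff P hd0).mp (hdcoe ▸ hc)
    omega
  have hZnn : ∀ Q ∈ 𝒬, 0 ≤ Finsupp.mapDomain r0 D Q := fun Q hQ =>
    pp72_mapDomain_nonneg r0 D Q (fun a ha => hnn a (ha ▸ hQ))
  have hZP : D P ≤ Finsupp.mapDomain r0 D (r0 P) :=
    pp72_le_mapDomain r0 D (r0 P) (fun a ha => hnn a (ha ▸ hP)) P rfl
  have hZle : Finsupp.mapDomain r0 D (r0 P) ≤ 1 := by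
    rw [← hsum]
    exact Finset.single_le_sum (f := fun Q => Finsupp.mapDomain r0 D Q)
      (fun Q hQ => hZnn Q hQ) hP
  have hZeq : Finsupp.mapDomain r0 D (r0 P) = D P := by omega
  have hDP : D P = 1 := by omega
  have hZother : ∀ Q' ∈ 𝒬, Q' ≠ r0 P → Finsupp.mapDomain r0 D Q' = 0 := by
    intro Q' hQ' hne
    have h1 := Finset.add_sum_erase 𝒬 (fun Q => Finsupp.mapDomain r0 D Q) hP
    beta_reduce at h1
    have h2 : ∑ Q ∈ 𝒬.erase (r0 P), Finsupp.mapDomain r0 D Q = 0 := by
      have h3 : Finsupp.mapDomain r0 D (r0 P) = 1 := by omega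
      linarith
    exact (Finset.sum_eq_zero_iff_of_nonneg
      (fun Q hQ => hZnn Q (Finset.mem_of_mem_erase hQ))).mp h2 Q'
      (Finset.mem_erase.mpr ⟨hne, hQ'⟩)
  refine ⟨d, hdred0, hdreg, by rw [← hD, hDP], ?_, by rw [hdred, htQ],
    fun Q' hQ' hne => by rw [hdred]; exact htQ' Q' hQ' hne⟩
  intro P' hP' hne
  rw [← hD]
  by_cases hQ : r0 P' = r0 P
  · exact pp72_eq_zero_of_mapDomain_eq r0 D (r0 P) (fun a ha => hnn a (ha ▸ hP)) P rfl hZeq
      P' hQ hne
  · have h0 := hZother (r0 P') hP' hQ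
    have hle := pp72_le_mapDomain r0 D (r0 P') (fun a ha => hnn a (ha ▸ hP')) P' rfl
    have h1 := hnn P' hP'
    omega

/-- Key inequality: a function regular on the tube with nonzero reduction has at most
`ord_Q (red f)` zeros (with multiplicity) in the tube of `Q`. -/
theorem pp72w_mapDomain_le (H : pp72w_Hyp A res O red r0 𝒬) :
    ∀ (n : ℕ) (f : O), red f ≠ 0 → pp72_Reg r0 𝒬 (f : F) → ∀ D : Divisor L F,
      (∀ P, D P = P.ord (f : F)) → ∀ Q ∈ 𝒬, Finsupp.mapDomain r0 D Q = n →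
      (n : ℤ) ≤ Q.ord (red f) := by
  classical
  intro n
  induction n with
  | zero =>
    intro f _ hreg D _ Q hQ _
    rw [Nat.cast_zero]
    exact (pp72_mem_iff_ord_nonneg Q _).mp (H.hreg f hreg Q hQ)
  | succ n ih =>
    intro f hf hreg D hD Q hQ hZ
    have hpos : 0 < Finsupp.mapDomain r0 D Q := by
      rw [hZ]
      positivity
    obtain ⟨P, hPQ, hPpos⟩ := pp72_exists_pos_of_mapDomain_pos r0 D Q hpos
    subst hPQ
    obtain ⟨d, hdred, hdreg, hdP, hdP', hdQ, -⟩ := pp72w_disc H P hQ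
    have hd0 : (d : F) ≠ 0 := by
      intro h0
      apply hdred
      have h1 : d = 0 := Subtype.ext h0
      rw [h1, map_zero]
    have hf0 : (f : F) ≠ 0 := by
      intro h0
      apply hf
      have h1 : f = 0 := Subtype.ext h0
      rw [h1, map_zero]
    have hinv : (d : F)⁻¹ ∈ O := H.hunit d hdred
    obtain ⟨f', hf'⟩ : ∃ f' : O, f' = f * ⟨(d : F)⁻¹, hinv⟩ := ⟨_, rfl⟩
    have hf'coe : (f' : F) = (f : F) * (d : F)⁻¹ := by rw [hf']; rfl
    have hmul : f' * d = f := by
      apply Subtype.ext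
      show (f' : F) * (d : F) = (f : F)
      rw [hf'coe, mul_assoc, inv_mul_cancel₀ hd0, mul_one]
    have hredmul : red f' * red d = red f := by rw [← map_mul, hmul]
    have hf'red : red f' ≠ 0 := fun h => hf (by rw [← hredmul, h, zero_mul])
    have hord' : ∀ P' : Place L F, P'.ord (f' : F) = P'.ord (f : F) - P'.ord (d : F) :=
      fun P' => by rw [hf'coe]; exact pp72_ord_div P' hf0 hd0
    have hf'reg : pp72_Reg r0 𝒬 (f' : F) := by
      intro P' hP'
      rw [pp72_mem_iff_ord_nonneg, hord']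
      by_cases hPP : P' = P
      · rw [hPP, hdP]
        rw [hD] at hPpos
        omega
      · rw [hdP' P' hP' hPP, sub_zero]
        exact (pp72_mem_iff_ord_nonneg P' _).mp (hreg P' hP')
    obtain ⟨Dd, hDd⟩ := H.hdiv (d : F) hd0
    have hD' : ∀ P', (D - Dd) P' = P'.ord (f' : F) := fun P' => by
      rw [Finsupp.sub_apply, hD, hDd, hord']
    have hZd : Finsupp.mapDomain r0 Dd (r0 P) = 1 := by
      have hnn : ∀ a, r0 a = r0 P → 0 ≤ Dd a := fun a ha => by
        rw [hDd]
        exact (pp72_mem_iff_ord_nonneg a _).mp (hdreg a (ha ▸ hQ))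
      have h1 : Dd P ≤ Finsupp.mapDomain r0 Dd (r0 P) :=
        pp72_le_mapDomain r0 Dd (r0 P) hnn P rfl
      rw [pp72_mapDomain_apply] at h1 ⊢
      have h2 : ∑ a ∈ Dd.support.filter (fun a => r0 a = r0 P), Dd a ≤ Dd P := by
        by_cases hs : P ∈ Dd.support
        · rw [Finset.sum_eq_single P]
          · intro a ha hne
            rw [hDd]
            exact hdP' a ((Finset.mem_filter.mp ha).2 ▸ hQ) hne
          · intro hnot
            have hmem : P ∈ Dd.support.filter (fun a => r0 a = r0 P) :=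
              Finset.mem_filter.mpr ⟨hs, rfl⟩
            exact absurd hmem hnot
        · exfalso
          have h3 := Finsupp.notMem_support_iff.mp hs
          rw [hDd, hdP] at h3
          exact one_ne_zero h3
      rw [hDd, hdP] at h1 h2
      omega
    have hZ' : Finsupp.mapDomain r0 (D - Dd) (r0 P) = n := by
      rw [Finsupp.mapDomain_sub, Finsupp.sub_apply, hZ, hZd]
      push_cast
      ring
    have h4 := ih f' hf'red hf'reg (D - Dd) hD' (r0 P) hQ hZ'
    have hordQ : (r0 P).ord (red f) = (r0 P).ord (red f') + (r0 P).ord (red d) := by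
      rw [← hredmul]
      exact Place.ord_mul _ hf'red hdred
    rw [hordQ, hdQ]
    push_cast
    omega

/-- **Per-place conservation.**  For `f ∈ O` regular on the tube of `𝒬` with nonzero
reduction, the push-forward of the divisor of `f` along `r0` agrees with the divisor of the
reduction at every place of `𝒬`. -/
theorem pp72w_conservation (H : pp72w_Hyp A res O red r0 𝒬) (f : O) (hf : red f ≠ 0)
    (hreg : pp72_Reg r0 𝒬 (f : F)) (D : Divisor L F) (hD : ∀ P, D P = P.ord (f : F)) :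
    ∀ Q ∈ 𝒬, Finsupp.mapDomain r0 D Q = Q.ord (red f) := by
  have hle : ∀ Q ∈ 𝒬, Finsupp.mapDomain r0 D Q ≤ Q.ord (red f) := by
    intro Q hQ
    have hnn : 0 ≤ Finsupp.mapDomain r0 D Q :=
      pp72_mapDomain_nonneg r0 D Q (fun a ha => by
        rw [hD]
        exact (pp72_mem_iff_ord_nonneg a _).mp (hreg a (ha ▸ hQ)))
    obtain ⟨n, hn⟩ := Int.eq_ofNat_of_zero_le hnn
    rw [hn]
    exact pp72w_mapDomain_le H n f hf hreg D hD Q hQ hn
  exact (Finset.sum_eq_sum_iff_of_le hle).mp (H.hclass f hf hreg D hD)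

/-- Per-place conservation for a quotient `b₁ / b₂` of two functions regular on the tube with
nonzero reductions (every unit of the Gauss ring is such a quotient once (1) is known). -/
theorem pp72w_conservation_quot (H : pp72w_Hyp A res O red r0 𝒬) (b₁ b₂ : O)
    (h₁ : red b₁ ≠ 0) (h₂ : red b₂ ≠ 0) (hreg₁ : pp72_Reg r0 𝒬 (b₁ : F))
    (hreg₂ : pp72_Reg r0 𝒬 (b₂ : F)) (D : Divisor L F)
    (hD : ∀ P, D P = P.ord ((b₁ : F) * (b₂ : F)⁻¹)) :
    ∀ Q ∈ 𝒬, Finsupp.mapDomain r0 D Q = Q.ord (red b₁) - Q.ord (red b₂) := by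
  intro Q hQ
  have hb₁ : (b₁ : F) ≠ 0 := by
    intro h0
    apply h₁
    have h1 : b₁ = 0 := Subtype.ext h0
    rw [h1, map_zero]
  have hb₂ : (b₂ : F) ≠ 0 := by
    intro h0
    apply h₂
    have h1 : b₂ = 0 := Subtype.ext h0
    rw [h1, map_zero]
  obtain ⟨D₂, hD₂⟩ := H.hdiv (b₂ : F) hb₂
  have hD₁ : ∀ P, (D + D₂) P = P.ord (b₁ : F) := fun P => by
    rw [Finsupp.add_apply, hD, hD₂, pp72_ord_div P hb₁ hb₂]
    ring
  have e₁ := pp72w_conservation H b₁ h₁ hreg₁ (D + D₂) hD₁ Q hQ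
  have e₂ := pp72w_conservation H b₂ h₂ hreg₂ D₂ hD₂ Q hQ
  rw [Finsupp.mapDomain_add, Finsupp.add_apply, e₂] at e₁
  linarith


/-- The (too strong) hypotheses of `PerPlace72` imply the corrected ones. -/
theorem pp72w_of_hyp (H : pp72_Hyp A res O red r0 𝒬) : pp72w_Hyp A res O red r0 𝒬 where
  hunit := H.hunit
  hconst := H.hconst
  hval := H.hval
  hdiv := H.hdiv
  hreg := H.hreg
  heval := fun f hf P hP c hc => H.heval f P hP (hf P hP) c hc
  hclass := H.hclass
  hunif := H.hunif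

end PerPlace

end Fermat.Agent.S37
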