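import Mathlib
import Fermat.Prelude.Def_ModularCurve_ReductionModL
import Fermat.Prelude.Def_ModularCurve_HeckeModule

/-!
# S37, row ES3 (helper17): Eichler-Shimura on all divisors from principal divisors

* `pe17_theta`: the abstract divisor argument in DEFECT form, with WEAK support control.  An
  additive map `θ` on divisors of `X` with values in divisors of `Y` (the defect of the
  Eichler-Shimura relation, at one level or at mixed levels) which kills a subgroup `princ`,
  whose value at a single point `P` is supported on classes in a finite set `Z (clsX P)`, vanishes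
  identically as soon as there are enough elements of `princ` ("tube functions", `RC (iv)`).
* `pe17_weak`: the same for `θ = R ∘ T - (Φ_* + l Ψ_*) ∘ R`, `R` any additive map.
* `pe17_core`: abstract divisor argument.  An additive map `T` on divisors of `X`, a point map
  `r : X → Y`, two maps `Φ Ψ : Y → Y`; if the relation
  `r_* (T D) = Φ_* (r_* D) + l • Ψ_* (r_* D)` holds for `D` in a subgroup `princ` ("principal
  divisors"), the supports of `T P` are controlled by a class function (`ES2`), and there are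
  enough elements of `princ` ("tube functions", `RC (iv)`), then the relation holds for all `D`.
* `pe17_pic0`: the relation on divisors gives the relation on `Pic⁰`
  (`reductionPic0Along r0 ∘ T_ℓ = φ • red + ℓ • φ⁻¹ • red`), i.e. field `es` of `top13_RedData`.
-/

set_option autoImplicit false

namespace Fermat.Agent.S37

open ModularCurve AlgebraicCurve

section Core

variable {X Y C : Type*}

/-- **Abstract ES3, defect form with weak support.**  `θ` kills `princ`; the value of `θ` at a
single point `P` is supported on points whose class lies in `Z (clsX P)`; `W g` contains every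
class `g'` such that `Z g'` meets `Z g`; and `princ` contains, for every `P` and every finite set
`G` of classes containing the class of `P`, a divisor with coefficient `1` at `P` and `0` at the
other points with class in `G`.  Then `θ = 0`. -/
theorem pe17_theta (θ : (X →₀ ℤ) →+ (Y →₀ ℤ)) (clsX : X → C) (cls : Y → C)
    (Z W : C → Finset C)
    (hW : ∀ g g' c, c ∈ Z g → c ∈ Z g' → g' ∈ W g)
    (princ : AddSubgroup (X →₀ ℤ))
    (hES1 : ∀ D ∈ princ, θ D = 0)
    (hES2 : ∀ (P : X) (Q : Y), θ (Finsupp.single P 1) Q ≠ 0 → cls Q ∈ Z (clsX P))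
    (htube : ∀ (P : X) (G : Finset C), clsX P ∈ G →
      ∃ D ∈ princ, D P = 1 ∧ ∀ P', P' ≠ P → clsX P' ∈ G → D P' = 0) :
    θ = 0 := by
  classical
  have hsingle : ∀ P : X, θ (Finsupp.single P 1) = 0 := by
    intro P
    set g := clsX P with hg
    obtain ⟨D₀, hD₀, hD₀P, hD₀G⟩ := htube P (insert g (W g)) (Finset.mem_insert_self _ _)
    have hθD₀ : θ D₀ = 0 := hES1 D₀ hD₀
    set E := D₀ - Finsupp.single P 1 with hE
    have hEP : E P = 0 := by
      rw [hE, Finsupp.sub_apply, hD₀P, Finsupp.single_eq_same, sub_self]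
    have hEsupp : ∀ P' ∈ E.support, clsX P' ∉ insert g (W g) := by
      intro P' hP' hmem
      have hne : P' ≠ P := by
        rintro rfl
        exact (Finsupp.mem_support_iff.mp hP') hEP
      have h0 := hD₀G P' hne hmem
      apply Finsupp.mem_support_iff.mp hP'
      rw [hE, Finsupp.sub_apply, h0, Finsupp.single_eq_of_ne hne, sub_zero]
    have hθE : θ (Finsupp.single P 1) = - θ E := by
      have : θ E = θ D₀ - θ (Finsupp.single P 1) := by rw [hE, map_sub]
      rw [this, hθD₀, zero_sub, neg_neg]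
    ext Q
    rw [Finsupp.zero_apply]
    by_contra hQ
    have hclsQ := hES2 P Q hQ
    have hEQ : θ E Q ≠ 0 := by
      intro h0
      apply hQ
      rw [hθE, Finsupp.neg_apply, h0, neg_zero]
    have hEsum : θ E = ∑ P' ∈ E.support, E P' • θ (Finsupp.single P' 1) := by
      conv_lhs => rw [← Finsupp.sum_single E]
      rw [Finsupp.sum, map_sum]
      refine Finset.sum_congr rfl fun P' _ => ?_
      rw [← map_zsmul, Finsupp.smul_single, smul_eq_mul, mul_one]
    have : ∃ P' ∈ E.support, θ (Finsupp.single P' 1) Q ≠ 0 := by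
      by_contra hall
      push Not at hall
      apply hEQ
      rw [hEsum, Finsupp.finsetSum_apply]
      refine Finset.sum_eq_zero fun P' hP' => ?_
      rw [Finsupp.smul_apply, hall P' hP', smul_zero]
    obtain ⟨P', hP', hP'Q⟩ := this
    have hclsQ' := hES2 P' Q hP'Q
    exact hEsupp P' hP' (Finset.mem_insert_of_mem (hW g (clsX P') (cls Q) hclsQ hclsQ'))
  apply Finsupp.addHom_ext
  intro P n
  have : Finsupp.single P n = n • Finsupp.single P (1 : ℤ) := by
    rw [Finsupp.smul_single, smul_eq_mul, mul_one]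
  rw [this, map_zsmul, hsingle P, smul_zero, AddMonoidHom.zero_apply]

/-- **Abstract ES3, relation form with weak support**, for an arbitrary additive "reduction" map
`R` on divisors (a push-forward `mapDomain r`, or push-forward after pull-back to a higher level):
if `R (T D) = Φ_* (R D) + l • Ψ_* (R D)` for `D ∈ princ`, the points of `R (T P)`, `Φ_* (R P)`,
`Ψ_* (R P)` have their classes in `Z (clsX P)`, and there are enough tube divisors, then the
relation holds for every divisor. -/
theorem pe17_weak (T : (X →₀ ℤ) →+ (X →₀ ℤ)) (R : (X →₀ ℤ) →+ (Y →₀ ℤ)) (Φ Ψ : Y → Y) (l : ℤ)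
    (clsX : X → C) (cls : Y → C) (Z W : C → Finset C)
    (hW : ∀ g g' c, c ∈ Z g → c ∈ Z g' → g' ∈ W g)
    (princ : AddSubgroup (X →₀ ℤ))
    (hES1 : ∀ D ∈ princ, R (T D) =
      Finsupp.mapDomain Φ (R D) + l • Finsupp.mapDomain Ψ (R D))
    (hES2 : ∀ (P : X) (Q : Y), R (T (Finsupp.single P 1)) Q ≠ 0 → cls Q ∈ Z (clsX P))
    (hΦ : ∀ (P : X) (Q : Y), R (Finsupp.single P 1) Q ≠ 0 → cls (Φ Q) ∈ Z (clsX P))
    (hΨ : ∀ (P : X) (Q : Y), R (Finsupp.single P 1) Q ≠ 0 → cls (Ψ Q) ∈ Z (clsX P))
    (htube : ∀ (P : X) (G : Finset C), clsX P ∈ G →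
      ∃ D ∈ princ, D P = 1 ∧ ∀ P', P' ≠ P → clsX P' ∈ G → D P' = 0)
    (D : X →₀ ℤ) :
    R (T D) = Finsupp.mapDomain Φ (R D) + l • Finsupp.mapDomain Ψ (R D) := by
  classical
  set θ : (X →₀ ℤ) →+ (Y →₀ ℤ) :=
    R.comp T - ((Finsupp.mapDomain.addMonoidHom Φ).comp R +
      l • ((Finsupp.mapDomain.addMonoidHom Ψ).comp R)) with hθ
  have hθapp : ∀ D, θ D = R (T D) -
      (Finsupp.mapDomain Φ (R D) + l • Finsupp.mapDomain Ψ (R D)) := fun _ => rfl
  have hzero : θ = 0 := by
    refine pe17_theta θ clsX cls Z W hW princ (fun D hD => ?_) (fun P Q hQ => ?_) htube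
    · rw [hθapp, hES1 D hD, sub_self]
    · rw [hθapp] at hQ
      by_cases h1 : R (T (Finsupp.single P 1)) Q = 0
      · by_cases h2 : Finsupp.mapDomain Φ (R (Finsupp.single P 1)) Q = 0
        · by_cases h3 : Finsupp.mapDomain Ψ (R (Finsupp.single P 1)) Q = 0
          · exfalso
            apply hQ
            rw [Finsupp.sub_apply, Finsupp.add_apply, Finsupp.smul_apply, h1, h2, h3]
            simp
          · have hmem : Q ∈ (Finsupp.mapDomain Ψ (R (Finsupp.single P 1))).support :=
              Finsupp.mem_support_iff.mpr h3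
            obtain ⟨u, hu, rfl⟩ := Finset.mem_image.mp (Finsupp.mapDomain_support hmem)
            exact hΨ P u (Finsupp.mem_support_iff.mp hu)
        · have hmem : Q ∈ (Finsupp.mapDomain Φ (R (Finsupp.single P 1))).support :=
            Finsupp.mem_support_iff.mpr h2
          obtain ⟨u, hu, rfl⟩ := Finset.mem_image.mp (Finsupp.mapDomain_support hmem)
          exact hΦ P u (Finsupp.mem_support_iff.mp hu)
      · exact hES2 P Q h1
  have h := hθapp D
  rw [hzero, AddMonoidHom.zero_apply] at h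
  exact (sub_eq_zero.mp h.symm)

/-- The defect of the Eichler-Shimura relation, as an additive map on divisors. -/
noncomputable def pe17_delta (T : (X →₀ ℤ) →+ (X →₀ ℤ)) (r : X → Y) (Φ Ψ : Y → Y) (l : ℤ) :
    (X →₀ ℤ) →+ (Y →₀ ℤ) :=
  (Finsupp.mapDomain.addMonoidHom r).comp T -
    ((Finsupp.mapDomain.addMonoidHom Φ).comp (Finsupp.mapDomain.addMonoidHom r) +
      l • ((Finsupp.mapDomain.addMonoidHom Ψ).comp (Finsupp.mapDomain.addMonoidHom r)))

theorem pe17_delta_apply (T : (X →₀ ℤ) →+ (X →₀ ℤ)) (r : X → Y) (Φ Ψ : Y → Y) (l : ℤ)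
    (D : X →₀ ℤ) :
    pe17_delta T r Φ Ψ l D = Finsupp.mapDomain r (T D) -
      (Finsupp.mapDomain Φ (Finsupp.mapDomain r D) +
        l • Finsupp.mapDomain Ψ (Finsupp.mapDomain r D)) := rfl

theorem pe17_delta_eq_zero_iff (T : (X →₀ ℤ) →+ (X →₀ ℤ)) (r : X → Y) (Φ Ψ : Y → Y) (l : ℤ)
    (D : X →₀ ℤ) :
    pe17_delta T r Φ Ψ l D = 0 ↔ Finsupp.mapDomain r (T D) =
      Finsupp.mapDomain Φ (Finsupp.mapDomain r D) +
        l • Finsupp.mapDomain Ψ (Finsupp.mapDomain r D) := by
  rw [pe17_delta_apply, sub_eq_zero]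

/-- Support control for the defect at a single point. -/
theorem pe17_delta_single_support (T : (X →₀ ℤ) →+ (X →₀ ℤ)) (r : X → Y) (Φ Ψ : Y → Y) (l : ℤ)
    (cls : Y → C) (Fr : C ≃ C)
    (hES2 : ∀ P u, u ∈ (T (Finsupp.single P 1)).support →
      cls (r u) = Fr (cls (r P)) ∨ cls (r u) = Fr.symm (cls (r P)))
    (hΦ : ∀ Q, cls (Φ Q) = Fr (cls Q) ∨ cls (Φ Q) = Fr.symm (cls Q))
    (hΨ : ∀ Q, cls (Ψ Q) = Fr (cls Q) ∨ cls (Ψ Q) = Fr.symm (cls Q))
    (P : X) (Q : Y) (hQ : pe17_delta T r Φ Ψ l (Finsupp.single P 1) Q ≠ 0) :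
    cls Q = Fr (cls (r P)) ∨ cls Q = Fr.symm (cls (r P)) := by
  classical
  rw [pe17_delta_apply, Finsupp.mapDomain_single, Finsupp.mapDomain_single,
    Finsupp.mapDomain_single] at hQ
  by_cases h1 : Finsupp.mapDomain r (T (Finsupp.single P 1)) Q = 0
  · by_cases h2 : Q = Φ (r P)
    · rw [h2]; exact hΦ (r P)
    · by_cases h3 : Q = Ψ (r P)
      · rw [h3]; exact hΨ (r P)
      · exfalso
        apply hQ
        rw [Finsupp.sub_apply, Finsupp.add_apply, Finsupp.smul_apply, h1,
          Finsupp.single_apply, Finsupp.single_apply, if_neg (Ne.symm h2), if_neg (Ne.symm h3)]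
        simp
  · have hmem : Q ∈ (Finsupp.mapDomain r (T (Finsupp.single P 1))).support :=
      Finsupp.mem_support_iff.mpr h1
    obtain ⟨u, hu, rfl⟩ := Finset.mem_image.mp (Finsupp.mapDomain_support hmem)
    exact hES2 P u hu

/-- **Abstract ES3**: from principal divisors to all divisors. -/
theorem pe17_core (T : (X →₀ ℤ) →+ (X →₀ ℤ)) (r : X → Y) (Φ Ψ : Y → Y) (l : ℤ)
    (cls : Y → C) (Fr : C ≃ C) (princ : AddSubgroup (X →₀ ℤ))
    (hES1 : ∀ D ∈ princ, Finsupp.mapDomain r (T D) =
      Finsupp.mapDomain Φ (Finsupp.mapDomain r D) +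
        l • Finsupp.mapDomain Ψ (Finsupp.mapDomain r D))
    (hES2 : ∀ P u, u ∈ (T (Finsupp.single P 1)).support →
      cls (r u) = Fr (cls (r P)) ∨ cls (r u) = Fr.symm (cls (r P)))
    (hΦ : ∀ Q, cls (Φ Q) = Fr (cls Q) ∨ cls (Φ Q) = Fr.symm (cls Q))
    (hΨ : ∀ Q, cls (Ψ Q) = Fr (cls Q) ∨ cls (Ψ Q) = Fr.symm (cls Q))
    (htube : ∀ (P : X) (G : Finset C), cls (r P) ∈ G →
      ∃ D ∈ princ, D P = 1 ∧ ∀ P', P' ≠ P → cls (r P') ∈ G → D P' = 0)
    (D : X →₀ ℤ) :
    Finsupp.mapDomain r (T D) =
      Finsupp.mapDomain Φ (Finsupp.mapDomain r D) +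
        l • Finsupp.mapDomain Ψ (Finsupp.mapDomain r D) := by
  classical
  rw [← pe17_delta_eq_zero_iff]
  set δ := pe17_delta T r Φ Ψ l with hδ
  have hsupp := pe17_delta_single_support T r Φ Ψ l cls Fr hES2 hΦ hΨ
  -- the defect vanishes at single points
  have hsingle : ∀ P : X, δ (Finsupp.single P 1) = 0 := by
    intro P
    set g := cls (r P) with hg
    obtain ⟨D₀, hD₀, hD₀P, hD₀G⟩ :=
      htube P {g, Fr (Fr g), Fr.symm (Fr.symm g)} (Finset.mem_insert_self _ _)
    have hδD₀ : δ D₀ = 0 := (pe17_delta_eq_zero_iff T r Φ Ψ l D₀).mpr (hES1 D₀ hD₀)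
    set E := D₀ - Finsupp.single P 1 with hE
    have hEP : E P = 0 := by
      rw [hE, Finsupp.sub_apply, hD₀P, Finsupp.single_eq_same, sub_self]
    have hEsupp : ∀ P' ∈ E.support, cls (r P') ∉
        ({g, Fr (Fr g), Fr.symm (Fr.symm g)} : Finset C) := by
      intro P' hP' hmem
      have hne : P' ≠ P := by
        rintro rfl
        exact (Finsupp.mem_support_iff.mp hP') hEP
      have h0 := hD₀G P' hne hmem
      apply Finsupp.mem_support_iff.mp hP'
      rw [hE, Finsupp.sub_apply, h0, Finsupp.single_eq_of_ne hne, sub_zero]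
    have hδE : δ (Finsupp.single P 1) = - δ E := by
      have : δ E = δ D₀ - δ (Finsupp.single P 1) := by rw [hE, map_sub]
      rw [this, hδD₀, zero_sub, neg_neg]
    ext Q
    rw [Finsupp.zero_apply]
    by_contra hQ
    have hclsQ := hsupp P Q hQ
    -- `δ E Q ≠ 0`, so some `P' ∈ supp E` contributes at `Q`
    have hEQ : δ E Q ≠ 0 := by
      intro h0
      apply hQ
      rw [hδE, Finsupp.neg_apply, h0, neg_zero]
    have hEsum : δ E = ∑ P' ∈ E.support, E P' • δ (Finsupp.single P' 1) := by
      conv_lhs => rw [← Finsupp.sum_single E]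
      rw [Finsupp.sum, map_sum]
      refine Finset.sum_congr rfl fun P' _ => ?_
      rw [← map_zsmul, Finsupp.smul_single, smul_eq_mul, mul_one]
    have : ∃ P' ∈ E.support, δ (Finsupp.single P' 1) Q ≠ 0 := by
      by_contra hall
      push Not at hall
      apply hEQ
      rw [hEsum, Finsupp.finsetSum_apply]
      refine Finset.sum_eq_zero fun P' hP' => ?_
      rw [Finsupp.smul_apply, hall P' hP', smul_zero]
    obtain ⟨P', hP', hP'Q⟩ := this
    have hclsQ' := hsupp P' Q hP'Q
    have hnot := hEsupp P' hP'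
    apply hnot
    simp only [Finset.mem_insert, Finset.mem_singleton]
    rcases hclsQ with h1 | h1 <;> rcases hclsQ' with h2 | h2
    · left; exact Fr.injective (h2.symm.trans h1)
    · right; left
      have h3 : Fr.symm (cls (r P')) = Fr g := h2.symm.trans h1
      rw [Equiv.symm_apply_eq] at h3
      exact h3
    · right; right
      have h3 : Fr (cls (r P')) = Fr.symm g := h2.symm.trans h1
      rw [← Equiv.eq_symm_apply] at h3
      exact h3
    · left; exact Fr.symm.injective (h2.symm.trans h1)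
  -- hence everywhere
  have hzero : δ = 0 := by
    apply Finsupp.addHom_ext
    intro P n
    have : Finsupp.single P n = n • Finsupp.single P (1 : ℤ) := by
      rw [Finsupp.smul_single, smul_eq_mul, mul_one]
    rw [this, map_zsmul, hsingle P, smul_zero, AddMonoidHom.zero_apply]
  rw [hzero, AddMonoidHom.zero_apply]

end Core

section Prelude

set_option synthInstance.maxHeartbeats 400000

local notation "Qb" => AlgebraicClosure ℚ

variable {N : ℕ} [NeZero N] {A : ValuationSubring Qb}

set_option maxHeartbeats 1000000 in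
/-- **ES on divisors (row ES3)**, Prelude objects: from ES on principal divisors (row ES1), the
support statement (row ES2), the effect of the coefficient Frobenius on classes (row FR (d)) and
the tube functions (row RC (iv)).  `cls` is any "class" function on the places of the special
fibre (in the application `Q ↦ j̄(Q) ∈ k ∪ {∞}`), `Fr` any bijection of the classes (`x ↦ x^ℓ`). -/
theorem pe17_div {ℓ : ℕ} [NeZero ℓ] {C : Type*}
    (hα : HeckeAlphaBarIntegral Qb N ℓ) (hβ : HeckeBetaBarIntegral Qb N ℓ)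
    [HasPrincipalDivisors Qb (laurentBaseChange Qb (modularFunctionFieldFull (N * ℓ)))]
    (r0 : Place Qb (modularFunctionFieldBar N) →
      Place (IsLocalRing.ResidueField A)
        (modularFunctionFieldFullC (IsLocalRing.ResidueField A) N))
    (φ : SemilinearAut (IsLocalRing.ResidueField A)
      (modularFunctionFieldFullC (IsLocalRing.ResidueField A) N))
    (cls : Place (IsLocalRing.ResidueField A)
      (modularFunctionFieldFullC (IsLocalRing.ResidueField A) N) → C) (Fr : C ≃ C)
    (hES1 : ∀ D ∈ Divisor.principal (K := Qb) (F := modularFunctionFieldBar N),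
      Finsupp.mapDomain r0 (heckeDivBar hα hβ D) =
        φ • Finsupp.mapDomain r0 D + (ℓ : ℤ) • (φ⁻¹ • Finsupp.mapDomain r0 D))
    (hES2 : ∀ P u : Place Qb (modularFunctionFieldBar N),
      u ∈ (heckeDivBar hα hβ (Finsupp.single P 1)).support →
        cls (r0 u) = Fr (cls (r0 P)) ∨ cls (r0 u) = Fr.symm (cls (r0 P)))
    (hφ : ∀ Q, cls (φ • Q) = Fr (cls Q) ∨ cls (φ • Q) = Fr.symm (cls Q))
    (hφ' : ∀ Q, cls (φ⁻¹ • Q) = Fr (cls Q) ∨ cls (φ⁻¹ • Q) = Fr.symm (cls Q))
    (htube : ∀ (P : Place Qb (modularFunctionFieldBar N)) (G : Finset C), cls (r0 P) ∈ G →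
      ∃ D ∈ Divisor.principal (K := Qb) (F := modularFunctionFieldBar N),
        D P = 1 ∧ ∀ P', P' ≠ P → cls (r0 P') ∈ G → D P' = 0)
    (D : Divisor Qb (modularFunctionFieldBar N)) :
    Finsupp.mapDomain r0 (heckeDivBar hα hβ D) =
      φ • Finsupp.mapDomain r0 D + (ℓ : ℤ) • (φ⁻¹ • Finsupp.mapDomain r0 D) := by
  have h := pe17_core (heckeDivBar hα hβ) r0 (φ • ·) (φ⁻¹ • ·) (ℓ : ℤ) cls Fr
    (Divisor.principal (K := Qb) (F := modularFunctionFieldBar N))
    (fun D hD => hES1 D hD)
    hES2 hφ hφ' htube D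
  exact h

set_option maxHeartbeats 1000000 in
/-- **ES on divisors (row ES3), weak-support form.**  `clsX` is the class of a place of the
generic fibre, `cls` the class of a place of the special fibre; the points of `T_ℓ P` reduce to
points with class in the finite set `Z (clsX P)`, and so do `φ • r0 P`, `φ⁻¹ • r0 P`; `W g`
contains every class `g'` such that `Z g'` meets `Z g`. -/
theorem pe17_div_weak {ℓ : ℕ} [NeZero ℓ] {C : Type*}
    (hα : HeckeAlphaBarIntegral Qb N ℓ) (hβ : HeckeBetaBarIntegral Qb N ℓ)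
    [HasPrincipalDivisors Qb (laurentBaseChange Qb (modularFunctionFieldFull (N * ℓ)))]
    (r0 : Place Qb (modularFunctionFieldBar N) →
      Place (IsLocalRing.ResidueField A)
        (modularFunctionFieldFullC (IsLocalRing.ResidueField A) N))
    (φ : SemilinearAut (IsLocalRing.ResidueField A)
      (modularFunctionFieldFullC (IsLocalRing.ResidueField A) N))
    (clsX : Place Qb (modularFunctionFieldBar N) → C)
    (cls : Place (IsLocalRing.ResidueField A)
      (modularFunctionFieldFullC (IsLocalRing.ResidueField A) N) → C)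
    (Z W : C → Finset C)
    (hW : ∀ g g' c, c ∈ Z g → c ∈ Z g' → g' ∈ W g)
    (hES1 : ∀ D ∈ Divisor.principal (K := Qb) (F := modularFunctionFieldBar N),
      Finsupp.mapDomain r0 (heckeDivBar hα hβ D) =
        φ • Finsupp.mapDomain r0 D + (ℓ : ℤ) • (φ⁻¹ • Finsupp.mapDomain r0 D))
    (hES2 : ∀ P u : Place Qb (modularFunctionFieldBar N),
      u ∈ (heckeDivBar hα hβ (Finsupp.single P 1)).support → cls (r0 u) ∈ Z (clsX P))
    (hφ : ∀ P, cls (φ • r0 P) ∈ Z (clsX P))
    (hφ' : ∀ P, cls (φ⁻¹ • r0 P) ∈ Z (clsX P))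
    (htube : ∀ (P : Place Qb (modularFunctionFieldBar N)) (G : Finset C), clsX P ∈ G →
      ∃ D ∈ Divisor.principal (K := Qb) (F := modularFunctionFieldBar N),
        D P = 1 ∧ ∀ P', P' ≠ P → clsX P' ∈ G → D P' = 0)
    (D : Divisor Qb (modularFunctionFieldBar N)) :
    Finsupp.mapDomain r0 (heckeDivBar hα hβ D) =
      φ • Finsupp.mapDomain r0 D + (ℓ : ℤ) • (φ⁻¹ • Finsupp.mapDomain r0 D) := by
  classical
  have hsingle : ∀ (P : Place Qb (modularFunctionFieldBar N))
      (Q : Place (IsLocalRing.ResidueField A)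
        (modularFunctionFieldFullC (IsLocalRing.ResidueField A) N)),
      Finsupp.mapDomain.addMonoidHom r0 (Finsupp.single P (1 : ℤ)) Q ≠ 0 → Q = r0 P := by
    intro P Q hQ
    by_contra hne
    apply hQ
    rw [Finsupp.mapDomain.addMonoidHom_apply, Finsupp.mapDomain_single,
      Finsupp.single_eq_of_ne hne]
  have h := pe17_weak (heckeDivBar hα hβ) (Finsupp.mapDomain.addMonoidHom r0)
    (φ • ·) (φ⁻¹ • ·) (ℓ : ℤ) clsX cls Z W hW
    (Divisor.principal (K := Qb) (F := modularFunctionFieldBar N))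
    (fun D hD => hES1 D hD)
    (fun P Q hQ => by
      have hmem : Q ∈ (Finsupp.mapDomain r0 (heckeDivBar hα hβ (Finsupp.single P 1))).support :=
        Finsupp.mem_support_iff.mpr hQ
      obtain ⟨u, hu, rfl⟩ := Finset.mem_image.mp (Finsupp.mapDomain_support hmem)
      exact hES2 P u hu)
    (fun P Q hQ => by rw [hsingle P Q hQ]; exact hφ P)
    (fun P Q hQ => by rw [hsingle P Q hQ]; exact hφ' P)
    htube D
  exact h

set_option maxHeartbeats 1000000 in
/-- The single-place form of the relation on divisors (clause 4 of `final13_Geo`,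
the last hypothesis of `h14_S37_of_placeReduction`). -/
theorem pe17_single_of_div {ℓ : ℕ} [NeZero ℓ]
    (hα : HeckeAlphaBarIntegral Qb N ℓ) (hβ : HeckeBetaBarIntegral Qb N ℓ)
    [HasPrincipalDivisors Qb (laurentBaseChange Qb (modularFunctionFieldFull (N * ℓ)))]
    (r0 : Place Qb (modularFunctionFieldBar N) →
      Place (IsLocalRing.ResidueField A)
        (modularFunctionFieldFullC (IsLocalRing.ResidueField A) N))
    (φ : SemilinearAut (IsLocalRing.ResidueField A)
      (modularFunctionFieldFullC (IsLocalRing.ResidueField A) N))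
    (hdiv : ∀ D : Divisor Qb (modularFunctionFieldBar N),
      Finsupp.mapDomain r0 (heckeDivBar hα hβ D) =
        φ • Finsupp.mapDomain r0 D + (ℓ : ℤ) • (φ⁻¹ • Finsupp.mapDomain r0 D))
    (P : Place Qb (modularFunctionFieldBar N)) :
    Finsupp.mapDomain r0 (heckeDivBar hα hβ (Finsupp.single P 1)) =
      Finsupp.single (φ • r0 P) 1 + Finsupp.single (φ⁻¹ • r0 P) (ℓ : ℤ) := by
  rw [hdiv, Finsupp.mapDomain_single, SemilinearAut.smul_single, SemilinearAut.smul_single,
    Finsupp.smul_single, smul_eq_mul, mul_one]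

omit [NeZero N] in
set_option maxHeartbeats 1000000 in
/-- Adapter for the tube hypothesis of `pe17_div`: a tube FUNCTION (row RC (iv)) gives a tube
DIVISOR, as soon as principal divisors exist on the generic fibre. -/
theorem pe17_tube_of_fun {C : Type*}
    [HasPrincipalDivisors Qb (modularFunctionFieldBar N)]
    (r0 : Place Qb (modularFunctionFieldBar N) →
      Place (IsLocalRing.ResidueField A)
        (modularFunctionFieldFullC (IsLocalRing.ResidueField A) N))
    (cls : Place (IsLocalRing.ResidueField A)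
      (modularFunctionFieldFullC (IsLocalRing.ResidueField A) N) → C)
    (htube : ∀ (P : Place Qb (modularFunctionFieldBar N)) (G : Finset C), cls (r0 P) ∈ G →
      ∃ f : modularFunctionFieldBar N, f ≠ 0 ∧ P.ord f = 1 ∧
        ∀ P', P' ≠ P → cls (r0 P') ∈ G → P'.ord f = 0)
    (P : Place Qb (modularFunctionFieldBar N)) (G : Finset C) (hP : cls (r0 P) ∈ G) :
    ∃ D ∈ Divisor.principal (K := Qb) (F := modularFunctionFieldBar N),
      D P = 1 ∧ ∀ P', P' ≠ P → cls (r0 P') ∈ G → D P' = 0 := by
  obtain ⟨f, hf0, hfP, hfG⟩ := htube P G hP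
  obtain ⟨D, hD, -⟩ := HasPrincipalDivisors.exists_divisor (K := Qb) f hf0
  refine ⟨D, ⟨f, hf0, hD⟩, ?_, ?_⟩
  · rw [hD P, hfP]
  · intro P' hne hG
    rw [hD P', hfG P' hne hG]

set_option maxHeartbeats 1000000 in
/-- **ES on `Pic⁰` from ES on divisors**: the relation `es` of `top13_RedData`. -/
theorem pe17_pic0 {ℓ : ℕ} [NeZero ℓ]
    (hα : HeckeAlphaBarIntegral Qb N ℓ) (hβ : HeckeBetaBarIntegral Qb N ℓ)
    [HasPrincipalDivisors Qb (laurentBaseChange Qb (modularFunctionFieldFull (N * ℓ)))]
    (hFI : FundamentalIdentityAlong Qb (heckeBetaBar Qb N ℓ) hβ)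
    (hfin : FiniteAlong Qb (heckeAlphaBar Qb N ℓ))
    (hN : NormFormulaAlong Qb (heckeAlphaBar Qb N ℓ) hfin)
    (r0 : Place Qb (modularFunctionFieldBar N) →
      Place (IsLocalRing.ResidueField A)
        (modularFunctionFieldFullC (IsLocalRing.ResidueField A) N))
    (hr : IsPlaceReductionModL A N r0)
    (hgen : PrincipalGeneratedByIntegral A (IsLocalRing.residue A) N)
    (φ : SemilinearAut (IsLocalRing.ResidueField A)
      (modularFunctionFieldFullC (IsLocalRing.ResidueField A) N))
    (hdiv : ∀ D : Divisor Qb (modularFunctionFieldBar N),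
      Finsupp.mapDomain r0 (heckeDivBar hα hβ D) =
        φ • Finsupp.mapDomain r0 D + (ℓ : ℤ) • (φ⁻¹ • Finsupp.mapDomain r0 D))
    (x : JZero N) :
    reductionPic0Along r0 hr hgen (heckeOperatorAlong Qb N ℓ x) =
      φ • reductionPic0Along r0 hr hgen x + ℓ • (φ⁻¹ • reductionPic0Along r0 hr hgen x) := by
  obtain ⟨D, rfl⟩ := Pic0.mk_surjective x
  rw [heckeOperatorAlong_eq hα hβ hFI hfin hN]
  have e1 : heckePic0Bar hα hβ hFI hfin hN (Pic0.mk D) =
      Pic0.mk (Pic0.degZeroCorrespondence (heckeBetaBar Qb N ℓ) (heckeAlphaBar Qb N ℓ)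
        hβ hα hFI D) := rfl
  rw [e1, reductionPic0Along_mk, reductionPic0Along_mk, SemilinearAut.pic0_smul_mk,
    SemilinearAut.pic0_smul_mk]
  have e2 : reductionDegZeroAlong r0 hr.1
      (Pic0.degZeroCorrespondence (heckeBetaBar Qb N ℓ) (heckeAlphaBar Qb N ℓ) hβ hα hFI D) =
      SemilinearAut.degZeroSMulHom φ (reductionDegZeroAlong r0 hr.1 D) +
        ℓ • SemilinearAut.degZeroSMulHom φ⁻¹ (reductionDegZeroAlong r0 hr.1 D) := by
    refine Subtype.ext ?_
    have h3 := hdiv (D : Divisor Qb (modularFunctionFieldBar N))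
    rw [natCast_zsmul] at h3
    rw [AddSubgroup.coe_add, AddSubgroup.coe_nsmul]
    exact h3
  rw [e2]
  rfl

/-- The same for `heckeOperatorBar` (the operator of the frozen statement). -/
theorem pe17_es (ℓ : Nat.Primes) [NeZero (ℓ : ℕ)]
    (hα : HeckeAlphaBarIntegral Qb N ℓ) (hβ : HeckeBetaBarIntegral Qb N ℓ)
    [HasPrincipalDivisors Qb (laurentBaseChange Qb (modularFunctionFieldFull (N * ℓ)))]
    (hFI : FundamentalIdentityAlong Qb (heckeBetaBar Qb N ℓ) hβ)
    (hfin : FiniteAlong Qb (heckeAlphaBar Qb N ℓ))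
    (hN : NormFormulaAlong Qb (heckeAlphaBar Qb N ℓ) hfin)
    (r0 : Place Qb (modularFunctionFieldBar N) →
      Place (IsLocalRing.ResidueField A)
        (modularFunctionFieldFullC (IsLocalRing.ResidueField A) N))
    (hr : IsPlaceReductionModL A N r0)
    (hgen : PrincipalGeneratedByIntegral A (IsLocalRing.residue A) N)
    (φ : SemilinearAut (IsLocalRing.ResidueField A)
      (modularFunctionFieldFullC (IsLocalRing.ResidueField A) N))
    (hdiv : ∀ D : Divisor Qb (modularFunctionFieldBar N),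
      Finsupp.mapDomain r0 (heckeDivBar hα hβ D) =
        φ • Finsupp.mapDomain r0 D + ((ℓ : ℕ) : ℤ) • (φ⁻¹ • Finsupp.mapDomain r0 D))
    (x : JZero N) :
    reductionPic0Along r0 hr hgen (heckeOperatorBar N ℓ x) =
      φ • reductionPic0Along r0 hr hgen x +
        (ℓ : ℕ) • (φ⁻¹ • reductionPic0Along r0 hr hgen x) :=
  pe17_pic0 hα hβ hFI hfin hN r0 hr hgen φ hdiv x

end Prelude

end Fermat.Agent.S37
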