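import Fermat.Agent.S37.GeoRC17
import Fermat.Agent.S37.HJInst91
import Fermat.Agent.S37.SepTower14
import Fermat.Agent.S37.PlacesSep14

/-!
# S37, Route V glue (helper91): the RC package `geo17_RC` from an `h`-chart place reduction

At a level `M` with an auxiliary Hauptmodul `h` (`j hᵉ = Nm(h)`, e.g. `2 ∣ M` or `3 ∣ M`), the
chart theory (rows RC-CORE / RC-GLUE / RC-INST) produces a place reduction `r0` which respects the
`h`-classes and has tube divisors for finite sets of `h`-classes.  This file turns that output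
into the `j`-vocabulary package `geo17_RC M A` (helper17), through the class dictionary
`HJClass91` / `HJInst91` and `geo17_RC_of_cls`:

* `rca91_RC_of_rel`: abstract coordinate pair `(XL, Xk)` with `j * X ^ e = Nm(X)` on both fibres;
* `rca91_RC_level2`, `rca91_RC_level3`: the Hauptmoduln `h₂ = h70_h2`, `h₃ = h34_h3R`; the
  coordinates enter as arbitrary elements of the function fields with the right `q`-expansion.
* `rca91_tube_of_fun`, `rca91_tube_of_red`: variants of the tube hypothesis (function form,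
  classes of `r0 P` instead of tube classes).
-/

set_option autoImplicit false
set_option linter.style.haveILetI false

namespace Fermat.Agent.S37

open ModularCurve AlgebraicCurve HahnSeries Polynomial
open Fermat.Agent.S24 Fermat.Agent.S18

local notation "Qb" => AlgebraicClosure ℚ

section NonConst

variable {K F : Type*} [Field K] [Field F] [Algebra K F]

/-- A coordinate `x` with `y * x ^ e = Nm(x)`, `Nm(0) ≠ 0`, `y` non-constant, is non-constant. -/
theorem rca91_ne_const (x y : F) (e : ℕ) (Nm : ℤ[X])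
    (h0 : ((Nm.eval 0 : ℤ) : K) ≠ 0) (hrel : y * x ^ e = Polynomial.aeval x Nm)
    (he : 0 < e) (hy : ∀ c : K, y ≠ algebraMap K F c) (c : K) : x ≠ algebraMap K F c := by
  intro hx
  have hNm : Polynomial.aeval x Nm = algebraMap K F (Polynomial.aeval c Nm) := by
    rw [hx, Polynomial.aeval_algebraMap_apply]
  by_cases hc : c = 0
  · -- `x = 0`: then `Nm(0) = 0`
    have hx0 : x = 0 := by rw [hx, hc, map_zero]
    rw [hNm, hx0, zero_pow he.ne', mul_zero] at hrel
    have h1 : Polynomial.aeval c Nm = 0 :=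
      (algebraMap K F).injective (by rw [← hrel, map_zero])
    apply h0
    rw [hc] at h1
    have h2 : Polynomial.aeval (0 : K) Nm = ((Nm.eval 0 : ℤ) : K) := by
      rw [Polynomial.aeval_def, Polynomial.eval₂_at_zero, ← Polynomial.coeff_zero_eq_eval_zero]
      rfl
    rw [← h2]
    exact h1
  · -- `x = c ≠ 0`: then `y = Nm(c) / c ^ e` is constant
    apply hy (Polynomial.aeval c Nm / c ^ e)
    have hce : algebraMap K F c ^ e ≠ 0 :=
      pow_ne_zero e ((map_ne_zero (algebraMap K F)).mpr hc)
    rw [map_div₀, map_pow, eq_div_iff hce, ← hx, hrel, hNm]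

end NonConst

section RC

set_option synthInstance.maxHeartbeats 400000
set_option maxHeartbeats 1000000

variable {M : ℕ} [NeZero M] {ℓ : ℕ} {A : ValuationSubring Qb}

/-- `j` is not constant on the generic fibre. -/
theorem rca91_j_ne_const (c : Qb) :
    es87_j Qb M ≠ algebraMap Qb (modularFunctionFieldBar M) c := by
  intro h
  have htr := hi63_x_transcendental M
  rw [geo17_x_eq_j, h] at htr
  exact htr (isAlgebraic_algebraMap c)

omit [NeZero M] in
/-- `j̄` is not constant on the special fibre. -/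
theorem rca91_jbar_ne_const (k : Type*) [Field k] (c : k) :
    geo17_jbar k M ≠ algebraMap k (modularFunctionFieldFullC k M) c := by
  intro h
  have htr := rc5_j_transcendental k M
  have hj : rc5_j k M = geo17_jbar k M := rfl
  rw [hj, h] at htr
  exact htr (isAlgebraic_algebraMap c)

/-- Every function regular at a place of the generic fibre has a value there, or is constant. -/
theorem rca91_hF1_L (P : Place Qb (modularFunctionFieldBar M)) (f : modularFunctionFieldBar M)
    (hf : f ∈ P.toValuationSubring) :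
    ∃ c : Qb, f = algebraMap Qb (modularFunctionFieldBar M) c ∨
      0 < P.ord (f - algebraMap Qb (modularFunctionFieldBar M) c) := by
  haveI := hi63_finite_x M
  exact wp1_exists_const (hi63_x M) (hi63_x_transcendental M) P f hf

/-- Every function regular at a place of the special fibre has a value there, or is constant. -/
theorem rca91_hF1_k (k : Type*) [Field k] [IsAlgClosed k]
    (Q : Place k (modularFunctionFieldFullC k M)) (f : modularFunctionFieldFullC k M)
    (hf : f ∈ Q.toValuationSubring) :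
    ∃ c : k, f = algebraMap k (modularFunctionFieldFullC k M) c ∨
      0 < Q.ord (f - algebraMap k (modularFunctionFieldFullC k M) c) := by
  haveI := rc5_finiteDimensional k M
  exact wp1_exists_const (rc5_j k M) (rc5_j_transcendental k M) Q f hf

/-- The two class dictionaries `j`-class = `Jmap (X-class)` for a coordinate with
`j * X ^ e = Nm(X)` on both fibres. -/
theorem rca91_dict (e : ℕ) (he : 0 < e) (Nm : ℤ[X]) (hm : Nm.Monic) (hd : e < Nm.natDegree)
    (h0 : ((Nm.eval 0 : ℤ) : IsLocalRing.ResidueField A) ≠ 0)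
    [IsAlgClosed (IsLocalRing.ResidueField A)]
    (XL : modularFunctionFieldBar M)
    (Xk : modularFunctionFieldFullC (IsLocalRing.ResidueField A) M)
    (hrelL : es87_j Qb M * XL ^ e = Polynomial.aeval XL Nm)
    (hrelk : geo17_jbar (IsLocalRing.ResidueField A) M * Xk ^ e = Polynomial.aeval Xk Nm) :
    (∀ Q, cx91_cls (geo17_jbar (IsLocalRing.ResidueField A) M) Q =
      hj91_Jmap (IsLocalRing.ResidueField A) e Nm (cx91_cls Xk Q)) ∧
    (∀ P, cx91_clsL A (es87_j Qb M) P =
      hj91_Jmap (IsLocalRing.ResidueField A) e Nm (cx91_clsL A XL P)) := by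
  have h0L : ((Nm.eval 0 : ℤ) : Qb) ≠ 0 := by
    intro h
    apply h0
    have h1 : (Nm.eval 0 : ℤ) = 0 := by exact_mod_cast h
    rw [h1, Int.cast_zero]
  have hXk := rca91_ne_const Xk (geo17_jbar (IsLocalRing.ResidueField A) M) e Nm h0 hrelk he
    (rca91_jbar_ne_const (IsLocalRing.ResidueField A))
  have hXL := rca91_ne_const XL (es87_j Qb M) e Nm h0L hrelL he rca91_j_ne_const
  exact ⟨hj91_cls_k Xk (geo17_jbar (IsLocalRing.ResidueField A) M) e he Nm hm hd h0 hrelk
      (rca91_jbar_ne_const (IsLocalRing.ResidueField A))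
      (hj91_htot_of_hF1 Xk hXk (rca91_hF1_k (IsLocalRing.ResidueField A))),
    hj91_cls_L (A := A) XL (es87_j Qb M) e he Nm hm hd h0 hrelL rca91_j_ne_const
      (hj91_htot_of_hF1 XL hXL rca91_hF1_L)⟩

/-- `j`-class compatibility from `X`-class compatibility. -/
theorem rca91_hcls_j (e : ℕ) (he : 0 < e) (Nm : ℤ[X]) (hm : Nm.Monic) (hd : e < Nm.natDegree)
    (h0 : ((Nm.eval 0 : ℤ) : IsLocalRing.ResidueField A) ≠ 0)
    [IsAlgClosed (IsLocalRing.ResidueField A)]
    (XL : modularFunctionFieldBar M)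
    (Xk : modularFunctionFieldFullC (IsLocalRing.ResidueField A) M)
    (hrelL : es87_j Qb M * XL ^ e = Polynomial.aeval XL Nm)
    (hrelk : geo17_jbar (IsLocalRing.ResidueField A) M * Xk ^ e = Polynomial.aeval Xk Nm)
    (r0 : Place Qb (modularFunctionFieldBar M) →
      Place (IsLocalRing.ResidueField A)
        (modularFunctionFieldFullC (IsLocalRing.ResidueField A) M))
    (hcls : ∀ P : Place Qb (modularFunctionFieldBar M), cx91_cls Xk (r0 P) = cx91_clsL A XL P)
    (P : Place Qb (modularFunctionFieldBar M)) :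
    cx91_cls (geo17_jbar (IsLocalRing.ResidueField A) M) (r0 P) =
      cx91_clsL A (es87_j Qb M) P := by
  obtain ⟨hk, hL⟩ := rca91_dict e he Nm hm hd h0 XL Xk hrelL hrelk
  exact hj91_hcls XL (es87_j Qb M) Xk (geo17_jbar (IsLocalRing.ResidueField A) M) e Nm hk hL r0
    hcls P

/-- **The RC package from an `h`-chart place reduction** (abstract relation `j * X ^ e = Nm(X)`
on both fibres): class compatibility and tube divisors for the `X`-classes give `geo17_RC`. -/
theorem rca91_RC_of_rel (hℓ : ℓ.Prime) (hℓM : ¬ ℓ ∣ M) (hA : A.LiesOverPrime ℓ)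
    (e : ℕ) (he : 0 < e) (Nm : ℤ[X]) (hm : Nm.Monic) (hd : e < Nm.natDegree)
    (h0 : ((Nm.eval 0 : ℤ) : IsLocalRing.ResidueField A) ≠ 0)
    (XL : modularFunctionFieldBar M)
    (Xk : modularFunctionFieldFullC (IsLocalRing.ResidueField A) M)
    (hrelL : es87_j Qb M * XL ^ e = Polynomial.aeval XL Nm)
    (hrelk : geo17_jbar (IsLocalRing.ResidueField A) M * Xk ^ e = Polynomial.aeval Xk Nm)
    (r0 : Place Qb (modularFunctionFieldBar M) →
      Place (IsLocalRing.ResidueField A)
        (modularFunctionFieldFullC (IsLocalRing.ResidueField A) M))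
    (hr : IsPlaceReductionModL A M r0)
    (hcls : ∀ P : Place Qb (modularFunctionFieldBar M), cx91_cls Xk (r0 P) = cx91_clsL A XL P)
    (htube : ∀ (P : Place Qb (modularFunctionFieldBar M))
      (G : Finset (Option (IsLocalRing.ResidueField A))), cx91_clsL A XL P ∈ G →
      ∃ D ∈ Divisor.principal (K := Qb) (F := modularFunctionFieldBar M), D P = 1 ∧
        ∀ P', P' ≠ P → cx91_clsL A XL P' ∈ G → D P' = 0) :
    geo17_RC M A := by
  classical
  haveI := rc5_isAlgClosed_residueField A
  obtain ⟨-, hL⟩ := rca91_dict e he Nm hm hd h0 XL Xk hrelL hrelk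
  refine geo17_RC_of_cls hℓ hℓM hA r0 hr
    (rca91_hcls_j e he Nm hm hd h0 XL Xk hrelL hrelk r0 hcls) (fun P G hG => ?_)
  rw [hL P] at hG
  obtain ⟨D, hD, hDP, hDG⟩ := hj91_tube_comp (cx91_clsL A XL)
    (hj91_Jmap (IsLocalRing.ResidueField A) e Nm) (hj91_Jmap_fibre_finite e Nm hm hd)
    (Divisor.principal (K := Qb) (F := modularFunctionFieldBar M) : Set _) htube P G hG
  exact ⟨D, hD, hDP, fun P' hne hG' => hDG P' hne (by rw [← hL P']; exact hG')⟩

end RC

/-! ### Variants of the hypotheses -/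

section Variants

set_option synthInstance.maxHeartbeats 400000
set_option maxHeartbeats 1000000

/-- **Class compatibility from the evaluation statements** of the two-chart gluing
(`cg89_r0_coord`, `cg89_r0_pole` shapes): a point with coordinate `a ∈ A` reduces to a point
with coordinate `res a`, every other point reduces to a pole. -/
theorem rca91_hcls_of_coord {L : Type*} [Field L] [Algebra ℚ L] {A : ValuationSubring L} {N : ℕ}
    (XL : laurentBaseChange L (modularFunctionFieldFull N))
    (Xk : modularFunctionFieldFullC (IsLocalRing.ResidueField A) N)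
    (r0 : Place L (laurentBaseChange L (modularFunctionFieldFull N)) →
      Place (IsLocalRing.ResidueField A)
        (modularFunctionFieldFullC (IsLocalRing.ResidueField A) N))
    (hcoord : ∀ (P : Place L (laurentBaseChange L (modularFunctionFieldFull N))) (a : A),
      0 < P.ord (XL - algebraMap L (laurentBaseChange L (modularFunctionFieldFull N)) (a : L)) →
      0 < (r0 P).ord (Xk - algebraMap (IsLocalRing.ResidueField A)
        (modularFunctionFieldFullC (IsLocalRing.ResidueField A) N) (IsLocalRing.residue A a)))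
    (hpole : ∀ P : Place L (laurentBaseChange L (modularFunctionFieldFull N)),
      (¬ ∃ a : A, 0 < P.ord (XL -
        algebraMap L (laurentBaseChange L (modularFunctionFieldFull N)) (a : L))) →
      (r0 P).ord Xk < 0)
    (P : Place L (laurentBaseChange L (modularFunctionFieldFull N))) :
    cx91_cls Xk (r0 P) = cx91_clsL A XL P := by
  by_cases hex : ∃ a : A, 0 < P.ord (XL -
      algebraMap L (laurentBaseChange L (modularFunctionFieldFull N)) (a : L))
  · obtain ⟨a, ha⟩ := hex
    rw [cx91_clsL_eq_some XL P a ha, cx91_cls_eq_some_iff]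
    exact hcoord P a ha
  · rw [(cx91_clsL_eq_none_iff XL P).mpr (fun a ha => hex ⟨a, ha⟩), cx91_cls_eq_none_iff]
    intro c hc
    exact geo17_not_pole_of_value (r0 P) _ c hc (hpole P hex)

/-- Tube functions for finite sets of points of the special fibre give tube functions for finite
sets of classes, as soon as the class map has finite fibres. -/
theorem rca91_tube_of_S {X Y C Φ : Type*} (r : X → Y) (cls : Y → C)
    (hfin : ∀ G : Finset C, {Q : Y | cls Q ∈ G}.Finite) (T1 T0 : X → Φ → Prop)
    (htubeS : ∀ (S : Finset Y) (P : X), r P ∈ S →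
      ∃ f : Φ, T1 P f ∧ ∀ P', P' ≠ P → r P' ∈ S → T0 P' f)
    (P : X) (G : Finset C) (hP : cls (r P) ∈ G) :
    ∃ f : Φ, T1 P f ∧ ∀ P', P' ≠ P → cls (r P') ∈ G → T0 P' f := by
  classical
  obtain ⟨f, hfP, hf⟩ := htubeS (hfin G).toFinset P ((hfin G).mem_toFinset.mpr hP)
  exact ⟨f, hfP, fun P' hne hG' => hf P' hne ((hfin G).mem_toFinset.mpr hG')⟩

/-- The `j̄`-class map of the special fibre has finite fibres (`k` algebraically closed). -/
theorem rca91_cls_fibre_finite (k : Type*) [Field k] [IsAlgClosed k] (M : ℕ) [NeZero M]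
    (G : Finset (Option k)) :
    {Q : Place k (modularFunctionFieldFullC k M) | cx91_cls (geo17_jbar k M) Q ∈ G}.Finite := by
  classical
  haveI := rc5_finiteDimensional k M
  haveI := rc5_isSeparable_full k M
  have hj : rc5_j k M = geo17_jbar k M := rfl
  have hsome : ∀ c : k, {Q : Place k (modularFunctionFieldFullC k M) |
      cx91_cls (geo17_jbar k M) Q = some c}.Finite := by
    intro c
    refine (ps14_finite_zeros (rc5_j k M) (rc5_j_transcendental k M) c).subset ?_
    intro Q hQ
    rw [Set.mem_ofPred_eq, cx91_cls_eq_some_iff] at hQ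
    exact hQ
  have hnone : {Q : Place k (modularFunctionFieldFullC k M) |
      cx91_cls (geo17_jbar k M) Q = none}.Finite := by
    haveI := ps14_finiteDimensional_inv (K := k) (rc5_j k M)
    haveI := ps14_isSeparable_inv (K := k) (rc5_j k M)
    refine (ps14_finite_zeros (rc5_j k M)⁻¹
      (ps14_transcendental_inv (rc5_j_transcendental k M)) 0).subset ?_
    intro Q hQ
    rw [Set.mem_ofPred_eq, cx91_cls_eq_none_iff] at hQ
    rw [Set.mem_ofPred_eq, map_zero, sub_zero, Place.ord_inv, hj]
    rcases geo17_dichotomy_k k M Q with h | ⟨c, hc⟩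
    · omega
    · exact absurd hc (hQ c)
  have hsub : {Q : Place k (modularFunctionFieldFullC k M) | cx91_cls (geo17_jbar k M) Q ∈ G} ⊆
      ⋃ g ∈ (G : Set (Option k)), {Q | cx91_cls (geo17_jbar k M) Q = g} := by
    intro Q hQ
    exact Set.mem_biUnion (Finset.mem_coe.mpr hQ) rfl
  refine (Set.Finite.biUnion G.finite_toSet (fun g _ => ?_)).subset hsub
  cases g with
  | none => exact hnone
  | some c => exact hsome c

variable {M : ℕ} [NeZero M] {ℓ : ℕ} {A : ValuationSubring Qb}

/-- **The RC package from `j`-class compatibility and tube functions for finite sets of points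
of the special fibre** (the output shape of the tube toolkit `tb21_tube_fun`). -/
theorem rca91_RC_of_cls_S (hℓ : ℓ.Prime) (hℓM : ¬ ℓ ∣ M) (hA : A.LiesOverPrime ℓ)
    (r0 : Place Qb (modularFunctionFieldBar M) →
      Place (IsLocalRing.ResidueField A)
        (modularFunctionFieldFullC (IsLocalRing.ResidueField A) M))
    (hr : IsPlaceReductionModL A M r0)
    (hcls : ∀ P : Place Qb (modularFunctionFieldBar M),
      cx91_cls (geo17_jbar (IsLocalRing.ResidueField A) M) (r0 P) =
        cx91_clsL A (es87_j Qb M) P)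
    (htubeS : ∀ (S : Finset (Place (IsLocalRing.ResidueField A)
        (modularFunctionFieldFullC (IsLocalRing.ResidueField A) M)))
      (P : Place Qb (modularFunctionFieldBar M)), r0 P ∈ S →
      ∃ f : modularFunctionFieldBar M, f ≠ 0 ∧ P.ord f = 1 ∧
        ∀ P', P' ≠ P → r0 P' ∈ S → P'.ord f = 0) :
    geo17_RC M A := by
  classical
  haveI := rc5_isAlgClosed_residueField A
  haveI := hi63_hasPrincipalDivisors_bar M
  refine geo17_RC_of_cls hℓ hℓM hA r0 hr hcls (fun P G hG => ?_)
  rw [← hcls P] at hG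
  obtain ⟨f, ⟨hf0, hfP⟩, hf⟩ := rca91_tube_of_S r0
    (cx91_cls (geo17_jbar (IsLocalRing.ResidueField A) M))
    (rca91_cls_fibre_finite (IsLocalRing.ResidueField A) M)
    (fun (P : Place Qb (modularFunctionFieldBar M)) (f : modularFunctionFieldBar M) =>
      f ≠ 0 ∧ P.ord f = 1)
    (fun (P : Place Qb (modularFunctionFieldBar M)) (f : modularFunctionFieldBar M) =>
      P.ord f = 0)
    (fun S P hS => by
      obtain ⟨f, hf0, hfP, hf⟩ := htubeS S P hS
      exact ⟨f, ⟨hf0, hfP⟩, hf⟩) P G hG
  obtain ⟨D, hD, -⟩ := HasPrincipalDivisors.exists_divisor (K := Qb) f hf0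
  refine ⟨D, ⟨f, hf0, hD⟩, ?_, fun P' hne hG' => ?_⟩
  · rw [hD P, hfP]
  · rw [hD P']
    exact hf P' hne (by rw [hcls P']; exact hG')

/-- **The RC package from an `h`-chart place reduction, tube functions for finite sets of
points**: `X`-class compatibility (abstract relation `j * X ^ e = Nm(X)` on both fibres) and
the tube toolkit in the `tb21_tube_fun` shape give `geo17_RC`. -/
theorem rca91_RC_of_rel_S (hℓ : ℓ.Prime) (hℓM : ¬ ℓ ∣ M) (hA : A.LiesOverPrime ℓ)
    (e : ℕ) (he : 0 < e) (Nm : ℤ[X]) (hm : Nm.Monic) (hd : e < Nm.natDegree)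
    (h0 : ((Nm.eval 0 : ℤ) : IsLocalRing.ResidueField A) ≠ 0)
    (XL : modularFunctionFieldBar M)
    (Xk : modularFunctionFieldFullC (IsLocalRing.ResidueField A) M)
    (hrelL : es87_j Qb M * XL ^ e = Polynomial.aeval XL Nm)
    (hrelk : geo17_jbar (IsLocalRing.ResidueField A) M * Xk ^ e = Polynomial.aeval Xk Nm)
    (r0 : Place Qb (modularFunctionFieldBar M) →
      Place (IsLocalRing.ResidueField A)
        (modularFunctionFieldFullC (IsLocalRing.ResidueField A) M))
    (hr : IsPlaceReductionModL A M r0)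
    (hcls : ∀ P : Place Qb (modularFunctionFieldBar M), cx91_cls Xk (r0 P) = cx91_clsL A XL P)
    (htubeS : ∀ (S : Finset (Place (IsLocalRing.ResidueField A)
        (modularFunctionFieldFullC (IsLocalRing.ResidueField A) M)))
      (P : Place Qb (modularFunctionFieldBar M)), r0 P ∈ S →
      ∃ f : modularFunctionFieldBar M, f ≠ 0 ∧ P.ord f = 1 ∧
        ∀ P', P' ≠ P → r0 P' ∈ S → P'.ord f = 0) :
    geo17_RC M A := by
  haveI := rc5_isAlgClosed_residueField A
  exact rca91_RC_of_cls_S hℓ hℓM hA r0 hr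
    (rca91_hcls_j e he Nm hm hd h0 XL Xk hrelL hrelk r0 hcls) htubeS

end Variants

/-! ### Levels divisible by 2 or 3 -/

section Levels

set_option synthInstance.maxHeartbeats 400000
set_option maxHeartbeats 1000000

variable {M : ℕ} [NeZero M] {ℓ : ℕ} {A : ValuationSubring Qb}

omit [NeZero M] in
/-- A prime `p₀ ≠ ℓ` is invertible in the residue field of a valuation ring over `ℓ`. -/
theorem rca91_prime_ne_zero (hℓ : ℓ.Prime) (hA : A.LiesOverPrime ℓ) {p₀ : ℕ} (hp₀ : p₀.Prime)
    (hne : ℓ ≠ p₀) : ((p₀ : ℕ) : IsLocalRing.ResidueField A) ≠ 0 :=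
  ga41_natCast_ne_zero (N := p₀) A hℓ hA
    (fun hd => hne ((Nat.prime_dvd_prime_iff_eq hℓ hp₀).mp hd))

omit [NeZero M] in
theorem rca91_rel2_L (XL : modularFunctionFieldBar M)
    (hXL : (XL : LaurentSeries Qb) = h70_h2 Qb) :
    es87_j Qb M * XL ^ 2 = Polynomial.aeval XL hj91_Nm2 := by
  rw [hj91_aeval_Nm2]
  apply Subtype.ext
  push_cast
  rw [es87_coe_j, hXL]
  exact h70_j_mul_h2_sq Qb

omit [NeZero M] in
theorem rca91_rel2_k {k : Type*} [Field k] (Xk : modularFunctionFieldFullC k M)
    (hXk : (Xk : LaurentSeries k) = h70_h2 k) :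
    geo17_jbar k M * Xk ^ 2 = Polynomial.aeval Xk hj91_Nm2 := by
  rw [hj91_aeval_Nm2]
  apply Subtype.ext
  push_cast
  rw [geo17_coe_jbar, hXk]
  exact h70_j_mul_h2_sq k

omit [NeZero M] in
theorem rca91_rel3_L (XL : modularFunctionFieldBar M)
    (hXL : (XL : LaurentSeries Qb) = h34_h3R Qb) :
    es87_j Qb M * XL ^ 3 = Polynomial.aeval XL hj91_Nm3 := by
  rw [hj91_aeval_Nm3]
  apply Subtype.ext
  push_cast
  rw [es87_coe_j, hXL]
  exact h34_h3R_j Qb

omit [NeZero M] in
theorem rca91_rel3_k {k : Type*} [Field k] (Xk : modularFunctionFieldFullC k M)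
    (hXk : (Xk : LaurentSeries k) = h34_h3R k) :
    geo17_jbar k M * Xk ^ 3 = Polynomial.aeval Xk hj91_Nm3 := by
  rw [hj91_aeval_Nm3]
  apply Subtype.ext
  push_cast
  rw [geo17_coe_jbar, hXk]
  exact h34_h3R_j k

omit [NeZero M] in
theorem rca91_Nm2_ne_zero (hℓ : ℓ.Prime) (hA : A.LiesOverPrime ℓ) (hℓ2 : ℓ ≠ 2) :
    ((hj91_Nm2.eval 0 : ℤ) : IsLocalRing.ResidueField A) ≠ 0 := by
  have h2 : (2 : IsLocalRing.ResidueField A) ≠ 0 := by
    have h := rca91_prime_ne_zero hℓ hA Nat.prime_two hℓ2
    exact_mod_cast h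
  rw [hj91_Nm2_eval_zero, Int.cast_pow, Int.cast_ofNat]
  exact pow_ne_zero 24 h2

omit [NeZero M] in
theorem rca91_Nm3_ne_zero (hℓ : ℓ.Prime) (hA : A.LiesOverPrime ℓ) (hℓ3 : ℓ ≠ 3) :
    ((hj91_Nm3.eval 0 : ℤ) : IsLocalRing.ResidueField A) ≠ 0 := by
  have h3 : (3 : IsLocalRing.ResidueField A) ≠ 0 := by
    have h := rca91_prime_ne_zero hℓ hA Nat.prime_three hℓ3
    exact_mod_cast h
  rw [hj91_Nm3_eval_zero, Int.cast_pow, Int.cast_ofNat]
  exact pow_ne_zero 18 h3

/-- **`geo17_RC` at a level with the Hauptmodul `h₂`** (`ℓ ≠ 2`), tube divisors for finite sets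
of `h₂`-classes.  `XL`, `Xk` are any elements of the two function fields with `q`-expansion
`h70_h2`. -/
theorem rca91_RC_level2 (hℓ : ℓ.Prime) (hℓM : ¬ ℓ ∣ M) (hA : A.LiesOverPrime ℓ) (hℓ2 : ℓ ≠ 2)
    (XL : modularFunctionFieldBar M) (hXL : (XL : LaurentSeries Qb) = h70_h2 Qb)
    (Xk : modularFunctionFieldFullC (IsLocalRing.ResidueField A) M)
    (hXk : (Xk : LaurentSeries (IsLocalRing.ResidueField A)) = h70_h2 (IsLocalRing.ResidueField A))
    (r0 : Place Qb (modularFunctionFieldBar M) →
      Place (IsLocalRing.ResidueField A)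
        (modularFunctionFieldFullC (IsLocalRing.ResidueField A) M))
    (hr : IsPlaceReductionModL A M r0)
    (hcls : ∀ P : Place Qb (modularFunctionFieldBar M), cx91_cls Xk (r0 P) = cx91_clsL A XL P)
    (htube : ∀ (P : Place Qb (modularFunctionFieldBar M))
      (G : Finset (Option (IsLocalRing.ResidueField A))), cx91_clsL A XL P ∈ G →
      ∃ D ∈ Divisor.principal (K := Qb) (F := modularFunctionFieldBar M), D P = 1 ∧
        ∀ P', P' ≠ P → cx91_clsL A XL P' ∈ G → D P' = 0) :
    geo17_RC M A :=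
  rca91_RC_of_rel hℓ hℓM hA 2 (by norm_num) hj91_Nm2 hj91_Nm2_monic
    (by rw [hj91_Nm2_natDegree]; norm_num) (rca91_Nm2_ne_zero hℓ hA hℓ2) XL Xk
    (rca91_rel2_L XL hXL) (rca91_rel2_k Xk hXk) r0 hr hcls htube

/-- **`geo17_RC` at a level with the Hauptmodul `h₃`** (`ℓ ≠ 3`), tube divisors for finite sets
of `h₃`-classes. -/
theorem rca91_RC_level3 (hℓ : ℓ.Prime) (hℓM : ¬ ℓ ∣ M) (hA : A.LiesOverPrime ℓ) (hℓ3 : ℓ ≠ 3)
    (XL : modularFunctionFieldBar M) (hXL : (XL : LaurentSeries Qb) = h34_h3R Qb)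
    (Xk : modularFunctionFieldFullC (IsLocalRing.ResidueField A) M)
    (hXk : (Xk : LaurentSeries (IsLocalRing.ResidueField A)) =
      h34_h3R (IsLocalRing.ResidueField A))
    (r0 : Place Qb (modularFunctionFieldBar M) →
      Place (IsLocalRing.ResidueField A)
        (modularFunctionFieldFullC (IsLocalRing.ResidueField A) M))
    (hr : IsPlaceReductionModL A M r0)
    (hcls : ∀ P : Place Qb (modularFunctionFieldBar M), cx91_cls Xk (r0 P) = cx91_clsL A XL P)
    (htube : ∀ (P : Place Qb (modularFunctionFieldBar M))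
      (G : Finset (Option (IsLocalRing.ResidueField A))), cx91_clsL A XL P ∈ G →
      ∃ D ∈ Divisor.principal (K := Qb) (F := modularFunctionFieldBar M), D P = 1 ∧
        ∀ P', P' ≠ P → cx91_clsL A XL P' ∈ G → D P' = 0) :
    geo17_RC M A :=
  rca91_RC_of_rel hℓ hℓM hA 3 (by norm_num) hj91_Nm3 hj91_Nm3_monic
    (by rw [hj91_Nm3_natDegree]; norm_num) (rca91_Nm3_ne_zero hℓ hA hℓ3) XL Xk
    (rca91_rel3_L XL hXL) (rca91_rel3_k Xk hXk) r0 hr hcls htube

/-- `geo17_RC` at a level with `h₂`, tube functions for finite sets of points of the special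
fibre (`tb21_tube_fun` shape). -/
theorem rca91_RC_level2_S (hℓ : ℓ.Prime) (hℓM : ¬ ℓ ∣ M) (hA : A.LiesOverPrime ℓ) (hℓ2 : ℓ ≠ 2)
    (XL : modularFunctionFieldBar M) (hXL : (XL : LaurentSeries Qb) = h70_h2 Qb)
    (Xk : modularFunctionFieldFullC (IsLocalRing.ResidueField A) M)
    (hXk : (Xk : LaurentSeries (IsLocalRing.ResidueField A)) = h70_h2 (IsLocalRing.ResidueField A))
    (r0 : Place Qb (modularFunctionFieldBar M) →
      Place (IsLocalRing.ResidueField A)
        (modularFunctionFieldFullC (IsLocalRing.ResidueField A) M))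
    (hr : IsPlaceReductionModL A M r0)
    (hcls : ∀ P : Place Qb (modularFunctionFieldBar M), cx91_cls Xk (r0 P) = cx91_clsL A XL P)
    (htubeS : ∀ (S : Finset (Place (IsLocalRing.ResidueField A)
        (modularFunctionFieldFullC (IsLocalRing.ResidueField A) M)))
      (P : Place Qb (modularFunctionFieldBar M)), r0 P ∈ S →
      ∃ f : modularFunctionFieldBar M, f ≠ 0 ∧ P.ord f = 1 ∧
        ∀ P', P' ≠ P → r0 P' ∈ S → P'.ord f = 0) :
    geo17_RC M A :=
  rca91_RC_of_rel_S hℓ hℓM hA 2 (by norm_num) hj91_Nm2 hj91_Nm2_monic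
    (by rw [hj91_Nm2_natDegree]; norm_num) (rca91_Nm2_ne_zero hℓ hA hℓ2) XL Xk
    (rca91_rel2_L XL hXL) (rca91_rel2_k Xk hXk) r0 hr hcls htubeS

/-- `geo17_RC` at a level with `h₃`, tube functions for finite sets of points of the special
fibre (`tb21_tube_fun` shape). -/
theorem rca91_RC_level3_S (hℓ : ℓ.Prime) (hℓM : ¬ ℓ ∣ M) (hA : A.LiesOverPrime ℓ) (hℓ3 : ℓ ≠ 3)
    (XL : modularFunctionFieldBar M) (hXL : (XL : LaurentSeries Qb) = h34_h3R Qb)
    (Xk : modularFunctionFieldFullC (IsLocalRing.ResidueField A) M)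
    (hXk : (Xk : LaurentSeries (IsLocalRing.ResidueField A)) =
      h34_h3R (IsLocalRing.ResidueField A))
    (r0 : Place Qb (modularFunctionFieldBar M) →
      Place (IsLocalRing.ResidueField A)
        (modularFunctionFieldFullC (IsLocalRing.ResidueField A) M))
    (hr : IsPlaceReductionModL A M r0)
    (hcls : ∀ P : Place Qb (modularFunctionFieldBar M), cx91_cls Xk (r0 P) = cx91_clsL A XL P)
    (htubeS : ∀ (S : Finset (Place (IsLocalRing.ResidueField A)
        (modularFunctionFieldFullC (IsLocalRing.ResidueField A) M)))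
      (P : Place Qb (modularFunctionFieldBar M)), r0 P ∈ S →
      ∃ f : modularFunctionFieldBar M, f ≠ 0 ∧ P.ord f = 1 ∧
        ∀ P', P' ≠ P → r0 P' ∈ S → P'.ord f = 0) :
    geo17_RC M A :=
  rca91_RC_of_rel_S hℓ hℓM hA 3 (by norm_num) hj91_Nm3 hj91_Nm3_monic
    (by rw [hj91_Nm3_natDegree]; norm_num) (rca91_Nm3_ne_zero hℓ hA hℓ3) XL Xk
    (rca91_rel3_L XL hXL) (rca91_rel3_k Xk hXk) r0 hr hcls htubeS

end Levels

end Fermat.Agent.S37
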