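import Fermat.Agent.S37.DegZeroAsm64
import Fermat.Agent.S37.DegZeroInst66
import Fermat.Agent.S37.ChartModRed80
import Fermat.Agent.S37.Equiv73c
import Fermat.Agent.S37.GaussPGI41
import Fermat.Agent.S37.GaussBasis41
import Fermat.Agent.S18.SepLaurent

/-!
# S37, row ESZ-Close (helper64): the frozen statement S37, hypothesis-free, via the weak Riemann
route

* `h64_isPlaceReduction_of_cons` : the Prelude statement `IsPlaceReductionModL A M r0` from the
  conservation clause of `cg89_Reduction` for the Gauss ring `ga41_V M A hM`.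
* `h64_rc` : `h64_RC M A` for the levels `M` divisible by `2` or `3` and `A` over a prime
  `ℓ ∤ M`: the reduction map of `cm80_exists_reduction_h2 / _h3` (helper80, helper31, helper89,
  helper93, ...), `ga41_pgi` (helper41) and `eq73_reduction_smul` (helper73).
* `h64_S37` : the frozen statement S37 (literal type), from `h64_S37_of_WR_RC`, the weak Riemann
  property `dz66_WR_modular` (helper15, helper66) and `h64_rc`.
-/

set_option autoImplicit false
set_option linter.style.haveILetI false
set_option synthInstance.maxHeartbeats 400000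
set_option maxHeartbeats 1000000

namespace Fermat.Agent.S37

open ModularCurve AlgebraicCurve IntermediateField Fermat.Agent.S24 Fermat.Agent.S18

local notation "Qb" => AlgebraicClosure ℚ

section Close

variable (M : ℕ) [NeZero M] (A : ValuationSubring Qb)
  (hM : (M : IsLocalRing.ResidueField A) ≠ 0)

theorem h64_deg_bar (P : Place Qb ↥(modularFunctionFieldBar M)) : P.deg = 1 := by
  haveI := (ga41_finrank_bar M).1
  exact wp1_deg_eq_one (ga41_jF M) (ga41_transcendental_jF M) P

include hM in
theorem h64_deg_res (Q : Place (IsLocalRing.ResidueField A)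
    ↥(modularFunctionFieldFullC (IsLocalRing.ResidueField A) M)) : Q.deg = 1 := by
  haveI := rc5_isAlgClosed_residueField A
  haveI := (ga41_finrank_res M (IsLocalRing.ResidueField A) hM).1
  exact wp1_deg_eq_one (ga41_jk M (IsLocalRing.ResidueField A))
    (ga41_transcendental_jk M (IsLocalRing.ResidueField A)) Q

/-- **The Prelude place-reduction statement from the conservation clause of `cg89_Reduction`.** -/
theorem h64_isPlaceReduction_of_cons {x : ↥(ga41_V M A hM)}
    {r0 : Place Qb ↥(modularFunctionFieldBar M) →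
      Place (IsLocalRing.ResidueField A)
        ↥(modularFunctionFieldFullC (IsLocalRing.ResidueField A) M)}
    (h : cg89_Reduction A (ga41_V M A hM) (cm80_red M A hM) x r0) :
    IsPlaceReductionModL A M r0 := by
  refine ⟨fun P => ?_, ?_⟩
  · rw [h64_deg_bar, h64_deg_res M A hM]
  · intro y hy hyk hne D hD Q
    have hyO : (⟨coeffMap A.subtype y, hy⟩ : ↥(modularFunctionFieldBar M)) ∈ ga41_V M A hM :=
      ga41_mem_O_of_integral y rfl
    have hred : cm80_red M A hM ⟨_, hyO⟩ = ⟨coeffMap (IsLocalRing.residue A) y, hyk⟩ := by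
      apply Subtype.ext
      exact ga41_redHom_integral _ y rfl
    have hne' : cm80_red M A hM ⟨_, hyO⟩ ≠ 0 := by
      rw [hred]
      intro h0
      exact hne (congrArg Subtype.val h0)
    have h1 := h.cons ⟨_, hyO⟩ hne' D hD Q
    rw [hred] at h1
    exact h1

end Close

section RC

/-- **The reduction data at the levels divisible by `2` or `3`.** -/
theorem h64_rc (M : ℕ) [NeZero M] (ℓ : ℕ) (hℓ : ℓ.Prime) (hℓM : ¬ ℓ ∣ M) (h23 : 2 ∣ M ∨ 3 ∣ M)
    (A : ValuationSubring Qb) (hA : A.LiesOverPrime ℓ) : h64_RC M A := by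
  have hM : (M : IsLocalRing.ResidueField A) ≠ 0 := ga41_natCast_ne_zero M A hℓ hA hℓM
  have hcop : Nat.Coprime M ℓ := ((Nat.Prime.coprime_iff_not_dvd hℓ).mpr hℓM).symm
  rcases h23 with h2 | h3
  · obtain ⟨r0, hr0⟩ := cm80_exists_reduction_h2 A hℓ hA M hcop hM h2
    exact ⟨r0, h64_isPlaceReduction_of_cons M A hM hr0, ga41_pgi M A hM,
      eq73_reduction_smul M A hM (fun _ _ => rfl) hr0 (h70_h2 ℤ) rfl⟩
  · obtain ⟨r0, hr0⟩ := cm80_exists_reduction_h3 A hℓ hA M hcop hM h3
    exact ⟨r0, h64_isPlaceReduction_of_cons M A hM hr0, ga41_pgi M A hM,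
      eq73_reduction_smul M A hM (fun _ _ => rfl) hr0 (h34_h3R ℤ) rfl⟩

end RC

section Final

/-- **The frozen statement S37**, hypothesis-free. -/
theorem h64_S37 (N p : ℕ) [NeZero N] (hcomm : ModularCurve.HeckeOperatorsCommuteBar N) :
    letI := ModularCurve.heckeModuleBar N
    ∀ (_ : SMulCommClass (AlgebraicClosure ℚ ≃ₐ[ℚ] AlgebraicClosure ℚ) ModularCurve.HeckeAlg
      (ModularCurve.JZero N)),
      ModularCurve.SpecializationExists (K := ℚ) (L := AlgebraicClosure ℚ) N p
        (ModularCurve.JZero N) :=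
  h64_S37_of_WR_RC N p hcomm (fun M _ => dz66_WR_modular M)
    (fun M _ ℓ hℓ hℓM h23 A hA => h64_rc M ℓ hℓ hℓM h23 A hA)

end Final

end Fermat.Agent.S37
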