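import Fermat.Agent.S37.ChartGlueCore89
import Fermat.Agent.S37.Tube21
import Fermat.Agent.S37.DiscCoord25
import Fermat.Agent.S37.ClassX91
import Fermat.Agent.S37.GaussRed41
import Fermat.Agent.S37.HeckeInputs63
import Fermat.Agent.S18.ResConst
import Fermat.Agent.S18.SepLaurent

/-!
# S37, row RC (helper48): the final assembly of the place reduction

From two charts (`cg89_Chart`, coordinates `x` and `x⁻¹`) of the pair
(generic fibre `F = modularFunctionFieldBar M`, special fibre `F_k = modularFunctionFieldFullC k M`)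
over the Gauss ring `(ga41_O M A, ga41_red)`:

* `rcf48_lift`      : chart lifting + CRT (`tb21_Lift`) from a chart;
* `rcf48_finite`    : finitely many places of the special fibre over a finite set of classes;
* `rcf48_tube`      : the tube functions for an arbitrary finite set of places of the special
  fibre (`tb21_tube_fun` with all hypotheses discharged from the two charts);
* `rcf48_main`      : for the modular function field: the centre map `r0 = cg89_r0 h1 h2` is a
  place reduction in the sense of the Prelude (`IsPlaceReductionModL`), respects the classes of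
  the chart coordinate (`cx91_cls`, `cx91_clsL`) and has tube divisors for finite class sets.
-/

set_option autoImplicit false
set_option linter.style.haveILetI false

open Polynomial AlgebraicCurve IsDedekindDomain

namespace Fermat.Agent.S37

open Fermat.Agent.S24 Fermat.Agent.S18

section Generic

variable {L : Type*} [Field L] {A : ValuationSubring L}
  {F : Type*} [Field F] [Algebra L F] {Fk : Type*} [Field Fk]
  [Algebra (IsLocalRing.ResidueField A) Fk]
  {O : Subring F} {red : O →+* Fk}

section OneChart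

variable {x : F} {xbar : Fk}
  {B : Type*} [CommRing B] [IsDedekindDomain B] [Algebra L[X] B] [Algebra L B]
  [Algebra B F] [IsFractionRing B F] [IsScalarTower L B F]
  {Bk : Type*} [CommRing Bk] [IsDedekindDomain Bk] [Algebra (IsLocalRing.ResidueField A)[X] Bk]
  [Algebra (IsLocalRing.ResidueField A) Bk] [Algebra Bk Fk] [IsFractionRing Bk Fk]
  [IsScalarTower (IsLocalRing.ResidueField A) Bk Fk]
  {BA : Subring B} {ρ : BA →+* Bk}

/-- Transport of a chart along equalities of the coordinates. -/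
theorem rcf48_chart_congr {x' : F} {xbar' : Fk} (hx : x = x') (hxb : xbar = xbar')
    (h : cg89_Chart A O red x xbar BA ρ) : cg89_Chart A O red x' xbar' BA ρ := by
  subst hx
  subst hxb
  exact h

/-- The coordinate of the special fibre is not a constant. -/
theorem rcf48_xbar_ne_const (h : cg89_Chart A O red x xbar BA ρ)
    (c : IsLocalRing.ResidueField A) :
    xbar ≠ algebraMap (IsLocalRing.ResidueField A) Fk c := by
  intro hc
  have h1 := h.hXk (X - C c)
  have e : aeval xbar (X - C c) = 0 := by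
    rw [map_sub, aeval_X, aeval_C, hc, sub_self]
  rw [e] at h1
  have h2 := (map_eq_zero_iff _ (IsFractionRing.injective Bk Fk)).mp h1
  have h3 := (map_eq_zero_iff _ h.injk).mp h2
  exact X_sub_C_ne_zero c h3

/-- Every place of the special fibre is a pole of the coordinate or carries a value. -/
theorem rcf48_dichotomy_k [IsAlgClosed (IsLocalRing.ResidueField A)]
    (h : cg89_Chart A O red x xbar BA ρ) (Q : Place (IsLocalRing.ResidueField A) Fk) :
    Q.ord xbar < 0 ∨
      ∃ c : IsLocalRing.ResidueField A,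
        0 < Q.ord (xbar - algebraMap (IsLocalRing.ResidueField A) Fk c) := by
  by_cases hQ : xbar ∈ Q.toValuationSubring
  · right
    obtain ⟨w, rfl⟩ := h.coverk Q hQ
    have := h.intk
    obtain ⟨c, hc⟩ := cg89_exists_coord (K := IsLocalRing.ResidueField A) w
    exact ⟨c, (cg89_mem_iff_ord_pos h.hXk h.injk w c).mp hc⟩
  · left
    by_contra hn
    exact hQ ((wp1_mem_iff_ord_nonneg Q xbar).mpr (not_lt.mp hn))

/-- Finitely many places of the special fibre have a given finite coordinate. -/
theorem rcf48_finite_coord (h : cg89_Chart A O red x xbar BA ρ)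
    (c : IsLocalRing.ResidueField A) :
    {Q : Place (IsLocalRing.ResidueField A) Fk |
      0 < Q.ord (xbar - algebraMap (IsLocalRing.ResidueField A) Fk c)}.Finite := by
  classical
  have h0 : algebraMap (IsLocalRing.ResidueField A)[X] Bk (X - C c) ≠ 0 :=
    (map_ne_zero_iff _ h.injk).mpr (X_sub_C_ne_zero c)
  have hI : Ideal.span {algebraMap (IsLocalRing.ResidueField A)[X] Bk (X - C c)} ≠ 0 := by
    rw [Ne, Ideal.zero_eq_bot, Ideal.span_singleton_eq_bot]
    exact h0
  refine ((Ideal.finite_factors hI).image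
    (fun w => Place.ofHeightOneSpectrum (K := IsLocalRing.ResidueField A) (F := Fk) w)).subset ?_
  intro Q hQ
  obtain ⟨w, rfl⟩ := h.coverk Q (cg89_mem_of_coord Q hQ)
  refine ⟨w, ?_, rfl⟩
  rw [Set.mem_ofPred_eq, Ideal.dvd_span_singleton]
  exact (cg89_mem_iff_ord_pos h.hXk h.injk w c).mpr hQ

/-- **Chart lifting + CRT** (`tb21_Lift`) from a chart. -/
theorem rcf48_lift (h : cg89_Chart A O red x xbar BA ρ) (xO : O) (hxO : (xO : F) = x) :
    tb21_Lift L (IsLocalRing.ResidueField A) O red xO := by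
  classical
  obtain ⟨hx, hredx⟩ := cg89_red_x h
  have hredxO : red xO = xbar := by
    have e : xO = ⟨x, hx⟩ := Subtype.ext hxO
    rw [e, hredx]
  intro Q₀ S hQ₀ hS
  rw [hredxO] at hQ₀
  obtain ⟨w₀, rfl⟩ := h.coverk Q₀ ((wp1_mem_iff_ord_nonneg _ _).mpr hQ₀)
  have hSw : ∀ Q ∈ S, ∃ w : HeightOneSpectrum Bk,
      Place.ofHeightOneSpectrum (K := IsLocalRing.ResidueField A) (F := Fk) w = Q := by
    intro Q hQ
    have h1 := hS Q hQ
    rw [hredxO] at h1
    exact h.coverk Q ((wp1_mem_iff_ord_nonneg _ _).mpr h1)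
  haveI : Nonempty (HeightOneSpectrum Bk) := ⟨w₀⟩
  choose! wS hwS using hSw
  obtain ⟨z, hz1, hz2⟩ := dc25_crt (S.image wS) w₀
  obtain ⟨b, rfl⟩ := h.chart.surj z
  have hbO : algebraMap B F (b : B) ∈ O := (h.mem_BA _).mp b.2
  refine ⟨⟨_, hbO⟩, ?_, ?_, ?_⟩
  · intro P hP
    rw [hxO] at hP
    obtain ⟨w, rfl⟩ := h.cover P ((wp1_mem_iff_ord_nonneg _ _).mpr hP)
    exact (wp1_mem_iff_ord_nonneg _ _).mp (cg89_algebraMap_mem w _)
  · rw [← h.rho_red b hbO, wp1a_ord_ofHeightOneSpectrum,
      HeightOneSpectrum.valuation_of_algebraMap, hz1, WithZero.log_exp]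
    norm_num
  · intro Q hQ hne
    have hw : wS Q ≠ w₀ := by
      intro h0
      apply hne
      rw [← hwS Q hQ, h0]
    have hmem := hz2 (wS Q) (Finset.mem_image_of_mem _ hQ) hw
    have hne1 : ρ b - 1 ≠ 0 := by
      intro h0
      have h1 : ρ b = 1 := sub_eq_zero.mp h0
      rw [h1, map_one] at hz1
      have h2 := congrArg WithZero.log hz1
      rw [WithZero.log_one, WithZero.log_exp] at h2
      norm_num at h2
    have e : red ⟨algebraMap B F (b : B), hbO⟩ - 1 = algebraMap Bk Fk (ρ b - 1) := by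
      rw [map_sub, map_one, h.rho_red b hbO]
    rw [e, ← hwS Q hQ]
    exact (wp1a_ord_pos_iff _ hne1).mpr hmem

end OneChart

section TwoCharts

variable {x : F} {xbar : Fk}
  {B₁ : Type*} [CommRing B₁] [IsDedekindDomain B₁] [Algebra L[X] B₁] [Algebra L B₁]
  [Algebra B₁ F] [IsFractionRing B₁ F] [IsScalarTower L B₁ F]
  {Bk₁ : Type*} [CommRing Bk₁] [IsDedekindDomain Bk₁]
  [Algebra (IsLocalRing.ResidueField A)[X] Bk₁]
  [Algebra (IsLocalRing.ResidueField A) Bk₁] [Algebra Bk₁ Fk] [IsFractionRing Bk₁ Fk]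
  [IsScalarTower (IsLocalRing.ResidueField A) Bk₁ Fk]
  {BA₁ : Subring B₁} {ρ₁ : BA₁ →+* Bk₁}
  {B₂ : Type*} [CommRing B₂] [IsDedekindDomain B₂] [Algebra L[X] B₂] [Algebra L B₂]
  [Algebra B₂ F] [IsFractionRing B₂ F] [IsScalarTower L B₂ F]
  {Bk₂ : Type*} [CommRing Bk₂] [IsDedekindDomain Bk₂]
  [Algebra (IsLocalRing.ResidueField A)[X] Bk₂]
  [Algebra (IsLocalRing.ResidueField A) Bk₂] [Algebra Bk₂ Fk] [IsFractionRing Bk₂ Fk]
  [IsScalarTower (IsLocalRing.ResidueField A) Bk₂ Fk]
  {BA₂ : Subring B₂} {ρ₂ : BA₂ →+* Bk₂}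

/-- Finitely many places of the special fibre are poles of the coordinate. -/
theorem rcf48_finite_poles (h2 : cg89_Chart A O red x⁻¹ xbar⁻¹ BA₂ ρ₂) :
    {Q : Place (IsLocalRing.ResidueField A) Fk | Q.ord xbar < 0}.Finite := by
  refine (rcf48_finite_coord h2 0).subset ?_
  intro Q hQ
  rw [Set.mem_ofPred_eq] at hQ ⊢
  rw [map_zero, sub_zero, Place.ord_inv]
  omega

/-- Finitely many places of the special fibre lie over a finite set of finite classes or over
the class `∞`. -/
theorem rcf48_finite (h1 : cg89_Chart A O red x xbar BA₁ ρ₁)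
    (h2 : cg89_Chart A O red x⁻¹ xbar⁻¹ BA₂ ρ₂) (G : Finset (IsLocalRing.ResidueField A)) :
    {Q : Place (IsLocalRing.ResidueField A) Fk |
      (∃ c ∈ G, 0 < Q.ord (xbar - algebraMap (IsLocalRing.ResidueField A) Fk c)) ∨
        Q.ord xbar < 0}.Finite := by
  have hfin : (⋃ c ∈ (G : Set (IsLocalRing.ResidueField A)),
      {Q : Place (IsLocalRing.ResidueField A) Fk |
        0 < Q.ord (xbar - algebraMap (IsLocalRing.ResidueField A) Fk c)}).Finite :=
    Set.Finite.biUnion G.finite_toSet (fun c _ => rcf48_finite_coord h1 c)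
  refine (hfin.union (rcf48_finite_poles h2)).subset ?_
  rintro Q (⟨c, hc, hQ⟩ | hQ)
  · left
    simp only [Set.mem_iUnion, Set.mem_ofPred_eq]
    exact ⟨c, hc, hQ⟩
  · right
    exact hQ

/-- **The tube functions** for the centre map of two charts: for every finite set `S` of places
of the special fibre and every place `P` reducing into `S` there is a function with a simple zero
at `P` and neither zero nor pole at the other places reducing into `S`. -/
theorem rcf48_tube [IsAlgClosed L] [IsAlgClosed (IsLocalRing.ResidueField A)]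
    [HasPrincipalDivisors L F]
    (h1 : cg89_Chart A O red x xbar BA₁ ρ₁) (h2 : cg89_Chart A O red x⁻¹ xbar⁻¹ BA₂ ρ₂)
    (hconst : ∀ a : A, ∃ h : algebraMap L F (a : L) ∈ O,
      red ⟨algebraMap L F (a : L), h⟩ =
        algebraMap (IsLocalRing.ResidueField A) Fk (IsLocalRing.residue A a))
    (hunit : ∀ v : O, red v ≠ 0 → ∃ u : O, v * u = 1)
    (hval : ∀ (P : Place L F) (f : F), 0 ≤ P.ord f →
      ∃ τ : L, f = algebraMap L F τ ∨ 0 < P.ord (f - algebraMap L F τ))
    (S : Finset (Place (IsLocalRing.ResidueField A) Fk)) (P : Place L F)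
    (hP : cg89_r0 h1 h2 P ∈ S) :
    ∃ f : F, f ≠ 0 ∧ P.ord f = 1 ∧
      ∀ P' : Place L F, P' ≠ P → cg89_r0 h1 h2 P' ∈ S → P'.ord f = 0 := by
  obtain ⟨hx, hredx⟩ := cg89_red_x h1
  obtain ⟨hy, -⟩ := cg89_red_x h2
  have hG : tb21_Gauss A (IsLocalRing.residue A) (cg89_r0 h1 h2) O red :=
    { ker := fun a ha => by
        rw [IsLocalRing.residue_eq_zero_iff, IsLocalRing.mem_maximalIdeal, mem_nonunits_iff]
        exact ha
      const := hconst
      unit := hunit
      cons := fun v hv D hD Q => cg89_conservation h1 h2 v hv D hD Q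
      val := hval }
  have hxy : (⟨x, hx⟩ : O) * ⟨x⁻¹, hy⟩ = 1 :=
    Subtype.ext (mul_inv_cancel₀ (cg89_x_ne_zero h1))
  have hC : tb21_Class A (IsLocalRing.residue A) (cg89_r0 h1 h2) O red ⟨x, hx⟩ :=
    { nonconst := fun c => by
        rw [hredx]
        exact rcf48_xbar_ne_const h1 c
      cl1 := fun P a ha => by
        rw [hredx]
        exact cg89_r0_coord h1 h2 P a ha
      cl2 := fun P a ha hP => by
        rw [hredx]
        exact cg89_r0_of_notMem h1 h2 P a ha hP
      cl3 := fun P hP => by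
        rw [hredx]
        exact cg89_r0_of_pole h1 h2 P hP }
  exact tb21_tube_fun hG IsLocalRing.residue_surjective hxy hC (rcf48_lift h1 ⟨x, hx⟩ rfl)
    (rcf48_lift h2 ⟨x⁻¹, hy⟩ rfl) S P hP

end TwoCharts

end Generic

section Modular

set_option synthInstance.maxHeartbeats 400000

open ModularCurve

local notation "Qb" => AlgebraicClosure ℚ

variable (M : ℕ) [NeZero M] (A : ValuationSubring Qb)
  {O : Subring ↥(modularFunctionFieldBar M)}
  {red : O →+* ↥(modularFunctionFieldFullC (IsLocalRing.ResidueField A) M)}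
  {XL : ↥(modularFunctionFieldBar M)}
  {Xk : ↥(modularFunctionFieldFullC (IsLocalRing.ResidueField A) M)}
  {B₁ : Type*} [CommRing B₁] [IsDedekindDomain B₁] [Algebra Qb[X] B₁] [Algebra Qb B₁]
  [Algebra B₁ ↥(modularFunctionFieldBar M)] [IsFractionRing B₁ ↥(modularFunctionFieldBar M)]
  [IsScalarTower Qb B₁ ↥(modularFunctionFieldBar M)]
  {Bk₁ : Type*} [CommRing Bk₁] [IsDedekindDomain Bk₁]
  [Algebra (IsLocalRing.ResidueField A)[X] Bk₁]
  [Algebra (IsLocalRing.ResidueField A) Bk₁]
  [Algebra Bk₁ ↥(modularFunctionFieldFullC (IsLocalRing.ResidueField A) M)]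
  [IsFractionRing Bk₁ ↥(modularFunctionFieldFullC (IsLocalRing.ResidueField A) M)]
  [IsScalarTower (IsLocalRing.ResidueField A) Bk₁
    ↥(modularFunctionFieldFullC (IsLocalRing.ResidueField A) M)]
  {BA₁ : Subring B₁} {ρ₁ : BA₁ →+* Bk₁}
  {B₂ : Type*} [CommRing B₂] [IsDedekindDomain B₂] [Algebra Qb[X] B₂] [Algebra Qb B₂]
  [Algebra B₂ ↥(modularFunctionFieldBar M)] [IsFractionRing B₂ ↥(modularFunctionFieldBar M)]
  [IsScalarTower Qb B₂ ↥(modularFunctionFieldBar M)]
  {Bk₂ : Type*} [CommRing Bk₂] [IsDedekindDomain Bk₂]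
  [Algebra (IsLocalRing.ResidueField A)[X] Bk₂]
  [Algebra (IsLocalRing.ResidueField A) Bk₂]
  [Algebra Bk₂ ↥(modularFunctionFieldFullC (IsLocalRing.ResidueField A) M)]
  [IsFractionRing Bk₂ ↥(modularFunctionFieldFullC (IsLocalRing.ResidueField A) M)]
  [IsScalarTower (IsLocalRing.ResidueField A) Bk₂
    ↥(modularFunctionFieldFullC (IsLocalRing.ResidueField A) M)]
  {BA₂ : Subring B₂} {ρ₂ : BA₂ →+* Bk₂}

set_option maxHeartbeats 1000000 in
/-- **RC, final assembly.**  Two charts (coordinates `XL`, `XL⁻¹`) of the modular function field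
of level `M` over the Gauss ring `(ga41_O M A, ga41_redHom)` give a place reduction
`r0 = cg89_r0 h1 h2` in the sense of the Prelude, which respects the classes of the chart
coordinate and has tube divisors for arbitrary finite sets of classes. -/
theorem rcf48_main
    (hO : ∀ f : ↥(modularFunctionFieldBar M), f ∈ O ↔ f ∈ ga41_O M A)
    (hred : ∀ (f : ↥(modularFunctionFieldBar M)) (hf : f ∈ O),
      ((red ⟨f, hf⟩ : ↥(modularFunctionFieldFullC (IsLocalRing.ResidueField A) M)) :
        LaurentSeries (IsLocalRing.ResidueField A)) =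
        ga41_redHom (⟨f, (hO f).mp hf⟩ : ga41_O M A))
    (h1 : cg89_Chart A O red XL Xk BA₁ ρ₁) (h2 : cg89_Chart A O red XL⁻¹ Xk⁻¹ BA₂ ρ₂) :
    IsPlaceReductionModL A M (cg89_r0 h1 h2) ∧
    (∀ P : Place Qb (modularFunctionFieldBar M),
      cx91_cls Xk (cg89_r0 h1 h2 P) = cx91_clsL A XL P) ∧
    (∀ (P : Place Qb (modularFunctionFieldBar M))
      (G : Finset (Option (IsLocalRing.ResidueField A))), cx91_clsL A XL P ∈ G →
      ∃ D ∈ Divisor.principal (K := Qb) (F := modularFunctionFieldBar M), D P = 1 ∧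
        ∀ P', P' ≠ P → cx91_clsL A XL P' ∈ G → D P' = 0) := by
  classical
  haveI : IsAlgClosed (IsLocalRing.ResidueField A) := rc5_isAlgClosed_residueField A
  haveI := hi63_hasPrincipalDivisors_bar M
  haveI := hi63_finite_x M
  haveI := rc5_finiteDimensional (IsLocalRing.ResidueField A) M
  -- the Gauss package
  have hconst : ∀ a : A, ∃ h : algebraMap Qb ↥(modularFunctionFieldBar M) (a : Qb) ∈ O,
      red ⟨algebraMap Qb ↥(modularFunctionFieldBar M) (a : Qb), h⟩ =
        algebraMap (IsLocalRing.ResidueField A)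
          ↥(modularFunctionFieldFullC (IsLocalRing.ResidueField A) M)
          (IsLocalRing.residue A a) := by
    intro a
    refine ⟨(hO _).mpr (ga41_algebraMap_mem M A a), Subtype.ext ?_⟩
    rw [hred]
    exact ga41_redHom_algebraMap M A a
  have hunit : ∀ v : O, red v ≠ 0 → ∃ u : O, v * u = 1 := by
    intro v hv
    have hv' : ga41_redHom (⟨(v : ↥(modularFunctionFieldBar M)), (hO _).mp v.2⟩ : ga41_O M A)
        ≠ 0 := by
      intro h0
      apply hv
      apply Subtype.ext
      rw [hred (v : ↥(modularFunctionFieldBar M)) v.2, h0]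
      rfl
    obtain ⟨u, hu⟩ := ((ga41_isUnit_iff M A _).mpr hv').exists_right_inv
    refine ⟨⟨(u : ↥(modularFunctionFieldBar M)), (hO _).mpr u.2⟩, Subtype.ext ?_⟩
    have h3 : (v : ↥(modularFunctionFieldBar M)) * (u : ↥(modularFunctionFieldBar M)) = 1 :=
      congrArg Subtype.val hu
    exact h3
  have hval : ∀ (P : Place Qb (modularFunctionFieldBar M)) (f : ↥(modularFunctionFieldBar M)),
      0 ≤ P.ord f → ∃ τ : Qb, f = algebraMap Qb ↥(modularFunctionFieldBar M) τ ∨
        0 < P.ord (f - algebraMap Qb ↥(modularFunctionFieldBar M) τ) := by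
    intro P f hf
    exact wp1_exists_const (hi63_x M) (hi63_x_transcendental M) P f
      ((wp1_mem_iff_ord_nonneg P f).mpr hf)
  refine ⟨⟨fun P => ?_, fun y hy hyk hne D hD Q => ?_⟩, fun P => ?_, fun P G hG => ?_⟩
  · -- degrees
    rw [wp1_deg_eq_one (hi63_x M) (hi63_x_transcendental M) P,
      wp1_deg_eq_one (rc5_j (IsLocalRing.ResidueField A) M)
        (rc5_j_transcendental (IsLocalRing.ResidueField A) M) _]
  · -- conservation
    have hfO : (⟨coeffMap A.subtype y, hy⟩ : ↥(modularFunctionFieldBar M)) ∈ O :=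
      (hO _).mpr (ga41_mem_O_of_integral y rfl)
    have hredf : red ⟨_, hfO⟩ = ⟨coeffMap (IsLocalRing.residue A) y, hyk⟩ := by
      apply Subtype.ext
      rw [hred]
      exact ga41_redHom_integral _ y rfl
    have hf : red ⟨_, hfO⟩ ≠ 0 := by
      rw [hredf]
      intro h0
      exact hne (congrArg Subtype.val h0)
    have hcons := cg89_conservation h1 h2 ⟨_, hfO⟩ hf D hD Q
    rw [hcons, hredf]
  · -- classes
    by_cases hex : ∃ a : A, 0 < P.ord (XL -
        algebraMap Qb ↥(modularFunctionFieldBar M) (a : Qb))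
    · obtain ⟨a, ha⟩ := hex
      rw [cx91_clsL_eq_some XL P a ha, cx91_cls_eq_some_iff]
      exact cg89_r0_coord h1 h2 P a ha
    · have hpole := cg89_r0_pole h1 h2 P hex
      rw [(cx91_clsL_eq_none_iff XL P).mpr (fun a ha => hex ⟨a, ha⟩), cx91_cls_eq_none_iff]
      intro c hc
      have h3 := (wp1_mem_iff_ord_nonneg _ Xk).mp (cg89_mem_of_coord _ hc)
      omega
  · -- tube divisors
    set S : Finset (Place (IsLocalRing.ResidueField A)
        (modularFunctionFieldFullC (IsLocalRing.ResidueField A) M)) :=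
      (rcf48_finite h1 h2 G.eraseNone).toFinset with hS
    have hmem : ∀ P' : Place Qb (modularFunctionFieldBar M), cx91_clsL A XL P' ∈ G →
        cg89_r0 h1 h2 P' ∈ S := by
      intro P' hP'
      rw [hS, Set.Finite.mem_toFinset, Set.mem_ofPred_eq]
      by_cases hex : ∃ a : A, 0 < P'.ord (XL -
          algebraMap Qb ↥(modularFunctionFieldBar M) (a : Qb))
      · obtain ⟨a, ha⟩ := hex
        left
        rw [cx91_clsL_eq_some XL P' a ha] at hP'
        exact ⟨IsLocalRing.residue A a, Finset.mem_eraseNone.mpr hP',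
          cg89_r0_coord h1 h2 P' a ha⟩
      · right
        exact cg89_r0_pole h1 h2 P' hex
    obtain ⟨f, hf0, hfP, hfS⟩ := rcf48_tube h1 h2 hconst hunit hval S P (hmem P hG)
    obtain ⟨D, hD, -⟩ := HasPrincipalDivisors.exists_divisor (K := Qb) f hf0
    refine ⟨D, ⟨f, hf0, hD⟩, ?_, fun P' hne hG' => ?_⟩
    · rw [hD P, hfP]
    · rw [hD P', hfS P' hne (hmem P' hG')]

end Modular

end Fermat.Agent.S37
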