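import Fermat.Agent.S37.RCFinal48
import Fermat.Agent.S37.ChartGlueInst89
import Fermat.Agent.S37.ChartModInst31

/-!
# S37, row RC (helper48): the place reduction at the levels divisible by `2` or `3`

Instantiation of `rcf48_main` (RCFinal48) at the chart rings of `ChartInst31` / `ChartModInst31`:

* `rcf48_Red`, `rcf48_red_of_charts`, `rcf48_exists_red` : the chart-ring-free output of the
  two-chart gluing, from two `h48_Chart` instances (coordinates `x`, `y = x⁻¹` of a Gauss ring);
* `rcf48_main_red`  : `rcf48_main` from the chart-ring-free package;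
* `rcf48_of_ka`     : the same for an integer chart coordinate `g` with inverse `g'`, from chart
  normality (`ka46_NormalAt`) for `g` and `g'`;
* `rcf48_level2`, `rcf48_level3` : the Hauptmodul charts `h₂` (`2 ∣ M`) and `h₃` (`3 ∣ M`).
-/

set_option autoImplicit false
set_option linter.style.haveILetI false

open Polynomial AlgebraicCurve IsDedekindDomain

namespace Fermat.Agent.S37

open Fermat.Agent.S24 Fermat.Agent.S18 Fermat.Agent.S28

section GenericRed

variable {L : Type*} [Field L] {F : Type*} [Field F] [Algebra L F]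

/-- **The output of the two-chart gluing, free of chart rings**: a reduction map `r0` on places
for a Gauss ring `(O, red)` and a coordinate `x` with reduction `xbar`: conservation of number,
the coordinate of the reduction of a point, finiteness of the fibres of the class map on the
special fibre, and tube functions for arbitrary finite sets of places of the special fibre. -/
structure rcf48_Red (A : ValuationSubring L) {Fk : Type*} [Field Fk]
    [Algebra (IsLocalRing.ResidueField A) Fk] (O : Subring F) (red : O →+* Fk) (x : F) (xbar : Fk)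
    (r0 : Place L F → Place (IsLocalRing.ResidueField A) Fk) : Prop where
  /-- conservation of number -/
  cons : ∀ f : O, red f ≠ 0 → ∀ D : Divisor L F, (∀ P, D P = P.ord (f : F)) →
    ∀ Q, Finsupp.mapDomain r0 D Q = Q.ord (red f)
  /-- a point with coordinate `a ∈ A` reduces to a point with coordinate `res a` -/
  coord : ∀ (P : Place L F) (a : A), 0 < P.ord (x - algebraMap L F (a : L)) →
    0 < (r0 P).ord (xbar - algebraMap (IsLocalRing.ResidueField A) Fk (IsLocalRing.residue A a))
  /-- a point without coordinate in `A` reduces to a pole of the coordinate -/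
  pole : ∀ P : Place L F, (¬ ∃ a : A, 0 < P.ord (x - algebraMap L F (a : L))) →
    (r0 P).ord xbar < 0
  /-- finitely many places of the special fibre over a finite set of classes -/
  finite : ∀ G : Finset (IsLocalRing.ResidueField A),
    {Q : Place (IsLocalRing.ResidueField A) Fk |
      (∃ c ∈ G, 0 < Q.ord (xbar - algebraMap (IsLocalRing.ResidueField A) Fk c)) ∨
        Q.ord xbar < 0}.Finite
  /-- tube functions for finite sets of places of the special fibre -/
  tube : HasPrincipalDivisors L F →
    (∀ a : A, ∃ h : algebraMap L F (a : L) ∈ O,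
      red ⟨algebraMap L F (a : L), h⟩ =
        algebraMap (IsLocalRing.ResidueField A) Fk (IsLocalRing.residue A a)) →
    (∀ v : O, red v ≠ 0 → ∃ u : O, v * u = 1) →
    (∀ (P : Place L F) (f : F), 0 ≤ P.ord f →
      ∃ τ : L, f = algebraMap L F τ ∨ 0 < P.ord (f - algebraMap L F τ)) →
    ∀ (S : Finset (Place (IsLocalRing.ResidueField A) Fk)) (P : Place L F), r0 P ∈ S →
      ∃ f : F, f ≠ 0 ∧ P.ord f = 1 ∧ ∀ P' : Place L F, P' ≠ P → r0 P' ∈ S → P'.ord f = 0

section OfCharts

variable {A : ValuationSubring L} {Fk : Type*} [Field Fk]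
  [Algebra (IsLocalRing.ResidueField A) Fk]
  {O : Subring F} {red : O →+* Fk} {x : F} {xbar : Fk}
  {B₁ : Type*} [CommRing B₁] [IsDedekindDomain B₁] [Algebra L[X] B₁] [Algebra L B₁]
  [Algebra B₁ F] [IsFractionRing B₁ F] [IsScalarTower L B₁ F]
  {Bk₁ : Type*} [CommRing Bk₁] [IsDedekindDomain Bk₁]
  [Algebra (IsLocalRing.ResidueField A)[X] Bk₁]
  [Algebra (IsLocalRing.ResidueField A) Bk₁] [Algebra Bk₁ Fk] [IsFractionRing Bk₁ Fk]
  [IsScalarTower (IsLocalRing.ResidueField A) Bk₁ Fk]
  {BA₁ : Subring B₁} {ρ₁ : BA₁ →+* Bk₁}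
  {B₂ : Type*} [CommRing B₂] [IsDedekindDomain B₂] [Algebra L[X] B₂] [Algebra L B₂]
  [Algebra B₂ F] [IsFractionRing B₂ F] [IsScalarTower L B₂ F]
  {Bk₂ : Type*} [CommRing Bk₂] [IsDedekindDomain Bk₂]
  [Algebra (IsLocalRing.ResidueField A)[X] Bk₂]
  [Algebra (IsLocalRing.ResidueField A) Bk₂] [Algebra Bk₂ Fk] [IsFractionRing Bk₂ Fk]
  [IsScalarTower (IsLocalRing.ResidueField A) Bk₂ Fk]
  {BA₂ : Subring B₂} {ρ₂ : BA₂ →+* Bk₂}

/-- The chart-ring-free package from two charts. -/
theorem rcf48_red_of_charts [IsAlgClosed L] [IsAlgClosed (IsLocalRing.ResidueField A)]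
    (h1 : cg89_Chart A O red x xbar BA₁ ρ₁) (h2 : cg89_Chart A O red x⁻¹ xbar⁻¹ BA₂ ρ₂) :
    rcf48_Red A O red x xbar (cg89_r0 h1 h2) where
  cons f hf D hD Q := cg89_conservation h1 h2 f hf D hD Q
  coord P a ha := cg89_r0_coord h1 h2 P a ha
  pole P hP := cg89_r0_pole h1 h2 P hP
  finite G := rcf48_finite h1 h2 G
  tube hpd hconst hunit hval S P hP := by
    haveI := hpd
    exact rcf48_tube h1 h2 hconst hunit hval S P hP

end OfCharts

section Ci31

open IntermediateField

open scoped IntermediateField.algebraAdjoinAdjoin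

variable {A : ValuationSubring L} {Fk : Type*} [Field Fk]
  [Algebra (IsLocalRing.ResidueField A) Fk]
  [IsAlgClosed L] [IsAlgClosed (IsLocalRing.ResidueField A)] {V : ValuationSubring F}

/-- **The chart-ring-free package from two chart instances** `h48_Chart` (coordinates `x` and
`y = x⁻¹`, chart rings of `ChartInst31`). -/
theorem rcf48_exists_red (red : V →+* Fk) (x y : V) (hxy : x * y = 1)
    (hxL : Transcendental L (x : F))
    (hxk : Transcendental (IsLocalRing.ResidueField A) (red x))
    (hfx : FiniteDimensional L⟮(x : F)⟯ F) (hsx : Algebra.IsSeparable L⟮(x : F)⟯ F)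
    (hfxk : FiniteDimensional (IsLocalRing.ResidueField A)⟮red x⟯ Fk)
    (hsxk : Algebra.IsSeparable (IsLocalRing.ResidueField A)⟮red x⟯ Fk)
    (hfy : FiniteDimensional L⟮(y : F)⟯ F) (hsy : Algebra.IsSeparable L⟮(y : F)⟯ F)
    (hfyk : FiniteDimensional (IsLocalRing.ResidueField A)⟮red y⟯ Fk)
    (hsyk : Algebra.IsSeparable (IsLocalRing.ResidueField A)⟮red y⟯ Fk)
    (hintx : ∀ f : V, IsIntegral (Algebra.adjoin L {(x : F)}) (f : F) →
      IsIntegral (Algebra.adjoin (IsLocalRing.ResidueField A) {red x}) (red f))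
    (hinty : ∀ f : V, IsIntegral (Algebra.adjoin L {(y : F)}) (f : F) →
      IsIntegral (Algebra.adjoin (IsLocalRing.ResidueField A) {red y}) (red f))
    (hchartx : @h48_Chart L _ A (integralClosure (Algebra.adjoin L {(x : F)}) F) _
      (ci31_alg L (x : F))
      (integralClosure (Algebra.adjoin (IsLocalRing.ResidueField A) {red x}) Fk) _
      (ci31_alg (IsLocalRing.ResidueField A) (red x)) (ci31_BA L V (x : F))
      (ci31_rho red x hintx))
    (hcharty : @h48_Chart L _ A (integralClosure (Algebra.adjoin L {(y : F)}) F) _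
      (ci31_alg L (y : F))
      (integralClosure (Algebra.adjoin (IsLocalRing.ResidueField A) {red y}) Fk) _
      (ci31_alg (IsLocalRing.ResidueField A) (red y)) (ci31_BA L V (y : F))
      (ci31_rho red y hinty)) :
    ∃ r0 : Place L F → Place (IsLocalRing.ResidueField A) Fk,
      rcf48_Red A V.toSubring red (x : F) (red x) r0 := by
  haveI := hfx
  haveI := hsx
  haveI := hfxk
  haveI := hsxk
  haveI := hfy
  haveI := hsy
  haveI := hfyk
  haveI := hsyk
  have ey : (y : F) = (x : F)⁻¹ :=
    eq_inv_of_mul_eq_one_right (congrArg Subtype.val hxy)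
  have eyk : red y = (red x)⁻¹ :=
    eq_inv_of_mul_eq_one_right (by rw [← map_mul, hxy, map_one])
  have hyL : Transcendental L (y : F) := by
    intro halg
    rw [ey] at halg
    exact hxL (IsAlgebraic.inv_iff.mp halg)
  have hyk : Transcendental (IsLocalRing.ResidueField A) (red y) := by
    intro halg
    rw [eyk] at halg
    exact hxk (IsAlgebraic.inv_iff.mp halg)
  letI := ci31_alg L (x : F)
  letI := ci31_alg (IsLocalRing.ResidueField A) (red x)
  haveI := ps14_isDedekindDomain (x : F) hxL
  haveI := ps14_isDedekindDomain (red x) hxk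
  haveI := ps14_isFractionRing (K := L) (x : F)
  haveI := ps14_isFractionRing (K := IsLocalRing.ResidueField A) (red x)
  haveI := ps14_isScalarTower (K := L) (x : F)
  haveI := ps14_isScalarTower (K := IsLocalRing.ResidueField A) (red x)
  letI := ci31_alg L (y : F)
  letI := ci31_alg (IsLocalRing.ResidueField A) (red y)
  haveI := ps14_isDedekindDomain (y : F) hyL
  haveI := ps14_isDedekindDomain (red y) hyk
  haveI := ps14_isFractionRing (K := L) (y : F)
  haveI := ps14_isFractionRing (K := IsLocalRing.ResidueField A) (red y)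
  haveI := ps14_isScalarTower (K := L) (y : F)
  haveI := ps14_isScalarTower (K := IsLocalRing.ResidueField A) (red y)
  have h1 : cg89_Chart A V.toSubring red (x : F) (red x) (ci31_BA L V (x : F))
      (ci31_rho red x hintx) := cg89_chart_of_ci31 red x hxL hxk hintx hchartx
  have h2 : cg89_Chart A V.toSubring red (x : F)⁻¹ (red x)⁻¹ (ci31_BA L V (y : F))
      (ci31_rho red y hinty) :=
    cg89_chart_congr (cg89_chart_of_ci31 red y hyL hyk hinty hcharty) ey eyk
  exact ⟨cg89_r0 h1 h2, rcf48_red_of_charts h1 h2⟩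

end Ci31

end GenericRed

section ModularRed

set_option synthInstance.maxHeartbeats 400000

open ModularCurve

local notation "Qb" => AlgebraicClosure ℚ

variable (M : ℕ) [NeZero M] (A : ValuationSubring Qb)
  {O : Subring ↥(modularFunctionFieldBar M)}
  {red : O →+* ↥(modularFunctionFieldFullC (IsLocalRing.ResidueField A) M)}
  {XL : ↥(modularFunctionFieldBar M)}
  {Xk : ↥(modularFunctionFieldFullC (IsLocalRing.ResidueField A) M)}
  {r0 : Place Qb (modularFunctionFieldBar M) →
    Place (IsLocalRing.ResidueField A)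
      (modularFunctionFieldFullC (IsLocalRing.ResidueField A) M)}

set_option maxHeartbeats 1000000 in
/-- **RC, final assembly, chart-ring-free form.**  A reduction map with the package `rcf48_Red`
over a Gauss ring `(O, red)` agreeing with `(ga41_O M A, ga41_redHom)` is a place reduction in the
sense of the Prelude, respects the classes of the chart coordinate and has tube divisors for
arbitrary finite sets of classes. -/
theorem rcf48_main_red
    (hO : ∀ f : ↥(modularFunctionFieldBar M), f ∈ O ↔ f ∈ ga41_O M A)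
    (hred : ∀ (f : ↥(modularFunctionFieldBar M)) (hf : f ∈ O),
      ((red ⟨f, hf⟩ : ↥(modularFunctionFieldFullC (IsLocalRing.ResidueField A) M)) :
        LaurentSeries (IsLocalRing.ResidueField A)) =
        ga41_redHom (⟨f, (hO f).mp hf⟩ : ga41_O M A))
    (H : rcf48_Red A O red XL Xk r0) :
    IsPlaceReductionModL A M r0 ∧
    (∀ P : Place Qb (modularFunctionFieldBar M), cx91_cls Xk (r0 P) = cx91_clsL A XL P) ∧
    (∀ (P : Place Qb (modularFunctionFieldBar M))
      (G : Finset (Option (IsLocalRing.ResidueField A))), cx91_clsL A XL P ∈ G →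
      ∃ D ∈ Divisor.principal (K := Qb) (F := modularFunctionFieldBar M), D P = 1 ∧
        ∀ P', P' ≠ P → cx91_clsL A XL P' ∈ G → D P' = 0) := by
  classical
  haveI : IsAlgClosed (IsLocalRing.ResidueField A) := rc5_isAlgClosed_residueField A
  have hpd := hi63_hasPrincipalDivisors_bar M
  haveI := hpd
  haveI := hi63_finite_x M
  haveI := rc5_finiteDimensional (IsLocalRing.ResidueField A) M
  -- the Gauss package
  have hconst : ∀ a : A, ∃ h : algebraMap Qb ↥(modularFunctionFieldBar M) (a : Qb) ∈ O,
      red ⟨algebraMap Qb ↥(modularFunctionFieldBar M) (a : Qb), h⟩ =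
        algebraMap (IsLocalRing.ResidueField A)
          ↥(modularFunctionFieldFullC (IsLocalRing.ResidueField A) M)
          (IsLocalRing.residue A a) := by
    intro a
    refine ⟨(hO _).mpr (ga41_algebraMap_mem M A a), Subtype.ext ?_⟩
    rw [hred]
    exact ga41_redHom_algebraMap M A a
  have hunit : ∀ v : O, red v ≠ 0 → ∃ u : O, v * u = 1 := by
    intro v hv
    have hv' : ga41_redHom (⟨(v : ↥(modularFunctionFieldBar M)), (hO _).mp v.2⟩ : ga41_O M A)
        ≠ 0 := by
      intro h0
      apply hv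
      apply Subtype.ext
      rw [hred (v : ↥(modularFunctionFieldBar M)) v.2, h0]
      rfl
    obtain ⟨u, hu⟩ := ((ga41_isUnit_iff M A _).mpr hv').exists_right_inv
    refine ⟨⟨(u : ↥(modularFunctionFieldBar M)), (hO _).mpr u.2⟩, Subtype.ext ?_⟩
    have h3 : (v : ↥(modularFunctionFieldBar M)) * (u : ↥(modularFunctionFieldBar M)) = 1 :=
      congrArg Subtype.val hu
    exact h3
  have hval : ∀ (P : Place Qb (modularFunctionFieldBar M)) (f : ↥(modularFunctionFieldBar M)),
      0 ≤ P.ord f → ∃ τ : Qb, f = algebraMap Qb ↥(modularFunctionFieldBar M) τ ∨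
        0 < P.ord (f - algebraMap Qb ↥(modularFunctionFieldBar M) τ) := by
    intro P f hf
    exact wp1_exists_const (hi63_x M) (hi63_x_transcendental M) P f
      ((wp1_mem_iff_ord_nonneg P f).mpr hf)
  refine ⟨⟨fun P => ?_, fun y hy hyk hne D hD Q => ?_⟩, fun P => ?_, fun P G hG => ?_⟩
  · -- degrees
    rw [wp1_deg_eq_one (hi63_x M) (hi63_x_transcendental M) P,
      wp1_deg_eq_one (rc5_j (IsLocalRing.ResidueField A) M)
        (rc5_j_transcendental (IsLocalRing.ResidueField A) M) _]
  · -- conservation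
    have hfO : (⟨coeffMap A.subtype y, hy⟩ : ↥(modularFunctionFieldBar M)) ∈ O :=
      (hO _).mpr (ga41_mem_O_of_integral y rfl)
    have hredf : red ⟨_, hfO⟩ = ⟨coeffMap (IsLocalRing.residue A) y, hyk⟩ := by
      apply Subtype.ext
      rw [hred]
      exact ga41_redHom_integral _ y rfl
    have hf : red ⟨_, hfO⟩ ≠ 0 := by
      rw [hredf]
      intro h0
      exact hne (congrArg Subtype.val h0)
    have hcons := H.cons ⟨_, hfO⟩ hf D hD Q
    rw [hcons, hredf]
  · -- classes
    by_cases hex : ∃ a : A, 0 < P.ord (XL -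
        algebraMap Qb ↥(modularFunctionFieldBar M) (a : Qb))
    · obtain ⟨a, ha⟩ := hex
      rw [cx91_clsL_eq_some XL P a ha, cx91_cls_eq_some_iff]
      exact H.coord P a ha
    · have hpole := H.pole P hex
      rw [(cx91_clsL_eq_none_iff XL P).mpr (fun a ha => hex ⟨a, ha⟩), cx91_cls_eq_none_iff]
      intro c hc
      have h3 := (wp1_mem_iff_ord_nonneg _ Xk).mp (cg89_mem_of_coord _ hc)
      omega
  · -- tube divisors
    set S : Finset (Place (IsLocalRing.ResidueField A)
        (modularFunctionFieldFullC (IsLocalRing.ResidueField A) M)) :=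
      (H.finite G.eraseNone).toFinset with hS
    have hmem : ∀ P' : Place Qb (modularFunctionFieldBar M), cx91_clsL A XL P' ∈ G →
        r0 P' ∈ S := by
      intro P' hP'
      rw [hS, Set.Finite.mem_toFinset, Set.mem_ofPred_eq]
      by_cases hex : ∃ a : A, 0 < P'.ord (XL -
          algebraMap Qb ↥(modularFunctionFieldBar M) (a : Qb))
      · obtain ⟨a, ha⟩ := hex
        left
        rw [cx91_clsL_eq_some XL P' a ha] at hP'
        exact ⟨IsLocalRing.residue A a, Finset.mem_eraseNone.mpr hP', H.coord P' a ha⟩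
      · right
        exact H.pole P' hex
    obtain ⟨f, hf0, hfP, hfS⟩ := H.tube hpd hconst hunit hval S P (hmem P hG)
    obtain ⟨D, hD, -⟩ := HasPrincipalDivisors.exists_divisor (K := Qb) f hf0
    refine ⟨D, ⟨f, hf0, hD⟩, ?_, fun P' hne hG' => ?_⟩
    · rw [hD P, hfP]
    · rw [hD P', hfS P' hne (hmem P' hG')]

end ModularRed

section Inst

set_option synthInstance.maxHeartbeats 400000

open ModularCurve IntermediateField

open scoped IntermediateField.algebraAdjoinAdjoin

local notation "Qb" => AlgebraicClosure ℚ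

variable (M : ℕ) [NeZero M] (A : ValuationSubring Qb)

omit [NeZero M] in
/-- Separability of the generic fibre over `ℚ̄(x)` (characteristic zero). -/
theorem rcf48_isSeparable_bar (x : ↥(modularFunctionFieldBar M))
    (hfx : FiniteDimensional Qb⟮x⟯ ↥(modularFunctionFieldBar M)) :
    Algebra.IsSeparable Qb⟮x⟯ ↥(modularFunctionFieldBar M) := by
  haveI := hfx
  infer_instance

set_option maxHeartbeats 1000000 in
/-- **RC for an integer chart coordinate** `g` with inverse `g'` (`ka46` / `cm80` vocabulary),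
`j ∈ ℚ̄(g)`, from chart normality in fraction form for `g` and `g'`. -/
theorem rcf48_of_ka (hM : (M : IsLocalRing.ResidueField A) ≠ 0) (g g' : LaurentSeries ℤ)
    (hgF : ka46_g Qb g ∈ modularFunctionFieldBar M)
    (hgF' : ka46_g Qb g' ∈ modularFunctionFieldBar M)
    (hgk : ka46_g (IsLocalRing.ResidueField A) g ∈
      modularFunctionFieldFullC (IsLocalRing.ResidueField A) M)
    (hgk' : ka46_g (IsLocalRing.ResidueField A) g' ∈
      modularFunctionFieldFullC (IsLocalRing.ResidueField A) M)
    (htr : Transcendental (IsLocalRing.ResidueField A) (ka46_g (IsLocalRing.ResidueField A) g))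
    (htr' : Transcendental (IsLocalRing.ResidueField A)
      (ka46_g (IsLocalRing.ResidueField A) g'))
    (hjx : cm80_xF M (jqModC ℤ) (cm80_j_memF M) ∈ Qb⟮cm80_xF M g hgF⟯)
    (hjx' : cm80_xF M (jqModC ℤ) (cm80_j_memF M) ∈ Qb⟮cm80_xF M g' hgF'⟯)
    (hinv : cm80_xF M g' hgF' = (cm80_xF M g hgF)⁻¹)
    (hnorm : ka46_NormalAt A.subtype (IsLocalRing.residue A) M g)
    (hnorm' : ka46_NormalAt A.subtype (IsLocalRing.residue A) M g') :
    ∃ r0 : Place Qb (modularFunctionFieldBar M) →
        Place (IsLocalRing.ResidueField A)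
          (modularFunctionFieldFullC (IsLocalRing.ResidueField A) M),
      IsPlaceReductionModL A M r0 ∧
      (∀ P : Place Qb (modularFunctionFieldBar M),
        cx91_cls (cm80_xk M g (IsLocalRing.ResidueField A) hgk) (r0 P) =
          cx91_clsL A (cm80_xF M g hgF) P) ∧
      (∀ (P : Place Qb (modularFunctionFieldBar M))
        (G : Finset (Option (IsLocalRing.ResidueField A))),
        cx91_clsL A (cm80_xF M g hgF) P ∈ G →
        ∃ D ∈ Divisor.principal (K := Qb) (F := modularFunctionFieldBar M), D P = 1 ∧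
          ∀ P', P' ≠ P → cx91_clsL A (cm80_xF M g hgF) P' ∈ G → D P' = 0) := by
  haveI : IsAlgClosed (IsLocalRing.ResidueField A) := rc5_isAlgClosed_residueField A
  have hxk := cm80_red_xV_transcendental M A g hM hgF hgk htr
  have hyk := cm80_red_xV_transcendental M A g' hM hgF' hgk' htr'
  have hxL : Transcendental Qb
      ((cm80_xV M A g hM hgF : ↥(ga41_V M A hM)) : ↥(modularFunctionFieldBar M)) :=
    ci31_transcendental (cm80_red M A hM) (cm80_hAO M A hM) (cm80_hcompat M A hM) _ hxk
  have hx0 : cm80_xF M g hgF ≠ 0 := by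
    intro h0
    apply hxL
    rw [cm80_xV_coe, h0]
    exact isAlgebraic_zero
  have hxy : cm80_xV M A g hM hgF * cm80_xV M A g' hM hgF' = 1 := by
    apply Subtype.ext
    show cm80_xF M g hgF * cm80_xF M g' hgF' = 1
    rw [hinv, mul_inv_cancel₀ hx0]
  obtain ⟨hintx, hchartx⟩ := ci31_chart_ka M A hM g hgF hgk htr hjx hnorm
  obtain ⟨hinty, hcharty⟩ := ci31_chart_ka M A hM g' hgF' hgk' htr' hjx' hnorm'
  have hfx := (ga41_chart_finite M A hM (cm80_xV M A g hM hgF) hxk
    (by rw [ci31_jF_eq]; exact hjx)).1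
  have hfy := (ga41_chart_finite M A hM (cm80_xV M A g' hM hgF') hyk
    (by rw [ci31_jF_eq]; exact hjx')).1
  obtain ⟨r0, H⟩ := rcf48_exists_red (cm80_red M A hM)
    (cm80_xV M A g hM hgF) (cm80_xV M A g' hM hgF') hxy hxL hxk
    hfx (rcf48_isSeparable_bar M _ hfx)
    (cm80_finiteDimensional_k M A hM g hgF hgk htr hjx)
    (cm80_isSeparable_k M A hM g hgF hgk htr hjx)
    hfy (rcf48_isSeparable_bar M _ hfy)
    (cm80_finiteDimensional_k M A hM g' hgF' hgk' htr' hjx')
    (cm80_isSeparable_k M A hM g' hgF' hgk' htr' hjx')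
    hintx hinty hchartx hcharty
  have hO : ∀ f : ↥(modularFunctionFieldBar M),
      f ∈ (ga41_V M A hM).toSubring ↔ f ∈ ga41_O M A := fun f => Iff.rfl
  have hred : ∀ (f : ↥(modularFunctionFieldBar M)) (hf : f ∈ (ga41_V M A hM).toSubring),
      ((cm80_red M A hM ⟨f, hf⟩ :
          ↥(modularFunctionFieldFullC (IsLocalRing.ResidueField A) M)) :
        LaurentSeries (IsLocalRing.ResidueField A)) =
        ga41_redHom (⟨f, (hO f).mp hf⟩ : ga41_O M A) := fun f hf => rfl
  obtain ⟨hr, hcls, htube⟩ := rcf48_main_red M A hO hred H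
  refine ⟨r0, hr, fun P => ?_, htube⟩
  rw [← cm80_red_xV M A g hM hgF hgk]
  exact hcls P

/-- **RC at a level `M` divisible by `2`**, chart coordinate the Hauptmodul `h₂`. -/
theorem rcf48_level2 (hM : (M : IsLocalRing.ResidueField A) ≠ 0) (h2 : 2 ∣ M)
    (hn : ka46_NormalAt A.subtype (IsLocalRing.residue A) M (h70_h2 ℤ))
    (hn' : ka46_NormalAt A.subtype (IsLocalRing.residue A) M (h70_h2inv ℤ)) :
    ∃ r0 : Place Qb (modularFunctionFieldBar M) →
        Place (IsLocalRing.ResidueField A)
          (modularFunctionFieldFullC (IsLocalRing.ResidueField A) M),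
      IsPlaceReductionModL A M r0 ∧
      (∀ P : Place Qb (modularFunctionFieldBar M),
        cx91_cls (cm80_xk M (h70_h2 ℤ) (IsLocalRing.ResidueField A)
            (cm80_h2_memk M h2 _ (by exact_mod_cast ci31_ne_zero_of_dvd M A hM h2))) (r0 P) =
          cx91_clsL A (cm80_xF M (h70_h2 ℤ) (cm80_h2_memF M h2)) P) ∧
      (∀ (P : Place Qb (modularFunctionFieldBar M))
        (G : Finset (Option (IsLocalRing.ResidueField A))),
        cx91_clsL A (cm80_xF M (h70_h2 ℤ) (cm80_h2_memF M h2)) P ∈ G →
        ∃ D ∈ Divisor.principal (K := Qb) (F := modularFunctionFieldBar M), D P = 1 ∧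
          ∀ P', P' ≠ P →
            cx91_clsL A (cm80_xF M (h70_h2 ℤ) (cm80_h2_memF M h2)) P' ∈ G → D P' = 0) :=
  rcf48_of_ka M A hM (h70_h2 ℤ) (h70_h2inv ℤ) (cm80_h2_memF M h2) (cm80_h2inv_memF M h2)
    (cm80_h2_memk M h2 _ (by exact_mod_cast ci31_ne_zero_of_dvd M A hM h2))
    (cm80_h2inv_memk M h2 _ (by exact_mod_cast ci31_ne_zero_of_dvd M A hM h2))
    (cm80_h2_tr _) (cm80_h2inv_tr _) (cm80_h2_jmem M h2) (cm80_h2inv_jmem M h2)
    (cm80_h2inv_eq_inv M h2) hn hn'

/-- **RC at a level `M` divisible by `3`**, chart coordinate the Hauptmodul `h₃`. -/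
theorem rcf48_level3 (hM : (M : IsLocalRing.ResidueField A) ≠ 0) (h3 : 3 ∣ M)
    (hn : ka46_NormalAt A.subtype (IsLocalRing.residue A) M (h34_h3R ℤ))
    (hn' : ka46_NormalAt A.subtype (IsLocalRing.residue A) M (h34_h3Rinv ℤ)) :
    ∃ r0 : Place Qb (modularFunctionFieldBar M) →
        Place (IsLocalRing.ResidueField A)
          (modularFunctionFieldFullC (IsLocalRing.ResidueField A) M),
      IsPlaceReductionModL A M r0 ∧
      (∀ P : Place Qb (modularFunctionFieldBar M),
        cx91_cls (cm80_xk M (h34_h3R ℤ) (IsLocalRing.ResidueField A)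
            (cm80_h3_memk M h3 _ (by exact_mod_cast ci31_ne_zero_of_dvd M A hM h3))) (r0 P) =
          cx91_clsL A (cm80_xF M (h34_h3R ℤ) (cm80_h3_memF M h3)) P) ∧
      (∀ (P : Place Qb (modularFunctionFieldBar M))
        (G : Finset (Option (IsLocalRing.ResidueField A))),
        cx91_clsL A (cm80_xF M (h34_h3R ℤ) (cm80_h3_memF M h3)) P ∈ G →
        ∃ D ∈ Divisor.principal (K := Qb) (F := modularFunctionFieldBar M), D P = 1 ∧
          ∀ P', P' ≠ P →
            cx91_clsL A (cm80_xF M (h34_h3R ℤ) (cm80_h3_memF M h3)) P' ∈ G → D P' = 0) :=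
  rcf48_of_ka M A hM (h34_h3R ℤ) (h34_h3Rinv ℤ) (cm80_h3_memF M h3) (cm80_h3inv_memF M h3)
    (cm80_h3_memk M h3 _ (by exact_mod_cast ci31_ne_zero_of_dvd M A hM h3))
    (cm80_h3inv_memk M h3 _ (by exact_mod_cast ci31_ne_zero_of_dvd M A hM h3))
    (cm80_h3_tr _) (cm80_h3inv_tr _) (cm80_h3_jmem M h3) (cm80_h3inv_jmem M h3)
    (cm80_h3inv_eq_inv M h3) hn hn'

end Inst

end Fermat.Agent.S37
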