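import Fermat.Agent.S37.ChartGlueInst89
import Fermat.Agent.S37.ChartModInst31
import Fermat.Agent.S37.Equiv73b
import Fermat.Agent.S37.ClassX91

/-!
# S37, RC at the concrete level (helper89): the reduction map for the Hauptmodul charts

The last link of the RC chain for the Gauss place `(ga41_V M A hM, cm80_red M A hM)` of
`F(M)` over `(ℚ̄, A)`: the two chart instances `ci31_chart_ka` (helper31) for a pair of inverse
integer chart coordinates, glued by `cg89_exists_reduction` (ChartGlueInst89).

* `rc89_reduction` : `∃ r0, cg89_Reduction A (ga41_V M A hM) (cm80_red M A hM) x r0` from the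
  normality of the two charts.
* `rc89_isPlaceReduction` : conservation ⟹ `IsPlaceReductionModL A M r0` (clause (1) of
  `geo17_RC`).
* `rc89_equivariant` : clause (2) of `geo17_RC` (decomposition group), via `Equiv73b`.
* `rc89_cls` : `cx91_cls (red x) (r0 P) = cx91_clsL A x P` (class compatibility).
* `rc89_main` : the three statements together for one `r0`.
* `rc89_level2`, `rc89_level3` : the Hauptmodul charts `h₂` (`2 ∣ M`), `h₃` (`3 ∣ M`); the
  only hypotheses left are the two chart normality statements `ka46_NormalAt`.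
-/

set_option autoImplicit false
set_option linter.style.haveILetI false

open ModularCurve AlgebraicCurve IntermediateField Polynomial

namespace Fermat.Agent.S37

open Fermat.Agent.S18 Fermat.Agent.S28 Fermat.Agent.S24

local notation "Qb" => AlgebraicClosure ℚ

section rc89_main

set_option synthInstance.maxHeartbeats 400000
set_option maxHeartbeats 1000000

variable (M : ℕ) [NeZero M] (A : ValuationSubring Qb)
  (hM : (M : IsLocalRing.ResidueField A) ≠ 0)

/-- **The reduction map on places of `F(M)`** from two inverse integer chart coordinates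
`g`, `g'` whose charts are normal. -/
theorem rc89_reduction (g g' : LaurentSeries ℤ)
    (hgF : ka46_g Qb g ∈ modularFunctionFieldBar M)
    (hg'F : ka46_g Qb g' ∈ modularFunctionFieldBar M)
    (hgk : ka46_g (IsLocalRing.ResidueField A) g ∈
      modularFunctionFieldFullC (IsLocalRing.ResidueField A) M)
    (hg'k : ka46_g (IsLocalRing.ResidueField A) g' ∈
      modularFunctionFieldFullC (IsLocalRing.ResidueField A) M)
    (htr : Transcendental (IsLocalRing.ResidueField A) (ka46_g (IsLocalRing.ResidueField A) g))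
    (htr' : Transcendental (IsLocalRing.ResidueField A)
      (ka46_g (IsLocalRing.ResidueField A) g'))
    (hjx : cm80_xF M (jqModC ℤ) (cm80_j_memF M) ∈ Qb⟮cm80_xF M g hgF⟯)
    (hjx' : cm80_xF M (jqModC ℤ) (cm80_j_memF M) ∈ Qb⟮cm80_xF M g' hg'F⟯)
    (hinv : cm80_xF M g' hg'F = (cm80_xF M g hgF)⁻¹)
    (hnorm : ka46_NormalAt A.subtype (IsLocalRing.residue A) M g)
    (hnorm' : ka46_NormalAt A.subtype (IsLocalRing.residue A) M g') :
    ∃ r0 : Place Qb ↥(modularFunctionFieldBar M) →
        Place (IsLocalRing.ResidueField A)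
          ↥(modularFunctionFieldFullC (IsLocalRing.ResidueField A) M),
      cg89_Reduction A (ga41_V M A hM) (cm80_red M A hM) (cm80_xV M A g hM hgF) r0 := by
  haveI := rc5_isAlgClosed_residueField A
  obtain ⟨hint, hchart⟩ := ci31_chart_ka M A hM g hgF hgk htr hjx hnorm
  obtain ⟨hint', hchart'⟩ := ci31_chart_ka M A hM g' hg'F hg'k htr' hjx' hnorm'
  have hxk := cm80_red_xV_transcendental M A g hM hgF hgk htr
  have hxk' := cm80_red_xV_transcendental M A g' hM hg'F hg'k htr'
  have hxL : Transcendental Qb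
      ((cm80_xV M A g hM hgF : ↥(ga41_V M A hM)) : ↥(modularFunctionFieldBar M)) :=
    ci31_transcendental (cm80_red M A hM) (cm80_hAO M A hM) (cm80_hcompat M A hM)
      (cm80_xV M A g hM hgF) hxk
  have hx0 : cm80_xF M g hgF ≠ 0 := by
    intro h0
    apply hxL
    rw [cm80_xV_coe, h0]
    exact isAlgebraic_zero
  have hxy : cm80_xV M A g hM hgF * cm80_xV M A g' hM hg'F = 1 := by
    apply Subtype.ext
    show cm80_xF M g hgF * cm80_xF M g' hg'F = 1
    rw [hinv]
    exact mul_inv_cancel₀ hx0
  haveI : FiniteDimensional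
      Qb⟮((cm80_xV M A g hM hgF : ↥(ga41_V M A hM)) : ↥(modularFunctionFieldBar M))⟯
      ↥(modularFunctionFieldBar M) :=
    (ga41_chart_finite M A hM (cm80_xV M A g hM hgF) hxk (by rw [ci31_jF_eq]; exact hjx)).1
  haveI : FiniteDimensional
      Qb⟮((cm80_xV M A g' hM hg'F : ↥(ga41_V M A hM)) : ↥(modularFunctionFieldBar M))⟯
      ↥(modularFunctionFieldBar M) :=
    (ga41_chart_finite M A hM (cm80_xV M A g' hM hg'F) hxk' (by rw [ci31_jF_eq]; exact hjx')).1
  haveI := cm80_finiteDimensional_k M A hM g hgF hgk htr hjx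
  haveI := cm80_finiteDimensional_k M A hM g' hg'F hg'k htr' hjx'
  haveI := cm80_isSeparable_k M A hM g hgF hgk htr hjx
  haveI := cm80_isSeparable_k M A hM g' hg'F hg'k htr' hjx'
  exact cg89_exists_reduction (cm80_red M A hM) _ _ hxy hxL hxk hint hint' hchart hchart'


/-- **Clause (1)**: conservation of number on the Gauss ring gives `IsPlaceReductionModL`. -/
theorem rc89_isPlaceReduction (x : ↥(ga41_V M A hM))
    (r0 : Place Qb ↥(modularFunctionFieldBar M) →
      Place (IsLocalRing.ResidueField A)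
        ↥(modularFunctionFieldFullC (IsLocalRing.ResidueField A) M))
    (hR : cg89_Reduction A (ga41_V M A hM) (cm80_red M A hM) x r0)
    (hdegL : ∀ P : Place Qb ↥(modularFunctionFieldBar M), P.deg = 1)
    (hdegk : ∀ Q : Place (IsLocalRing.ResidueField A)
      ↥(modularFunctionFieldFullC (IsLocalRing.ResidueField A) M), Q.deg = 1) :
    IsPlaceReductionModL A M r0 := by
  refine ⟨fun P => by rw [hdegL, hdegk], ?_⟩
  intro y hy hyk hne D hD Q
  have hmem : (⟨coeffMap A.subtype y, hy⟩ : ↥(modularFunctionFieldBar M)) ∈ ga41_V M A hM :=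
    ga41_mem_O_of_integral y rfl
  have hred : cm80_red M A hM ⟨⟨coeffMap A.subtype y, hy⟩, hmem⟩ =
      (⟨coeffMap (IsLocalRing.residue A) y, hyk⟩ :
        ↥(modularFunctionFieldFullC (IsLocalRing.ResidueField A) M)) := by
    apply Subtype.ext
    exact ga41_redHom_integral (N := M) (A := A)
      (⟨⟨coeffMap A.subtype y, hy⟩, hmem⟩ : ga41_O M A) y rfl
  have h := hR.cons ⟨⟨coeffMap A.subtype y, hy⟩, hmem⟩
    (by rw [hred]; exact fun h0 => hne (congrArg Subtype.val h0)) D hD Q
  rw [hred] at h
  exact h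

/-- **Clause (2)**: equivariance of the reduction map for the decomposition group, for a
chart coordinate with integer `q`-expansion coefficients. -/
theorem rc89_equivariant (g : LaurentSeries ℤ)
    (hgF : ka46_g Qb g ∈ modularFunctionFieldBar M)
    (r0 : Place Qb ↥(modularFunctionFieldBar M) →
      Place (IsLocalRing.ResidueField A)
        ↥(modularFunctionFieldFullC (IsLocalRing.ResidueField A) M))
    (hR : cg89_Reduction A (ga41_V M A hM) (cm80_red M A hM) (cm80_xV M A g hM hgF) r0)
    (σ : Qb ≃ₐ[ℚ] Qb) (hσ : σ ∈ A.decompositionSubgroup ℚ)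
    (P : Place Qb ↥(modularFunctionFieldBar M)) :
    r0 (arithmeticGalois (modularFunctionFieldFull M) σ • P)
      = fr66_resGalois M (MulSemiringAction.toRingEquiv (A.decompositionSubgroup ℚ)
          (IsLocalRing.ResidueField A) ⟨σ, hσ⟩) • r0 P := by
  refine hR.smul (arithmeticGalois (modularFunctionFieldFull M) σ)
    (fr66_resGalois M (MulSemiringAction.toRingEquiv (A.decompositionSubgroup ℚ)
      (IsLocalRing.ResidueField A) ⟨σ, hσ⟩)) ?_ ?_ ?_ (eq73_hgA M A σ hσ) P
  · exact fun f => eq73_hgO M A σ hσ f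
  · exact fun f hf => eq73_hgred M A hM σ hσ f hf
  · exact eq73_smul_intCoeff M σ (cm80_xF M g hgF) g rfl

/-- **Class compatibility**: the class of the reduction of a point for the coordinate `red x`
is the residue class of the value of `x` at the point. -/
theorem rc89_cls (x : ↥(ga41_V M A hM))
    (hxL : Transcendental Qb (x : ↥(modularFunctionFieldBar M)))
    [FiniteDimensional Qb⟮(x : ↥(modularFunctionFieldBar M))⟯ ↥(modularFunctionFieldBar M)]
    (r0 : Place Qb ↥(modularFunctionFieldBar M) →
      Place (IsLocalRing.ResidueField A)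
        ↥(modularFunctionFieldFullC (IsLocalRing.ResidueField A) M))
    (hR : cg89_Reduction A (ga41_V M A hM) (cm80_red M A hM) x r0)
    (P : Place Qb ↥(modularFunctionFieldBar M)) :
    cx91_cls (cm80_red M A hM x) (r0 P) =
      cx91_clsL A (x : ↥(modularFunctionFieldBar M)) P := by
  by_cases hex : ∃ a : A, 0 < P.ord ((x : ↥(modularFunctionFieldBar M)) -
      algebraMap Qb ↥(modularFunctionFieldBar M) (a : Qb))
  · obtain ⟨a, ha⟩ := hex
    rw [cx91_clsL_eq_some _ P a ha, cx91_cls_eq_some_iff]
    exact hR.coord P a ha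
  · have hnone : cx91_clsL A (x : ↥(modularFunctionFieldBar M)) P = none := by
      rw [cx91_clsL_eq_none_iff]
      exact fun a ha => hex ⟨a, ha⟩
    have hpole : (r0 P).ord (cm80_red M A hM x) < 0 := by
      by_cases hP : 0 ≤ P.ord (x : ↥(modularFunctionFieldBar M))
      · obtain ⟨c, hc⟩ := wp1_exists_const (x : ↥(modularFunctionFieldBar M)) hxL P
          (x : ↥(modularFunctionFieldBar M)) ((wp1_mem_iff_ord_nonneg P _).mpr hP)
        rcases hc with hc | hc
        · exact absurd (hc ▸ isAlgebraic_algebraMap c) hxL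
        · exact hR.notMem P c (fun hcA => hex ⟨⟨c, hcA⟩, hc⟩) hc
      · exact hR.pole P (not_le.mp hP)
    rw [hnone, cx91_cls_eq_none_iff]
    intro c hc
    have h1 := (wp1_mem_iff_ord_nonneg (r0 P) _).mp (cg89_mem_of_coord (r0 P) hc)
    exact absurd hpole (not_lt.mpr h1)


/-- **RC for a pair of inverse integer chart coordinates** `g`, `g'` with normal charts:
a reduction map on places which is a place reduction mod `ℓ` (clause (1) of `geo17_RC`),
equivariant for the decomposition group (clause (2)) and compatible with the classes of the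
chart coordinate; the full glue package `cg89_Reduction` is exported as well. -/
theorem rc89_main (g g' : LaurentSeries ℤ)
    (hgF : ka46_g Qb g ∈ modularFunctionFieldBar M)
    (hg'F : ka46_g Qb g' ∈ modularFunctionFieldBar M)
    (hgk : ka46_g (IsLocalRing.ResidueField A) g ∈
      modularFunctionFieldFullC (IsLocalRing.ResidueField A) M)
    (hg'k : ka46_g (IsLocalRing.ResidueField A) g' ∈
      modularFunctionFieldFullC (IsLocalRing.ResidueField A) M)
    (htr : Transcendental (IsLocalRing.ResidueField A) (ka46_g (IsLocalRing.ResidueField A) g))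
    (htr' : Transcendental (IsLocalRing.ResidueField A)
      (ka46_g (IsLocalRing.ResidueField A) g'))
    (hjx : cm80_xF M (jqModC ℤ) (cm80_j_memF M) ∈ Qb⟮cm80_xF M g hgF⟯)
    (hjx' : cm80_xF M (jqModC ℤ) (cm80_j_memF M) ∈ Qb⟮cm80_xF M g' hg'F⟯)
    (hinv : cm80_xF M g' hg'F = (cm80_xF M g hgF)⁻¹)
    (hnorm : ka46_NormalAt A.subtype (IsLocalRing.residue A) M g)
    (hnorm' : ka46_NormalAt A.subtype (IsLocalRing.residue A) M g') :
    ∃ r0 : Place Qb ↥(modularFunctionFieldBar M) →
        Place (IsLocalRing.ResidueField A)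
          ↥(modularFunctionFieldFullC (IsLocalRing.ResidueField A) M),
      IsPlaceReductionModL A M r0 ∧
      (∀ (σ : Qb ≃ₐ[ℚ] Qb) (hσ : σ ∈ A.decompositionSubgroup ℚ)
        (P : Place Qb ↥(modularFunctionFieldBar M)),
        r0 (arithmeticGalois (modularFunctionFieldFull M) σ • P)
          = fr66_resGalois M (MulSemiringAction.toRingEquiv (A.decompositionSubgroup ℚ)
              (IsLocalRing.ResidueField A) ⟨σ, hσ⟩) • r0 P) ∧
      (∀ P : Place Qb ↥(modularFunctionFieldBar M),
        cx91_cls (cm80_xk M g (IsLocalRing.ResidueField A) hgk) (r0 P) =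
          cx91_clsL A (cm80_xF M g hgF) P) ∧
      cg89_Reduction A (ga41_V M A hM) (cm80_red M A hM) (cm80_xV M A g hM hgF) r0 := by
  haveI := rc5_isAlgClosed_residueField A
  obtain ⟨r0, hR⟩ := rc89_reduction M A hM g g' hgF hg'F hgk hg'k htr htr' hjx hjx' hinv
    hnorm hnorm'
  have hxk := cm80_red_xV_transcendental M A g hM hgF hgk htr
  have hxL : Transcendental Qb
      ((cm80_xV M A g hM hgF : ↥(ga41_V M A hM)) : ↥(modularFunctionFieldBar M)) :=
    ci31_transcendental (cm80_red M A hM) (cm80_hAO M A hM) (cm80_hcompat M A hM)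
      (cm80_xV M A g hM hgF) hxk
  haveI : FiniteDimensional
      Qb⟮((cm80_xV M A g hM hgF : ↥(ga41_V M A hM)) : ↥(modularFunctionFieldBar M))⟯
      ↥(modularFunctionFieldBar M) :=
    (ga41_chart_finite M A hM (cm80_xV M A g hM hgF) hxk (by rw [ci31_jF_eq]; exact hjx)).1
  haveI := cm80_finiteDimensional_k M A hM g hgF hgk htr hjx
  refine ⟨r0, ?_, ?_, ?_, hR⟩
  · exact rc89_isPlaceReduction M A hM _ r0 hR (fun P => wp1_deg_eq_one _ hxL P)
      (fun Q => wp1_deg_eq_one _ hxk Q)
  · exact fun σ hσ P => rc89_equivariant M A hM g hgF r0 hR σ hσ P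
  · intro P
    have h := rc89_cls M A hM (cm80_xV M A g hM hgF) hxL r0 hR P
    rw [cm80_red_xV M A g hM hgF hgk] at h
    exact h


include hM in
/-- **RC at a level divisible by `2`**, chart coordinate = the level-`2` Hauptmodul: clause (1)
and clause (2) of `geo17_RC` and the class compatibility for the Hauptmodul (in the shape of
the inputs of the `h → j` adapter and of the tube constructions), from the normality of the two
charts. -/
theorem rc89_level2 (hdv : 2 ∣ M)
    (hnorm : ka46_NormalAt A.subtype (IsLocalRing.residue A) M (h70_h2 ℤ))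
    (hnorm' : ka46_NormalAt A.subtype (IsLocalRing.residue A) M (h70_h2inv ℤ)) :
    ∃ r0 : Place Qb ↥(modularFunctionFieldBar M) →
        Place (IsLocalRing.ResidueField A)
          ↥(modularFunctionFieldFullC (IsLocalRing.ResidueField A) M),
      IsPlaceReductionModL A M r0 ∧
      (∀ (σ : Qb ≃ₐ[ℚ] Qb) (hσ : σ ∈ A.decompositionSubgroup ℚ)
        (P : Place Qb ↥(modularFunctionFieldBar M)),
        r0 (arithmeticGalois (modularFunctionFieldFull M) σ • P)
          = fr66_resGalois M (MulSemiringAction.toRingEquiv (A.decompositionSubgroup ℚ)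
              (IsLocalRing.ResidueField A) ⟨σ, hσ⟩) • r0 P) ∧
      (∀ (XL : ↥(modularFunctionFieldBar M))
        (Xk : ↥(modularFunctionFieldFullC (IsLocalRing.ResidueField A) M)),
        (XL : LaurentSeries Qb) = h70_h2 Qb →
        (Xk : LaurentSeries (IsLocalRing.ResidueField A)) = h70_h2 (IsLocalRing.ResidueField A) →
        ∀ P : Place Qb ↥(modularFunctionFieldBar M),
          cx91_cls Xk (r0 P) = cx91_clsL A XL P) := by
  have hk : (2 : IsLocalRing.ResidueField A) ≠ 0 := by
    exact_mod_cast ci31_ne_zero_of_dvd M A hM hdv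
  obtain ⟨r0, hr, heq, hcls, -⟩ := rc89_main M A hM (h70_h2 ℤ) (h70_h2inv ℤ)
    (cm80_h2_memF M hdv) (cm80_h2inv_memF M hdv)
    (cm80_h2_memk M hdv _ hk) (cm80_h2inv_memk M hdv _ hk)
    (cm80_h2_tr _) (cm80_h2inv_tr _) (cm80_h2_jmem M hdv) (cm80_h2inv_jmem M hdv)
    (cm80_h2inv_eq_inv M hdv) hnorm hnorm'
  refine ⟨r0, hr, heq, ?_⟩
  intro XL Xk hXL hXk P
  have e1 : XL = cm80_xF M (h70_h2 ℤ) (cm80_h2_memF M hdv) :=
    Subtype.ext (hXL.trans (cm80_g_h2 Qb).symm)
  have e2 : Xk = cm80_xk M (h70_h2 ℤ) (IsLocalRing.ResidueField A) (cm80_h2_memk M hdv _ hk) :=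
    Subtype.ext (hXk.trans (cm80_g_h2 (IsLocalRing.ResidueField A)).symm)
  rw [e1, e2]
  exact hcls P

include hM in
/-- **RC at a level divisible by `3`**, chart coordinate = the level-`3` Hauptmodul: clause (1)
and clause (2) of `geo17_RC` and the class compatibility for the Hauptmodul (in the shape of
the inputs of the `h → j` adapter and of the tube constructions), from the normality of the two
charts. -/
theorem rc89_level3 (hdv : 3 ∣ M)
    (hnorm : ka46_NormalAt A.subtype (IsLocalRing.residue A) M (h34_h3R ℤ))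
    (hnorm' : ka46_NormalAt A.subtype (IsLocalRing.residue A) M (h34_h3Rinv ℤ)) :
    ∃ r0 : Place Qb ↥(modularFunctionFieldBar M) →
        Place (IsLocalRing.ResidueField A)
          ↥(modularFunctionFieldFullC (IsLocalRing.ResidueField A) M),
      IsPlaceReductionModL A M r0 ∧
      (∀ (σ : Qb ≃ₐ[ℚ] Qb) (hσ : σ ∈ A.decompositionSubgroup ℚ)
        (P : Place Qb ↥(modularFunctionFieldBar M)),
        r0 (arithmeticGalois (modularFunctionFieldFull M) σ • P)
          = fr66_resGalois M (MulSemiringAction.toRingEquiv (A.decompositionSubgroup ℚ)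
              (IsLocalRing.ResidueField A) ⟨σ, hσ⟩) • r0 P) ∧
      (∀ (XL : ↥(modularFunctionFieldBar M))
        (Xk : ↥(modularFunctionFieldFullC (IsLocalRing.ResidueField A) M)),
        (XL : LaurentSeries Qb) = h34_h3R Qb →
        (Xk : LaurentSeries (IsLocalRing.ResidueField A)) = h34_h3R (IsLocalRing.ResidueField A) →
        ∀ P : Place Qb ↥(modularFunctionFieldBar M),
          cx91_cls Xk (r0 P) = cx91_clsL A XL P) := by
  have hk : (3 : IsLocalRing.ResidueField A) ≠ 0 := by
    exact_mod_cast ci31_ne_zero_of_dvd M A hM hdv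
  obtain ⟨r0, hr, heq, hcls, -⟩ := rc89_main M A hM (h34_h3R ℤ) (h34_h3Rinv ℤ)
    (cm80_h3_memF M hdv) (cm80_h3inv_memF M hdv)
    (cm80_h3_memk M hdv _ hk) (cm80_h3inv_memk M hdv _ hk)
    (cm80_h3_tr _) (cm80_h3inv_tr _) (cm80_h3_jmem M hdv) (cm80_h3inv_jmem M hdv)
    (cm80_h3inv_eq_inv M hdv) hnorm hnorm'
  refine ⟨r0, hr, heq, ?_⟩
  intro XL Xk hXL hXk P
  have e1 : XL = cm80_xF M (h34_h3R ℤ) (cm80_h3_memF M hdv) :=
    Subtype.ext (hXL.trans (cm80_g_h3 Qb).symm)
  have e2 : Xk = cm80_xk M (h34_h3R ℤ) (IsLocalRing.ResidueField A) (cm80_h3_memk M hdv _ hk) :=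
    Subtype.ext (hXk.trans (cm80_g_h3 (IsLocalRing.ResidueField A)).symm)
  rw [e1, e2]
  exact hcls P

end rc89_main

end Fermat.Agent.S37
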