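import Mathlib

/-!
# S37 (helper49): Eichler–Shimura on single places from Eichler–Shimura on degree-zero divisors

Abstract (pure `Finsupp`) core.  Let `R : (X →₀ ℤ) →+ (Y →₀ ℤ)` (reduction of divisors),
`T : (X →₀ ℤ) →+ (X →₀ ℤ)` (Hecke correspondence), `Φ Ψ : Y → Y`, `l : ℕ`, and
`θ D := R (T D) - (Φ_* (R D) + l • Ψ_* (R D))`.  If

* `θ` takes the same value on all single places (e.g. `θ` kills all divisors of mass `0`),
* `R (T [P])` is effective,
* `mass (R (T [P])) = (1 + l) * mass (R [P])`,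
* for every `Q` there is a `P` with `Φ_* (R [P]) Q = 0 = Ψ_* (R [P]) Q`,

then `θ [P] = 0` for every `P` (`sp49_single`).
-/

set_option autoImplicit false

namespace Fermat.Agent.S37

section Abstract

variable {X Y Z : Type*}

/-- The total mass `∑ E y` of a finitely supported integer-valued function, as an additive map. -/
noncomputable def sp49_mass : (Y →₀ ℤ) →+ ℤ :=
  Finsupp.liftAddHom fun _ : Y => AddMonoidHom.id ℤ

theorem sp49_mass_apply (E : Y →₀ ℤ) : sp49_mass E = E.sum fun _ n => n := by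
  rw [sp49_mass, Finsupp.liftAddHom_apply]
  rfl

@[simp]
theorem sp49_mass_single (y : Y) (n : ℤ) : sp49_mass (Finsupp.single y n) = n := by
  simp [sp49_mass]

theorem sp49_mass_mapDomain (f : Y → Z) (E : Y →₀ ℤ) :
    sp49_mass (Finsupp.mapDomain f E) = sp49_mass E := by
  induction E using Finsupp.induction_linear with
  | zero => simp
  | add E E' hE hE' => rw [Finsupp.mapDomain_add, map_add, map_add, hE, hE']
  | single y n => rw [Finsupp.mapDomain_single, sp49_mass_single, sp49_mass_single]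

/-- A finitely supported function with nonnegative values and total mass `0` vanishes. -/
theorem sp49_eq_zero_of_nonneg (E : Y →₀ ℤ) (h0 : ∀ y, 0 ≤ E y) (hm : sp49_mass E = 0) :
    E = 0 := by
  rw [sp49_mass_apply, Finsupp.sum] at hm
  have h := (Finset.sum_eq_zero_iff_of_nonneg (fun y _ => h0 y)).mp hm
  ext y
  by_cases hy : y ∈ E.support
  · exact h y hy
  · simpa using hy

/-- `mapDomain` of a function with nonnegative values has nonnegative values. -/
theorem sp49_mapDomain_nonneg (f : Y → Z) (E : Y →₀ ℤ) (h0 : ∀ y, 0 ≤ E y) (z : Z) :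
    0 ≤ Finsupp.mapDomain f E z := by
  classical
  rw [Finsupp.mapDomain, Finsupp.sum_apply]
  refine Finset.sum_nonneg fun y _ => ?_
  show 0 ≤ (Finsupp.single (f y) (E y)) z
  rw [Finsupp.single_apply]
  split_ifs
  · exact h0 y
  · exact le_rfl

/-- `mapDomain f E` vanishes at `z` if no point of the support of `E` is mapped to `z`. -/
theorem sp49_mapDomain_eq_zero (f : Y → Z) (E : Y →₀ ℤ) (z : Z)
    (h : ∀ y, E y ≠ 0 → f y ≠ z) : Finsupp.mapDomain f E z = 0 := by
  classical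
  rw [Finsupp.mapDomain, Finsupp.sum_apply]
  refine Finset.sum_eq_zero fun y hy => ?_
  show (Finsupp.single (f y) (E y)) z = 0
  rw [Finsupp.single_apply, if_neg (h y (Finsupp.mem_support_iff.mp hy))]

/-- A value of a nonnegative finitely supported function is at most its mass. -/
theorem sp49_apply_le_mass (E : Y →₀ ℤ) (h0 : ∀ y, 0 ≤ E y) (y : Y) :
    E y ≤ sp49_mass E := by
  classical
  rw [sp49_mass_apply, Finsupp.sum]
  by_cases hy : y ∈ E.support
  · exact Finset.single_le_sum (f := fun a => E a) (fun a _ => h0 a) hy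
  · rw [Finsupp.notMem_support_iff.mp hy]
    exact Finset.sum_nonneg fun a _ => h0 a

/-- The defect `θ = R ∘ T - (Φ_* + l • Ψ_*) ∘ R` of the Eichler–Shimura relation, as an additive
map. -/
noncomputable def sp49_theta (R : (X →₀ ℤ) →+ (Y →₀ ℤ)) (T : (X →₀ ℤ) →+ (X →₀ ℤ))
    (Φ Ψ : Y → Y) (l : ℕ) : (X →₀ ℤ) →+ (Y →₀ ℤ) :=
  R.comp T - ((Finsupp.mapDomain.addMonoidHom Φ + l • Finsupp.mapDomain.addMonoidHom Ψ).comp R)

theorem sp49_theta_apply (R : (X →₀ ℤ) →+ (Y →₀ ℤ)) (T : (X →₀ ℤ) →+ (X →₀ ℤ))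
    (Φ Ψ : Y → Y) (l : ℕ) (D : X →₀ ℤ) :
    sp49_theta R T Φ Ψ l D =
      R (T D) - (Finsupp.mapDomain Φ (R D) + l • Finsupp.mapDomain Ψ (R D)) :=
  rfl

theorem sp49_theta_eq_zero_iff (R : (X →₀ ℤ) →+ (Y →₀ ℤ)) (T : (X →₀ ℤ) →+ (X →₀ ℤ))
    (Φ Ψ : Y → Y) (l : ℕ) (D : X →₀ ℤ) :
    sp49_theta R T Φ Ψ l D = 0 ↔
      R (T D) = Finsupp.mapDomain Φ (R D) + l • Finsupp.mapDomain Ψ (R D) := by
  rw [sp49_theta_apply, sub_eq_zero]

/-- **The bound (B).**  If `R [P]` and `R (T [P])` are effective of mass at most `m` resp. `M`,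
the coefficients of the defect on single places are bounded by `M + (1 + l) m`. -/
theorem sp49_theta_bound (R : (X →₀ ℤ) →+ (Y →₀ ℤ)) (T : (X →₀ ℤ) →+ (X →₀ ℤ))
    (Φ Ψ : Y → Y) (l : ℕ) (m M : ℤ)
    (hR0 : ∀ (P : X) (Q : Y), 0 ≤ R (Finsupp.single P 1) Q)
    (hRT0 : ∀ (P : X) (Q : Y), 0 ≤ R (T (Finsupp.single P 1)) Q)
    (hm : ∀ P : X, sp49_mass (R (Finsupp.single P 1)) ≤ m)
    (hM : ∀ P : X, sp49_mass (R (T (Finsupp.single P 1))) ≤ M) (P : X) (Q : Y) :
    |sp49_theta R T Φ Ψ l (Finsupp.single P 1) Q| ≤ M + (1 + (l : ℤ)) * m := by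
  have h1 := hRT0 P Q
  have h1' := (sp49_apply_le_mass _ (hRT0 P) Q).trans (hM P)
  have h2 := sp49_mapDomain_nonneg Φ _ (hR0 P) Q
  have h2' : Finsupp.mapDomain Φ (R (Finsupp.single P 1)) Q ≤ m := by
    refine (sp49_apply_le_mass _ (sp49_mapDomain_nonneg Φ _ (hR0 P)) Q).trans ?_
    rw [sp49_mass_mapDomain]
    exact hm P
  have h3 := sp49_mapDomain_nonneg Ψ _ (hR0 P) Q
  have h3' : Finsupp.mapDomain Ψ (R (Finsupp.single P 1)) Q ≤ m := by
    refine (sp49_apply_le_mass _ (sp49_mapDomain_nonneg Ψ _ (hR0 P)) Q).trans ?_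
    rw [sp49_mass_mapDomain]
    exact hm P
  have hl0 : (0 : ℤ) ≤ (l : ℤ) := Int.natCast_nonneg _
  have hm0 : (0 : ℤ) ≤ m := h2.trans h2'
  rw [sp49_theta_apply, Finsupp.sub_apply, Finsupp.add_apply, Finsupp.smul_apply, nsmul_eq_mul,
    abs_le]
  constructor
  · nlinarith [mul_le_mul_of_nonneg_left h3' hl0]
  · nlinarith [mul_nonneg hl0 h3, mul_nonneg hl0 hm0]

/-- **Single places from a constant defect.** -/
theorem sp49_single (R : (X →₀ ℤ) →+ (Y →₀ ℤ)) (T : (X →₀ ℤ) →+ (X →₀ ℤ)) (Φ Ψ : Y → Y)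
    (l : ℕ)
    (hconst : ∀ P P0 : X,
      R (T (Finsupp.single P 1)) -
          (Finsupp.mapDomain Φ (R (Finsupp.single P 1)) +
            l • Finsupp.mapDomain Ψ (R (Finsupp.single P 1))) =
        R (T (Finsupp.single P0 1)) -
          (Finsupp.mapDomain Φ (R (Finsupp.single P0 1)) +
            l • Finsupp.mapDomain Ψ (R (Finsupp.single P0 1))))
    (heff : ∀ (P : X) (Q : Y), 0 ≤ R (T (Finsupp.single P 1)) Q)
    (hmass : ∀ P : X, sp49_mass (R (T (Finsupp.single P 1))) =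
      (1 + (l : ℤ)) * sp49_mass (R (Finsupp.single P 1)))
    (havoid : ∀ Q : Y, ∃ P : X, Finsupp.mapDomain Φ (R (Finsupp.single P 1)) Q = 0 ∧
      Finsupp.mapDomain Ψ (R (Finsupp.single P 1)) Q = 0)
    (P : X) :
    R (T (Finsupp.single P 1)) =
      Finsupp.mapDomain Φ (R (Finsupp.single P 1)) +
        l • Finsupp.mapDomain Ψ (R (Finsupp.single P 1)) := by
  rw [← sub_eq_zero]
  apply sp49_eq_zero_of_nonneg
  · intro Q
    obtain ⟨P', h1, h2⟩ := havoid Q
    rw [hconst P P', Finsupp.sub_apply, Finsupp.add_apply, Finsupp.smul_apply, h1, h2, smul_zero,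
      add_zero, sub_zero]
    exact heff P' Q
  · rw [map_sub, map_add, map_nsmul, sp49_mass_mapDomain, sp49_mass_mapDomain, hmass,
      nsmul_eq_mul]
    ring

/-- **Single places from mass-zero divisors.**  The same conclusion when the Eichler–Shimura
relation is known on all divisors of total mass `0`. -/
theorem sp49_single_of_massZero (R : (X →₀ ℤ) →+ (Y →₀ ℤ)) (T : (X →₀ ℤ) →+ (X →₀ ℤ))
    (Φ Ψ : Y → Y) (l : ℕ)
    (hdz : ∀ D : X →₀ ℤ, sp49_mass D = 0 →
      R (T D) = Finsupp.mapDomain Φ (R D) + l • Finsupp.mapDomain Ψ (R D))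
    (heff : ∀ (P : X) (Q : Y), 0 ≤ R (T (Finsupp.single P 1)) Q)
    (hmass : ∀ P : X, sp49_mass (R (T (Finsupp.single P 1))) =
      (1 + (l : ℤ)) * sp49_mass (R (Finsupp.single P 1)))
    (havoid : ∀ Q : Y, ∃ P : X, Finsupp.mapDomain Φ (R (Finsupp.single P 1)) Q = 0 ∧
      Finsupp.mapDomain Ψ (R (Finsupp.single P 1)) Q = 0)
    (P : X) :
    R (T (Finsupp.single P 1)) =
      Finsupp.mapDomain Φ (R (Finsupp.single P 1)) +
        l • Finsupp.mapDomain Ψ (R (Finsupp.single P 1)) := by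
  refine sp49_single R T Φ Ψ l (fun P P0 => ?_) heff hmass havoid P
  have h0 : sp49_mass (Finsupp.single P (1 : ℤ) - Finsupp.single P0 1) = 0 := by
    rw [map_sub, sp49_mass_single, sp49_mass_single, sub_self]
  have h1 := hdz _ h0
  rw [map_sub, map_sub, map_sub, Finsupp.mapDomain_sub, Finsupp.mapDomain_sub, smul_sub,
    sub_eq_iff_eq_add] at h1
  rw [h1]
  abel

end Abstract

end Fermat.Agent.S37
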