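import Fermat.Agent.S37.SinglePlace49
import Fermat.Agent.S37.GeoAsmV17
import Fermat.Agent.S37.LevelUpTools1
import Fermat.Agent.S37.MixedTV49
import Fermat.Agent.S18.RElimConst29

/-!
# S37 (helper49): clause 4 of `tv1_Geo` (ES on single places, mixed level) from ES on
degree-zero divisors

Complement to the "bounded + kills principal ⟹ kills degree zero" shortcut: if the mixed-level
Eichler–Shimura relation holds for every degree-zero divisor of `F(N)`, then it holds on every
single place, provided the reduction `r0` at level `N'` evaluates `j` correctly at integral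
values (clause (5) of `geo17_RC`).  No tube function (clause (6) of `geo17_RC`) is needed.

* `sp49_tv1_clause4` : the single-place relation.
* `sp49_RC` : the reduced RC package (clauses (1), (2), (5) of `geo17_RC`).
* `sp49_tv1_geo` : `tv1_Geo N N' h ℓ A` from `sp49_RC N' A` and the degree-zero relation.
* `sp49_DZ` : the degree-zero relation as a `Prop`; `sp49_WR` : the weak Riemann consequence
  ("bounded on places + kills principal divisors ⟹ kills degree-zero divisors") for `F(N)`;
  `sp49_dz_of_wr` : `sp49_WR N → sp49_DZ N N' h ℓ A` (the bound + the principal-divisor case).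
* `sp49_final_V` : the frozen statement S37 from S18, `sp49_WR N` and `sp49_RC (lcm N p₀) A`.
-/

set_option autoImplicit false
set_option linter.style.haveILetI false
set_option linter.unusedSectionVars false
set_option synthInstance.maxHeartbeats 400000

namespace Fermat.Agent.S37

open ModularCurve AlgebraicCurve

local notation "Qb" => AlgebraicClosure ℚ
local notation "GQ" => AlgebraicClosure ℚ ≃ₐ[ℚ] AlgebraicClosure ℚ

section Eff

variable {N N' ℓ : ℕ} [NeZero N] [NeZero N'] [NeZero ℓ]

/-- `T_ℓ [P]` is effective. -/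
theorem sp49_heckeDivBar_single_nonneg (hα : HeckeAlphaBarIntegral Qb N ℓ)
    (hβ : HeckeBetaBarIntegral Qb N ℓ)
    [HasPrincipalDivisors Qb (modularFunctionFieldBar (N * ℓ))]
    (P P' : Place Qb (modularFunctionFieldBar N)) :
    0 ≤ heckeDivBar hα hβ (Finsupp.single P 1) P' := by
  classical
  rw [hx63_heckeDivBar_single hα hβ P 1, Finsupp.finsetSum_apply]
  refine Finset.sum_nonneg fun w _ => ?_
  rw [Finsupp.single_apply]
  split_ifs
  · rw [one_mul]
    exact Int.natCast_nonneg _
  · exact le_rfl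

/-- `π^*` preserves effectivity. -/
theorem sp49_tv1_pull_nonneg (h : N ∣ N') (D : Divisor Qb (modularFunctionFieldBar N))
    (hD : ∀ P, 0 ≤ D P) (W : Place Qb (modularFunctionFieldBar N')) :
    0 ≤ tv1_pull h D W := by
  rw [tv1_pull_apply]
  exact mul_nonneg (Int.natCast_nonneg _) (hD _)

/-- The mass of a divisor of `F(N)` is its degree. -/
theorem sp49_mass_eq_degree (D : Divisor Qb (modularFunctionFieldBar N)) :
    sp49_mass D = Divisor.degree D := by
  rw [sp49_mass_apply, hx63_degree]

/-- `deg T_ℓ D = (ℓ + 1) deg D`. -/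
theorem sp49_degree_heckeDivBar (hl : ℓ.Prime) (hN : ¬ ℓ ∣ N)
    (hα : HeckeAlphaBarIntegral Qb N ℓ) (hβ : HeckeBetaBarIntegral Qb N ℓ)
    [HasPrincipalDivisors Qb (modularFunctionFieldBar (N * ℓ))]
    (D : Divisor Qb (modularFunctionFieldBar N)) :
    Divisor.degree (heckeDivBar hα hβ D) = ((ℓ : ℤ) + 1) * Divisor.degree D := by
  haveI : NeZero (N * ℓ) := ⟨mul_ne_zero (NeZero.ne N) (NeZero.ne ℓ)⟩
  obtain ⟨hFI, -⟩ := hx63_inputs_gen (φ := heckeBetaBar Qb N ℓ) hβ
  have hcop : Nat.Coprime ℓ N := (Nat.Prime.coprime_iff_not_dvd hl).mpr hN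
  obtain ⟨w, hw, -⟩ := al47_al_exists N ℓ hcop
  have hfr : finrankAlong Qb (heckeBetaBar Qb N ℓ) = ℓ + 1 := nc73_finrank_beta N ℓ hl hN w hw
  have h1 := Divisor.degree_correspondence (heckeBetaBar Qb N ℓ) (heckeAlphaBar Qb N ℓ) hβ hα
    hFI D
  rw [hfr] at h1
  rw [heckeDivBar, h1]
  push_cast
  ring

end Eff

section Avoid

variable {N N' ℓ : ℕ} [NeZero N] [NeZero N'] [NeZero ℓ] {A : ValuationSubring Qb}

/-- If `j(P) = c ∈ A`, then no place of `F(N')` above `P` reduces to a place `Q'` of the special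
fibre at which `j̄` does not take the value `res c`. -/
theorem sp49_R_single_eq_zero (h : N ∣ N')
    {r0 : Place Qb (modularFunctionFieldBar N') →
      Place (IsLocalRing.ResidueField A)
        (modularFunctionFieldFullC (IsLocalRing.ResidueField A) N')}
    (heval : ∀ (W : Place Qb (modularFunctionFieldBar N')) (c : Qb) (hc : c ∈ A),
      0 < W.ord (es87_j Qb N' - algebraMap Qb (modularFunctionFieldBar N') c) →
      0 < (r0 W).ord (geo17_jbar (IsLocalRing.ResidueField A) N' -
        algebraMap (IsLocalRing.ResidueField A)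
          (modularFunctionFieldFullC (IsLocalRing.ResidueField A) N')
          (IsLocalRing.residue A ⟨c, hc⟩)))
    (P : Place Qb (modularFunctionFieldBar N)) (c : Qb) (hc : c ∈ A)
    (hP : 0 < P.ord (es87_j Qb N - algebraMap Qb (modularFunctionFieldBar N) c))
    (Q' : Place (IsLocalRing.ResidueField A)
      (modularFunctionFieldFullC (IsLocalRing.ResidueField A) N'))
    (hQ' : ¬ 0 < Q'.ord (geo17_jbar (IsLocalRing.ResidueField A) N' -
        algebraMap (IsLocalRing.ResidueField A)
          (modularFunctionFieldFullC (IsLocalRing.ResidueField A) N')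
          (IsLocalRing.residue A ⟨c, hc⟩))) :
    Finsupp.mapDomain r0 (tv1_pull h (Finsupp.single P 1)) Q' = 0 := by
  classical
  apply sp49_mapDomain_eq_zero
  intro W hW hr
  rw [tv1_pull_apply] at hW
  have he : (Place.ramificationIndexAlong (tv1_iota h) W : ℤ) ≠ 0 := left_ne_zero_of_mul hW
  have hs : (Finsupp.single P (1 : ℤ)) (W.restrictAlong (tv1_iota h) (tv1_iota_integral h)) ≠ 0 :=
    right_ne_zero_of_mul hW
  have hres : W.restrictAlong (tv1_iota h) (tv1_iota_integral h) = P := by
    by_contra hne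
    apply hs
    rw [Finsupp.single_apply, if_neg (fun h' => hne h'.symm)]
  have h1 := Place.ord_restrictAlong (tv1_iota h) (tv1_iota_integral h) W
    (es87_j Qb N - algebraMap Qb (modularFunctionFieldBar N) c)
  rw [tv1_iota_j_sub, hres] at h1
  have h2 : 0 < W.ord (es87_j Qb N' - algebraMap Qb (modularFunctionFieldBar N') c) := by
    rw [h1]
    have he' : (0 : ℤ) < (Place.ramificationIndexAlong (tv1_iota h) W : ℤ) :=
      lt_of_le_of_ne (Int.natCast_nonneg _) (Ne.symm he)
    exact mul_pos he' hP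
  have h3 := heval W c hc h2
  rw [hr] at h3
  exact hQ' h3

/-- A constant `c ∈ A` whose residue is not the value of `j̄` at either of two given places. -/
theorem sp49_exists_const
    (Q1 Q2 : Place (IsLocalRing.ResidueField A)
      (modularFunctionFieldFullC (IsLocalRing.ResidueField A) N')) :
    ∃ (c : Qb) (hc : c ∈ A),
      (¬ 0 < Q1.ord (geo17_jbar (IsLocalRing.ResidueField A) N' -
        algebraMap (IsLocalRing.ResidueField A)
          (modularFunctionFieldFullC (IsLocalRing.ResidueField A) N')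
          (IsLocalRing.residue A ⟨c, hc⟩))) ∧
      (¬ 0 < Q2.ord (geo17_jbar (IsLocalRing.ResidueField A) N' -
        algebraMap (IsLocalRing.ResidueField A)
          (modularFunctionFieldFullC (IsLocalRing.ResidueField A) N')
          (IsLocalRing.residue A ⟨c, hc⟩))) := by
  classical
  haveI : IsAlgClosed (IsLocalRing.ResidueField A) :=
    Fermat.Agent.S18.re41_isAlgClosed_residueField A
  have hsub : ∀ Q : Place (IsLocalRing.ResidueField A)
      (modularFunctionFieldFullC (IsLocalRing.ResidueField A) N'),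
      {a : IsLocalRing.ResidueField A | 0 < Q.ord (geo17_jbar (IsLocalRing.ResidueField A) N' -
        algebraMap (IsLocalRing.ResidueField A)
          (modularFunctionFieldFullC (IsLocalRing.ResidueField A) N') a)}.Finite := by
    intro Q
    apply Set.Subsingleton.finite
    intro a ha b hb
    exact geo17_value_unique Q _ a b ha hb
  have hfin := (hsub Q1).union (hsub Q2)
  obtain ⟨a, ha⟩ := Infinite.exists_notMem_finset hfin.toFinset
  rw [Set.Finite.mem_toFinset, Set.mem_union, not_or] at ha
  obtain ⟨c, rfl⟩ := IsLocalRing.residue_surjective a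
  exact ⟨(c : Qb), c.2, ha.1, ha.2⟩

/-- `j - c` has a zero on `X_0(N)`. -/
theorem sp49_exists_zero (c : Qb) :
    ∃ P : Place Qb (modularFunctionFieldBar N),
      0 < P.ord (es87_j Qb N - algebraMap Qb (modularFunctionFieldBar N) c) := by
  haveI := hi63_finite_x N
  have htr : Transcendental Qb (es87_j Qb N - algebraMap Qb (modularFunctionFieldBar N) c) := by
    intro halg
    have hj := hi63_x_transcendental N
    rw [geo17_x_eq_j] at hj
    apply hj
    have h2 : IsAlgebraic Qb (algebraMap Qb (modularFunctionFieldBar N) c) :=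
      isAlgebraic_algebraMap c
    have h3 := halg.add h2
    rwa [sub_add_cancel] at h3
  exact Fermat.Agent.S18.relimc_exists_place (hi63_x N) _ htr

/-- For every place `Q` of the special fibre there is a place `P` of `F(N)` such that no place
above `P` reduces to `φ⁻¹ Q` or to `φ Q`. -/
theorem sp49_avoid (h : N ∣ N')
    {r0 : Place Qb (modularFunctionFieldBar N') →
      Place (IsLocalRing.ResidueField A)
        (modularFunctionFieldFullC (IsLocalRing.ResidueField A) N')}
    (heval : ∀ (W : Place Qb (modularFunctionFieldBar N')) (c : Qb) (hc : c ∈ A),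
      0 < W.ord (es87_j Qb N' - algebraMap Qb (modularFunctionFieldBar N') c) →
      0 < (r0 W).ord (geo17_jbar (IsLocalRing.ResidueField A) N' -
        algebraMap (IsLocalRing.ResidueField A)
          (modularFunctionFieldFullC (IsLocalRing.ResidueField A) N')
          (IsLocalRing.residue A ⟨c, hc⟩)))
    (φ : SemilinearAut (IsLocalRing.ResidueField A)
      (modularFunctionFieldFullC (IsLocalRing.ResidueField A) N'))
    (Q : Place (IsLocalRing.ResidueField A)
      (modularFunctionFieldFullC (IsLocalRing.ResidueField A) N')) :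
    ∃ P : Place Qb (modularFunctionFieldBar N),
      Finsupp.mapDomain (fun Q => φ • Q)
          (Finsupp.mapDomain r0 (tv1_pull h (Finsupp.single P 1))) Q = 0 ∧
        Finsupp.mapDomain (fun Q => φ⁻¹ • Q)
          (Finsupp.mapDomain r0 (tv1_pull h (Finsupp.single P 1))) Q = 0 := by
  obtain ⟨c, hc, h1, h2⟩ := sp49_exists_const (A := A) (N' := N') (φ⁻¹ • Q) (φ • Q)
  obtain ⟨P, hP⟩ := sp49_exists_zero (N := N) c
  refine ⟨P, ?_, ?_⟩
  · rw [es49_mapDomain_apply_of_inverse (f := fun Q => φ • Q) (g := fun Q => φ⁻¹ • Q)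
      (fun Q => inv_smul_smul φ Q) (fun Q => smul_inv_smul φ Q)]
    exact sp49_R_single_eq_zero h heval P c hc hP _ h1
  · rw [es49_mapDomain_apply_of_inverse (f := fun Q => φ⁻¹ • Q) (g := fun Q => φ • Q)
      (fun Q => smul_inv_smul φ Q) (fun Q => inv_smul_smul φ Q)]
    exact sp49_R_single_eq_zero h heval P c hc hP _ h2

end Avoid

section Main

variable {N N' ℓ : ℕ} [NeZero N] [NeZero N'] [NeZero ℓ] {A : ValuationSubring Qb}

set_option maxHeartbeats 4000000 in
/-- **ES on single places from ES on degree-zero divisors (mixed level).**  `r0` any map on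
places at level `N'` which evaluates `j` correctly at integral values (`heval`); `φ` any
semilinear automorphism of the special fibre.  If the mixed-level Eichler–Shimura relation holds
on all degree-zero divisors of `F(N)`, it holds on every single place. -/
theorem sp49_tv1_clause4 (hl : ℓ.Prime) (hN : ¬ ℓ ∣ N) (h : N ∣ N')
    {r0 : Place Qb (modularFunctionFieldBar N') →
      Place (IsLocalRing.ResidueField A)
        (modularFunctionFieldFullC (IsLocalRing.ResidueField A) N')}
    (heval : ∀ (W : Place Qb (modularFunctionFieldBar N')) (c : Qb) (hc : c ∈ A),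
      0 < W.ord (es87_j Qb N' - algebraMap Qb (modularFunctionFieldBar N') c) →
      0 < (r0 W).ord (geo17_jbar (IsLocalRing.ResidueField A) N' -
        algebraMap (IsLocalRing.ResidueField A)
          (modularFunctionFieldFullC (IsLocalRing.ResidueField A) N')
          (IsLocalRing.residue A ⟨c, hc⟩)))
    (hα : HeckeAlphaBarIntegral Qb N ℓ) (hβ : HeckeBetaBarIntegral Qb N ℓ)
    [HasPrincipalDivisors Qb (modularFunctionFieldBar (N * ℓ))]
    (φ : SemilinearAut (IsLocalRing.ResidueField A)
      (modularFunctionFieldFullC (IsLocalRing.ResidueField A) N'))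
    (hdz : ∀ D ∈ Divisor.degZero (K := Qb) (F := modularFunctionFieldBar N),
      Finsupp.mapDomain r0 (tv1_pull h (heckeDivBar hα hβ D)) =
        Finsupp.mapDomain (fun Q => φ • Q) (Finsupp.mapDomain r0 (tv1_pull h D)) +
          ℓ • Finsupp.mapDomain (fun Q => φ⁻¹ • Q) (Finsupp.mapDomain r0 (tv1_pull h D)))
    (P : Place Qb (modularFunctionFieldBar N)) :
    Finsupp.mapDomain r0 (tv1_pull h (heckeDivBar hα hβ (Finsupp.single P 1))) =
      Finsupp.mapDomain (fun Q => φ • Q)
          (Finsupp.mapDomain r0 (tv1_pull h (Finsupp.single P 1))) +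
        ℓ • Finsupp.mapDomain (fun Q => φ⁻¹ • Q)
          (Finsupp.mapDomain r0 (tv1_pull h (Finsupp.single P 1))) := by
  have key := sp49_single_of_massZero
    ((Finsupp.mapDomain.addMonoidHom r0).comp (tv1_pull h)) (heckeDivBar hα hβ)
    (fun Q => φ • Q) (fun Q => φ⁻¹ • Q) ℓ ?_ ?_ ?_ ?_ P
  · exact key
  · intro D hD
    have hD' : D ∈ Divisor.degZero (K := Qb) (F := modularFunctionFieldBar N) := by
      rw [Divisor.mem_degZero, ← sp49_mass_eq_degree]
      exact hD
    exact hdz D hD'
  · intro P Q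
    exact sp49_mapDomain_nonneg r0 _
      (sp49_tv1_pull_nonneg h _ (sp49_heckeDivBar_single_nonneg hα hβ P)) Q
  · intro P
    show sp49_mass (Finsupp.mapDomain r0 (tv1_pull h (heckeDivBar hα hβ (Finsupp.single P 1)))) =
      (1 + (ℓ : ℤ)) * sp49_mass (Finsupp.mapDomain r0 (tv1_pull h (Finsupp.single P 1)))
    rw [sp49_mass_mapDomain, sp49_mass_mapDomain, sp49_mass_eq_degree, sp49_mass_eq_degree,
      tv1_degree_pull, tv1_degree_pull, sp49_degree_heckeDivBar hl hN]
    ring
  · intro Q
    exact sp49_avoid h heval φ Q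

/-- **The reduced RC package** at level `M`: clauses (1), (2), (5) of `geo17_RC` (place
reduction, decomposition-group equivariance, evaluation of `j` at integral values).  No tube
functions, no statement at the poles of `j`. -/
def sp49_RC (M : ℕ) [NeZero M] (A : ValuationSubring Qb) : Prop :=
  ∃ r0 : Place Qb (modularFunctionFieldBar M) →
      Place (IsLocalRing.ResidueField A)
        (modularFunctionFieldFullC (IsLocalRing.ResidueField A) M),
    IsPlaceReductionModL A M r0 ∧
    (∀ (σ : GQ) (hσ : σ ∈ A.decompositionSubgroup ℚ)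
      (P : Place Qb (modularFunctionFieldBar M)),
      r0 (arithmeticGalois (modularFunctionFieldFull M) σ • P)
        = fr66_resGalois M (MulSemiringAction.toRingEquiv (A.decompositionSubgroup ℚ)
            (IsLocalRing.ResidueField A) ⟨σ, hσ⟩) • r0 P) ∧
    (∀ (P : Place Qb (modularFunctionFieldBar M)) (c : Qb) (hc : c ∈ A),
      0 < P.ord (es87_j Qb M - algebraMap Qb (modularFunctionFieldBar M) c) →
      0 < (r0 P).ord (geo17_jbar (IsLocalRing.ResidueField A) M -
        algebraMap (IsLocalRing.ResidueField A)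
          (modularFunctionFieldFullC (IsLocalRing.ResidueField A) M)
          (IsLocalRing.residue A ⟨c, hc⟩)))

/-- `geo17_RC` implies the reduced package. -/
theorem sp49_RC_of_geo17 {M : ℕ} [NeZero M] (hRC : geo17_RC M A) : sp49_RC M A := by
  obtain ⟨r0, hr, hequiv, -, -, hval, -⟩ := hRC
  exact ⟨r0, hr, hequiv, hval⟩

/-- **`tv1_Geo` from the reduced RC package and the degree-zero Eichler–Shimura relation.**
`hDZ` is the output of the "bounded + kills principal ⟹ kills degree zero" argument for a place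
reduction `r0` at level `N'`. -/
theorem sp49_tv1_geo (hl : ℓ.Prime) (hℓN' : ¬ ℓ ∣ N') (hA : A.LiesOverPrime ℓ) (h : N ∣ N')
    (hRC : sp49_RC N' A)
    (hDZ : ∀ (r0 : Place Qb (modularFunctionFieldBar N') →
        Place (IsLocalRing.ResidueField A)
          (modularFunctionFieldFullC (IsLocalRing.ResidueField A) N')),
      IsPlaceReductionModL A N' r0 →
      ∀ (hα : HeckeAlphaBarIntegral Qb N ℓ) (hβ : HeckeBetaBarIntegral Qb N ℓ)
        [HasPrincipalDivisors Qb (modularFunctionFieldBar (N * ℓ))]
        (φk : IsLocalRing.ResidueField A ≃+* IsLocalRing.ResidueField A),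
        (∀ x, φk x = x ^ ℓ) →
        ∀ D ∈ Divisor.degZero (K := Qb) (F := modularFunctionFieldBar N),
          Finsupp.mapDomain r0 (tv1_pull h (heckeDivBar hα hβ D)) =
            Finsupp.mapDomain (fun Q => fr66_resGalois N' φk • Q)
                (Finsupp.mapDomain r0 (tv1_pull h D)) +
              ℓ • Finsupp.mapDomain (fun Q => (fr66_resGalois N' φk)⁻¹ • Q)
                (Finsupp.mapDomain r0 (tv1_pull h D))) :
    tv1_Geo N N' h ℓ A := by
  intro hα hβ hP
  obtain ⟨r0, hr, hequiv, hval⟩ := hRC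
  have hN : ¬ ℓ ∣ N := fun hd => hℓN' (hd.trans h)
  refine ⟨r0, hr, ga41_pgi_of_liesOver N' A hl hA hℓN', hequiv, fun φk hφ P => ?_⟩
  exact sp49_tv1_clause4 hl hN h hval hα hβ (fr66_resGalois N' φk)
    (hDZ r0 hr hα hβ φk hφ) P

end Main

section DegZero

variable {N N' ℓ : ℕ} [NeZero N] [NeZero N'] [NeZero ℓ] {A : ValuationSubring Qb}

/-- The **degree-zero Eichler–Shimura relation** at mixed level `(N, N')`: for every Prelude
place reduction `r0` at level `N'`, the relation
`r0_* π^* (T_ℓ D) = φ_* (r0_* π^* D) + ℓ • φ⁻¹_* (r0_* π^* D)` holds for all degree-zero divisors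
`D` of `F(N)`. -/
def sp49_DZ (N N' : ℕ) [NeZero N] [NeZero N'] (h : N ∣ N') (ℓ : ℕ) [NeZero ℓ]
    (A : ValuationSubring Qb) : Prop :=
  ∀ (r0 : Place Qb (modularFunctionFieldBar N') →
      Place (IsLocalRing.ResidueField A)
        (modularFunctionFieldFullC (IsLocalRing.ResidueField A) N')),
    IsPlaceReductionModL A N' r0 →
    ∀ (hα : HeckeAlphaBarIntegral Qb N ℓ) (hβ : HeckeBetaBarIntegral Qb N ℓ)
      (_ : HasPrincipalDivisors Qb (modularFunctionFieldBar (N * ℓ)))
      (φk : IsLocalRing.ResidueField A ≃+* IsLocalRing.ResidueField A),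
      (∀ x, φk x = x ^ ℓ) →
      ∀ D ∈ Divisor.degZero (K := Qb) (F := modularFunctionFieldBar N),
        Finsupp.mapDomain r0 (tv1_pull h (heckeDivBar hα hβ D)) =
          Finsupp.mapDomain (fun Q => fr66_resGalois N' φk • Q)
              (Finsupp.mapDomain r0 (tv1_pull h D)) +
            ℓ • Finsupp.mapDomain (fun Q => (fr66_resGalois N' φk)⁻¹ • Q)
              (Finsupp.mapDomain r0 (tv1_pull h D))

/-- The **weak Riemann consequence** for `F(N)` over `ℚ̄`: an additive map on divisors, with
values in a free abelian group, which is bounded on single places (coefficientwise) and kills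
principal divisors, kills all degree-zero divisors. -/
def sp49_WR (N : ℕ) [NeZero N] : Prop :=
  ∀ (Y : Type) (θ : Divisor Qb (modularFunctionFieldBar N) →+ (Y →₀ ℤ)),
    (∀ Q : Y, ∃ C : ℤ, ∀ P : Place Qb (modularFunctionFieldBar N),
      |θ (Finsupp.single P 1) Q| ≤ C) →
    (∀ D ∈ Divisor.principal (K := Qb) (F := modularFunctionFieldBar N), θ D = 0) →
    ∀ D ∈ Divisor.degZero (K := Qb) (F := modularFunctionFieldBar N), θ D = 0

set_option maxHeartbeats 4000000 in
/-- **The degree-zero relation from the weak Riemann consequence** (bound `(B)`: the defect of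
the Eichler–Shimura relation on a single place has coefficients bounded by
`n' (ℓ + 1) + (1 + ℓ) n'`), using the relation on principal divisors
(`mx49_tv1_principal_nat`). -/
theorem sp49_dz_of_wr (hWR : sp49_WR N) (hl : ℓ.Prime) (hℓN' : ¬ ℓ ∣ N')
    (hA : A.LiesOverPrime ℓ) (h : N ∣ N') : sp49_DZ N N' h ℓ A := by
  intro r0 hr hα hβ hP φk hφ
  haveI := hP
  have hN : ¬ ℓ ∣ N := fun hd => hℓN' (hd.trans h)
  have hR0 : ∀ (P : Place Qb (modularFunctionFieldBar N)) Q,
      0 ≤ ((Finsupp.mapDomain.addMonoidHom r0).comp (tv1_pull h)) (Finsupp.single P 1) Q := by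
    intro P Q
    refine sp49_mapDomain_nonneg r0 _ (sp49_tv1_pull_nonneg h _ (fun P' => ?_)) Q
    classical
    rw [Finsupp.single_apply]
    split_ifs <;> norm_num
  have hRT0 : ∀ (P : Place Qb (modularFunctionFieldBar N)) Q,
      0 ≤ ((Finsupp.mapDomain.addMonoidHom r0).comp (tv1_pull h))
        (heckeDivBar hα hβ (Finsupp.single P 1)) Q := fun P Q =>
    sp49_mapDomain_nonneg r0 _
      (sp49_tv1_pull_nonneg h _ (sp49_heckeDivBar_single_nonneg hα hβ P)) Q
  have hm : ∀ P : Place Qb (modularFunctionFieldBar N),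
      sp49_mass (((Finsupp.mapDomain.addMonoidHom r0).comp (tv1_pull h)) (Finsupp.single P 1)) ≤
        (finrankAlong Qb (tv1_iota h) : ℤ) := by
    intro P
    show sp49_mass (Finsupp.mapDomain r0 (tv1_pull h (Finsupp.single P 1))) ≤ _
    rw [sp49_mass_mapDomain, sp49_mass_eq_degree, tv1_degree_pull, Divisor.degree_single,
      hx63_deg]
    simp
  have hM : ∀ P : Place Qb (modularFunctionFieldBar N),
      sp49_mass (((Finsupp.mapDomain.addMonoidHom r0).comp (tv1_pull h))
        (heckeDivBar hα hβ (Finsupp.single P 1))) ≤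
        (finrankAlong Qb (tv1_iota h) : ℤ) * ((ℓ : ℤ) + 1) := by
    intro P
    show sp49_mass (Finsupp.mapDomain r0 (tv1_pull h (heckeDivBar hα hβ (Finsupp.single P 1))))
      ≤ _
    rw [sp49_mass_mapDomain, sp49_mass_eq_degree, tv1_degree_pull,
      sp49_degree_heckeDivBar hl hN, Divisor.degree_single, hx63_deg]
    simp
  have hbound := sp49_theta_bound ((Finsupp.mapDomain.addMonoidHom r0).comp (tv1_pull h))
    (heckeDivBar hα hβ) (fun Q => fr66_resGalois N' φk • Q)
    (fun Q => (fr66_resGalois N' φk)⁻¹ • Q) ℓ _ _ hR0 hRT0 hm hM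
  have hprinc : ∀ D ∈ Divisor.principal (K := Qb) (F := modularFunctionFieldBar N),
      sp49_theta ((Finsupp.mapDomain.addMonoidHom r0).comp (tv1_pull h))
        (heckeDivBar hα hβ) (fun Q => fr66_resGalois N' φk • Q)
        (fun Q => (fr66_resGalois N' φk)⁻¹ • Q) ℓ D = 0 := by
    intro D hD
    rw [sp49_theta_eq_zero_iff]
    exact mx49_tv1_principal_nat hl hN A hA h hr hα hβ φk hφ D hD
  intro D hD
  have h0 := hWR _ _ (fun Q => ⟨_, fun P => hbound P Q⟩) hprinc D hD
  rw [sp49_theta_eq_zero_iff] at h0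
  exact h0

end DegZero

section Final

variable {N N' ℓ : ℕ} [NeZero N] [NeZero N'] [NeZero ℓ] {A : ValuationSubring Qb}

/-- `tv1_Geo` from the reduced RC package and the weak Riemann consequence. -/
theorem sp49_tv1_geo_of_wr (hWR : sp49_WR N) (hl : ℓ.Prime) (hℓN' : ¬ ℓ ∣ N')
    (hA : A.LiesOverPrime ℓ) (h : N ∣ N') (hRC : sp49_RC N' A) : tv1_Geo N N' h ℓ A :=
  sp49_tv1_geo hl hℓN' hA h hRC
    (fun r0 hr hα hβ hP φk hφ => sp49_dz_of_wr hWR hl hℓN' hA h r0 hr hα hβ hP φk hφ)

/-- **S37 (Route V) from S18 at all levels, the weak Riemann consequence at level `N`, and the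
REDUCED RC package (clauses (1), (2), (5) of `geo17_RC`) at the auxiliary levels `lcm N p₀`,
`p₀ ∈ {2, 3}`.**  No tube functions. -/
theorem sp49_final_V (N p : ℕ) [NeZero N] (hcomm : HeckeOperatorsCommuteBar N)
    (hS18 : ∀ (M : ℕ) [NeZero M] (ℓ : ℕ), ℓ.Prime → ¬ ℓ ∣ M → ∀ A : ValuationSubring Qb,
      A.LiesOverPrime ℓ → top13_S18At M A ℓ)
    (hWR : sp49_WR N)
    (hRC : ∀ p₀ : ℕ, p₀ = 2 ∨ p₀ = 3 → ∀ ℓ : ℕ, ℓ.Prime → ¬ ℓ ∣ N → ℓ ≠ p₀ →
      ∀ A : ValuationSubring Qb, A.LiesOverPrime ℓ → ∀ [NeZero (Nat.lcm N p₀)],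
      sp49_RC (Nat.lcm N p₀) A) :
    letI := ModularCurve.heckeModuleBar N
    ∀ (_ : SMulCommClass GQ ModularCurve.HeckeAlg (ModularCurve.JZero N)),
      ModularCurve.SpecializationExists (K := ℚ) (L := Qb) N p (ModularCurve.JZero N) := by
  refine tv1_final N p hcomm hS18 (fun ℓ hℓ _ => ?_) (fun p₀ h23 ℓ hℓ hℓN hne A hA inst => ?_)
  · haveI : NeZero ℓ := ⟨hℓ.ne_zero⟩
    exact hi63_heckeInputsAlong N ℓ
  · haveI : NeZero ℓ := ⟨hℓ.ne_zero⟩
    have hp₀ : p₀.Prime := by
      rcases h23 with rfl | rfl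
      · exact Nat.prime_two
      · exact Nat.prime_three
    have hℓN' : ¬ ℓ ∣ Nat.lcm N p₀ := by
      intro hdvd
      have h1 : ℓ ∣ N * p₀ := hdvd.trans (Nat.lcm_dvd_mul N p₀)
      rcases (Nat.Prime.dvd_mul hℓ).mp h1 with h2 | h2
      · exact hℓN h2
      · exact hne ((Nat.prime_dvd_prime_iff_eq hℓ hp₀).mp h2)
    exact sp49_tv1_geo_of_wr hWR hℓ hℓN' hA (Nat.dvd_lcm_left N p₀)
      (hRC p₀ h23 ℓ hℓ hℓN hne A hA)

end Final

end Fermat.Agent.S37
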