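import Fermat.Agent.S37.TubeLift21
import Fermat.Agent.S37.ChartChangeInst47
import Fermat.Agent.S37.CrossChartGa25
import Fermat.Agent.S37.GeoRC17

/-!
# S37, row XC (helper21), part 3: tube divisors for `j`-classes at level `M`, concretely

`A` a valuation subring of `ℚ̄` with residue field `k`, `(M : k) ≠ 0`,
`F = modularFunctionFieldBar M`, `Fk = modularFunctionFieldFullC k M`,
`(V, red) = (ga41_O M A, ga41_red M A hM)` (helper41), chart coordinates `j`, `1/j ∈ V`.

* `tb21_gauss_ga41` — the Gauss package `tb21_Gauss` for any place reduction `r0` in the Prelude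
  sense (conservation on the whole Gauss ring: helper25's `xc25_ga41_cons`).
* `tb21_class_j` — `tb21_Class` for the chart `j` from `hcls`
  (`cx91_cls j̄ (r0 P) = cx91_clsL A j P`).
* `tb21_finite_cls` — the `j̄`-classes of the special fibre have finite fibres.
* `tb21_htube_of_normalAt` — **the hypothesis `htube` of `geo17_RC_of_cls`** from
  `(r0, hr, hcls)` and chart normality (`ka46_NormalAt`) for `j` and `1/j` at level `M`:
  the tube toolkit `tb21_tube_of_ch44` with `S` = the finitely many points of the special fibre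
  whose `j̄`-class lies in `G`.
-/

set_option autoImplicit false
set_option linter.style.haveILetI false
set_option synthInstance.maxHeartbeats 400000

namespace Fermat.Agent.S37

open ModularCurve AlgebraicCurve IntermediateField Fermat.Agent.S24 Fermat.Agent.S18
  Fermat.Agent.S28

local notation "Qb" => AlgebraicClosure ℚ

section Inst

variable (M : ℕ) [NeZero M] (A : ValuationSubring Qb)

/-- The chart coordinate `j` as an element of the Gauss ring. -/
noncomputable def tb21_jO : ga41_O M A := cci47_x M A (jqModC ℤ) (cci47_j_mem M)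

/-- The chart coordinate `1/j` as an element of the Gauss ring. -/
noncomputable def tb21_jinvO : ga41_O M A := cci47_x M A (h63_jInv ℤ) (cci47_jinv_mem M)

theorem tb21_jO_mul_jinvO : tb21_jO M A * tb21_jinvO M A = 1 := by
  apply cci47_incl_injective M A
  rw [map_mul, map_one, tb21_jO, tb21_jinvO, cci47_incl_x, cci47_incl_x, cci47_g_j, cci47_g_jinv]
  exact h63_jqModC_mul_jInv Qb

theorem tb21_jO_coe : ((tb21_jO M A : ga41_O M A) : ↥(modularFunctionFieldBar M)) = es87_j Qb M := by
  apply Subtype.ext
  show ka46_g Qb (jqModC ℤ) = jqModC Qb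
  exact cci47_g_j Qb

theorem tb21_red_jO (hM : (M : IsLocalRing.ResidueField A) ≠ 0) :
    ga41_red M A hM (tb21_jO M A) = geo17_jbar (IsLocalRing.ResidueField A) M := by
  apply Subtype.ext
  rw [ga41_red_coe, tb21_jO, cci47_redHom_x, cci47_g_j]
  rfl

/-- **The Gauss package** for `(ga41_O M A, ga41_red M A hM)` and any place reduction in the
Prelude sense. -/
theorem tb21_gauss_ga41 (hM : (M : IsLocalRing.ResidueField A) ≠ 0)
    (r0 : Place Qb (modularFunctionFieldBar M) →
      Place (IsLocalRing.ResidueField A)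
        (modularFunctionFieldFullC (IsLocalRing.ResidueField A) M))
    (hr : IsPlaceReductionModL A M r0) :
    tb21_Gauss A (IsLocalRing.residue A) r0 (ga41_O M A) (ga41_red M A hM) := by
  haveI := hi63_hasPrincipalDivisors_bar M
  haveI := hi63_finite_x M
  refine ⟨?_, ?_, ?_, ?_, ?_⟩
  · intro a ha
    rw [IsLocalRing.residue_eq_zero_iff, IsLocalRing.mem_maximalIdeal, mem_nonunits_iff]
    exact ha
  · intro a
    refine ⟨ga41_algebraMap_mem M A a, ?_⟩
    apply Subtype.ext
    rw [ga41_red_coe, ga41_redHom_algebraMap]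
    rfl
  · intro v hv
    have hu : IsUnit v := (ga41_isUnit_iff M A v).mpr fun h => hv (Subtype.ext (by
      rw [ga41_red_coe, h]
      rfl))
    exact hu.exists_right_inv
  · intro v hv D hD Q
    exact xc25_ga41_cons M A hM r0 hr v hv D hD Q
  · intro P f hf
    exact wp1_exists_const (hi63_x M) (hi63_x_transcendental M) P f
      ((wp1_mem_iff_ord_nonneg P f).mpr hf)

/-- **Class compatibility for the chart `j`** from `hcls` (`j̄ (r0 P) = res (j P)` in
`k ∪ {∞}`, helper91's `cx91` vocabulary). -/
theorem tb21_class_j (hM : (M : IsLocalRing.ResidueField A) ≠ 0)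
    (r0 : Place Qb (modularFunctionFieldBar M) →
      Place (IsLocalRing.ResidueField A)
        (modularFunctionFieldFullC (IsLocalRing.ResidueField A) M))
    (hcls : ∀ P : Place Qb (modularFunctionFieldBar M),
      cx91_cls (geo17_jbar (IsLocalRing.ResidueField A) M) (r0 P) =
        cx91_clsL A (es87_j Qb M) P) :
    tb21_Class A (IsLocalRing.residue A) r0 (ga41_O M A) (ga41_red M A hM) (tb21_jO M A) := by
  haveI := rc5_isAlgClosed_residueField A
  have hnone : ∀ P : Place Qb (modularFunctionFieldBar M), cx91_clsL A (es87_j Qb M) P = none →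
      (r0 P).ord (geo17_jbar (IsLocalRing.ResidueField A) M) < 0 := by
    intro P hP
    have h1 := hcls P
    rw [hP, cx91_cls_eq_none_iff] at h1
    rcases geo17_dichotomy_k (IsLocalRing.ResidueField A) M (r0 P) with h2 | ⟨c, hc⟩
    · exact h2
    · exact absurd hc (h1 c)
  refine ⟨?_, ?_, ?_, ?_⟩
  · intro c hc
    rw [tb21_red_jO] at hc
    have htr := rc5_j_transcendental (IsLocalRing.ResidueField A) M
    have hj : rc5_j (IsLocalRing.ResidueField A) M = geo17_jbar (IsLocalRing.ResidueField A) M :=
      rfl
    rw [hj, hc] at htr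
    exact htr (isAlgebraic_algebraMap c)
  · intro P a h
    rw [tb21_jO_coe] at h
    rw [tb21_red_jO]
    have h1 := hcls P
    rw [cx91_clsL_eq_some (es87_j Qb M) P a h, cx91_cls_eq_some_iff] at h1
    exact h1
  · intro P a ha h
    rw [tb21_jO_coe] at h
    rw [tb21_red_jO]
    apply hnone
    rw [cx91_clsL_eq_none_iff]
    intro a' ha'
    apply ha
    rw [geo17_value_unique P _ a (a' : Qb) h ha']
    exact a'.2
  · intro P h
    rw [tb21_jO_coe] at h
    rw [tb21_red_jO]
    apply hnone
    rw [cx91_clsL_eq_none_iff]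
    intro a ha
    exact geo17_not_pole_of_value P _ (a : Qb) ha h

end Inst

section Tube

variable (M : ℕ) [NeZero M]

/-- The fibres of the class map of the special fibre are finite. -/
theorem tb21_finite_cls (κ : Type*) [Field κ] [IsAlgClosed κ] (o : Option κ) :
    {Q : Place κ (modularFunctionFieldFullC κ M) | cx91_cls (geo17_jbar κ M) Q = o}.Finite := by
  haveI := rc5_finiteDimensional κ M
  haveI := rc5_isSeparable_full κ M
  have hj : rc5_j κ M = geo17_jbar κ M := rfl
  cases o with
  | some c =>
    refine (ps14_finite_zeros (rc5_j κ M) (rc5_j_transcendental κ M) c).subset ?_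
    intro Q hQ
    exact (cx91_cls_eq_some_iff _ Q c).mp hQ
  | none =>
    haveI := ps14_finiteDimensional_inv (K := κ) (rc5_j κ M)
    haveI := ps14_isSeparable_inv (K := κ) (rc5_j κ M)
    refine (ps14_finite_zeros (rc5_j κ M)⁻¹
      (ps14_transcendental_inv (rc5_j_transcendental κ M)) 0).subset ?_
    intro Q hQ
    have hQ' := (cx91_cls_eq_none_iff _ Q).mp hQ
    rcases geo17_dichotomy_k κ M Q with h2 | ⟨c, hc⟩
    · show 0 < Q.ord ((rc5_j κ M)⁻¹ - algebraMap κ (modularFunctionFieldFullC κ M) 0)
      rw [map_zero, sub_zero, Place.ord_inv, hj]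
      omega
    · exact absurd hc (hQ' c)

variable (A : ValuationSubring Qb)

set_option maxHeartbeats 1000000 in
/-- **Tube divisors for finite sets of `j`-classes** (the hypothesis `htube` of
`geo17_RC_of_cls`) from a place reduction in the Prelude sense which respects the `j`-classes,
given chart normality for `j` and `1/j` at level `M`. -/
theorem tb21_htube_of_normalAt (hM : (M : IsLocalRing.ResidueField A) ≠ 0)
    (Hj : ka46_NormalAt A.subtype (IsLocalRing.residue A) M (jqModC ℤ))
    (Hjinv : ka46_NormalAt A.subtype (IsLocalRing.residue A) M (h63_jInv ℤ))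
    (r0 : Place Qb (modularFunctionFieldBar M) →
      Place (IsLocalRing.ResidueField A)
        (modularFunctionFieldFullC (IsLocalRing.ResidueField A) M))
    (hr : IsPlaceReductionModL A M r0)
    (hcls : ∀ P : Place Qb (modularFunctionFieldBar M),
      cx91_cls (geo17_jbar (IsLocalRing.ResidueField A) M) (r0 P) =
        cx91_clsL A (es87_j Qb M) P)
    (P : Place Qb (modularFunctionFieldBar M))
    (G : Finset (Option (IsLocalRing.ResidueField A)))
    (hG : cx91_clsL A (es87_j Qb M) P ∈ G) :
    ∃ D ∈ Divisor.principal (K := Qb) (F := modularFunctionFieldBar M), D P = 1 ∧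
      ∀ P', P' ≠ P → cx91_clsL A (es87_j Qb M) P' ∈ G → D P' = 0 := by
  classical
  haveI := rc5_isAlgClosed_residueField A
  haveI := hi63_hasPrincipalDivisors_bar M
  letI := cci47_algebra M A
  have hxk := tb21_red_jO M A hM
  have hj : rc5_j (IsLocalRing.ResidueField A) M = geo17_jbar (IsLocalRing.ResidueField A) M :=
    rfl
  have hx : Transcendental (IsLocalRing.ResidueField A) (ga41_red M A hM (tb21_jO M A)) := by
    rw [hxk, ← hj]
    exact rc5_j_transcendental _ M
  haveI : FiniteDimensional (IsLocalRing.ResidueField A)⟮ga41_red M A hM (tb21_jO M A)⟯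
      (modularFunctionFieldFullC (IsLocalRing.ResidueField A) M) := by
    rw [hxk, ← hj]
    exact rc5_finiteDimensional _ M
  haveI : Algebra.IsSeparable (IsLocalRing.ResidueField A)⟮ga41_red M A hM (tb21_jO M A)⟯
      (modularFunctionFieldFullC (IsLocalRing.ResidueField A) M) := by
    rw [hxk, ← hj]
    exact rc5_isSeparable_full _ M
  have Hx : ch44_Lifts A (ga41_red M A hM) (tb21_jO M A) :=
    cci47_lifts_of_normalAt M A hM (jqModC ℤ) (cci47_j_mem M)
      (cci47_hT _ _ (by rw [cci47_g_j]; exact h63_transcendental_jqModC _)) Hj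
  have Hy : ch44_Lifts A (ga41_red M A hM) (tb21_jinvO M A) :=
    cci47_lifts_of_normalAt M A hM (h63_jInv ℤ) (cci47_jinv_mem M)
      (cci47_hT _ _ (by
        rw [cci47_g_jinv, h63_jInv_eq_inv]
        exact cap87_transcendental_inv _ (h63_transcendental_jqModC _))) Hjinv
  -- the finite set of points of the special fibre with class in `G`
  have hfin : {Q : Place (IsLocalRing.ResidueField A)
      (modularFunctionFieldFullC (IsLocalRing.ResidueField A) M) |
      cx91_cls (geo17_jbar (IsLocalRing.ResidueField A) M) Q ∈ G}.Finite := by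
    have hU : {Q : Place (IsLocalRing.ResidueField A)
        (modularFunctionFieldFullC (IsLocalRing.ResidueField A) M) |
        cx91_cls (geo17_jbar (IsLocalRing.ResidueField A) M) Q ∈ G} =
        ⋃ o ∈ G, {Q | cx91_cls (geo17_jbar (IsLocalRing.ResidueField A) M) Q = o} := by
      ext Q
      simp
    rw [hU]
    exact Set.Finite.biUnion G.finite_toSet fun o _ => tb21_finite_cls M _ o
  have hmem : ∀ P' : Place Qb (modularFunctionFieldBar M), cx91_clsL A (es87_j Qb M) P' ∈ G →
      r0 P' ∈ hfin.toFinset := by
    intro P' hP'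
    rw [Set.Finite.mem_toFinset]
    show cx91_cls _ (r0 P') ∈ G
    rw [hcls P']
    exact hP'
  obtain ⟨f, -, -, hfP, hfP'⟩ := tb21_tube_of_ch44 (tb21_gauss_ga41 M A hM r0 hr)
    IsLocalRing.residue_surjective (fun a => rfl) (tb21_jO_mul_jinvO M A)
    (tb21_class_j M A hM r0 hcls) hx Hx Hy hfin.toFinset P (hmem P hG)
  have hf0 : ((f : ga41_O M A) : ↥(modularFunctionFieldBar M)) ≠ 0 := by
    intro h0
    rw [h0] at hfP
    simp at hfP
  obtain ⟨D, hD, -⟩ := HasPrincipalDivisors.exists_divisor (K := Qb)
    ((f : ga41_O M A) : ↥(modularFunctionFieldBar M)) hf0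
  refine ⟨D, ⟨_, hf0, hD⟩, ?_, ?_⟩
  · rw [hD, hfP]
  · intro P' hne hG'
    rw [hD]
    exact hfP' P' hne (hmem P' hG')

end Tube

end Fermat.Agent.S37
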