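import Fermat.Agent.S37.TubeInst21
import Fermat.Agent.S37.NormalHaupt84

/-!
# S37, row XC (helper21), part 4: `geo17_RC` from a class-compatible place reduction

At a level `M` divisible by `p₀ ∈ {2, 3}`, `ℓ` a prime not dividing `M`, `A` over `ℓ`:

* `tb21_normalAt_j` — chart normality for `j` and `1/j` at level `M` (helper84's `nh84_level*`
  for the Hauptmodul charts + helper47's chart change `cci47_level*`).
* `tb21_htube` — the tube divisors for finite sets of `j`-classes (hypothesis `htube` of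
  helper17's `geo17_RC_of_cls`) for ANY place reduction `r0` in the Prelude sense which respects
  the `j`-classes.
* `tb21_RC` — `geo17_RC M A` from `(r0, hr, hcls)` alone.
-/

set_option autoImplicit false
set_option linter.style.haveILetI false
set_option synthInstance.maxHeartbeats 400000

namespace Fermat.Agent.S37

open ModularCurve AlgebraicCurve IntermediateField Fermat.Agent.S24 Fermat.Agent.S18
  Fermat.Agent.S28

local notation "Qb" => AlgebraicClosure ℚ

/-- Chart normality for `j` and `1/j` at level `M` (`p₀ ∣ M`, `p₀ ∈ {2, 3}`, `ℓ ∤ M`). -/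
theorem tb21_normalAt_j (M : ℕ) [NeZero M] {p₀ : ℕ} (hp₀ : p₀ = 2 ∨ p₀ = 3) (hdvd : p₀ ∣ M)
    {ℓ : ℕ} (hℓ : ℓ.Prime) (hℓM : ¬ ℓ ∣ M) (A : ValuationSubring Qb) (hA : A.LiesOverPrime ℓ) :
    ka46_NormalAt A.subtype (IsLocalRing.residue A) M (jqModC ℤ) ∧
      ka46_NormalAt A.subtype (IsLocalRing.residue A) M (h63_jInv ℤ) := by
  have hM : (M : IsLocalRing.ResidueField A) ≠ 0 := ga41_natCast_ne_zero M A hℓ hA hℓM
  rcases hp₀ with rfl | rfl
  · have Hh := nh84_level2 A M hℓ hA hℓM hdvd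
    have Hs := nh84_level2_inv A M hℓ hA hℓM hdvd
    exact ⟨cci47_level2_j M A hdvd hM Hh, cci47_level2_jinv M A hdvd hM Hh Hs⟩
  · have Hh := nh84_level3 A M hℓ hA hℓM hdvd
    have Hs := nh84_level3_inv A M hℓ hA hℓM hdvd
    exact ⟨cci47_level3_j M A hdvd hM Hh, cci47_level3_jinv M A hdvd hM Hh Hs⟩

/-- **Tube divisors for finite sets of `j`-classes** at level `M`, for any place reduction in
the Prelude sense which respects the `j`-classes: the hypothesis `htube` of `geo17_RC_of_cls`. -/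
theorem tb21_htube (M : ℕ) [NeZero M] {p₀ : ℕ} (hp₀ : p₀ = 2 ∨ p₀ = 3) (hdvd : p₀ ∣ M)
    {ℓ : ℕ} (hℓ : ℓ.Prime) (hℓM : ¬ ℓ ∣ M) (A : ValuationSubring Qb) (hA : A.LiesOverPrime ℓ)
    (r0 : Place Qb (modularFunctionFieldBar M) →
      Place (IsLocalRing.ResidueField A)
        (modularFunctionFieldFullC (IsLocalRing.ResidueField A) M))
    (hr : IsPlaceReductionModL A M r0)
    (hcls : ∀ P : Place Qb (modularFunctionFieldBar M),
      cx91_cls (geo17_jbar (IsLocalRing.ResidueField A) M) (r0 P) =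
        cx91_clsL A (es87_j Qb M) P)
    (P : Place Qb (modularFunctionFieldBar M))
    (G : Finset (Option (IsLocalRing.ResidueField A)))
    (hG : cx91_clsL A (es87_j Qb M) P ∈ G) :
    ∃ D ∈ Divisor.principal (K := Qb) (F := modularFunctionFieldBar M), D P = 1 ∧
      ∀ P', P' ≠ P → cx91_clsL A (es87_j Qb M) P' ∈ G → D P' = 0 :=
  tb21_htube_of_normalAt M A (ga41_natCast_ne_zero M A hℓ hA hℓM)
    (tb21_normalAt_j M hp₀ hdvd hℓ hℓM A hA).1 (tb21_normalAt_j M hp₀ hdvd hℓ hℓM A hA).2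
    r0 hr hcls P G hG

/-- **The RC package from a class-compatible place reduction alone.** -/
theorem tb21_RC (M : ℕ) [NeZero M] {p₀ : ℕ} (hp₀ : p₀ = 2 ∨ p₀ = 3) (hdvd : p₀ ∣ M)
    {ℓ : ℕ} (hℓ : ℓ.Prime) (hℓM : ¬ ℓ ∣ M) (A : ValuationSubring Qb) (hA : A.LiesOverPrime ℓ)
    (r0 : Place Qb (modularFunctionFieldBar M) →
      Place (IsLocalRing.ResidueField A)
        (modularFunctionFieldFullC (IsLocalRing.ResidueField A) M))
    (hr : IsPlaceReductionModL A M r0)
    (hcls : ∀ P : Place Qb (modularFunctionFieldBar M),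
      cx91_cls (geo17_jbar (IsLocalRing.ResidueField A) M) (r0 P) =
        cx91_clsL A (es87_j Qb M) P) :
    geo17_RC M A :=
  geo17_RC_of_cls hℓ hℓM hA r0 hr hcls
    (fun P G hG => tb21_htube M hp₀ hdvd hℓ hℓM A hA r0 hr hcls P G hG)

end Fermat.Agent.S37
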