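import Fermat.Agent.S37.Conserve57

/-!
# S37, row RC (helper87): the two-chart wrapper of the conservation law `cv57_chart`

Setting of `Conserve57`: fields `K ⊆ F`, `κ ⊆ Fκ`, `A` a valuation subring of `K` with
`res : A → κ`, the Gauss ring `O` with `red : O → Fκ`, evaluations `evK`, `evκ`, and a coordinate
`x` with `x ∈ O`, `x⁻¹ ∈ O`, such that both `x` and `x⁻¹` are charts (`cv57_Chart`).

* `cw87_r0` : the centre map `Place K F → Place κ Fκ` (chart `x` where `x(P) ∈ A`, chart `x⁻¹`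
  elsewhere).
* `cw87_tube1`, `cw87_tube2` : the fibre of `cw87_r0` over `Q` is the `cv57_Red`-tube of the chart
  in which `Q` lies.
* `cw87_conservation` : the conservation law in the `Finsupp.mapDomain` form of the Prelude.
* `cw87_r0_coord`, `cw87_r0_pole`, `cw87_r0_of_notMem` : values of the coordinate along `cw87_r0`.
-/

set_option autoImplicit false

namespace Fermat.Agent.S37

open AlgebraicCurve Fermat.Agent.S24

section Generic

/-- The coefficient of a pushed-forward divisor as a sum over the fibre. -/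
theorem cw87_mapDomain_apply {α β : Type*} (r : α → β) (D : α →₀ ℤ) (Q : β) (f : α → ℤ)
    (hD : ∀ a, D a = f a) :
    Finsupp.mapDomain r D Q = ∑ᶠ a ∈ {a | r a = Q}, f a := by
  classical
  rw [Finsupp.mapDomain, Finsupp.sum_apply, Finsupp.sum]
  simp only [Finsupp.single_apply]
  rw [← Finset.sum_filter]
  symm
  have h1 : ∑ a ∈ D.support.filter (fun a => r a = Q), D a
      = ∑ a ∈ D.support.filter (fun a => r a = Q), f a :=
    Finset.sum_congr rfl fun a _ => hD a
  rw [h1]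
  apply finsum_mem_eq_sum_of_inter_support_eq
  ext a
  simp only [Set.mem_inter_iff, Set.mem_ofPred_eq, Function.mem_support, Finset.coe_filter,
    Finsupp.mem_support_iff, hD]
  tauto

end Generic

section TwoChart

variable {K F κ Fκ : Type*} [Field K] [Field F] [Algebra K F] [Field κ] [Field Fκ] [Algebra κ Fκ]
variable {A : ValuationSubring K} {res : A →+* κ} {O : ValuationSubring F} {red : O →+* Fκ}
  {evK : ∀ P : Place K F, P.toValuationSubring →+* K}
  {evκ : ∀ Q : Place κ Fκ, Q.toValuationSubring →+* κ} {x : F} {hx : x ∈ O} {hx' : x⁻¹ ∈ O}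

theorem cw87_x_ne_zero (hc1 : cv57_Chart A res O red evK x hx) : x ≠ 0 := by
  rintro rfl
  exact hc1.xbar_ne 0 (by rw [map_zero]; exact map_zero red)

theorem cw87_red_ne_zero (hc1 : cv57_Chart A res O red evK x hx) : red ⟨x, hx⟩ ≠ 0 := by
  intro h
  exact hc1.xbar_ne 0 (by rw [map_zero]; exact h)

theorem cw87_red_inv (hc1 : cv57_Chart A res O red evK x hx) (hx' : x⁻¹ ∈ O) :
    red ⟨x⁻¹, hx'⟩ = (red ⟨x, hx⟩)⁻¹ := by
  have h1 : (⟨x, hx⟩ : O) * ⟨x⁻¹, hx'⟩ = 1 :=
    Subtype.ext (mul_inv_cancel₀ (cw87_x_ne_zero hc1))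
  have h2 : red ⟨x, hx⟩ * red ⟨x⁻¹, hx'⟩ = 1 := by rw [← map_mul, h1, map_one]
  exact eq_inv_of_mul_eq_one_right h2

/-- A product of an element of a valuation ring and a nonunit is not `1`. -/
theorem cw87_mul_ne_one (V : ValuationSubring K) {a n : K} (ha : a ∈ V) (hn : n ∈ V.nonunits) :
    a * n ≠ 1 := by
  intro h
  rcases (V.mem_nonunits_iff_or).mp hn with h0 | h0
  · rw [h0, mul_zero] at h
    exact zero_ne_one h
  · apply h0
    rw [← eq_inv_of_mul_eq_one_left h]
    exact ha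

/-- A place outside the chart `x` lies in the chart `x⁻¹`, with value of `x⁻¹` in the maximal
ideal of `A`. -/
theorem cw87_other_chart (hb : cv57_Base A res O red evK evκ) (P : Place K F)
    (h : ¬ ∃ hxP : x ∈ P.toValuationSubring, evK P ⟨x, hxP⟩ ∈ A) :
    ∃ hxP' : x⁻¹ ∈ P.toValuationSubring, evK P ⟨x⁻¹, hxP'⟩ ∈ A.nonunits := by
  by_cases hxP : x ∈ P.toValuationSubring
  · have hα : evK P ⟨x, hxP⟩ ∉ A := fun hα => h ⟨hxP, hα⟩
    have hne : evK P ⟨x, hxP⟩ ≠ 0 := by
      intro h0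
      apply hα
      rw [h0]
      exact A.zero_mem
    have hu : IsUnit (⟨x, hxP⟩ : P.toValuationSubring) := by
      by_contra hu
      exact hne ((hb.evK_ker P _).mpr hu)
    obtain ⟨w, hw⟩ := hu.exists_right_inv
    have hwF : (w : F) = x⁻¹ := by
      have h2 : x * (w : F) = 1 := congrArg Subtype.val hw
      exact eq_inv_of_mul_eq_one_right h2
    have hxP' : x⁻¹ ∈ P.toValuationSubring := by
      rw [← hwF]
      exact w.2
    refine ⟨hxP', ?_⟩
    have hw' : (⟨x, hxP⟩ : P.toValuationSubring) * ⟨x⁻¹, hxP'⟩ = 1 := by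
      rw [← hw]
      congr 1
      exact Subtype.ext hwF.symm
    have h3 : evK P ⟨x, hxP⟩ * evK P ⟨x⁻¹, hxP'⟩ = 1 := by rw [← map_mul, hw', map_one]
    rw [eq_inv_of_mul_eq_one_right h3, ValuationSubring.mem_nonunits_iff_or]
    right
    rwa [inv_inv]
  · have hnon : x⁻¹ ∈ P.toValuationSubring.nonunits := by
      rw [ValuationSubring.mem_nonunits_iff_or]
      right
      rwa [inv_inv]
    have hxP' : x⁻¹ ∈ P.toValuationSubring := P.toValuationSubring.nonunits_subset hnon
    refine ⟨hxP', ?_⟩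
    rw [(cv57_evK_eq_zero_iff hb P hxP').mpr hnon, ValuationSubring.mem_nonunits_iff_or]
    exact Or.inl rfl

open Classical in
/-- The centre map of the two charts `x`, `x⁻¹`. -/
noncomputable def cw87_r0 (hb : cv57_Base A res O red evK evκ)
    (hc1 : cv57_Chart A res O red evK x hx) (hc2 : cv57_Chart A res O red evK x⁻¹ hx')
    (P : Place K F) : Place κ Fκ :=
  if h : ∃ hxP : x ∈ P.toValuationSubring, evK P ⟨x, hxP⟩ ∈ A then
    (cv57_exists_red hb hc1 P h.fst h.snd).choose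
  else
    (cv57_exists_red hb hc2 P (cw87_other_chart hb P h).fst
      (A.nonunits_subset (cw87_other_chart hb P h).snd)).choose

variable (hb : cv57_Base A res O red evK evκ) (hc1 : cv57_Chart A res O red evK x hx)
  (hc2 : cv57_Chart A res O red evK x⁻¹ hx')

theorem cw87_r0_spec1 {P : Place K F}
    (h : ∃ hxP : x ∈ P.toValuationSubring, evK P ⟨x, hxP⟩ ∈ A) :
    cv57_Red A res O red evK evκ x hx P (cw87_r0 hb hc1 hc2 P) := by
  rw [cw87_r0, dif_pos h]
  exact (cv57_exists_red hb hc1 P h.fst h.snd).choose_spec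

theorem cw87_r0_spec2 {P : Place K F}
    (h : ¬ ∃ hxP : x ∈ P.toValuationSubring, evK P ⟨x, hxP⟩ ∈ A) :
    cv57_Red A res O red evK evκ x⁻¹ hx' P (cw87_r0 hb hc1 hc2 P) := by
  rw [cw87_r0, dif_neg h]
  exact (cv57_exists_red hb hc2 P (cw87_other_chart hb P h).fst
      (A.nonunits_subset (cw87_other_chart hb P h).snd)).choose_spec

/-- In the second chart, the coordinate `x̄` has a pole at the centre. -/
theorem cw87_r0_not_mem {P : Place K F}
    (h : ¬ ∃ hxP : x ∈ P.toValuationSubring, evK P ⟨x, hxP⟩ ∈ A) :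
    red ⟨x, hx⟩ ∉ (cw87_r0 hb hc1 hc2 P).toValuationSubring := by
  intro hQ
  have hR := cw87_r0_spec2 hb hc1 hc2 h
  obtain ⟨hxP', hnon⟩ := cw87_other_chart hb P h
  have h1 := (cv57_red_nonunits_iff hb hc2 hR hxP' (cv57_xB K hx')).mpr hnon
  rw [cv57_redB_xB, cw87_red_inv hc1 hx', ValuationSubring.mem_nonunits_iff_or] at h1
  rcases h1 with h1 | h1
  · exact cw87_red_ne_zero hc1 (inv_eq_zero.mp h1)
  · rw [inv_inv] at h1
    exact h1 hQ

/-- The fibre of the centre map over a place of the first chart. -/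
theorem cw87_tube1 {P : Place K F} {Q : Place κ Fκ} (hQ : red ⟨x, hx⟩ ∈ Q.toValuationSubring) :
    cw87_r0 hb hc1 hc2 P = Q ↔ cv57_Red A res O red evK evκ x hx P Q := by
  constructor
  · intro hPQ
    by_cases h : ∃ hxP : x ∈ P.toValuationSubring, evK P ⟨x, hxP⟩ ∈ A
    · rw [← hPQ]
      exact cw87_r0_spec1 hb hc1 hc2 h
    · exfalso
      rw [← hPQ] at hQ
      exact cw87_r0_not_mem hb hc1 hc2 h hQ
  · intro hR
    exact cv57_red_unique hb hc1 (cw87_r0_spec1 hb hc1 hc2 ⟨hR.fst, hR.snd.1⟩) hR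

/-- The fibre of the centre map over a place outside the first chart. -/
theorem cw87_tube2 {P : Place K F} {Q : Place κ Fκ} (hQ : red ⟨x, hx⟩ ∉ Q.toValuationSubring) :
    cw87_r0 hb hc1 hc2 P = Q ↔ cv57_Red A res O red evK evκ x⁻¹ hx' P Q := by
  constructor
  · intro hPQ
    by_cases h : ∃ hxP : x ∈ P.toValuationSubring, evK P ⟨x, hxP⟩ ∈ A
    · exfalso
      have hR := cw87_r0_spec1 hb hc1 hc2 h
      rw [hPQ] at hR
      exact hQ hR.snd.2.1
    · rw [← hPQ]
      exact cw87_r0_spec2 hb hc1 hc2 h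
  · intro hR
    have h : ¬ ∃ hxP : x ∈ P.toValuationSubring, evK P ⟨x, hxP⟩ ∈ A := by
      rintro ⟨hxP, hα⟩
      have hxP' := hR.fst
      have hnon : red ⟨x⁻¹, hx'⟩ ∈ Q.toValuationSubring.nonunits := by
        rw [cw87_red_inv hc1 hx', ValuationSubring.mem_nonunits_iff_or]
        right
        rwa [inv_inv]
      have h1 := (cv57_red_nonunits_iff hb hc2 hR hxP' (cv57_xB K hx')).mp hnon
      rw [cv57_evB_xB] at h1
      have hw' : (⟨x, hxP⟩ : P.toValuationSubring) * ⟨x⁻¹, hxP'⟩ = 1 :=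
        Subtype.ext (mul_inv_cancel₀ (cw87_x_ne_zero hc1))
      have h3 : evK P ⟨x, hxP⟩ * evK P ⟨x⁻¹, hxP'⟩ = 1 := by rw [← map_mul, hw', map_one]
      exact cw87_mul_ne_one A hα h1 h3
    exact cv57_red_unique hb hc2 (cw87_r0_spec2 hb hc1 hc2 h) hR

/-- **Conservation law for the two-chart centre map**, in the `Finsupp.mapDomain` form. -/
theorem cw87_conservation (y : O) (hy : IsUnit y) (D : Place K F →₀ ℤ)
    (hD : ∀ P, D P = P.ord (y : F)) (Q : Place κ Fκ) :
    Finsupp.mapDomain (cw87_r0 hb hc1 hc2) D Q = Q.ord (red y) := by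
  rw [cw87_mapDomain_apply _ D Q _ hD]
  by_cases hQ : red ⟨x, hx⟩ ∈ Q.toValuationSubring
  · have hset : {P | cw87_r0 hb hc1 hc2 P = Q}
        = {P : Place K F | cv57_Red A res O red evK evκ x hx P Q} := by
      ext P
      exact cw87_tube1 hb hc1 hc2 hQ
    rw [hset]
    exact cv57_chart hb hc1 Q hQ y hy
  · have hQ' : red ⟨x⁻¹, hx'⟩ ∈ Q.toValuationSubring := by
      rw [cw87_red_inv hc1 hx']
      by_contra hcon
      apply hQ
      have := cv57_inv_mem_of_not_nonunits Q.toValuationSubring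
        (f := red ⟨x, hx⟩) (fun hn => ?_)
      · exact absurd this hcon
      · exact absurd (Q.toValuationSubring.nonunits_subset hn) hQ
    have hset : {P | cw87_r0 hb hc1 hc2 P = Q}
        = {P : Place K F | cv57_Red A res O red evK evκ x⁻¹ hx' P Q} := by
      ext P
      exact cw87_tube2 hb hc1 hc2 hQ
    rw [hset]
    exact cv57_chart hb hc2 Q hQ' y hy

include hb in
/-- A zero of `x - a` lies in the first chart, with value `a`. -/
theorem cw87_value_of_ord_pos (P : Place K F) (c : K)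
    (hP : 0 < P.ord (x - algebraMap K F c)) :
    ∃ hxP : x ∈ P.toValuationSubring, evK P ⟨x, hxP⟩ = c := by
  have hnon : x - algebraMap K F c ∈ P.toValuationSubring.nonunits :=
    (cv57_mem_nonunits_iff P _).mpr (Or.inr hP)
  have hmem : x - algebraMap K F c ∈ P.toValuationSubring :=
    P.toValuationSubring.nonunits_subset hnon
  have hcP : algebraMap K F c ∈ P.toValuationSubring := P.algebraMap_mem' c
  have hxP : x ∈ P.toValuationSubring := by
    have := P.toValuationSubring.add_mem _ _ hmem hcP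
    rwa [sub_add_cancel] at this
  refine ⟨hxP, ?_⟩
  have h0 := (cv57_evK_eq_zero_iff hb P hmem).mpr hnon
  have h1 : (⟨x - algebraMap K F c, hmem⟩ : P.toValuationSubring)
      = ⟨x, hxP⟩ - algebraMap K P.toValuationSubring c := Subtype.ext rfl
  rw [h1, map_sub, hb.evK_algebraMap, sub_eq_zero] at h0
  exact h0

/-- **Value of the coordinate along the centre map**: a zero of `x - a`, `a ∈ A`, is mapped to a
zero of `x̄ - ā`. -/
theorem cw87_r0_coord (P : Place K F) (a : A)
    (ha : 0 < P.ord (x - algebraMap K F (a : K))) :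
    0 < (cw87_r0 hb hc1 hc2 P).ord (red ⟨x, hx⟩ - algebraMap κ Fκ (res a)) := by
  obtain ⟨hxP, hval⟩ := cw87_value_of_ord_pos hb P (a : K) ha
  have h : ∃ hxP : x ∈ P.toValuationSubring, evK P ⟨x, hxP⟩ ∈ A := ⟨hxP, by rw [hval]; exact a.2⟩
  have hR := cw87_r0_spec1 hb hc1 hc2 h
  have hev : cv57_evB O x evK P hxP (cv57_xB K hx - cv57_cB hb x a) ∈ A.nonunits := by
    rw [map_sub, cv57_evB_xB, cv57_evB_cB, hval, sub_self, ValuationSubring.mem_nonunits_iff_or]
    exact Or.inl rfl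
  have h1 := (cv57_red_nonunits_iff hb hc1 hR hxP (cv57_xB K hx - cv57_cB hb x a)).mpr hev
  rw [map_sub, cv57_redB_xB, cv57_redB_cB] at h1
  rcases (cv57_mem_nonunits_iff _ _).mp h1 with h2 | h2
  · exact absurd (sub_eq_zero.mp h2) (hc1.xbar_ne (res a))
  · exact h2

/-- A pole of `x` is mapped to a pole of `x̄`. -/
theorem cw87_r0_pole (P : Place K F) (hP : P.ord x < 0) :
    (cw87_r0 hb hc1 hc2 P).ord (red ⟨x, hx⟩) < 0 := by
  have h : ¬ ∃ hxP : x ∈ P.toValuationSubring, evK P ⟨x, hxP⟩ ∈ A := by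
    rintro ⟨hxP, -⟩
    have := (wp1_mem_iff_ord_nonneg P x).mp hxP
    omega
  have h1 := cw87_r0_not_mem hb hc1 hc2 h
  by_contra hcon
  exact h1 ((wp1_mem_iff_ord_nonneg _ _).mpr (not_lt.mp hcon))

/-- A zero of `x - c` with `c ∉ A` is mapped to a pole of `x̄`. -/
theorem cw87_r0_of_notMem (P : Place K F) (c : K) (hc : c ∉ A)
    (hP : 0 < P.ord (x - algebraMap K F c)) :
    (cw87_r0 hb hc1 hc2 P).ord (red ⟨x, hx⟩) < 0 := by
  obtain ⟨hxP, hval⟩ := cw87_value_of_ord_pos hb P c hP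
  have h : ¬ ∃ hxP : x ∈ P.toValuationSubring, evK P ⟨x, hxP⟩ ∈ A := by
    rintro ⟨hxP', hα⟩
    exact hc (hval ▸ hα)
  have h1 := cw87_r0_not_mem hb hc1 hc2 h
  by_contra hcon
  exact h1 ((wp1_mem_iff_ord_nonneg _ _).mpr (not_lt.mp hcon))

end TwoChart

end Fermat.Agent.S37
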