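import Mathlib

set_option autoImplicit false

/-!
# Two-chart gluing over an arbitrary (possibly non-discrete) valuation

Valuation-theoretic form of the two-chart lemma: `F` a field with a valuation `w`, `L ⊆ F` a
field of constants, `I₁, I₂` two `L`-subspaces ("sections of `O(E)` on the two charts"), modules
over `L`-subalgebras `B₁, B₂` ("regular functions on the charts"), with `f ∈ Iᵢ → f ^ m * u ∈ Bᵢ`.
If each chart carries a section congruent to `1`, the sum map `I₁ × I₂ → F` is open onto its image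
(hypothesis `hT`), and the valuation is archimedean on `L` (`hrank`), then there is a global
section congruent to `1`.  No noetherian / discreteness hypothesis.
-/

namespace Fermat.Agent.S37

variable {F Γ₀ : Type*} [Field F] [LinearOrderedCommGroupWithZero Γ₀] (w : Valuation F Γ₀)

theorem h48_val_le_one_of_sub_one_lt {x : F} (hx : w (x - 1) < 1) : w x ≤ 1 := by
  have : x = (x - 1) + 1 := by ring
  rw [this]
  exact le_trans (w.map_add _ _) (max_le hx.le (by rw [map_one]))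

theorem h48_val_mul_sub_one_lt {x y : F} (hx : w (x - 1) < 1) (hy : w (y - 1) < 1) :
    w (x * y - 1) < 1 := by
  have h : x * y - 1 = (x - 1) * y + (y - 1) := by ring
  rw [h]
  refine lt_of_le_of_lt (w.map_add _ _) (max_lt ?_ hy)
  rw [map_mul]
  calc w (x - 1) * w y ≤ w (x - 1) * 1 := by
        gcongr
        exact h48_val_le_one_of_sub_one_lt w hy
    _ < 1 := by rw [mul_one]; exact hx

theorem h48_val_pow_sub_one_lt {x : F} (hx : w (x - 1) < 1) (n : ℕ) : w (x ^ n - 1) < 1 := by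
  induction n with
  | zero => simp
  | succ k ih =>
    rw [pow_succ]
    exact h48_val_mul_sub_one_lt w ih hx

theorem h48_val_natCast_le_one (k : ℕ) : w (k : F) ≤ 1 := by
  induction k with
  | zero => simp
  | succ j ih =>
    push_cast
    exact le_trans (w.map_add _ _) (max_le ih (by rw [map_one]))

/-- `(1 - t)^m = 1 - m t + t^2 ρ` with `ρ` integral when `t` is. -/
theorem h48_one_sub_pow {t : F} (ht : w t ≤ 1) (m : ℕ) :
    ∃ ρ : F, w ρ ≤ 1 ∧ (1 - t) ^ m = 1 - (m : F) * t + t ^ 2 * ρ := by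
  induction m with
  | zero => exact ⟨0, by simp, by simp⟩
  | succ k ih =>
    obtain ⟨ρ, hρ, h⟩ := ih
    refine ⟨(k : F) + ρ - t * ρ, ?_, ?_⟩
    · have hk : w (k : F) ≤ 1 := h48_val_natCast_le_one w k
      refine le_trans (w.map_sub _ _) (max_le (le_trans (w.map_add _ _) (max_le hk hρ)) ?_)
      rw [map_mul]
      exact mul_le_one' ht hρ
    · rw [pow_succ, h]
      push_cast
      ring

/-- two approximate `m`-th roots of `u⁻¹` congruent to `1` are close. -/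
theorem h48_diff_le (m : ℕ) (hm : w (m : F) = 1) (u : F) (hu : w u = 1) {e₁ e₂ : F}
    (h₁ : w (e₁ - 1) < 1) (h₂ : w (e₂ - 1) < 1) (ε : Γ₀)
    (h₁' : w (e₁ ^ m * u - 1) ≤ ε) (h₂' : w (e₂ ^ m * u - 1) ≤ ε) : w (e₂ - e₁) ≤ ε := by
  set S : F := ∑ i ∈ Finset.range m, e₂ ^ i * e₁ ^ (m - 1 - i) with hS
  have hSmul : S * (e₂ - e₁) = e₂ ^ m - e₁ ^ m := geom_sum₂_mul e₂ e₁ m
  have hSm : S - (m : F) = ∑ i ∈ Finset.range m, (e₂ ^ i * e₁ ^ (m - 1 - i) - 1) := by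
    rw [Finset.sum_sub_distrib, Finset.sum_const, Finset.card_range, nsmul_eq_mul, mul_one]
  have hSlt : w (S - (m : F)) < 1 := by
    rw [hSm]
    refine w.map_sum_lt one_ne_zero (fun i _ => ?_)
    exact h48_val_mul_sub_one_lt w (h48_val_pow_sub_one_lt w h₂ i) (h48_val_pow_sub_one_lt w h₁ _)
  have hS1 : w S = 1 := by
    have h : S = (S - (m : F)) + (m : F) := by ring
    rw [h, w.map_add_eq_of_lt_right (by rw [hm]; exact hSlt), hm]
  have h3 : (e₂ ^ m - e₁ ^ m) * u = (e₂ ^ m * u - 1) - (e₁ ^ m * u - 1) := by ring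
  have h4 : w (e₂ - e₁) = w ((e₂ ^ m - e₁ ^ m) * u) := by
    rw [map_mul, hu, mul_one, ← hSmul, map_mul, hS1, one_mul]
  rw [h4, h3]
  exact le_trans (w.map_sub _ _) (max_le h₂' h₁')

variable {L : Type*} [Field L] [Algebra L F]

/-- Newton step: an approximate root `e` (error `≤ δ < 1`) is improved to error `≤ δ ^ 2`. -/
theorem h48_newton_step (m : ℕ) (hm : w (m : F) = 1) (u : F)
    (I : Submodule L F) (B : Subalgebra L F)
    (hIB : ∀ f ∈ I, ∀ b ∈ B, f * b ∈ I) (hpow : ∀ f ∈ I, f ^ m * u ∈ B)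
    (e : F) (he : e ∈ I) (he1 : w (e - 1) < 1) (δ : Γ₀) (hδ : δ < 1)
    (hδe : w (e ^ m * u - 1) ≤ δ) :
    ∃ e' ∈ I, w (e' - 1) < 1 ∧ w (e' ^ m * u - 1) ≤ δ ^ 2 := by
  have hmF : (m : F) ≠ 0 := by
    intro h
    rw [h, map_zero] at hm
    exact zero_ne_one hm
  set g : F := e ^ m * u - 1 with hg
  have hgB : g ∈ B := B.sub_mem (hpow e he) B.one_mem
  set μ : F := algebraMap L F ((m : L)⁻¹) with hμ
  have hμF : μ = (m : F)⁻¹ := by rw [hμ, map_inv₀, map_natCast]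
  have hmμ : (m : F) * μ = 1 := by rw [hμF, mul_inv_cancel₀ hmF]
  have hwμ : w μ = 1 := by rw [hμF, map_inv₀, hm, inv_one]
  set t : F := g * μ with ht
  have hwt : w t ≤ δ := by rw [ht, map_mul, hwμ, mul_one]; exact hδe
  have hwt1 : w t ≤ 1 := hwt.trans hδ.le
  have htB : (1 : F) - t ∈ B := B.sub_mem B.one_mem (B.mul_mem hgB (B.algebraMap_mem _))
  obtain ⟨ρ, hρ, hpowt⟩ := h48_one_sub_pow w hwt1 m
  have hwe : w e ≤ 1 := h48_val_le_one_of_sub_one_lt w he1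
  refine ⟨e * (1 - t), hIB e he _ htB, ?_, ?_⟩
  · have h : e * (1 - t) - 1 = (e - 1) - e * t := by ring
    rw [h]
    refine lt_of_le_of_lt (w.map_sub _ _) (max_lt he1 ?_)
    rw [map_mul]
    calc w e * w t ≤ 1 * δ := mul_le_mul' hwe hwt
      _ < 1 := by rw [one_mul]; exact hδ
  · have hid : (e * (1 - t)) ^ m * u - 1 = g ^ 2 * (-1 + (1 + g) * μ ^ 2 * ρ) := by
      have h1 : (e * (1 - t)) ^ m * u = (g + 1) * (1 - t) ^ m := by rw [hg, mul_pow]; ring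
      rw [h1, hpowt, ht]
      linear_combination (-(g + 1) * g) * hmμ
    rw [hid, map_mul, map_pow]
    have hwg1 : w (1 + g) ≤ 1 := by
      refine le_trans (w.map_add _ _) (max_le (by rw [map_one]) (hδe.trans hδ.le))
    have h2 : w (-1 + (1 + g) * μ ^ 2 * ρ) ≤ 1 := by
      refine le_trans (w.map_add _ _) (max_le (by rw [Valuation.map_neg, map_one]) ?_)
      rw [map_mul, map_mul, map_pow, hwμ, one_pow, mul_one]
      exact mul_le_one' hwg1 hρ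
    calc w g ^ 2 * w (-1 + (1 + g) * μ ^ 2 * ρ) ≤ δ ^ 2 * 1 :=
          mul_le_mul' (pow_le_pow_left' hδe 2) h2
      _ = δ ^ 2 := mul_one _

theorem h48_newton_iter (m : ℕ) (hm : w (m : F) = 1) (u : F)
    (I : Submodule L F) (B : Subalgebra L F)
    (hIB : ∀ f ∈ I, ∀ b ∈ B, f * b ∈ I) (hpow : ∀ f ∈ I, f ^ m * u ∈ B)
    (e : F) (he : e ∈ I) (he1 : w (e - 1) < 1) (δ : Γ₀) (hδ : δ < 1)
    (hδe : w (e ^ m * u - 1) ≤ δ) (n : ℕ) :
    ∃ e' ∈ I, w (e' - 1) < 1 ∧ w (e' ^ m * u - 1) ≤ δ ^ n := by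
  have key : ∀ j : ℕ, ∃ e' ∈ I, w (e' - 1) < 1 ∧ w (e' ^ m * u - 1) ≤ δ ^ (2 ^ j) := by
    intro j
    induction j with
    | zero => exact ⟨e, he, he1, by simpa using hδe⟩
    | succ i ih =>
      obtain ⟨e', he', he1', hδ'⟩ := ih
      have hlt : δ ^ (2 ^ i) < 1 := pow_lt_one₀ zero_le hδ (by positivity)
      obtain ⟨e'', he'', he1'', hδ''⟩ :=
        h48_newton_step w m hm u I B hIB hpow e' he' he1' _ hlt hδ'
      refine ⟨e'', he'', he1'', ?_⟩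
      rwa [← pow_mul, ← pow_succ] at hδ''
  obtain ⟨e', he', he1', hδ'⟩ := key n
  exact ⟨e', he', he1', hδ'.trans (pow_le_pow_of_le_one zero_le hδ.le Nat.lt_two_pow_self.le)⟩

/-- **Two-chart gluing, valuation form.** -/
theorem h48_twoChart_core (m : ℕ) (hm : w (m : F) = 1) (u : F) (hu : w (u - 1) < 1)
    (I₁ I₂ : Submodule L F) (B₁ B₂ : Subalgebra L F)
    (hIB₁ : ∀ f ∈ I₁, ∀ b ∈ B₁, f * b ∈ I₁) (hIB₂ : ∀ f ∈ I₂, ∀ b ∈ B₂, f * b ∈ I₂)
    (hpow₁ : ∀ f ∈ I₁, f ^ m * u ∈ B₁) (hpow₂ : ∀ f ∈ I₂, f ^ m * u ∈ B₂)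
    (f₁ f₂ : F) (hf₁ : f₁ ∈ I₁) (hf₁' : w (f₁ - 1) < 1) (hf₂ : f₂ ∈ I₂) (hf₂' : w (f₂ - 1) < 1)
    (hval : ∀ g : F, w g < 1 → ∃ c : L, w g ≤ w (algebraMap L F c) ∧ w (algebraMap L F c) < 1)
    (hrank : ∀ c c₀ : L, w (algebraMap L F c) < 1 → c₀ ≠ 0 →
      ∃ n : ℕ, w (algebraMap L F c) ^ n < w (algebraMap L F c₀))
    (hT : ∃ c₀ : L, c₀ ≠ 0 ∧ ∀ y₁ ∈ I₁, ∀ y₂ ∈ I₂, w (y₁ + y₂) ≤ 1 →
      ∃ b₁ ∈ I₁, ∃ b₂ ∈ I₂, w b₁ ≤ 1 ∧ w b₂ ≤ 1 ∧ algebraMap L F c₀ * (y₁ + y₂) = b₁ + b₂) :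
    ∃ f₀ : F, f₀ ∈ I₁ ∧ f₀ ∈ I₂ ∧ w (f₀ - 1) < 1 := by
  obtain ⟨c₀, hc₀, hT⟩ := hT
  have hwu : w u = 1 := by
    have h : u = 1 + (u - 1) := by ring
    rw [h]
    exact w.map_one_add_of_lt hu
  have hg₁ : w (f₁ ^ m * u - 1) < 1 :=
    h48_val_mul_sub_one_lt w (h48_val_pow_sub_one_lt w hf₁' m) hu
  have hg₂ : w (f₂ ^ m * u - 1) < 1 :=
    h48_val_mul_sub_one_lt w (h48_val_pow_sub_one_lt w hf₂' m) hu
  obtain ⟨c₁, hc₁, hc₁'⟩ := hval _ hg₁
  obtain ⟨c₂, hc₂, hc₂'⟩ := hval _ hg₂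
  obtain ⟨c, hcg₁, hcg₂, hc1⟩ : ∃ c : L, w (f₁ ^ m * u - 1) ≤ w (algebraMap L F c) ∧
      w (f₂ ^ m * u - 1) ≤ w (algebraMap L F c) ∧ w (algebraMap L F c) < 1 := by
    rcases le_total (w (algebraMap L F c₁)) (w (algebraMap L F c₂)) with h | h
    · exact ⟨c₂, hc₁.trans h, hc₂, hc₂'⟩
    · exact ⟨c₁, hc₁, hc₂.trans h, hc₁'⟩
  by_cases hc0 : c = 0
  · -- exact roots on both charts: they coincide
    rw [hc0, map_zero, map_zero] at hcg₁ hcg₂
    have hd := h48_diff_le w m hm u hwu hf₁' hf₂' 0 hcg₁ hcg₂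
    have : f₂ = f₁ := by
      have h0 : w (f₂ - f₁) = 0 := le_antisymm hd zero_le
      exact sub_eq_zero.mp ((map_eq_zero w).mp h0)
    exact ⟨f₁, hf₁, this ▸ hf₂, hf₁'⟩
  obtain ⟨n, hn⟩ := hrank c c₀ hc1 hc₀
  obtain ⟨e₁, he₁, he₁', he₁''⟩ :=
    h48_newton_iter w m hm u I₁ B₁ hIB₁ hpow₁ f₁ hf₁ hf₁' _ hc1 hcg₁ n
  obtain ⟨e₂, he₂, he₂', he₂''⟩ :=
    h48_newton_iter w m hm u I₂ B₂ hIB₂ hpow₂ f₂ hf₂ hf₂' _ hc1 hcg₂ n
  have hd := h48_diff_le w m hm u hwu he₁' he₂' _ he₁'' he₂''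
  set cF : F := algebraMap L F c with hcF
  have hcF0 : cF ≠ 0 := by
    rw [hcF]
    exact (map_ne_zero _).mpr hc0
  have hc₀F : algebraMap L F c₀ ≠ 0 := (map_ne_zero _).mpr hc₀
  -- rescale the difference
  set d : L := (c ^ n)⁻¹ with hd'
  have hdF : algebraMap L F d = (cF ^ n)⁻¹ := by rw [hd', map_inv₀, map_pow]
  have hy₁ : (-d) • e₁ ∈ I₁ := I₁.smul_mem _ he₁
  have hy₂ : d • e₂ ∈ I₂ := I₂.smul_mem _ he₂
  have hsum : (-d) • e₁ + d • e₂ = (cF ^ n)⁻¹ * (e₂ - e₁) := by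
    rw [Algebra.smul_def, Algebra.smul_def, map_neg, hdF]
    ring
  have hle : w ((-d) • e₁ + d • e₂) ≤ 1 := by
    rw [hsum, map_mul, map_inv₀, map_pow]
    have hpos : w cF ^ n ≠ 0 := pow_ne_zero _ ((Valuation.ne_zero_iff w).mpr hcF0)
    rw [inv_mul_le_iff₀ (lt_of_le_of_ne zero_le hpos.symm), mul_one]
    exact hd
  obtain ⟨b₁, hb₁, b₂, hb₂, hwb₁, hwb₂, hb⟩ := hT _ hy₁ _ hy₂ hle
  -- κ = c^n / c₀
  set κ : L := c ^ n * c₀⁻¹ with hκ
  have hκF : algebraMap L F κ = cF ^ n * (algebraMap L F c₀)⁻¹ := by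
    rw [hκ, map_mul, map_pow, map_inv₀]
  have hwκ : w (algebraMap L F κ) < 1 := by
    rw [hκF, map_mul, map_inv₀, map_pow]
    have hpos : 0 < w (algebraMap L F c₀) :=
      lt_of_le_of_ne zero_le ((Valuation.ne_zero_iff w).mpr hc₀F).symm
    rw [mul_inv_lt_iff₀ hpos, one_mul]
    exact hn
  have hkey : e₂ - e₁ = algebraMap L F κ * (b₁ + b₂) := by
    rw [← hb, hsum, hκF]
    field_simp
  refine ⟨e₁ + algebraMap L F κ * b₁, I₁.add_mem he₁ ?_, ?_, ?_⟩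
  · rw [← Algebra.smul_def]
    exact I₁.smul_mem _ hb₁
  · have h : e₁ + algebraMap L F κ * b₁ = e₂ - algebraMap L F κ * b₂ := by
      linear_combination (-1 : F) * hkey
    rw [h, ← Algebra.smul_def]
    exact I₂.sub_mem he₂ (I₂.smul_mem _ hb₂)
  · have h : e₁ + algebraMap L F κ * b₁ - 1 = (e₁ - 1) + algebraMap L F κ * b₁ := by ring
    rw [h]
    refine lt_of_le_of_lt (w.map_add _ _) (max_lt he₁' ?_)
    rw [map_mul]
    calc w (algebraMap L F κ) * w b₁ ≤ w (algebraMap L F κ) * 1 := by gcongr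
      _ < 1 := by rw [mul_one]; exact hwκ

end Fermat.Agent.S37
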