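import Mathlib
import Fermat.Prelude.Def_AlgebraicCurve_DivisorClassGroup
import Fermat.Agent.S24.PlacesBasic

/-!
# S37, link ESZ (helper66's shortcut), seat helper56: weak Riemann + degree-zero vanishing

Generic part (no genus, no Riemann-Roch):

* `wr56_exists_ord_ge`: one vanishing condition at a place with residue field `K` costs at
  most one dimension;
* `wr56_family`: an abstract "Riemann family" gives, for all places `P`, `P0` and all `m`,
  a function with divisor `m ([P0] - [P]) + G1 - G2`, `G1, G2 ≥ 0` of bounded degree;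
* `wr56_degZero_of_family`: an additive map on divisors that kills principal divisors and is
  bounded on single places kills all divisors of degree `0`;
* `wr56_exists`, `wr56_degZero`: the instances for a function field over an algebraically
  closed field of characteristic `0`.

All names are prefixed `wr56_`.
-/

set_option autoImplicit false
set_option linter.style.haveILetI false

open AlgebraicCurve IntermediateField

namespace Fermat.Agent.S37

open Fermat.Agent.S24

section wr56_generic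

variable {K F : Type*} [Field K] [Field F] [Algebra K F]

/-- `f` vanishes to order at least `c` at `v` (with `0` allowed). -/
def wr56_Ge (v : Place K F) (c : ℤ) (f : F) : Prop := f = 0 ∨ c ≤ v.ord f

theorem wr56_Ge_add (v : Place K F) (c : ℤ) {f g : F} (hf : wr56_Ge v c f)
    (hg : wr56_Ge v c g) : wr56_Ge v c (f + g) := by
  rcases eq_or_ne f 0 with rfl | hf0
  · simpa using hg
  rcases eq_or_ne g 0 with rfl | hg0
  · simpa using hf
  rcases eq_or_ne (f + g) 0 with h | h
  · exact Or.inl h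
  refine Or.inr ?_
  have h1 := wp1_ord_add v f g h hf0 hg0
  rcases hf with hf | hf
  · exact absurd hf hf0
  rcases hg with hg | hg
  · exact absurd hg hg0
  exact (le_min hf hg).trans h1

theorem wr56_ord_smul (v : Place K F) {k : K} (hk : k ≠ 0) {f : F} (hf : f ≠ 0) :
    v.ord (k • f) = v.ord f := by
  have hk' : algebraMap K F k ≠ 0 := by
    simpa using hk
  rw [Algebra.smul_def, v.ord_mul hk' hf, wp1_ord_algebraMap, zero_add]

theorem wr56_Ge_smul (v : Place K F) (c : ℤ) (k : K) {f : F} (hf : wr56_Ge v c f) :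
    wr56_Ge v c (k • f) := by
  rcases eq_or_ne k 0 with rfl | hk
  · exact Or.inl (zero_smul _ _)
  rcases hf with rfl | hf
  · exact Or.inl (smul_zero _)
  rcases eq_or_ne f 0 with rfl | hf0
  · exact Or.inl (smul_zero _)
  exact Or.inr (by rw [wr56_ord_smul v hk hf0]; exact hf)

/-- The subspace of `W` of functions vanishing to order at least `c` at `v`. -/
def wr56_sub (v : Place K F) (W : Submodule K F) (c : ℤ) : Submodule K F where
  carrier := {w | w ∈ W ∧ wr56_Ge v c w}
  zero_mem' := ⟨W.zero_mem, Or.inl rfl⟩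
  add_mem' := fun ha hb => ⟨W.add_mem ha.1 hb.1, wr56_Ge_add v c ha.2 hb.2⟩
  smul_mem' := fun k _ ha => ⟨W.smul_mem k ha.1, wr56_Ge_smul v c k ha.2⟩

theorem wr56_mem_sub (v : Place K F) (W : Submodule K F) (c : ℤ) (w : F) :
    w ∈ wr56_sub v W c ↔ w ∈ W ∧ wr56_Ge v c w := Iff.rfl

theorem wr56_sub_le (v : Place K F) (W : Submodule K F) (c : ℤ) : wr56_sub v W c ≤ W :=
  fun _ hw => hw.1

/-- The residue field of `v` is `K`: integral functions are constants up to higher order. -/
def wr56_HasConst (v : Place K F) : Prop :=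
  ∀ f : F, 0 ≤ v.ord f → ∃ c : K, f = algebraMap K F c ∨ 0 < v.ord (f - algebraMap K F c)

/-- One more order of vanishing costs at most one dimension. -/
theorem wr56_step (v : Place K F) (hv : wr56_HasConst v) (W : Submodule K F)
    [FiniteDimensional K W] (c : ℤ) (hW : ∀ w ∈ W, wr56_Ge v c w) :
    Module.finrank K W ≤ Module.finrank K (wr56_sub v W (c + 1)) + 1 := by
  have hfd : FiniteDimensional K (wr56_sub v W (c + 1)) :=
    Submodule.finiteDimensional_of_le (wr56_sub_le v W (c + 1))
  by_cases hex : ∃ w0 ∈ W, w0 ≠ 0 ∧ v.ord w0 = c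
  · obtain ⟨w0, hw0W, hw0, hw0c⟩ := hex
    have hle : W ≤ wr56_sub v W (c + 1) ⊔ (K ∙ w0) := by
      intro w hw
      rcases eq_or_ne w 0 with rfl | hw0'
      · exact Submodule.zero_mem _
      have hwc : c ≤ v.ord w := by
        rcases hW w hw with h | h
        · exact absurd h hw0'
        · exact h
      have hq : 0 ≤ v.ord (w * w0⁻¹) := by
        rw [v.ord_mul hw0' (inv_ne_zero hw0), v.ord_inv, hw0c]
        omega
      obtain ⟨a, ha⟩ := hv _ hq
      have hdecomp : w = (w - a • w0) + a • w0 := by ring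
      rw [hdecomp]
      refine Submodule.add_mem_sup ?_ (Submodule.smul_mem _ a (Submodule.mem_span_singleton_self w0))
      refine ⟨W.sub_mem hw (W.smul_mem a hw0W), ?_⟩
      have hfac : w - a • w0 = (w * w0⁻¹ - algebraMap K F a) * w0 := by
        rw [Algebra.smul_def, sub_mul, mul_assoc, inv_mul_cancel₀ hw0, mul_one]
      rcases ha with ha | ha
      · left
        rw [hfac, ha, sub_self, zero_mul]
      · rcases eq_or_ne (w * w0⁻¹ - algebraMap K F a) 0 with h0 | h0
        · left
          rw [hfac, h0, zero_mul]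
        · right
          rw [hfac, v.ord_mul h0 hw0, hw0c]
          omega
    calc Module.finrank K W
        ≤ Module.finrank K ↥(wr56_sub v W (c + 1) ⊔ (K ∙ w0)) := Submodule.finrank_mono hle
      _ ≤ Module.finrank K (wr56_sub v W (c + 1)) + Module.finrank K (K ∙ w0) :=
          Submodule.finrank_add_le_finrank_add_finrank _ _
      _ = Module.finrank K (wr56_sub v W (c + 1)) + 1 := by rw [finrank_span_singleton hw0]
  · have hle : W ≤ wr56_sub v W (c + 1) := by
      intro w hw
      refine ⟨hw, ?_⟩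
      rcases eq_or_ne w 0 with rfl | hw0
      · exact Or.inl rfl
      right
      have h1 : c ≤ v.ord w := by
        rcases hW w hw with h | h
        · exact absurd h hw0
        · exact h
      have h2 : v.ord w ≠ c := fun h => hex ⟨w, hw, hw0, h⟩
      omega
    exact (Submodule.finrank_mono hle).trans (Nat.le_succ _)

/-- **One condition per dimension.**  If all of `W` has order `≥ c` at `v` and
`n < dim W`, some nonzero element of `W` has order `≥ c + n` at `v`. -/
theorem wr56_exists_ord_ge (v : Place K F) (hv : wr56_HasConst v) (n : ℕ) :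
    ∀ (W : Submodule K F) [FiniteDimensional K W] (c : ℤ), (∀ w ∈ W, wr56_Ge v c w) →
      n < Module.finrank K W → ∃ u ∈ W, u ≠ 0 ∧ c + n ≤ v.ord u := by
  induction n with
  | zero =>
    intro W _ c hW hn
    have hne : (W : Submodule K F) ≠ ⊥ := by
      intro h
      rw [h, finrank_bot] at hn
      exact lt_irrefl _ hn
    obtain ⟨u, huW, hu0⟩ := Submodule.exists_mem_ne_zero_of_ne_bot hne
    refine ⟨u, huW, hu0, ?_⟩
    rcases hW u huW with h | h
    · exact absurd h hu0
    · simpa using h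
  | succ n ih =>
    intro W _ c hW hn
    have hfd : FiniteDimensional K (wr56_sub v W (c + 1)) :=
      Submodule.finiteDimensional_of_le (wr56_sub_le v W (c + 1))
    have hstep := wr56_step v hv W c hW
    have hn' : n < Module.finrank K (wr56_sub v W (c + 1)) := by omega
    obtain ⟨u, hu, hu0, hord⟩ := ih (wr56_sub v W (c + 1)) (c + 1) (fun w hw => hw.2) hn'
    refine ⟨u, hu.1, hu0, ?_⟩
    push_cast
    omega

end wr56_generic

section wr56_family

variable {K F : Type*} [Field K] [Field F] [Algebra K F]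

/-- When all places have degree one, the degree of a divisor is the sum of its
coefficients. -/
theorem wr56_degree_eq_sum (hdeg : ∀ v : Place K F, v.deg = 1) (G : Divisor K F) :
    Divisor.degree G = G.sum (fun _ n => n) := by
  rw [Divisor.degree, Finsupp.liftAddHom_apply]
  simp [hdeg]

/-- The span of a Riemann family has poles bounded by `r Z + D0`. -/
theorem wr56_span_ge (x : F) (Z : Divisor K F) (hZ0 : ∀ v, 0 ≤ Z v)
    (hZx : ∀ v : Place K F, v.ord x ≤ Z v) {ι : Type*} (b : ι → F) (D0 : Divisor K F)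
    (hb : ∀ i (v : Place K F), -(D0 v) ≤ v.ord (b i)) (r : ℕ)
    (hne : ∀ p : Fin (r + 1) × ι, (x⁻¹) ^ (p.1 : ℕ) * b p.2 ≠ 0) (v : Place K F) (w : F)
    (hw : w ∈ Submodule.span K
      (Set.range fun p : Fin (r + 1) × ι => (x⁻¹) ^ (p.1 : ℕ) * b p.2)) :
    wr56_Ge v (-((r : ℤ) * Z v + D0 v)) w := by
  induction hw using Submodule.span_induction with
  | mem g hg =>
    obtain ⟨⟨j, i⟩, rfl⟩ := hg
    right
    have hne' := hne (j, i)
    have hx : (x⁻¹) ^ (j : ℕ) ≠ 0 := left_ne_zero_of_mul hne'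
    have hbi : b i ≠ 0 := right_ne_zero_of_mul hne'
    have hordx : v.ord ((x⁻¹) ^ (j : ℕ)) = -((j : ℕ) : ℤ) * v.ord x := by
      rw [← zpow_natCast, v.ord_zpow, v.ord_inv]
      ring
    show -((r : ℤ) * Z v + D0 v) ≤ v.ord ((x⁻¹) ^ (j : ℕ) * b i)
    rw [v.ord_mul hx hbi, hordx]
    have h1 : ((j : ℕ) : ℤ) * v.ord x ≤ ((j : ℕ) : ℤ) * Z v :=
      mul_le_mul_of_nonneg_left (hZx v) (by positivity)
    have hjr : ((j : ℕ) : ℤ) ≤ (r : ℤ) := by exact_mod_cast Nat.lt_succ_iff.mp j.2
    have h2 : ((j : ℕ) : ℤ) * Z v ≤ (r : ℤ) * Z v := mul_le_mul_of_nonneg_right hjr (hZ0 v)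
    have h3 := hb i v
    linarith
  | zero => exact Or.inl rfl
  | add f g _ _ hf hg => exact wr56_Ge_add v _ hf hg
  | smul k f _ hf => exact wr56_Ge_smul v _ k hf

/-- One half of the weak Riemann construction: a nonzero `u` in the span of the Riemann
family with `div u + r Z + D0 - m [P0] =: G ≥ 0`, `deg G ≤ deg D0`. -/
theorem wr56_family_one [HasPrincipalDivisors K F] (hdeg : ∀ v : Place K F, v.deg = 1)
    (hconst : ∀ v : Place K F, wr56_HasConst v) (x : F) (Z : Divisor K F)
    (hZ0 : ∀ v, 0 ≤ Z v) (hZx : ∀ v : Place K F, v.ord x ≤ Z v) {ι : Type*} [Fintype ι]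
    (b : ι → F) (hZd : Divisor.degree Z ≤ (Fintype.card ι : ℤ)) (D0 : Divisor K F)
    (hb : ∀ i (v : Place K F), -(D0 v) ≤ v.ord (b i)) (r : ℕ)
    (hli : LinearIndependent K (fun p : Fin (r + 1) × ι => (x⁻¹) ^ (p.1 : ℕ) * b p.2))
    (m : ℕ) (hm : m < (r + 1) * Fintype.card ι) (hrm : r * Fintype.card ι ≤ m)
    (P0 : Place K F) :
    ∃ u : F, u ≠ 0 ∧ ∃ G : Divisor K F, 0 ≤ G ∧ Divisor.degree G ≤ Divisor.degree D0 ∧
      ∀ v : Place K F, v.ord u =
        G v - ((r : ℤ) * Z v + D0 v) + (m : ℤ) * Finsupp.single P0 (1 : ℤ) v := by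
  classical
  set g : Fin (r + 1) × ι → F := fun p => (x⁻¹) ^ (p.1 : ℕ) * b p.2 with hg
  set W : Submodule K F := Submodule.span K (Set.range g) with hWdef
  have : FiniteDimensional K W := FiniteDimensional.span_of_finite K (Set.finite_range g)
  have hrank : Module.finrank K W = (r + 1) * Fintype.card ι := by
    rw [hWdef, finrank_span_eq_card hli, Fintype.card_prod, Fintype.card_fin]
  have hWge : ∀ (v : Place K F), ∀ w ∈ W, wr56_Ge v (-((r : ℤ) * Z v + D0 v)) w :=
    fun v w hw => wr56_span_ge x Z hZ0 hZx b D0 hb r (fun p => hli.ne_zero p) v w hw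
  obtain ⟨u, huW, hu0, hord⟩ := wr56_exists_ord_ge P0 (hconst P0) m W _ (hWge P0)
    (by rw [hrank]; exact hm)
  obtain ⟨Du, hDu, hDudeg⟩ := HasPrincipalDivisors.exists_divisor (K := K) u hu0
  refine ⟨u, hu0, Du + ((r : ℤ) • Z + D0) - (m : ℤ) • Finsupp.single P0 (1 : ℤ), ?_, ?_, ?_⟩
  · rw [Finsupp.le_def]
    intro v
    simp only [Finsupp.coe_zero, Pi.zero_apply, Finsupp.coe_sub, Finsupp.coe_add,
      Finsupp.coe_smul, Pi.sub_apply, Pi.add_apply, Pi.smul_apply, smul_eq_mul, hDu]
    by_cases hv : v = P0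
    · subst hv
      rw [Finsupp.single_eq_same]
      linarith
    · rw [Finsupp.single_eq_of_ne hv]
      rcases hWge v u huW with h | h
      · exact absurd h hu0
      · linarith
  · rw [map_sub, map_add, map_add, map_zsmul, map_zsmul, Divisor.degree_single, hDudeg, hdeg,
      smul_eq_mul, smul_eq_mul]
    have h1 : (r : ℤ) * Divisor.degree Z ≤ (r : ℤ) * (Fintype.card ι : ℤ) :=
      mul_le_mul_of_nonneg_left hZd (by positivity)
    have h2 : ((r * Fintype.card ι : ℕ) : ℤ) ≤ (m : ℤ) := by exact_mod_cast hrm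
    push_cast at h2 ⊢
    linarith
  · intro v
    simp only [Finsupp.coe_sub, Finsupp.coe_add, Finsupp.coe_smul, Pi.sub_apply,
      Pi.add_apply, Pi.smul_apply, smul_eq_mul, hDu]
    ring

/-- **Weak Riemann for an abstract Riemann family.**  `x` with zero divisor `≤ Z`,
`deg Z ≤ d`; `d` functions `b i` with poles bounded by `D0`; all `x⁻ʲ b i` linearly
independent over `K`; all places of degree `1` with residue field `K`.  Then for all
places `P`, `P0` and all `m` there is a function with divisor `m ([P0] - [P]) + G1 - G2`,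
`G1, G2 ≥ 0` of degree at most `deg D0`. -/
theorem wr56_family [HasPrincipalDivisors K F] (hdeg : ∀ v : Place K F, v.deg = 1)
    (hconst : ∀ v : Place K F, wr56_HasConst v) (x : F) (Z : Divisor K F)
    (hZ0 : ∀ v, 0 ≤ Z v) (hZx : ∀ v : Place K F, v.ord x ≤ Z v) {ι : Type*} [Fintype ι]
    (b : ι → F) (hd : 0 < Fintype.card ι) (hZd : Divisor.degree Z ≤ (Fintype.card ι : ℤ))
    (D0 : Divisor K F) (hb : ∀ i (v : Place K F), -(D0 v) ≤ v.ord (b i))
    (hli : ∀ r : ℕ,
      LinearIndependent K (fun p : Fin (r + 1) × ι => (x⁻¹) ^ (p.1 : ℕ) * b p.2)) :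
    ∃ B : ℕ, ∀ (P P0 : Place K F) (m : ℕ), ∃ f : F, f ≠ 0 ∧ ∃ G1 G2 : Divisor K F,
      0 ≤ G1 ∧ 0 ≤ G2 ∧ Divisor.degree G1 ≤ B ∧ Divisor.degree G2 ≤ B ∧
      ∀ v : Place K F, v.ord f =
        (m : ℤ) * (Finsupp.single P0 (1 : ℤ) v - Finsupp.single P (1 : ℤ) v)
          + G1 v - G2 v := by
  refine ⟨(Divisor.degree D0).toNat, fun P P0 m => ?_⟩
  set d := Fintype.card ι with hdd
  have hm : m < (m / d + 1) * d := by
    rw [mul_comm]
    exact Nat.lt_mul_div_succ m hd
  have hrm : m / d * d ≤ m := Nat.div_mul_le_self m d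
  obtain ⟨u, hu0, G1, hG1, hG1d, hu⟩ := wr56_family_one hdeg hconst x Z hZ0 hZx b hZd D0 hb
    (m / d) (hli (m / d)) m hm hrm P0
  obtain ⟨w, hw0, G2, hG2, hG2d, hw⟩ := wr56_family_one hdeg hconst x Z hZ0 hZx b hZd D0 hb
    (m / d) (hli (m / d)) m hm hrm P
  have hB : Divisor.degree D0 ≤ ((Divisor.degree D0).toNat : ℤ) := Int.self_le_toNat _
  refine ⟨u * w⁻¹, mul_ne_zero hu0 (inv_ne_zero hw0), G1, G2, hG1, hG2, hG1d.trans hB,
    hG2d.trans hB, fun v => ?_⟩
  rw [v.ord_mul hu0 (inv_ne_zero hw0), v.ord_inv, hu v, hw v]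
  ring

end wr56_family

section wr56_degZero

variable {K F : Type*} [Field K] [Field F] [Algebra K F]

/-- An additive map on divisors is determined by its values on single places. -/
theorem wr56_theta_apply {Y : Type*} (θ : Divisor K F →+ (Y →₀ ℤ)) (Q : Y)
    (G : Divisor K F) :
    θ G Q = G.sum (fun v n => n * θ (Finsupp.single v (1 : ℤ)) Q) := by
  induction G using Finsupp.induction_linear with
  | zero => simp
  | add f g hf hg =>
    rw [map_add, Finsupp.add_apply, hf, hg, Finsupp.sum_add_index' (by simp)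
      (by intros; ring)]
  | single v n =>
    rw [Finsupp.sum_single_index (by simp)]
    have h1 : (Finsupp.single v n : Divisor K F) = n • Finsupp.single v (1 : ℤ) := by
      rw [Finsupp.smul_single, smul_eq_mul, mul_one]
    rw [h1, map_zsmul, Finsupp.smul_apply, smul_eq_mul]

/-- A bound on single places bounds the value on effective divisors by the degree. -/
theorem wr56_theta_bound (hdeg : ∀ v : Place K F, v.deg = 1) {Y : Type*}
    (θ : Divisor K F →+ (Y →₀ ℤ)) (Q : Y) (C : ℤ)
    (hC : ∀ P : Place K F, |θ (Finsupp.single P (1 : ℤ)) Q| ≤ C) (G : Divisor K F)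
    (hG : 0 ≤ G) : |θ G Q| ≤ C * Divisor.degree G := by
  rw [wr56_theta_apply, wr56_degree_eq_sum hdeg, Finsupp.sum, Finsupp.sum, Finset.mul_sum]
  refine (Finset.abs_sum_le_sum_abs _ _).trans (Finset.sum_le_sum fun v _ => ?_)
  have hGv : 0 ≤ G v := by
    have := (Finsupp.le_def.mp hG) v
    simpa using this
  rw [abs_mul, abs_of_nonneg hGv, mul_comm]
  exact mul_le_mul_of_nonneg_right (hC v) hGv

/-- **Bounded + kills principal divisors ⟹ kills degree zero**, given the weak Riemann
statement.  `θ` is an additive map from divisors to a free abelian group which vanishes on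
principal divisors and whose coefficients on single places are bounded. -/
theorem wr56_degZero_of_WR (hdeg : ∀ v : Place K F, v.deg = 1) {Y : Type*}
    (θ : Divisor K F →+ (Y →₀ ℤ))
    (hprinc : ∀ D ∈ Divisor.principal (K := K) (F := F), θ D = 0)
    (hb : ∀ Q : Y, ∃ C : ℤ, ∀ P : Place K F, |θ (Finsupp.single P (1 : ℤ)) Q| ≤ C)
    (hWR : ∃ B : ℕ, ∀ (P P0 : Place K F) (m : ℕ), ∃ f : F, f ≠ 0 ∧ ∃ G1 G2 : Divisor K F,
      0 ≤ G1 ∧ 0 ≤ G2 ∧ Divisor.degree G1 ≤ B ∧ Divisor.degree G2 ≤ B ∧
      ∀ v : Place K F, v.ord f =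
        (m : ℤ) * (Finsupp.single P0 (1 : ℤ) v - Finsupp.single P (1 : ℤ) v)
          + G1 v - G2 v) :
    ∀ D ∈ Divisor.degZero (K := K) (F := F), θ D = 0 := by
  intro D hD
  ext Q
  rw [Finsupp.zero_apply]
  obtain ⟨C, hC⟩ := hb Q
  obtain ⟨B, hB⟩ := hWR
  have hconst : ∀ P P0 : Place K F,
      θ (Finsupp.single P0 (1 : ℤ)) Q = θ (Finsupp.single P (1 : ℤ)) Q := by
    intro P P0
    have hC0 : 0 ≤ C := (abs_nonneg _).trans (hC P)
    have hCB : 0 ≤ 2 * C * (B : ℤ) := by positivity
    obtain ⟨f, hf, G1, G2, hG1, hG2, hd1, hd2, hord⟩ := hB P P0 ((2 * C * (B : ℤ)).toNat + 1)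
    set m : ℕ := (2 * C * (B : ℤ)).toNat + 1 with hmdef
    have hm : (m : ℤ) = 2 * C * (B : ℤ) + 1 := by
      rw [hmdef]
      push_cast
      rw [Int.toNat_of_nonneg hCB]
    have hDf : ((m : ℤ) • (Finsupp.single P0 (1 : ℤ) - Finsupp.single P (1 : ℤ)) + G1 - G2 :
        Divisor K F) ∈ Divisor.principal (K := K) (F := F) := by
      refine ⟨f, hf, fun v => ?_⟩
      rw [hord v]
      simp only [Finsupp.coe_sub, Finsupp.coe_add, Finsupp.coe_smul, Pi.sub_apply,
        Pi.add_apply, Pi.smul_apply, smul_eq_mul]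
    have h0 := hprinc _ hDf
    have h1 : (m : ℤ) * (θ (Finsupp.single P0 (1 : ℤ)) Q - θ (Finsupp.single P (1 : ℤ)) Q)
        + θ G1 Q - θ G2 Q = 0 := by
      have h2 := DFunLike.congr_fun h0 Q
      simpa only [map_sub, map_add, map_zsmul, Finsupp.coe_sub, Finsupp.coe_add,
        Finsupp.coe_smul, Pi.sub_apply, Pi.add_apply, Pi.smul_apply, smul_eq_mul,
        Finsupp.coe_zero, Pi.zero_apply] using h2
    have b1 : |θ G1 Q| ≤ C * (B : ℤ) :=
      (wr56_theta_bound hdeg θ Q C hC G1 hG1).trans (mul_le_mul_of_nonneg_left hd1 hC0)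
    have b2 : |θ G2 Q| ≤ C * (B : ℤ) :=
      (wr56_theta_bound hdeg θ Q C hC G2 hG2).trans (mul_le_mul_of_nonneg_left hd2 hC0)
    by_contra hne
    have hge : 1 ≤ |θ (Finsupp.single P0 (1 : ℤ)) Q - θ (Finsupp.single P (1 : ℤ)) Q| :=
      Int.one_le_abs (sub_ne_zero.mpr hne)
    have hmul : (m : ℤ) *
        (θ (Finsupp.single P0 (1 : ℤ)) Q - θ (Finsupp.single P (1 : ℤ)) Q)
        = θ G2 Q - θ G1 Q := by linarith
    have hle : (m : ℤ) *
        |θ (Finsupp.single P0 (1 : ℤ)) Q - θ (Finsupp.single P (1 : ℤ)) Q|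
        ≤ 2 * C * (B : ℤ) := by
      have hm0 : (0 : ℤ) ≤ (m : ℤ) := by positivity
      calc (m : ℤ) * |θ (Finsupp.single P0 (1 : ℤ)) Q - θ (Finsupp.single P (1 : ℤ)) Q|
          = |(m : ℤ) * (θ (Finsupp.single P0 (1 : ℤ)) Q
              - θ (Finsupp.single P (1 : ℤ)) Q)| := by
            rw [abs_mul, abs_of_nonneg hm0]
        _ = |θ G2 Q - θ G1 Q| := by rw [hmul]
        _ ≤ |θ G2 Q| + |θ G1 Q| := abs_sub _ _
        _ ≤ 2 * C * (B : ℤ) := by linarith
    have hm1 : (m : ℤ) ≤ (m : ℤ) *
        |θ (Finsupp.single P0 (1 : ℤ)) Q - θ (Finsupp.single P (1 : ℤ)) Q| :=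
      le_mul_of_one_le_right (by positivity) hge
    linarith
  rcases isEmpty_or_nonempty (Place K F) with hE | ⟨⟨P0⟩⟩
  · have hD0 : D = 0 := Subsingleton.elim _ _
    rw [hD0, map_zero, Finsupp.zero_apply]
  · rw [wr56_theta_apply]
    have h1 : (D.sum fun v n => n * θ (Finsupp.single v (1 : ℤ)) Q)
        = D.sum fun _ n => n * θ (Finsupp.single P0 (1 : ℤ)) Q :=
      Finsupp.sum_congr fun v _ => by rw [hconst P0 v]
    rw [h1, ← Finsupp.sum_mul, ← wr56_degree_eq_sum hdeg, Divisor.mem_degZero.mp hD, zero_mul]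

end wr56_degZero

section wr56_instance

variable {K F : Type*} [Field K] [IsAlgClosed K] [CharZero K] [Field F] [Algebra K F]

/-- A function field over an algebraically closed field of characteristic `0` has
principal divisors. -/
theorem wr56_hasPrincipalDivisors (y : F) (hy : Transcendental K y)
    [FiniteDimensional K⟮y⟯ F] : HasPrincipalDivisors K F := by
  classical
  refine ⟨fun f hf => ?_⟩
  have hfin := wp1_finite_ord_ne_zero y hy f hf
  have hdeg : ∀ v : Place K F, v.deg = 1 := wp1_deg_eq_one y hy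
  refine ⟨Finsupp.onFinset hfin.toFinset (fun v => v.ord f) (fun v hv => by simpa using hv),
    fun v => rfl, ?_⟩
  rw [wr56_degree_eq_sum hdeg, Finsupp.onFinset_sum _ (fun _ => rfl)]
  exact wp1_sum_ord_eq_zero y hy f hf

omit [CharZero K] in
theorem wr56_hasConst (y : F) (hy : Transcendental K y) [FiniteDimensional K⟮y⟯ F]
    (v : Place K F) : wr56_HasConst v :=
  fun f hf => wp1_exists_const y hy v f ((wp1_mem_iff_ord_nonneg v f).mpr hf)

omit [IsAlgClosed K] [CharZero K] in
/-- Powers of a transcendental element are linearly independent. -/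
theorem wr56_linearIndependent_pow {t : F} (ht : Transcendental K t) (r : ℕ) :
    LinearIndependent K (fun j : Fin (r + 1) => t ^ (j : ℕ)) := by
  have h1 : LinearIndependent K (fun n : ℕ => (Polynomial.monomial n (1 : K))) := by
    have := (Polynomial.basisMonomials K).linearIndependent
    rwa [Polynomial.coe_basisMonomials] at this
  have hinj : Function.Injective (Polynomial.aeval t : Polynomial K →ₐ[K] F) :=
    transcendental_iff_injective.mp ht
  have h2 := h1.map' (Polynomial.aeval t : Polynomial K →ₐ[K] F).toLinearMap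
    (LinearMap.ker_eq_bot.mpr hinj)
  have h3 := h2.comp (fun j : Fin (r + 1) => (j : ℕ)) Fin.val_injective
  have hfun : (fun j : Fin (r + 1) => t ^ (j : ℕ))
      = ((Polynomial.aeval t : Polynomial K →ₐ[K] F).toLinearMap ∘
        fun n => (Polynomial.monomial n (1 : K))) ∘ fun j : Fin (r + 1) => (j : ℕ) := by
    ext j
    simp [Polynomial.aeval_monomial]
  rw [hfun]
  exact h3

omit [IsAlgClosed K] in
/-- The Riemann family `y⁻ʲ bᵢ` of a `K(y)`-basis is `K`-linearly independent. -/
theorem wr56_li (y : F) (hy : Transcendental K y) [FiniteDimensional K⟮y⟯ F] (r : ℕ) :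
    LinearIndependent K (fun p : Fin (r + 1) × Fin (Module.finrank K⟮y⟯ F) =>
      (y⁻¹) ^ (p.1 : ℕ) * (Module.finBasis K⟮y⟯ F) p.2) := by
  set g : K⟮y⟯ := (AdjoinSimple.gen K y)⁻¹ with hg
  have hgF : (g : F) = y⁻¹ := by
    rw [hg, IntermediateField.coe_inv, AdjoinSimple.coe_gen]
  have hb' : LinearIndependent K (fun j : Fin (r + 1) => g ^ (j : ℕ)) := by
    refine LinearIndependent.of_comp (K⟮y⟯.val.toLinearMap) ?_
    convert wr56_linearIndependent_pow (wp1b_transcendental_inv hy) r using 1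
    ext j
    simp [hgF]
  have h := linearIndependent_smul hb' (Module.finBasis K⟮y⟯ F).linearIndependent
  convert h using 1
  ext p
  rw [Algebra.smul_def, IntermediateField.algebraMap_apply]
  simp [hgF]

/-- **Weak Riemann** for a function field over an algebraically closed field of
characteristic `0`: there is `B` such that for all places `P`, `P0` and all `m` there is
`f ≠ 0` with `div f = m ([P0] - [P]) + G1 - G2`, `G1, G2 ≥ 0` of degree at most `B`. -/
theorem wr56_exists (y : F) (hy : Transcendental K y) [FiniteDimensional K⟮y⟯ F] :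
    ∃ B : ℕ, ∀ (P P0 : Place K F) (m : ℕ), ∃ f : F, f ≠ 0 ∧ ∃ G1 G2 : Divisor K F,
      0 ≤ G1 ∧ 0 ≤ G2 ∧ Divisor.degree G1 ≤ B ∧ Divisor.degree G2 ≤ B ∧
      ∀ v : Place K F, v.ord f =
        (m : ℤ) * (Finsupp.single P0 (1 : ℤ) v - Finsupp.single P (1 : ℤ) v)
          + G1 v - G2 v := by
  classical
  haveI := wr56_hasPrincipalDivisors y hy
  have hdeg : ∀ v : Place K F, v.deg = 1 := wp1_deg_eq_one y hy
  set b := Module.finBasis K⟮y⟯ F with hbdef
  -- the zero divisor of `y`
  set Z : Divisor K F := Finsupp.onFinset (wp1_finite_zeros y hy).toFinset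
    (fun v => max (v.ord y) 0) (fun v hv => by
      simp only [Set.Finite.mem_toFinset, Set.mem_ofPred_eq]
      rcases lt_or_ge 0 (v.ord y) with h | h
      · exact h
      · exact absurd (max_eq_right h) hv) with hZdef
  have hZv : ∀ v : Place K F, Z v = max (v.ord y) 0 := fun v => rfl
  have hZdeg : Divisor.degree Z = (Module.finrank K⟮y⟯ F : ℤ) := by
    rw [wr56_degree_eq_sum hdeg, hZdef, Finsupp.onFinset_sum _ (fun _ => rfl),
      ← wp1_sum_ord_zeros y hy]
    refine Finset.sum_congr rfl fun v hv => ?_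
    have hv' : 0 < v.ord y := by simpa using hv
    exact max_eq_left hv'.le
  -- a divisor bounding the poles of the basis
  have hfin : (Function.support fun v : Place K F => ∑ i, |v.ord (b i)|).Finite := by
    refine (Set.finite_iUnion fun i =>
      wp1_finite_ord_ne_zero y hy (b i) (b.ne_zero i)).subset fun v hv => ?_
    by_contra hcon
    apply hv
    refine Finset.sum_eq_zero fun i _ => ?_
    have : v.ord (b i) = 0 := by
      by_contra h
      exact hcon (Set.mem_iUnion.mpr ⟨i, h⟩)
    rw [this, abs_zero]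
  set D0 : Divisor K F := Finsupp.ofSupportFinite _ hfin with hD0def
  have hD0v : ∀ v : Place K F, D0 v = ∑ i, |v.ord (b i)| := fun v => rfl
  have hd : 0 < Fintype.card (Fin (Module.finrank K⟮y⟯ F)) := by
    rw [Fintype.card_fin]
    exact Module.finrank_pos
  refine wr56_family hdeg (wr56_hasConst y hy) y Z (fun v => by rw [hZv]; exact le_max_right _ _)
    (fun v => by rw [hZv]; exact le_max_left _ _) (fun i => b i) hd
    (by rw [Fintype.card_fin, hZdeg]) D0 (fun i v => ?_) (wr56_li y hy)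
  rw [hD0v]
  have h1 : |v.ord (b i)| ≤ ∑ j, |v.ord (b j)| :=
    Finset.single_le_sum (f := fun j => |v.ord (b j)|) (fun j _ => abs_nonneg _)
      (Finset.mem_univ i)
  have h2 := neg_abs_le (v.ord (b i))
  linarith

/-- **Bounded + kills principal divisors ⟹ kills degree zero** on a function field over an
algebraically closed field of characteristic `0`. -/
theorem wr56_degZero (y : F) (hy : Transcendental K y) [FiniteDimensional K⟮y⟯ F]
    {Y : Type*} (θ : Divisor K F →+ (Y →₀ ℤ))
    (hb : ∀ Q : Y, ∃ C : ℤ, ∀ P : Place K F, |θ (Finsupp.single P (1 : ℤ)) Q| ≤ C)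
    (hprinc : ∀ D ∈ Divisor.principal (K := K) (F := F), θ D = 0) :
    ∀ D ∈ Divisor.degZero (K := K) (F := F), θ D = 0 :=
  wr56_degZero_of_WR (wp1_deg_eq_one y hy) θ hprinc hb (wr56_exists y hy)

end wr56_instance

end Fermat.Agent.S37
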