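import Fermat.Agent.S37.FunFieldRel63
import Fermat.Prelude.Def_AlgebraicCurve_Repartitions

/-!
# S37, row ESZ-WR (helper86): a weak Riemann inequality and its consequence

`K` algebraically closed of characteristic `0`, `F / K` a function field (finite over `K(y)`,
`y` transcendental).  We prove

* `wr86_exists`: there is a bound `B` such that for all places `P`, `P0` and all `m` there is a
  function `f ≠ 0` with divisor `m ([P0] - [P]) + G1 - G2`, `G1, G2 ≥ 0` of degree `≤ B`;
* `wr86_hom_const`, `wr86_hom_degZero`: an additive integer valued function on divisors which is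
  bounded on places and kills principal divisors is constant on places, hence kills all divisors
  of degree `0`;
* `wr86_degZero`: the same for additive maps into a free group `Y →₀ ℤ`.

All names are prefixed `wr86_`.
-/

set_option autoImplicit false
set_option linter.style.haveILetI false
set_option linter.unusedSectionVars false

open AlgebraicCurve IntermediateField WithZero

namespace Fermat.Agent.S37

open Fermat.Agent.S24

section wr86_ball

variable {K F : Type*} [Field K] [Field F] [Algebra K F]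

/-- The `K`-subspace of functions with `ord_P ≥ n` (or zero). -/
def wr86_ball (P : Place K F) (n : ℤ) : Submodule K F where
  carrier := {f | P.adicValuation f ≤ exp (-n)}
  zero_mem' := by simp
  add_mem' := by
    intro f g hf hg
    have hf' : P.adicValuation f ≤ exp (-n) := hf
    have hg' : P.adicValuation g ≤ exp (-n) := hg
    exact (Valuation.map_add _ _ _).trans (max_le hf' hg')
  smul_mem' := by
    intro c f hf
    have hf' : P.adicValuation f ≤ exp (-n) := hf
    show P.adicValuation (c • f) ≤ exp (-n)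
    rw [Algebra.smul_def, map_mul]
    exact (mul_le_of_le_one_left' (P.adicValuation_algebraMap_le_one c)).trans hf'

theorem wr86_mem_ball {P : Place K F} {n : ℤ} {f : F} :
    f ∈ wr86_ball P n ↔ f = 0 ∨ n ≤ P.ord f := by
  show P.adicValuation f ≤ exp (-n) ↔ _
  rw [P.adicValuation_le_exp_iff, neg_neg]

theorem wr86_ball_anti (P : Place K F) {n n' : ℤ} (h : n ≤ n') :
    wr86_ball P n' ≤ wr86_ball P n := by
  intro f hf
  rw [wr86_mem_ball] at hf ⊢
  rcases hf with hf | hf
  · exact Or.inl hf
  · exact Or.inr (h.trans hf)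

end wr86_ball

section wr86_step

variable {K F : Type*} [Field K] [IsAlgClosed K] [Field F] [Algebra K F]

/-- One vanishing condition at a place costs at most one dimension. -/
theorem wr86_step (y : F) (hy : Transcendental K y) [FiniteDimensional K⟮y⟯ F]
    (P : Place K F) (n : ℤ) (V : Submodule K F) [Module.Finite K V] (hV : V ≤ wr86_ball P n) :
    Module.finrank K V ≤ Module.finrank K ↥(V ⊓ wr86_ball P (n + 1)) + 1 := by
  classical
  by_cases h : V ≤ wr86_ball P (n + 1)
  · rw [inf_eq_left.mpr h]; omega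
  · obtain ⟨f2, hf2V, hf2⟩ := SetLike.not_le_iff_exists.mp h
    have hf2n := wr86_mem_ball.mp (hV hf2V)
    rw [wr86_mem_ball, not_or, not_le] at hf2
    obtain ⟨hf20, hlt⟩ := hf2
    have hord2 : P.ord f2 = n := by
      rcases hf2n with h0 | h0
      · exact absurd h0 hf20
      · omega
    have hle : V ≤ (V ⊓ wr86_ball P (n + 1)) ⊔ Submodule.span K {f2} := by
      intro f1 hf1
      rcases eq_or_ne f1 0 with rfl | hf10
      · exact Submodule.zero_mem _
      have hord1 : n ≤ P.ord f1 := by
        rcases wr86_mem_ball.mp (hV hf1) with h0 | h0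
        · exact absurd h0 hf10
        · exact h0
      have hg : f1 * f2⁻¹ ∈ P.toValuationSubring := by
        rw [wp1_mem_iff_ord_nonneg, P.ord_mul hf10 (inv_ne_zero hf20), P.ord_inv]
        omega
      obtain ⟨c, hc⟩ := wp1_exists_const y hy P (f1 * f2⁻¹) hg
      have hdecomp : f1 = (f1 - c • f2) + c • f2 := by ring
      rw [hdecomp]
      have hEq : f1 - c • f2 = (f1 * f2⁻¹ - algebraMap K F c) * f2 := by
        rw [Algebra.smul_def]; field_simp
      refine Submodule.add_mem_sup ⟨V.sub_mem hf1 (V.smul_mem c hf2V), ?_⟩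
        (Submodule.smul_mem _ c (Submodule.mem_span_singleton_self f2))
      show f1 - c • f2 ∈ wr86_ball P (n + 1)
      rw [wr86_mem_ball]
      rcases hc with hc | hc
      · left; rw [hEq, hc, sub_self, zero_mul]
      · by_cases hz : f1 * f2⁻¹ - algebraMap K F c = 0
        · left; rw [hEq, hz, zero_mul]
        · right; rw [hEq, P.ord_mul hz hf20]; omega
    calc Module.finrank K V
        ≤ Module.finrank K ↥((V ⊓ wr86_ball P (n + 1)) ⊔ Submodule.span K {f2}) :=
          Submodule.finrank_mono hle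
      _ ≤ Module.finrank K ↥(V ⊓ wr86_ball P (n + 1))
            + Module.finrank K ↥(Submodule.span K {f2}) :=
          Submodule.finrank_add_le_finrank_add_finrank _ _
      _ ≤ Module.finrank K ↥(V ⊓ wr86_ball P (n + 1)) + 1 := by
          gcongr
          exact (finrank_span_le_card ({f2} : Set F)).trans (by simp)

/-- `m` vanishing conditions at a place cost at most `m` dimensions. -/
theorem wr86_steps (y : F) (hy : Transcendental K y) [FiniteDimensional K⟮y⟯ F]
    (P : Place K F) (n : ℤ) (V : Submodule K F) [Module.Finite K V] (hV : V ≤ wr86_ball P n)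
    (m : ℕ) :
    Module.finrank K V ≤ Module.finrank K ↥(V ⊓ wr86_ball P (n + m)) + m := by
  induction m with
  | zero =>
    have h0 : V ⊓ wr86_ball P (n + ((0 : ℕ) : ℤ)) = V := by
      rw [Nat.cast_zero, add_zero]; exact inf_eq_left.mpr hV
    rw [h0]; omega
  | succ m ih =>
    have h1 := wr86_step y hy P (n + m) (V ⊓ wr86_ball P (n + m)) inf_le_right
    have h2 : Module.finrank K ↥((V ⊓ wr86_ball P (n + m)) ⊓ wr86_ball P (n + m + 1)) ≤
        Module.finrank K ↥(V ⊓ wr86_ball P (n + ((m + 1 : ℕ) : ℤ))) := by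
      apply Submodule.finrank_mono
      push_cast
      rw [← add_assoc]
      exact inf_le_inf_right _ inf_le_left
    omega

/-- A finite dimensional space of functions of dimension `> m` contains a nonzero function
vanishing to order `m` more than the generic order at `P`. -/
theorem wr86_exists_vanish (y : F) (hy : Transcendental K y) [FiniteDimensional K⟮y⟯ F]
    (P : Place K F) (n : ℤ) (V : Submodule K F) [Module.Finite K V] (hV : V ≤ wr86_ball P n)
    (m : ℕ) (hm : m < Module.finrank K V) :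
    ∃ u ∈ V, u ≠ 0 ∧ n + m ≤ P.ord u := by
  have h := wr86_steps y hy P n V hV m
  have hpos : 0 < Module.finrank K ↥(V ⊓ wr86_ball P (n + m)) := by omega
  obtain ⟨⟨u, hu⟩, hu0⟩ := Module.finrank_pos_iff_exists_ne_zero.mp hpos
  have hu0' : u ≠ 0 := fun h0 => hu0 (Subtype.ext h0)
  refine ⟨u, hu.1, hu0', ?_⟩
  rcases wr86_mem_ball.mp hu.2 with h0 | h0
  · exact absurd h0 hu0'
  · exact h0

end wr86_step

section wr86_space

variable {K F : Type*} [Field K] [IsAlgClosed K] [CharZero K] [Field F] [Algebra K F]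

omit [IsAlgClosed K] [CharZero K] in
theorem wr86_linInd_pow {A : Type*} [CommRing A] [Algebra K A] (x : A)
    (hx : Transcendental K x) : LinearIndependent K (fun n : ℕ => x ^ n) := by
  have h := (Polynomial.basisMonomials K).linearIndependent
  have h2 := h.map' (Polynomial.aeval x).toLinearMap
    (LinearMap.ker_eq_bot.mpr (transcendental_iff_injective.mp hx))
  have hfun : (fun n : ℕ => x ^ n) =
      ⇑(Polynomial.aeval x).toLinearMap ∘ ⇑(Polynomial.basisMonomials K) := by
    funext n
    simp [Polynomial.coe_basisMonomials]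
  rw [hfun]
  exact h2

omit [IsAlgClosed K] [CharZero K] in
theorem wr86_ne_zero {y : F} (hy : Transcendental K y) : y ≠ 0 := by
  rintro rfl
  exact hy isAlgebraic_zero

/-- The polar divisor of a nonzero function. -/
noncomputable def wr86_polar (y : F) (hy : Transcendental K y) [FiniteDimensional K⟮y⟯ F]
    (f : F) (hf : f ≠ 0) : Divisor K F :=
  Finsupp.onFinset (wp1_finite_ord_ne_zero y hy f hf).toFinset (fun v => max 0 (-v.ord f))
    (fun v hv => by
      rw [Set.Finite.mem_toFinset, Set.mem_ofPred_eq]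
      intro h0
      apply hv
      simp [h0])

theorem wr86_polar_apply (y : F) (hy : Transcendental K y) [FiniteDimensional K⟮y⟯ F]
    (f : F) (hf : f ≠ 0) (v : Place K F) :
    wr86_polar y hy f hf v = max 0 (-v.ord f) := rfl

omit [CharZero K] in
/-- All places have degree one, so the degree is the plain sum of the coefficients. -/
theorem wr86_degree_eq (y : F) (hy : Transcendental K y) [FiniteDimensional K⟮y⟯ F]
    (D : Divisor K F) : Divisor.degree D = D.sum (fun _ n => n) := by
  rw [Divisor.degree, Finsupp.liftAddHom_apply]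
  refine Finsupp.sum_congr (fun v _ => ?_)
  simp [wp1_deg_eq_one y hy v]

omit [CharZero K] in
theorem wr86_degree_nonneg (y : F) (hy : Transcendental K y) [FiniteDimensional K⟮y⟯ F]
    {D : Divisor K F} (hD : ∀ v, 0 ≤ D v) : 0 ≤ Divisor.degree D := by
  rw [wr86_degree_eq y hy]
  exact Finset.sum_nonneg (fun v _ => hD v)

/-- The polar divisor of `y` has degree `[F : K(y)]`. -/
theorem wr86_degree_polar (y : F) (hy : Transcendental K y) [FiniteDimensional K⟮y⟯ F] :
    Divisor.degree (wr86_polar y hy y (wr86_ne_zero hy)) = (Module.finrank K⟮y⟯ F : ℤ) := by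
  classical
  have hy' : Transcendental K y⁻¹ := wp1b_transcendental_inv hy
  haveI : FiniteDimensional K⟮y⁻¹⟯ F := wp1_finite_of_transcendental y hy y⁻¹ hy'
  have hZ := wp1_sum_ord_zeros y⁻¹ hy'
  rw [wp1b_finrank_adjoin_inv] at hZ
  rw [← hZ, wr86_degree_eq y hy, wr86_polar, Finsupp.onFinset_sum _ (fun _ => rfl)]
  symm
  have hsub : (wp1_finite_zeros y⁻¹ hy').toFinset ⊆
      (wp1_finite_ord_ne_zero y hy y (wr86_ne_zero hy)).toFinset := by
    intro v hv
    rw [Set.Finite.mem_toFinset, Set.mem_ofPred_eq] at hv ⊢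
    rw [v.ord_inv] at hv
    omega
  rw [← Finset.sum_subset hsub (f := fun v : Place K F => max 0 (-v.ord y))]
  · refine Finset.sum_congr rfl (fun v hv => ?_)
    rw [Set.Finite.mem_toFinset, Set.mem_ofPred_eq] at hv
    rw [v.ord_inv] at hv ⊢
    exact (max_eq_right hv.le).symm
  · intro v _ hv
    rw [Set.Finite.mem_toFinset, Set.mem_ofPred_eq, v.ord_inv] at hv
    exact max_eq_left (by omega)

/-- The functions `y ^ j * b_i`, `j ≤ r`, `b` a basis of `F` over `K(y)`. -/
noncomputable def wr86_gen (y : F) [FiniteDimensional K⟮y⟯ F] (r : ℕ)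
    (p : Fin (r + 1) × Fin (Module.finrank K⟮y⟯ F)) : F :=
  y ^ (p.1 : ℕ) * Module.finBasis K⟮y⟯ F p.2

theorem wr86_gen_linInd (y : F) (hy : Transcendental K y) [FiniteDimensional K⟮y⟯ F] (r : ℕ) :
    LinearIndependent K (wr86_gen (K := K) y r) := by
  have hgen : Transcendental K (AdjoinSimple.gen K y) := by
    intro h
    apply hy
    have h' := h.algebraMap (A := F)
    rwa [AdjoinSimple.algebraMap_gen] at h'
  have h1 := wr86_linInd_pow (K := K) (AdjoinSimple.gen K y) hgen
  have h2 := linearIndependent_smul h1 (Module.finBasis K⟮y⟯ F).linearIndependent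
  have h3 := h2.comp
    (fun p : Fin (r + 1) × Fin (Module.finrank K⟮y⟯ F) => ((p.1 : ℕ), p.2)) (by
      intro a b hab
      simp only [Prod.mk.injEq] at hab
      exact Prod.ext (Fin.ext hab.1) hab.2)
  convert h3 using 1
  funext p
  simp [wr86_gen, IntermediateField.smul_def]

/-- The span of the functions `y ^ j * b_i`, `j ≤ r`. -/
noncomputable def wr86_W (y : F) [FiniteDimensional K⟮y⟯ F] (r : ℕ) : Submodule K F :=
  Submodule.span K (Set.range (wr86_gen (K := K) y r))

theorem wr86_W_finite (y : F) [FiniteDimensional K⟮y⟯ F] (r : ℕ) :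
    Module.Finite K ↥(wr86_W (K := K) y r) :=
  Module.Finite.span_of_finite K (Set.finite_range _)

theorem wr86_finrank_W (y : F) (hy : Transcendental K y) [FiniteDimensional K⟮y⟯ F] (r : ℕ) :
    Module.finrank K ↥(wr86_W (K := K) y r) = (r + 1) * Module.finrank K⟮y⟯ F := by
  rw [wr86_W, finrank_span_eq_card (wr86_gen_linInd y hy r)]
  simp

/-- The sum of the polar divisors of the basis elements. -/
noncomputable def wr86_D0 (y : F) (hy : Transcendental K y) [FiniteDimensional K⟮y⟯ F] :
    Divisor K F :=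
  ∑ i, wr86_polar y hy (Module.finBasis K⟮y⟯ F i) ((Module.finBasis K⟮y⟯ F).ne_zero i)

/-- The divisor `r (y)_∞ + D0`. -/
noncomputable def wr86_E (y : F) (hy : Transcendental K y) [FiniteDimensional K⟮y⟯ F] (r : ℕ) :
    Divisor K F :=
  r • wr86_polar y hy y (wr86_ne_zero hy) + wr86_D0 y hy

theorem wr86_E_apply (y : F) (hy : Transcendental K y) [FiniteDimensional K⟮y⟯ F] (r : ℕ)
    (v : Place K F) :
    wr86_E y hy r v = r * max 0 (-v.ord y)
      + ∑ i, max 0 (-v.ord (Module.finBasis K⟮y⟯ F i)) := by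
  simp [wr86_E, wr86_D0, wr86_polar_apply]

theorem wr86_D0_nonneg (y : F) (hy : Transcendental K y) [FiniteDimensional K⟮y⟯ F]
    (v : Place K F) : 0 ≤ wr86_D0 y hy v := by
  rw [wr86_D0, Finsupp.finsetSum_apply]
  exact Finset.sum_nonneg (fun i _ => by rw [wr86_polar_apply]; exact le_max_left _ _)

/-- Every function in `W_r` has poles bounded by `E_r`. -/
theorem wr86_W_le (y : F) (hy : Transcendental K y) [FiniteDimensional K⟮y⟯ F] (r : ℕ)
    (v : Place K F) : wr86_W (K := K) y r ≤ wr86_ball v (-(wr86_E y hy r v)) := by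
  rw [wr86_W, Submodule.span_le]
  rintro _ ⟨p, rfl⟩
  rw [SetLike.mem_coe, wr86_mem_ball]
  right
  have hy0 : y ≠ 0 := wr86_ne_zero hy
  have hb0 := (Module.finBasis K⟮y⟯ F).ne_zero p.2
  rw [wr86_gen, v.ord_mul (pow_ne_zero _ hy0) hb0]
  have hpow : v.ord (y ^ (p.1 : ℕ)) = ((p.1 : ℕ) : ℤ) * v.ord y := by
    have := v.ord_zpow y ((p.1 : ℕ) : ℤ)
    rwa [zpow_natCast] at this
  rw [hpow, wr86_E_apply]
  have h1 : max 0 (-v.ord (Module.finBasis K⟮y⟯ F p.2)) ≤
      ∑ i, max 0 (-v.ord (Module.finBasis K⟮y⟯ F i)) :=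
    Finset.single_le_sum (f := fun i => max 0 (-v.ord (Module.finBasis K⟮y⟯ F i)))
      (fun i _ => le_max_left _ _) (Finset.mem_univ p.2)
  have h2 : (p.1 : ℕ) ≤ r := Nat.lt_succ_iff.mp p.1.2
  have h3 : (0 : ℤ) ≤ max 0 (-v.ord y) := le_max_left _ _
  have h4 : -v.ord y ≤ max 0 (-v.ord y) := le_max_right _ _
  have h5 : -v.ord (Module.finBasis K⟮y⟯ F p.2) ≤
      max 0 (-v.ord (Module.finBasis K⟮y⟯ F p.2)) := le_max_right _ _
  have h6 : (((p.1 : ℕ) : ℤ)) ≤ (r : ℤ) := by exact_mod_cast h2
  have h7 : (0 : ℤ) ≤ ((p.1 : ℕ) : ℤ) := Int.natCast_nonneg _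
  nlinarith [mul_nonneg h7 (by linarith : (0 : ℤ) ≤ v.ord y + max 0 (-v.ord y)),
    mul_nonneg (by linarith : (0 : ℤ) ≤ (r : ℤ) - ((p.1 : ℕ) : ℤ)) h3]

end wr86_space

section wr86_main

variable {K F : Type*} [Field K] [IsAlgClosed K] [CharZero K] [Field F] [Algebra K F]

/-- A nonzero function in `W_r` vanishing to order `m` at `P` (relative to `E_r`), together
with the effective divisor `div u + E_r - m [P]`. -/
theorem wr86_exists_eff (y : F) (hy : Transcendental K y) [FiniteDimensional K⟮y⟯ F] (r m : ℕ)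
    (hm : m < (r + 1) * Module.finrank K⟮y⟯ F) (P : Place K F) :
    ∃ u : F, u ≠ 0 ∧ ∃ G : Divisor K F, (∀ v, 0 ≤ G v) ∧
      Divisor.degree G = (r : ℤ) * (Module.finrank K⟮y⟯ F : ℤ)
        + Divisor.degree (wr86_D0 y hy) - (m : ℤ) ∧
      ∀ v : Place K F, v.ord u = G v - wr86_E y hy r v + (m : ℤ) * Finsupp.single P (1 : ℤ) v := by
  classical
  haveI := wr86_W_finite (K := K) y r
  obtain ⟨u, huW, hu0, hord⟩ := wr86_exists_vanish y hy P (-(wr86_E y hy r P)) (wr86_W y r)
    (wr86_W_le y hy r P) m (by rw [wr86_finrank_W y hy]; exact hm)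
  haveI := hi63_hasPrincipalDivisors y hy
  obtain ⟨Du, hDu, hdeg⟩ := HasPrincipalDivisors.exists_divisor (K := K) u hu0
  refine ⟨u, hu0, Du + wr86_E y hy r - (m : ℤ) • Finsupp.single P (1 : ℤ), ?_, ?_, ?_⟩
  · intro v
    simp only [Finsupp.coe_sub, Finsupp.coe_add, Pi.sub_apply, Pi.add_apply, Finsupp.coe_smul,
      Pi.smul_apply, hDu, smul_eq_mul]
    by_cases hv : v = P
    · subst hv
      rw [Finsupp.single_eq_same]
      omega
    · rw [Finsupp.single_apply, if_neg (Ne.symm hv)]
      rcases wr86_mem_ball.mp (wr86_W_le y hy r v huW) with h | h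
      · exact absurd h hu0
      · omega
  · rw [map_sub, map_add, hdeg, wr86_E, map_add, map_nsmul, wr86_degree_polar, map_zsmul,
      Divisor.degree_single, wp1_deg_eq_one y hy P]
    simp
  · intro v
    simp only [Finsupp.coe_sub, Finsupp.coe_add, Pi.sub_apply, Pi.add_apply, Finsupp.coe_smul,
      Pi.smul_apply, hDu, smul_eq_mul]
    ring

/-- **Weak Riemann**: there is a bound `B` such that for all places `P`, `P0` and all `m` there
is a function with divisor `m ([P0] - [P]) + G1 - G2`, `G1, G2 ≥ 0` of degree `≤ B`. -/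
theorem wr86_exists (y : F) (hy : Transcendental K y) [FiniteDimensional K⟮y⟯ F] :
    ∃ B : ℕ, ∀ (P P0 : Place K F) (m : ℕ), ∃ f : F, f ≠ 0 ∧ ∃ G1 G2 : Divisor K F,
      0 ≤ G1 ∧ 0 ≤ G2 ∧ Divisor.degree G1 ≤ B ∧ Divisor.degree G2 ≤ B ∧
      ∀ v : Place K F, v.ord f =
        (m : ℤ) * (Finsupp.single P0 (1 : ℤ) v - Finsupp.single P (1 : ℤ) v) + G1 v - G2 v := by
  classical
  have hdpos : 0 < Module.finrank K⟮y⟯ F := Module.finrank_pos
  have hD0 := wr86_degree_nonneg y hy (wr86_D0_nonneg y hy)
  refine ⟨(Divisor.degree (wr86_D0 y hy)).toNat, fun P P0 m => ?_⟩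
  have hm : m < (m / Module.finrank K⟮y⟯ F + 1) * Module.finrank K⟮y⟯ F := by
    have h1 := Nat.div_add_mod m (Module.finrank K⟮y⟯ F)
    have h2 := Nat.mod_lt m hdpos
    nlinarith
  have hrd : m / Module.finrank K⟮y⟯ F * Module.finrank K⟮y⟯ F ≤ m := Nat.div_mul_le_self m _
  have hrd' : ((m / Module.finrank K⟮y⟯ F : ℕ) : ℤ) * (Module.finrank K⟮y⟯ F : ℤ) ≤ (m : ℤ) := by
    exact_mod_cast hrd
  obtain ⟨u0, hu0, G0, hG0, hdeg0, hord0⟩ := wr86_exists_eff y hy _ m hm P0
  obtain ⟨u1, hu1, G1, hG1, hdeg1, hord1⟩ := wr86_exists_eff y hy _ m hm P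
  refine ⟨u0 * u1⁻¹, mul_ne_zero hu0 (inv_ne_zero hu1), G0, G1, fun v => hG0 v, fun v => hG1 v,
    ?_, ?_, ?_⟩
  · rw [hdeg0, Int.toNat_of_nonneg hD0]; linarith
  · rw [hdeg1, Int.toNat_of_nonneg hD0]; linarith
  · intro v
    rw [v.ord_mul hu0 (inv_ne_zero hu1), v.ord_inv, hord0, hord1]
    ring

omit [IsAlgClosed K] [CharZero K] in
/-- An additive function on divisors is determined by its values on places. -/
theorem wr86_hom_eq_sum (ψ : Divisor K F →+ ℤ) (D : Divisor K F) :
    ψ D = D.sum (fun v n => n * ψ (Finsupp.single v 1)) := by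
  classical
  conv_lhs => rw [← Finsupp.sum_single D]
  rw [map_finsuppSum]
  refine Finsupp.sum_congr (fun v _ => ?_)
  rw [← Finsupp.smul_single_one v (D v), map_zsmul, smul_eq_mul]

omit [CharZero K] in
/-- A function bounded by `C` on places is bounded by `C deg G` on effective divisors. -/
theorem wr86_hom_bound (y : F) (hy : Transcendental K y) [FiniteDimensional K⟮y⟯ F]
    (ψ : Divisor K F →+ ℤ) (C : ℤ) (hC : ∀ P, |ψ (Finsupp.single P 1)| ≤ C)
    {G : Divisor K F} (hG : 0 ≤ G) : |ψ G| ≤ C * Divisor.degree G := by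
  classical
  rw [wr86_degree_eq y hy, wr86_hom_eq_sum ψ G, Finsupp.sum, Finsupp.sum, Finset.mul_sum]
  refine (Finset.abs_sum_le_sum_abs _ _).trans (Finset.sum_le_sum (fun v _ => ?_))
  have hGv : (0 : ℤ) ≤ G v := hG v
  rw [abs_mul, abs_of_nonneg hGv, mul_comm]
  exact mul_le_mul_of_nonneg_right (hC v) hGv

/-- An additive integer valued function on divisors which is bounded on places and kills
principal divisors is constant on places. -/
theorem wr86_hom_const (y : F) (hy : Transcendental K y) [FiniteDimensional K⟮y⟯ F]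
    (ψ : Divisor K F →+ ℤ) (C : ℤ) (hC : ∀ P, |ψ (Finsupp.single P 1)| ≤ C)
    (hprinc : ∀ D ∈ Divisor.principal (K := K) (F := F), ψ D = 0) (P P0 : Place K F) :
    ψ (Finsupp.single P 1) = ψ (Finsupp.single P0 1) := by
  classical
  obtain ⟨B, hB⟩ := wr86_exists y hy
  have hC0 : 0 ≤ C := (abs_nonneg _).trans (hC P)
  by_contra hne
  obtain ⟨f, hf, G1, G2, hG1, hG2, hd1, hd2, hord⟩ := hB P P0 (2 * B * C.toNat + 1)
  have hD : (((2 * B * C.toNat + 1 : ℕ) : ℤ) • (Finsupp.single P0 (1 : ℤ) - Finsupp.single P (1 : ℤ))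
      + G1 - G2 : Divisor K F) ∈ Divisor.principal (K := K) (F := F) := by
    refine ⟨f, hf, fun v => ?_⟩
    simp only [Finsupp.coe_sub, Finsupp.coe_add, Pi.sub_apply, Pi.add_apply, Finsupp.coe_smul,
      Pi.smul_apply, smul_eq_mul]
    exact (hord v).symm
  have h0 := hprinc _ hD
  rw [map_sub, map_add, map_zsmul, map_sub, smul_eq_mul] at h0
  have b1 := abs_le.mp (wr86_hom_bound y hy ψ C hC hG1)
  have b2 := abs_le.mp (wr86_hom_bound y hy ψ C hC hG2)
  have hCB1 : C * Divisor.degree G1 ≤ C * B := mul_le_mul_of_nonneg_left hd1 hC0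
  have hCB2 : C * Divisor.degree G2 ≤ C * B := mul_le_mul_of_nonneg_left hd2 hC0
  have hm : (((2 * B * C.toNat + 1 : ℕ) : ℤ)) = 2 * B * C + 1 := by
    push_cast
    rw [Int.toNat_of_nonneg hC0]
  rw [hm] at h0
  have hBC : (0 : ℤ) ≤ 2 * B * C := by positivity
  rcases lt_or_gt_of_ne hne with hlt | hgt
  · have h1 : ψ (Finsupp.single P0 1) - ψ (Finsupp.single P 1) ≥ 1 := by omega
    nlinarith
  · have h1 : ψ (Finsupp.single P0 1) - ψ (Finsupp.single P 1) ≤ -1 := by omega
    nlinarith

/-- An additive integer valued function on divisors which is bounded on places and kills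
principal divisors kills all divisors of degree `0`. -/
theorem wr86_hom_degZero (y : F) (hy : Transcendental K y) [FiniteDimensional K⟮y⟯ F]
    (ψ : Divisor K F →+ ℤ) (C : ℤ) (hC : ∀ P, |ψ (Finsupp.single P 1)| ≤ C)
    (hprinc : ∀ D ∈ Divisor.principal (K := K) (F := F), ψ D = 0) :
    ∀ D ∈ Divisor.degZero (K := K) (F := F), ψ D = 0 := by
  classical
  intro D hD
  by_cases hne : Nonempty (Place K F)
  · obtain ⟨P0⟩ := hne
    have hconst := fun P => wr86_hom_const y hy ψ C hC hprinc P P0
    have h2 : D.sum (fun v n => n * ψ (Finsupp.single v 1)) =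
        D.sum (fun _ n => n) * ψ (Finsupp.single P0 1) := by
      rw [Finsupp.sum, Finsupp.sum, Finset.sum_mul]
      exact Finset.sum_congr rfl (fun v _ => by rw [hconst v])
    rw [wr86_hom_eq_sum ψ D, h2, ← wr86_degree_eq y hy, Divisor.mem_degZero.mp hD, zero_mul]
  · have h0 : D = 0 := by
      ext v
      exact absurd ⟨v⟩ hne
    rw [h0, map_zero]

/-- `Finsupp.sum` form of `wr86_hom_const`. -/
theorem wr86_const (y : F) (hy : Transcendental K y) [FiniteDimensional K⟮y⟯ F]
    (lam : Place K F → ℤ) (C : ℤ) (hC : ∀ P, |lam P| ≤ C)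
    (hprinc : ∀ D : Divisor K F, D ∈ Divisor.principal (K := K) (F := F) →
      D.sum (fun v n => n * lam v) = 0) (P P0 : Place K F) : lam P = lam P0 := by
  classical
  have h := wr86_hom_const y hy (Finsupp.liftAddHom (fun v => AddMonoidHom.mulRight (lam v))) C
    (fun P => by simpa using hC P)
    (fun D hD => by
      rw [Finsupp.liftAddHom_apply]
      simpa using hprinc D hD) P P0
  simpa using h

/-- **Degree-zero principle**: an additive map from divisors to a free abelian group `Y →₀ ℤ`
whose coefficients are bounded on places and which kills principal divisors kills all divisors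
of degree `0`. -/
theorem wr86_degZero (y : F) (hy : Transcendental K y) [FiniteDimensional K⟮y⟯ F] {Y : Type*}
    (θ : Divisor K F →+ (Y →₀ ℤ))
    (hb : ∀ Q : Y, ∃ C : ℤ, ∀ P : Place K F, |θ (Finsupp.single P 1) Q| ≤ C)
    (hprinc : ∀ D ∈ Divisor.principal (K := K) (F := F), θ D = 0) :
    ∀ D ∈ Divisor.degZero (K := K) (F := F), θ D = 0 := by
  intro D hD
  ext Q
  obtain ⟨C, hC⟩ := hb Q
  have h := wr86_hom_degZero y hy ((Finsupp.applyAddHom Q).comp θ) C
    (fun P => by simpa using hC P)
    (fun D hD => by simp [hprinc D hD]) D hD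
  simpa using h

end wr86_main

end Fermat.Agent.S37
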