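import Mathlib
import Fermat.Prelude.Def_HeckeGalois_EichlerShimura

/-!
# S37 wrapper: `SpecializationExists` from a "kernel of reduction" subgroup

Abstract, reduction-free part of S37.  If for every good prime `ℓ` and valuation subring `A ∣ ℓ`
there are a Frobenius element `φ` at `A` and an additive subgroup `Ks ≤ J` ("classes with trivial
reduction") such that
* inertia acts trivially modulo `Ks`,
* `Ks` is `φ`-stable and any two Frobenius elements agree modulo `Ks`,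
* the Eichler-Shimura relation `φ² - T_ℓ φ + ℓ` maps `J` into `Ks`,
* `Ks` contains no nonzero `p`-power torsion,
then `SpecializationExists N p J`.  No compatibility of `Ks` with the Hecke operators is needed:
we pass to the largest Hecke-stable subgroup of `Ks`.
-/

set_option autoImplicit false

namespace Fermat.Agent.S37

open ModularCurve

section Wrapper

variable {K L : Type*} [Field K] [Field L] [Algebra K L]
variable {J : Type} [AddCommGroup J] [Module HeckeAlg J]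
  [DistribMulAction (L ≃ₐ[K] L) J] [SMulCommClass (L ≃ₐ[K] L) HeckeAlg J]

/-- The largest Hecke-stable subgroup contained in `Ks`. -/
def h14_heckeCore (Ks : AddSubgroup J) : Submodule HeckeAlg J where
  carrier := {x | ∀ T : HeckeAlg, T • x ∈ Ks}
  add_mem' := by
    intro x y hx hy T
    rw [smul_add]
    exact Ks.add_mem (hx T) (hy T)
  zero_mem' := by
    intro T
    rw [smul_zero]
    exact Ks.zero_mem
  smul_mem' := by
    intro c x hx T
    rw [← mul_smul]
    exact hx (T * c)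

theorem h14_mem_heckeCore {Ks : AddSubgroup J} {x : J} :
    x ∈ h14_heckeCore Ks ↔ ∀ T : HeckeAlg, T • x ∈ Ks := Iff.rfl

theorem h14_heckeCore_le {Ks : AddSubgroup J} {x : J} (hx : x ∈ h14_heckeCore Ks) : x ∈ Ks := by
  have := hx 1
  rwa [one_smul] at this

/-- The Galois element `φ` as a Hecke-linear endomorphism of `J`. -/
def h14_galLin (φ : L ≃ₐ[K] L) : J →ₗ[HeckeAlg] J where
  toFun x := φ • x
  map_add' x y := smul_add φ x y
  map_smul' T x := smul_comm φ T x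

@[simp] theorem h14_galLin_apply (φ : L ≃ₐ[K] L) (x : J) : h14_galLin φ x = φ • x := rfl

theorem h14_galLin_mem {Ks : AddSubgroup J} {φ : L ≃ₐ[K] L} (hφ : ∀ x ∈ Ks, φ • x ∈ Ks) :
    h14_heckeCore Ks ≤ (h14_heckeCore Ks).comap (h14_galLin φ) := by
  intro x hx
  rw [Submodule.mem_comap, h14_mem_heckeCore]
  intro T
  rw [h14_galLin_apply, ← smul_comm φ T x]
  exact hφ _ (hx T)

/-- One prime: the specialization datum from a good subgroup `Ks` and a Frobenius element `φ`. -/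
theorem h14_exists_specialization (p : ℕ) (A : ValuationSubring L) (ℓ : ℕ) (hℓ : ℓ.Prime)
    (Ks : AddSubgroup J) (φ : L ≃ₐ[K] L)
    (hin : ∀ σ ∈ A.inertiaSubgroupIn K, ∀ x : J, σ • x - x ∈ Ks)
    (hφ : ∀ x ∈ Ks, φ • x ∈ Ks)
    (hfr : ∀ σ : L ≃ₐ[K] L, A.IsFrobeniusAt σ ℓ → ∀ x : J, σ • x - φ • x ∈ Ks)
    (hES : ∀ x : J, φ • φ • x - heckeGen ⟨ℓ, hℓ⟩ • (φ • x) + ℓ • x ∈ Ks)
    (htors : ∀ x ∈ Ks, (∃ n : ℕ, p ^ n • x = 0) → x = 0) :
    ∃ (J' : Type) (_ : AddCommGroup J') (_ : Module HeckeAlg J') (sp : J →+ J')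
      (F : J' →+ J'),
      IsSpecialization (K := K) p J J' A ℓ sp F ∧ SpecialFibreRelation J' ℓ hℓ F := by
  refine ⟨J ⧸ h14_heckeCore Ks, inferInstance, inferInstance,
    (h14_heckeCore Ks).mkQ.toAddMonoidHom,
    ((h14_heckeCore Ks).mapQ (h14_heckeCore Ks) (h14_galLin φ) (h14_galLin_mem hφ)).toAddMonoidHom,
    ⟨?_, ?_, ?_, ?_⟩, ?_⟩
  · intro T x
    exact map_smul (h14_heckeCore Ks).mkQ T x
  · intro σ hσ x
    show (h14_heckeCore Ks).mkQ (σ • x) = (h14_heckeCore Ks).mkQ x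
    rw [← sub_eq_zero, ← map_sub, Submodule.mkQ_apply, Submodule.Quotient.mk_eq_zero,
      h14_mem_heckeCore]
    intro T
    rw [smul_sub, ← smul_comm σ T x]
    exact hin σ hσ (T • x)
  · intro σ hσ x
    show (h14_heckeCore Ks).mkQ (σ • x) =
      (h14_heckeCore Ks).mapQ (h14_heckeCore Ks) (h14_galLin φ) (h14_galLin_mem hφ)
        ((h14_heckeCore Ks).mkQ x)
    rw [Submodule.mkQ_apply, Submodule.mkQ_apply, Submodule.mapQ_apply, h14_galLin_apply,
      ← sub_eq_zero, ← Submodule.Quotient.mk_sub, Submodule.Quotient.mk_eq_zero,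
      h14_mem_heckeCore]
    intro T
    rw [smul_sub, ← smul_comm σ T x, ← smul_comm φ T x]
    exact hfr σ hσ (T • x)
  · intro x hx hsp
    have hmem : x ∈ h14_heckeCore Ks := by
      have h0 : (h14_heckeCore Ks).mkQ x = 0 := hsp
      rwa [Submodule.mkQ_apply, Submodule.Quotient.mk_eq_zero] at h0
    exact htors x (h14_heckeCore_le hmem) hx
  · intro y
    obtain ⟨x, rfl⟩ := Submodule.Quotient.mk_surjective (h14_heckeCore Ks) y
    show (h14_heckeCore Ks).mapQ (h14_heckeCore Ks) (h14_galLin φ) (h14_galLin_mem hφ)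
          ((h14_heckeCore Ks).mapQ (h14_heckeCore Ks) (h14_galLin φ) (h14_galLin_mem hφ)
            (Submodule.Quotient.mk x))
        - heckeGen ⟨ℓ, hℓ⟩ •
          (h14_heckeCore Ks).mapQ (h14_heckeCore Ks) (h14_galLin φ) (h14_galLin_mem hφ)
            (Submodule.Quotient.mk x)
        + ℓ • (Submodule.Quotient.mk x : J ⧸ h14_heckeCore Ks) = 0
    rw [Submodule.mapQ_apply, Submodule.mapQ_apply, h14_galLin_apply, h14_galLin_apply,
      ← Submodule.Quotient.mk_smul, ← Submodule.Quotient.mk_sub]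
    have hnat : ℓ • (Submodule.Quotient.mk x : J ⧸ h14_heckeCore Ks)
        = Submodule.Quotient.mk (ℓ • x) := by
      rw [← Submodule.mkQ_apply, ← Submodule.mkQ_apply, map_nsmul]
    rw [hnat, ← Submodule.Quotient.mk_add, Submodule.Quotient.mk_eq_zero, h14_mem_heckeCore]
    intro T
    have h1 : T • (φ • φ • x - heckeGen ⟨ℓ, hℓ⟩ • (φ • x) + ℓ • x)
        = φ • φ • (T • x) - heckeGen ⟨ℓ, hℓ⟩ • (φ • (T • x)) + ℓ • (T • x) := by
      rw [smul_add, smul_sub, ← smul_comm φ T (φ • x), ← smul_comm φ T x,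
        smul_comm T (heckeGen ⟨ℓ, hℓ⟩) (φ • x), ← smul_comm φ T x, smul_comm T ℓ x]
    rw [h1]
    exact hES (T • x)

/-- **S37 wrapper.** -/
theorem specializationExists_of_key (N p : ℕ)
    (h : ∀ (ℓ : ℕ) (hℓ : ℓ.Prime), ¬ ℓ ∣ N * p → ∀ A : ValuationSubring L, A.LiesOverPrime ℓ →
      ∃ (Ks : AddSubgroup J) (φ : L ≃ₐ[K] L),
        (∀ σ ∈ A.inertiaSubgroupIn K, ∀ x : J, σ • x - x ∈ Ks) ∧
        (∀ x ∈ Ks, φ • x ∈ Ks) ∧
        (∀ σ : L ≃ₐ[K] L, A.IsFrobeniusAt σ ℓ → ∀ x : J, σ • x - φ • x ∈ Ks) ∧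
        (∀ x : J, φ • φ • x - heckeGen ⟨ℓ, hℓ⟩ • (φ • x) + ℓ • x ∈ Ks) ∧
        (∀ x ∈ Ks, (∃ n : ℕ, p ^ n • x = 0) → x = 0)) :
    SpecializationExists (K := K) (L := L) N p J := by
  intro ℓ hℓ hℓN A hA
  obtain ⟨Ks, φ, hin, hφ, hfr, hES, htors⟩ := h ℓ hℓ hℓN A hA
  exact h14_exists_specialization p A ℓ hℓ Ks φ hin hφ hfr hES htors

end Wrapper

end Fermat.Agent.S37
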